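import Mathlib
import Fermat.Agent.SS.RETR_helper1_Horiz
import Fermat.Agent.SS.NODEALG_helper5_Smooth
import Fermat.Agent.JA.ES_helper4_Value

/-!
# Project MW (S17) — [N-ADIC] helper6, [LOC-S]: the explicit local factorisation at a smooth closed
point of the special fibre, in the language of places

`R₁` a discrete valuation ring with uniformizer `ϖ`, `K₁ = Frac R₁`, `E / K₁` a function field,
`O ⊂ E` the local ring of the normal model at a closed point of the special fibre through which a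
single component passes: `𝔪_O = (z, ϖ)`, `(ϖ)` prime.  The *cell* of `O` is the set of places `P` of
`E / K₁` with `O ⊂ O_P`.  For a function `f ≠ 0` all of whose zeros and poles in the cell are
rational places (`T`), `f = ϖ^a · u · ∏_{P ∈ T} (z - z(P))^{ord_P f}` with `u ∈ Oˣ`
(`exists_smooth_factorisation`), hence the value formula `hasValueAt_of_smooth` at every rational
place `Q` of the cell.
-/

set_option autoImplicit false
set_option linter.unusedSectionVars false
set_option linter.style.haveILetI false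

open AlgebraicCurve IsLocalRing

namespace Fermat.Agent.MW.NAdic

open Fermat.Agent.SS Fermat.Agent.JA Fermat.Agent.FF

section Cell

variable {R₁ : Type*} [CommRing R₁] [IsDomain R₁] [IsDiscreteValuationRing R₁]
  {K₁ : Type*} [Field K₁] [Algebra R₁ K₁] [IsFractionRing R₁ K₁]
  {E : Type*} [Field E] [Algebra K₁ E] [Algebra R₁ E] [IsScalarTower R₁ K₁ E]
  (O : Type*) [CommRing O] [IsDomain O] [IsLocalRing O] [IsNoetherianRing O]
  [IsIntegrallyClosed O] [Algebra R₁ O] [Algebra O E] [IsScalarTower R₁ O E] [IsFractionRing O E]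

/-- the place `P` lies in the cell of the local ring `O`: `O ⊂ O_P`. -/
abbrev InCell (P : Place K₁ E) : Prop := ∀ x : O, algebraMap O E x ∈ P.toValuationSubring

variable {O}

/-- the value of `x ∈ O` at a place of the cell, in `R₁`. -/
def IsValAt (P : Place K₁ E) (hP : InCell O P) (x : O) (r : R₁) : Prop :=
  x - algebraMap R₁ O r ∈ centreIdeal P hP

theorem IsValAt.hasValueAt {P : Place K₁ E} {hP : InCell O P} {x : O} {r : R₁}
    (h : IsValAt P hP x r) : HasValueAt P (algebraMap O E x) (algebraMap R₁ K₁ r) := by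
  unfold IsValAt at h
  rw [mem_centreIdeal_iff, map_sub, ← IsScalarTower.algebraMap_apply,
    IsScalarTower.algebraMap_apply R₁ K₁ E] at h
  exact HasValueAt.iff_ord.mpr h


/-! ### the retraction of a rational place of the cell -/

section Retr

variable {P : Place K₁ E} (hP : InCell O P) {ϖ : R₁} (hϖ : Irreducible ϖ)
  (hϖO : algebraMap R₁ O ϖ ∈ maximalIdeal O) (hrat : IsRationalPlace P)

/-- the retraction of `O` attached to a rational place of the cell. -/
noncomputable def retr : O →ₐ[R₁] R₁ := placeRetraction P hP hϖ hϖO hrat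

theorem ker_retr : RingHom.ker (retr hP hϖ hϖO hrat : O →+* R₁) = centreIdeal P hP :=
  ker_placeRetraction P hP hϖ hϖO hrat

theorem retr_eq_iff (x : O) (r : R₁) : retr hP hϖ hϖO hrat x = r ↔ IsValAt P hP x r :=
  placeRetraction_eq_iff P hP hϖ hϖO hrat x r

theorem isValAt_retr (x : O) : IsValAt P hP x (retr hP hϖ hϖO hrat x) :=
  (retr_eq_iff hP hϖ hϖO hrat x _).mp rfl

include hϖ hϖO hrat in
theorem exists_isValAt (x : O) : ∃ r : R₁, IsValAt P hP x r :=
  ⟨_, isValAt_retr hP hϖ hϖO hrat x⟩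

include hϖ hϖO hrat in
theorem IsValAt.unique {x : O} {r r' : R₁} (h : IsValAt P hP x r) (h' : IsValAt P hP x r') :
    r = r' := by
  rw [← (retr_eq_iff hP hϖ hϖO hrat x r).mpr h, ← (retr_eq_iff hP hϖ hϖO hrat x r').mpr h']

end Retr

/-- the image of `ϖ` in `O` is not zero. -/
theorem algebraMap_ne_zero_of_irreducible {R₁ : Type*} [CommRing R₁] (K₁ : Type*) [Field K₁]
    [Algebra R₁ K₁] [IsFractionRing R₁ K₁] (E : Type*) [Field E] [Algebra K₁ E] [Algebra R₁ E]
    [IsScalarTower R₁ K₁ E] {O : Type*} [CommRing O] [Algebra R₁ O] [Algebra O E]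
    [IsScalarTower R₁ O E] {ϖ : R₁} (hϖ : ϖ ≠ 0) :
    algebraMap R₁ O ϖ ≠ 0 := by
  intro h0
  have h1 : algebraMap R₁ E ϖ = 0 := by
    rw [IsScalarTower.algebraMap_apply R₁ O E, h0, map_zero]
  rw [IsScalarTower.algebraMap_apply R₁ K₁ E, map_eq_zero,
    map_eq_zero_iff _ (IsFractionRing.injective R₁ K₁)] at h1
  exact hϖ h1

/-! ### smooth points -/

section Smooth

variable {ϖ : R₁} (hϖ : Irreducible ϖ) {z : O}
  (hmax : maximalIdeal O = Ideal.span {z, algebraMap R₁ O ϖ})
  (hz : z ∉ Ideal.span {algebraMap R₁ O ϖ})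

include hmax in
theorem pi_mem_of_smooth : algebraMap R₁ O ϖ ∈ maximalIdeal O := by
  rw [hmax]; exact Ideal.subset_span (by simp)

include hmax in
theorem z_mem_of_smooth : z ∈ maximalIdeal O := by
  rw [hmax]; exact Ideal.subset_span (by simp)

include hϖ hmax hz in
/-- the centred coordinate at a rational place of the cell of a smooth point: it lies in the centre,
is not zero, generates the centre locally. -/
theorem smooth_centre {P : Place K₁ E} (hP : InCell O P) (hrat : IsRationalPlace P) {ζ : R₁}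
    (hζ : IsValAt P hP z ζ) :
    z - algebraMap R₁ O ζ ∈ centreIdeal P hP ∧ z - algebraMap R₁ O ζ ≠ 0 ∧
      (∀ w ∈ centreIdeal P hP, ∃ s : O, s ∉ centreIdeal P hP ∧
        (z - algebraMap R₁ O ζ) ∣ s * w) ∧
      algebraMap R₁ O ζ ∈ Ideal.span {algebraMap R₁ O ϖ} := by
  have hϖO := pi_mem_of_smooth hmax
  have hzm := z_mem_of_smooth hmax
  have hρ : retr hP hϖ hϖO hrat z = ζ := (retr_eq_iff hP hϖ hϖO hrat z ζ).mpr hζ
  have hspan : algebraMap R₁ O ζ ∈ Ideal.span {algebraMap R₁ O ϖ} := by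
    rw [← hρ]
    exact algebraMap_retraction_mem_span hϖ (retr hP hϖ hϖO hrat) hzm
  refine ⟨hζ, ?_, ?_, hspan⟩
  · intro h0
    apply hz
    rw [sub_eq_zero] at h0
    rw [h0]
    exact hspan
  · have h1 := locally_principal_ker_of_smooth hϖ hmax (retr hP hϖ hϖO hrat)
    rw [ker_retr, hρ] at h1
    exact h1

include hϖ hmax hz in
/-- the order of the centred coordinate at a rational place of the cell of a smooth point is `1`. -/
theorem ord_smooth_coord {P : Place K₁ E} (hP : InCell O P) (hrat : IsRationalPlace P) {ζ : R₁}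
    (hζ : IsValAt P hP z ζ) : P.ord (algebraMap O E (z - algebraMap R₁ O ζ)) = 1 := by
  obtain ⟨h1, h2, h3, -⟩ := smooth_centre hϖ hmax hz hP hrat hζ
  exact (ord_eq_of_isUnitAtPrime P hP h1 h2 h3).1

include hϖ hmax hz in
/-- two rational places of the cell of a smooth point with the same value of the coordinate
coincide. -/
theorem eq_of_isValAt_smooth {P P' : Place K₁ E} (hP : InCell O P) (hP' : InCell O P')
    (hrat : IsRationalPlace P) (hrat' : IsRationalPlace P') {ζ : R₁}
    (hζ : IsValAt P hP z ζ) (hζ' : IsValAt P' hP' z ζ) : P = P' := by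
  have hϖO := pi_mem_of_smooth hmax
  obtain ⟨h1, h2, h3, -⟩ := smooth_centre hϖ hmax hz hP hrat hζ
  refine place_eq_of_centreIdeal_eq P hP P' hP' ?_ h1 h2 h3
  have hρ : retr hP hϖ hϖO hrat z = ζ := (retr_eq_iff hP hϖ hϖO hrat z ζ).mpr hζ
  have hρ' : retr hP' hϖ hϖO hrat' z = ζ := (retr_eq_iff hP' hϖ hϖO hrat' z ζ).mpr hζ'
  rw [← ker_retr hP hϖ hϖO hrat, ← ker_retr hP' hϖ hϖO hrat',
    ker_retraction_eq_of_smooth hϖ hmax, ker_retraction_eq_of_smooth hϖ hmax, hρ, hρ']

end Smooth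


section SmoothFact

variable {ϖ : R₁} (hϖ : Irreducible ϖ) {z : O}
  (hmax : maximalIdeal O = Ideal.span {z, algebraMap R₁ O ϖ})
  (hz : z ∉ Ideal.span {algebraMap R₁ O ϖ})

include hϖ hmax hz in
/-- the centred coordinate of a rational place `P'` of the cell is a unit at the centre of every
other place of the cell. -/
theorem smooth_coord_notMem {P P' : Place K₁ E} (hP : InCell O P) (hP' : InCell O P')
    (hrat' : IsRationalPlace P') {ζ' : R₁} (hζ' : IsValAt P' hP' z ζ') (hne : P ≠ P')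
    (hπ𝔮 : algebraMap R₁ O ϖ ∉ centreIdeal P hP) :
    z - algebraMap R₁ O ζ' ∉ centreIdeal P hP := by
  intro hmem
  have hϖO := pi_mem_of_smooth hmax
  obtain ⟨h1, h2, h3, -⟩ := smooth_centre hϖ hmax hz hP' hrat' hζ'
  have hρ' : retr hP' hϖ hϖO hrat' z = ζ' := (retr_eq_iff hP' hϖ hϖO hrat' z ζ').mpr hζ'
  have hmem' : z - algebraMap R₁ O (retr hP' hϖ hϖO hrat' z) ∈ centreIdeal P hP := by
    rw [hρ']; exact hmem
  have heq := eq_ker_of_sub_mem_of_smooth hϖ hmax (retr hP' hϖ hϖO hrat') (centreIdeal P hP)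
    hπ𝔮 hmem'
  rw [ker_retr] at heq
  exact hne (place_eq_of_centreIdeal_eq P' hP' P hP heq h1 h2 h3).symm

include hϖ hmax hz in
/-- **the explicit local factorisation at a smooth point**: `f = ϖ^a · u · ∏ (z - z(P))^{ord_P f}`,
the product over the zeros and poles of `f` in the cell (all rational), `a` the order of `f` along
the component. -/
theorem exists_smooth_factorisation
    (hprime : (Ideal.span {algebraMap R₁ O ϖ} : Ideal O).IsPrime)
    {f : E} (hf : f ≠ 0) (T : Finset (Place K₁ E))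
    (hT : ∀ P ∈ T, InCell O P) (hrat : ∀ P ∈ T, IsRationalPlace P)
    (hfT : ∀ P : Place K₁ E, InCell O P → P.ord f ≠ 0 → P ∈ T)
    (ζ : Place K₁ E → R₁) (hζ : ∀ P (hP : P ∈ T), IsValAt P (hT P hP) z (ζ P))
    (a : ℤ) (hfπ : IsUnitAtPrime (Ideal.span {algebraMap R₁ O ϖ})
      (f * (algebraMap O E (algebraMap R₁ O ϖ) ^ a)⁻¹)) :
    ∃ u : Oˣ, f = algebraMap O E (algebraMap R₁ O ϖ) ^ a * algebraMap O E (u : O) *
      ∏ P ∈ T, algebraMap O E (z - algebraMap R₁ O (ζ P)) ^ (P.ord f) := by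
  classical
  have hϖO := pi_mem_of_smooth hmax
  set π : O := algebraMap R₁ O ϖ with hπ
  have hπne : π ≠ 0 := algebraMap_ne_zero_of_irreducible K₁ E hϖ.ne_zero
  have hinj : Function.Injective (algebraMap O E) := IsFractionRing.injective O E
  have hπE : algebraMap O E π ≠ 0 := (map_ne_zero_iff _ hinj).mpr hπne
  have hfac0 : ∀ P ∈ T, algebraMap O E (z - algebraMap R₁ O (ζ P)) ≠ 0 := fun P hP =>
    (map_ne_zero_iff _ hinj).mpr
      (smooth_centre hϖ hmax hz (hT P hP) (hrat P hP) (hζ P hP)).2.1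
  set Pr : E := ∏ P ∈ T, algebraMap O E (z - algebraMap R₁ O (ζ P)) ^ (P.ord f) with hPr
  have hPr0 : Pr ≠ 0 := Finset.prod_ne_zero_iff.mpr (fun P hP => zpow_ne_zero _ (hfac0 P hP))
  set G : E := f * Pr⁻¹ * (algebraMap O E π ^ a)⁻¹ with hG
  have hG0 : G ≠ 0 :=
    mul_ne_zero (mul_ne_zero hf (inv_ne_zero hPr0)) (inv_ne_zero (zpow_ne_zero _ hπE))
  have hGunit : ∀ 𝔮 : Ideal O, 𝔮.IsPrime → 𝔮.height = 1 → IsUnitAtPrime 𝔮 G := by
    intro 𝔮 h𝔮 hh
    by_cases hπ𝔮 : π ∈ 𝔮
    · have hle : Ideal.span {π} ≤ 𝔮 := by rw [Ideal.span_le]; rintro w rfl; exact hπ𝔮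
      have hne : (Ideal.span {π} : Ideal O) ≠ ⊥ := by
        rw [Ne, Ideal.span_singleton_eq_bot]; exact hπne
      haveI : (Ideal.span {π} : Ideal O).IsPrime := hprime
      have heq : Ideal.span {π} = 𝔮 := eq_of_le_of_height_eq_one hle hne hh
      subst heq
      have h1 : IsUnitAtPrime (Ideal.span {π}) Pr := by
        refine isUnitAtPrime_prod T _ (fun P hP => (isUnitAtPrime_algebraMap ?_).zpow _)
        intro hmem
        apply hz
        have h2 := (smooth_centre hϖ hmax hz (hT P hP) (hrat P hP) (hζ P hP)).2.2.2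
        have := (Ideal.span {π}).add_mem hmem h2
        simpa using this
      have : G = (f * (algebraMap O E π ^ a)⁻¹) * Pr⁻¹ := by rw [hG]; ring
      rw [this]
      exact hfπ.mul h1.inv
    · obtain ⟨P, hO, hc⟩ := exists_place_centreIdeal_eq (K₁ := K₁) (E := E) hϖ 𝔮 hh hπ𝔮
      have hπP : algebraMap R₁ O ϖ ∉ centreIdeal P hO := by rw [hc]; exact hπ𝔮
      have hπunit : IsUnitAtPrime 𝔮 (algebraMap O E π ^ a) :=
        (isUnitAtPrime_algebraMap hπ𝔮).zpow _
      have hfacunit : ∀ P' ∈ T, P ≠ P' →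
          IsUnitAtPrime 𝔮 (algebraMap O E (z - algebraMap R₁ O (ζ P')) ^ (P'.ord f)) := by
        intro P' hP' hne
        refine (isUnitAtPrime_algebraMap ?_).zpow _
        rw [← hc]
        exact smooth_coord_notMem hϖ hmax hz hO (hT P' hP') (hrat P' hP') (hζ P' hP') hne hπP
      rw [hG]
      refine IsUnitAtPrime.mul ?_ hπunit.inv
      by_cases hPT : P ∈ T
      · rw [hPr, ← Finset.mul_prod_erase T _ hPT, mul_inv, ← mul_assoc]
        refine IsUnitAtPrime.mul ?_ (IsUnitAtPrime.inv ?_)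
        · obtain ⟨h1, h2, h3, -⟩ := smooth_centre hϖ hmax hz hO (hrat P hPT) (hζ P hPT)
          have hne0 : f * (algebraMap O E (z - algebraMap R₁ O (ζ P)) ^ P.ord f)⁻¹ ≠ 0 :=
            mul_ne_zero hf (inv_ne_zero (zpow_ne_zero _ (hfac0 P hPT)))
          rw [← hc]
          refine (isUnitAtPrime_iff_ord_eq_zero P hO h1 h2 h3 hne0).mpr ?_
          rw [P.ord_mul hf (inv_ne_zero (zpow_ne_zero _ (hfac0 P hPT))), Place.ord_inv,
            Place.ord_zpow, (ord_eq_of_isUnitAtPrime P hO h1 h2 h3).1]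
          ring
        · refine isUnitAtPrime_prod _ _ (fun P' hP' => ?_)
          exact hfacunit P' (Finset.mem_of_mem_erase hP') (Finset.ne_of_mem_erase hP').symm
      · have hord : P.ord f = 0 := by
          by_contra hne
          exact hPT (hfT P hO hne)
        have hfu : IsUnitAtPrime 𝔮 f := by
          have := isUnitAtPrime_of_ord_eq_zero_of_height_eq_one P hO (by rw [hc]; exact hh) hf hord
          rwa [hc] at this
        refine hfu.mul (IsUnitAtPrime.inv ?_)
        refine isUnitAtPrime_prod _ _ (fun P' hP' => hfacunit P' hP' ?_)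
        rintro rfl
        exact hPT hP'
  obtain ⟨u, hu⟩ := exists_unit_of_forall_height_one (R := O) G hG0 hGunit
  refine ⟨u, ?_⟩
  rw [hu, hG]
  have h1 : algebraMap O E π ^ a ≠ 0 := zpow_ne_zero _ hπE
  field_simp


/-- integer powers of a function with a nonzero value. -/
theorem hasValueAt_zpow {K F : Type*} [Field K] [Field F] [Algebra K F] {P : Place K F} {g : F}
    {c : K} (h : HasValueAt P g c) (hc : c ≠ 0) (n : ℤ) : HasValueAt P (g ^ n) (c ^ n) := by
  cases n with
  | ofNat n => simpa using h.pow n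
  | negSucc n =>
    rw [zpow_negSucc, zpow_negSucc]
    exact (h.pow (n + 1)).inv (pow_ne_zero _ hc)

include hϖ hmax hz in
/-- **the value formula at a smooth point**: at a rational place `Q` of the cell,
`(f / (z - z(Q))^{ord_Q f})(Q) = ϖ^a · unit · ∏_{P ≠ Q} (z(Q) - z(P))^{ord_P f}`. -/
theorem hasValueAt_of_smooth [DecidableEq (Place K₁ E)]
    (hprime : (Ideal.span {algebraMap R₁ O ϖ} : Ideal O).IsPrime)
    {f : E} (hf : f ≠ 0) (T : Finset (Place K₁ E))
    (hT : ∀ P ∈ T, InCell O P) (hrat : ∀ P ∈ T, IsRationalPlace P)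
    (hfT : ∀ P : Place K₁ E, InCell O P → P.ord f ≠ 0 → P ∈ T)
    (ζ : Place K₁ E → R₁) (hζ : ∀ P (hP : P ∈ T), IsValAt P (hT P hP) z (ζ P))
    (a : ℤ) (hfπ : IsUnitAtPrime (Ideal.span {algebraMap R₁ O ϖ})
      (f * (algebraMap O E (algebraMap R₁ O ϖ) ^ a)⁻¹))
    {Q : Place K₁ E} (hQ : InCell O Q) (hQrat : IsRationalPlace Q)
    (hζQ : IsValAt Q hQ z (ζ Q)) :
    ∃ w : R₁ˣ, HasValueAt Q
      (f * (algebraMap O E (z - algebraMap R₁ O (ζ Q)) ^ (Q.ord f))⁻¹)
      (algebraMap R₁ K₁ ϖ ^ a * algebraMap R₁ K₁ (w : R₁) *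
        ∏ P ∈ T.erase Q, (algebraMap R₁ K₁ (ζ Q) - algebraMap R₁ K₁ (ζ P)) ^ (P.ord f)) := by
  have hϖO := pi_mem_of_smooth hmax
  obtain ⟨u, hu⟩ := exists_smooth_factorisation hϖ hmax hz hprime hf T hT hrat hfT ζ hζ a hfπ
  have hinj : Function.Injective (algebraMap O E) := IsFractionRing.injective O E
  have hzQ0 : algebraMap O E (z - algebraMap R₁ O (ζ Q)) ≠ 0 :=
    (map_ne_zero_iff _ hinj).mpr (smooth_centre hϖ hmax hz hQ hQrat hζQ).2.1
  -- the function without the factor at `Q`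
  have hfac : f * (algebraMap O E (z - algebraMap R₁ O (ζ Q)) ^ (Q.ord f))⁻¹ =
      algebraMap O E (algebraMap R₁ O ϖ) ^ a * algebraMap O E (u : O) *
        ∏ P ∈ T.erase Q, algebraMap O E (z - algebraMap R₁ O (ζ P)) ^ (P.ord f) := by
    by_cases hQT : Q ∈ T
    · nth_rewrite 1 [hu]
      rw [← Finset.mul_prod_erase T _ hQT]
      have := zpow_ne_zero (Q.ord f) hzQ0
      field_simp
    · have hord : Q.ord f = 0 := by
        by_contra hne
        exact hQT (hfT Q hQ hne)
      rw [hord, zpow_zero, inv_one, mul_one, Finset.erase_eq_of_notMem hQT]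
      exact hu
  rw [hfac]
  set ρ := retr hQ hϖ hϖO hQrat with hρ
  have hρu : IsUnit (ρ (u : O)) := u.isUnit.map ρ
  refine ⟨hρu.unit, ?_⟩
  refine HasValueAt.mul (HasValueAt.mul ?_ ?_) (HasValueAt.prod _ _ _ (fun P hP => ?_))
  · have hϖK : algebraMap R₁ K₁ ϖ ≠ 0 :=
      (map_ne_zero_iff _ (IsFractionRing.injective R₁ K₁)).mpr hϖ.ne_zero
    refine hasValueAt_zpow ?_ hϖK a
    rw [← IsScalarTower.algebraMap_apply R₁ O E, IsScalarTower.algebraMap_apply R₁ K₁ E]
    exact HasValueAt.algebraMap' Q _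
  · exact (isValAt_retr hQ hϖ hϖO hQrat (u : O)).hasValueAt
  · have hPT := Finset.mem_of_mem_erase hP
    have hne : P ≠ Q := Finset.ne_of_mem_erase hP
    have hval : HasValueAt Q (algebraMap O E (z - algebraMap R₁ O (ζ P)))
        (algebraMap R₁ K₁ (ζ Q) - algebraMap R₁ K₁ (ζ P)) := by
      rw [map_sub]
      refine hζQ.hasValueAt.sub ?_
      rw [← IsScalarTower.algebraMap_apply R₁ O E, IsScalarTower.algebraMap_apply R₁ K₁ E]
      exact HasValueAt.algebraMap' Q _
    refine hasValueAt_zpow hval ?_ _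
    rw [sub_ne_zero]
    intro heq
    have heq' : ζ Q = ζ P := IsFractionRing.injective R₁ K₁ heq
    apply hne
    have hζP := hζ P hPT
    rw [← heq'] at hζP
    exact eq_of_isValAt_smooth hϖ hmax hz (hT P hPT) hQ (hrat P hPT) hQrat hζP hζQ

end SmoothFact

end Cell

end Fermat.Agent.MW.NAdic
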