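import Mathlib
import Fermat.Agent.MW.NADIC_helper6_LocS
import Fermat.Agent.S35.RED_helper5_Node

/-!
# Project MW (S17) — [N-ADIC] helper6, [LOC-N]: the explicit local factorisation at a node of the
special fibre, in the language of places

`O` the local ring of the normal model at a node in normal form `x y = ϖ^m r` (`IsNodePair`).
For `f ≠ 0` all of whose zeros and poles in the cell (`T`) are rational,
`f = ϖ^a · x^k · u · ∏_{P ∈ T} (x - x(P))^{ord_P f}` (`exists_node_factorisation`), `a` the order of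
`f` along the branch `Pinf`; the order of `f` along the branch `P0` is
`a + k m + Σ_P ord_P f · v(x(P))` (`isUnitAtPrime_P0_of_node`), and the value formula
`hasValueAt_of_node`.
-/

set_option autoImplicit false
set_option linter.unusedSectionVars false
set_option linter.style.haveILetI false

open AlgebraicCurve IsLocalRing

namespace Fermat.Agent.MW.NAdic

open Fermat.Agent.SS Fermat.Agent.JA Fermat.Agent.FF

section Node

variable {R₁ : Type*} [CommRing R₁] [IsDomain R₁] [IsDiscreteValuationRing R₁]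
  {K₁ : Type*} [Field K₁] [Algebra R₁ K₁] [IsFractionRing R₁ K₁]
  {E : Type*} [Field E] [Algebra K₁ E] [Algebra R₁ E] [IsScalarTower R₁ K₁ E]
  {O : Type*} [CommRing O] [IsDomain O] [IsLocalRing O] [IsNoetherianRing O]
  [IsIntegrallyClosed O] [Algebra R₁ O] [Algebra O E] [IsScalarTower R₁ O E] [IsFractionRing O E]

variable {ϖ : R₁} (hϖ : Irreducible ϖ) {P0 Pinf : Ideal O} [hP0 : P0.IsPrime]
  [hPinf : Pinf.IsPrime] {x y r : O} {m : ℕ} (hnode : IsNodePair P0 Pinf x y)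
  (hπ0 : algebraMap R₁ O ϖ ∈ P0) (hπinf : algebraMap R₁ O ϖ ∈ Pinf)
  (hinf : P0 ⊓ Pinf ≤ Ideal.span {algebraMap R₁ O ϖ})
  (hxy : x * y = algebraMap R₁ O ϖ ^ m * r) (hr : IsUnit r)

include hπ0 in
theorem pi_mem_of_node : algebraMap R₁ O ϖ ∈ maximalIdeal O :=
  le_maximalIdeal hP0.ne_top hπ0

include hnode in
theorem x_mem_of_node : x ∈ maximalIdeal O := le_maximalIdeal hP0.ne_top hnode.x_mem

include hnode in
theorem y_mem_of_node : y ∈ maximalIdeal O := le_maximalIdeal hPinf.ne_top hnode.y_mem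

include hϖ hnode hπ0 hπinf hinf hxy hr in
/-- the centred coordinate at a rational place of the cell of a node. -/
theorem node_centre {P : Place K₁ E} (hP : InCell O P) (hrat : IsRationalPlace P) {ξ : R₁}
    (hξ : IsValAt P hP x ξ) :
    x - algebraMap R₁ O ξ ∈ centreIdeal P hP ∧ x - algebraMap R₁ O ξ ≠ 0 ∧
      (∀ w ∈ centreIdeal P hP, ∃ s : O, s ∉ centreIdeal P hP ∧
        (x - algebraMap R₁ O ξ) ∣ s * w) ∧
      algebraMap R₁ O ξ ∈ Ideal.span {algebraMap R₁ O ϖ} := by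
  have hϖO := pi_mem_of_node (hP0 := hP0) hπ0
  have hmax := hnode.maximalIdeal_eq hπ0 hinf
  have hρ : retr hP hϖ hϖO hrat x = ξ := (retr_eq_iff hP hϖ hϖO hrat x ξ).mpr hξ
  have hspan : algebraMap R₁ O ξ ∈ Ideal.span {algebraMap R₁ O ϖ} := by
    rw [← hρ]
    exact algebraMap_retraction_mem_span hϖ (retr hP hϖ hϖO hrat) (x_mem_of_node hnode)
  refine ⟨hξ, ?_, ?_, hspan⟩
  · intro h0
    apply hnode.x_notMem
    rw [sub_eq_zero] at h0
    rw [h0]
    exact (Ideal.span_le.mpr (by simpa using hπinf)) hspan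
  · have h1 := locally_principal_ker_of_node hϖ hmax hxy hr (retr hP hϖ hϖO hrat)
    rw [ker_retr, hρ] at h1
    exact h1

include hϖ hnode hπ0 hπinf hinf hxy hr in
theorem ord_node_coord {P : Place K₁ E} (hP : InCell O P) (hrat : IsRationalPlace P) {ξ : R₁}
    (hξ : IsValAt P hP x ξ) : P.ord (algebraMap O E (x - algebraMap R₁ O ξ)) = 1 := by
  obtain ⟨h1, h2, h3, -⟩ := node_centre hϖ hnode hπ0 hπinf hinf hxy hr hP hrat hξ
  exact (ord_eq_of_isUnitAtPrime P hP h1 h2 h3).1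

include hϖ hnode hπ0 hπinf hinf hxy hr in
/-- the centred coordinate of a rational place `P'` of the cell is a unit at the centre of every
other place of the cell. -/
theorem node_coord_notMem {P P' : Place K₁ E} (hP : InCell O P) (hP' : InCell O P')
    (hrat' : IsRationalPlace P') {ξ' : R₁} (hξ' : IsValAt P' hP' x ξ') (hne : P ≠ P')
    (hπ𝔮 : algebraMap R₁ O ϖ ∉ centreIdeal P hP) :
    x - algebraMap R₁ O ξ' ∉ centreIdeal P hP := by
  intro hmem
  have hϖO := pi_mem_of_node (hP0 := hP0) hπ0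
  have hmax := hnode.maximalIdeal_eq hπ0 hinf
  obtain ⟨h1, h2, h3, -⟩ := node_centre hϖ hnode hπ0 hπinf hinf hxy hr hP' hrat' hξ'
  have hρ' : retr hP' hϖ hϖO hrat' x = ξ' := (retr_eq_iff hP' hϖ hϖO hrat' x ξ').mpr hξ'
  have hmem' : x - algebraMap R₁ O (retr hP' hϖ hϖO hrat' x) ∈ centreIdeal P hP := by
    rw [hρ']; exact hmem
  have heq := eq_ker_of_sub_mem hϖ hmax hxy hr (retr hP' hϖ hϖO hrat') (centreIdeal P hP)
    hπ𝔮 hmem'
  rw [ker_retr] at heq
  exact hne (place_eq_of_centreIdeal_eq P' hP' P hP heq h1 h2 h3).symm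

include hϖ hnode hπ0 hπinf hinf hxy hr in
/-- two rational places of the cell of a node with the same value of `x` coincide. -/
theorem eq_of_isValAt_node {P P' : Place K₁ E} (hP : InCell O P) (hP' : InCell O P')
    (hrat : IsRationalPlace P) (hrat' : IsRationalPlace P') {ξ : R₁}
    (hξ : IsValAt P hP x ξ) (hξ' : IsValAt P' hP' x ξ) : P = P' := by
  by_contra hne
  have hπ𝔮 : algebraMap R₁ O ϖ ∉ centreIdeal P hP :=
    algebraMap_not_mem_centreIdeal P hP hϖ.ne_zero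
  exact node_coord_notMem hϖ hnode hπ0 hπinf hinf hxy hr hP hP' hrat' hξ' hne hπ𝔮 hξ


include hϖ hnode hπ0 hπinf hinf hxy hr in
/-- **the explicit local factorisation at a node**:
`f = ϖ^a · x^k · u · ∏ (x - x(P))^{ord_P f}`. -/
theorem exists_node_factorisation (hm : 1 ≤ m) {f : E} (hf : f ≠ 0) (T : Finset (Place K₁ E))
    (hT : ∀ P ∈ T, InCell O P) (hrat : ∀ P ∈ T, IsRationalPlace P)
    (hfT : ∀ P : Place K₁ E, InCell O P → P.ord f ≠ 0 → P ∈ T)
    (ξ : Place K₁ E → R₁) (hξ : ∀ P (hP : P ∈ T), IsValAt P (hT P hP) x (ξ P))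
    (a : ℤ) (hfπ : IsUnitAtPrime Pinf (f * (algebraMap O E (algebraMap R₁ O ϖ) ^ a)⁻¹)) :
    ∃ (k : ℤ) (u : Oˣ), f = algebraMap O E (algebraMap R₁ O ϖ) ^ a * algebraMap O E x ^ k *
      algebraMap O E (u : O) *
      ∏ P ∈ T, algebraMap O E (x - algebraMap R₁ O (ξ P)) ^ (P.ord f) := by
  classical
  have hϖO := pi_mem_of_node (hP0 := hP0) hπ0
  set π : O := algebraMap R₁ O ϖ with hπ
  have hπne : π ≠ 0 := algebraMap_ne_zero_of_irreducible K₁ E hϖ.ne_zero
  have hinj : Function.Injective (algebraMap O E) := IsFractionRing.injective O E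
  have hπE : algebraMap O E π ≠ 0 := (map_ne_zero_iff _ hinj).mpr hπne
  have hfac0 : ∀ P ∈ T, algebraMap O E (x - algebraMap R₁ O (ξ P)) ≠ 0 := fun P hP =>
    (map_ne_zero_iff _ hinj).mpr
      (node_centre hϖ hnode hπ0 hπinf hinf hxy hr (hT P hP) (hrat P hP) (hξ P hP)).2.1
  set Pr : E := ∏ P ∈ T, algebraMap O E (x - algebraMap R₁ O (ξ P)) ^ (P.ord f) with hPr
  have hPr0 : Pr ≠ 0 := Finset.prod_ne_zero_iff.mpr (fun P hP => zpow_ne_zero _ (hfac0 P hP))
  set G : E := f * Pr⁻¹ * (algebraMap O E π ^ a)⁻¹ with hG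
  have hG0 : G ≠ 0 :=
    mul_ne_zero (mul_ne_zero hf (inv_ne_zero hPr0)) (inv_ne_zero (zpow_ne_zero _ hπE))
  have hGunit : ∀ 𝔮 : Ideal O, 𝔮.IsPrime → 𝔮.height = 1 → 𝔮 ≠ P0 → IsUnitAtPrime 𝔮 G := by
    intro 𝔮 h𝔮 hh hne0
    by_cases hπ𝔮 : π ∈ 𝔮
    · have hq : 𝔮 = Pinf :=
        (hnode.eq_or_eq_of_mem_of_height_one hπ0 hπinf hinf hπne hxy hm 𝔮 hh hπ𝔮).resolve_left hne0
      subst hq
      have h1 : IsUnitAtPrime 𝔮 Pr := by
        refine isUnitAtPrime_prod T _ (fun P hP => (isUnitAtPrime_algebraMap ?_).zpow _)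
        intro hmem
        apply hnode.x_notMem
        have h2 := (node_centre hϖ hnode hπ0 hπinf hinf hxy hr (hT P hP) (hrat P hP)
          (hξ P hP)).2.2.2
        have h3 : algebraMap R₁ O (ξ P) ∈ 𝔮 := (Ideal.span_le.mpr (by simpa using hπinf)) h2
        have := 𝔮.add_mem hmem h3
        simpa using this
      have : G = (f * (algebraMap O E π ^ a)⁻¹) * Pr⁻¹ := by rw [hG]; ring
      rw [this]
      exact hfπ.mul h1.inv
    · obtain ⟨P, hO, hc⟩ := exists_place_centreIdeal_eq (K₁ := K₁) (E := E) hϖ 𝔮 hh hπ𝔮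
      have hπP : algebraMap R₁ O ϖ ∉ centreIdeal P hO := by rw [hc]; exact hπ𝔮
      have hπunit : IsUnitAtPrime 𝔮 (algebraMap O E π ^ a) :=
        (isUnitAtPrime_algebraMap hπ𝔮).zpow _
      have hfacunit : ∀ P' ∈ T, P ≠ P' →
          IsUnitAtPrime 𝔮 (algebraMap O E (x - algebraMap R₁ O (ξ P')) ^ (P'.ord f)) := by
        intro P' hP' hne
        refine (isUnitAtPrime_algebraMap ?_).zpow _
        rw [← hc]
        exact node_coord_notMem hϖ hnode hπ0 hπinf hinf hxy hr hO (hT P' hP') (hrat P' hP')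
          (hξ P' hP') hne hπP
      rw [hG]
      refine IsUnitAtPrime.mul ?_ hπunit.inv
      by_cases hPT : P ∈ T
      · rw [hPr, ← Finset.mul_prod_erase T _ hPT, mul_inv, ← mul_assoc]
        refine IsUnitAtPrime.mul ?_ (IsUnitAtPrime.inv ?_)
        · obtain ⟨h1, h2, h3, -⟩ := node_centre hϖ hnode hπ0 hπinf hinf hxy hr hO (hrat P hPT)
            (hξ P hPT)
          have hne0' : f * (algebraMap O E (x - algebraMap R₁ O (ξ P)) ^ P.ord f)⁻¹ ≠ 0 :=
            mul_ne_zero hf (inv_ne_zero (zpow_ne_zero _ (hfac0 P hPT)))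
          rw [← hc]
          refine (isUnitAtPrime_iff_ord_eq_zero P hO h1 h2 h3 hne0').mpr ?_
          rw [P.ord_mul hf (inv_ne_zero (zpow_ne_zero _ (hfac0 P hPT))), Place.ord_inv,
            Place.ord_zpow, (ord_eq_of_isUnitAtPrime P hO h1 h2 h3).1]
          ring
        · refine isUnitAtPrime_prod _ _ (fun P' hP' => ?_)
          exact hfacunit P' (Finset.mem_of_mem_erase hP') (Finset.ne_of_mem_erase hP').symm
      · have hord : P.ord f = 0 := by
          by_contra hne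
          exact hPT (hfT P hO hne)
        have hfu : IsUnitAtPrime 𝔮 f := by
          have := isUnitAtPrime_of_ord_eq_zero_of_height_eq_one P hO (by rw [hc]; exact hh) hf hord
          rwa [hc] at this
        refine hfu.mul (IsUnitAtPrime.inv ?_)
        refine isUnitAtPrime_prod _ _ (fun P' hP' => hfacunit P' hP' ?_)
        rintro rfl
        exact hPT hP'
  obtain ⟨k, u, hku⟩ := hnode.exists_zpow_mul_unit hπ0 hinf hxy hr hm hG0 hGunit
  refine ⟨k, u, ?_⟩
  have h1 : algebraMap O E π ^ a ≠ 0 := zpow_ne_zero _ hπE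
  have h2 : f = G * Pr * algebraMap O E π ^ a := by
    rw [hG]; field_simp
  rw [h2, hku]
  ring


/-- integer powers of a sum of exponents. -/
theorem zpow_finset_sum {F : Type*} [Field F] {c : F} (hc : c ≠ 0) {ι : Type*} (s : Finset ι)
    (n : ι → ℤ) : c ^ (∑ i ∈ s, n i) = ∏ i ∈ s, c ^ (n i) := by
  classical
  induction s using Finset.induction_on with
  | empty => simp
  | insert a s ha ih => rw [Finset.sum_insert ha, Finset.prod_insert ha, zpow_add₀ hc, ih]

include hϖ hnode hπ0 hxy hr in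
/-- **the order along the branch `P0`** of a function in factorised form at a node. -/
theorem isUnitAtPrime_P0_of_node {f : E} (T : Finset (Place K₁ E))
    (ξ : Place K₁ E → R₁) (ν : Place K₁ E → ℕ)
    (hν : ∀ P ∈ T, ∃ w : R₁ˣ, ξ P = (w : R₁) * ϖ ^ (ν P)) (hνm : ∀ P ∈ T, ν P < m)
    (a k : ℤ) (u : Oˣ)
    (hfac : f = algebraMap O E (algebraMap R₁ O ϖ) ^ a * algebraMap O E x ^ k *
      algebraMap O E (u : O) *
      ∏ P ∈ T, algebraMap O E (x - algebraMap R₁ O (ξ P)) ^ (P.ord f)) :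
    IsUnitAtPrime P0 (f * (algebraMap O E (algebraMap R₁ O ϖ) ^
      (a + k * m + ∑ P ∈ T, P.ord f * (ν P : ℤ)))⁻¹) := by
  classical
  set π : O := algebraMap R₁ O ϖ with hπ
  have hπne : π ≠ 0 := algebraMap_ne_zero_of_irreducible K₁ E hϖ.ne_zero
  have hinj : Function.Injective (algebraMap O E) := IsFractionRing.injective O E
  have hπE : algebraMap O E π ≠ 0 := (map_ne_zero_iff _ hinj).mpr hπne
  have hrP0 : r ∉ P0 := fun h => hP0.ne_top (Ideal.eq_top_of_isUnit_mem _ h hr)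
  -- `x / π^m` is a unit at `P0`
  have hx : IsUnitAtPrime P0 (algebraMap O E x * (algebraMap O E π ^ m)⁻¹) := by
    refine ⟨r, y, hrP0, hnode.y_notMem, ?_⟩
    have h1 : algebraMap O E x * algebraMap O E y = algebraMap O E π ^ m * algebraMap O E r := by
      rw [← map_mul, hxy, map_mul, map_pow]
    have h2 : algebraMap O E π ^ m ≠ 0 := pow_ne_zero _ hπE
    field_simp
    linear_combination h1
  -- `(x - ξ) / π^ν` is a unit at `P0`
  have hfacP : ∀ P ∈ T, IsUnitAtPrime P0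
      (algebraMap O E (x - algebraMap R₁ O (ξ P)) * (algebraMap O E π ^ (ν P))⁻¹) := by
    intro P hP
    obtain ⟨w, hw⟩ := hν P hP
    have hlt := hνm P hP
    obtain ⟨d, hd⟩ : ∃ d : ℕ, m = ν P + (d + 1) := ⟨m - ν P - 1, by omega⟩
    refine ⟨π ^ (d + 1) * r - algebraMap R₁ O (w : R₁) * y, y, ?_, hnode.y_notMem, ?_⟩
    · intro hmem
      have h1 : π ^ (d + 1) * r ∈ P0 :=
        P0.mul_mem_right _ (P0.pow_mem_of_mem hπ0 _ (Nat.succ_pos d))
      have h2 : algebraMap R₁ O (w : R₁) * y ∈ P0 := by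
        have := P0.sub_mem h1 hmem
        simpa using this
      rcases hP0.mem_or_mem h2 with h3 | h3
      · exact hP0.ne_top (Ideal.eq_top_of_isUnit_mem _ h3 (w.isUnit.map _))
      · exact hnode.y_notMem h3
    · have h1 : algebraMap O E (x - algebraMap R₁ O (ξ P)) * algebraMap O E y =
          algebraMap O E π ^ (ν P) *
            algebraMap O E (π ^ (d + 1) * r - algebraMap R₁ O (w : R₁) * y) := by
        rw [← map_pow, ← map_mul, ← map_mul]
        congr 1
        rw [hw, map_mul, map_pow, sub_mul, hxy, hd]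
        ring
      have h2 : algebraMap O E π ^ (ν P) ≠ 0 := pow_ne_zero _ hπE
      field_simp
      linear_combination h1
  -- assemble
  have hkey : f * (algebraMap O E π ^ (a + k * m + ∑ P ∈ T, P.ord f * (ν P : ℤ)))⁻¹ =
      algebraMap O E (u : O) * (algebraMap O E x * (algebraMap O E π ^ m)⁻¹) ^ k *
        ∏ P ∈ T, (algebraMap O E (x - algebraMap R₁ O (ξ P)) *
          (algebraMap O E π ^ (ν P))⁻¹) ^ (P.ord f) := by
    have e1 : algebraMap O E π ^ (a + k * m + ∑ P ∈ T, P.ord f * (ν P : ℤ)) =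
        algebraMap O E π ^ a * (algebraMap O E π ^ m) ^ k *
          ∏ P ∈ T, (algebraMap O E π ^ (ν P)) ^ (P.ord f) := by
      rw [zpow_add₀ hπE, zpow_add₀ hπE, zpow_finset_sum hπE]
      congr 1
      · congr 1
        rw [mul_comm k, zpow_mul, zpow_natCast]
      · refine Finset.prod_congr rfl (fun P _ => ?_)
        rw [mul_comm, zpow_mul, zpow_natCast]
    have e2 : (∏ P ∈ T, (algebraMap O E (x - algebraMap R₁ O (ξ P)) *
          (algebraMap O E π ^ (ν P))⁻¹) ^ (P.ord f)) =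
        (∏ P ∈ T, algebraMap O E (x - algebraMap R₁ O (ξ P)) ^ (P.ord f)) *
          (∏ P ∈ T, (algebraMap O E π ^ (ν P)) ^ (P.ord f))⁻¹ := by
      rw [← Finset.prod_inv_distrib, ← Finset.prod_mul_distrib]
      refine Finset.prod_congr rfl (fun P _ => ?_)
      rw [mul_zpow, inv_zpow]
    have h3 : algebraMap O E π ^ a ≠ 0 := zpow_ne_zero _ hπE
    have h4 : (algebraMap O E π ^ m) ^ k ≠ 0 := zpow_ne_zero _ (pow_ne_zero _ hπE)
    have h5 : (∏ P ∈ T, (algebraMap O E π ^ (ν P)) ^ (P.ord f)) ≠ 0 :=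
      Finset.prod_ne_zero_iff.mpr (fun P _ => zpow_ne_zero _ (pow_ne_zero _ hπE))
    rw [e1, e2, mul_zpow, inv_zpow]
    nth_rewrite 1 [hfac]
    field_simp
  rw [hkey]
  exact ((isUnitAtPrime_unit u).mul (hx.zpow k)).mul
    (isUnitAtPrime_prod T _ (fun P hP => (hfacP P hP).zpow _))


include hϖ hnode hπ0 hxy hr in
/-- the value of `x` at a rational place of the cell of a node is `unit · ϖ^ν`, `0 < ν < m`. -/
theorem exists_node_val {P : Place K₁ E} (hP : InCell O P) (hrat : IsRationalPlace P) {ξ : R₁}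
    (hξ : IsValAt P hP x ξ) : ∃ (ν : ℕ) (w : R₁ˣ), ξ = (w : R₁) * ϖ ^ ν ∧ 0 < ν ∧ ν < m := by
  have hϖO := pi_mem_of_node (hP0 := hP0) hπ0
  set ρ := retr hP hϖ hϖO hrat with hρdef
  have hρ : ρ x = ξ := (retr_eq_iff hP hϖ hϖO hrat x ξ).mpr hξ
  have hρr : IsUnit (ρ r) := hr.map ρ
  have hprod : ξ * ρ y = ϖ ^ m * ρ r := by
    have := congrArg ρ hxy
    rw [map_mul, map_mul, map_pow, AlgHom.commutes, hρ] at this
    simpa using this
  have hne : ϖ ^ m * ρ r ≠ 0 := mul_ne_zero (pow_ne_zero _ hϖ.ne_zero) hρr.ne_zero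
  have hξ0 : ξ ≠ 0 := fun h => hne (by rw [← hprod, h, zero_mul])
  have hη0 : ρ y ≠ 0 := fun h => hne (by rw [← hprod, h, mul_zero])
  obtain ⟨ν, w, hw⟩ := IsDiscreteValuationRing.eq_unit_mul_pow_irreducible hξ0 hϖ
  obtain ⟨ν', w', hw'⟩ := IsDiscreteValuationRing.eq_unit_mul_pow_irreducible hη0 hϖ
  have hξm : ξ ∈ maximalIdeal R₁ := by
    rw [← hρ]; exact retraction_mem_maximalIdeal ρ (x_mem_of_node hnode)
  have hηm : ρ y ∈ maximalIdeal R₁ := retraction_mem_maximalIdeal ρ (y_mem_of_node hnode)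
  have hν0 : ν ≠ 0 := by
    rintro rfl
    rw [pow_zero, mul_one] at hw
    rw [hw] at hξm
    exact (IsLocalRing.mem_maximalIdeal _).mp hξm w.isUnit
  have hν'0 : ν' ≠ 0 := by
    rintro rfl
    rw [pow_zero, mul_one] at hw'
    rw [hw'] at hηm
    exact (IsLocalRing.mem_maximalIdeal _).mp hηm w'.isUnit
  have hsum : ν + ν' = m := by
    refine IsDiscreteValuationRing.unit_mul_pow_congr_pow hϖ hϖ (w * w') hρr.unit (ν + ν') m ?_
    rw [Units.val_mul, IsUnit.unit_spec, pow_add]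
    calc (w : R₁) * (w' : R₁) * (ϖ ^ ν * ϖ ^ ν') = ((w : R₁) * ϖ ^ ν) * ((w' : R₁) * ϖ ^ ν') := by
          ring
      _ = ρ r * ϖ ^ m := by rw [← hw, ← hw', hprod]; ring
  exact ⟨ν, w, hw, Nat.pos_of_ne_zero hν0, by omega⟩

include hϖ hnode hπ0 hπinf hinf hxy hr in
/-- **the value formula at a node**: at a rational place `Q` of the cell,
`(f / (x - x(Q))^{ord_Q f})(Q) = ϖ^a · x(Q)^k · unit · ∏_{P ≠ Q} (x(Q) - x(P))^{ord_P f}`. -/
theorem hasValueAt_of_node [DecidableEq (Place K₁ E)] {f : E} (T : Finset (Place K₁ E))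
    (hT : ∀ P ∈ T, InCell O P) (hrat : ∀ P ∈ T, IsRationalPlace P)
    (hfT : ∀ P : Place K₁ E, InCell O P → P.ord f ≠ 0 → P ∈ T)
    (ξ : Place K₁ E → R₁) (hξ : ∀ P (hP : P ∈ T), IsValAt P (hT P hP) x (ξ P))
    (a k : ℤ) (u : Oˣ)
    (hfac : f = algebraMap O E (algebraMap R₁ O ϖ) ^ a * algebraMap O E x ^ k *
      algebraMap O E (u : O) *
      ∏ P ∈ T, algebraMap O E (x - algebraMap R₁ O (ξ P)) ^ (P.ord f))
    {Q : Place K₁ E} (hQ : InCell O Q) (hQrat : IsRationalPlace Q)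
    (hξQ : IsValAt Q hQ x (ξ Q)) :
    ∃ w : R₁ˣ, HasValueAt Q
      (f * (algebraMap O E (x - algebraMap R₁ O (ξ Q)) ^ (Q.ord f))⁻¹)
      (algebraMap R₁ K₁ ϖ ^ a * algebraMap R₁ K₁ (ξ Q) ^ k * algebraMap R₁ K₁ (w : R₁) *
        ∏ P ∈ T.erase Q, (algebraMap R₁ K₁ (ξ Q) - algebraMap R₁ K₁ (ξ P)) ^ (P.ord f)) := by
  have hϖO := pi_mem_of_node (hP0 := hP0) hπ0
  have hinj : Function.Injective (algebraMap O E) := IsFractionRing.injective O E
  have hxQ0 : algebraMap O E (x - algebraMap R₁ O (ξ Q)) ≠ 0 :=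
    (map_ne_zero_iff _ hinj).mpr
      (node_centre hϖ hnode hπ0 hπinf hinf hxy hr hQ hQrat hξQ).2.1
  have hfac' : f * (algebraMap O E (x - algebraMap R₁ O (ξ Q)) ^ (Q.ord f))⁻¹ =
      algebraMap O E (algebraMap R₁ O ϖ) ^ a * algebraMap O E x ^ k * algebraMap O E (u : O) *
        ∏ P ∈ T.erase Q, algebraMap O E (x - algebraMap R₁ O (ξ P)) ^ (P.ord f) := by
    by_cases hQT : Q ∈ T
    · nth_rewrite 1 [hfac]
      rw [← Finset.mul_prod_erase T _ hQT]
      have := zpow_ne_zero (Q.ord f) hxQ0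
      field_simp
    · have hord : Q.ord f = 0 := by
        by_contra hne
        exact hQT (hfT Q hQ hne)
      rw [hord, zpow_zero, inv_one, mul_one, Finset.erase_eq_of_notMem hQT]
      exact hfac
  rw [hfac']
  set ρ := retr hQ hϖ hϖO hQrat with hρ
  have hρu : IsUnit (ρ (u : O)) := u.isUnit.map ρ
  obtain ⟨ν, w, hw, -, -⟩ := exists_node_val hϖ hnode hπ0 hxy hr hQ hQrat hξQ
  have hξQ0 : algebraMap R₁ K₁ (ξ Q) ≠ 0 := by
    rw [Ne, map_eq_zero_iff _ (IsFractionRing.injective R₁ K₁), hw]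
    exact mul_ne_zero w.ne_zero (pow_ne_zero _ hϖ.ne_zero)
  refine ⟨hρu.unit, ?_⟩
  refine HasValueAt.mul (HasValueAt.mul (HasValueAt.mul ?_ ?_) ?_)
    (HasValueAt.prod _ _ _ (fun P hP => ?_))
  · have hϖK : algebraMap R₁ K₁ ϖ ≠ 0 :=
      (map_ne_zero_iff _ (IsFractionRing.injective R₁ K₁)).mpr hϖ.ne_zero
    refine hasValueAt_zpow ?_ hϖK a
    rw [← IsScalarTower.algebraMap_apply R₁ O E, IsScalarTower.algebraMap_apply R₁ K₁ E]
    exact HasValueAt.algebraMap' Q _
  · exact hasValueAt_zpow hξQ.hasValueAt hξQ0 k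
  · exact (isValAt_retr hQ hϖ hϖO hQrat (u : O)).hasValueAt
  · have hPT := Finset.mem_of_mem_erase hP
    have hne : P ≠ Q := Finset.ne_of_mem_erase hP
    have hval : HasValueAt Q (algebraMap O E (x - algebraMap R₁ O (ξ P)))
        (algebraMap R₁ K₁ (ξ Q) - algebraMap R₁ K₁ (ξ P)) := by
      rw [map_sub]
      refine hξQ.hasValueAt.sub ?_
      rw [← IsScalarTower.algebraMap_apply R₁ O E, IsScalarTower.algebraMap_apply R₁ K₁ E]
      exact HasValueAt.algebraMap' Q _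
    refine hasValueAt_zpow hval ?_ _
    rw [sub_ne_zero]
    intro heq
    have heq' : ξ Q = ξ P := IsFractionRing.injective R₁ K₁ heq
    apply hne
    have hξP := hξ P hPT
    rw [← heq'] at hξP
    exact eq_of_isValAt_node hϖ hnode hπ0 hπinf hinf hxy hr (hT P hPT) hQ (hrat P hPT) hQrat
      hξP hξQ

end Node

end Fermat.Agent.MW.NAdic
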