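import Mathlib
import Fermat.Agent.MW.NADIC_helper6_LocN
import Fermat.Agent.SS.MODLOC_helper5_Core
import Fermat.Agent.SS.LOCASM_helper5_Transfer
import Fermat.Agent.JA.REDA_helper1_Centre

/-!
# Project MW (S17) — [N-ADIC] helper6, [CHART]: from a chart of the two-sheeted model to the local
factorisations

`B` a chart of the normal model (noetherian, integrally closed domain with fraction field `E`),
`𝔪 ∋ π` a closed point of the special fibre, `O = B_𝔪`.  The cell of `O` is the set of places of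
`E / K₁` centred at `𝔪`.  We feed `LocS` (a smooth point of the special fibre: only one component
`𝔭` through `𝔪`, with a branch uniformizer of the form `z₀ · s'`, `s' ∉ 𝔪`) and `LocN` (a node) and
restate the value formulas in terms of `CentredAt` and `HasValueAt`.
-/

set_option autoImplicit false
set_option linter.unusedSectionVars false
set_option linter.style.haveILetI false

open AlgebraicCurve IsLocalRing

namespace Fermat.Agent.MW.NAdic

open Fermat.Agent.SS Fermat.Agent.JA Fermat.Agent.FF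

section Chart

attribute [local instance] locAlgebra

variable {R₁ : Type*} [CommRing R₁] [IsDomain R₁] [IsDiscreteValuationRing R₁]
  {K₁ : Type*} [Field K₁] [Algebra R₁ K₁] [IsFractionRing R₁ K₁]
  {E : Type*} [Field E] [Algebra K₁ E] [Algebra R₁ E] [IsScalarTower R₁ K₁ E]
  {B : Type*} [CommRing B] [IsDomain B] [IsNoetherianRing B] [IsIntegrallyClosed B]
  [Algebra R₁ B] [Algebra B E] [IsScalarTower R₁ B E] [IsFractionRing B E]

/-- an element of `E` which is a fraction `y / s'` with `s' ∉ 𝔪` comes from the local ring. -/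
theorem exists_loc_eq_of_mul_eq (𝔪 : Ideal B) [𝔪.IsPrime] {z₀ : E} {y s' : B} (hs' : s' ∉ 𝔪)
    (hy : z₀ * algebraMap B E s' = algebraMap B E y) :
    ∃ z : Localization.AtPrime 𝔪, algebraMap (Localization.AtPrime 𝔪) E z = z₀ ∧
      z * algebraMap B (Localization.AtPrime 𝔪) s' = algebraMap B (Localization.AtPrime 𝔪) y := by
  refine ⟨IsLocalization.mk' (Localization.AtPrime 𝔪) y (⟨s', hs'⟩ : 𝔪.primeCompl), ?_, ?_⟩
  · rw [locAlgebra_mk']
    have hs0 : algebraMap B E s' ≠ 0 := (map_ne_zero_iff _ (IsFractionRing.injective B E)).mpr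
      (fun h0 => hs' (by rw [h0]; exact 𝔪.zero_mem))
    rw [← hy]
    show z₀ * algebraMap B E s' * (algebraMap B E s')⁻¹ = z₀
    rw [mul_assoc, mul_inv_cancel₀ hs0, mul_one]
  · exact IsLocalization.mk'_spec (Localization.AtPrime 𝔪) y (⟨s', hs'⟩ : 𝔪.primeCompl)

/-- the value of an element of a local ring at a place of its cell, in terms of `HasValueAt`. -/
theorem isValAt_iff_hasValueAt {O : Type*} [CommRing O] [IsDomain O] [IsLocalRing O]
    [IsNoetherianRing O] [IsIntegrallyClosed O] [Algebra R₁ O] [Algebra O E] [IsScalarTower R₁ O E]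
    [IsFractionRing O E] {P : Place K₁ E} (hP : InCell O P) (x : O) (r : R₁) :
    IsValAt P hP x r ↔ HasValueAt P (algebraMap O E x) (algebraMap R₁ K₁ r) := by
  unfold IsValAt
  rw [mem_centreIdeal_iff, map_sub, ← IsScalarTower.algebraMap_apply,
    IsScalarTower.algebraMap_apply R₁ K₁ E]
  exact HasValueAt.iff_ord.symm

/-- **the value formula at a smooth closed point of a chart.**  Only the component `𝔭` passes
through `𝔪`; `z₀ ∈ E` is, up to a unit at `𝔪`, a branch uniformizer of `𝔭` at `𝔪`. -/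
theorem chart_smooth_value [DecidableEq (Place K₁ E)] {π : R₁} (hπ : Irreducible π)
    (𝔪 : Ideal B) [h𝔪 : 𝔪.IsMaximal] {𝔭 𝔭' : Ideal B} [h𝔭 : 𝔭.IsPrime]
    (hπ𝔭 : algebraMap R₁ B π ∈ 𝔭) (hinf : 𝔭 ⊓ 𝔭' ≤ Ideal.span {algebraMap R₁ B π})
    (hle : 𝔭 ≤ 𝔪) (hnle : ¬ 𝔭' ≤ 𝔪)
    {z₀ : E} {y s' : B} (hs' : s' ∉ 𝔪) (hy : z₀ * algebraMap B E s' = algebraMap B E y)
    (hbr : IsBranchUniformizer 𝔭 𝔪 y)
    {f : E} (hf : f ≠ 0) (T : Finset (Place K₁ E)) (hT : ∀ P ∈ T, CentredAt 𝔪 P)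
    (hrat : ∀ P ∈ T, IsRationalPlace P)
    (hfT : ∀ P : Place K₁ E, CentredAt 𝔪 P → P.ord f ≠ 0 → P ∈ T)
    (ζ : Place K₁ E → R₁) (hζ : ∀ P ∈ T, HasValueAt P z₀ (algebraMap R₁ K₁ (ζ P)))
    (a : ℤ) (hfπ : IsUnitAtPrime 𝔭 (f * (algebraMap R₁ E π ^ a)⁻¹))
    {Q : Place K₁ E} (hQ : CentredAt 𝔪 Q) (hQrat : IsRationalPlace Q)
    (hζQ : HasValueAt Q z₀ (algebraMap R₁ K₁ (ζ Q))) :
    Q.ord (z₀ - algebraMap K₁ E (algebraMap R₁ K₁ (ζ Q))) = 1 ∧
    ∃ w : R₁ˣ, HasValueAt Q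
      (f * ((z₀ - algebraMap K₁ E (algebraMap R₁ K₁ (ζ Q))) ^ (Q.ord f))⁻¹)
      (algebraMap R₁ K₁ π ^ a * algebraMap R₁ K₁ (w : R₁) *
        ∏ P ∈ T.erase Q, (algebraMap R₁ K₁ (ζ Q) - algebraMap R₁ K₁ (ζ P)) ^ (P.ord f)) := by
  haveI h𝔪p : 𝔪.IsPrime := h𝔪.isPrime
  have hS : 𝔪.primeCompl ≤ nonZeroDivisors B := by
    intro s hs
    exact mem_nonZeroDivisors_of_ne_zero (fun h0 => hs (h0 ▸ 𝔪.zero_mem))
  haveI : IsIntegrallyClosed (Localization.AtPrime 𝔪) :=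
    isIntegrallyClosed_of_isLocalization (Localization.AtPrime 𝔪) 𝔪.primeCompl hS
  haveI : IsNoetherianRing (Localization.AtPrime 𝔪) :=
    IsLocalization.isNoetherianRing 𝔪.primeCompl (Localization.AtPrime 𝔪) inferInstance
  haveI := locAlgebra_isScalarTower (E := E) 𝔪
  haveI := locAlgebra_isScalarTower_base (R₁ := R₁) (E := E) 𝔪
  haveI := locAlgebra_isFractionRing (E := E) 𝔪
  obtain ⟨z, hzE, hzy⟩ := exists_loc_eq_of_mul_eq 𝔪 hs' hy
  obtain ⟨hmax0, hprime0, hz0⟩ :=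
    smooth_point_of_branch (R := Localization.AtPrime 𝔪) 𝔪 hπ𝔭 hinf hle hnle hbr
  have hπO : algebraMap B (Localization.AtPrime 𝔪) (algebraMap R₁ B π) =
      algebraMap R₁ (Localization.AtPrime 𝔪) π :=
    (IsScalarTower.algebraMap_apply R₁ B (Localization.AtPrime 𝔪) π).symm
  rw [hπO] at hmax0 hprime0 hz0
  have hsu : IsUnit (algebraMap B (Localization.AtPrime 𝔪) s') :=
    IsLocalization.map_units (Localization.AtPrime 𝔪) (⟨s', hs'⟩ : 𝔪.primeCompl)
  obtain ⟨su, hsu'⟩ := hsu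
  have hzy' : z = algebraMap B (Localization.AtPrime 𝔪) y * ((su⁻¹ : (Localization.AtPrime 𝔪)ˣ) :
      Localization.AtPrime 𝔪) := by
    rw [← hzy, ← hsu', mul_assoc, Units.mul_inv, mul_one]
  have hmax : maximalIdeal (Localization.AtPrime 𝔪) =
      Ideal.span {z, algebraMap R₁ (Localization.AtPrime 𝔪) π} := by
    rw [hmax0]
    apply le_antisymm
    · rw [Ideal.span_le]
      rintro w (rfl | rfl)
      · rw [← hzy]
        exact Ideal.mul_mem_right _ _ (Ideal.subset_span (by simp))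
      · exact Ideal.subset_span (by simp)
    · rw [Ideal.span_le]
      rintro w (rfl | rfl)
      · rw [hzy']
        exact Ideal.mul_mem_right _ _ (Ideal.subset_span (by simp))
      · exact Ideal.subset_span (by simp)
  have hz : z ∉ Ideal.span {algebraMap R₁ (Localization.AtPrime 𝔪) π} := by
    intro hmem
    apply hz0
    rw [← hzy]
    exact Ideal.mul_mem_right _ _ hmem
  have hcell : ∀ P : Place K₁ E, CentredAt 𝔪 P → InCell (Localization.AtPrime 𝔪) P :=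
    fun P hP => (through_localization_iff 𝔪 P).mpr hP
  have hcell' : ∀ P : Place K₁ E, InCell (Localization.AtPrime 𝔪) P → CentredAt 𝔪 P :=
    fun P hP => (through_localization_iff 𝔪 P).mp hP
  have hval : ∀ (P : Place K₁ E) (hP : InCell (Localization.AtPrime 𝔪) P) (r : R₁),
      HasValueAt P z₀ (algebraMap R₁ K₁ r) → IsValAt P hP z r := by
    intro P hP r hv
    rw [isValAt_iff_hasValueAt, hzE]
    exact hv
  have hπE : algebraMap (Localization.AtPrime 𝔪) E (algebraMap R₁ (Localization.AtPrime 𝔪) π) =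
      algebraMap R₁ E π := (IsScalarTower.algebraMap_apply R₁ (Localization.AtPrime 𝔪) E π).symm
  have hfπ' : IsUnitAtPrime (Ideal.span {algebraMap R₁ (Localization.AtPrime 𝔪) π})
      (f * (algebraMap (Localization.AtPrime 𝔪) E
        (algebraMap R₁ (Localization.AtPrime 𝔪) π) ^ a)⁻¹) := by
    rw [hπE]
    have h1 := isUnitAtPrime_map_of_le (R := Localization.AtPrime 𝔪) 𝔪 𝔭 hle hfπ
    rwa [map_eq_span_of_not_le (R := Localization.AtPrime 𝔪) 𝔪 hπ𝔭 hinf hnle, hπO] at h1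
  have hcoord : ∀ r : R₁, algebraMap (Localization.AtPrime 𝔪) E
      (z - algebraMap R₁ (Localization.AtPrime 𝔪) r) =
      z₀ - algebraMap K₁ E (algebraMap R₁ K₁ r) := by
    intro r
    rw [map_sub, hzE, ← IsScalarTower.algebraMap_apply R₁ (Localization.AtPrime 𝔪) E,
      IsScalarTower.algebraMap_apply R₁ K₁ E]
  have hQ' := hcell Q hQ
  have hζQ' := hval Q hQ' (ζ Q) hζQ
  refine ⟨?_, ?_⟩
  · rw [← hcoord]
    exact ord_smooth_coord hπ hmax hz hQ' hQrat hζQ'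
  · have H := hasValueAt_of_smooth hπ hmax hz hprime0 hf T (fun P hP => hcell P (hT P hP)) hrat
      (fun P hP hne => hfT P (hcell' P hP) hne) ζ
      (fun P hP => hval P (hcell P (hT P hP)) (ζ P) (hζ P hP)) a hfπ' hQ' hQrat hζQ'
    rw [hcoord] at H
    exact H

/-- a power of an element of a prime is a unit at the prime only for the exponent `0`. -/
theorem eq_zero_of_isUnitAtPrime_zpow {A : Type*} [CommRing A] [IsDomain A] {F : Type*} [Field F]
    [Algebra A F] [IsFractionRing A F] {𝔮 : Ideal A} [h𝔮 : 𝔮.IsPrime] {p : A} (hp : p ∈ 𝔮)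
    {n : ℤ} (h : IsUnitAtPrime 𝔮 (algebraMap A F p ^ n)) : n = 0 := by
  have key : ∀ k : ℕ, ¬ IsUnitAtPrime 𝔮 (algebraMap A F p ^ (k + 1)) := by
    intro k ⟨r, s, hr, _, hrs⟩
    rw [← map_pow, ← map_mul] at hrs
    have h1 : p ^ (k + 1) * s = r := IsFractionRing.injective A F hrs
    apply hr
    rw [← h1, pow_succ]
    exact 𝔮.mul_mem_right _ (𝔮.mul_mem_left _ hp)
  by_contra hn
  rcases lt_or_gt_of_ne hn with hlt | hgt
  · obtain ⟨k, hk⟩ : ∃ k : ℕ, -n = (k + 1 : ℕ) := by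
      obtain ⟨k, hk⟩ := Int.exists_eq_neg_ofNat hlt.le
      refine ⟨k - 1, ?_⟩
      have : 1 ≤ k := by omega
      rw [hk, neg_neg]
      congr 1
      omega
    have h2 := h.inv
    rw [← zpow_neg, hk, zpow_natCast] at h2
    exact key k h2
  · obtain ⟨k, hk⟩ : ∃ k : ℕ, n = (k + 1 : ℕ) := by
      obtain ⟨k, hk⟩ := Int.eq_ofNat_of_zero_le hgt.le
      refine ⟨k - 1, ?_⟩
      have : 1 ≤ k := by omega
      rw [hk]
      congr 1
      omega
    rw [hk, zpow_natCast] at h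
    exact key k h

/-- **the value formula at a node of a chart.**  Both components pass through `𝔪`; `x`, `y` are
node coordinates in normal form, `x y = π^m · unit`, in the local ring `B_𝔪`. -/
theorem chart_node_value [DecidableEq (Place K₁ E)] {π : R₁} (hπ : Irreducible π)
    (𝔪 : Ideal B) [h𝔪 : 𝔪.IsMaximal] {𝔭inf 𝔭0 : Ideal B} [h𝔭inf : 𝔭inf.IsPrime]
    [h𝔭0 : 𝔭0.IsPrime]
    (hπinf : algebraMap R₁ B π ∈ 𝔭inf) (hπ0 : algebraMap R₁ B π ∈ 𝔭0)
    (hinf : 𝔭inf ⊓ 𝔭0 ≤ Ideal.span {algebraMap R₁ B π})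
    (hleinf : 𝔭inf ≤ 𝔪) (hle0 : 𝔭0 ≤ 𝔪)
    {x y r : Localization.AtPrime 𝔪} {m : ℕ}
    (hnode : IsNodePair (𝔭0.map (algebraMap B (Localization.AtPrime 𝔪)))
      (𝔭inf.map (algebraMap B (Localization.AtPrime 𝔪))) x y)
    (hxy : x * y = algebraMap R₁ (Localization.AtPrime 𝔪) π ^ m * r) (hr : IsUnit r)
    (hm : 1 ≤ m) {X : E} (hX : algebraMap (Localization.AtPrime 𝔪) E x = X)
    {f : E} (hf : f ≠ 0) (T : Finset (Place K₁ E)) (hT : ∀ P ∈ T, CentredAt 𝔪 P)
    (hrat : ∀ P ∈ T, IsRationalPlace P)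
    (hfT : ∀ P : Place K₁ E, CentredAt 𝔪 P → P.ord f ≠ 0 → P ∈ T)
    (ξ : Place K₁ E → R₁) (hξ : ∀ P ∈ T, HasValueAt P X (algebraMap R₁ K₁ (ξ P)))
    (ainf a0 : ℤ) (hfinf : IsUnitAtPrime 𝔭inf (f * (algebraMap R₁ E π ^ ainf)⁻¹))
    (hf0 : IsUnitAtPrime 𝔭0 (f * (algebraMap R₁ E π ^ a0)⁻¹))
    {Q : Place K₁ E} (hQ : CentredAt 𝔪 Q) (hQrat : IsRationalPlace Q)
    (hξQ : HasValueAt Q X (algebraMap R₁ K₁ (ξ Q))) :
    ∃ (k : ℤ) (ν : Place K₁ E → ℕ),
      (∀ P ∈ insert Q T, ∃ w : R₁ˣ, ξ P = (w : R₁) * π ^ (ν P) ∧ 0 < ν P ∧ ν P < m) ∧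
      a0 = ainf + k * m + ∑ P ∈ T, P.ord f * (ν P : ℤ) ∧
      Q.ord (X - algebraMap K₁ E (algebraMap R₁ K₁ (ξ Q))) = 1 ∧
      ∃ w : R₁ˣ, HasValueAt Q
        (f * ((X - algebraMap K₁ E (algebraMap R₁ K₁ (ξ Q))) ^ (Q.ord f))⁻¹)
        (algebraMap R₁ K₁ π ^ ainf * algebraMap R₁ K₁ (ξ Q) ^ k * algebraMap R₁ K₁ (w : R₁) *
          ∏ P ∈ T.erase Q, (algebraMap R₁ K₁ (ξ Q) - algebraMap R₁ K₁ (ξ P)) ^ (P.ord f)) := by
  haveI h𝔪p : 𝔪.IsPrime := h𝔪.isPrime
  have hS : 𝔪.primeCompl ≤ nonZeroDivisors B := by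
    intro s hs
    exact mem_nonZeroDivisors_of_ne_zero (fun h0 => hs (h0 ▸ 𝔪.zero_mem))
  haveI : IsIntegrallyClosed (Localization.AtPrime 𝔪) :=
    isIntegrallyClosed_of_isLocalization (Localization.AtPrime 𝔪) 𝔪.primeCompl hS
  haveI : IsNoetherianRing (Localization.AtPrime 𝔪) :=
    IsLocalization.isNoetherianRing 𝔪.primeCompl (Localization.AtPrime 𝔪) inferInstance
  haveI := locAlgebra_isScalarTower (E := E) 𝔪
  haveI := locAlgebra_isScalarTower_base (R₁ := R₁) (E := E) 𝔪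
  haveI := locAlgebra_isFractionRing (E := E) 𝔪
  haveI hP0 : (𝔭0.map (algebraMap B (Localization.AtPrime 𝔪))).IsPrime :=
    map_isPrime_of_le 𝔪 𝔭0 hle0
  haveI hPinf : (𝔭inf.map (algebraMap B (Localization.AtPrime 𝔪))).IsPrime :=
    map_isPrime_of_le 𝔪 𝔭inf hleinf
  have hπO : algebraMap B (Localization.AtPrime 𝔪) (algebraMap R₁ B π) =
      algebraMap R₁ (Localization.AtPrime 𝔪) π :=
    (IsScalarTower.algebraMap_apply R₁ B (Localization.AtPrime 𝔪) π).symm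
  have hπ0' : algebraMap R₁ (Localization.AtPrime 𝔪) π ∈
      𝔭0.map (algebraMap B (Localization.AtPrime 𝔪)) := by
    rw [← hπO]; exact Ideal.mem_map_of_mem _ hπ0
  have hπinf' : algebraMap R₁ (Localization.AtPrime 𝔪) π ∈
      𝔭inf.map (algebraMap B (Localization.AtPrime 𝔪)) := by
    rw [← hπO]; exact Ideal.mem_map_of_mem _ hπinf
  have hinf' : 𝔭0.map (algebraMap B (Localization.AtPrime 𝔪)) ⊓
      𝔭inf.map (algebraMap B (Localization.AtPrime 𝔪)) ≤
      Ideal.span {algebraMap R₁ (Localization.AtPrime 𝔪) π} := by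
    rw [← hπO]
    exact map_inf_map_le_span (R := Localization.AtPrime 𝔪) 𝔪 hinf
  have hcell : ∀ P : Place K₁ E, CentredAt 𝔪 P → InCell (Localization.AtPrime 𝔪) P :=
    fun P hP => (through_localization_iff 𝔪 P).mpr hP
  have hcell' : ∀ P : Place K₁ E, InCell (Localization.AtPrime 𝔪) P → CentredAt 𝔪 P :=
    fun P hP => (through_localization_iff 𝔪 P).mp hP
  have hval : ∀ (P : Place K₁ E) (hP : InCell (Localization.AtPrime 𝔪) P) (c : R₁),
      HasValueAt P X (algebraMap R₁ K₁ c) → IsValAt P hP x c := by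
    intro P hP c hv
    rw [isValAt_iff_hasValueAt, hX]
    exact hv
  have hπE : algebraMap (Localization.AtPrime 𝔪) E (algebraMap R₁ (Localization.AtPrime 𝔪) π) =
      algebraMap R₁ E π := (IsScalarTower.algebraMap_apply R₁ (Localization.AtPrime 𝔪) E π).symm
  have hfinf' : IsUnitAtPrime (𝔭inf.map (algebraMap B (Localization.AtPrime 𝔪)))
      (f * (algebraMap (Localization.AtPrime 𝔪) E
        (algebraMap R₁ (Localization.AtPrime 𝔪) π) ^ ainf)⁻¹) := by
    rw [hπE]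
    exact isUnitAtPrime_map_of_le (R := Localization.AtPrime 𝔪) 𝔪 𝔭inf hleinf hfinf
  have hf0' : IsUnitAtPrime (𝔭0.map (algebraMap B (Localization.AtPrime 𝔪)))
      (f * (algebraMap (Localization.AtPrime 𝔪) E
        (algebraMap R₁ (Localization.AtPrime 𝔪) π) ^ a0)⁻¹) := by
    rw [hπE]
    exact isUnitAtPrime_map_of_le (R := Localization.AtPrime 𝔪) 𝔪 𝔭0 hle0 hf0
  have hcoord : ∀ c : R₁, algebraMap (Localization.AtPrime 𝔪) E
      (x - algebraMap R₁ (Localization.AtPrime 𝔪) c) =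
      X - algebraMap K₁ E (algebraMap R₁ K₁ c) := by
    intro c
    rw [map_sub, hX, ← IsScalarTower.algebraMap_apply R₁ (Localization.AtPrime 𝔪) E,
      IsScalarTower.algebraMap_apply R₁ K₁ E]
  have hQ' := hcell Q hQ
  have hξQ' := hval Q hQ' (ξ Q) hξQ
  have hT' : ∀ P ∈ T, InCell (Localization.AtPrime 𝔪) P := fun P hP => hcell P (hT P hP)
  have hξ' : ∀ P (hP : P ∈ T), IsValAt P (hT' P hP) x (ξ P) :=
    fun P hP => hval P (hT' P hP) (ξ P) (hξ P hP)
  have hfT' : ∀ P : Place K₁ E, InCell (Localization.AtPrime 𝔪) P → P.ord f ≠ 0 → P ∈ T :=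
    fun P hP hne => hfT P (hcell' P hP) hne
  obtain ⟨k, u, hfac⟩ := exists_node_factorisation hπ hnode hπ0' hπinf' hinf' hxy hr hm hf T hT'
    hrat hfT' ξ hξ' ainf hfinf'
  -- the valuations of the values of `x`
  have hνex : ∀ P : Place K₁ E, P ∈ insert Q T →
      ∃ (ν : ℕ) (w : R₁ˣ), ξ P = (w : R₁) * π ^ ν ∧ 0 < ν ∧ ν < m := by
    intro P hP
    rcases Finset.mem_insert.mp hP with rfl | hPT
    · exact exists_node_val hπ hnode hπ0' hxy hr hQ' hQrat hξQ'
    · exact exists_node_val hπ hnode hπ0' hxy hr (hT' P hPT) (hrat P hPT) (hξ' P hPT)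
  classical
  set ν : Place K₁ E → ℕ := fun P => if h : P ∈ insert Q T then (hνex P h).choose else 0 with hνdef
  have hν : ∀ P ∈ insert Q T, ∃ w : R₁ˣ, ξ P = (w : R₁) * π ^ (ν P) ∧ 0 < ν P ∧ ν P < m := by
    intro P hP
    have h1 := (hνex P hP).choose_spec
    have h2 : ν P = (hνex P hP).choose := by rw [hνdef]; exact dif_pos hP
    rw [h2]
    exact h1
  refine ⟨k, ν, hν, ?_, ?_, ?_⟩
  · have h1 := isUnitAtPrime_P0_of_node hπ hnode hπ0' hxy hr T ξ ν
      (fun P hP => by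
        obtain ⟨w, hw, -, -⟩ := hν P (Finset.mem_insert_of_mem hP)
        exact ⟨w, hw⟩)
      (fun P hP => (hν P (Finset.mem_insert_of_mem hP)).choose_spec.2.2) ainf k u hfac
    set π' : E := algebraMap (Localization.AtPrime 𝔪) E
      (algebraMap R₁ (Localization.AtPrime 𝔪) π) with hπ'
    have hπ'0 : π' ≠ 0 := by
      rw [hπE, IsScalarTower.algebraMap_apply R₁ K₁ E]
      exact (map_ne_zero_iff _ (algebraMap K₁ E).injective).mpr
        ((map_ne_zero_iff _ (IsFractionRing.injective R₁ K₁)).mpr hπ.ne_zero)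
    have h2 := h1.mul hf0'.inv
    have h3 : f * (π' ^ (ainf + k * m + ∑ P ∈ T, P.ord f * (ν P : ℤ)))⁻¹ * (f * (π' ^ a0)⁻¹)⁻¹ =
        π' ^ (a0 - (ainf + k * m + ∑ P ∈ T, P.ord f * (ν P : ℤ))) := by
      rw [zpow_sub₀ hπ'0]
      have := zpow_ne_zero a0 hπ'0
      have := zpow_ne_zero (ainf + k * m + ∑ P ∈ T, P.ord f * (ν P : ℤ)) hπ'0
      field_simp
    rw [h3] at h2
    have h4 := eq_zero_of_isUnitAtPrime_zpow hπ0' h2
    omega
  · rw [← hcoord]
    exact ord_node_coord hπ hnode hπ0' hπinf' hinf' hxy hr hQ' hQrat hξQ'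
  · have H := hasValueAt_of_node hπ hnode hπ0' hπinf' hinf' hxy hr T hT' hrat hfT' ξ hξ' ainf k u
      hfac hQ' hQrat hξQ'
    rw [hcoord] at H
    exact H

end Chart

end Fermat.Agent.MW.NAdic
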