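import Mathlib
import Fermat.Agent.MW.NADIC_helper6_Chart
import Fermat.Agent.SS.SINFEMB_helper9_Chart
import Fermat.Agent.SS.UNODE_helper6_Abs
import Fermat.Agent.SS.GLUE_helper3_C

/-!
# Project MW (S17) — [N-ADIC] helper6, [SHEET]: the value formula at a smooth closed point of a sheet
of the two-sheeted model, in the coordinate coming from the level of good reduction

`W`, `W'` the two Gauss extensions to `EN` (coordinate `u`), `W` lying over the Gauss extension `VM`
of the level of good reduction along `ι` with residue degree one; `𝔪` a closed point of the sheet of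
`W` in the chart `u`, not on the sheet of `W'`, at which `ι t` is regular.  Then `ι t` is a
coordinate on the cell of `𝔪` (`S = ∅`: good reduction everywhere in the coordinate `t`).
-/

set_option autoImplicit false
set_option linter.unusedSectionVars false
set_option linter.style.haveILetI false

open AlgebraicCurve IsLocalRing

namespace Fermat.Agent.MW.NAdic

open Fermat.Agent.SS Fermat.Agent.JA Fermat.Agent.FF

section Sheet

variable {R : Type*} [CommRing R] [IsDomain R] [IsDiscreteValuationRing R] [CharZero R]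
  {K₁ : Type*} [Field K₁] [Algebra R K₁] [IsFractionRing R K₁]
  {KM : Type*} [Field KM] [Algebra K₁ KM] [Algebra R KM] [IsScalarTower R K₁ KM]
  {EM : Type*} [Field EM] [Algebra KM EM] [Algebra K₁ EM] [IsScalarTower K₁ KM EM]
  [Algebra R EM] [IsScalarTower R KM EM]
  {KN : Type*} [Field KN] [Algebra K₁ KN] [Algebra R KN] [IsScalarTower R K₁ KN]
  {EN : Type*} [Field EN] [Algebra KN EN] [Algebra K₁ EN] [IsScalarTower K₁ KN EN] [Algebra R EN]
  [IsScalarTower R KN EN] [FiniteDimensional KN EN]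
  {π : R} {t : KM} {n : ℕ}

/-- **the value formula on the cell of a smooth closed point of a sheet.** -/
theorem sheet_cell_value [IsAlgClosed (IsLocalRing.ResidueField R)] [DecidableEq (Place K₁ EN)]
    [IsScalarTower R K₁ EN]
    (hgeo : GeoHyps K₁ π t EM n (∅ : Finset R)) (VM : ValuationSubring EM)
    (hGM : IsGaussAt R π t (VM.comap (algebraMap KM EM)))
    {u : KN} (hu : Transcendental K₁ u) (hK : IntermediateField.adjoin K₁ {u} = ⊤)
    (ι : EM →+* EN) (hι : ∀ c : R, ι (algebraMap R EM c) = algebraMap R EN c)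
    {W W' : ValuationSubring EN} (hG : IsGaussAt R π u (W.comap (algebraMap KN EN)))
    (hG' : IsGaussAt R π u (W'.comap (algebraMap KN EN)))
    (hred : sheetIdeal u W (chart_le_of_isGaussAt hG) ⊓ sheetIdeal u W' (chart_le_of_isGaussAt hG') ≤
      Ideal.span {algebraMap R ↥(chartOne R EN u) π})
    (hcomap : W.comap ι = VM) (hresW : ∀ x ∈ W, ∃ a ∈ VM, W.valuation (x - ι a) < 1)
    (𝔪 : Ideal ↥(chartOne R EN u)) [h𝔪 : 𝔪.IsMaximal]
    (hle : sheetIdeal u W (chart_le_of_isGaussAt hG) ≤ 𝔪)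
    (hnle : ¬ sheetIdeal u W' (chart_le_of_isGaussAt hG') ≤ 𝔪)
    (hreg : ι (algebraMap KM EM t) ∈ locRing (chartOne R EN u) 𝔪)
    {f : EN} (hf : f ≠ 0) (T : Finset (Place K₁ EN)) (hT : ∀ P ∈ T, CentredAt 𝔪 P)
    (hrat : ∀ P ∈ T, IsRationalPlace P)
    (hfT : ∀ P : Place K₁ EN, CentredAt 𝔪 P → P.ord f ≠ 0 → P ∈ T)
    (ζ : Place K₁ EN → R)
    (hζ : ∀ P ∈ T, HasValueAt P (ι (algebraMap KM EM t)) (algebraMap R K₁ (ζ P)))
    (a : ℤ) (hfa : f * (algebraMap R EN π ^ a)⁻¹ ∈ W) (hfa' : (f * (algebraMap R EN π ^ a)⁻¹)⁻¹ ∈ W)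
    {Q : Place K₁ EN} (hQ : CentredAt 𝔪 Q) (hQrat : IsRationalPlace Q)
    (hζQ : HasValueAt Q (ι (algebraMap KM EM t)) (algebraMap R K₁ (ζ Q))) :
    Q.ord (ι (algebraMap KM EM t) - algebraMap K₁ EN (algebraMap R K₁ (ζ Q))) = 1 ∧
    ∃ w : Rˣ, HasValueAt Q
      (f * ((ι (algebraMap KM EM t) - algebraMap K₁ EN (algebraMap R K₁ (ζ Q))) ^ (Q.ord f))⁻¹)
      (algebraMap R K₁ π ^ a * algebraMap R K₁ (w : R) *
        ∏ P ∈ T.erase Q, (algebraMap R K₁ (ζ Q) - algebraMap R K₁ (ζ P)) ^ (P.ord f)) := by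
  haveI : IsIntegrallyClosed ↥(chartOne R EN u) := isIntegrallyClosed_chartOne (K₁ := K₁) u hK
  haveI : IsNoetherianRing ↥(chartOne R EN u) := isNoetherianRing_chartOne (K₁ := K₁) u hu hK
  haveI : IsFractionRing ↥(chartOne R EN u) EN := isFractionRing_chartOne (K₁ := K₁) u hK
  have hπ := hgeo.irreducible
  obtain ⟨a₀, y, s', hs', hy, hbr⟩ := GeoHyps.exists_coord_sub_isBranchUniformizer_sheet hgeo VM hGM
    hu hK ι hι hG hcomap hresW 𝔪 hle hreg (fun s₀ hs₀ => absurd hs₀ (Finset.notMem_empty s₀))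
  have hfπ : IsUnitAtPrime (sheetIdeal u W (chart_le_of_isGaussAt hG))
      (f * (algebraMap R EN π ^ a)⁻¹) :=
    isUnitAtPrime_sheetIdeal_of_isGaussAt hπ hu hK hG
      (mul_ne_zero hf (inv_ne_zero (zpow_ne_zero _ (algebraMap_pi_ne_zero (K₁ := K₁) (K := KN) hπ))))
      hfa hfa'
  have hcoord : ∀ c : R, ι (algebraMap KM EM t) - algebraMap R EN a₀ -
      algebraMap K₁ EN (algebraMap R K₁ (c - a₀)) =
      ι (algebraMap KM EM t) - algebraMap K₁ EN (algebraMap R K₁ c) := by
    intro c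
    rw [map_sub, map_sub, ← IsScalarTower.algebraMap_apply R K₁ EN,
      ← IsScalarTower.algebraMap_apply R K₁ EN]
    ring
  have hvalshift : ∀ (P : Place K₁ EN) (c : R),
      HasValueAt P (ι (algebraMap KM EM t)) (algebraMap R K₁ c) →
      HasValueAt P (ι (algebraMap KM EM t) - algebraMap R EN a₀) (algebraMap R K₁ (c - a₀)) := by
    intro P c hv
    rw [map_sub]
    refine hv.sub ?_
    rw [IsScalarTower.algebraMap_apply R K₁ EN]
    exact HasValueAt.algebraMap' P _
  have H := chart_smooth_value (B := ↥(chartOne R EN u)) hπ 𝔪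
    (𝔭 := sheetIdeal u W (chart_le_of_isGaussAt hG))
    (𝔭' := sheetIdeal u W' (chart_le_of_isGaussAt hG'))
    (sinfemb_pi_mem_sheetIdeal hG) hred hle hnle
    (z₀ := ι (algebraMap KM EM t) - algebraMap R EN a₀) hs' hy hbr hf T hT hrat hfT
    (fun P => ζ P - a₀) (fun P hP => hvalshift P (ζ P) (hζ P hP)) a hfπ hQ hQrat
    (hvalshift Q (ζ Q) hζQ)
  simp only [hcoord] at H
  obtain ⟨H1, w, H2⟩ := H
  refine ⟨H1, w, ?_⟩
  have hprod : ∀ P : Place K₁ EN, algebraMap R K₁ (ζ Q - a₀) - algebraMap R K₁ (ζ P - a₀) =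
      algebraMap R K₁ (ζ Q) - algebraMap R K₁ (ζ P) := by
    intro P
    rw [map_sub, map_sub]; ring
  simp only [hprod] at H2
  exact H2

end Sheet

end Fermat.Agent.MW.NAdic
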