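import Mathlib
import Fermat.Agent.MW.NADIC_helper6_Sheet
import Fermat.Agent.SS.EXPORT_helper4_Model
import Fermat.Agent.SS.CUSPREG_helper1

/-!
# Project MW (S17) — [N-ADIC] helper6, [ONE]: the four smooth cells of a level-one two-sheeted model

`h : SSModel K₁ π q n ∅ t jM j A B VM Winf W0` a model with good reduction everywhere in the
coordinate `t` of level `M` (`S = ∅`), for instance the level-one model of `X₀(q)` over the `j`-line
(`ssModelOne`).  With `tA = A t`, `tB = B t`: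

* `SSModel.cell_inf` : the value formula on the cell of a closed point of the chart `j` lying only on
  the sheet `C_∞`, coordinate `tA`;
* `SSModel.cell_zero` : the same for the sheet `C_0`, coordinate `tB`;
* `SSModel.cell_cusp_inf`, `SSModel.cell_cusp_zero` : the same on the chart `j⁻¹`, coordinates
  `tA⁻¹`, `tB⁻¹` (given `GeoHyps` for `t⁻¹` with empty branch set).
-/

set_option autoImplicit false
set_option linter.unusedSectionVars false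
set_option linter.style.haveILetI false

open AlgebraicCurve IsLocalRing

namespace Fermat.Agent.MW.NAdic

open Fermat.Agent.SS Fermat.Agent.JA Fermat.Agent.FF

section Model

variable {R : Type*} [CommRing R] [IsDomain R] [IsDiscreteValuationRing R] [CharZero R]
  {K₁ : Type*} [Field K₁] [Algebra R K₁] [IsFractionRing R K₁]
  {KM : Type*} [Field KM] [Algebra K₁ KM] [Algebra R KM] [IsScalarTower R K₁ KM]
  {EM : Type*} [Field EM] [Algebra KM EM] [Algebra K₁ EM] [IsScalarTower K₁ KM EM] [Algebra R EM]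
  [IsScalarTower R KM EM]
  {KN : Type*} [Field KN] [Algebra K₁ KN] [Algebra R KN] [IsScalarTower R K₁ KN]
  {EN : Type*} [Field EN] [Algebra KN EN] [Algebra K₁ EN] [IsScalarTower K₁ KN EN] [Algebra R EN]
  [IsScalarTower R KN EN] [FiniteDimensional KN EN]
  {π : R} {q n : ℕ} {t : KM} {jM : EM} {j : KN} {A B : EM →+* EN}
  {VM : ValuationSubring EM} {Winf W0 : ValuationSubring EN}

/-- **the cell of a closed point of the chart `j` lying only on `C_∞`.** -/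
theorem SSModel.cell_inf [IsAlgClosed (IsLocalRing.ResidueField R)] [DecidableEq (Place K₁ EN)]
    [IsScalarTower R K₁ EN]
    (h : SSModel K₁ π q n (∅ : Finset R) t jM j A B VM Winf W0) (hπ : Irreducible π)
    (𝔪 : Ideal ↥(chartOne R EN j)) [h𝔪 : 𝔪.IsMaximal]
    (hle : sheetIdeal j Winf h.two.chart_le_inf ≤ 𝔪)
    (hnle : ¬ sheetIdeal j W0 h.two.chart_le_zero ≤ 𝔪)
    {f : EN} (hf : f ≠ 0) (T : Finset (Place K₁ EN)) (hT : ∀ P ∈ T, CentredAt 𝔪 P)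
    (hrat : ∀ P ∈ T, IsRationalPlace P)
    (hfT : ∀ P : Place K₁ EN, CentredAt 𝔪 P → P.ord f ≠ 0 → P ∈ T)
    (ζ : Place K₁ EN → R)
    (hζ : ∀ P ∈ T, HasValueAt P (A (algebraMap KM EM t)) (algebraMap R K₁ (ζ P)))
    (a : ℤ) (hfa : f * (algebraMap R EN π ^ a)⁻¹ ∈ Winf)
    (hfa' : (f * (algebraMap R EN π ^ a)⁻¹)⁻¹ ∈ Winf)
    {Q : Place K₁ EN} (hQ : CentredAt 𝔪 Q) (hQrat : IsRationalPlace Q)
    (hζQ : HasValueAt Q (A (algebraMap KM EM t)) (algebraMap R K₁ (ζ Q))) :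
    Q.ord (A (algebraMap KM EM t) - algebraMap K₁ EN (algebraMap R K₁ (ζ Q))) = 1 ∧
    ∃ w : Rˣ, HasValueAt Q
      (f * ((A (algebraMap KM EM t) - algebraMap K₁ EN (algebraMap R K₁ (ζ Q))) ^ (Q.ord f))⁻¹)
      (algebraMap R K₁ π ^ a * algebraMap R K₁ (w : R) *
        ∏ P ∈ T.erase Q, (algebraMap R K₁ (ζ Q) - algebraMap R K₁ (ζ P)) ^ (P.ord f)) :=
  sheet_cell_value h.geo VM h.gauss_M h.j_transcendental h.j_adjoin A h.A_algebraMap
    h.two.gauss_inf h.two.gauss_zero (h.two.inf_le_span hπ h.j_transcendental h.j_adjoin)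
    h.comap_A_inf h.res_inf 𝔪 hle hnle (le_locRing h.A_t_mem) hf T hT hrat hfT ζ hζ a hfa hfa'
    hQ hQrat hζQ

/-- **the cell of a closed point of the chart `j` lying only on `C_0`.** -/
theorem SSModel.cell_zero [IsAlgClosed (IsLocalRing.ResidueField R)] [DecidableEq (Place K₁ EN)]
    [IsScalarTower R K₁ EN]
    (h : SSModel K₁ π q n (∅ : Finset R) t jM j A B VM Winf W0) (hπ : Irreducible π)
    (𝔪 : Ideal ↥(chartOne R EN j)) [h𝔪 : 𝔪.IsMaximal]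
    (hle : sheetIdeal j W0 h.two.chart_le_zero ≤ 𝔪)
    (hnle : ¬ sheetIdeal j Winf h.two.chart_le_inf ≤ 𝔪)
    {f : EN} (hf : f ≠ 0) (T : Finset (Place K₁ EN)) (hT : ∀ P ∈ T, CentredAt 𝔪 P)
    (hrat : ∀ P ∈ T, IsRationalPlace P)
    (hfT : ∀ P : Place K₁ EN, CentredAt 𝔪 P → P.ord f ≠ 0 → P ∈ T)
    (ζ : Place K₁ EN → R)
    (hζ : ∀ P ∈ T, HasValueAt P (B (algebraMap KM EM t)) (algebraMap R K₁ (ζ P)))
    (a : ℤ) (hfa : f * (algebraMap R EN π ^ a)⁻¹ ∈ W0)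
    (hfa' : (f * (algebraMap R EN π ^ a)⁻¹)⁻¹ ∈ W0)
    {Q : Place K₁ EN} (hQ : CentredAt 𝔪 Q) (hQrat : IsRationalPlace Q)
    (hζQ : HasValueAt Q (B (algebraMap KM EM t)) (algebraMap R K₁ (ζ Q))) :
    Q.ord (B (algebraMap KM EM t) - algebraMap K₁ EN (algebraMap R K₁ (ζ Q))) = 1 ∧
    ∃ w : Rˣ, HasValueAt Q
      (f * ((B (algebraMap KM EM t) - algebraMap K₁ EN (algebraMap R K₁ (ζ Q))) ^ (Q.ord f))⁻¹)
      (algebraMap R K₁ π ^ a * algebraMap R K₁ (w : R) *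
        ∏ P ∈ T.erase Q, (algebraMap R K₁ (ζ Q) - algebraMap R K₁ (ζ P)) ^ (P.ord f)) :=
  sheet_cell_value h.geo VM h.gauss_M h.j_transcendental h.j_adjoin B h.B_algebraMap
    h.two.gauss_zero h.two.gauss_inf
    (by rw [inf_comm]; exact h.two.inf_le_span hπ h.j_transcendental h.j_adjoin)
    h.comap_B_zero h.res_zero 𝔪 hle hnle (le_locRing (h.B_t_mem (h.jq_mem_chartOne hπ))) hf T hT
    hrat hfT ζ hζ a hfa hfa' hQ hQrat hζQ

/-- **the cell of a closed point of the chart `j⁻¹` lying only on `C_∞`**, coordinate `A t⁻¹`. -/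
theorem SSModel.cell_cusp_inf [IsAlgClosed (IsLocalRing.ResidueField R)]
    [DecidableEq (Place K₁ EN)] [IsScalarTower R K₁ EN]
    (h : SSModel K₁ π q n (∅ : Finset R) t jM j A B VM Winf W0) (hπ : Irreducible π)
    (hgeo' : GeoHyps K₁ π t⁻¹ EM n (∅ : Finset R)) (h2 : IsTwoSheet π j⁻¹ Winf W0)
    (𝔪 : Ideal ↥(chartOne R EN j⁻¹)) [h𝔪 : 𝔪.IsMaximal]
    (hle : sheetIdeal j⁻¹ Winf h2.chart_le_inf ≤ 𝔪)
    (hnle : ¬ sheetIdeal j⁻¹ W0 h2.chart_le_zero ≤ 𝔪)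
    (hreg : A (algebraMap KM EM t⁻¹) ∈ locRing (chartOne R EN j⁻¹) 𝔪)
    {f : EN} (hf : f ≠ 0) (T : Finset (Place K₁ EN)) (hT : ∀ P ∈ T, CentredAt 𝔪 P)
    (hrat : ∀ P ∈ T, IsRationalPlace P)
    (hfT : ∀ P : Place K₁ EN, CentredAt 𝔪 P → P.ord f ≠ 0 → P ∈ T)
    (ζ : Place K₁ EN → R)
    (hζ : ∀ P ∈ T, HasValueAt P (A (algebraMap KM EM t⁻¹)) (algebraMap R K₁ (ζ P)))
    (a : ℤ) (hfa : f * (algebraMap R EN π ^ a)⁻¹ ∈ Winf)
    (hfa' : (f * (algebraMap R EN π ^ a)⁻¹)⁻¹ ∈ Winf)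
    {Q : Place K₁ EN} (hQ : CentredAt 𝔪 Q) (hQrat : IsRationalPlace Q)
    (hζQ : HasValueAt Q (A (algebraMap KM EM t⁻¹)) (algebraMap R K₁ (ζ Q))) :
    Q.ord (A (algebraMap KM EM t⁻¹) - algebraMap K₁ EN (algebraMap R K₁ (ζ Q))) = 1 ∧
    ∃ w : Rˣ, HasValueAt Q
      (f * ((A (algebraMap KM EM t⁻¹) - algebraMap K₁ EN (algebraMap R K₁ (ζ Q))) ^ (Q.ord f))⁻¹)
      (algebraMap R K₁ π ^ a * algebraMap R K₁ (w : R) *
        ∏ P ∈ T.erase Q, (algebraMap R K₁ (ζ Q) - algebraMap R K₁ (ζ P)) ^ (P.ord f)) := by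
  have hu' := transcendental_inv_of_transcendental h.j_transcendental
  have hK' := adjoin_inv_eq_top h.j_adjoin
  exact sheet_cell_value hgeo' VM (isGaussAt_inv π hπ.prime t _ h.gauss_M) hu' hK' A
    h.A_algebraMap h2.gauss_inf h2.gauss_zero (h2.inf_le_span hπ hu' hK')
    h.comap_A_inf h.res_inf 𝔪 hle hnle hreg hf T hT hrat hfT ζ hζ a hfa hfa' hQ hQrat hζQ

/-- **the cell of a closed point of the chart `j⁻¹` lying only on `C_0`**, coordinate `B t⁻¹`. -/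
theorem SSModel.cell_cusp_zero [IsAlgClosed (IsLocalRing.ResidueField R)]
    [DecidableEq (Place K₁ EN)] [IsScalarTower R K₁ EN]
    (h : SSModel K₁ π q n (∅ : Finset R) t jM j A B VM Winf W0) (hπ : Irreducible π)
    (hgeo' : GeoHyps K₁ π t⁻¹ EM n (∅ : Finset R)) (h2 : IsTwoSheet π j⁻¹ Winf W0)
    (𝔪 : Ideal ↥(chartOne R EN j⁻¹)) [h𝔪 : 𝔪.IsMaximal]
    (hle : sheetIdeal j⁻¹ W0 h2.chart_le_zero ≤ 𝔪)
    (hnle : ¬ sheetIdeal j⁻¹ Winf h2.chart_le_inf ≤ 𝔪)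
    (hreg : B (algebraMap KM EM t⁻¹) ∈ locRing (chartOne R EN j⁻¹) 𝔪)
    {f : EN} (hf : f ≠ 0) (T : Finset (Place K₁ EN)) (hT : ∀ P ∈ T, CentredAt 𝔪 P)
    (hrat : ∀ P ∈ T, IsRationalPlace P)
    (hfT : ∀ P : Place K₁ EN, CentredAt 𝔪 P → P.ord f ≠ 0 → P ∈ T)
    (ζ : Place K₁ EN → R)
    (hζ : ∀ P ∈ T, HasValueAt P (B (algebraMap KM EM t⁻¹)) (algebraMap R K₁ (ζ P)))
    (a : ℤ) (hfa : f * (algebraMap R EN π ^ a)⁻¹ ∈ W0)
    (hfa' : (f * (algebraMap R EN π ^ a)⁻¹)⁻¹ ∈ W0)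
    {Q : Place K₁ EN} (hQ : CentredAt 𝔪 Q) (hQrat : IsRationalPlace Q)
    (hζQ : HasValueAt Q (B (algebraMap KM EM t⁻¹)) (algebraMap R K₁ (ζ Q))) :
    Q.ord (B (algebraMap KM EM t⁻¹) - algebraMap K₁ EN (algebraMap R K₁ (ζ Q))) = 1 ∧
    ∃ w : Rˣ, HasValueAt Q
      (f * ((B (algebraMap KM EM t⁻¹) - algebraMap K₁ EN (algebraMap R K₁ (ζ Q))) ^ (Q.ord f))⁻¹)
      (algebraMap R K₁ π ^ a * algebraMap R K₁ (w : R) *
        ∏ P ∈ T.erase Q, (algebraMap R K₁ (ζ Q) - algebraMap R K₁ (ζ P)) ^ (P.ord f)) := by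
  have hu' := transcendental_inv_of_transcendental h.j_transcendental
  have hK' := adjoin_inv_eq_top h.j_adjoin
  exact sheet_cell_value hgeo' VM (isGaussAt_inv π hπ.prime t _ h.gauss_M) hu' hK' B
    h.B_algebraMap h2.gauss_zero h2.gauss_inf
    (by rw [inf_comm]; exact h2.inf_le_span hπ hu' hK')
    h.comap_B_zero h.res_zero 𝔪 hle hnle hreg hf T hT hrat hfT ζ hζ a hfa hfa' hQ hQrat hζQ

/-! ### the function `φ = j_q / j^q` at the cuspidal closed points of the chart `j⁻¹` -/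

/-- `φ = j_q / j^q` is regular at every closed point of the chart `j⁻¹`. -/
theorem SSModel.cuspPhi_mem_locRing (h : SSModel K₁ π q n (∅ : Finset R) t jM j A B VM Winf W0)
    (hπ : Irreducible π) (h2 : IsTwoSheet π j⁻¹ Winf W0)
    (𝔪 : Ideal ↥(chartOne R EN j⁻¹)) [h𝔪 : 𝔪.IsPrime] :
    B jM * ((A jM) ^ q)⁻¹ ∈ locRing (chartOne R EN j⁻¹) 𝔪 := by
  have hu := h.j_transcendental
  have hK := h.j_adjoin
  have hu' := transcendental_inv_of_transcendental hu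
  have hK' := adjoin_inv_eq_top hK
  have hxJ : algebraMap KN EN j⁻¹ = (A jM)⁻¹ := by rw [map_inv₀, h.A_j]
  have hJiinf : (A jM)⁻¹ ∈ Winf := by
    rw [← hxJ]; exact h2.chart_le_inf _ (algebraMap_coord_mem_chartOne j⁻¹)
  have hJi0 : (A jM)⁻¹ ∈ W0 := by
    rw [← hxJ]; exact h2.chart_le_zero _ (algebraMap_coord_mem_chartOne j⁻¹)
  have hφ' : B jM * ((A jM) ^ q)⁻¹ = B jM * (A jM)⁻¹ ^ q := by rw [inv_pow]
  refine h2.mem_locRing_of_forall hπ hu' hK' 𝔪 _ (fun _ => ?_) (fun _ => ?_)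
    (fun V hπV hV _ => ?_)
  · rw [hφ']; exact Winf.mul_mem _ _ h.jq_mem_inf (pow_mem hJiinf q)
  · rw [hφ']; exact W0.mul_mem _ _ h.jq_mem_zero (pow_mem hJi0 q)
  · have hR : ∀ r : R, algebraMap R EN r ∈ V :=
      fun r => hV _ (Subalgebra.algebraMap_mem _ r)
    have hJiV : (A jM)⁻¹ ∈ V := by
      rw [← hxJ]; exact hV _ (algebraMap_coord_mem_chartOne j⁻¹)
    by_cases hJV : A jM ∈ V
    · have hTqV : B jM ∈ V := by
        by_contra hB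
        exact h.cuspord' V hR hπV hB hJV
      rw [hφ']; exact V.mul_mem _ _ hTqV (pow_mem hJiV q)
    · exact (h.cuspord V hR hπV hJV).1

/-- on the sheet `C_∞`, `φ ≡ 1`. -/
theorem SSModel.cuspPhi_sub_one_mem_locMax
    (h : SSModel K₁ π q n (∅ : Finset R) t jM j A B VM Winf W0)
    (hπ : Irreducible π) (h2 : IsTwoSheet π j⁻¹ Winf W0)
    (𝔪 : Ideal ↥(chartOne R EN j⁻¹)) [h𝔪 : 𝔪.IsPrime]
    (hinf : sheetIdeal j⁻¹ Winf h2.chart_le_inf ≤ 𝔪) :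
    B jM * ((A jM) ^ q)⁻¹ - 1 ∈ locMax (chartOne R EN j⁻¹) 𝔪 := by
  have hφL := SSModel.cuspPhi_mem_locRing h hπ h2 𝔪
  have hj0 : j ≠ 0 := by
    rintro rfl
    exact h.j_transcendental isAlgebraic_zero
  have hJ0 : A jM ≠ 0 := by rw [h.A_j, Ne, map_eq_zero]; exact hj0
  have hxJ : algebraMap KN EN j⁻¹ = (A jM)⁻¹ := by rw [map_inv₀, h.A_j]
  have hJiinf : (A jM)⁻¹ ∈ Winf := by
    rw [← hxJ]; exact h2.chart_le_inf _ (algebraMap_coord_mem_chartOne j⁻¹)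
  have hsinf := (sheet_le_iff (B := chartOne R EN j⁻¹) (𝔪 := 𝔪) h2.chart_le_inf
    (mem_sheetIdeal_iff j⁻¹ Winf h2.chart_le_inf)).mp hinf
  refine hsinf _ ((locRing (chartOne R EN j⁻¹) 𝔪).sub_mem hφL (Subalgebra.one_mem _)) ?_
  have hk := h.kron_j_inf
  have he : B jM * ((A jM) ^ q)⁻¹ - 1 = (B jM - A jM ^ q) * (A jM)⁻¹ ^ q := by
    rw [inv_pow, sub_mul, mul_inv_cancel₀ (pow_ne_zero q hJ0)]
  rw [he]
  exact valuation_mul_lt_one_of_mem Winf hk (pow_mem hJiinf q)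

/-- on the sheet `C_0`, at a cuspidal closed point, `φ^q ≡ 0`. -/
theorem SSModel.cuspPhi_pow_mem_locMax
    (h : SSModel K₁ π q n (∅ : Finset R) t jM j A B VM Winf W0)
    (hπ : Irreducible π) (h2 : IsTwoSheet π j⁻¹ Winf W0)
    (𝔪 : Ideal ↥(chartOne R EN j⁻¹)) [h𝔪 : 𝔪.IsPrime]
    (hx : (⟨algebraMap KN EN j⁻¹, algebraMap_coord_mem_chartOne j⁻¹⟩ : ↥(chartOne R EN j⁻¹)) ∈ 𝔪)
    (h0 : sheetIdeal j⁻¹ W0 h2.chart_le_zero ≤ 𝔪) :
    (B jM * ((A jM) ^ q)⁻¹) ^ q ∈ locMax (chartOne R EN j⁻¹) 𝔪 := by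
  have hφL := SSModel.cuspPhi_mem_locRing h hπ h2 𝔪
  have hj0 : j ≠ 0 := by
    rintro rfl
    exact h.j_transcendental isAlgebraic_zero
  set J : EN := A jM with hJ
  have hJ0 : J ≠ 0 := by rw [hJ, h.A_j, Ne, map_eq_zero]; exact hj0
  have hxJ : algebraMap KN EN j⁻¹ = J⁻¹ := by rw [map_inv₀, hJ, h.A_j]
  have hJi0 : J⁻¹ ∈ W0 := by
    rw [← hxJ]; exact h2.chart_le_zero _ (algebraMap_coord_mem_chartOne j⁻¹)
  set φ : EN := B jM * (J ^ q)⁻¹ with hφ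
  have hφ' : φ = B jM * J⁻¹ ^ q := by rw [hφ, inv_pow]
  have hs0 := (sheet_le_iff (B := chartOne R EN j⁻¹) (𝔪 := 𝔪) h2.chart_le_zero
    (mem_sheetIdeal_iff j⁻¹ W0 h2.chart_le_zero)).mp h0
  obtain ⟨m, hm⟩ : ∃ m : ℕ, q * q = m + 1 :=
    ⟨q * q - 1, (Nat.sub_add_cancel (Nat.mul_pos h.q_prime.pos h.q_prime.pos)).symm⟩
  have hm1 : 0 < m := by
    have := h.q_prime.two_le
    nlinarith
  have hxm : J⁻¹ ^ m ∈ locMax (chartOne R EN j⁻¹) 𝔪 := by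
    have h3 : (⟨algebraMap KN EN j⁻¹, algebraMap_coord_mem_chartOne j⁻¹⟩ :
        ↥(chartOne R EN j⁻¹)) ^ m ∈ 𝔪 := Ideal.pow_mem_of_mem 𝔪 hx m hm1
    have h4 := (coe_mem_locMax_iff (B := chartOne R EN j⁻¹) (𝔪 := 𝔪) _).mpr h3
    rw [SubmonoidClass.coe_pow] at h4
    change (algebraMap KN EN j⁻¹) ^ m ∈ _ at h4
    rwa [hxJ] at h4
  have he : φ ^ q = (φ ^ q - J⁻¹ ^ m) + J⁻¹ ^ m := by ring
  rw [he]
  refine add_mem_locMax (hs0 _ ((locRing (chartOne R EN j⁻¹) 𝔪).sub_mem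
    (pow_mem hφL q) (locMax_subset_locRing hxm)) ?_) hxm
  have hk := h.kron_j_zero
  rw [← hJ] at hk
  have he' : φ ^ q - J⁻¹ ^ m = -((J - B jM ^ q) * J⁻¹ ^ (m + 1)) := by
    have h5 : J⁻¹ ^ m = J * J⁻¹ ^ (m + 1) := by
      rw [pow_succ, mul_comm (J⁻¹ ^ m), ← mul_assoc, mul_inv_cancel₀ hJ0, one_mul]
    have h6 : φ ^ q = B jM ^ q * J⁻¹ ^ (m + 1) := by
      rw [hφ', mul_pow, ← pow_mul, hm]
    rw [h6]
    nth_rewrite 1 [h5]
    ring
  rw [he', Valuation.map_neg]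
  exact valuation_mul_lt_one_of_mem W0 hk (pow_mem hJi0 _)

/-- at a cuspidal closed point of the chart `j⁻¹`, `j_q⁻¹` lies in the maximal ideal of the local
ring (given that `j` is integral over `R[j_q]`). -/
theorem SSModel.jq_inv_mem_locMax_of_cusp
    (h : SSModel K₁ π q n (∅ : Finset R) t jM j A B VM Winf W0)
    (hjint : IsIntegral ↥(Algebra.adjoin R {B jM}) (A jM))
    (𝔪 : Ideal ↥(chartOne R EN j⁻¹)) [𝔪.IsMaximal]
    (hx : (⟨algebraMap KN EN j⁻¹, algebraMap_coord_mem_chartOne j⁻¹⟩ : ↥(chartOne R EN j⁻¹)) ∈ 𝔪) :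
    (B jM)⁻¹ ∈ locMax (chartOne R EN j⁻¹) 𝔪 := by
  have hj0 : j ≠ 0 := by
    rintro rfl
    exact h.j_transcendental isAlgebraic_zero
  refine mem_locMax_of_forall_valuationSubring (mem_chartOne_of_isIntegral j⁻¹) _
    (fun V hBV h𝔪V => ?_)
  have h1 : V.valuation (algebraMap KN EN j⁻¹) < 1 :=
    h𝔪V ⟨algebraMap KN EN j⁻¹, algebraMap_coord_mem_chartOne j⁻¹⟩ hx
  have hRV : ∀ r : R, algebraMap R EN r ∈ V := fun r =>
    hBV _ ((chartOne R EN j⁻¹).algebraMap_mem r)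
  have h2 : B jM ∉ V := by
    intro hBV'
    have h3 : A jM ∈ V := mem_valuationSubring_of_isIntegral_adjoin_singleton V hRV hBV' hjint
    rw [h.A_j, ← ValuationSubring.valuation_le_one_iff] at h3
    have h4 : V.valuation (algebraMap KN EN j) * V.valuation (algebraMap KN EN j⁻¹) = 1 := by
      rw [← map_mul, ← map_mul, mul_inv_cancel₀ hj0, map_one, map_one]
    have h5 : V.valuation (algebraMap KN EN j) * V.valuation (algebraMap KN EN j⁻¹) < 1 := by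
      calc V.valuation (algebraMap KN EN j) * V.valuation (algebraMap KN EN j⁻¹)
          ≤ 1 * V.valuation (algebraMap KN EN j⁻¹) := mul_le_mul_left h3 _
        _ < 1 := by rw [one_mul]; exact h1
    rw [h4] at h5
    exact lt_irrefl _ h5
  rw [← ValuationSubring.valuation_le_one_iff, not_le] at h2
  rw [map_inv₀]
  exact inv_lt_one_of_one_lt₀ h2

end Model

end Fermat.Agent.MW.NAdic
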