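import Mathlib
import Fermat.Agent.MW.NADIC_helper6_Fac
import Fermat.Agent.MW.NADIC_helper6_One

/-!
# Project MW (S17) — [N-ADIC] helper6, [FAC2]: the factorisation on the smooth cells of a sheet of the
two-sheeted model (companion of `sheet_cell_value`, `SSModel.cell_inf`, `SSModel.cell_cusp_inf`)
-/

set_option autoImplicit false
set_option linter.unusedSectionVars false
set_option linter.style.haveILetI false

open AlgebraicCurve IsLocalRing

namespace Fermat.Agent.MW.NAdic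

open Fermat.Agent.SS Fermat.Agent.JA Fermat.Agent.FF

section Sheet

variable {R : Type*} [CommRing R] [IsDomain R] [IsDiscreteValuationRing R] [CharZero R]
  {K₁ : Type*} [Field K₁] [Algebra R K₁] [IsFractionRing R K₁]
  {KM : Type*} [Field KM] [Algebra K₁ KM] [Algebra R KM] [IsScalarTower R K₁ KM]
  {EM : Type*} [Field EM] [Algebra KM EM] [Algebra K₁ EM] [IsScalarTower K₁ KM EM]
  [Algebra R EM] [IsScalarTower R KM EM]
  {KN : Type*} [Field KN] [Algebra K₁ KN] [Algebra R KN] [IsScalarTower R K₁ KN]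
  {EN : Type*} [Field EN] [Algebra KN EN] [Algebra K₁ EN] [IsScalarTower K₁ KN EN] [Algebra R EN]
  [IsScalarTower R KN EN] [FiniteDimensional KN EN]
  {π : R} {t : KM} {n : ℕ}

/-- **the factorisation on the cell of a smooth closed point of a sheet**: `u` is a unit of the
local ring of the chart at `𝔪`. -/
theorem sheet_cell_factorisation [IsAlgClosed (IsLocalRing.ResidueField R)]
    [IsScalarTower R K₁ EN]
    (hgeo : GeoHyps K₁ π t EM n (∅ : Finset R)) (VM : ValuationSubring EM)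
    (hGM : IsGaussAt R π t (VM.comap (algebraMap KM EM)))
    {u : KN} (hu : Transcendental K₁ u) (hK : IntermediateField.adjoin K₁ {u} = ⊤)
    (ι : EM →+* EN) (hι : ∀ c : R, ι (algebraMap R EM c) = algebraMap R EN c)
    {W W' : ValuationSubring EN} (hG : IsGaussAt R π u (W.comap (algebraMap KN EN)))
    (hG' : IsGaussAt R π u (W'.comap (algebraMap KN EN)))
    (hred : sheetIdeal u W (chart_le_of_isGaussAt hG) ⊓ sheetIdeal u W' (chart_le_of_isGaussAt hG') ≤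
      Ideal.span {algebraMap R ↥(chartOne R EN u) π})
    (hcomap : W.comap ι = VM) (hresW : ∀ x ∈ W, ∃ a ∈ VM, W.valuation (x - ι a) < 1)
    (𝔪 : Ideal ↥(chartOne R EN u)) [h𝔪 : 𝔪.IsMaximal]
    (hle : sheetIdeal u W (chart_le_of_isGaussAt hG) ≤ 𝔪)
    (hnle : ¬ sheetIdeal u W' (chart_le_of_isGaussAt hG') ≤ 𝔪)
    (hreg : ι (algebraMap KM EM t) ∈ locRing (chartOne R EN u) 𝔪)
    {f : EN} (hf : f ≠ 0) (T : Finset (Place K₁ EN)) (hT : ∀ P ∈ T, CentredAt 𝔪 P)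
    (hrat : ∀ P ∈ T, IsRationalPlace P)
    (hfT : ∀ P : Place K₁ EN, CentredAt 𝔪 P → P.ord f ≠ 0 → P ∈ T)
    (ζ : Place K₁ EN → R)
    (hζ : ∀ P ∈ T, HasValueAt P (ι (algebraMap KM EM t)) (algebraMap R K₁ (ζ P)))
    (a : ℤ) (hfa : f * (algebraMap R EN π ^ a)⁻¹ ∈ W)
    (hfa' : (f * (algebraMap R EN π ^ a)⁻¹)⁻¹ ∈ W) :
    ∃ v : EN, v ∈ locRing (chartOne R EN u) 𝔪 ∧ v ∉ locMax (chartOne R EN u) 𝔪 ∧
      f = algebraMap R EN π ^ a * v *
        ∏ P ∈ T, (ι (algebraMap KM EM t) - algebraMap K₁ EN (algebraMap R K₁ (ζ P))) ^ (P.ord f) := by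
  haveI : IsIntegrallyClosed ↥(chartOne R EN u) := isIntegrallyClosed_chartOne (K₁ := K₁) u hK
  haveI : IsNoetherianRing ↥(chartOne R EN u) := isNoetherianRing_chartOne (K₁ := K₁) u hu hK
  haveI : IsFractionRing ↥(chartOne R EN u) EN := isFractionRing_chartOne (K₁ := K₁) u hK
  haveI h𝔪p : 𝔪.IsPrime := h𝔪.isPrime
  have hπ := hgeo.irreducible
  obtain ⟨a₀, y, s', hs', hy, hbr⟩ := GeoHyps.exists_coord_sub_isBranchUniformizer_sheet hgeo VM hGM
    hu hK ι hι hG hcomap hresW 𝔪 hle hreg (fun s₀ hs₀ => absurd hs₀ (Finset.notMem_empty s₀))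
  have hfπ : IsUnitAtPrime (sheetIdeal u W (chart_le_of_isGaussAt hG))
      (f * (algebraMap R EN π ^ a)⁻¹) :=
    isUnitAtPrime_sheetIdeal_of_isGaussAt hπ hu hK hG
      (mul_ne_zero hf (inv_ne_zero (zpow_ne_zero _ (algebraMap_pi_ne_zero (K₁ := K₁) (K := KN) hπ))))
      hfa hfa'
  have hcoord : ∀ c : R, ι (algebraMap KM EM t) - algebraMap R EN a₀ -
      algebraMap K₁ EN (algebraMap R K₁ (c - a₀)) =
      ι (algebraMap KM EM t) - algebraMap K₁ EN (algebraMap R K₁ c) := by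
    intro c
    rw [map_sub, map_sub, ← IsScalarTower.algebraMap_apply R K₁ EN,
      ← IsScalarTower.algebraMap_apply R K₁ EN]
    ring
  have hvalshift : ∀ (P : Place K₁ EN) (c : R),
      HasValueAt P (ι (algebraMap KM EM t)) (algebraMap R K₁ c) →
      HasValueAt P (ι (algebraMap KM EM t) - algebraMap R EN a₀) (algebraMap R K₁ (c - a₀)) := by
    intro P c hv
    rw [map_sub]
    refine hv.sub ?_
    rw [IsScalarTower.algebraMap_apply R K₁ EN]
    exact HasValueAt.algebraMap' P _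
  obtain ⟨v, r, s, hr, hs, hrs, hfac⟩ := chart_smooth_factorisation (B := ↥(chartOne R EN u)) hπ 𝔪
    (𝔭 := sheetIdeal u W (chart_le_of_isGaussAt hG))
    (𝔭' := sheetIdeal u W' (chart_le_of_isGaussAt hG'))
    (sinfemb_pi_mem_sheetIdeal hG) hred hle hnle
    (z₀ := ι (algebraMap KM EM t) - algebraMap R EN a₀) hs' hy hbr hf T hT hrat hfT
    (fun P => ζ P - a₀) (fun P hP => hvalshift P (ζ P) (hζ P hP)) a hfπ
  simp only [hcoord] at hfac
  refine ⟨v, ⟨r, s, hs, hrs⟩, ?_, hfac⟩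
  rintro ⟨r', s'', hr', hs'', hrs'⟩
  -- `r * s'' = r' * s`, so `r * s'' ∈ 𝔪`
  have hs0 : (s : EN) ≠ 0 := fun h0 => hs (by
    have : s = 0 := Subtype.ext h0
    rw [this]; exact 𝔪.zero_mem)
  have h1 : (r : EN) * (s'' : EN) = (r' : EN) * (s : EN) := by
    have e1 : (r : EN) = v * (s : EN) := hrs.symm
    have e2 : (r' : EN) = v * (s'' : EN) := hrs'.symm
    rw [e1, e2]; ring
  have h2 : r * s'' = r' * s := Subtype.ext h1
  have h3 : r * s'' ∈ 𝔪 := by rw [h2]; exact 𝔪.mul_mem_right _ hr'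
  rcases h𝔪p.mem_or_mem h3 with h4 | h4
  · exact hr h4
  · exact hs'' h4

end Sheet

section Model

variable {R : Type*} [CommRing R] [IsDomain R] [IsDiscreteValuationRing R] [CharZero R]
  {K₁ : Type*} [Field K₁] [Algebra R K₁] [IsFractionRing R K₁]
  {KM : Type*} [Field KM] [Algebra K₁ KM] [Algebra R KM] [IsScalarTower R K₁ KM]
  {EM : Type*} [Field EM] [Algebra KM EM] [Algebra K₁ EM] [IsScalarTower K₁ KM EM] [Algebra R EM]
  [IsScalarTower R KM EM]
  {KN : Type*} [Field KN] [Algebra K₁ KN] [Algebra R KN] [IsScalarTower R K₁ KN]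
  {EN : Type*} [Field EN] [Algebra KN EN] [Algebra K₁ EN] [IsScalarTower K₁ KN EN] [Algebra R EN]
  [IsScalarTower R KN EN] [FiniteDimensional KN EN]
  {π : R} {q n : ℕ} {t : KM} {jM : EM} {j : KN} {A B : EM →+* EN}
  {VM : ValuationSubring EM} {Winf W0 : ValuationSubring EN}

/-- **the factorisation on the cell of a closed point of the chart `j` lying only on `C_∞`.** -/
theorem SSModel.fac_inf [IsAlgClosed (IsLocalRing.ResidueField R)] [IsScalarTower R K₁ EN]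
    (h : SSModel K₁ π q n (∅ : Finset R) t jM j A B VM Winf W0) (hπ : Irreducible π)
    (𝔪 : Ideal ↥(chartOne R EN j)) [h𝔪 : 𝔪.IsMaximal]
    (hle : sheetIdeal j Winf h.two.chart_le_inf ≤ 𝔪)
    (hnle : ¬ sheetIdeal j W0 h.two.chart_le_zero ≤ 𝔪)
    {f : EN} (hf : f ≠ 0) (T : Finset (Place K₁ EN)) (hT : ∀ P ∈ T, CentredAt 𝔪 P)
    (hrat : ∀ P ∈ T, IsRationalPlace P)
    (hfT : ∀ P : Place K₁ EN, CentredAt 𝔪 P → P.ord f ≠ 0 → P ∈ T)
    (ζ : Place K₁ EN → R)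
    (hζ : ∀ P ∈ T, HasValueAt P (A (algebraMap KM EM t)) (algebraMap R K₁ (ζ P)))
    (a : ℤ) (hfa : f * (algebraMap R EN π ^ a)⁻¹ ∈ Winf)
    (hfa' : (f * (algebraMap R EN π ^ a)⁻¹)⁻¹ ∈ Winf) :
    ∃ v : EN, v ∈ locRing (chartOne R EN j) 𝔪 ∧ v ∉ locMax (chartOne R EN j) 𝔪 ∧
      f = algebraMap R EN π ^ a * v *
        ∏ P ∈ T, (A (algebraMap KM EM t) - algebraMap K₁ EN (algebraMap R K₁ (ζ P))) ^ (P.ord f) :=
  sheet_cell_factorisation h.geo VM h.gauss_M h.j_transcendental h.j_adjoin A h.A_algebraMap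
    h.two.gauss_inf h.two.gauss_zero (h.two.inf_le_span hπ h.j_transcendental h.j_adjoin)
    h.comap_A_inf h.res_inf 𝔪 hle hnle (le_locRing h.A_t_mem) hf T hT hrat hfT ζ hζ a hfa hfa'

/-- **the factorisation on the cell of a closed point of the chart `j⁻¹` lying only on `C_∞`.** -/
theorem SSModel.fac_cusp_inf [IsAlgClosed (IsLocalRing.ResidueField R)] [IsScalarTower R K₁ EN]
    (h : SSModel K₁ π q n (∅ : Finset R) t jM j A B VM Winf W0) (hπ : Irreducible π)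
    (hgeo' : GeoHyps K₁ π t⁻¹ EM n (∅ : Finset R)) (h2 : IsTwoSheet π j⁻¹ Winf W0)
    (𝔪 : Ideal ↥(chartOne R EN j⁻¹)) [h𝔪 : 𝔪.IsMaximal]
    (hle : sheetIdeal j⁻¹ Winf h2.chart_le_inf ≤ 𝔪)
    (hnle : ¬ sheetIdeal j⁻¹ W0 h2.chart_le_zero ≤ 𝔪)
    (hreg : A (algebraMap KM EM t⁻¹) ∈ locRing (chartOne R EN j⁻¹) 𝔪)
    {f : EN} (hf : f ≠ 0) (T : Finset (Place K₁ EN)) (hT : ∀ P ∈ T, CentredAt 𝔪 P)
    (hrat : ∀ P ∈ T, IsRationalPlace P)
    (hfT : ∀ P : Place K₁ EN, CentredAt 𝔪 P → P.ord f ≠ 0 → P ∈ T)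
    (ζ : Place K₁ EN → R)
    (hζ : ∀ P ∈ T, HasValueAt P (A (algebraMap KM EM t⁻¹)) (algebraMap R K₁ (ζ P)))
    (a : ℤ) (hfa : f * (algebraMap R EN π ^ a)⁻¹ ∈ Winf)
    (hfa' : (f * (algebraMap R EN π ^ a)⁻¹)⁻¹ ∈ Winf) :
    ∃ v : EN, v ∈ locRing (chartOne R EN j⁻¹) 𝔪 ∧ v ∉ locMax (chartOne R EN j⁻¹) 𝔪 ∧
      f = algebraMap R EN π ^ a * v *
        ∏ P ∈ T, (A (algebraMap KM EM t⁻¹) - algebraMap K₁ EN (algebraMap R K₁ (ζ P))) ^
          (P.ord f) := by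
  have hu' := transcendental_inv_of_transcendental h.j_transcendental
  have hK' := adjoin_inv_eq_top h.j_adjoin
  exact sheet_cell_factorisation hgeo' VM (isGaussAt_inv π hπ.prime t _ h.gauss_M) hu' hK' A
    h.A_algebraMap h2.gauss_inf h2.gauss_zero (h2.inf_le_span hπ hu' hK')
    h.comap_A_inf h.res_inf 𝔪 hle hnle hreg hf T hT hrat hfT ζ hζ a hfa hfa'

end Model

end Fermat.Agent.MW.NAdic
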