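import Mathlib
import Fermat.Prelude.Def_GaloisRep_CompletionBridge

/-!
# Project MW (S17) — [ABS]: the places of `ℚ` on `Ω = AlgebraicClosure ℚ` (helper8)

A place of `ℚ` is `v : Pl = Option Nat.Primes` (`none` = the archimedean place).  It is extended to
`Ω` through a CHOSEN embedding: `padicEmbedding p : Ω →ₐ[ℚ] PadicAlgCl p` (Prelude) for `some p`,
and `embC : Ω →ₐ[ℚ] ℂ` for `none`.  `absv v x` is the resulting absolute value, `lg v x` its
logarithm.  On `ℚ` these are the usual normalised absolute values.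
-/

set_option autoImplicit false

noncomputable section

namespace Fermat.Agent.MW

/-- places of `ℚ`: `none` is the archimedean place, `some p` the `p`-adic one. -/
abbrev Pl : Type := Option Nat.Primes

instance factPrimeOfPrimes (p : Nat.Primes) : Fact (p : ℕ).Prime := ⟨p.2⟩

theorem isAlgebraic_Om : Algebra.IsAlgebraic ℚ (AlgebraicClosure ℚ) :=
  AlgebraicClosure.isAlgebraic ℚ

/-- the chosen complex embedding of `Ω`. -/
def embC : AlgebraicClosure ℚ →ₐ[ℚ] ℂ :=
  haveI := isAlgebraic_Om
  IsAlgClosed.lift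

/-- the absolute value of `Ω` at the place `v` (through the chosen embedding). -/
def absv : Pl → AlgebraicClosure ℚ → ℝ
  | none, x => ‖embC x‖
  | some p, x => ‖padicEmbedding (p : ℕ) x‖

/-- `lg v x = log |x|_v`. -/
def lg (v : Pl) (x : AlgebraicClosure ℚ) : ℝ := Real.log (absv v x)

theorem absv_none (x : AlgebraicClosure ℚ) : absv none x = ‖embC x‖ := rfl

theorem absv_some (p : Nat.Primes) (x : AlgebraicClosure ℚ) :
    absv (some p) x = ‖padicEmbedding (p : ℕ) x‖ := rfl

theorem absv_nonneg (v : Pl) (x : AlgebraicClosure ℚ) : 0 ≤ absv v x := by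
  cases v <;> exact norm_nonneg _

@[simp] theorem absv_zero (v : Pl) : absv v 0 = 0 := by
  cases v <;> simp [absv]

@[simp] theorem absv_one (v : Pl) : absv v 1 = 1 := by
  cases v <;> simp [absv]

theorem absv_mul (v : Pl) (x y : AlgebraicClosure ℚ) : absv v (x * y) = absv v x * absv v y := by
  cases v <;> simp [absv]

theorem absv_eq_zero {v : Pl} {x : AlgebraicClosure ℚ} : absv v x = 0 ↔ x = 0 := by
  cases v
  · simp [absv]
  · simp [absv]

theorem absv_pos {v : Pl} {x : AlgebraicClosure ℚ} (hx : x ≠ 0) : 0 < absv v x :=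
  lt_of_le_of_ne (absv_nonneg v x) (Ne.symm (mt absv_eq_zero.mp hx))

theorem absv_neg (v : Pl) (x : AlgebraicClosure ℚ) : absv v (-x) = absv v x := by
  cases v <;> simp [absv]

theorem absv_inv (v : Pl) (x : AlgebraicClosure ℚ) : absv v x⁻¹ = (absv v x)⁻¹ := by
  cases v <;> simp [absv]

theorem absv_div (v : Pl) (x y : AlgebraicClosure ℚ) : absv v (x / y) = absv v x / absv v y := by
  cases v <;> simp [absv]

theorem absv_pow (v : Pl) (x : AlgebraicClosure ℚ) (n : ℕ) : absv v (x ^ n) = absv v x ^ n := by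
  cases v <;> simp [absv]

theorem absv_zpow (v : Pl) (x : AlgebraicClosure ℚ) (n : ℤ) : absv v (x ^ n) = absv v x ^ n := by
  cases v <;> simp [absv]

theorem absv_prod {ι : Type*} (v : Pl) (s : Finset ι) (f : ι → AlgebraicClosure ℚ) :
    absv v (∏ i ∈ s, f i) = ∏ i ∈ s, absv v (f i) := by
  classical
  induction s using Finset.induction_on with
  | empty => simp
  | insert a s ha ih => rw [Finset.prod_insert ha, Finset.prod_insert ha, absv_mul, ih]

/-- triangle inequality. -/
theorem absv_add_le (v : Pl) (x y : AlgebraicClosure ℚ) :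
    absv v (x + y) ≤ absv v x + absv v y := by
  cases v
  · simp only [absv, map_add]; exact norm_add_le _ _
  · simp only [absv, map_add]; exact norm_add_le _ _

/-- the ultrametric inequality at a finite place. -/
theorem absv_some_add_le_max (p : Nat.Primes) (x y : AlgebraicClosure ℚ) :
    absv (some p) (x + y) ≤ max (absv (some p) x) (absv (some p) y) := by
  simp only [absv, map_add]
  exact PadicAlgCl.isNonarchimedean (p : ℕ) _ _

/-- on `ℚ` the archimedean place is the usual absolute value. -/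
theorem absv_none_rat (r : ℚ) : absv none (algebraMap ℚ (AlgebraicClosure ℚ) r) = |(r : ℝ)| := by
  rw [absv_none, AlgHom.commutes]
  simp

/-- on `ℚ` a finite place is the usual `p`-adic absolute value. -/
theorem absv_some_rat (p : Nat.Primes) (r : ℚ) :
    absv (some p) (algebraMap ℚ (AlgebraicClosure ℚ) r) = (padicNorm (p : ℕ) r : ℝ) := by
  rw [absv_some, AlgHom.commutes]
  have h : algebraMap ℚ (PadicAlgCl (p : ℕ)) r
      = algebraMap ℚ_[(p : ℕ)] (PadicAlgCl (p : ℕ)) (r : ℚ_[(p : ℕ)]) := by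
    rw [map_ratCast, eq_ratCast]
  rw [h, PadicAlgCl.norm_extends, Padic.eq_padicNorm]

theorem mem_padicPlace_iff_absv (p : Nat.Primes) (x : AlgebraicClosure ℚ) :
    x ∈ padicPlace (p : ℕ) ↔ absv (some p) x ≤ 1 := by
  rw [mem_padicPlace_iff, absv_some, ← NNReal.coe_le_coe, coe_nnnorm, NNReal.coe_one]

/-! ### logarithms -/

@[simp] theorem lg_one (v : Pl) : lg v 1 = 0 := by simp [lg]

theorem lg_mul (v : Pl) {x y : AlgebraicClosure ℚ} (hx : x ≠ 0) (hy : y ≠ 0) :
    lg v (x * y) = lg v x + lg v y := by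
  rw [lg, absv_mul, Real.log_mul (absv_pos hx).ne' (absv_pos hy).ne']
  rfl

theorem lg_neg (v : Pl) (x : AlgebraicClosure ℚ) : lg v (-x) = lg v x := by
  rw [lg, absv_neg]; rfl

theorem lg_inv (v : Pl) (x : AlgebraicClosure ℚ) : lg v x⁻¹ = -lg v x := by
  rw [lg, absv_inv, Real.log_inv]; rfl

theorem lg_pow (v : Pl) (x : AlgebraicClosure ℚ) (n : ℕ) : lg v (x ^ n) = n * lg v x := by
  rw [lg, absv_pow, Real.log_pow]; rfl

theorem lg_zpow (v : Pl) (x : AlgebraicClosure ℚ) (n : ℤ) : lg v (x ^ n) = n * lg v x := by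
  rw [lg, absv_zpow, Real.log_zpow]; rfl

theorem lg_prod {ι : Type*} (v : Pl) (s : Finset ι) (f : ι → AlgebraicClosure ℚ)
    (hf : ∀ i ∈ s, f i ≠ 0) : lg v (∏ i ∈ s, f i) = ∑ i ∈ s, lg v (f i) := by
  rw [lg, absv_prod, Real.log_prod]
  · rfl
  · intro i hi
    exact (absv_pos (hf i hi)).ne'

end Fermat.Agent.MW
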