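import Mathlib

/-!
# Quasi-bilinear pairings and the descent wrapper (project MW, formal layer)

* `QuasiPairing β C` : `β : Γ → Γ → ℝ` is symmetric and additive in the first variable up to `C`.
* `QuasiPairing.parallelogram` : `h x := β x x` satisfies the approximate parallelogram law.
* `fg_of_quasiPairing` : if moreover `Γ / 2Γ` is finite and `β x x ≥ c · η x − C'` for a function
  `η` with finite sublevel sets (`c > 0`), then `Γ` is finitely generated
  (Mathlib's `AddCommGroup.fg_of_descent'`).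
-/

namespace Fermat.Agent.MW

/-- A symmetric pairing which is additive in the first variable up to the constant `C`. -/
structure QuasiPairing {Γ : Type*} [AddCommGroup Γ] (β : Γ → Γ → ℝ) (C : ℝ) : Prop where
  symm : ∀ x y, β x y = β y x
  add_left : ∀ x y z, |β (x + y) z - β x z - β y z| ≤ C

namespace QuasiPairing

variable {Γ : Type*} [AddCommGroup Γ] {β : Γ → Γ → ℝ} {C : ℝ}

theorem nonneg (hβ : QuasiPairing β C) : 0 ≤ C :=
  le_trans (abs_nonneg _) (hβ.add_left 0 0 0)

theorem add_right (hβ : QuasiPairing β C) (z x y : Γ) :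
    |β z (x + y) - β z x - β z y| ≤ C := by
  rw [hβ.symm z (x + y), hβ.symm z x, hβ.symm z y]
  exact hβ.add_left x y z

theorem zero_left (hβ : QuasiPairing β C) (z : Γ) : |β 0 z| ≤ C := by
  have h := hβ.add_left 0 0 z
  rw [add_zero] at h
  have : β 0 z - β 0 z - β 0 z = -β 0 z := by ring
  rwa [this, abs_neg] at h

theorem neg_left (hβ : QuasiPairing β C) (y z : Γ) : |β (-y) z + β y z| ≤ 2 * C := by
  have h1 := hβ.add_left y (-y) z
  rw [add_neg_cancel] at h1
  have h2 := hβ.zero_left z
  rw [abs_le] at h1 h2 ⊢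
  constructor <;> linarith [h1.1, h1.2, h2.1, h2.2]

theorem neg_right (hβ : QuasiPairing β C) (z y : Γ) : |β z (-y) + β z y| ≤ 2 * C := by
  rw [hβ.symm z (-y), hβ.symm z y]
  exact hβ.neg_left y z

/-- `β (x + y) (x + y) ≈ β x x + 2 β x y + β y y`. -/
theorem add_add (hβ : QuasiPairing β C) (x y : Γ) :
    |β (x + y) (x + y) - (β x x + 2 * β x y + β y y)| ≤ 3 * C := by
  have h1 := hβ.add_left x y (x + y)
  have h2 := hβ.add_right x x y
  have h3 := hβ.add_right y x y
  have h4 := hβ.symm y x
  rw [abs_le] at h1 h2 h3 ⊢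
  constructor <;> linarith [h1.1, h1.2, h2.1, h2.2, h3.1, h3.2]

/-- The approximate parallelogram law for `h x = β x x`. -/
theorem parallelogram (hβ : QuasiPairing β C) (x y : Γ) :
    |β (x + y) (x + y) + β (x - y) (x - y) - 2 * (β x x + β y y)| ≤ 16 * C := by
  have h1 := hβ.add_add x y
  have h2 := hβ.add_add x (-y)
  have h3 := hβ.neg_right x y
  have h4 := hβ.neg_left y (-y)
  have h5 := hβ.neg_right y y
  rw [← sub_eq_add_neg] at h2
  rw [abs_le] at h1 h2 h3 h4 h5 ⊢
  constructor <;>
    linarith [h1.1, h1.2, h2.1, h2.2, h3.1, h3.2, h4.1, h4.2, h5.1, h5.2]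

end QuasiPairing

/-- **Descent wrapper.** A commutative group with finite `Γ / 2Γ`, a quasi-bilinear symmetric
pairing `β`, and a lower bound `β x x ≥ c · η x − C'` (`c > 0`) by a function `η` with finite
sublevel sets, is finitely generated. -/
theorem fg_of_quasiPairing {Γ : Type*} [AddCommGroup Γ] (β : Γ → Γ → ℝ) (C : ℝ)
    (hβ : QuasiPairing β C) (hfin : (nsmulAddMonoidHom (α := Γ) 2).range.FiniteIndex)
    (η : Γ → ℝ) (hη : ∀ B : ℝ, {x : Γ | η x ≤ B}.Finite) (c C' : ℝ) (hc : 0 < c)
    (hlow : ∀ x, c * η x - C' ≤ β x x) : AddGroup.FG Γ := by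
  -- `η` is bounded below
  obtain ⟨m, hm⟩ : ∃ m : ℝ, ∀ x, m ≤ η x := by
    have hfin0 := hη 0
    obtain ⟨m, hm⟩ := (hfin0.image η).bddBelow
    refine ⟨min m 0, fun x => ?_⟩
    by_cases hx : η x ≤ 0
    · exact le_trans (min_le_left _ _) (hm ⟨x, hx, rfl⟩)
    · exact le_trans (min_le_right _ _) (le_of_lt (not_le.mp hx))
  set K : ℝ := C' - c * m with hK
  set h : Γ → ℝ := fun x => β x x + K with hh
  have hnonneg : ∀ x, 0 ≤ h x := by
    intro x
    have h1 := hlow x
    have h2 : c * m ≤ c * η x := mul_le_mul_of_nonneg_left (hm x) hc.le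
    simp only [hh, hK]
    linarith
  have hpar : ∀ x y, |h (x + y) + h (x - y) - 2 * (h x + h y)| ≤ 16 * C + 2 * |K| := by
    intro x y
    have h1 := hβ.parallelogram x y
    have h2 : h (x + y) + h (x - y) - 2 * (h x + h y) =
        (β (x + y) (x + y) + β (x - y) (x - y) - 2 * (β x x + β y y)) + (-2 * K) := by
      simp only [hh]; ring
    rw [h2]
    refine le_trans (abs_add_le _ _) ?_
    have h3 : |(-2 : ℝ) * K| = 2 * |K| := by rw [abs_mul]; norm_num
    rw [h3]
    linarith
  have : Northcott h := ⟨fun B => by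
    refine (hη ((B - K + C') / c)).subset ?_
    intro x hx
    simp only [Set.mem_ofPred_eq, hh] at hx ⊢
    rw [le_div_iff₀ hc]
    have := hlow x
    linarith⟩
  exact AddCommGroup.fg_of_descent' hfin hnonneg hpar

end Fermat.Agent.MW
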