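import Mathlib
import Fermat.Agent.MW.MUMFORD_helper4_Quasi

/-!
# Project MW (S17) — the frozen ABSTRACT interface of the global height theory (helper8)

`HtSys` packages everything the formal global theory [MUMFORD] consumes (blueprint = finding 401):

* a group `G` (= `GQ`) acting on a field `K` (= `Ω`), on points `X` (= places of the function
  field), on functions `Fn` (= nonzero elements of the function field) and on classes `J`
  (= `JZero N`), with finite orbits on `K` and `X`;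
* places `V` of `ℚ` on `K` through `lg v a = log |a|_v`, with the product formula in
  Galois-averaged form;
* divisors `X →₀ ℤ`, `dv f` the divisor of a function, `lc f Q ∈ K` the leading coefficient of `f`
  at `Q` normalised by the rational differential `ω₀` (`= f(Q)` if `ord_Q f = 0`);
* the class map `cls` on degree-zero divisors (kernel = principal divisors);
* the local data `γ v P Q` (log-inverse-distance), `r v Q` (`= log ‖ω₀‖_v (Q)`) with the axioms
  (A1), (A3) uniform Weil decomposition incl. the diagonal case, (A4), (A5) determinant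
  inequality, (A6) finiteness;
* the Riemann–Roch inputs (REP), (NS), (TR), the auxiliary functions `ψ`, `φ`, and the Northcott
  input (NC).

`MumfordGoal S` is what [MUMFORD] must prove from `S : HtSys …`; together with weak Mordell–Weil it
gives finite generation through `fg_of_quasiPairing`.
-/

set_option autoImplicit false

open scoped BigOperators

noncomputable section

namespace Fermat.Agent.MW

open scoped Classical in
/-- average of `Φ` over the (finite) orbit `{act σ x}` of `x`; junk value `0` if it is infinite. -/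
def gavgBy {G X : Type*} (act : G → X → X) (Φ : X → ℝ) (x : X) : ℝ :=
  if h : (Set.range fun σ : G => act σ x).Finite then
    (∑ y ∈ h.toFinset, Φ y) / (h.toFinset.card : ℝ)
  else 0

/-- Galois average of `Φ` over the (finite) orbit of `x` for an action `G ↷ X`. -/
def gavg (G : Type*) {X : Type*} [Group G] [MulAction G X] (Φ : X → ℝ) (x : X) : ℝ :=
  gavgBy (fun (σ : G) (y : X) => σ • y) Φ x

section Divisors

variable {X : Type*}

/-- degree of a divisor, as a homomorphism. -/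
def ddeg : (X →₀ ℤ) →+ ℤ := Finsupp.liftAddHom fun _ => AddMonoidHom.id ℤ

/-- divisors of degree zero. -/
def dZero (X : Type*) : AddSubgroup (X →₀ ℤ) := (ddeg (X := X)).ker

/-- total size `Σ |D P|` of a divisor. -/
def dnorm (D : X →₀ ℤ) : ℤ := D.sum fun _ n => |n|

/-- an effective divisor `X →₀ ℕ` as a divisor. -/
def dofNat (E : X →₀ ℕ) : X →₀ ℤ := E.mapRange (fun n : ℕ => (n : ℤ)) rfl

/-- degree of an effective divisor. -/
def ndeg (E : X →₀ ℕ) : ℕ := E.sum fun _ n => n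

/-- the local pairing `Λ(D,E) = Σ_{P≠Q} D(P) E(Q) γ(P,Q) + Σ_P D(P) E(P) r(P)`. -/
def locPair [DecidableEq X] (γ : X → X → ℝ) (r : X → ℝ) (D E : X →₀ ℤ) : ℝ :=
  ∑ P ∈ D.support, ∑ Q ∈ E.support,
    (D P : ℝ) * (E Q : ℝ) * (if P = Q then r P else γ P Q)

/-- translate of a divisor by a group element. -/
def gdiv {G : Type*} [Group G] [MulAction G X] (σ : G) (D : X →₀ ℤ) : X →₀ ℤ :=
  D.mapDomain (σ • ·)

/-- translate of an effective divisor by a group element. -/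
def gdivNat {G : Type*} [Group G] [MulAction G X] (σ : G) (E : X →₀ ℕ) : X →₀ ℕ :=
  E.mapDomain (σ • ·)

end Divisors

/-- **The abstract height system** (see the file header and finding 401).
`G = GQ`, `K = Ω`, `X` = points, `Fn` = nonzero functions, `V` = places of `ℚ`, `J = JZero N`. -/
structure HtSys (G K X Fn V J : Type) [Group G] [Field K] [MulSemiringAction G K]
    [MulAction G X] [MulAction G Fn] [AddCommGroup J] [DistribMulAction G J]
    [DecidableEq X] where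
  /-- genus -/
  gq : ℕ
  gq_pos : 1 ≤ gq
  orbK : ∀ a : K, (MulAction.orbit G a).Finite
  orbX : ∀ P : X, (MulAction.orbit G P).Finite
  /-- `lg v a = log |a|_v` -/
  lg : V → K → ℝ
  lg_mul : ∀ v a b, a ≠ 0 → b ≠ 0 → lg v (a * b) = lg v a + lg v b
  lg_neg : ∀ v a, lg v (-a) = lg v a
  /-- product formula, Galois-averaged -/
  pf_support : ∀ a : K, a ≠ 0 → (Function.support fun v => gavg G (lg v) a).Finite
  pf : ∀ a : K, a ≠ 0 → ∑ᶠ v, gavg G (lg v) a = 0
  /-- divisor of a function -/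
  dv : Fn → (X →₀ ℤ)
  dv_deg : ∀ f, ddeg (dv f) = 0
  dv_smul : ∀ (σ : G) f, dv (σ • f) = gdiv σ (dv f)
  /-- leading coefficient of `f` at `Q` w.r.t. `ω₀` -/
  lc : Fn → X → K
  lc_ne : ∀ f Q, lc f Q ≠ 0
  lc_smul : ∀ (σ : G) f Q, lc (σ • f) (σ • Q) = σ • lc f Q
  /-- class map on degree-zero divisors -/
  cls : dZero X →+ J
  cls_surj : Function.Surjective cls
  cls_eq_zero : ∀ D : dZero X, cls D = 0 ↔ ∃ f, dv f = D.1
  cls_smul : ∀ (σ : G) (D : dZero X) (h : gdiv σ D.1 ∈ dZero X), cls ⟨gdiv σ D.1, h⟩ = σ • cls D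
  /-- the rational cusp `∞` -/
  inf : X
  inf_fix : ∀ σ : G, σ • inf = inf
  /-- the finite exceptional set `𝒵'` (does NOT contain `inf`; `𝒵 = insert inf 𝒵'`) -/
  Zp : Finset X
  inf_notMem : inf ∉ Zp
  Zp_smul : ∀ (σ : G) P, P ∈ Zp → σ • P ∈ Zp
  /-- log-inverse-distance at `v` -/
  γ : V → X → X → ℝ
  /-- `log ‖ω₀‖_v` -/
  r : V → X → ℝ
  Cγ : V → ℝ
  Cw : V → ℕ → ℝ
  cω : V → ℝ
  Cω : V → ℝ
  Cdet : V → ℝ
  /-- the divisor of `ω₀` (effective, supported in `𝒵'`) -/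
  K0 : X →₀ ℕ
  K0_supp : ∀ P ∈ K0.support, P ∈ Zp
  /-- (A1) -/
  γ_symm : ∀ v P Q, γ v P Q = γ v Q P
  γ_lower : ∀ v P Q, P ≠ Q → -Cγ v ≤ γ v P Q
  /-- (A3) uniform Weil decomposition incl. the diagonal case; `c` has finite support in `v` -/
  weil : ∀ (d : ℕ) (f : Fn), dnorm (dv f) ≤ d → ∃ c : V → ℝ, (Function.support c).Finite ∧
    ∀ v Q, (dv f Q = 0 ∨ Q ∉ Zp) →
      |(∑ P ∈ (dv f).support, (dv f P : ℝ) * (if P = Q then r v Q else γ v P Q))
        + lg v (lc f Q) - c v| ≤ Cw v d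
  /-- (A4) -/
  omega : ∀ v Q, Q ∉ Zp →
    |r v Q + (∑ Z ∈ K0.support, (K0 Z : ℝ) * γ v Z Q) - cω v| ≤ Cω v
  /-- the (confluent) Wronskian-type determinant of an effective divisor of degree `gq` -/
  wdet : (X →₀ ℕ) → K
  wdet_smul : ∀ v (σ : G) E, lg v (wdet (gdivNat σ E)) = lg v (σ • wdet E)
  /-- (A5) determinant inequality -/
  det : ∀ v (E : X →₀ ℕ), ndeg E = gq → (∀ P ∈ E.support, P ∉ Zp ∧ P ≠ inf) → wdet E ≠ 0 →
    2 * lg v (wdet E)
      + (∑ P ∈ E.support, ∑ Q ∈ E.support, if P = Q then 0 else (E P : ℝ) * (E Q : ℝ) * γ v P Q)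
      + (∑ P ∈ E.support, ((E P : ℝ) ^ 2 + (E P : ℝ)) * r v P) ≤ 2 * Cdet v
  /-- (A6) finiteness -/
  Cγ_nonneg : ∀ v, 0 ≤ Cγ v
  Cw_nonneg : ∀ v d, 0 ≤ Cw v d
  Cω_nonneg : ∀ v, 0 ≤ Cω v
  Cdet_nonneg : ∀ v, 0 ≤ Cdet v
  Cγ_support : (Function.support Cγ).Finite
  Cw_support : ∀ d, (Function.support fun v => Cw v d).Finite
  cω_support : (Function.support cω).Finite
  Cω_support : (Function.support Cω).Finite
  Cdet_support : (Function.support Cdet).Finite
  γ_support : ∀ P Q, P ≠ Q → (Function.support fun v => γ v P Q).Finite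
  r_support : ∀ Q, Q ∉ Zp → (Function.support fun v => r v Q).Finite
  /-- (REP) representatives avoiding `𝒵`, of size `≤ 4 gq` -/
  rep : ∀ y : J, ∃ D : dZero X, cls D = y ∧ dnorm D.1 ≤ 4 * gq ∧
    ∀ P ∈ D.1.support, P ∉ Zp ∧ P ≠ inf
  /-- (NS) the generic non-special classes and their reduced divisors -/
  NS : J → Prop
  Ey : J → (X →₀ ℕ)
  NS_smul : ∀ (σ : G) y, NS y → NS (σ • y)
  Ey_smul : ∀ (σ : G) y, NS y → Ey (σ • y) = gdivNat σ (Ey y)
  Ey_deg : ∀ y, NS y → ndeg (Ey y) = gq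
  Ey_supp : ∀ y, NS y → ∀ P ∈ (Ey y).support, P ∉ Zp ∧ P ≠ inf
  Ey_cls : ∀ y, NS y → ∀ h : dofNat (Ey y) - Finsupp.single inf (gq : ℤ) ∈ dZero X,
    cls ⟨_, h⟩ = y
  Ey_wdet : ∀ y, NS y → wdet (Ey y) ≠ 0
  /-- (TR) translate lemma -/
  𝒜 : Finset J
  translate : ∀ y : J, ∃ a ∈ 𝒜, NS (y + a) ∧ NS (y - a)
  /-- auxiliary function `ψ`: `div ψ = E_ψ - 2 gq (2 gq - 1) ∞ + 2 gq K0`, `E_ψ ≥ 0` supported in
  `𝒵'` (the factor `2` makes the pole order at `∞` a non-gap, also for `gq = 1`) -/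
  ψ : Fn
  ψ_fix : ∀ σ : G, σ • ψ = ψ
  Eψ : X →₀ ℕ
  Eψ_supp : ∀ P ∈ Eψ.support, P ∈ Zp
  ψ_div : dv ψ = dofNat Eψ - Finsupp.single inf ((2 * gq * (2 * gq - 1) : ℕ) : ℤ)
    + ((2 * gq : ℕ) : ℤ) • dofNat K0
  /-- auxiliary function `φ`: `div φ = Z_φ - nφ ∞`, `Z_φ ≥ 0` supported in `𝒵'`, `nφ ≥ 1` -/
  φ : Fn
  φ_fix : ∀ σ : G, σ • φ = φ
  nφ : ℕ
  nφ_pos : 1 ≤ nφ
  Zφ : X →₀ ℕ
  Zφ_supp : ∀ P ∈ Zφ.support, P ∈ Zp
  φ_div : dv φ = dofNat Zφ - Finsupp.single inf (nφ : ℤ)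

namespace HtSys

variable {G K X Fn V J : Type} [Group G] [Field K] [MulSemiringAction G K]
  [MulAction G X] [MulAction G Fn] [AddCommGroup J] [DistribMulAction G J] [DecidableEq X]
  (S : HtSys G K X Fn V J)

/-- absolute logarithmic height of an element of `K`. -/
def habs (a : K) : ℝ := ∑ᶠ v, gavg G (fun b => max 0 (S.lg v b)) a

/-- the naive height of a generic non-special class: `Σ_{P ∈ E_y} m_P · habs (φ(P))`. -/
def eta (y : J) : ℝ := ∑ P ∈ (S.Ey y).support, (S.Ey y P : ℝ) * S.habs (S.lc S.φ P)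

/-- the global pairing of two divisors: `𝔅(D,E) = - Σ_v gavg Λ_v` over the orbit of the pair. -/
def bil (D E : X →₀ ℤ) : ℝ :=
  - ∑ᶠ v, gavgBy (fun (σ : G) (DE : (X →₀ ℤ) × (X →₀ ℤ)) => (gdiv σ DE.1, gdiv σ DE.2))
      (fun DE => locPair (S.γ v) (S.r v) DE.1 DE.2) (D, E)

/-- The Northcott input (NC), a hypothesis of `MumfordGoal` (proved concretely from [NORTH]). -/
def NorthcottInput : Prop :=
  ∀ a ∈ S.𝒜, ∀ B : ℝ,
    {x : J | (∀ σ : G, σ • x = x) ∧ S.NS (x + a) ∧ S.eta (x + a) ≤ B}.Finite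

/-- **What [MUMFORD] must prove**: a quasi-pairing on `J` whose quadratic form has finite
sublevel sets on the `G`-fixed classes. -/
def MumfordGoal : Prop :=
  S.NorthcottInput →
    ∃ (β : J → J → ℝ) (C : ℝ), QuasiPairing β C ∧
      ∀ B : ℝ, {x : J | (∀ σ : G, σ • x = x) ∧ β x x ≤ B}.Finite

end HtSys

end Fermat.Agent.MW
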