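import Mathlib
import Fermat.Prelude.Def_ModularCurve_ArithmeticGalois
import Fermat.Agent.JA.ES_helper4_Value
import Fermat.Agent.JA.KEYBASE_helper8_Cusp
import Fermat.Agent.X0N.S24_helper7_Wiring
import Fermat.Agent.MW.ABS_helper8_Defs
import Fermat.Agent.MW.IFACE_helper8_Defs

/-!
# Project MW (S17) — [DIFF]: the CONCRETE objects on `X₀(N)` and the literal for the local
packages (helper8)

* `GQ`, `FunN N` (the function field of `X₀(N)` over `Ω`), `PtN N` (its places = points),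
  `galN N σ` (the action of `σ ∈ GQ`, coefficientwise on `q`-expansions), the resulting actions of
  `GQ` on functions, points (scoped instances `galMulSemiringActionFun`, `galMulActionPt`, `galMulActionFn`, `decEqPtN`);
* `infN N` : the cusp `∞` (the `q`-order);
* `unifAt Q` : a chosen uniformizer at `Q`;
* `structure DiffDatum N` : the rational differential `ω₀`, through its derivation `D₀ = d/ω₀`
  (equivariant), its divisor `K0 ≥ 0` (`ord_Q (D₀ τ) = - K0 Q` for every uniformizer `τ` at `Q`),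
  `K0 ∞ = 0`, and `gq` functions `φ k` with `φ k · ω₀` regular, `GQ`-fixed;
* `lcN 𝔡 f Q` : the `ω₀`-normalised leading coefficient of `f` at `Q`;
* `wmat`, `wdetN 𝔡 E` : the confluent determinant of `φ k` at an effective divisor `E`;
* **`structure LocalPkgAt N 𝔡 Zp v`** : what the owner of the place `v` delivers
  ((A1), (A3) incl. the diagonal case, (A4) of finding 401 §2, and (A7) = one-sided sup bound
  on the span of the `φ k`, from which (A5) = `LocalPkgAt.DetIneq` follows formally).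
-/

set_option autoImplicit false
set_option linter.unusedSectionVars false

open scoped BigOperators

noncomputable section

namespace Fermat.Agent.MW

open AlgebraicCurve ModularCurve

/-- the absolute Galois group of `ℚ`. -/
abbrev GQ : Type := AlgebraicClosure ℚ ≃ₐ[ℚ] AlgebraicClosure ℚ

variable (N : ℕ) [NeZero N]

/-- the function field of `X₀(N)` over `Ω`. -/
abbrev FunN : Type := ↥(modularFunctionFieldBar N)

/-- the points of `X₀(N)` over `Ω` = the places of its function field. -/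
abbrev PtN : Type := Place (AlgebraicClosure ℚ) (FunN N)

/-- the action of `σ ∈ GQ` on the function field (coefficientwise on `q`-expansions). -/
def galN (σ : GQ) : SemilinearAut (AlgebraicClosure ℚ) (FunN N) :=
  arithmeticGalois (modularFunctionFieldFull N) σ

theorem galN_one : galN N 1 = 1 := map_one _

theorem galN_mul (σ τ : GQ) : galN N (σ * τ) = galN N σ * galN N τ := map_mul _ σ τ

theorem baseAut_galN (σ : GQ) (a : AlgebraicClosure ℚ) :
    SemilinearAut.baseAut (galN N σ) a = σ a := rfl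

/-- equality of points is decided classically (one fixed instance, used everywhere in MW). -/
scoped instance decEqPtN : DecidableEq (PtN N) := Classical.decEq _

/-- `GQ` acts on functions. -/
scoped instance galMulSemiringActionFun : MulSemiringAction GQ (FunN N) :=
  MulSemiringAction.compHom (FunN N) (arithmeticGalois (modularFunctionFieldFull N))

/-- `GQ` acts on points. -/
scoped instance galMulActionPt : MulAction GQ (PtN N) :=
  MulAction.compHom (PtN N) (arithmeticGalois (modularFunctionFieldFull N))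

theorem gal_smul_fun_def (σ : GQ) (f : FunN N) : σ • f = galN N σ • f := rfl

theorem gal_smul_pt_def (σ : GQ) (P : PtN N) : σ • P = galN N σ • P := rfl

theorem gal_smul_class_def (σ : GQ) (x : JZero N) : σ • x = galN N σ • x := rfl

theorem ord_gal_smul (σ : GQ) (P : PtN N) (f : FunN N) : (σ • P).ord (σ • f) = P.ord f :=
  SemilinearAut.ord_smul (galN N σ) P f

/-- the nonzero functions. -/
abbrev FnN : Type := {f : FunN N // f ≠ 0}

/-- `GQ` acts on nonzero functions. -/
scoped instance galMulActionFn : MulAction GQ (FnN N) where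
  smul σ f := ⟨σ • f.1, by
    intro h
    apply f.2
    have := congrArg (fun x => σ⁻¹ • x) h
    simpa using this⟩
  one_smul f := Subtype.ext (one_smul GQ f.1)
  mul_smul σ τ f := Subtype.ext (mul_smul σ τ f.1)

theorem coe_gal_smul_fn (σ : GQ) (f : FnN N) : ((σ • f : FnN N) : FunN N) = σ • (f : FunN N) := rfl

/-! ### the cusp `∞` -/

theorem order_jBar : ((Fermat.Agent.X0N.jBar N : FunN N) :
    LaurentSeries (AlgebraicClosure ℚ)).order = -1 := by
  rw [Fermat.Agent.X0N.coe_jBar]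
  have h1 : (coeffEmb (AlgebraicClosure ℚ) jq).coeff (-1) ≠ 0 := by
    rw [coeffEmb_coeff, coeff_jq_neg_one, map_one]
    exact one_ne_zero
  have h2 : ∀ k : ℤ, k < -1 → (coeffEmb (AlgebraicClosure ℚ) jq).coeff k = 0 := by
    intro k hk
    rw [coeffEmb_coeff, coeff_jq_of_lt hk, map_zero]
  have hne : coeffEmb (AlgebraicClosure ℚ) jq ≠ 0 := fun h => h1 (by rw [h]; rfl)
  apply le_antisymm
  · exact HahnSeries.order_le_of_coeff_ne_zero h1
  · by_contra hlt
    rw [not_le] at hlt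
    exact hne (HahnSeries.coeff_order_eq_zero.mp (h2 _ hlt))

theorem jBar_ne_zero : (Fermat.Agent.X0N.jBar N : FunN N) ≠ 0 := by
  intro h
  have h1 := order_jBar N
  rw [h] at h1
  simp at h1

theorem exists_qOrd_ne_zero :
    ∃ y : FunN N, y ≠ 0 ∧ Fermat.Agent.JA.qOrd (modularFunctionFieldBar N) y ≠ 0 :=
  ⟨Fermat.Agent.X0N.jBar N, jBar_ne_zero N, by
    show ((Fermat.Agent.X0N.jBar N : FunN N) : LaurentSeries (AlgebraicClosure ℚ)).order ≠ 0
    rw [order_jBar]; decide⟩

theorem exists_qOrd_eq_one :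
    ∃ y : FunN N, y ≠ 0 ∧ Fermat.Agent.JA.qOrd (modularFunctionFieldBar N) y = 1 := by
  refine ⟨(Fermat.Agent.X0N.jBar N)⁻¹, inv_ne_zero (jBar_ne_zero N), ?_⟩
  show (((Fermat.Agent.X0N.jBar N)⁻¹ : FunN N) : LaurentSeries (AlgebraicClosure ℚ)).order = 1
  rw [IntermediateField.coe_inv]
  have hy0 : ((Fermat.Agent.X0N.jBar N : FunN N) : LaurentSeries (AlgebraicClosure ℚ)) ≠ 0 :=
    fun h => jBar_ne_zero N (Subtype.ext h)
  have h2 : ((Fermat.Agent.X0N.jBar N : FunN N) : LaurentSeries (AlgebraicClosure ℚ))⁻¹.order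
      + ((Fermat.Agent.X0N.jBar N : FunN N) : LaurentSeries (AlgebraicClosure ℚ)).order = 0 := by
    rw [← HahnSeries.order_mul (inv_ne_zero hy0) hy0, inv_mul_cancel₀ hy0, HahnSeries.order_one]
  rw [order_jBar] at h2
  omega

/-- the cusp `∞` of `X₀(N)`: the place `q = 0`. -/
def infN : PtN N := Fermat.Agent.JA.cuspPlace (modularFunctionFieldBar N) (exists_qOrd_ne_zero N)

theorem infN_ord {x : FunN N} (hx : x ≠ 0) :
    (infN N).ord x = (x : LaurentSeries (AlgebraicClosure ℚ)).order :=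
  Fermat.Agent.JA.cuspPlace_ord (modularFunctionFieldBar N) (exists_qOrd_ne_zero N)
    (exists_qOrd_eq_one N) hx

/-! ### uniformizers, values -/

theorem exists_unif (Q : PtN N) : ∃ τ : FunN N, Q.ord τ = 1 := by
  obtain ⟨π, hπ⟩ := IsDiscreteValuationRing.exists_irreducible Q.toValuationSubring
  exact ⟨(π : FunN N), Q.ord_coe_irreducible hπ⟩

/-- a chosen uniformizer at `Q`. -/
def unifAt (Q : PtN N) : FunN N := (exists_unif N Q).choose

theorem ord_unifAt (Q : PtN N) : Q.ord (unifAt N Q) = 1 := (exists_unif N Q).choose_spec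

theorem unifAt_ne_zero (Q : PtN N) : unifAt N Q ≠ 0 := by
  intro h
  have h1 := ord_unifAt N Q
  rw [h, Place.ord_zero] at h1
  exact zero_ne_one h1

/-- the value of `f` at `Q` (junk `0` if `f` has a pole). -/
abbrev valN (Q : PtN N) (f : FunN N) : AlgebraicClosure ℚ := Fermat.Agent.JA.valueAt Q f

/-! ### the rational differential -/

/-- **The rational differential `ω₀`**, through the derivation `D₀ = d/ω₀` of the function field:
`D₀` is `GQ`-equivariant, `ω₀` is regular with divisor `K0` (`ord_Q (D₀ τ) = -K0 Q` for every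
uniformizer `τ` at `Q`), does not vanish at the cusp `∞`; `φ k` (`k < gq`) are `GQ`-fixed
functions with `φ k · ω₀` regular (a basis of the regular differentials, see `DiffDatum.IsBasis`). -/
structure DiffDatum where
  /-- `D₀ = d/ω₀` -/
  D₀ : Derivation (AlgebraicClosure ℚ) (FunN N) (FunN N)
  D₀_smul : ∀ (σ : GQ) (f : FunN N), D₀ (σ • f) = σ • D₀ f
  /-- the divisor of `ω₀` -/
  K0 : PtN N →₀ ℕ
  K0_spec : ∀ (Q : PtN N) (τ : FunN N), Q.ord τ = 1 → D₀ τ ≠ 0 ∧ Q.ord (D₀ τ) = -(K0 Q : ℤ)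
  K0_inf : K0 (infN N) = 0
  /-- the genus -/
  gq : ℕ
  /-- `φ k · ω₀` are the regular differentials -/
  φ : Fin gq → FunN N
  φ_fix : ∀ (σ : GQ) k, σ • φ k = φ k
  φ_reg : ∀ k (Q : PtN N), φ k = 0 ∨ -(K0 Q : ℤ) ≤ Q.ord (φ k)

namespace DiffDatum

variable {N}
variable (𝔡 : DiffDatum N)

/-- the `φ k` form a basis of `L(K0)`. -/
def IsBasis : Prop :=
  LinearIndependent (AlgebraicClosure ℚ) 𝔡.φ ∧
    ∀ f : FunN N, (∀ Q : PtN N, f = 0 ∨ -(𝔡.K0 Q : ℤ) ≤ Q.ord f) →
      f ∈ Submodule.span (AlgebraicClosure ℚ) (Set.range 𝔡.φ)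

/-- **the `ω₀`-normalised leading coefficient** of `f` at `Q`:
`(f/τⁿ)(Q) · (D₀τ (Q))ⁿ`, `n = ord_Q f`, `τ` a uniformizer at `Q` (independent of `τ` when
`K0 Q = 0`); `f(Q)` if `n = 0`; junk `1` at the zeros of `ω₀` when `n ≠ 0`. -/
def lcN (f : FunN N) (Q : PtN N) : AlgebraicClosure ℚ :=
  if Q.ord f = 0 then valN N Q f
  else if 𝔡.K0 Q = 0 then
    valN N Q (f * (unifAt N Q) ^ (-(Q.ord f))) * (valN N Q (𝔡.D₀ (unifAt N Q))) ^ (Q.ord f)
  else 1

/-- the `s`-th divided `D₀`-jet `(1/s!) D₀^s f`. -/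
def jet (s : ℕ) (f : FunN N) : FunN N :=
  ((s.factorial : AlgebraicClosure ℚ)⁻¹) • (𝔡.D₀^[s]) f

/-- the column index set of the confluent matrix of an effective divisor `E`. -/
abbrev ColIdx (E : PtN N →₀ ℕ) : Type := Σ P : E.support, Fin (E P)

/-- the confluent matrix of `E`: rows `k < gq`, columns `(P, s)`, `s < E P`, entries
`((1/s!) D₀^s φ_k)(P)`. -/
def wmat (E : PtN N →₀ ℕ) : Matrix (Fin 𝔡.gq) (ColIdx E) (AlgebraicClosure ℚ) :=
  fun k c => valN N c.1.1 (𝔡.jet c.2.1 (𝔡.φ k))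

open Classical in
/-- **the confluent determinant** `wdet E` of an effective divisor of degree `gq` (columns ordered
by a chosen bijection, so defined up to sign; junk `0` if the degree is not `gq`). -/
def wdetN (E : PtN N →₀ ℕ) : AlgebraicClosure ℚ :=
  if h : Fintype.card (ColIdx E) = 𝔡.gq then
    Matrix.det ((𝔡.wmat E).submatrix id
      (Fintype.equivFinOfCardEq h).symm)
  else 0

end DiffDatum

/-! ### the literal for the local packages -/

/-- total degree `Σ_P |ord_P f|` of a function is at most `d`: the divisor `D` of `f` has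
`dnorm D ≤ d`. -/
def IsDivOf (f : FunN N) (D : PtN N →₀ ℤ) : Prop := ∀ Q : PtN N, D Q = Q.ord f

/-- **What the owner of the place `v` delivers** (finding 401 §2, with (A5) replaced by the
one-sided sup bound (A7) of helper3/helper9, msgs 1582/1583): a log-inverse-distance `γ`,
`r = log ‖ω₀‖_v` (= the diagonal regularisation of `γ` w.r.t. `ω₀`), constants, with (A1),
(A3) uniform Weil decomposition incl. the diagonal case, (A4), (A7).
`Zp` = the exceptional set `𝒵'` (does not contain `∞`). -/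
structure LocalPkgAt (𝔡 : DiffDatum N) (Zp : Finset (PtN N)) (v : Pl) where
  γ : PtN N → PtN N → ℝ
  r : PtN N → ℝ
  Cγ : ℝ
  Cw : ℕ → ℝ
  cω : ℝ
  Cω : ℝ
  C7 : ℝ
  Cγ_nonneg : 0 ≤ Cγ
  Cw_nonneg : ∀ d, 0 ≤ Cw d
  Cω_nonneg : 0 ≤ Cω
  C7_nonneg : 0 ≤ C7
  /-- (A1) -/
  γ_symm : ∀ P Q, γ P Q = γ Q P
  γ_lower : ∀ P Q, P ≠ Q → -Cγ ≤ γ P Q
  /-- (A3) -/
  weil : ∀ (d : ℕ) (f : FunN N) (D : PtN N →₀ ℤ), f ≠ 0 → IsDivOf N f D → dnorm D ≤ d →
    ∃ c : ℝ, ∀ Q : PtN N, (D Q = 0 ∨ Q ∉ Zp) →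
      |(∑ P ∈ D.support, (D P : ℝ) * (if P = Q then r Q else γ P Q))
        + lg v (𝔡.lcN f Q) - c| ≤ Cw d
  /-- (A4) -/
  omega : ∀ Q : PtN N, Q ∉ Zp →
    |r Q + (∑ Z ∈ 𝔡.K0.support, (𝔡.K0 Z : ℝ) * γ Z Q) - cω| ≤ Cω
  /-- (A7): one-sided (A3) on the span of the `φ k`, with the constant bounded by the size of the
  coefficients. -/
  sup : ∀ (c : Fin 𝔡.gq → AlgebraicClosure ℚ) (M : ℝ) (D : PtN N →₀ ℤ), 0 < M →
    (∀ k, absv v (c k) ≤ M) → (∑ k, c k • 𝔡.φ k) ≠ 0 → IsDivOf N (∑ k, c k • 𝔡.φ k) D →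
    ∀ Q : PtN N, Q ∉ Zp →
      (∑ P ∈ D.support, (D P : ℝ) * (if P = Q then r Q else γ P Q))
        + lg v (𝔡.lcN (∑ k, c k • 𝔡.φ k) Q) ≤ Real.log M + C7

/-- the constant of the determinant inequality (A5) obtained from (A1), (A3), (A4), (A7). -/
def LocalPkgAt.Cdet {𝔡 : DiffDatum N} {Zp : Finset (PtN N)} {v : Pl}
    (L : LocalPkgAt N 𝔡 Zp v) : ℝ :=
  𝔡.gq * (L.C7 + 2 * 𝔡.gq * L.Cγ + |L.cω| + L.Cω)

/-- **(A5), the determinant inequality** — a formal consequence of (A1), (A3)-diagonal, (A4), (A7)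
(Laplace expansion along the last jet column + induction on the degree; owner: [DETFORM]). -/
def LocalPkgAt.DetIneq {𝔡 : DiffDatum N} {Zp : Finset (PtN N)} {v : Pl}
    (L : LocalPkgAt N 𝔡 Zp v) : Prop :=
  ∀ E : PtN N →₀ ℕ, ndeg E = 𝔡.gq → (∀ P ∈ E.support, P ∉ Zp ∧ P ≠ infN N) →
    𝔡.wdetN E ≠ 0 →
    2 * lg v (𝔡.wdetN E)
      + (∑ P ∈ E.support, ∑ Q ∈ E.support,
          if P = Q then 0 else (E P : ℝ) * (E Q : ℝ) * L.γ P Q)
      + (∑ P ∈ E.support, ((E P : ℝ) ^ 2 + (E P : ℝ)) * L.r P) ≤ 2 * L.Cdet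

/-- **All local packages together with the finiteness statements (A6)**: what the global
assembly consumes.  (`weil_global` is (A3) with the constants `c v` vanishing for almost all `v`.) -/
structure LocalFamily (𝔡 : DiffDatum N) (Zp : Finset (PtN N)) where
  pkg : ∀ v : Pl, LocalPkgAt N 𝔡 Zp v
  Cγ_support : (Function.support fun v => (pkg v).Cγ).Finite
  Cw_support : ∀ d, (Function.support fun v => (pkg v).Cw d).Finite
  cω_support : (Function.support fun v => (pkg v).cω).Finite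
  Cω_support : (Function.support fun v => (pkg v).Cω).Finite
  C7_support : (Function.support fun v => (pkg v).C7).Finite
  γ_support : ∀ P Q : PtN N, P ≠ Q → (Function.support fun v => (pkg v).γ P Q).Finite
  r_support : ∀ Q : PtN N, Q ∉ Zp → (Function.support fun v => (pkg v).r Q).Finite
  weil_global : ∀ (d : ℕ) (f : FunN N) (D : PtN N →₀ ℤ), f ≠ 0 → IsDivOf N f D → dnorm D ≤ d →
    ∃ c : Pl → ℝ, (Function.support c).Finite ∧ ∀ (v : Pl) (Q : PtN N), (D Q = 0 ∨ Q ∉ Zp) →
      |(∑ P ∈ D.support, (D P : ℝ) * (if P = Q then (pkg v).r Q else (pkg v).γ P Q))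
        + lg v (𝔡.lcN f Q) - c v| ≤ (pkg v).Cw d

end Fermat.Agent.MW
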