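import Mathlib
import Fermat.Agent.MW.DIFF_helper8_Defs

/-!
# Project MW (S17) — [N-ADIC] helper6, part 0: values, `D₀` and `lcN` at a point

General lemmas on `X₀(N)` over `Ω` (no place of `ℚ` involved), usable by every local owner:

* `ptN_deg` : every point has degree one; `valN_spec`, `valN_mul`, `valN_zpow`, … : calculus of
  values of regular functions;
* `DiffDatum.D₀_regular` : at a point `Q` with `K0 Q = 0` the derivation `D₀` preserves regularity;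
* `DiffDatum.lcN_eq_of_unif` : **the `ω₀`-normalised leading coefficient can be computed with
  any uniformizer** `τ'` at `Q` (when `K0 Q = 0`):
  `lcN f Q = (f τ'^{-n})(Q) · (D₀ τ' (Q))^n`, `n = ord_Q f`;
* `divN f`, `isDivOf_divN`, `ddeg_eq_zero_of_isDivOf` : the divisor of a function, of degree `0`.
-/

set_option autoImplicit false
set_option linter.unusedSectionVars false

open scoped BigOperators

noncomputable section

namespace Fermat.Agent.MW

open AlgebraicCurve ModularCurve Fermat.Agent.JA Fermat.Agent.FF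

variable {N : ℕ} [NeZero N]

/-- every point of `X₀(N)` over `Ω` has degree one. -/
theorem ptN_deg (Q : PtN N) : Q.deg = 1 := (Fermat.Agent.X0N.jCoordBar N).deg_eq_one Q

/-- a function which is zero or of nonnegative order at `Q` is regular at `Q`. -/
theorem mem_of_ord_nonneg (Q : PtN N) {f : FunN N} (h : f = 0 ∨ 0 ≤ Q.ord f) :
    f ∈ Q.toValuationSubring :=
  (PlaceAux.mem_iff_ord_nonneg Q).mpr h

/-- a regular function has its value. -/
theorem valN_spec (Q : PtN N) {f : FunN N} (h : f = 0 ∨ 0 ≤ Q.ord f) :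
    HasValueAt Q f (valN N Q f) :=
  hasValueAt_valueAt_of_mem (ptN_deg Q) (mem_of_ord_nonneg Q h)

theorem valN_mul (Q : PtN N) {f g : FunN N} (hf : f = 0 ∨ 0 ≤ Q.ord f)
    (hg : g = 0 ∨ 0 ≤ Q.ord g) : valN N Q (f * g) = valN N Q f * valN N Q g :=
  ((valN_spec Q hf).mul (valN_spec Q hg)).valueAt_eq

theorem valN_add (Q : PtN N) {f g : FunN N} (hf : f = 0 ∨ 0 ≤ Q.ord f)
    (hg : g = 0 ∨ 0 ≤ Q.ord g) : valN N Q (f + g) = valN N Q f + valN N Q g :=
  ((valN_spec Q hf).add (valN_spec Q hg)).valueAt_eq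

theorem valN_algebraMap (Q : PtN N) (c : AlgebraicClosure ℚ) :
    valN N Q (algebraMap (AlgebraicClosure ℚ) (FunN N) c) = c :=
  (HasValueAt.algebraMap' Q c).valueAt_eq

theorem valN_one (Q : PtN N) : valN N Q (1 : FunN N) = 1 := (HasValueAt.one' Q).valueAt_eq

theorem valN_zero (Q : PtN N) : valN N Q (0 : FunN N) = 0 := (HasValueAt.zero' Q).valueAt_eq

/-- a function of positive order has value `0`. -/
theorem valN_eq_zero_of_ord_pos (Q : PtN N) {f : FunN N} (h : f = 0 ∨ 0 < Q.ord f) :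
    valN N Q f = 0 :=
  (HasValueAt.zero_iff.mpr h).valueAt_eq

/-- a nonzero function of order `0` has a nonzero value. -/
theorem valN_ne_zero (Q : PtN N) {f : FunN N} (hf : f ≠ 0) (h : Q.ord f = 0) :
    valN N Q f ≠ 0 := by
  intro h0
  have h1 := valN_spec Q (Or.inr (le_of_eq h.symm) : f = 0 ∨ 0 ≤ Q.ord f)
  rw [h0] at h1
  rcases HasValueAt.zero_iff.mp h1 with h2 | h2
  · exact hf h2
  · omega

/-- the value of a power of a function of order `0`. -/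
theorem valN_zpow (Q : PtN N) {f : FunN N} (hf : f ≠ 0) (h : Q.ord f = 0) (n : ℤ) :
    valN N Q (f ^ n) = valN N Q f ^ n := by
  have hv := valN_spec Q (Or.inr (le_of_eq h.symm) : f = 0 ∨ 0 ≤ Q.ord f)
  have hne := valN_ne_zero Q hf h
  have hpow : ∀ m : ℕ, HasValueAt Q (f ^ m) (valN N Q f ^ m) := fun m => hv.pow m
  rcases Int.eq_nat_or_neg n with ⟨m, rfl | rfl⟩
  · rw [zpow_natCast, zpow_natCast]
    exact (hpow m).valueAt_eq
  · rw [zpow_neg, zpow_neg, zpow_natCast, zpow_natCast]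
    exact ((hpow m).inv (pow_ne_zero m hne)).valueAt_eq

theorem ord_zpow_of_ord_zero (Q : PtN N) {f : FunN N} (h : Q.ord f = 0) (n : ℤ) :
    Q.ord (f ^ n) = 0 := by
  rw [Q.ord_zpow, h, mul_zero]

/-! ### the divisor of a function -/

theorem hasPrincipalDivisorsN :
    HasPrincipalDivisors (AlgebraicClosure ℚ) (FunN N) :=
  (Fermat.Agent.X0N.jCoordBar N).hasPrincipalDivisors

theorem exists_isDivOf {f : FunN N} (hf : f ≠ 0) : ∃ D : PtN N →₀ ℤ, IsDivOf N f D := by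
  obtain ⟨D, hD, -⟩ := (hasPrincipalDivisorsN (N := N)).exists_divisor f hf
  exact ⟨D, hD⟩

/-- the divisor of a nonzero function has degree `0`. -/
theorem sum_eq_zero_of_isDivOf {f : FunN N} (hf : f ≠ 0) {D : PtN N →₀ ℤ}
    (hD : IsDivOf N f D) : ∑ P ∈ D.support, D P = 0 := by
  obtain ⟨D', hD', hdeg⟩ := (hasPrincipalDivisorsN (N := N)).exists_divisor f hf
  have e : D' = D := by
    ext v
    rw [hD' v, hD v]
  rw [e] at hdeg
  have h1 : Divisor.degree D = ∑ P ∈ D.support, D P := by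
    unfold Divisor.degree
    rw [Finsupp.liftAddHom_apply, Finsupp.sum]
    refine Finset.sum_congr rfl (fun P _ => ?_)
    simp [ptN_deg P]
  rw [← h1]
  exact hdeg

/-! ### the derivation `D₀` at a point which is not a zero of `ω₀` -/

namespace DiffDatum

variable (𝔡 : DiffDatum N)

theorem D₀_algebraMap (c : AlgebraicClosure ℚ) :
    𝔡.D₀ (algebraMap (AlgebraicClosure ℚ) (FunN N) c) = 0 :=
  𝔡.D₀.map_algebraMap c

theorem D₀_sub_algebraMap (f : FunN N) (c : AlgebraicClosure ℚ) :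
    𝔡.D₀ (f - algebraMap (AlgebraicClosure ℚ) (FunN N) c) = 𝔡.D₀ f := by
  rw [map_sub, D₀_algebraMap, sub_zero]

theorem D₀_unif_ne_zero {Q : PtN N} {τ : FunN N} (hτ : Q.ord τ = 1) : 𝔡.D₀ τ ≠ 0 :=
  (𝔡.K0_spec Q τ hτ).1

theorem ord_D₀_unif {Q : PtN N} {τ : FunN N} (hτ : Q.ord τ = 1) :
    Q.ord (𝔡.D₀ τ) = -(𝔡.K0 Q : ℤ) :=
  (𝔡.K0_spec Q τ hτ).2

/-- at a point which is not a zero of `ω₀`, `D₀` preserves regularity. -/
theorem D₀_regular {Q : PtN N} (hQ : 𝔡.K0 Q = 0) {u : FunN N} (hu : u = 0 ∨ 0 ≤ Q.ord u) :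
    𝔡.D₀ u = 0 ∨ 0 ≤ Q.ord (𝔡.D₀ u) := by
  have hK : -((𝔡.K0 Q : ℕ) : ℤ) = 0 := by rw [hQ]; simp
  set c := valN N Q u with hc
  have hv := valN_spec Q hu
  set w := u - algebraMap (AlgebraicClosure ℚ) (FunN N) c with hw
  have hDw : 𝔡.D₀ u = 𝔡.D₀ w := (𝔡.D₀_sub_algebraMap u c).symm
  rcases HasValueAt.iff_ord.mp hv with h0 | hpos
  · left
    rw [hDw, ← hw] at *
    rw [h0, map_zero]
  · rw [← hw] at hpos
    have hw0 : w ≠ 0 := by
      intro h0
      rw [h0, Place.ord_zero] at hpos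
      exact lt_irrefl _ hpos
    by_cases h1 : Q.ord w = 1
    · right
      rw [hDw, 𝔡.ord_D₀_unif h1, hK]
    · have h2 : 1 < Q.ord w := by omega
      have hτ := ord_unifAt N Q
      have hτ0 := unifAt_ne_zero N Q
      have h3 : Q.ord (unifAt N Q + w) = 1 := by
        rw [PlaceAux.ord_add_eq_of_lt Q hτ0 hw0 (by rw [hτ]; exact h2), hτ]
      have h4 : Q.ord (𝔡.D₀ (unifAt N Q + w)) = 0 := by rw [𝔡.ord_D₀_unif h3, hK]
      have h5 : Q.ord (𝔡.D₀ (unifAt N Q)) = 0 := by rw [𝔡.ord_D₀_unif hτ, hK]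
      have h6 : 𝔡.D₀ w = 𝔡.D₀ (unifAt N Q + w) + -𝔡.D₀ (unifAt N Q) := by
        rw [map_add]; ring
      rw [hDw]
      by_cases h7 : 𝔡.D₀ w = 0
      · exact Or.inl h7
      · right
        rw [h6] at h7 ⊢
        refine PlaceAux.ord_add_ge Q h7 (Or.inr (le_of_eq h4.symm)) (Or.inr ?_)
        rw [show Q.ord (-𝔡.D₀ (unifAt N Q)) = Q.ord (𝔡.D₀ (unifAt N Q)) from by
          rw [show -𝔡.D₀ (unifAt N Q) = (-1 : FunN N) * 𝔡.D₀ (unifAt N Q) by ring,
            Q.ord_mul (by simp) (𝔡.D₀_unif_ne_zero hτ)]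
          have : Q.ord (-1 : FunN N) = 0 := by
            have := PlaceAux.ord_algebraMap Q (-1 : AlgebraicClosure ℚ)
            simpa using this
          rw [this, zero_add], h5]

/-- **the leading coefficient through an arbitrary uniformizer.** -/
theorem lcN_eq_of_unif {Q : PtN N} (hQ : 𝔡.K0 Q = 0) {τ' : FunN N} (hτ' : Q.ord τ' = 1)
    {f : FunN N} (hf : f ≠ 0) :
    𝔡.lcN f Q = valN N Q (f * τ' ^ (-(Q.ord f))) * (valN N Q (𝔡.D₀ τ')) ^ (Q.ord f) := by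
  have hK : -((𝔡.K0 Q : ℕ) : ℤ) = 0 := by rw [hQ]; simp
  unfold lcN
  by_cases hn : Q.ord f = 0
  · rw [if_pos hn, hn, neg_zero, zpow_zero, mul_one, zpow_zero, mul_one]
  rw [if_neg hn, if_pos hQ]
  set n := Q.ord f with hn'
  set τ := unifAt N Q with hτdef
  have hτ : Q.ord τ = 1 := ord_unifAt N Q
  have hτ0 : τ ≠ 0 := unifAt_ne_zero N Q
  have hτ'0 : τ' ≠ 0 := by
    intro h0
    rw [h0, Place.ord_zero] at hτ'
    exact zero_ne_one hτ'
  set u := τ' / τ with hu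
  have hu0 : u ≠ 0 := div_ne_zero hτ'0 hτ0
  have hordu : Q.ord u = 0 := by
    rw [hu, PlaceAux.ord_div Q hτ'0 hτ0, hτ, hτ']
    norm_num
  have hτ'eq : τ' = u * τ := by
    rw [hu]; field_simp
  -- the value of `D₀ τ'`
  have hDu := 𝔡.D₀_regular hQ (Or.inr (le_of_eq hordu.symm) : u = 0 ∨ 0 ≤ Q.ord u)
  have hDτ0 : 𝔡.D₀ τ ≠ 0 := 𝔡.D₀_unif_ne_zero hτ
  have hDτord : Q.ord (𝔡.D₀ τ) = 0 := by rw [𝔡.ord_D₀_unif hτ, hK]
  have hD : 𝔡.D₀ τ' = u * 𝔡.D₀ τ + τ * 𝔡.D₀ u := by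
    rw [hτ'eq, Derivation.leibniz, smul_eq_mul, smul_eq_mul]
  have hval2 : valN N Q (τ * 𝔡.D₀ u) = 0 := by
    apply valN_eq_zero_of_ord_pos
    by_cases h0 : 𝔡.D₀ u = 0
    · left; rw [h0, mul_zero]
    · right
      rw [Q.ord_mul hτ0 h0, hτ]
      have := hDu.resolve_left h0
      omega
  have hreg1 : u * 𝔡.D₀ τ = 0 ∨ 0 ≤ Q.ord (u * 𝔡.D₀ τ) := by
    right
    rw [Q.ord_mul hu0 hDτ0, hordu, hDτord]
    norm_num
  have hreg2 : τ * 𝔡.D₀ u = 0 ∨ 0 ≤ Q.ord (τ * 𝔡.D₀ u) := by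
    by_cases h0 : 𝔡.D₀ u = 0
    · left; rw [h0, mul_zero]
    · right
      rw [Q.ord_mul hτ0 h0, hτ]
      have := hDu.resolve_left h0
      omega
  have hvalD : valN N Q (𝔡.D₀ τ') = valN N Q u * valN N Q (𝔡.D₀ τ) := by
    rw [hD, valN_add Q hreg1 hreg2, hval2, add_zero,
      valN_mul Q (Or.inr (le_of_eq hordu.symm)) (Or.inr (le_of_eq hDτord.symm))]
  -- the value of `f τ'^{-n}`
  have hfτ0 : f * τ ^ (-n) ≠ 0 := mul_ne_zero hf (zpow_ne_zero _ hτ0)
  have hfτord : Q.ord (f * τ ^ (-n)) = 0 := by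
    rw [Q.ord_mul hf (zpow_ne_zero _ hτ0), Q.ord_zpow, hτ, ← hn']
    ring
  have hun0 : u ^ (-n) ≠ 0 := zpow_ne_zero _ hu0
  have hunord : Q.ord (u ^ (-n)) = 0 := ord_zpow_of_ord_zero Q hordu _
  have hfeq : f * τ' ^ (-n) = (f * τ ^ (-n)) * u ^ (-n) := by
    rw [hτ'eq, mul_zpow]
    ring
  have hvalf : valN N Q (f * τ' ^ (-n)) = valN N Q (f * τ ^ (-n)) * (valN N Q u) ^ (-n) := by
    rw [hfeq, valN_mul Q (Or.inr (le_of_eq hfτord.symm)) (Or.inr (le_of_eq hunord.symm)),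
      valN_zpow Q hu0 hordu]
  have hune : valN N Q u ≠ 0 := valN_ne_zero Q hu0 hordu
  have hc : (valN N Q u) ^ (-n) * (valN N Q u) ^ n = 1 := by
    rw [← zpow_add₀ hune]; simp
  rw [hvalf, hvalD, mul_zpow]
  linear_combination (-(valN N Q (f * τ ^ (-n)) * valN N Q (𝔡.D₀ τ) ^ n)) * hc

end DiffDatum

end Fermat.Agent.MW
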