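import Mathlib
import Fermat.Agent.SS.IBASE_helper1_Main
import Fermat.Agent.MW.NADIC_helper6_Lc

/-!
# Project MW (S17) — [N-ADIC] / [LIM-VAL] helper1: the dictionary `Ω ↔ K₁`

`K₁ ⊂ Ω` an intermediate field, `F_L(K₁) = keyFq K₁ L`, `F_L(Ω) = FunN L`, base change
`keyFqBC L K₁`.  For a point `Q : PtN L` put `ptRes L K₁ Q := restrictBC (keyFqBC L K₁) … Q`
(a place of `F_L(K₁)/K₁`).

* generic (`restrictBC` language): `hasValueAt_resBC_iff`, `valueAt_resBC`,
  `IsRationalPlace.exists_hasValueAt`;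
* concrete: `ord_ptRes`, `valN_keyFqBC`, `ptRes_injOn_rational`, descent `exists_galBase_descent`.
-/

set_option autoImplicit false
set_option linter.unusedSectionVars false
set_option linter.unusedVariables false
set_option linter.style.haveILetI false

open HahnSeries IntermediateField AlgebraicCurve ModularCurve

namespace Fermat.Agent.MW

open Fermat.Agent.JA Fermat.Agent.FF Fermat.Agent.SS

noncomputable section

section Generic

variable {K₁ Ω E₁ EΩ : Type*} [Field K₁] [Field Ω] [Algebra K₁ Ω] [Algebra.IsAlgebraic K₁ Ω]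
  [Field E₁] [Algebra K₁ E₁] [Field EΩ] [Algebra Ω EΩ] [CharZero EΩ]

/-- values at a place and at its restriction to the small field. -/
theorem hasValueAt_resBC_iff (φ : E₁ →+* EΩ)
    (hφ : ∀ a : K₁, φ (algebraMap K₁ E₁ a) = algebraMap Ω EΩ (algebraMap K₁ Ω a))
    (hgen : Subfield.closure (Set.range φ ∪ Set.range (algebraMap Ω EΩ)) = ⊤)
    (P : Place Ω EΩ) (x : E₁) (c : K₁) :
    HasValueAt (restrictBC φ hφ hgen P) x c ↔ HasValueAt P (φ x) (algebraMap K₁ Ω c) := by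
  rw [HasValueAt.iff_ord, HasValueAt.iff_ord, ord_restrictBC, map_sub, hφ]
  have h0 : x - algebraMap K₁ E₁ c = 0 ↔ φ x - algebraMap Ω EΩ (algebraMap K₁ Ω c) = 0 := by
    rw [← hφ, ← map_sub, map_eq_zero_iff φ φ.injective]
  rw [h0]

/-- the value of a function defined over the small field. -/
theorem valueAt_resBC (φ : E₁ →+* EΩ)
    (hφ : ∀ a : K₁, φ (algebraMap K₁ E₁ a) = algebraMap Ω EΩ (algebraMap K₁ Ω a))
    (hgen : Subfield.closure (Set.range φ ∪ Set.range (algebraMap Ω EΩ)) = ⊤)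
    (P : Place Ω EΩ) {x : E₁} {c : K₁} (h : HasValueAt (restrictBC φ hφ hgen P) x c) :
    valueAt P (φ x) = algebraMap K₁ Ω c :=
  ((hasValueAt_resBC_iff φ hφ hgen P x c).mp h).valueAt_eq

omit [Algebra.IsAlgebraic K₁ Ω] [CharZero EΩ] in
/-- at a rational place every regular function has a value. -/
theorem _root_.Fermat.Agent.JA.IsRationalPlace.exists_hasValueAt {P₁ : Place K₁ E₁}
    (hrat : IsRationalPlace P₁) {x : E₁} (hx : x ∈ P₁.toValuationSubring) :
    ∃ c : K₁, HasValueAt P₁ x c := by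
  obtain ⟨c, hc⟩ := hrat x hx
  exact ⟨c, HasValueAt.iff_ord.mpr hc⟩

end Generic

section Concrete

/-- `Ω = AlgebraicClosure ℚ`. -/
local notation "Ω" => AlgebraicClosure ℚ

variable (L : ℕ) [NeZero L] (K₁ : IntermediateField ℚ Ω)

/-- the restriction of a point of `X₀(L)` to the function field over `K₁`. -/
def ptRes (Q : PtN L) : Place ↥K₁ ↥(keyFq ↥K₁ L) :=
  restrictBC (keyFqBC L K₁) (keyFqBC_algebraMap L K₁) (closure_range_keyFqBC L K₁) Q

variable {L K₁}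

/-- orders are computed over the small field. -/
theorem ord_ptRes (Q : PtN L) (f₁ : ↥(keyFq ↥K₁ L)) :
    (ptRes L K₁ Q).ord f₁ = Q.ord (keyFqBC L K₁ f₁ : FunN L) :=
  ord_restrictBC _ _ _ Q f₁

theorem mem_ptRes_iff (Q : PtN L) (f₁ : ↥(keyFq ↥K₁ L)) :
    f₁ ∈ (ptRes L K₁ Q).toValuationSubring ↔
      (keyFqBC L K₁ f₁ : FunN L) ∈ Q.toValuationSubring :=
  mem_restrictBC_iff _ _ _ Q f₁

/-- values are computed over the small field. -/
theorem hasValueAt_ptRes_iff (Q : PtN L) (f₁ : ↥(keyFq ↥K₁ L)) (c : ↥K₁) :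
    HasValueAt (ptRes L K₁ Q) f₁ c ↔ HasValueAt Q (keyFqBC L K₁ f₁ : FunN L) (c : Ω) :=
  hasValueAt_resBC_iff _ _ _ Q f₁ c

/-- **the value of a function defined over `K₁` at a point**, from its value at the restricted
place. -/
theorem valN_keyFqBC (Q : PtN L) {f₁ : ↥(keyFq ↥K₁ L)} {c : ↥K₁}
    (h : HasValueAt (ptRes L K₁ Q) f₁ c) : valN L Q (keyFqBC L K₁ f₁ : FunN L) = (c : Ω) :=
  valueAt_resBC _ _ _ Q h

/-- at a point rational over `K₁`, every function over `K₁` regular there has its value in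
`K₁`. -/
theorem exists_valN_keyFqBC_eq (Q : PtN L) (hrat : IsRationalPlace (ptRes L K₁ Q))
    {f₁ : ↥(keyFq ↥K₁ L)} (hf : 0 ≤ Q.ord (keyFqBC L K₁ f₁ : FunN L) ∨ f₁ = 0) :
    ∃ c : ↥K₁, HasValueAt (ptRes L K₁ Q) f₁ c ∧
      valN L Q (keyFqBC L K₁ f₁ : FunN L) = (c : Ω) := by
  have hmem : f₁ ∈ (ptRes L K₁ Q).toValuationSubring := by
    rcases hf with hf | rfl
    · by_cases h0 : f₁ = 0
      · rw [h0]; exact (ptRes L K₁ Q).toValuationSubring.zero_mem
      · rw [PlaceAux.mem_iff_ord_nonneg' _ h0, ord_ptRes]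
        exact hf
    · exact (ptRes L K₁ Q).toValuationSubring.zero_mem
  obtain ⟨c, hc⟩ := hrat.exists_hasValueAt hmem
  exact ⟨c, hc, valN_keyFqBC Q hc⟩

/-- a point rational over `K₁` is determined by its restriction. -/
theorem ptRes_injOn_rational {Q Q' : PtN L} (hrat : IsRationalPlace (ptRes L K₁ Q))
    (h : ptRes L K₁ Q = ptRes L K₁ Q') : Q = Q' :=
  restrictBC_injOn_rational _ _ _ Q Q' hrat h

/-- every place of the function field over `K₁` is the restriction of a point. -/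
theorem exists_ptRes_eq (P₁ : Place ↥K₁ ↥(keyFq ↥K₁ L)) : ∃ Q : PtN L, ptRes L K₁ Q = P₁ :=
  exists_restrictBC_eq _ _ _ P₁

/-- **descent (T0)**: finitely many functions on `X₀(L)`, finitely many constants and finitely
many points are defined (resp. rational) over a common Galois base `K₁ ≥ K₀`. -/
theorem exists_galBase_descent {q : ℕ} {K₀ : IntermediateField ℚ Ω} (hK₀ : IsBase q K₀)
    (t : Finset Ω) {ι : Type*} [Fintype ι] (f : ι → FunN L) (s : Finset (PtN L)) :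
    ∃ K₁ : IntermediateField ℚ Ω, IsGalBase q K₁ ∧ K₀ ≤ K₁ ∧ (∀ c ∈ t, c ∈ K₁) ∧
      (∀ i, ∃ f₁ : ↥(keyFq ↥K₁ L), (keyFqBC L K₁ f₁ : FunN L) = f i) ∧
      ∀ P ∈ s, IsRationalPlace (ptRes L K₁ P) := by
  obtain ⟨K₁, hK₁, hle, ht, hf, hs⟩ := hK₀.exists_ge_isGalBase_keyFq L t
    (f := fun i => ((f i : FunN L) : LaurentSeries Ω)) (fun i => (f i).2) s
  refine ⟨K₁, hK₁, hle, ht, fun i => ?_, hs⟩
  obtain ⟨f₁, hf₁, h1⟩ := hf i
  exact ⟨⟨f₁, hf₁⟩, Subtype.ext h1⟩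

end Concrete

section Abs

/-- `Ω = AlgebraicClosure ℚ`. -/
local notation "Ω" => AlgebraicClosure ℚ

variable (p : Nat.Primes) {K₁ : IntermediateField ℚ Ω}

/-- the integers of `K₁` at the chosen place over `p`. -/
theorem mem_baseRing_padicPlace_iff (c : ↥K₁) :
    c ∈ baseRing (padicPlace (p : ℕ)) K₁ ↔ absv (some p) (c : Ω) ≤ 1 := by
  rw [← mem_padicPlace_iff_absv]
  rfl

theorem absv_le_one_of_mem_baseRing (c : ↥(baseRing (padicPlace (p : ℕ)) K₁)) :
    absv (some p) (((c : ↥K₁) : Ω)) ≤ 1 :=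
  (mem_baseRing_padicPlace_iff p (c : ↥K₁)).mp c.2

/-- units of the base ring have absolute value `1`. -/
theorem absv_eq_one_of_isUnit {c : ↥(baseRing (padicPlace (p : ℕ)) K₁)} (hc : IsUnit c) :
    absv (some p) (((c : ↥K₁) : Ω)) = 1 := by
  obtain ⟨u, rfl⟩ := hc
  have h1 := absv_le_one_of_mem_baseRing p (u : ↥(baseRing (padicPlace (p : ℕ)) K₁))
  have h2 := absv_le_one_of_mem_baseRing p ((u⁻¹ : (↥(baseRing (padicPlace (p : ℕ)) K₁))ˣ) :
    ↥(baseRing (padicPlace (p : ℕ)) K₁))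
  have h3 : ((((u : ↥(baseRing (padicPlace (p : ℕ)) K₁)) : ↥K₁) : Ω)) *
      (((((u⁻¹ : (↥(baseRing (padicPlace (p : ℕ)) K₁))ˣ) :
        ↥(baseRing (padicPlace (p : ℕ)) K₁)) : ↥K₁) : Ω)) = 1 := by
    have h4 := congrArg (fun z : ↥(baseRing (padicPlace (p : ℕ)) K₁) => (((z : ↥K₁) : Ω)))
      u.mul_inv
    exact h4
  have h5 := congrArg (absv (some p)) h3
  rw [absv_mul, absv_one] at h5
  have h6 := absv_nonneg (some p) ((((u : ↥(baseRing (padicPlace (p : ℕ)) K₁)) : ↥K₁) : Ω))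
  nlinarith

/-- non-units of the base ring have absolute value `< 1`. -/
theorem absv_lt_one_iff_mem_maximalIdeal (c : ↥(baseRing (padicPlace (p : ℕ)) K₁)) :
    absv (some p) (((c : ↥K₁) : Ω)) < 1 ↔
      c ∈ IsLocalRing.maximalIdeal ↥(baseRing (padicPlace (p : ℕ)) K₁) := by
  rw [IsLocalRing.mem_maximalIdeal, mem_nonunits_iff]
  constructor
  · intro h hu
    rw [absv_eq_one_of_isUnit p hu] at h
    exact lt_irrefl _ h
  · intro h
    by_contra hge
    apply h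
    have h1 : absv (some p) (((c : ↥K₁) : Ω)) = 1 :=
      le_antisymm (absv_le_one_of_mem_baseRing p c) (not_lt.mp hge)
    have hc0 : ((c : ↥K₁) : Ω) ≠ 0 := by
      intro h0
      rw [h0, absv_zero] at h1
      exact zero_ne_one h1
    have hc1 : (c : ↥K₁) ≠ 0 := fun h0 => hc0 (by rw [h0]; rfl)
    have hinv : (c : ↥K₁)⁻¹ ∈ baseRing (padicPlace (p : ℕ)) K₁ := by
      rw [mem_baseRing_padicPlace_iff]
      have : (((c : ↥K₁)⁻¹ : ↥K₁) : Ω) = (((c : ↥K₁) : Ω))⁻¹ := rfl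
      rw [this, absv_inv, h1, inv_one]
    refine IsUnit.of_mul_eq_one ⟨(c : ↥K₁)⁻¹, hinv⟩ (Subtype.ext ?_)
    show (c : ↥K₁) * (c : ↥K₁)⁻¹ = 1
    exact mul_inv_cancel₀ hc1

/-- the logarithm of `u · ϖ^n`, `u` a unit of the base ring. -/
theorem lg_unit_mul_pow {u ϖ : ↥(baseRing (padicPlace (p : ℕ)) K₁)} (hu : IsUnit u) (n : ℕ) :
    lg (some p) ((((u * ϖ ^ n : ↥(baseRing (padicPlace (p : ℕ)) K₁)) : ↥K₁) : Ω)) =
      n * lg (some p) (((ϖ : ↥K₁) : Ω)) := by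
  have e : ((((u * ϖ ^ n : ↥(baseRing (padicPlace (p : ℕ)) K₁)) : ↥K₁) : Ω)) =
      (((u : ↥K₁) : Ω)) * (((ϖ : ↥K₁) : Ω)) ^ n := rfl
  rw [e]
  unfold lg
  rw [absv_mul, absv_pow, absv_eq_one_of_isUnit p hu, one_mul, Real.log_pow]

end Abs

end

end Fermat.Agent.MW
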