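import Mathlib
import Fermat.Agent.JA.REDO_helper1_GeoChart
import Fermat.Agent.SS.EXPORT_helper4_Charts
import Fermat.Agent.SS.NODEPLACE_helper5
import Fermat.Agent.MW.NADIC_helper1_LimVal

/-!
# Project MW (S17) — [N-ADIC] / [LIM-VAL] helper1, part 2: the reduction of a rational point

`R₁` a discrete valuation ring, `K₁ = Frac R₁`, `E / K₁` a function field, `P` a `K₁`-rational place
of `E`.  `compValR R₁ P hrat` (JA/REDO) is the composite valuation subring
`{f | f(P) ∈ R₁}`.  For a chart `B ⊆ E` (a subalgebra contained in `compValR`):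

* `redIdeal` : the closed point of `B` to which `P` reduces (`{b | b(P) ∈ 𝔪_{R₁}}`), a maximal
  ideal containing the uniformizer and the centre of `P`, unique with these properties;
* `exists_value_of_mem_locRing` : the elements of the local ring `locRing B 𝔪` at the reduction
  have values in `R₁`, in `𝔪_{R₁}` exactly for the elements of `locMax B 𝔪`.
-/

set_option autoImplicit false
set_option linter.unusedSectionVars false
set_option linter.unusedVariables false
set_option linter.style.haveILetI false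

open AlgebraicCurve IsLocalRing

namespace Fermat.Agent.MW

open Fermat.Agent.JA Fermat.Agent.FF Fermat.Agent.SS

noncomputable section

section Red

variable {R₁ : Type*} [CommRing R₁] [IsDomain R₁] [IsDiscreteValuationRing R₁]
  {K₁ : Type*} [Field K₁] [Algebra R₁ K₁] [IsFractionRing R₁ K₁]
  {E : Type*} [Field E] [Algebra K₁ E] [Algebra R₁ E] [IsScalarTower R₁ K₁ E]
  (P : Place K₁ E) (hrat : IsRationalPlace P)

/-- constants of `R₁` have their values in `R₁`. -/
theorem algebraMap_mem_compValR (r : R₁) : algebraMap R₁ E r ∈ compValR R₁ P hrat :=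
  ⟨r, by rw [IsScalarTower.algebraMap_apply R₁ K₁ E]; exact HasValueAt.algebraMap' P _⟩

theorem compValR_le_place {f : E} (hf : f ∈ compValR R₁ P hrat) : f ∈ P.toValuationSubring := by
  obtain ⟨r, hr⟩ := hf
  exact hr.mem

/-- the non-units of the composite valuation ring: the functions with value in `𝔪_{R₁}`. -/
theorem compValR_valuation_lt_one_iff {f : E} {r : R₁}
    (h : HasValueAt P f (algebraMap R₁ K₁ r)) :
    (compValR R₁ P hrat).valuation f < 1 ↔ r ∈ maximalIdeal R₁ := by
  have hinj : Function.Injective (algebraMap R₁ K₁) := IsFractionRing.injective R₁ K₁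
  constructor
  · intro hlt
    by_contra hr
    have hu : IsUnit r := by
      by_contra hnu
      exact hr ((IsLocalRing.mem_maximalIdeal r).mpr hnu)
    obtain ⟨u, rfl⟩ := hu
    have hne : algebraMap R₁ K₁ (u : R₁) ≠ 0 := (map_ne_zero_iff _ hinj).mpr u.ne_zero
    have hinv : HasValueAt P f⁻¹ (algebraMap R₁ K₁ ((u⁻¹ : R₁ˣ) : R₁)) := by
      have e : algebraMap R₁ K₁ ((u⁻¹ : R₁ˣ) : R₁) = (algebraMap R₁ K₁ (u : R₁))⁻¹ := by
        apply eq_inv_of_mul_eq_one_left
        rw [← map_mul, Units.inv_mul, map_one]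
      rw [e]
      exact h.inv hne
    have hmem : f⁻¹ ∈ compValR R₁ P hrat := ⟨_, hinv⟩
    have h1 : (compValR R₁ P hrat).valuation f⁻¹ ≤ 1 :=
      (ValuationSubring.valuation_le_one_iff _ _).mpr hmem
    have hf0 : f ≠ 0 := (h.ord_eq_zero hne).1
    have h2 : (compValR R₁ P hrat).valuation f * (compValR R₁ P hrat).valuation f⁻¹ = 1 := by
      rw [← map_mul, mul_inv_cancel₀ hf0, map_one]
    have h3 : (compValR R₁ P hrat).valuation f * (compValR R₁ P hrat).valuation f⁻¹ < 1 := by
      calc _ ≤ (compValR R₁ P hrat).valuation f * 1 := mul_le_mul_right h1 _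
        _ < 1 := by rw [mul_one]; exact hlt
    rw [h2] at h3
    exact lt_irrefl _ h3
  · intro hr
    have hfV : f ∈ compValR R₁ P hrat := ⟨r, h⟩
    by_contra hge
    rw [not_lt] at hge
    have h1 : (compValR R₁ P hrat).valuation f = 1 :=
      le_antisymm ((ValuationSubring.valuation_le_one_iff _ _).mpr hfV) hge
    have hf0 : f ≠ 0 := by
      intro h0
      rw [h0, map_zero] at h1
      exact zero_ne_one h1
    have hinvV : f⁻¹ ∈ compValR R₁ P hrat := by
      rw [← ValuationSubring.valuation_le_one_iff, map_inv₀, h1, inv_one]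
    obtain ⟨s, hs⟩ := hinvV
    have hmul := h.mul hs
    rw [mul_inv_cancel₀ hf0, ← map_mul] at hmul
    have h2 : (1 : K₁) = algebraMap R₁ K₁ (r * s) := (HasValueAt.one' P).unique hmul
    have h3 : r * s = 1 := by
      apply hinj
      rw [← h2, map_one]
    exact (IsLocalRing.mem_maximalIdeal r).mp hr (IsUnit.of_mul_eq_one s h3)

variable (B : Subalgebra R₁ E) (hB : ∀ b ∈ B, b ∈ compValR R₁ P hrat)

include hB in
/-- the value in `R₁` of an element of the chart. -/
theorem exists_value_of_mem_chart (b : ↥B) : ∃ r : R₁, HasValueAt P (b : E) (algebraMap R₁ K₁ r) :=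
  hB b b.2

/-- **the reduction of the rational point `P` on the chart `B`**: the functions of `B` whose value
at `P` is not a unit of `R₁`. -/
def redIdeal : Ideal ↥B :=
  (maximalIdeal ↥(compValR R₁ P hrat)).comap
    ((algebraMap ↥B E).codRestrict (compValR R₁ P hrat).toSubring (fun b => hB b b.2))

theorem mem_redIdeal_iff_valuation (b : ↥B) :
    b ∈ redIdeal P hrat B hB ↔ (compValR R₁ P hrat).valuation (b : E) < 1 := by
  rw [redIdeal, Ideal.mem_comap, ValuationSubring.valuation_lt_one_iff]
  rfl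

theorem mem_redIdeal_iff {b : ↥B} {r : R₁} (h : HasValueAt P (b : E) (algebraMap R₁ K₁ r)) :
    b ∈ redIdeal P hrat B hB ↔ r ∈ maximalIdeal R₁ := by
  rw [mem_redIdeal_iff_valuation, compValR_valuation_lt_one_iff P hrat h]

instance redIdeal_isPrime : (redIdeal P hrat B hB).IsPrime :=
  Ideal.comap_isPrime _ _

/-- the uniformizer lies in the reduction. -/
theorem algebraMap_mem_redIdeal {π : R₁} (hπ : Irreducible π) :
    algebraMap R₁ ↥B π ∈ redIdeal P hrat B hB := by
  have h1 : HasValueAt P ((algebraMap R₁ ↥B π : ↥B) : E) (algebraMap R₁ K₁ π) := by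
    have e : ((algebraMap R₁ ↥B π : ↥B) : E) = algebraMap K₁ E (algebraMap R₁ K₁ π) := by
      rw [← IsScalarTower.algebraMap_apply R₁ K₁ E]
      rfl
    rw [e]
    exact HasValueAt.algebraMap' P _
  rw [mem_redIdeal_iff P hrat B hB h1, hπ.maximalIdeal_eq]
  exact Ideal.mem_span_singleton_self π

/-- the centre of `P` on the chart lies in the reduction. -/
theorem centreIdeal_le_redIdeal
    (hO : ∀ x : ↥B, algebraMap ↥B E x ∈ P.toValuationSubring) :
    centreIdeal P hO ≤ redIdeal P hrat B hB := by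
  intro b hb
  rw [mem_centreIdeal_iff] at hb
  have h1 : HasValueAt P (b : E) (algebraMap R₁ K₁ 0) := by
    rw [map_zero, HasValueAt.iff_ord, map_zero, sub_zero]
    exact hb
  rw [mem_redIdeal_iff P hrat B hB h1]
  exact (maximalIdeal R₁).zero_mem

/-- **the reduction is a closed point**. -/
instance redIdeal_isMaximal : (redIdeal P hrat B hB).IsMaximal := by
  rw [Ideal.isMaximal_iff]
  constructor
  · intro h1
    have h2 : HasValueAt P ((1 : ↥B) : E) (algebraMap R₁ K₁ 1) := by
      rw [map_one]; exact HasValueAt.one' P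
    rw [mem_redIdeal_iff P hrat B hB h2] at h1
    exact (IsLocalRing.mem_maximalIdeal _).mp h1 isUnit_one
  · intro J b hle hb hbJ
    obtain ⟨r, hr⟩ := hB b b.2
    have hru : IsUnit r := by
      by_contra hnu
      exact hb ((mem_redIdeal_iff P hrat B hB hr).mpr ((IsLocalRing.mem_maximalIdeal r).mpr hnu))
    obtain ⟨u, rfl⟩ := hru
    -- `b - u` lies in the reduction
    have h1 : HasValueAt P ((b - algebraMap R₁ ↥B (u : R₁) : ↥B) : E) (algebraMap R₁ K₁ 0) := by
      have e : ((b - algebraMap R₁ ↥B (u : R₁) : ↥B) : E) =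
          (b : E) - algebraMap K₁ E (algebraMap R₁ K₁ (u : R₁)) := by
        rw [← IsScalarTower.algebraMap_apply R₁ K₁ E]
        rfl
      rw [e, map_zero]
      have := hr.sub (HasValueAt.algebraMap' P (algebraMap R₁ K₁ (u : R₁)))
      rwa [sub_self] at this
    have h2 : b - algebraMap R₁ ↥B (u : R₁) ∈ redIdeal P hrat B hB := by
      rw [mem_redIdeal_iff P hrat B hB h1]
      exact (maximalIdeal R₁).zero_mem
    have h3 : algebraMap R₁ ↥B (u : R₁) ∈ J := by
      have : algebraMap R₁ ↥B (u : R₁) = b - (b - algebraMap R₁ ↥B (u : R₁)) := by ring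
      rw [this]
      exact J.sub_mem hbJ (hle h2)
    have h4 : algebraMap R₁ ↥B ((u⁻¹ : R₁ˣ) : R₁) * algebraMap R₁ ↥B (u : R₁) = 1 := by
      rw [← map_mul, Units.inv_mul, map_one]
    rw [← h4]
    exact J.mul_mem_left _ h3

/-- **uniqueness of the reduction**: a maximal ideal of the chart containing the uniformizer and
the centre of `P` is the reduction of `P`. -/
theorem eq_redIdeal_of_centreIdeal_le {π : R₁} (hπ : Irreducible π)
    (hO : ∀ x : ↥B, algebraMap ↥B E x ∈ P.toValuationSubring)
    (𝔪 : Ideal ↥B) [h𝔪 : 𝔪.IsMaximal] (hπ𝔪 : algebraMap R₁ ↥B π ∈ 𝔪)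
    (hle : centreIdeal P hO ≤ 𝔪) : 𝔪 = redIdeal P hrat B hB := by
  symm
  apply (redIdeal_isMaximal P hrat B hB).eq_of_le h𝔪.ne_top
  intro b hb
  obtain ⟨r, hr⟩ := hB b b.2
  rw [mem_redIdeal_iff P hrat B hB hr, hπ.maximalIdeal_eq, Ideal.mem_span_singleton] at hb
  obtain ⟨s, rfl⟩ := hb
  -- `b - π s` lies in the centre
  have h1 : b - algebraMap R₁ ↥B (π * s) ∈ centreIdeal P hO := by
    rw [mem_centreIdeal_iff]
    have e : algebraMap ↥B E (b - algebraMap R₁ ↥B (π * s)) =
        (b : E) - algebraMap K₁ E (algebraMap R₁ K₁ (π * s)) := by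
      rw [← IsScalarTower.algebraMap_apply R₁ K₁ E]
      rfl
    rw [e]
    exact HasValueAt.iff_ord.mp hr
  have h2 : algebraMap R₁ ↥B (π * s) ∈ 𝔪 := by
    rw [map_mul]
    exact 𝔪.mul_mem_right _ hπ𝔪
  have : b = (b - algebraMap R₁ ↥B (π * s)) + algebraMap R₁ ↥B (π * s) := by ring
  rw [this]
  exact 𝔪.add_mem (hle h1) h2

/-- **evaluation on the local ring at the reduction**: the elements of `locRing B 𝔪` have their
values in `R₁`, the elements of `locMax B 𝔪` exactly those with value in `𝔪_{R₁}`. -/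
theorem exists_value_of_mem_locRing {e : E} (he : e ∈ locRing B (redIdeal P hrat B hB)) :
    ∃ r : R₁, HasValueAt P e (algebraMap R₁ K₁ r) ∧
      (e ∈ locMax B (redIdeal P hrat B hB) ↔ r ∈ maximalIdeal R₁) := by
  have hdom := locRing_le_of_dominates (B := B) (𝔪 := redIdeal P hrat B hB)
    (compValR R₁ P hrat) hB (fun b hb => (mem_redIdeal_iff_valuation P hrat B hB b).mp hb)
  obtain ⟨r, hr⟩ := hdom.1 e he
  refine ⟨r, hr, fun hmax => ?_, fun hrm => ?_⟩
  · exact (compValR_valuation_lt_one_iff P hrat hr).mp (hdom.2 e hmax)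
  · by_contra hnot
    by_cases he0 : e = 0
    · exact hnot (he0 ▸ zero_mem_locMax)
    have hinv := inv_mem_locRing he hnot
    have h1 : (compValR R₁ P hrat).valuation e⁻¹ ≤ 1 :=
      (ValuationSubring.valuation_le_one_iff _ _).mpr (hdom.1 _ hinv)
    have h2 : (compValR R₁ P hrat).valuation e < 1 :=
      (compValR_valuation_lt_one_iff P hrat hr).mpr hrm
    have h3 : (compValR R₁ P hrat).valuation e * (compValR R₁ P hrat).valuation e⁻¹ = 1 := by
      rw [← map_mul, mul_inv_cancel₀ he0, map_one]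
    have h4 : (compValR R₁ P hrat).valuation e * (compValR R₁ P hrat).valuation e⁻¹ < 1 := by
      calc _ ≤ (compValR R₁ P hrat).valuation e * 1 := mul_le_mul_right h1 _
        _ < 1 := by rw [mul_one]; exact h2
    rw [h3] at h4
    exact lt_irrefl _ h4

/-- the units of the local ring at the reduction have unit values. -/
theorem exists_unit_value_of_mem_locRing {e : E} (he : e ∈ locRing B (redIdeal P hrat B hB))
    (he' : e ∉ locMax B (redIdeal P hrat B hB)) :
    ∃ u : R₁ˣ, HasValueAt P e (algebraMap R₁ K₁ (u : R₁)) := by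
  obtain ⟨r, hr, hiff⟩ := exists_value_of_mem_locRing P hrat B hB he
  have hru : IsUnit r := by
    by_contra hnu
    exact he' (hiff.mpr ((IsLocalRing.mem_maximalIdeal r).mpr hnu))
  obtain ⟨u, rfl⟩ := hru
  exact ⟨u, hr⟩

end Red

section Chart

variable {R₁ : Type*} [CommRing R₁] [IsDomain R₁] [IsDiscreteValuationRing R₁]
  {K₁ : Type*} [Field K₁] [Algebra R₁ K₁] [IsFractionRing R₁ K₁]
  {K : Type*} [Field K] [Algebra R₁ K]
  {E : Type*} [Field E] [Algebra K₁ E] [Algebra R₁ E] [IsScalarTower R₁ K₁ E]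
  [Algebra K E] [IsScalarTower R₁ K E]
  (P : Place K₁ E) (hrat : IsRationalPlace P)

/-- the chart of a coordinate whose value at `P` lies in `R₁` is contained in the composite
valuation ring: all its functions have values in `R₁` at `P`. -/
theorem chartOne_le_compValR (t : K) (ht : algebraMap K E t ∈ compValR R₁ P hrat) :
    ∀ b ∈ chartOne R₁ E t, b ∈ compValR R₁ P hrat :=
  chartOne_le_valuationSubring t (compValR R₁ P hrat) (algebraMap_mem_compValR P hrat) ht

end Chart

end

end Fermat.Agent.MW
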