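import Mathlib
import Fermat.Agent.MW.NADIC_helper6_One
import Fermat.Agent.MW.NADIC_helper1_LimRed

/-!
# Project MW (S17) — [N-ADIC] helper6, [CLASS]: the reduction of a rational point of a level-one
two-sheeted model

Every rational place `P` of `EN / K₁` reduces to a closed point of the chart `j` (if `j(P) ∈ R`) or
to a cuspidal closed point of the chart `j⁻¹` (otherwise).
-/

set_option autoImplicit false
set_option linter.unusedSectionVars false
set_option linter.style.haveILetI false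

open AlgebraicCurve IsLocalRing

namespace Fermat.Agent.MW.NAdic

open Fermat.Agent.SS Fermat.Agent.JA Fermat.Agent.FF Fermat.Agent.MW

section Centre

variable {R₁ : Type*} [CommRing R₁] [IsDomain R₁] [IsDiscreteValuationRing R₁]
  {K₁ : Type*} [Field K₁] [Algebra R₁ K₁] [IsFractionRing R₁ K₁]
  {E : Type*} [Field E] [Algebra K₁ E] [Algebra R₁ E] [IsScalarTower R₁ K₁ E]
  (P : Place K₁ E) (hrat : IsRationalPlace P)
  (B : Subalgebra R₁ E) [IsFractionRing ↥B E] (hB : ∀ b ∈ B, b ∈ compValR R₁ P hrat)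

/-- a rational place is centred at its reduction. -/
theorem centredAt_redIdeal : CentredAt (redIdeal P hrat B hB) P := by
  have hO : ∀ x : ↥B, algebraMap ↥B E x ∈ P.toValuationSubring :=
    fun x => compValR_le_place P hrat (hB _ x.2)
  exact (centredAt_iff_centreIdeal_le _ P hO).mpr (centreIdeal_le_redIdeal P hrat B hB hO)

/-- a closed point of the special fibre at which a rational place is centred is its reduction. -/
theorem eq_redIdeal_of_centredAt {π : R₁} (hπ : Irreducible π) (𝔪 : Ideal ↥B) [h𝔪 : 𝔪.IsMaximal]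
    (hπ𝔪 : algebraMap R₁ ↥B π ∈ 𝔪) (hc : CentredAt 𝔪 P) : 𝔪 = redIdeal P hrat B hB := by
  have hO : ∀ x : ↥B, algebraMap ↥B E x ∈ P.toValuationSubring :=
    fun x => compValR_le_place P hrat (hB _ x.2)
  exact eq_redIdeal_of_centreIdeal_le P hrat B hB hπ hO 𝔪 hπ𝔪
    ((centredAt_iff_centreIdeal_le 𝔪 P hO).mp hc)

omit hB in
/-- a chart at a closed point of which a rational place is centred has integral values at the
place. -/
theorem le_compValR_of_centredAt {π : R₁} (hπ : Irreducible π) (𝔪 : Ideal ↥B) [h𝔪 : 𝔪.IsPrime]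
    (hπ𝔪 : algebraMap R₁ ↥B π ∈ 𝔪) (hc : CentredAt 𝔪 P) :
    ∀ b ∈ B, b ∈ compValR R₁ P hrat := by
  intro b hb
  have h1 := hasIntegralValues_of_centredAt hπ P 𝔪 hπ𝔪 hc hrat
  obtain ⟨r, hr⟩ := h1 ⟨b, hb⟩
  refine ⟨r, ?_⟩
  rw [HasValueAt.iff_ord, ← IsScalarTower.algebraMap_apply R₁ K₁ E]
  exact hr

omit hB in
include hrat in
/-- **evaluation on the local ring at the centre**: for a rational place centred at the closed point
`𝔪 ∋ π`, the elements of `locRing B 𝔪` have values in `R₁`, in `𝔪_{R₁}` exactly for `locMax B 𝔪`. -/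
theorem exists_value_of_centredAt {π : R₁} (hπ : Irreducible π) (𝔪 : Ideal ↥B) [h𝔪 : 𝔪.IsMaximal]
    (hπ𝔪 : algebraMap R₁ ↥B π ∈ 𝔪) (hc : CentredAt 𝔪 P) {e : E} (he : e ∈ locRing B 𝔪) :
    ∃ r : R₁, HasValueAt P e (algebraMap R₁ K₁ r) ∧ (e ∈ locMax B 𝔪 ↔ r ∈ maximalIdeal R₁) := by
  haveI := h𝔪.isPrime
  have hB' := le_compValR_of_centredAt P hrat B hπ 𝔪 hπ𝔪 hc
  have e1 := eq_redIdeal_of_centredAt P hrat B hB' hπ 𝔪 hπ𝔪 hc
  have key : ∀ (𝔫 : Ideal ↥B) [h𝔫 : 𝔫.IsPrime], 𝔫 = redIdeal P hrat B hB' → e ∈ locRing B 𝔫 →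
      ∃ r : R₁, HasValueAt P e (algebraMap R₁ K₁ r) ∧ (e ∈ locMax B 𝔫 ↔ r ∈ maximalIdeal R₁) := by
    intro 𝔫 h𝔫 h he'
    subst h
    exact exists_value_of_mem_locRing P hrat B hB' he'
  exact key 𝔪 e1 he

end Centre

section Model

variable {R : Type*} [CommRing R] [IsDomain R] [IsDiscreteValuationRing R] [CharZero R]
  {K₁ : Type*} [Field K₁] [Algebra R K₁] [IsFractionRing R K₁]
  {KM : Type*} [Field KM] [Algebra K₁ KM] [Algebra R KM] [IsScalarTower R K₁ KM]
  {EM : Type*} [Field EM] [Algebra KM EM] [Algebra K₁ EM] [IsScalarTower K₁ KM EM] [Algebra R EM]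
  [IsScalarTower R KM EM]
  {KN : Type*} [Field KN] [Algebra K₁ KN] [Algebra R KN] [IsScalarTower R K₁ KN]
  {EN : Type*} [Field EN] [Algebra KN EN] [Algebra K₁ EN] [IsScalarTower K₁ KN EN] [Algebra R EN]
  [IsScalarTower R KN EN] [FiniteDimensional KN EN]
  {π : R} {q n : ℕ} {t : KM} {jM : EM} {j : KN} {A B : EM →+* EN}
  {VM : ValuationSubring EM} {Winf W0 : ValuationSubring EN}

/-- **the reduction of a rational point**: a closed point of the chart `j`, or a cuspidal closed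
point of the chart `j⁻¹`. -/
theorem SSModel.exists_centre [IsScalarTower R K₁ EN]
    (h : SSModel K₁ π q n (∅ : Finset R) t jM j A B VM Winf W0) (hπ : Irreducible π)
    (P : Place K₁ EN) (hrat : IsRationalPlace P) :
    (∃ 𝔪 : Ideal ↥(chartOne R EN j), 𝔪.IsMaximal ∧ algebraMap R ↥(chartOne R EN j) π ∈ 𝔪 ∧
      CentredAt 𝔪 P) ∨
    (∃ 𝔪 : Ideal ↥(chartOne R EN j⁻¹), 𝔪.IsMaximal ∧ algebraMap R ↥(chartOne R EN j⁻¹) π ∈ 𝔪 ∧
      CentredAt 𝔪 P ∧
      (⟨algebraMap KN EN j⁻¹, algebraMap_coord_mem_chartOne j⁻¹⟩ : ↥(chartOne R EN j⁻¹)) ∈ 𝔪) := by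
  have hK := h.j_adjoin
  have hK' := adjoin_inv_eq_top hK
  by_cases hJ : algebraMap KN EN j ∈ compValR R P hrat
  · left
    haveI : IsFractionRing ↥(chartOne R EN j) EN := isFractionRing_chartOne (K₁ := K₁) j hK
    have hB := chartOne_le_compValR P hrat j hJ
    exact ⟨redIdeal P hrat (chartOne R EN j) hB, redIdeal_isMaximal P hrat _ hB,
      algebraMap_mem_redIdeal P hrat _ hB hπ, centredAt_redIdeal P hrat _ hB⟩
  · right
    haveI : IsFractionRing ↥(chartOne R EN j⁻¹) EN := isFractionRing_chartOne (K₁ := K₁) j⁻¹ hK'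
    have hJi : algebraMap KN EN j⁻¹ ∈ compValR R P hrat := by
      rw [map_inv₀]
      exact ((compValR R P hrat).mem_or_inv_mem _).resolve_left hJ
    have hB := chartOne_le_compValR P hrat j⁻¹ hJi
    refine ⟨redIdeal P hrat (chartOne R EN j⁻¹) hB, redIdeal_isMaximal P hrat _ hB,
      algebraMap_mem_redIdeal P hrat _ hB hπ, centredAt_redIdeal P hrat _ hB, ?_⟩
    rw [mem_redIdeal_iff_valuation]
    show (compValR R P hrat).valuation (algebraMap KN EN j⁻¹) < 1
    have h1 : ¬ (compValR R P hrat).valuation (algebraMap KN EN j) ≤ 1 := by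
      rwa [ValuationSubring.valuation_le_one_iff]
    rw [not_le] at h1
    rw [map_inv₀, map_inv₀]
    exact inv_lt_one_of_one_lt₀ h1

end Model

end Fermat.Agent.MW.NAdic
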