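import Mathlib
import Fermat.Agent.MW.NADIC_helper6_One
import Fermat.Agent.SS.LOCASM_helper5_Main
import Fermat.Agent.SS.UNODE_helper6_Main
import Fermat.Agent.SS.NODE_helper8_Model

/-!
# Project MW (S17) — [N-ADIC] helper6, [NODE-NF]: node coordinates

* `chart_node_normal_form` : at a node `𝔪` of a chart, from two branch uniformizers `x ∈ 𝔭0`,
  `y ∈ 𝔭∞` and a function `u` with divisor `c · 𝔭0` near `𝔪`: node coordinates in normal form
  `x' y' = π^m · unit`, `1 ≤ m ≤ c`, `x' ≡ x`, `y' ≡ y` modulo `π`, in the local ring `B_𝔪`;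
* `SSModel.naive_node` : the naive node coordinates `A t - (B t)^q`, `B t - (A t)^q` of a model
  with good reduction everywhere in the coordinate `t` (`S = ∅`) and `A t ≡ (B t)^q` on `W_0`;
* `SSModel.isUnitAtPrime_unit_hor` : the horizontal clause for a unit integral over `K₁[j]`.
-/

set_option autoImplicit false
set_option linter.unusedSectionVars false
set_option linter.style.haveILetI false

open AlgebraicCurve IsLocalRing

namespace Fermat.Agent.MW.NAdic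

open Fermat.Agent.SS Fermat.Agent.JA Fermat.Agent.FF

section Chart

attribute [local instance] locAlgebra

variable {R₁ : Type*} [CommRing R₁] [IsDomain R₁] [IsDiscreteValuationRing R₁]
  {K₁ : Type*} [Field K₁] [Algebra R₁ K₁] [IsFractionRing R₁ K₁]
  {E : Type*} [Field E] [Algebra K₁ E] [Algebra R₁ E] [IsScalarTower R₁ K₁ E]
  {B : Type*} [CommRing B] [IsDomain B] [IsNoetherianRing B] [IsIntegrallyClosed B]
  [Algebra R₁ B] [Algebra B E] [IsScalarTower R₁ B E] [IsFractionRing B E]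

include K₁ in
/-- **node coordinates in normal form at a node of a chart.** -/
theorem chart_node_normal_form {π : R₁} (hπ : Irreducible π)
    (𝔪 : Ideal B) [h𝔪 : 𝔪.IsMaximal] {𝔭inf 𝔭0 : Ideal B} [h𝔭inf : 𝔭inf.IsPrime]
    [h𝔭0 : 𝔭0.IsPrime]
    (hπinf : algebraMap R₁ B π ∈ 𝔭inf) (hπ0 : algebraMap R₁ B π ∈ 𝔭0)
    (hinf : 𝔭inf ⊓ 𝔭0 ≤ Ideal.span {algebraMap R₁ B π})
    (hleinf : 𝔭inf ≤ 𝔪) (hle0 : 𝔭0 ≤ 𝔪) {x y : B}
    (hx : IsBranchUniformizer 𝔭inf 𝔪 x) (hx0 : x ∈ 𝔭0)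
    (hy : IsBranchUniformizer 𝔭0 𝔪 y) (hyinf : y ∈ 𝔭inf)
    {u : E} {c : ℕ} (hc : 1 ≤ c) (hu_inf : IsUnitAtPrime 𝔭inf u)
    (hu_0 : IsUnitAtPrime 𝔭0 (u * (algebraMap R₁ E π ^ c)⁻¹))
    (hu_hor : ∀ 𝔮 : Ideal B, 𝔮.IsPrime → 𝔮.height = 1 → algebraMap R₁ B π ∉ 𝔮 → 𝔮 ≤ 𝔪 →
      IsUnitAtPrime 𝔮 u) :
    ∃ (x' y' r : Localization.AtPrime 𝔪) (m : ℕ),
      IsNodePair (𝔭0.map (algebraMap B (Localization.AtPrime 𝔪)))
        (𝔭inf.map (algebraMap B (Localization.AtPrime 𝔪))) x' y' ∧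
      x' - algebraMap B (Localization.AtPrime 𝔪) x ∈
        Ideal.span {algebraMap R₁ (Localization.AtPrime 𝔪) π} ∧
      y' - algebraMap B (Localization.AtPrime 𝔪) y ∈
        Ideal.span {algebraMap R₁ (Localization.AtPrime 𝔪) π} ∧
      1 ≤ m ∧ m ≤ c ∧ IsUnit r ∧
      x' * y' = algebraMap R₁ (Localization.AtPrime 𝔪) π ^ m * r := by
  haveI h𝔪p : 𝔪.IsPrime := h𝔪.isPrime
  have hS : 𝔪.primeCompl ≤ nonZeroDivisors B := by
    intro s hs
    exact mem_nonZeroDivisors_of_ne_zero (fun h0 => hs (h0 ▸ 𝔪.zero_mem))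
  haveI : IsIntegrallyClosed (Localization.AtPrime 𝔪) :=
    isIntegrallyClosed_of_isLocalization (Localization.AtPrime 𝔪) 𝔪.primeCompl hS
  haveI : IsNoetherianRing (Localization.AtPrime 𝔪) :=
    IsLocalization.isNoetherianRing 𝔪.primeCompl (Localization.AtPrime 𝔪) inferInstance
  haveI := locAlgebra_isScalarTower (E := E) 𝔪
  haveI := locAlgebra_isScalarTower_base (R₁ := R₁) (E := E) 𝔪
  haveI := locAlgebra_isFractionRing (E := E) 𝔪
  haveI hP0 : (𝔭0.map (algebraMap B (Localization.AtPrime 𝔪))).IsPrime :=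
    map_isPrime_of_le 𝔪 𝔭0 hle0
  haveI hPinf : (𝔭inf.map (algebraMap B (Localization.AtPrime 𝔪))).IsPrime :=
    map_isPrime_of_le 𝔪 𝔭inf hleinf
  have hπO : algebraMap B (Localization.AtPrime 𝔪) (algebraMap R₁ B π) =
      algebraMap R₁ (Localization.AtPrime 𝔪) π :=
    (IsScalarTower.algebraMap_apply R₁ B (Localization.AtPrime 𝔪) π).symm
  have hπE : algebraMap (Localization.AtPrime 𝔪) E (algebraMap R₁ (Localization.AtPrime 𝔪) π) =
      algebraMap R₁ E π := (IsScalarTower.algebraMap_apply R₁ (Localization.AtPrime 𝔪) E π).symm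
  have hπne' : algebraMap R₁ (Localization.AtPrime 𝔪) π ≠ 0 := by
    intro h0
    have h1 : algebraMap R₁ E π = 0 := by rw [← hπE, h0, map_zero]
    rw [IsScalarTower.algebraMap_apply R₁ K₁ E] at h1
    exact hπ.ne_zero (IsFractionRing.injective R₁ K₁
      ((algebraMap K₁ E).injective (by rw [h1, map_zero, map_zero])))
  have hnode := isNodePair_of_branches (R := Localization.AtPrime 𝔪) 𝔪 hleinf hle0 hx hx0 hy hyinf
  have hπ0' : algebraMap R₁ (Localization.AtPrime 𝔪) π ∈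
      𝔭0.map (algebraMap B (Localization.AtPrime 𝔪)) := by
    rw [← hπO]; exact Ideal.mem_map_of_mem _ hπ0
  have hπinf' : algebraMap R₁ (Localization.AtPrime 𝔪) π ∈
      𝔭inf.map (algebraMap B (Localization.AtPrime 𝔪)) := by
    rw [← hπO]; exact Ideal.mem_map_of_mem _ hπinf
  have hinf' : 𝔭0.map (algebraMap B (Localization.AtPrime 𝔪)) ⊓
      𝔭inf.map (algebraMap B (Localization.AtPrime 𝔪)) ≤
      Ideal.span {algebraMap R₁ (Localization.AtPrime 𝔪) π} := by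
    rw [← hπO]
    exact map_inf_map_le_span (R := Localization.AtPrime 𝔪) 𝔪 hinf
  have hvert := eq_or_eq_of_mem_of_height_one_local hπ0' hπinf' hπne' hinf'
  have hu_inf' : IsUnitAtPrime (𝔭inf.map (algebraMap B (Localization.AtPrime 𝔪))) u :=
    isUnitAtPrime_map_of_le 𝔪 𝔭inf hleinf hu_inf
  have hu_0' : IsUnitAtPrime (𝔭0.map (algebraMap B (Localization.AtPrime 𝔪)))
      (u * (algebraMap (Localization.AtPrime 𝔪) E
        (algebraMap R₁ (Localization.AtPrime 𝔪) π) ^ c)⁻¹) := by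
    rw [hπE]
    exact isUnitAtPrime_map_of_le (R := Localization.AtPrime 𝔪) 𝔪 𝔭0 hle0 hu_0
  have hu_hor' : ∀ Q : Ideal (Localization.AtPrime 𝔪), Q.IsPrime → Q.height = 1 →
      algebraMap R₁ (Localization.AtPrime 𝔪) π ∉ Q → IsUnitAtPrime Q u := by
    intro Q hQ hht hhor
    haveI := hQ
    refine isUnitAtPrime_of_comap Q (hu_hor _ (Ideal.comap_isPrime _ _)
      (height_comap_eq_one 𝔪 Q hht) ?_ (comap_le_of_isPrime 𝔪 Q))
    rw [Ideal.mem_comap, hπO]
    exact hhor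
  obtain ⟨x', y', r, m', hnode', hxx, hyy, hm', hmc, hr, hxy⟩ :=
    hnode.exists_normal_form_of_unit (K := E) hπ0' hπinf' hinf' hvert hu_inf' hc hu_0' hu_hor'
  exact ⟨x', y', r, m', hnode', hxx, hyy, hm', hmc, hr, hxy⟩

end Chart

section Model

variable {R : Type*} [CommRing R] [IsDomain R] [IsDiscreteValuationRing R] [CharZero R]
  {K₁ : Type*} [Field K₁] [Algebra R K₁] [IsFractionRing R K₁]
  {KM : Type*} [Field KM] [Algebra K₁ KM] [Algebra R KM] [IsScalarTower R K₁ KM]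
  {EM : Type*} [Field EM] [Algebra KM EM] [Algebra K₁ EM] [IsScalarTower K₁ KM EM] [Algebra R EM]
  [IsScalarTower R KM EM]
  {KN : Type*} [Field KN] [Algebra K₁ KN] [Algebra R KN] [IsScalarTower R K₁ KN]
  {EN : Type*} [Field EN] [Algebra KN EN] [Algebra K₁ EN] [IsScalarTower K₁ KN EN] [Algebra R EN]
  [IsScalarTower R KN EN] [FiniteDimensional KN EN]
  {π : R} {q n : ℕ} {t : KM} {jM : EM} {j : KN} {A B : EM →+* EN}
  {VM : ValuationSubring EM} {Winf W0 : ValuationSubring EN}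

/-- **the naive node coordinates** `A t - (B t)^q ∈ 𝔭0`, `B t - (A t)^q ∈ 𝔭∞` at a node of the
chart `j`. -/
theorem SSModel.naive_node [IsAlgClosed (IsLocalRing.ResidueField R)]
    (h : SSModel K₁ π q n (∅ : Finset R) t jM j A B VM Winf W0) (hπ : Irreducible π)
    (hk0 : W0.valuation (A (algebraMap KM EM t) - B (algebraMap KM EM t) ^ q) < 1)
    (𝔪 : Ideal ↥(chartOne R EN j)) [h𝔪 : 𝔪.IsMaximal]
    (hinf : sheetIdeal j Winf h.two.chart_le_inf ≤ 𝔪)
    (h0 : sheetIdeal j W0 h.two.chart_le_zero ≤ 𝔪) :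
    ∃ x y : ↥(chartOne R EN j),
      (x : EN) = A (algebraMap KM EM t) - B (algebraMap KM EM t) ^ q ∧
      (y : EN) = B (algebraMap KM EM t) - A (algebraMap KM EM t) ^ q ∧
      IsBranchUniformizer (sheetIdeal j Winf h.two.chart_le_inf) 𝔪 x ∧
      x ∈ sheetIdeal j W0 h.two.chart_le_zero ∧
      IsBranchUniformizer (sheetIdeal j W0 h.two.chart_le_zero) 𝔪 y ∧
      y ∈ sheetIdeal j Winf h.two.chart_le_inf := by
  haveI := h𝔪.isPrime
  have hu := h.j_transcendental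
  have hK := h.j_adjoin
  have hjq := h.jq_mem_chartOne hπ
  obtain ⟨a, yA, sA, hsA, hyA, hbrA⟩ :=
    h.exists_coord_sub_isBranchUniformizer_inf hu hK h.two 𝔪 hinf (le_locRing h.A_t_mem)
      (fun s₀ hs₀ => absurd hs₀ (Finset.notMem_empty s₀))
  obtain ⟨b, yB, sB, hsB, hyB, hbrB⟩ :=
    h.exists_coord_sub_isBranchUniformizer_zero hu hK h.two 𝔪 h0
      (le_locRing (h.B_t_mem hjq)) (fun s₀ hs₀ => absurd hs₀ (Finset.notMem_empty s₀))
  set τA : ↥(chartOne R EN j) := ⟨A (algebraMap KM EM t), h.A_t_mem⟩ with hτA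
  set τB : ↥(chartOne R EN j) := ⟨B (algebraMap KM EM t), h.B_t_mem hjq⟩ with hτB
  have hπ𝔪 : algebraMap R ↥(chartOne R EN j) π ∈ 𝔪 :=
    hinf (IsTwoSheet.pi_mem_inf (K₁ := K₁) h.two hπ)
  have hres := exists_sub_mem_of_isMaximal_chartOne (K₁ := K₁) hπ h.j_transcendental h.j_adjoin
    𝔪 hπ𝔪
  have hRinf : ∀ r : R, algebraMap R ↥(chartOne R EN j) r ∈ 𝔪 →
      algebraMap R ↥(chartOne R EN j) r ∈ sheetIdeal j Winf h.two.chart_le_inf := by
    intro r hr
    obtain ⟨c, rfl⟩ := algebraMap_mem_span_of_mem_maximal hπ 𝔪 hr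
    rw [map_mul]
    exact Ideal.mul_mem_right _ _ (IsTwoSheet.pi_mem_inf (K₁ := K₁) h.two hπ)
  have hR0 : ∀ r : R, algebraMap R ↥(chartOne R EN j) r ∈ 𝔪 →
      algebraMap R ↥(chartOne R EN j) r ∈ sheetIdeal j W0 h.two.chart_le_zero := by
    intro r hr
    obtain ⟨c, rfl⟩ := algebraMap_mem_span_of_mem_maximal hπ 𝔪 hr
    rw [map_mul]
    exact Ideal.mul_mem_right _ _ (IsTwoSheet.pi_mem_zero (K₁ := K₁) h.two hπ)
  obtain ⟨c, hc⟩ := Ideal.mem_span_singleton.mp h.q_mem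
  have hqinf : ((q : ℕ) : ↥(chartOne R EN j)) ∈ sheetIdeal j Winf h.two.chart_le_inf := by
    have : ((q : ℕ) : ↥(chartOne R EN j)) =
        algebraMap R ↥(chartOne R EN j) π * algebraMap R ↥(chartOne R EN j) c := by
      rw [← map_mul, ← hc, map_natCast]
    rw [this]
    exact Ideal.mul_mem_right _ _ (IsTwoSheet.pi_mem_inf (K₁ := K₁) h.two hπ)
  have hq0 : ((q : ℕ) : ↥(chartOne R EN j)) ∈ sheetIdeal j W0 h.two.chart_le_zero := by
    have : ((q : ℕ) : ↥(chartOne R EN j)) =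
        algebraMap R ↥(chartOne R EN j) π * algebraMap R ↥(chartOne R EN j) c := by
      rw [← map_mul, ← hc, map_natCast]
    rw [this]
    exact Ideal.mul_mem_right _ _ (IsTwoSheet.pi_mem_zero (K₁ := K₁) h.two hπ)
  have hx : τA - τB ^ q ∈ sheetIdeal j W0 h.two.chart_le_zero := by
    rw [mem_sheetIdeal_iff]
    exact hk0
  have hy : τB - τA ^ q ∈ sheetIdeal j Winf h.two.chart_le_inf := by
    rw [mem_sheetIdeal_iff]
    exact h.kron_t_inf
  have hyA' : (τA - algebraMap R ↥(chartOne R EN j) a) * sA = yA := by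
    apply Subtype.ext
    rw [← hyA]
    rfl
  have hyB' : (τB - algebraMap R ↥(chartOne R EN j) b) * sB = yB := by
    apply Subtype.ext
    rw [← hyB]
    rfl
  obtain ⟨h1, h2⟩ := exists_node_uniformizers_of_kron hinf h0 h.q_prime hqinf hq0 hres hRinf hR0
    hx hy hsA hyA' hbrA hsB hyB' hbrB
  exact ⟨τA - τB ^ q, τB - τA ^ q, rfl, rfl, h1, hx, h2, hy⟩

end Model

end Fermat.Agent.MW.NAdic
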