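import Mathlib
import Fermat.Agent.MW.NADIC_helper6_Class
import Fermat.Agent.MW.NADIC_helper6_NodeNF

/-!
# Project MW (S17) — [N-ADIC] helper6, [KIND]: the values of the node unit detect the kind of a cell

`U` a function which is a unit on `C_∞`, `π^c ·` unit on `C_0`, without zeros or poles where `j` is
regular (`Δ(τ)/Δ(qτ)`).  For a rational place `Q` centred at a closed point `𝔪` of the chart `j`:
`U(Q)` is a unit if `𝔪` lies only on `C_∞`, `π^c ·` unit if `𝔪` lies only on `C_0`, and `π^i ·` unit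
with `0 < i < c` if `𝔪` is a node.
-/

set_option autoImplicit false
set_option linter.unusedSectionVars false
set_option linter.style.haveILetI false

open AlgebraicCurve IsLocalRing

namespace Fermat.Agent.MW.NAdic

open Fermat.Agent.SS Fermat.Agent.JA Fermat.Agent.FF Fermat.Agent.MW

section Loc

attribute [local instance] locAlgebra

variable {R₁ : Type*} [CommRing R₁]
  {E : Type*} [Field E] [Algebra R₁ E]

/-- the image in `E` of an element of the localisation `B_𝔪` lies in `locRing B 𝔪`. -/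
theorem algebraMap_localization_mem_locRing (B : Subalgebra R₁ E) [IsFractionRing ↥B E]
    (𝔪 : Ideal ↥B) [h𝔪 : 𝔪.IsPrime] (z : Localization.AtPrime 𝔪) :
    algebraMap (Localization.AtPrime 𝔪) E z ∈ locRing B 𝔪 := by
  obtain ⟨r, s, rfl⟩ := IsLocalization.exists_mk'_eq 𝔪.primeCompl z
  have hs0 : algebraMap ↥B E (s : ↥B) ≠ 0 :=
    (map_ne_zero_iff _ (IsFractionRing.injective ↥B E)).mpr
      (fun h0 => s.2 (by rw [h0]; exact 𝔪.zero_mem))
  refine ⟨r, s, s.2, ?_⟩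
  rw [locAlgebra_mk']
  show algebraMap ↥B E r * (algebraMap ↥B E (s : ↥B))⁻¹ * algebraMap ↥B E (s : ↥B) = _
  rw [mul_assoc, inv_mul_cancel₀ hs0, mul_one]
  rfl

end Loc

section Model

variable {R : Type*} [CommRing R] [IsDomain R] [IsDiscreteValuationRing R] [CharZero R]
  {K₁ : Type*} [Field K₁] [Algebra R K₁] [IsFractionRing R K₁]
  {KM : Type*} [Field KM] [Algebra K₁ KM] [Algebra R KM] [IsScalarTower R K₁ KM]
  {EM : Type*} [Field EM] [Algebra KM EM] [Algebra K₁ EM] [IsScalarTower K₁ KM EM] [Algebra R EM]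
  [IsScalarTower R KM EM]
  {KN : Type*} [Field KN] [Algebra K₁ KN] [Algebra R KN] [IsScalarTower R K₁ KN]
  {EN : Type*} [Field EN] [Algebra KN EN] [Algebra K₁ EN] [IsScalarTower K₁ KN EN] [Algebra R EN]
  [IsScalarTower R KN EN] [FiniteDimensional KN EN]
  {π : R} {q n : ℕ} {t : KM} {jM : EM} {j : KN} {A B : EM →+* EN}
  {VM : ValuationSubring EM} {Winf W0 : ValuationSubring EN}

/-- the data of the node unit `U` (`Δ(τ)/Δ(qτ)`) of a two-sheeted model. -/
structure NodeUnit (K₁ : Type*) [Field K₁] [Algebra K₁ EN] (π : R) (J U : EN) (c : ℕ)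
    (Winf W0 : ValuationSubring EN) : Prop where
  ne_zero : U ≠ 0
  one_le : 1 ≤ c
  mem_inf : U ∈ Winf
  inv_mem_inf : U⁻¹ ∈ Winf
  mem_zero : U * (algebraMap R EN π ^ c)⁻¹ ∈ W0
  inv_mem_zero : (U * (algebraMap R EN π ^ c)⁻¹)⁻¹ ∈ W0
  int : IsIntegral ↥(Algebra.adjoin K₁ {J}) U
  int_inv : IsIntegral ↥(Algebra.adjoin K₁ {J}) U⁻¹

variable {U : EN} {c : ℕ}

/-- the node unit has neither zero nor pole at a place where `J` is regular. -/
theorem NodeUnit.ord_eq_zero {J : EN} (hU : NodeUnit K₁ π J U c Winf W0) (P : Place K₁ EN)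
    (hJ : J ∈ P.toValuationSubring) : P.ord U = 0 := by
  have hK : ∀ r : K₁, algebraMap K₁ EN r ∈ P.toValuationSubring := by
    intro r
    rw [PlaceAux.mem_iff_ord_nonneg]
    by_cases hr : algebraMap K₁ EN r = 0
    · exact Or.inl hr
    · right; rw [PlaceAux.ord_algebraMap]
  have h1 := mem_valuationSubring_of_isIntegral_adjoin_singleton P.toValuationSubring hK hJ hU.int
  have h2 := mem_valuationSubring_of_isIntegral_adjoin_singleton P.toValuationSubring hK hJ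
    hU.int_inv
  have h3 := PlaceAux.ord_nonneg_of_mem P h1
  have h4 := PlaceAux.ord_nonneg_of_mem P h2
  rw [Place.ord_inv] at h4
  omega

/-- the node unit has neither zero nor pole at a place centred on the chart `j`. -/
theorem SSModel.ord_nodeUnit_eq_zero
    (h : SSModel K₁ π q n (∅ : Finset R) t jM j A B VM Winf W0)
    (hU : NodeUnit K₁ π (A jM) U c Winf W0) (𝔪 : Ideal ↥(chartOne R EN j)) {P : Place K₁ EN}
    (hP : CentredAt 𝔪 P) : P.ord U = 0 := by
  refine hU.ord_eq_zero P ?_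
  rw [h.A_j]
  exact hP.1 ⟨algebraMap KN EN j, algebraMap_coord_mem_chartOne j⟩

/-- **the value of the node unit on a cell of `C_∞`** is a unit. -/
theorem SSModel.nodeUnit_value_inf [IsAlgClosed (IsLocalRing.ResidueField R)]
    [IsScalarTower R K₁ EN]
    (h : SSModel K₁ π q n (∅ : Finset R) t jM j A B VM Winf W0) (hπ : Irreducible π)
    (hU : NodeUnit K₁ π (A jM) U c Winf W0)
    (𝔪 : Ideal ↥(chartOne R EN j)) [h𝔪 : 𝔪.IsMaximal]
    (hle : sheetIdeal j Winf h.two.chart_le_inf ≤ 𝔪)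
    (hnle : ¬ sheetIdeal j W0 h.two.chart_le_zero ≤ 𝔪)
    {Q : Place K₁ EN} (hQ : CentredAt 𝔪 Q) (hQrat : IsRationalPlace Q) :
    ∃ w : Rˣ, HasValueAt Q U (algebraMap R K₁ (w : R)) := by
  classical
  haveI : IsFractionRing ↥(chartOne R EN j) EN := isFractionRing_chartOne (K₁ := K₁) j h.j_adjoin
  have hπ𝔪 : algebraMap R ↥(chartOne R EN j) π ∈ 𝔪 :=
    hle (IsTwoSheet.pi_mem_inf (K₁ := K₁) h.two hπ)
  obtain ⟨ζ, hζ, -⟩ := exists_value_of_centredAt Q hQrat (chartOne R EN j) hπ 𝔪 hπ𝔪 hQ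
    (le_locRing (𝔪 := 𝔪) h.A_t_mem)
  have hπ0 : algebraMap R EN π ≠ 0 := algebraMap_pi_ne_zero (K₁ := K₁) (K := KN) hπ
  obtain ⟨-, w, hw⟩ := SSModel.cell_inf h hπ 𝔪 hle hnle hU.ne_zero ∅ (fun P hP => by simp at hP)
    (fun P hP => by simp at hP)
    (fun P hP hne => absurd (SSModel.ord_nodeUnit_eq_zero h hU 𝔪 hP) hne) (fun _ => ζ)
    (fun P hP => by simp at hP) 0
    (by rw [zpow_zero, inv_one, mul_one]; exact hU.mem_inf)
    (by rw [zpow_zero, inv_one, mul_one]; exact hU.inv_mem_inf) hQ hQrat hζ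
  refine ⟨w, ?_⟩
  rw [SSModel.ord_nodeUnit_eq_zero h hU 𝔪 hQ, zpow_zero, inv_one, mul_one] at hw
  simpa using hw

/-- **the value of the node unit on a cell of `C_0`** is `π^c ·` unit. -/
theorem SSModel.nodeUnit_value_zero [IsAlgClosed (IsLocalRing.ResidueField R)]
    [IsScalarTower R K₁ EN]
    (h : SSModel K₁ π q n (∅ : Finset R) t jM j A B VM Winf W0) (hπ : Irreducible π)
    (hU : NodeUnit K₁ π (A jM) U c Winf W0)
    (𝔪 : Ideal ↥(chartOne R EN j)) [h𝔪 : 𝔪.IsMaximal]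
    (hle : sheetIdeal j W0 h.two.chart_le_zero ≤ 𝔪)
    (hnle : ¬ sheetIdeal j Winf h.two.chart_le_inf ≤ 𝔪)
    {Q : Place K₁ EN} (hQ : CentredAt 𝔪 Q) (hQrat : IsRationalPlace Q) :
    ∃ w : Rˣ, HasValueAt Q U (algebraMap R K₁ π ^ c * algebraMap R K₁ (w : R)) := by
  classical
  haveI : IsFractionRing ↥(chartOne R EN j) EN := isFractionRing_chartOne (K₁ := K₁) j h.j_adjoin
  have hπ𝔪 : algebraMap R ↥(chartOne R EN j) π ∈ 𝔪 :=
    hle (IsTwoSheet.pi_mem_zero (K₁ := K₁) h.two hπ)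
  obtain ⟨ζ, hζ, -⟩ := exists_value_of_centredAt Q hQrat (chartOne R EN j) hπ 𝔪 hπ𝔪 hQ
    (le_locRing (𝔪 := 𝔪) (h.B_t_mem (h.jq_mem_chartOne hπ)))
  obtain ⟨-, w, hw⟩ := SSModel.cell_zero h hπ 𝔪 hle hnle hU.ne_zero ∅ (fun P hP => by simp at hP)
    (fun P hP => by simp at hP)
    (fun P hP hne => absurd (SSModel.ord_nodeUnit_eq_zero h hU 𝔪 hP) hne) (fun _ => ζ)
    (fun P hP => by simp at hP) (c : ℤ)
    (by rw [zpow_natCast]; exact hU.mem_zero)
    (by rw [zpow_natCast]; exact hU.inv_mem_zero) hQ hQrat hζ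
  refine ⟨w, ?_⟩
  rw [SSModel.ord_nodeUnit_eq_zero h hU 𝔪 hQ, zpow_zero, inv_one, mul_one] at hw
  simpa using hw

end Model

end Fermat.Agent.MW.NAdic
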