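import Mathlib
import Fermat.Agent.MW.NADIC_helper6_Kind
import Fermat.Agent.MW.NADIC_helper6_Fac2

/-!
# Project MW (S17) — [N-ADIC] helper6, [NODE]: the cells of the nodes of a two-sheeted model

* `IsNodeCoord 𝔪 X m` : `X ∈ EN` is a node coordinate in normal form at the node `𝔪` of the chart
  `j`, of thickness `m` (`X Y = π^m ·` unit);
* `SSModel.exists_isNodeCoord` : existence, congruent to the naive coordinate modulo `π`, `m ≤ c`;
* `SSModel.node_value`, `SSModel.node_factorisation` : the value formula and the factorisation on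
  the cell of a node;
* `SSModel.nodeUnit_value_node` : the node unit takes a value `π^i ·` unit, `0 < i < c`, on the cell
  of a node.
-/

set_option autoImplicit false
set_option linter.unusedSectionVars false
set_option linter.style.haveILetI false

open AlgebraicCurve IsLocalRing

namespace Fermat.Agent.MW.NAdic

open Fermat.Agent.SS Fermat.Agent.JA Fermat.Agent.FF Fermat.Agent.MW

section Model

attribute [local instance] locAlgebra

variable {R : Type*} [CommRing R] [IsDomain R] [IsDiscreteValuationRing R] [CharZero R]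
  {K₁ : Type*} [Field K₁] [Algebra R K₁] [IsFractionRing R K₁]
  {KM : Type*} [Field KM] [Algebra K₁ KM] [Algebra R KM] [IsScalarTower R K₁ KM]
  {EM : Type*} [Field EM] [Algebra KM EM] [Algebra K₁ EM] [IsScalarTower K₁ KM EM] [Algebra R EM]
  [IsScalarTower R KM EM]
  {KN : Type*} [Field KN] [Algebra K₁ KN] [Algebra R KN] [IsScalarTower R K₁ KN]
  {EN : Type*} [Field EN] [Algebra KN EN] [Algebra K₁ EN] [IsScalarTower K₁ KN EN] [Algebra R EN]
  [IsScalarTower R KN EN] [FiniteDimensional KN EN]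
  {π : R} {q n : ℕ} {t : KM} {jM : EM} {j : KN} {A B : EM →+* EN}
  {VM : ValuationSubring EM} {Winf W0 : ValuationSubring EN}

/-- `X` is a node coordinate in normal form, of thickness `m`, at the closed point `𝔪` of the chart
`u` with the two sheets `𝔭∞`, `𝔭0`: it is the image of `x ∈ B_𝔪` with `(x, y)` a node pair and
`x y = π^m ·` unit. -/
def IsNodeCoord (π : R) {u : KN} (hfr : IsFractionRing ↥(chartOne R EN u) EN)
    (𝔭inf 𝔭0 𝔪 : Ideal ↥(chartOne R EN u)) [𝔪.IsPrime] (X : EN) (m : ℕ) : Prop :=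
  haveI := hfr
  ∃ x y r : Localization.AtPrime 𝔪,
    IsNodePair (𝔭0.map (algebraMap ↥(chartOne R EN u) (Localization.AtPrime 𝔪)))
      (𝔭inf.map (algebraMap ↥(chartOne R EN u) (Localization.AtPrime 𝔪))) x y ∧
    x * y = algebraMap R (Localization.AtPrime 𝔪) π ^ m * r ∧ IsUnit r ∧ 1 ≤ m ∧
    algebraMap (Localization.AtPrime 𝔪) EN x = X

/-- **existence of node coordinates in normal form**, congruent to the naive one modulo `π`. -/
theorem SSModel.exists_isNodeCoord [IsAlgClosed (IsLocalRing.ResidueField R)]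
    [IsScalarTower R K₁ EN]
    (h : SSModel K₁ π q n (∅ : Finset R) t jM j A B VM Winf W0) (hπ : Irreducible π)
    (hk0 : W0.valuation (A (algebraMap KM EM t) - B (algebraMap KM EM t) ^ q) < 1)
    {U : EN} {c : ℕ} (hU : NodeUnit K₁ π (A jM) U c Winf W0)
    (𝔪 : Ideal ↥(chartOne R EN j)) [h𝔪 : 𝔪.IsMaximal]
    (hinf : sheetIdeal j Winf h.two.chart_le_inf ≤ 𝔪)
    (h0 : sheetIdeal j W0 h.two.chart_le_zero ≤ 𝔪) :
    ∃ (X : EN) (m : ℕ), (haveI := h𝔪.isPrime; IsNodeCoord π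
        (isFractionRing_chartOne (K₁ := K₁) j h.j_adjoin) (sheetIdeal j Winf h.two.chart_le_inf)
        (sheetIdeal j W0 h.two.chart_le_zero) 𝔪 X m) ∧ m ≤ c ∧
      ∃ d ∈ locRing (chartOne R EN j) 𝔪,
        X - (A (algebraMap KM EM t) - B (algebraMap KM EM t) ^ q) = algebraMap R EN π * d := by
  haveI h𝔪p : 𝔪.IsPrime := h𝔪.isPrime
  have hu := h.j_transcendental
  have hK := h.j_adjoin
  haveI : IsIntegrallyClosed ↥(chartOne R EN j) := isIntegrallyClosed_chartOne (K₁ := K₁) j hK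
  haveI : IsNoetherianRing ↥(chartOne R EN j) := isNoetherianRing_chartOne (K₁ := K₁) j hu hK
  haveI : IsFractionRing ↥(chartOne R EN j) EN := isFractionRing_chartOne (K₁ := K₁) j hK
  haveI := locAlgebra_isScalarTower (E := EN) 𝔪
  haveI := locAlgebra_isScalarTower_base (R₁ := R) (E := EN) 𝔪
  obtain ⟨x, y, hxE, hyE, hx, hx0, hy, hyinf⟩ := SSModel.naive_node h hπ hk0 𝔪 hinf h0
  obtain ⟨hU1, hU2⟩ := h.two.isUnitAtPrime_nodeUnit hπ hu hK hU.ne_zero c hU.mem_inf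
    hU.inv_mem_inf hU.mem_zero hU.inv_mem_zero
  have hint := hU.int
  have hint' := hU.int_inv
  rw [h.A_j] at hint hint'
  obtain ⟨x', y', r, m, hnode, hxx, -, hm, hmc, hr, hxy⟩ :=
    chart_node_normal_form (K₁ := K₁) (E := EN) hπ 𝔪 (h.two.pi_mem_inf (K₁ := K₁) hπ)
      (h.two.pi_mem_zero (K₁ := K₁) hπ) (h.two.inf_le_span hπ hu hK) hinf h0 hx hx0 hy hyinf
      hU.one_le hU1 hU2
      (fun 𝔮 h𝔮 _ hπ𝔮 _ => by
        haveI := h𝔮
        exact isUnitAtPrime_of_isIntegral_adjoin (R₁ := R) (K₁ := K₁)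
          (⟨algebraMap KN EN j, algebraMap_coord_mem_chartOne j⟩ : ↥(chartOne R EN j))
          hU.ne_zero hint hint' 𝔮 (algebraMap_notMem_of_irreducible_of_notMem hπ 𝔮 hπ𝔮))
  refine ⟨algebraMap (Localization.AtPrime 𝔪) EN x', m, ⟨x', y', r, hnode, hxy, hr, hm, rfl⟩,
    hmc, ?_⟩
  obtain ⟨d, hd⟩ := Ideal.mem_span_singleton'.mp hxx
  refine ⟨algebraMap (Localization.AtPrime 𝔪) EN d,
    algebraMap_localization_mem_locRing (chartOne R EN j) 𝔪 d, ?_⟩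
  have h1 : algebraMap (Localization.AtPrime 𝔪) EN
      (algebraMap ↥(chartOne R EN j) (Localization.AtPrime 𝔪) x) = (x : EN) :=
    (IsScalarTower.algebraMap_apply ↥(chartOne R EN j) (Localization.AtPrime 𝔪) EN x).symm
  have h2 : algebraMap (Localization.AtPrime 𝔪) EN (algebraMap R (Localization.AtPrime 𝔪) π) =
      algebraMap R EN π := (IsScalarTower.algebraMap_apply R (Localization.AtPrime 𝔪) EN π).symm
  rw [← hxE, ← h1, ← map_sub, ← hd, map_mul, h2, mul_comm]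

/-- **the value formula on the cell of a node.** -/
theorem SSModel.node_value [DecidableEq (Place K₁ EN)] [IsScalarTower R K₁ EN]
    (h : SSModel K₁ π q n (∅ : Finset R) t jM j A B VM Winf W0) (hπ : Irreducible π)
    (𝔪 : Ideal ↥(chartOne R EN j)) [h𝔪 : 𝔪.IsMaximal]
    (hinf : sheetIdeal j Winf h.two.chart_le_inf ≤ 𝔪)
    (h0 : sheetIdeal j W0 h.two.chart_le_zero ≤ 𝔪)
    {X : EN} {m : ℕ}
    (hX : haveI := h𝔪.isPrime; IsNodeCoord π (isFractionRing_chartOne (K₁ := K₁) j h.j_adjoin)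
      (sheetIdeal j Winf h.two.chart_le_inf) (sheetIdeal j W0 h.two.chart_le_zero) 𝔪 X m)
    {f : EN} (hf : f ≠ 0) (T : Finset (Place K₁ EN)) (hT : ∀ P ∈ T, CentredAt 𝔪 P)
    (hrat : ∀ P ∈ T, IsRationalPlace P)
    (hfT : ∀ P : Place K₁ EN, CentredAt 𝔪 P → P.ord f ≠ 0 → P ∈ T)
    (ξ : Place K₁ EN → R) (hξ : ∀ P ∈ T, HasValueAt P X (algebraMap R K₁ (ξ P)))
    (ainf a0 : ℤ) (hfinf : f * (algebraMap R EN π ^ ainf)⁻¹ ∈ Winf)
    (hfinf' : (f * (algebraMap R EN π ^ ainf)⁻¹)⁻¹ ∈ Winf)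
    (hf0 : f * (algebraMap R EN π ^ a0)⁻¹ ∈ W0)
    (hf0' : (f * (algebraMap R EN π ^ a0)⁻¹)⁻¹ ∈ W0)
    {Q : Place K₁ EN} (hQ : CentredAt 𝔪 Q) (hQrat : IsRationalPlace Q)
    (hξQ : HasValueAt Q X (algebraMap R K₁ (ξ Q))) :
    ∃ (k : ℤ) (ν : Place K₁ EN → ℕ),
      (∀ P ∈ insert Q T, ∃ w : Rˣ, ξ P = (w : R) * π ^ (ν P) ∧ 0 < ν P ∧ ν P < m) ∧
      a0 = ainf + k * m + ∑ P ∈ T, P.ord f * (ν P : ℤ) ∧
      Q.ord (X - algebraMap K₁ EN (algebraMap R K₁ (ξ Q))) = 1 ∧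
      ∃ w : Rˣ, HasValueAt Q
        (f * ((X - algebraMap K₁ EN (algebraMap R K₁ (ξ Q))) ^ (Q.ord f))⁻¹)
        (algebraMap R K₁ π ^ ainf * algebraMap R K₁ (ξ Q) ^ k * algebraMap R K₁ (w : R) *
          ∏ P ∈ T.erase Q, (algebraMap R K₁ (ξ Q) - algebraMap R K₁ (ξ P)) ^ (P.ord f)) := by
  haveI h𝔪p : 𝔪.IsPrime := h𝔪.isPrime
  have hu := h.j_transcendental
  have hK := h.j_adjoin
  haveI : IsIntegrallyClosed ↥(chartOne R EN j) := isIntegrallyClosed_chartOne (K₁ := K₁) j hK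
  haveI : IsNoetherianRing ↥(chartOne R EN j) := isNoetherianRing_chartOne (K₁ := K₁) j hu hK
  haveI : IsFractionRing ↥(chartOne R EN j) EN := isFractionRing_chartOne (K₁ := K₁) j hK
  obtain ⟨x, y, r, hnode, hxy, hr, hm, hxX⟩ := hX
  have hπ0 : algebraMap R EN π ≠ 0 := algebraMap_pi_ne_zero (K₁ := K₁) (K := KN) hπ
  have hfinfU := isUnitAtPrime_sheetIdeal_of_isGaussAt hπ hu hK h.two.gauss_inf
    (mul_ne_zero hf (inv_ne_zero (zpow_ne_zero _ hπ0))) hfinf hfinf'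
  have hf0U := isUnitAtPrime_sheetIdeal_of_isGaussAt hπ hu hK h.two.gauss_zero
    (mul_ne_zero hf (inv_ne_zero (zpow_ne_zero _ hπ0))) hf0 hf0'
  exact chart_node_value (B := ↥(chartOne R EN j)) hπ 𝔪 (h.two.pi_mem_inf (K₁ := K₁) hπ)
    (h.two.pi_mem_zero (K₁ := K₁) hπ) (h.two.inf_le_span hπ hu hK) hinf h0 hnode hxy hr hm hxX
    hf T hT hrat hfT ξ hξ ainf a0 hfinfU hf0U hQ hQrat hξQ

/-- **the factorisation on the cell of a node.** -/
theorem SSModel.node_factorisation [IsScalarTower R K₁ EN]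
    (h : SSModel K₁ π q n (∅ : Finset R) t jM j A B VM Winf W0) (hπ : Irreducible π)
    (𝔪 : Ideal ↥(chartOne R EN j)) [h𝔪 : 𝔪.IsMaximal]
    (hinf : sheetIdeal j Winf h.two.chart_le_inf ≤ 𝔪)
    (h0 : sheetIdeal j W0 h.two.chart_le_zero ≤ 𝔪)
    {X : EN} {m : ℕ}
    (hX : haveI := h𝔪.isPrime; IsNodeCoord π (isFractionRing_chartOne (K₁ := K₁) j h.j_adjoin)
      (sheetIdeal j Winf h.two.chart_le_inf) (sheetIdeal j W0 h.two.chart_le_zero) 𝔪 X m)
    {f : EN} (hf : f ≠ 0) (T : Finset (Place K₁ EN)) (hT : ∀ P ∈ T, CentredAt 𝔪 P)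
    (hrat : ∀ P ∈ T, IsRationalPlace P)
    (hfT : ∀ P : Place K₁ EN, CentredAt 𝔪 P → P.ord f ≠ 0 → P ∈ T)
    (ξ : Place K₁ EN → R) (hξ : ∀ P ∈ T, HasValueAt P X (algebraMap R K₁ (ξ P)))
    (ainf a0 : ℤ) (hfinf : f * (algebraMap R EN π ^ ainf)⁻¹ ∈ Winf)
    (hfinf' : (f * (algebraMap R EN π ^ ainf)⁻¹)⁻¹ ∈ Winf)
    (hf0 : f * (algebraMap R EN π ^ a0)⁻¹ ∈ W0)
    (hf0' : (f * (algebraMap R EN π ^ a0)⁻¹)⁻¹ ∈ W0) :
    haveI := h𝔪.isPrime
    ∃ (k : ℤ) (ν : Place K₁ EN → ℕ) (v : EN),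
      (∀ P ∈ T, ∃ w : Rˣ, ξ P = (w : R) * π ^ (ν P) ∧ 0 < ν P ∧ ν P < m) ∧
      a0 = ainf + k * m + ∑ P ∈ T, P.ord f * (ν P : ℤ) ∧
      v ∈ locRing (chartOne R EN j) 𝔪 ∧ v ∉ locMax (chartOne R EN j) 𝔪 ∧
      f = algebraMap R EN π ^ ainf * X ^ k * v *
        ∏ P ∈ T, (X - algebraMap K₁ EN (algebraMap R K₁ (ξ P))) ^ (P.ord f) := by
  haveI h𝔪p : 𝔪.IsPrime := h𝔪.isPrime
  have hu := h.j_transcendental
  have hK := h.j_adjoin
  haveI : IsIntegrallyClosed ↥(chartOne R EN j) := isIntegrallyClosed_chartOne (K₁ := K₁) j hK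
  haveI : IsNoetherianRing ↥(chartOne R EN j) := isNoetherianRing_chartOne (K₁ := K₁) j hu hK
  haveI : IsFractionRing ↥(chartOne R EN j) EN := isFractionRing_chartOne (K₁ := K₁) j hK
  obtain ⟨x, y, r, hnode, hxy, hr, hm, hxX⟩ := hX
  have hπ0 : algebraMap R EN π ≠ 0 := algebraMap_pi_ne_zero (K₁ := K₁) (K := KN) hπ
  have hfinfU := isUnitAtPrime_sheetIdeal_of_isGaussAt hπ hu hK h.two.gauss_inf
    (mul_ne_zero hf (inv_ne_zero (zpow_ne_zero _ hπ0))) hfinf hfinf'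
  have hf0U := isUnitAtPrime_sheetIdeal_of_isGaussAt hπ hu hK h.two.gauss_zero
    (mul_ne_zero hf (inv_ne_zero (zpow_ne_zero _ hπ0))) hf0 hf0'
  obtain ⟨k, ν, v, r', s', hν, hrel, hr', hs', hrs', hfac⟩ :=
    chart_node_factorisation (B := ↥(chartOne R EN j)) hπ 𝔪 (h.two.pi_mem_inf (K₁ := K₁) hπ)
      (h.two.pi_mem_zero (K₁ := K₁) hπ) (h.two.inf_le_span hπ hu hK) hinf h0 hnode hxy hr hm hxX
      hf T hT hrat hfT ξ hξ ainf a0 hfinfU hf0U
  refine ⟨k, ν, v, hν, hrel, ⟨r', s', hs', hrs'⟩, ?_, hfac⟩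
  rintro ⟨r'', s'', hr'', hs'', hrs''⟩
  have h1 : (r' : EN) * (s'' : EN) = (r'' : EN) * (s' : EN) := by
    have e1 : (r' : EN) = v * (s' : EN) := hrs'.symm
    have e2 : (r'' : EN) = v * (s'' : EN) := hrs''.symm
    rw [e1, e2]; ring
  have h2 : r' * s'' = r'' * s' := Subtype.ext h1
  have h3 : r' * s'' ∈ 𝔪 := by rw [h2]; exact 𝔪.mul_mem_right _ hr''
  rcases h𝔪p.mem_or_mem h3 with h4 | h4
  · exact hr' h4
  · exact hs'' h4

/-- a node coordinate lies in the local ring of the node. -/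
theorem IsNodeCoord.mem_locRing {u : KN} {hfr : IsFractionRing ↥(chartOne R EN u) EN}
    {𝔭inf 𝔭0 𝔪 : Ideal ↥(chartOne R EN u)} [h𝔪 : 𝔪.IsPrime] {X : EN} {m : ℕ}
    (hX : IsNodeCoord π hfr 𝔭inf 𝔭0 𝔪 X m) : X ∈ locRing (chartOne R EN u) 𝔪 := by
  haveI := hfr
  obtain ⟨x, y, r, -, -, -, -, rfl⟩ := hX
  exact algebraMap_localization_mem_locRing (chartOne R EN u) 𝔪 x

theorem IsNodeCoord.one_le {u : KN} {hfr : IsFractionRing ↥(chartOne R EN u) EN}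
    {𝔭inf 𝔭0 𝔪 : Ideal ↥(chartOne R EN u)} [h𝔪 : 𝔪.IsPrime] {X : EN} {m : ℕ}
    (hX : IsNodeCoord π hfr 𝔭inf 𝔭0 𝔪 X m) : 1 ≤ m := by
  haveI := hfr
  obtain ⟨x, y, r, -, -, -, hm, -⟩ := hX
  exact hm

/-- **the value of the node unit on the cell of a node** is `π^i ·` unit with `0 < i < c`. -/
theorem SSModel.nodeUnit_value_node [IsScalarTower R K₁ EN]
    (h : SSModel K₁ π q n (∅ : Finset R) t jM j A B VM Winf W0) (hπ : Irreducible π)
    {U : EN} {c : ℕ} (hU : NodeUnit K₁ π (A jM) U c Winf W0)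
    (𝔪 : Ideal ↥(chartOne R EN j)) [h𝔪 : 𝔪.IsMaximal]
    (hinf : sheetIdeal j Winf h.two.chart_le_inf ≤ 𝔪)
    (h0 : sheetIdeal j W0 h.two.chart_le_zero ≤ 𝔪)
    {X : EN} {m : ℕ}
    (hX : haveI := h𝔪.isPrime; IsNodeCoord π (isFractionRing_chartOne (K₁ := K₁) j h.j_adjoin)
      (sheetIdeal j Winf h.two.chart_le_inf) (sheetIdeal j W0 h.two.chart_le_zero) 𝔪 X m)
    {Q : Place K₁ EN} (hQ : CentredAt 𝔪 Q) (hQrat : IsRationalPlace Q) :
    ∃ (i : ℕ) (w : Rˣ), 0 < i ∧ i < c ∧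
      HasValueAt Q U (algebraMap R K₁ π ^ i * algebraMap R K₁ (w : R)) := by
  classical
  haveI h𝔪p : 𝔪.IsPrime := h𝔪.isPrime
  haveI : IsFractionRing ↥(chartOne R EN j) EN := isFractionRing_chartOne (K₁ := K₁) j h.j_adjoin
  have hπ𝔪 : algebraMap R ↥(chartOne R EN j) π ∈ 𝔪 :=
    hinf (IsTwoSheet.pi_mem_inf (K₁ := K₁) h.two hπ)
  obtain ⟨ξ, hξ, -⟩ := exists_value_of_centredAt Q hQrat (chartOne R EN j) hπ 𝔪 hπ𝔪 hQ
    hX.mem_locRing
  have hm := hX.one_le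
  obtain ⟨k, ν, hν, hrel, -, w', hw'⟩ := SSModel.node_value h hπ 𝔪 hinf h0 hX hU.ne_zero ∅
    (fun P hP => by simp at hP) (fun P hP => by simp at hP)
    (fun P hP hne => absurd (SSModel.ord_nodeUnit_eq_zero h hU 𝔪 hP) hne) (fun _ => ξ)
    (fun P hP => by simp at hP) 0 (c : ℤ)
    (by rw [zpow_zero, inv_one, mul_one]; exact hU.mem_inf)
    (by rw [zpow_zero, inv_one, mul_one]; exact hU.inv_mem_inf)
    (by rw [zpow_natCast]; exact hU.mem_zero)
    (by rw [zpow_natCast]; exact hU.inv_mem_zero) hQ hQrat hξ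
  obtain ⟨w, hw, hν0, hνm⟩ := hν Q (Finset.mem_insert_self Q ∅)
  rw [Finset.sum_empty, add_zero, zero_add] at hrel
  have hc := hU.one_le
  have hk : 1 ≤ k := by
    by_contra hk
    have hk' : k ≤ 0 := by omega
    have : k * (m : ℤ) ≤ 0 := mul_nonpos_of_nonpos_of_nonneg hk' (by positivity)
    omega
  obtain ⟨k', rfl⟩ : ∃ k' : ℕ, k = (k' : ℤ) := ⟨k.toNat, by omega⟩
  have hk'1 : 1 ≤ k' := by exact_mod_cast hk
  have hck : c = k' * m := by exact_mod_cast hrel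
  refine ⟨ν Q * k', w ^ k' * w', Nat.mul_pos hν0 (by omega), ?_, ?_⟩
  · rw [hck, mul_comm k' m]
    exact Nat.mul_lt_mul_of_pos_right hνm (by omega)
  · rw [SSModel.ord_nodeUnit_eq_zero h hU 𝔪 hQ, zpow_zero, inv_one, mul_one] at hw'
    have e : algebraMap R K₁ π ^ (0 : ℤ) * algebraMap R K₁ ξ ^ (k' : ℤ) * algebraMap R K₁ (w' : R) *
        ∏ P ∈ (∅ : Finset (Place K₁ EN)).erase Q,
          (algebraMap R K₁ ξ - algebraMap R K₁ ξ) ^ (P.ord U) =
        algebraMap R K₁ π ^ (ν Q * k') * algebraMap R K₁ ((w ^ k' * w' : Rˣ) : R) := by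
      rw [Finset.erase_empty, Finset.prod_empty, mul_one, zpow_zero, one_mul, zpow_natCast, hw,
        map_mul, map_pow, mul_pow, ← pow_mul, Units.val_mul, Units.val_pow_eq_pow_val, map_mul,
        map_pow]
      ring
    rw [← e]
    exact hw'

end Model

end Fermat.Agent.MW.NAdic
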