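import Mathlib
import Fermat.Agent.MW.NADIC_helper6_Abs2

/-!
# Project MW (S17) — [N-ADIC] helper1, [ATLAS]: a cell system from an atlas of coordinates

A thin layer over `NCellSys2`: the functions `g`, `h` are *defined* from finitely many coordinate
functions `zi`, the index `idx Q` of the coordinate used at `Q` and the kind (disc / annulus) of every
coordinate:

* `P`, `Q` are *near* if they use the same coordinate `z` and `|z(P) - z(Q)|_v < 1`;
* `g P Q = - log |z(P) - z(Q)|_v` for `P ≠ Q` near, `0` otherwise;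
* `h P Q = log |z(P)|_v` for `P`, `Q` near on an annulus coordinate, `0` otherwise.

`NAtlas N v` : the remaining data (`θ`, the sheet norms, the constants) and the properties, with the
cell formula stated for these `g`, `h`; `NAtlas.toCellSys : NAtlas N v → NCellSys2 N v`.
-/

set_option autoImplicit false
set_option linter.unusedSectionVars false

open scoped BigOperators

noncomputable section

namespace Fermat.Agent.MW

open AlgebraicCurve ModularCurve Fermat.Agent.JA Fermat.Agent.FF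

variable (N : ℕ) [NeZero N]

/-- the coordinates of an atlas: finitely many functions, the index of the coordinate used at a
point, and which coordinates are annulus coordinates. -/
structure NAtlasData where
  /-- the number of coordinate functions -/
  nz : ℕ
  /-- the coordinate functions -/
  zi : Fin nz → FunN N
  /-- the coordinate used at `Q` -/
  idx : PtN N → Fin nz
  /-- the coordinate is the coordinate of an annulus (a node) -/
  isAnn : Fin nz → Prop

namespace NAtlasData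

variable {N}
variable (A : NAtlasData N) (v : Pl)

/-- the value at `Q` of the coordinate used at `Q`. -/
def zval (Q : PtN N) : AlgebraicClosure ℚ := valN N Q (A.zi (A.idx Q))

/-- the centred coordinate at `Q`. -/
def zcen (Q : PtN N) : FunN N :=
  A.zi (A.idx Q) - algebraMap (AlgebraicClosure ℚ) (FunN N) (A.zval Q)

/-- `P` and `Q` use the same coordinate and their coordinate values are congruent. -/
def Near (P Q : PtN N) : Prop := A.idx P = A.idx Q ∧ absv v (A.zval P - A.zval Q) < 1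

theorem Near.symm {P Q : PtN N} (h : A.Near v P Q) : A.Near v Q P := by
  refine ⟨h.1.symm, ?_⟩
  have : A.zval Q - A.zval P = -(A.zval P - A.zval Q) := by ring
  rw [this, absv_neg]
  exact h.2

theorem near_comm (P Q : PtN N) : A.Near v P Q ↔ A.Near v Q P :=
  ⟨fun h => h.symm, fun h => h.symm⟩

theorem near_self (Q : PtN N) : A.Near v Q Q := by
  refine ⟨rfl, ?_⟩
  rw [sub_self, absv_zero]
  exact zero_lt_one

open Classical in
/-- `- log` of the distance of two near points. -/
def gfun (P Q : PtN N) : ℝ :=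
  if P ≠ Q ∧ A.Near v P Q then -lg v (A.zval P - A.zval Q) else 0

open Classical in
/-- `log |z(P)|` for two near points of an annulus. -/
def hfun (P Q : PtN N) : ℝ :=
  if A.isAnn (A.idx Q) ∧ A.Near v P Q then lg v (A.zval P) else 0

theorem gfun_symm (P Q : PtN N) : A.gfun v P Q = A.gfun v Q P := by
  unfold gfun
  by_cases h : P ≠ Q ∧ A.Near v P Q
  · have h' : Q ≠ P ∧ A.Near v Q P := ⟨fun e => h.1 e.symm, h.2.symm⟩
    rw [if_pos h, if_pos h']
    have : A.zval Q - A.zval P = -(A.zval P - A.zval Q) := by ring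
    rw [this, lg_neg]
  · have h' : ¬ (Q ≠ P ∧ A.Near v Q P) := fun h' => h ⟨fun e => h'.1 e.symm, h'.2.symm⟩
    rw [if_neg h, if_neg h']

theorem gfun_diag (Q : PtN N) : A.gfun v Q Q = 0 := by
  unfold gfun
  rw [if_neg]
  exact fun h => h.1 rfl

theorem gfun_nonneg (P Q : PtN N) : 0 ≤ A.gfun v P Q := by
  unfold gfun
  by_cases h : P ≠ Q ∧ A.Near v P Q
  · rw [if_pos h, neg_nonneg]
    unfold lg
    exact Real.log_nonpos (absv_nonneg v _) h.2.2.le
  · rw [if_neg h]

theorem idx_eq_of_ne_zero (P Q : PtN N) (h : A.gfun v P Q ≠ 0 ∨ A.hfun v P Q ≠ 0) :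
    A.idx P = A.idx Q := by
  rcases h with h | h
  · unfold gfun at h
    by_cases hc : P ≠ Q ∧ A.Near v P Q
    · exact hc.2.1
    · rw [if_neg hc] at h
      exact absurd rfl h
  · unfold hfun at h
    by_cases hc : A.isAnn (A.idx Q) ∧ A.Near v P Q
    · exact hc.2.1
    · rw [if_neg hc] at h
      exact absurd rfl h


/-! ### resolved forms at a point using the coordinate `i` -/

theorem zval_of_idx {Q : PtN N} {i : Fin A.nz} (hQ : A.idx Q = i) :
    A.zval Q = valN N Q (A.zi i) := by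
  unfold zval
  rw [hQ]

theorem zcen_of_idx {Q : PtN N} {i : Fin A.nz} (hQ : A.idx Q = i) :
    A.zcen Q = A.zi i - algebraMap (AlgebraicClosure ℚ) (FunN N) (valN N Q (A.zi i)) := by
  unfold zcen
  rw [A.zval_of_idx hQ, hQ]

theorem near_iff_of_idx {P Q : PtN N} {i : Fin A.nz} (hQ : A.idx Q = i) :
    A.Near v P Q ↔
      A.idx P = i ∧ absv v (valN N P (A.zi i) - valN N Q (A.zi i)) < 1 := by
  unfold Near
  rw [hQ]
  constructor
  · rintro ⟨h1, h2⟩
    rw [A.zval_of_idx h1, A.zval_of_idx hQ] at h2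
    exact ⟨h1, h2⟩
  · rintro ⟨h1, h2⟩
    rw [A.zval_of_idx h1, A.zval_of_idx hQ]
    exact ⟨h1, h2⟩

open Classical in
theorem gfun_of_idx {Q : PtN N} {i : Fin A.nz} (hQ : A.idx Q = i) (P : PtN N) :
    A.gfun v P Q =
      if P ≠ Q ∧ A.idx P = i ∧ absv v (valN N P (A.zi i) - valN N Q (A.zi i)) < 1 then
        -lg v (valN N P (A.zi i) - valN N Q (A.zi i)) else 0 := by
  unfold gfun
  by_cases h : P ≠ Q ∧ A.Near v P Q
  · have h' := (A.near_iff_of_idx v hQ).mp h.2
    rw [if_pos h, if_pos ⟨h.1, h'⟩, A.zval_of_idx h'.1, A.zval_of_idx hQ]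
  · have h' : ¬ (P ≠ Q ∧ A.idx P = i ∧
        absv v (valN N P (A.zi i) - valN N Q (A.zi i)) < 1) :=
      fun h' => h ⟨h'.1, (A.near_iff_of_idx v hQ).mpr h'.2⟩
    rw [if_neg h, if_neg h']

theorem hfun_of_not_isAnn {Q : PtN N} (hQ : ¬ A.isAnn (A.idx Q)) (P : PtN N) :
    A.hfun v P Q = 0 := by
  unfold hfun
  rw [if_neg]
  exact fun h => hQ h.1

open Classical in
theorem hfun_of_idx {Q : PtN N} {i : Fin A.nz} (hQ : A.idx Q = i) (hi : A.isAnn i)
    (P : PtN N) :
    A.hfun v P Q =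
      if A.idx P = i ∧ absv v (valN N P (A.zi i) - valN N Q (A.zi i)) < 1 then
        lg v (valN N P (A.zi i)) else 0 := by
  unfold hfun
  by_cases h : A.isAnn (A.idx Q) ∧ A.Near v P Q
  · have h' := (A.near_iff_of_idx v hQ).mp h.2
    rw [if_pos h, if_pos h', A.zval_of_idx h'.1]
  · have h' : ¬ (A.idx P = i ∧ absv v (valN N P (A.zi i) - valN N Q (A.zi i)) < 1) :=
      fun h' => h ⟨by rw [hQ]; exact hi, (A.near_iff_of_idx v hQ).mpr h'⟩
    rw [if_neg h, if_neg h']

open Classical in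
/-- the `g`-sum at a point using the coordinate `i`. -/
theorem sum_gfun_of_idx {Q : PtN N} {i : Fin A.nz} (hQ : A.idx Q = i) (D : PtN N →₀ ℤ) :
    (∑ P ∈ D.support, (D P : ℝ) * A.gfun v P Q) =
      -∑ P ∈ D.support,
        if P ≠ Q ∧ A.idx P = i ∧ absv v (valN N P (A.zi i) - valN N Q (A.zi i)) < 1 then
          (D P : ℝ) * lg v (valN N P (A.zi i) - valN N Q (A.zi i)) else 0 := by
  rw [← Finset.sum_neg_distrib]
  refine Finset.sum_congr rfl (fun P _ => ?_)
  rw [A.gfun_of_idx v hQ P]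
  split_ifs
  · ring
  · ring

open Classical in
/-- the `h`-sum at a point using the annulus coordinate `i`. -/
theorem sum_hfun_of_idx {Q : PtN N} {i : Fin A.nz} (hQ : A.idx Q = i) (hi : A.isAnn i)
    (D : PtN N →₀ ℤ) :
    (∑ P ∈ D.support, (D P : ℝ) * A.hfun v P Q) =
      ∑ P ∈ D.support,
        if A.idx P = i ∧ absv v (valN N P (A.zi i) - valN N Q (A.zi i)) < 1 then
          (D P : ℝ) * lg v (valN N P (A.zi i)) else 0 := by
  refine Finset.sum_congr rfl (fun P _ => ?_)
  rw [A.hfun_of_idx v hQ hi P]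
  split_ifs
  · rfl
  · ring

theorem sum_hfun_of_not_isAnn {Q : PtN N} (hQ : ¬ A.isAnn (A.idx Q)) (D : PtN N →₀ ℤ) :
    (∑ P ∈ D.support, (D P : ℝ) * A.hfun v P Q) = 0 := by
  refine Finset.sum_eq_zero (fun P _ => ?_)
  rw [A.hfun_of_not_isAnn v hQ P, mul_zero]

end NAtlasData

/-- **an atlas** at the place `v`: coordinates, the skeleton position `θ`, the two sheet norms and
the cell formula for the canonical `g`, `h` of the coordinates. -/
structure NAtlas (v : Pl) extends NAtlasData N where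
  /-- position on the skeleton -/
  θ : PtN N → ℝ
  L : ℝ
  C : ℝ
  L_nonneg : 0 ≤ L
  C_nonneg : 0 ≤ C
  θ_nonneg : ∀ Q, 0 ≤ θ Q
  θ_le_one : ∀ Q, θ Q ≤ 1
  /-- the centred coordinate is a uniformizer -/
  zcen_ord : ∀ Q : PtN N, Q.ord (toNAtlasData.zcen Q) = 1
  /-- on an annulus the coordinate has absolute value `< 1` -/
  ann_lt : ∀ P : PtN N, isAnn (idx P) → absv v (toNAtlasData.zval P) < 1
  /-- on an annulus the coordinate has absolute value `≥ exp (-L)` -/
  ann_ge : ∀ P : PtN N, isAnn (idx P) → -L ≤ lg v (toNAtlasData.zval P)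
  /-- the logarithm of the Gauss norm on the sheet `∞` -/
  n0 : FunN N → ℝ
  /-- the logarithm of the Gauss norm on the sheet `0` -/
  n1 : FunN N → ℝ
  n0_smul_le : ∀ (c : AlgebraicClosure ℚ) (f : FunN N), c ≠ 0 → f ≠ 0 → n0 (c • f) ≤ lg v c + n0 f
  n1_smul_le : ∀ (c : AlgebraicClosure ℚ) (f : FunN N), c ≠ 0 → f ≠ 0 → n1 (c • f) ≤ lg v c + n1 f
  n0_add_le : ∀ f g : FunN N, f ≠ 0 → g ≠ 0 → f + g ≠ 0 → n0 (f + g) ≤ max (n0 f) (n0 g)
  n1_add_le : ∀ f g : FunN N, f ≠ 0 → g ≠ 0 → f + g ≠ 0 → n1 (f + g) ≤ max (n1 f) (n1 g)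
  n_diff : ∀ (f : FunN N) (D : PtN N →₀ ℤ), f ≠ 0 → IsDivOf N f D →
    |n1 f - n0 f| ≤ C * (dnorm D : ℝ)
  /-- the cell formula -/
  cf : ∀ (f : FunN N) (D : PtN N →₀ ℤ), f ≠ 0 → IsDivOf N f D → ∀ Q : PtN N,
      lg v (valN N Q (f * (toNAtlasData.zcen Q) ^ (-(D Q)))) =
        (1 - θ Q) * n0 f + θ Q * n1 f
          - θ Q * (∑ P ∈ D.support, (D P : ℝ) * toNAtlasData.hfun v P Q)
          - ∑ P ∈ D.support, (D P : ℝ) * toNAtlasData.gfun v P Q

namespace NAtlas

variable {N}
variable {v : Pl} (A : NAtlas N v)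

theorem hfun_nonpos (P Q : PtN N) : A.toNAtlasData.hfun v P Q ≤ 0 := by
  unfold NAtlasData.hfun
  by_cases h : A.isAnn (A.idx Q) ∧ A.toNAtlasData.Near v P Q
  · rw [if_pos h]
    unfold lg
    have h1 : A.isAnn (A.idx P) := by rw [h.2.1]; exact h.1
    exact Real.log_nonpos (absv_nonneg v _) (A.ann_lt P h1).le
  · rw [if_neg h]

theorem hfun_ge (P Q : PtN N) : -A.L ≤ A.toNAtlasData.hfun v P Q := by
  unfold NAtlasData.hfun
  by_cases h : A.isAnn (A.idx Q) ∧ A.toNAtlasData.Near v P Q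
  · rw [if_pos h]
    have h1 : A.isAnn (A.idx P) := by rw [h.2.1]; exact h.1
    exact A.ann_ge P h1
  · rw [if_neg h, neg_nonpos]
    exact A.L_nonneg

/-- **the cell system of an atlas.** -/
def toCellSys : NCellSys2 N v where
  nz := A.nz
  zi := A.zi
  idx := A.idx
  zb := A.toNAtlasData.zval
  g := A.toNAtlasData.gfun v
  h := A.toNAtlasData.hfun v
  θ := A.θ
  L := A.L
  C := A.C
  L_nonneg := A.L_nonneg
  C_nonneg := A.C_nonneg
  zc_ord := A.zcen_ord
  idx_eq := A.toNAtlasData.idx_eq_of_ne_zero v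
  g_symm := A.toNAtlasData.gfun_symm v
  g_diag := A.toNAtlasData.gfun_diag v
  g_nonneg := A.toNAtlasData.gfun_nonneg v
  h_nonpos := A.hfun_nonpos
  h_ge := A.hfun_ge
  θ_nonneg := A.θ_nonneg
  θ_le_one := A.θ_le_one
  n0 := A.n0
  n1 := A.n1
  n0_smul_le := A.n0_smul_le
  n1_smul_le := A.n1_smul_le
  n0_add_le := A.n0_add_le
  n1_add_le := A.n1_add_le
  n_diff := A.n_diff
  cf := A.cf

end NAtlas

end Fermat.Agent.MW
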