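import Mathlib
import Fermat.Agent.Igusa.V_helper5_Gauss

/-!
# Project MW (S17) — [N-ADIC] / [LIM-VAL] helper1, part 4: Gauss units over a valuation ring

`A` a valuation subring of a field `F` (no discreteness).  `gaussIntV A ⊂ F((t))` is the ring of the
`x` with `x · g = f`, `f, g ∈ A((t))`, `g` primitive (nonzero reduction); `IsGaussUnitV A x` :
`f` and `g` both primitive.  `IsSheetConst A x c` : `c ≠ 0` and `c⁻¹ • x` is a Gauss unit (then
`|c|` is the Gauss norm of `x`).  The constant is unique up to a unit of `A`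
(`IsSheetConst.div_mem`), ultrametric (`IsSheetConst.add_div_mem`) and multiplicative.
Descent: the Gauss ring `gaussInt R L` of a discrete valuation ring `R → A` maps into `gaussIntV A`.
-/

set_option autoImplicit false
set_option linter.unusedSectionVars false
set_option linter.unusedVariables false

open ModularCurve

namespace Fermat.Agent.MW

open Fermat.Agent.Igusa

noncomputable section

section GaussV

variable {F : Type*} [Field F] (A : ValuationSubring F)

/-- `A((t)) → F((t))`. -/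
def embV : LaurentSeries ↥A →+* LaurentSeries F := coeffMap A.subtype

/-- coefficientwise reduction `A((t)) → k((t))`. -/
def redV : LaurentSeries ↥A →+* LaurentSeries (IsLocalRing.ResidueField ↥A) :=
  coeffMap (IsLocalRing.residue ↥A)

@[simp] theorem embV_coeff (f : LaurentSeries ↥A) (n : ℤ) :
    (embV A f).coeff n = ((f.coeff n : ↥A) : F) := rfl

@[simp] theorem redV_coeff (f : LaurentSeries ↥A) (n : ℤ) :
    (redV A f).coeff n = IsLocalRing.residue ↥A (f.coeff n) := rfl

theorem embV_injective : Function.Injective (embV A) :=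
  coeffMapV_injective (φ := A.subtype) Subtype.val_injective

theorem embV_ne_zero_of_redV_ne_zero {g : LaurentSeries ↥A} (hg : redV A g ≠ 0) :
    embV A g ≠ 0 := by
  intro h
  apply hg
  have : g = 0 := embV_injective A (by rw [h, map_zero])
  rw [this, map_zero]

theorem C_mul_embV (c : ↥A) (f : LaurentSeries ↥A) :
    HahnSeries.C (c : F) * embV A f = embV A (HahnSeries.C c * f) := by
  rw [map_mul]
  congr 1
  exact (coeffMapV_C A.subtype c).symm

theorem redV_C_mul (c : ↥A) (f : LaurentSeries ↥A) :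
    redV A (HahnSeries.C c * f) = HahnSeries.C (IsLocalRing.residue ↥A c) * redV A f := by
  rw [map_mul]
  congr 1
  exact coeffMapV_C _ c

/-- the Gauss ring of `A` inside `F((t))`. -/
def gaussIntV : Subring (LaurentSeries F) where
  carrier := {x | ∃ f g : LaurentSeries ↥A, redV A g ≠ 0 ∧ x * embV A g = embV A f}
  mul_mem' := by
    rintro x y ⟨f, g, hg, h⟩ ⟨f', g', hg', h'⟩
    refine ⟨f * f', g * g', by rw [map_mul]; exact mul_ne_zero hg hg', ?_⟩
    rw [map_mul, map_mul, ← h, ← h']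
    ring
  one_mem' := ⟨1, 1, by rw [map_one]; exact one_ne_zero, by rw [map_one, mul_one]⟩
  add_mem' := by
    rintro x y ⟨f, g, hg, h⟩ ⟨f', g', hg', h'⟩
    refine ⟨f * g' + f' * g, g * g', by rw [map_mul]; exact mul_ne_zero hg hg', ?_⟩
    rw [map_add, map_mul, map_mul, map_mul, ← h, ← h']
    ring
  zero_mem' := ⟨0, 1, by rw [map_one]; exact one_ne_zero, by rw [map_zero, zero_mul]⟩
  neg_mem' := by
    rintro x ⟨f, g, hg, h⟩
    exact ⟨-f, g, hg, by rw [map_neg, ← h, neg_mul]⟩

theorem mem_gaussIntV_iff {x : LaurentSeries F} : x ∈ gaussIntV A ↔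
    ∃ f g : LaurentSeries ↥A, redV A g ≠ 0 ∧ x * embV A g = embV A f := Iff.rfl

/-- a Gauss unit: primitive over primitive. -/
def IsGaussUnitV (x : LaurentSeries F) : Prop :=
  ∃ f g : LaurentSeries ↥A, redV A f ≠ 0 ∧ redV A g ≠ 0 ∧ x * embV A g = embV A f

variable {A}

theorem IsGaussUnitV.mem {x : LaurentSeries F} (h : IsGaussUnitV A x) : x ∈ gaussIntV A := by
  obtain ⟨f, g, -, hg, h⟩ := h
  exact ⟨f, g, hg, h⟩

theorem IsGaussUnitV.ne_zero {x : LaurentSeries F} (h : IsGaussUnitV A x) : x ≠ 0 := by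
  obtain ⟨f, g, hf, hg, h⟩ := h
  rintro rfl
  rw [zero_mul] at h
  exact embV_ne_zero_of_redV_ne_zero A hf h.symm

theorem IsGaussUnitV.inv {x : LaurentSeries F} (h : IsGaussUnitV A x) : IsGaussUnitV A x⁻¹ := by
  have hx := h.ne_zero
  obtain ⟨f, g, hf, hg, h⟩ := h
  refine ⟨g, f, hg, hf, ?_⟩
  rw [← h]
  field_simp

theorem IsGaussUnitV.mul {x y : LaurentSeries F} (hx : IsGaussUnitV A x) (hy : IsGaussUnitV A y) :
    IsGaussUnitV A (x * y) := by
  obtain ⟨f, g, hf, hg, h⟩ := hx
  obtain ⟨f', g', hf', hg', h'⟩ := hy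
  refine ⟨f * f', g * g', by rw [map_mul]; exact mul_ne_zero hf hf',
    by rw [map_mul]; exact mul_ne_zero hg hg', ?_⟩
  rw [map_mul, map_mul, ← h, ← h']
  ring

theorem isGaussUnitV_one : IsGaussUnitV A (1 : LaurentSeries F) :=
  ⟨1, 1, by rw [map_one]; exact one_ne_zero, by rw [map_one]; exact one_ne_zero,
    by rw [map_one, mul_one]⟩

/-- an element of the Gauss ring whose inverse is in the Gauss ring is a Gauss unit. -/
theorem isGaussUnitV_of_mem_of_inv_mem {x : LaurentSeries F} (hx0 : x ≠ 0)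
    (hx : x ∈ gaussIntV A) (hx' : x⁻¹ ∈ gaussIntV A) : IsGaussUnitV A x := by
  obtain ⟨f, g, hg, h⟩ := hx
  obtain ⟨f', g', hg', h'⟩ := hx'
  refine ⟨f, g, ?_, hg, h⟩
  intro hf
  have h1 : embV A (f * f') = embV A (g * g') := by
    rw [map_mul, map_mul, ← h, ← h']
    field_simp
  have h2 := embV_injective A h1
  have h3 : redV A f * redV A f' = redV A g * redV A g' := by
    rw [← map_mul, ← map_mul, h2]
  rw [hf, zero_mul] at h3
  exact mul_ne_zero hg hg' h3.symm

/-- the Gauss ring is stable under multiplication by constants of `A`. -/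
theorem C_mul_mem_gaussIntV {c : F} (hc : c ∈ A) {x : LaurentSeries F} (hx : x ∈ gaussIntV A) :
    HahnSeries.C c * x ∈ gaussIntV A := by
  obtain ⟨f, g, hg, h⟩ := hx
  refine ⟨HahnSeries.C (⟨c, hc⟩ : ↥A) * f, g, hg, ?_⟩
  rw [← C_mul_embV, ← h, mul_assoc]

/-- a constant of the maximal ideal times an element of the Gauss ring is not a Gauss unit. -/
theorem not_isGaussUnitV_C_mul {c : F} (hc : c ∈ A) (hc' : c = 0 ∨ c⁻¹ ∉ A)
    {x : LaurentSeries F} (hx : x ∈ gaussIntV A) : ¬ IsGaussUnitV A (HahnSeries.C c * x) := by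
  rintro ⟨f', g', hf', hg', h'⟩
  obtain ⟨f, g, hg, h⟩ := hx
  have hres : IsLocalRing.residue ↥A (⟨c, hc⟩ : ↥A) = 0 := by
    rw [IsLocalRing.residue_eq_zero_iff, IsLocalRing.mem_maximalIdeal, mem_nonunits_iff]
    intro hu
    rcases hc' with rfl | hc'
    · have : (⟨0, hc⟩ : ↥A) = 0 := rfl
      rw [this] at hu
      exact not_isUnit_zero hu
    · obtain ⟨u, hu⟩ := hu
      apply hc'
      have h1 : ((u⁻¹ : (↥A)ˣ) : ↥A) * (⟨c, hc⟩ : ↥A) = 1 := by rw [← hu]; exact u.inv_mul
      have h2 : (((u⁻¹ : (↥A)ˣ) : ↥A) : F) * c = 1 := congrArg (fun z : ↥A => (z : F)) h1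
      have h3 : c⁻¹ = (((u⁻¹ : (↥A)ˣ) : ↥A) : F) := (eq_inv_of_mul_eq_one_left h2).symm
      rw [h3]
      exact ((u⁻¹ : (↥A)ˣ) : ↥A).2
  have h1 : embV A (HahnSeries.C (⟨c, hc⟩ : ↥A) * (f * g')) = embV A (f' * g) := by
    rw [← C_mul_embV, map_mul, map_mul, ← h, ← h']
    ring
  have h2 := embV_injective A h1
  have h3 : redV A (HahnSeries.C (⟨c, hc⟩ : ↥A) * (f * g')) = redV A f' * redV A g := by
    rw [h2, map_mul]
  rw [redV_C_mul, hres, map_zero, zero_mul] at h3
  exact mul_ne_zero hf' hg h3.symm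

variable (A)

/-- `c` is a Gauss constant of `x`: `c⁻¹ · x` is a Gauss unit (so `|c|` is the Gauss norm
of `x`). -/
def IsSheetConst (x : LaurentSeries F) (c : F) : Prop :=
  c ≠ 0 ∧ IsGaussUnitV A (HahnSeries.C c⁻¹ * x)

variable {A}

theorem IsSheetConst.ne_zero {x : LaurentSeries F} {c : F} (h : IsSheetConst A x c) : x ≠ 0 := by
  rintro rfl
  have := h.2.ne_zero
  rw [mul_zero] at this
  exact this rfl

theorem C_ne_zero_of_ne_zero {c : F} (hc : c ≠ 0) : (HahnSeries.C c : LaurentSeries F) ≠ 0 :=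
  (map_ne_zero_iff _ HahnSeries.C_injective).mpr hc

/-- ultrametric inequality for the Gauss constants. -/
theorem IsSheetConst.add_div_mem {x y : LaurentSeries F} {c c' c'' : F}
    (hx : IsSheetConst A x c) (hy : IsSheetConst A y c') (hxy : IsSheetConst A (x + y) c'')
    (hcc : c' / c ∈ A) : c'' / c ∈ A := by
  by_contra hnot
  have hc := hx.1
  have hc' := hy.1
  have hc'' := hxy.1
  have hd : c / c'' ∈ A := by
    rcases A.mem_or_inv_mem (c'' / c) with h | h
    · exact absurd h hnot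
    · rwa [inv_div] at h
  have hd' : c / c'' = 0 ∨ (c / c'')⁻¹ ∉ A := Or.inr (by rwa [inv_div])
  have hmem : HahnSeries.C c⁻¹ * (x + y) ∈ gaussIntV A := by
    have e : HahnSeries.C c⁻¹ * (x + y) =
        HahnSeries.C c⁻¹ * x + HahnSeries.C (c' / c) * (HahnSeries.C c'⁻¹ * y) := by
      rw [mul_add, ← mul_assoc (HahnSeries.C (c' / c)), ← map_mul]
      congr 3
      field_simp
    rw [e]
    exact (gaussIntV A).add_mem hx.2.mem (C_mul_mem_gaussIntV hcc hy.2.mem)
  have e2 : HahnSeries.C c''⁻¹ * (x + y) =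
      HahnSeries.C (c / c'') * (HahnSeries.C c⁻¹ * (x + y)) := by
    rw [← mul_assoc, ← map_mul]
    congr 2
    field_simp
  exact not_isGaussUnitV_C_mul hd hd' hmem (e2 ▸ hxy.2)

/-- the Gauss constant is unique up to a unit of `A`. -/
theorem IsSheetConst.div_mem {x : LaurentSeries F} {c c' : F}
    (hx : IsSheetConst A x c) (hx' : IsSheetConst A x c') : c' / c ∈ A := by
  by_contra hnot
  have hc := hx.1
  have hc' := hx'.1
  have hd : c / c' ∈ A := by
    rcases A.mem_or_inv_mem (c' / c) with h | h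
    · exact absurd h hnot
    · rwa [inv_div] at h
  have hd' : c / c' = 0 ∨ (c / c')⁻¹ ∉ A := Or.inr (by rwa [inv_div])
  have e2 : HahnSeries.C c'⁻¹ * x = HahnSeries.C (c / c') * (HahnSeries.C c⁻¹ * x) := by
    rw [← mul_assoc, ← map_mul]
    congr 2
    field_simp
  exact not_isGaussUnitV_C_mul hd hd' hx.2.mem (e2 ▸ hx'.2)

theorem IsSheetConst.mul {x y : LaurentSeries F} {c c' : F}
    (hx : IsSheetConst A x c) (hy : IsSheetConst A y c') : IsSheetConst A (x * y) (c * c') := by
  refine ⟨mul_ne_zero hx.1 hy.1, ?_⟩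
  have e : HahnSeries.C (c * c')⁻¹ * (x * y) =
      (HahnSeries.C c⁻¹ * x) * (HahnSeries.C c'⁻¹ * y) := by
    rw [mul_inv, map_mul]
    ring
  rw [e]
  exact hx.2.mul hy.2

theorem IsSheetConst.inv {x : LaurentSeries F} {c : F}
    (hx : IsSheetConst A x c) : IsSheetConst A x⁻¹ c⁻¹ := by
  refine ⟨inv_ne_zero hx.1, ?_⟩
  have e : HahnSeries.C (c⁻¹)⁻¹ * x⁻¹ = (HahnSeries.C c⁻¹ * x)⁻¹ := by
    rw [mul_inv, map_inv₀ (HahnSeries.C : F →+* LaurentSeries F) c⁻¹]
  rw [e]
  exact hx.2.inv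

theorem IsSheetConst.C_mul {x : LaurentSeries F} {c : F} (hx : IsSheetConst A x c) {d : F}
    (hd : d ≠ 0) : IsSheetConst A (HahnSeries.C d * x) (d * c) := by
  refine ⟨mul_ne_zero hd hx.1, ?_⟩
  have e : HahnSeries.C (d * c)⁻¹ * (HahnSeries.C d * x) = HahnSeries.C c⁻¹ * x := by
    rw [← mul_assoc, ← map_mul]
    congr 2
    have := hx.1
    field_simp
  rw [e]
  exact hx.2

theorem isSheetConst_one : IsSheetConst A (1 : LaurentSeries F) 1 :=
  ⟨one_ne_zero, by rw [inv_one, map_one, one_mul]; exact isGaussUnitV_one⟩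

end GaussV

section Descent

variable {F : Type*} [Field F] (A : ValuationSubring F)
  (R : Type*) [CommRing R] [IsDomain R] [IsDiscreteValuationRing R]
  (L : Type*) [Field L] [Algebra R L] [IsFractionRing R L]
  (ψ : L →+* F) (i : R →+* ↥A) [IsLocalHom i]
  (hi : ∀ r : R, ((i r : ↥A) : F) = ψ (algebraMap R L r))

include hi in
theorem coeffMap_emb_eq_embV (g : LaurentSeries R) :
    coeffMap ψ (emb R L g) = embV A (coeffMap i g) := by
  ext n
  rw [coeffMap_coeff, emb_coeff, embV_coeff, coeffMap_coeff, hi]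

theorem redV_coeffMap_ne_zero {g : LaurentSeries R} (hg : red R g ≠ 0) :
    redV A (coeffMap i g) ≠ 0 := by
  intro h
  apply hg
  ext n
  have h1 := congrArg (fun z => HahnSeries.coeff z n) h
  simp only [redV_coeff, coeffMap_coeff, HahnSeries.coeff_zero] at h1
  rw [red_coeff, HahnSeries.coeff_zero]
  rw [IsLocalRing.residue_eq_zero_iff, IsLocalRing.mem_maximalIdeal, mem_nonunits_iff] at h1 ⊢
  exact fun hu => h1 (hu.map i)

include hi in
/-- **descent**: the Gauss ring of a discrete valuation ring below `A` maps into the Gauss ring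
of `A`. -/
theorem coeffMap_mem_gaussIntV {x : LaurentSeries L} (hx : x ∈ gaussInt R L) :
    coeffMap ψ x ∈ gaussIntV A := by
  obtain ⟨f, g, hg, h⟩ := hx
  refine ⟨coeffMap i f, coeffMap i g, redV_coeffMap_ne_zero A R i hg, ?_⟩
  rw [← coeffMap_emb_eq_embV A R L ψ i hi, ← coeffMap_emb_eq_embV A R L ψ i hi, ← map_mul, h]

include hi in
/-- **descent of units**: a unit of the Gauss ring below gives a Gauss unit. -/
theorem isGaussUnitV_coeffMap {x : LaurentSeries L} (hx0 : x ≠ 0) (hx : x ∈ gaussInt R L)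
    (hx' : x⁻¹ ∈ gaussInt R L) : IsGaussUnitV A (coeffMap ψ x) := by
  have hinj : Function.Injective (coeffMap ψ) := coeffMapV_injective ψ.injective
  refine isGaussUnitV_of_mem_of_inv_mem ?_ (coeffMap_mem_gaussIntV A R L ψ i hi hx) ?_
  · exact (map_ne_zero_iff _ hinj).mpr hx0
  · rw [← map_inv₀]
    exact coeffMap_mem_gaussIntV A R L ψ i hi hx'

end Descent

end

end Fermat.Agent.MW
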