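import Mathlib
import Fermat.Agent.SS.MODEL_helper7_Leg
import Fermat.Agent.SS.FIELD_helper6_Unit
import Fermat.Agent.SS.UNODEHOST_helper6_AL

/-!
# Project MW (S17) — [N-ADIC] / [MODEL1] helper1, part 1: the fields of the level-one model

The level-`1` two-sheet model of `X₀(q)` (`q` prime): host `E_M = K(j)` (`j = jqNModC K 1`),
`E_N = keyFw K (1 * q) 1` (the function field of `X₀(q)` over `K` inside `K⸨x⸩`, `x = q`).
This file: `keyFw K 1 1 = K(j)`, the two degeneracy maps, the sheets.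
-/

set_option autoImplicit false
set_option linter.unusedSectionVars false
set_option linter.unusedVariables false
set_option linter.style.haveILetI false
set_option synthInstance.maxHeartbeats 200000

open Polynomial ModularCurve IntermediateField

namespace Fermat.Agent.MW

open Fermat.Agent.JA Fermat.Agent.Igusa Fermat.Agent.SS Fermat.Agent.X0N

open scoped Fermat.Agent.JA.Host

noncomputable section

section Field

variable (K : Type*) [Field K] [Algebra ℚ K]

theorem model1_divisorExpansions_one : divisorExpansions 1 = {jq} := by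
  ext x
  constructor
  · rintro ⟨d, hd0, hd, rfl⟩
    have h1 : d = 1 := Nat.dvd_one.mp hd
    subst h1
    rw [qExpand_one_apply]
    rfl
  · rintro rfl
    exact ⟨1, inferInstance, dvd_rfl, (qExpand_one_apply _).symm⟩

/-- the function field of level one is `K(j)`. -/
theorem model1_keyFq_one : keyFq K 1 = K⟮jqModC K⟯ := by
  show laurentBaseChange K (modularFunctionFieldFull 1) = _
  rw [modularFunctionFieldFull, laurentBaseChange_adjoin, model1_divisorExpansions_one,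
    Set.image_singleton, coeffEmb_jq_eq_jqModC]

/-- the host image (`w = 1`) of the function field of level one is `K(j)`. -/
theorem model1_keyFw_one : keyFw K 1 1 = K⟮jqNModC K 1⟯ := by
  show (keyFq K 1).map (qExpandAlgHomC K 1) = _
  rw [model1_keyFq_one, IntermediateField.adjoin_map, Set.image_singleton, qExpandAlgHomC_apply]
  rfl

end Field

section Defs

variable (R : Type*) [CommRing R] [IsDomain R] [IsDiscreteValuationRing R]
  (K : Type*) [Field K] [Algebra R K] [IsFractionRing R K] [Algebra ℚ K]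
  (q : ℕ) [NeZero q]

/-- `K(j) ≤ F_q` inside `K⸨x⸩`. -/
theorem model1_EM_le : K⟮jqNModC K 1⟯ ≤ keyFw K (1 * q) 1 := by
  rw [← model1_keyFw_one]
  exact hw2_keyFw_le 1

/-- `F_1(x^q) ⊆ F_q`. -/
theorem model1_qExpand_mem {f : LaurentSeries K} (hf : f ∈ K⟮jqNModC K 1⟯) :
    qExpand K q f ∈ keyFw K (1 * q) 1 := by
  rw [← model1_keyFw_one] at hf
  haveI : NeZero (1 * q) := ⟨by rw [one_mul]; exact NeZero.ne q⟩
  exact qExpand_mem_keyFw K 1 (by rw [mul_one, one_mul]) hf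

/-- `K(j)` consists of Gauss-bounded series. -/
theorem model1_EM_le_gaussField : K⟮jqNModC K 1⟯ ≤ gaussField R K := by
  rw [← model1_keyFw_one]
  exact keyFw_le_gaussField R K 1 1

/-- the degeneracy map `A` (inclusion) of the level-one model. -/
def oneHostA : ↥K⟮jqNModC K 1⟯ →ₐ[K] ↥(keyFw K (1 * q) 1) :=
  hostA K⟮jqNModC K 1⟯ (keyFw K (1 * q) 1) (model1_EM_le K q)

/-- the degeneracy map `B` (`f(x) ↦ f(x^q)`) of the level-one model. -/
def oneHostB : ↥K⟮jqNModC K 1⟯ →ₐ[K] ↥(keyFw K (1 * q) 1) :=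
  hostB K⟮jqNModC K 1⟯ (keyFw K (1 * q) 1) q (fun _ hf => model1_qExpand_mem K q hf)

@[simp] theorem coe_oneHostA (f : ↥K⟮jqNModC K 1⟯) :
    ((oneHostA K q f : ↥(keyFw K (1 * q) 1)) : LaurentSeries K) = f := rfl

@[simp] theorem coe_oneHostB (f : ↥K⟮jqNModC K 1⟯) :
    ((oneHostB K q f : ↥(keyFw K (1 * q) 1)) : LaurentSeries K) =
      qExpand K q (f : LaurentSeries K) := rfl

/-- the Gauss valuation subring of `K(j)`. -/
def oneVM : ValuationSubring ↥K⟮jqNModC K 1⟯ :=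
  gaussValSub R K K⟮jqNModC K 1⟯ (model1_EM_le_gaussField R K)

/-- the sheet `W_∞` of `F_q`: the coefficientwise Gauss valuation subring. -/
def oneWinf [NeZero (1 * q)] : ValuationSubring ↥(keyFw K (1 * q) 1) :=
  gaussValSub R K (keyFw K (1 * q) 1) (keyFw_le_gaussField R K (1 * q) 1)

variable {q}

/-- the sheet `W_0` of `F_q`: the Atkin–Lehner transform of `W_∞`. -/
def oneW0 [Algebra K ℂ] [NeZero (1 * q)] {x y : ℤ} (h : (q : ℤ) * x + ((1 : ℕ) : ℤ) * y = 1)
    (hq : q.Prime) : ValuationSubring ↥(keyFw K (1 * q) 1) :=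
  hostW0 K (algebraMap K ℂ) 1 h hq R (keyFw K (1 * q) 1) le_rfl

end Defs

section Block

variable (R : Type*) [CommRing R] [IsDomain R] [IsDiscreteValuationRing R] [CharZero R]
  (K : Type*) [Field K] [Algebra R K] [IsFractionRing R K] [Algebra ℚ K] [Algebra K ℂ]
  {q : ℕ} [NeZero q] [NeZero (1 * q)] {x y : ℤ} {π : R}

/-- `q` prime does not divide `1`. -/
theorem model1_not_dvd_one (hq : q.Prime) : ¬ q ∣ 1 := fun h =>
  hq.one_lt.ne' (Nat.dvd_one.mp h)

/-- the degree of `F_q` over `B(F_1)` is `q + 1` (generic form, for the `subst`). -/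
theorem model1_degB_aux (h : (q : ℤ) * x + ((1 : ℕ) : ℤ) * y = 1) (hq : q.Prime)
    (hle : keyFw K 1 1 ≤ keyFw K (1 * q) 1)
    (hB : ∀ f ∈ keyFw K 1 1, qExpand K q f ∈ keyFw K (1 * q) 1) :
    letI := (hostB (keyFw K 1 1) (keyFw K (1 * q) 1) q hB :
      ↥(keyFw K 1 1) →+* ↥(keyFw K (1 * q) 1)).toAlgebra
    FiniteDimensional ↥(keyFw K 1 1) ↥(keyFw K (1 * q) 1) ∧
      Module.finrank ↥(keyFw K 1 1) ↥(keyFw K (1 * q) 1) ≤ q + 1 := by
  obtain ⟨hfinA, hdegA⟩ := deg2_finrank_keyFw (K := K) (M := 1) (q := q) (algebraMap K ℂ) hq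
    (model1_not_dvd_one hq) 1 hle
  have hcomp : ((hostALEquiv (algebraMap K ℂ) h hq 1 :
      ↥(keyFw K (1 * q) 1) →+* ↥(keyFw K (1 * q) 1)).comp
      (hostA (keyFw K 1 1) (keyFw K (1 * q) 1) hle : ↥(keyFw K 1 1) →+* ↥(keyFw K (1 * q) 1))) =
      (hostB (keyFw K 1 1) (keyFw K (1 * q) 1) q hB :
        ↥(keyFw K 1 1) →+* ↥(keyFw K (1 * q) 1)) := by
    refine RingHom.ext fun f => ?_
    apply Subtype.ext
    show ((hostAL (algebraMap K ℂ) h hq 1 (IntermediateField.inclusion hle f) :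
      ↥(keyFw K (1 * q) 1)) : LaurentSeries K) = qExpand K q (f : LaurentSeries K)
    exact coe_hostAL_inclusion (algebraMap K ℂ) h hq 1 f
  have key := degB_finrank_comp_equiv
    (hostA (keyFw K 1 1) (keyFw K (1 * q) 1) hle : ↥(keyFw K 1 1) →+* ↥(keyFw K (1 * q) 1))
    (hostALEquiv (algebraMap K ℂ) h hq 1)
  rw [hcomp] at key
  have hdegA' : @Module.finrank ↥(keyFw K 1 1) ↥(keyFw K (1 * q) 1) _ _
      (hostA (keyFw K 1 1) (keyFw K (1 * q) 1) hle :
        ↥(keyFw K 1 1) →+* ↥(keyFw K (1 * q) 1)).toAlgebra.toModule = q + 1 := hdegA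
  letI := (hostB (keyFw K 1 1) (keyFw K (1 * q) 1) q hB :
      ↥(keyFw K 1 1) →+* ↥(keyFw K (1 * q) 1)).toAlgebra
  have hB1 : Module.finrank ↥(keyFw K 1 1) ↥(keyFw K (1 * q) 1) = q + 1 := key.trans hdegA'
  exact ⟨Module.finite_of_finrank_pos (by rw [hB1]; exact Nat.succ_pos q), hB1.le⟩

/-- the two-sheet block for a host `E_M` equal to `keyFw K 1 1` (generic form). -/
theorem model1_block_aux [CharZero K] (h : (q : ℤ) * x + ((1 : ℕ) : ℤ) * y = 1) (hq : q.Prime)
    (hchar : (q : IsLocalRing.ResidueField R) = 0) (hπ : Irreducible π)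
    (EM : IntermediateField K (LaurentSeries K)) (hEq : keyFw K 1 1 = EM)
    (hle : EM ≤ keyFw K (1 * q) 1) (hB : ∀ f ∈ EM, qExpand K q f ∈ keyFw K (1 * q) 1)
    (hEM : EM ≤ gaussField R K) (J : ↥EM) (hJ : (J : LaurentSeries K) = jqNModC K 1)
    (huniq : ∀ V : ValuationSubring ↥EM, IsGaussAt R π J V → V = gaussValSub R K EM hEM) :
    (hostW0 K (algebraMap K ℂ) 1 h hq R (keyFw K (1 * q) 1) le_rfl).comap
        (hostA EM (keyFw K (1 * q) 1) hle : ↥EM →+* ↥(keyFw K (1 * q) 1)) =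
      gaussValSub R K EM hEM ∧
    (hostW0 K (algebraMap K ℂ) 1 h hq R (keyFw K (1 * q) 1) le_rfl).comap
        (hostB EM (keyFw K (1 * q) 1) q hB : ↥EM →+* ↥(keyFw K (1 * q) 1)) =
      gaussValSub R K EM hEM ∧
    (hostW0 K (algebraMap K ℂ) 1 h hq R (keyFw K (1 * q) 1) le_rfl).valuation
      (hostA EM (keyFw K (1 * q) 1) hle J - hostB EM (keyFw K (1 * q) 1) q hB J ^ q) < 1 ∧
    gaussValSub R K (keyFw K (1 * q) 1) (keyFw_le_gaussField R K (1 * q) 1) ≠
      hostW0 K (algebraMap K ℂ) 1 h hq R (keyFw K (1 * q) 1) le_rfl ∧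
    (∀ V : ValuationSubring ↥(keyFw K (1 * q) 1),
      IsGaussAt R π (hostA EM (keyFw K (1 * q) 1) hle J) V →
      V = gaussValSub R K (keyFw K (1 * q) 1) (keyFw_le_gaussField R K (1 * q) 1) ∨
        V = hostW0 K (algebraMap K ℂ) 1 h hq R (keyFw K (1 * q) 1) le_rfl) ∧
    (∀ z : ↥(keyFw K (1 * q) 1),
      (gaussValSub R K (keyFw K (1 * q) 1) (keyFw_le_gaussField R K (1 * q) 1)).valuation z < 1 →
      z * (algebraMap R ↥(keyFw K (1 * q) 1) π)⁻¹ ∈
        gaussValSub R K (keyFw K (1 * q) 1) (keyFw_le_gaussField R K (1 * q) 1)) ∧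
    (∀ z : ↥(keyFw K (1 * q) 1),
      (hostW0 K (algebraMap K ℂ) 1 h hq R (keyFw K (1 * q) 1) le_rfl).valuation z < 1 →
      z * (algebraMap R ↥(keyFw K (1 * q) 1) π)⁻¹ ∈
        hostW0 K (algebraMap K ℂ) 1 h hq R (keyFw K (1 * q) 1) le_rfl) ∧
    (∀ z ∈ gaussValSub R K (keyFw K (1 * q) 1) (keyFw_le_gaussField R K (1 * q) 1),
      ∃ a ∈ gaussValSub R K EM hEM,
        (gaussValSub R K (keyFw K (1 * q) 1) (keyFw_le_gaussField R K (1 * q) 1)).valuation
          (z - hostA EM (keyFw K (1 * q) 1) hle a) < 1) ∧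
    (∀ z ∈ hostW0 K (algebraMap K ℂ) 1 h hq R (keyFw K (1 * q) 1) le_rfl,
      ∃ a ∈ gaussValSub R K EM hEM,
        (hostW0 K (algebraMap K ℂ) 1 h hq R (keyFw K (1 * q) 1) le_rfl).valuation
          (z - hostB EM (keyFw K (1 * q) 1) q hB a) < 1) := by
  subst hEq
  obtain ⟨hfinA, hdegA⟩ := deg2_finrank_keyFw (K := K) (M := 1) (q := q) (algebraMap K ℂ) hq
    (model1_not_dvd_one hq) 1 hle
  obtain ⟨hfinB, hdegB⟩ := model1_degB_aux K h hq hle hB
  exact host_two_sheet_W0 K (algebraMap K ℂ) 1 h hq R (keyFw K 1 1) (keyFw K (1 * q) 1)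
    le_rfl le_rfl hle hB hEM (keyFw_le_gaussField R K (1 * q) 1) hchar hπ
    (Nat.coprime_one_left q) J hJ hfinA hdegA.le hfinB hdegB huniq

end Block

end

end Fermat.Agent.MW
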