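import Mathlib
import Fermat.Agent.MW.NADIC_helper1_Model1Field

/-!
# Project MW (S17) — [N-ADIC] / [MODEL1] helper1, part 2: the trivial cover

`GeoHyps` for the trivial cover `E = K = K₁(t)` (tameness bound `1`, empty branch set), and the
uniqueness of the Gauss valuation subring of `K(j)`.
-/

set_option autoImplicit false
set_option linter.unusedSectionVars false
set_option linter.unusedVariables false
set_option linter.style.haveILetI false
set_option synthInstance.maxHeartbeats 200000

open Polynomial ModularCurve IntermediateField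

namespace Fermat.Agent.MW

open Fermat.Agent.JA Fermat.Agent.Igusa Fermat.Agent.SS Fermat.Agent.X0N

open scoped Fermat.Agent.JA.Host

noncomputable section

section Trivial

variable {F : Type*} [Field F] (𝒱 : ValuationSubring F)

/-- the integral closure of a valuation subring in its own fraction field is the subring. -/
theorem model1_algebraMap_surjective :
    Function.Surjective (algebraMap ↥𝒱 ↥(integralClosure ↥𝒱 F)) := by
  rintro ⟨x, hx⟩
  obtain ⟨y, hy⟩ := (IsIntegrallyClosed.isIntegral_iff (R := ↥𝒱) (K := F)).mp hx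
  exact ⟨y, Subtype.ext hy⟩

/-- the trivial cover is unramified. -/
theorem model1_unr_self : Unr 𝒱 F := by
  unfold Unr
  exact Algebra.FormallyUnramified.of_surjective (Algebra.ofId ↥𝒱 ↥(integralClosure ↥𝒱 F))
    (model1_algebraMap_surjective 𝒱)

/-- the trivial cover is tame with bound `1`. -/
theorem model1_tameAt_self : TameAt 𝒱 F 1 := by
  intro Q hQ
  haveI := hQ.isPrime
  haveI : Algebra.FormallyUnramified ↥𝒱 ↥(integralClosure ↥𝒱 F) := model1_unr_self 𝒱
  haveI : Algebra.FiniteType ↥𝒱 ↥(integralClosure ↥𝒱 F) :=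
    Algebra.FiniteType.of_surjective (Algebra.ofId ↥𝒱 ↥(integralClosure ↥𝒱 F))
      (model1_algebraMap_surjective 𝒱)
  rw [Ideal.ramificationIdx_eq_one Q ↥𝒱]

end Trivial

section Geo

variable (R : Type*) [CommRing R] [IsDomain R] [IsDiscreteValuationRing R] [CharZero R]
  (K : Type*) [Field K] [Algebra R K] [IsFractionRing R K] [Algebra ℚ K]
  {π : R}

theorem model1_transcendental_gen : Transcendental K (AdjoinSimple.gen K (jqNModC K 1)) :=
  Host.transcendental_gen (Host.transcendental_of_coeff_ne_zero (n := -((1 : ℕ) : ℤ))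
    (by norm_num) (by rw [Host.coeff_jqNModC]; exact one_ne_zero))

theorem model1_adjoin_gen :
    IntermediateField.adjoin K {AdjoinSimple.gen K (jqNModC K 1)} = ⊤ :=
  Host.adjoin_gen_eq_top _

theorem model1_const_EM (x : ↥K⟮jqNModC K 1⟯) (hx : IsAlgebraic K x) :
    x ∈ Set.range (algebraMap K ↥K⟮jqNModC K 1⟯) := by
  have h1 : IsAlgebraic K (x : LaurentSeries K) := by
    have := hx.algebraMap (A := LaurentSeries K)
    exact this
  obtain ⟨c, hc⟩ := laurentSeries_mem_range_algebraMap_of_isAlgebraic _ h1
  exact ⟨c, Subtype.ext hc⟩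

/-- **good reduction of the `j`-line**: `GeoHyps` for the trivial cover of `K(j)`. -/
theorem model1_geoHyps [DecidableEq R] (hπ : Irreducible π) :
    GeoHyps K (K := ↥K⟮jqNModC K 1⟯) π (AdjoinSimple.gen K (jqNModC K 1)) ↥K⟮jqNModC K 1⟯ 1
      (∅ : Finset R) where
  finite := inferInstance
  irreducible := hπ
  transcendental := model1_transcendental_gen K
  adjoin_eq_top := model1_adjoin_gen K
  isUnit_n := by simp
  exists_root := ⟨1, IsPrimitiveRoot.one⟩
  unit_sub := fun a ha => absurd ha (Finset.notMem_empty a)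
  zero_or_unit := fun a ha => absurd ha (Finset.notMem_empty a)
  unr := fun 𝒱 _ _ _ _ => model1_unr_self 𝒱
  tame := fun 𝒱 _ _ => model1_tameAt_self 𝒱
  gauss := fun 𝒱 _ => model1_unr_self 𝒱
  const := model1_const_EM K

/-- the Gauss valuation subring of `K(j)` is Gauss in the coordinate `j`. -/
theorem model1_isGaussAt_oneVM (hπ : Irreducible π) :
    IsGaussAt R π (AdjoinSimple.gen K (jqNModC K 1)) (oneVM R K) := by
  have hT := isPrimeSeries_jqNModC R K 1
  have h1 := isGaussAt_comap_gaussValSub' (R := R) (L := K) K⟮jqNModC K 1⟯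
    (model1_EM_le_gaussField R K) (RingHom.id ↥K⟮jqNModC K 1⟯)
    (fun r => by
      rw [RingHom.id_apply, IsScalarTower.algebraMap_apply R K ↥K⟮jqNModC K 1⟯,
        IntermediateField.coe_algebraMap_apply, algebraMap_laurentSeries_eq_single]
      rfl) hπ
    (AdjoinSimple.gen K (jqNModC K 1)) hT.mem_gaussInt
    (hT.transcendental_gaussRed _)
  have e : (gaussValSub R K K⟮jqNModC K 1⟯ (model1_EM_le_gaussField R K)).comap
      (RingHom.id ↥K⟮jqNModC K 1⟯) = oneVM R K := by
    ext z
    rfl
  rwa [e] at h1

/-- **uniqueness of the Gauss valuation subring of `K(j)`.** -/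
theorem model1_eq_oneVM_of_isGaussAt (hπ : Irreducible π)
    (V : ValuationSubring ↥K⟮jqNModC K 1⟯)
    (hV : IsGaussAt R π (AdjoinSimple.gen K (jqNModC K 1)) V) : V = oneVM R K :=
  isGaussAt_unique (K₁ := K) π hπ (AdjoinSimple.gen K (jqNModC K 1))
    (model1_transcendental_gen K) (model1_adjoin_gen K) hV (model1_isGaussAt_oneVM R K hπ)

end Geo

end

end Fermat.Agent.MW
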