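import Mathlib
import Fermat.Agent.MW.NADIC_helper1_Model1Geo

/-!
# Project MW (S17) — [N-ADIC] / [MODEL1] helper1, part 3: the level-one two-sheet model

`ssModelOne` : the `SSModel` of `X₀(q)` (`q` prime, residue characteristic `q`) over the `j`-line:
`K_M = E_M = K_N = K(j)`, `E_N = keyFw K (1 * q) 1`, `A` = inclusion, `B` = `f(x) ↦ f(x^q)`.
-/

set_option autoImplicit false
set_option linter.unusedSectionVars false
set_option linter.unusedVariables false
set_option linter.style.haveILetI false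
set_option synthInstance.maxHeartbeats 200000

open Polynomial ModularCurve IntermediateField

namespace Fermat.Agent.MW

open Fermat.Agent.JA Fermat.Agent.Igusa Fermat.Agent.SS Fermat.Agent.X0N

open scoped Fermat.Agent.JA.Host

noncomputable section

section Model

variable (R : Type*) [CommRing R] [IsDomain R] [IsDiscreteValuationRing R] [CharZero R]
  (K : Type*) [Field K] [Algebra R K] [IsFractionRing R K] [Algebra ℚ K] [Algebra K ℂ]
  {q : ℕ} [NeZero q] [NeZero (1 * q)] {x y : ℤ} {π : R}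

/-- `F_q / K(j)` is finite. -/
instance model1_finite : FiniteDimensional ↥K⟮jqNModC K 1⟯ ↥(keyFw K (1 * q) 1) :=
  finite_hostImage_full (1 * q) 1

/-- the two-sheet block of the level-one model. -/
theorem model1_block (hπ : Irreducible π) (h : (q : ℤ) * x + ((1 : ℕ) : ℤ) * y = 1)
    (hq : q.Prime) (hqπ : (q : R) ∈ Ideal.span {π}) :
    (oneW0 R K h hq).comap (oneHostA K q : ↥K⟮jqNModC K 1⟯ →+* ↥(keyFw K (1 * q) 1)) =
      oneVM R K ∧
    (oneW0 R K h hq).comap (oneHostB K q : ↥K⟮jqNModC K 1⟯ →+* ↥(keyFw K (1 * q) 1)) =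
      oneVM R K ∧
    (oneW0 R K h hq).valuation
      (oneHostA K q (AdjoinSimple.gen K (jqNModC K 1)) -
        oneHostB K q (AdjoinSimple.gen K (jqNModC K 1)) ^ q) < 1 ∧
    IsTwoSheet π (AdjoinSimple.gen K (jqNModC K 1)) (oneWinf R K q) (oneW0 R K h hq) ∧
    (∀ z ∈ oneWinf R K q, ∃ a ∈ oneVM R K,
      (oneWinf R K q).valuation (z - oneHostA K q a) < 1) ∧
    (∀ z ∈ oneW0 R K h hq, ∃ a ∈ oneVM R K,
      (oneW0 R K h hq).valuation (z - oneHostB K q a) < 1) := by
  haveI : CharP (IsLocalRing.ResidueField R) q := charP_residueField_of_mem_span hπ hq hqπ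
  have hchar : (q : IsLocalRing.ResidueField R) = 0 := CharP.cast_eq_zero _ q
  have hinj : Function.Injective (algebraMap R K) := IsFractionRing.injective R K
  haveI : CharZero K := charZero_of_injective_algebraMap hinj
  obtain ⟨hA0, hB0, hkron, hne, honly, heinf, hezero, hresinf, hreszero⟩ :=
    model1_block_aux R K h hq hchar hπ K⟮jqNModC K 1⟯ (model1_keyFw_one K) (model1_EM_le K q)
      (fun _ hf => model1_qExpand_mem K q hf) (model1_EM_le_gaussField R K)
      (AdjoinSimple.gen K (jqNModC K 1)) rfl (model1_eq_oneVM_of_isGaussAt R K hπ)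
  have hKN : ∀ r : R, algebraMap ↥K⟮jqNModC K 1⟯ ↥(keyFw K (1 * q) 1)
      (algebraMap R ↥K⟮jqNModC K 1⟯ r) = algebraMap R ↥(keyFw K (1 * q) 1) r :=
    fun r => (IsScalarTower.algebraMap_apply R ↥K⟮jqNModC K 1⟯ ↥(keyFw K (1 * q) 1) r).symm
  have hAj : (oneHostA K q : ↥K⟮jqNModC K 1⟯ →+* ↥(keyFw K (1 * q) 1))
      (AdjoinSimple.gen K (jqNModC K 1)) =
      algebraMap ↥K⟮jqNModC K 1⟯ ↥(keyFw K (1 * q) 1) (AdjoinSimple.gen K (jqNModC K 1)) :=
    Subtype.ext rfl
  refine ⟨hA0, hB0, hkron, ⟨hne, ?_, ?_, fun W hW => ?_, heinf, hezero⟩, hresinf, hreszero⟩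
  · -- gauss_inf
    have hT := isPrimeSeries_jqNModC R K 1
    exact isGaussAt_comap_gaussValSub' (R := R) (L := K) (keyFw K (1 * q) 1)
      (keyFw_le_gaussField R K (1 * q) 1)
      (algebraMap ↥K⟮jqNModC K 1⟯ ↥(keyFw K (1 * q) 1))
      (fun r => by
        rw [hKN, IsScalarTower.algebraMap_apply R K ↥(keyFw K (1 * q) 1),
          IntermediateField.coe_algebraMap_apply, algebraMap_laurentSeries_eq_single]
        rfl) hπ (AdjoinSimple.gen K (jqNModC K 1)) hT.mem_gaussInt
      (hT.transcendental_gaussRed _)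
  · -- gauss_zero
    rw [isGaussAt_comap_ringHom_iff _ hKN, ← hAj]
    exact isGaussAt_hostW0_A K (algebraMap K ℂ) 1 h hq R K⟮jqNModC K 1⟯ (keyFw K (1 * q) 1)
      (model1_keyFw_one K).le le_rfl (model1_EM_le K q) hπ
      (AdjoinSimple.gen K (jqNModC K 1)) rfl
  · -- only
    rw [isGaussAt_comap_ringHom_iff _ hKN, ← hAj] at hW
    exact honly W hW

/-- a uniformizer of `R` is not a unit of `W_∞`. -/
theorem model1_inv_uniformizer_notMem_oneWinf (hπ : Irreducible π) :
    (algebraMap K ↥(keyFw K (1 * q) 1) (algebraMap R K π))⁻¹ ∉ oneWinf R K q := by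
  intro hmem
  apply inv_uniformizer_notMem_gaussInt (L := K) hπ
  have : (((algebraMap K ↥(keyFw K (1 * q) 1) (algebraMap R K π))⁻¹ : ↥(keyFw K (1 * q) 1)) :
      LaurentSeries K) = ((HahnSeries.C (algebraMap R K π) : LaurentSeries K))⁻¹ := by
    rw [IntermediateField.coe_inv]
    show (algebraMap K (LaurentSeries K) (algebraMap R K π))⁻¹ = _
    rw [algebraMap_laurentSeries_eq_single, ← HahnSeries.C_apply]
  rw [← this]
  exact hmem

/-- **`kron_j_inf`**: `B j ≡ (A j)^q` on `W_∞`. -/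
theorem model1_kron_j_inf (hπ : Irreducible π) (hq : q.Prime) (hqπ : (q : R) ∈ Ideal.span {π}) :
    (oneWinf R K q).valuation
      ((oneHostB K q : ↥K⟮jqNModC K 1⟯ →+* ↥(keyFw K (1 * q) 1))
          (AdjoinSimple.gen K (jqNModC K 1)) -
        (oneHostA K q : ↥K⟮jqNModC K 1⟯ →+* ↥(keyFw K (1 * q) 1))
          (AdjoinSimple.gen K (jqNModC K 1)) ^ q) < 1 := by
  haveI : CharP (IsLocalRing.ResidueField R) q := charP_residueField_of_mem_span hπ hq hqπ
  haveI : ExpChar (IsLocalRing.ResidueField R) q := ExpChar.prime hq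
  exact (isPrimeSeries_jqNModC R K 1).valuation_sub_pow_lt_one hπ q (keyFw K (1 * q) 1)
    (oneWinf R K q) (fun z hz => hz)
    (model1_inv_uniformizer_notMem_oneWinf R K hπ) _ _ rfl rfl

/-- the embedding of the function field of `X₀(q)` onto `keyFw K (1 * q) 1`. -/
def model1_cuspEmb :
    ↥(laurentBaseChange K (modularFunctionFieldFull q)) →ₐ[K] ↥(keyFw K (1 * q) 1) :=
  dilateAlgHom K 1 (laurentBaseChange K (modularFunctionFieldFull q)) (keyFw K (1 * q) 1)
    (fun _ hf => qExpand_mem_hostImage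
      (keyFq_le_of_dvd K (Dvd.intro_left 1 rfl : q ∣ 1 * q) hf))

theorem coe_model1_cuspEmb (f : ↥(laurentBaseChange K (modularFunctionFieldFull q))) :
    ((model1_cuspEmb K (q := q) f : ↥(keyFw K (1 * q) 1)) : LaurentSeries K) =
      qExpand K 1 (f : LaurentSeries K) := rfl

/-- **`cuspord`, `cuspord'`** on `F_q`. -/
theorem model1_cuspord_both (hπ : Irreducible π) (hq : q.Prime)
    (V : ValuationSubring ↥(keyFw K (1 * q) 1))
    (hR : ∀ r : R, algebraMap R ↥(keyFw K (1 * q) 1) r ∈ V)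
    (hπV : (algebraMap R ↥(keyFw K (1 * q) 1) π)⁻¹ ∈ V)
    (jA jB : ↥(keyFw K (1 * q) 1))
    (hjA : (jA : LaurentSeries K) = jqNModC K 1)
    (hjB : (jB : LaurentSeries K) = qExpand K q (jqNModC K 1)) :
    (jA ∉ V → jB * (jA ^ q)⁻¹ ∈ V ∧ jA * (jB ^ q)⁻¹ ∈ V ∧ jB ∉ V) ∧ (jB ∉ V → jA ∉ V) := by
  have hK : ∀ c : K, algebraMap K ↥(keyFw K (1 * q) 1) c ∈ V :=
    algebraMap_mem_of_inv_uniformizer_mem hπ V hR hπV
  set φ := model1_cuspEmb K (q := q) with hφ
  have e1 : φ (jGen K q) = jA := by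
    apply Subtype.ext
    rw [coe_model1_cuspEmb, cuspord_coe_jGen, hjA, jqNModC]
  have e2 : φ (jdBar (k := K) q (dvd_refl q)) = jB := by
    apply Subtype.ext
    rw [coe_model1_cuspEmb, cuspord_coe_jdBar, hjB, qExpand_one_apply]
    show qExpand K q (jqModC K) = qExpand K q (qExpand K 1 (jqModC K))
    rw [qExpand_one_apply]
  constructor
  · intro hj
    have h := cuspord_of_ringHom (algebraMap K ℂ) q hq (φ : _ →+* _) V
      (fun c => by
        show φ (algebraMap K _ c) ∈ V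
        rw [φ.commutes c]; exact hK c)
      (by
        show φ (jGen K q) ∉ V
        rw [e1]; exact hj)
    have h' : φ (jdBar (k := K) q (dvd_refl q)) * (φ (jGen K q) ^ q)⁻¹ ∈ V ∧
        φ (jGen K q) * (φ (jdBar (k := K) q (dvd_refl q)) ^ q)⁻¹ ∈ V ∧
        φ (jdBar (k := K) q (dvd_refl q)) ∉ V := h
    rwa [e1, e2] at h'
  · intro hj
    set ψ : ↥(laurentBaseChange K (modularFunctionFieldFull q)) →+* ↥(keyFw K (1 * q) 1) :=
      (φ : _ →+* _).comp (frickeN (algebraMap K ℂ) q) with hψ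
    have h := cuspord_of_ringHom (algebraMap K ℂ) q hq ψ V
      (fun c => by
        show φ (frickeN (algebraMap K ℂ) q (algebraMap K _ c)) ∈ V
        rw [frickeN_algebraMap, φ.commutes c]; exact hK c)
      (by
        show φ (frickeN (algebraMap K ℂ) q (jGen K q)) ∉ V
        rw [cuspord_frickeN_jGen, e2]; exact hj)
    have h3 : φ (frickeN (algebraMap K ℂ) q (jdBar (k := K) q (dvd_refl q))) ∉ V := h.2.2
    rwa [cuspord_frickeN_jdBar, e1] at h3

theorem model1_const (z : ↥(keyFw K (1 * q) 1)) (hz : IsAlgebraic K z) :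
    z ∈ Set.range (algebraMap K ↥(keyFw K (1 * q) 1)) := by
  have h1 : IsAlgebraic K (z : LaurentSeries K) := by
    have := hz.algebraMap (A := LaurentSeries K)
    exact this
  obtain ⟨c, hc⟩ := laurentSeries_mem_range_algebraMap_of_isAlgebraic _ h1
  exact ⟨c, Subtype.ext hc⟩

end Model

end

end Fermat.Agent.MW
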