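import Mathlib
import Fermat.Agent.MW.NADIC_helper1_Model1Main

/-!
# Project MW (S17) — [N-ADIC] / [MODEL1] helper1, part 4: the modular unit and the model

`oneUnit K q` : the modular unit `Δ(τ)/Δ(qτ)` in `F_q = keyFw K (1 * q) 1`; it is a unit of `W_∞`,
`q^12` times a unit of `W_0`, integral over `K[j]` together with its inverse.
`ssModelOne` : the level-one two-sheet model of `X₀(q)`.
-/

set_option autoImplicit false
set_option linter.unusedSectionVars false
set_option linter.unusedVariables false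
set_option linter.style.haveILetI false
set_option synthInstance.maxHeartbeats 200000

open Polynomial ModularCurve IntermediateField

namespace Fermat.Agent.MW

open Fermat.Agent.JA Fermat.Agent.Igusa Fermat.Agent.SS Fermat.Agent.X0N

open scoped Fermat.Agent.JA.Host

noncomputable section

section Unit

variable (R : Type*) [CommRing R] [IsDomain R] [IsDiscreteValuationRing R] [CharZero R]
  (K : Type*) [Field K] [Algebra R K] [IsFractionRing R K] [Algebra ℚ K] [Algebra K ℂ]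
  (q : ℕ) [NeZero q] [NeZero (1 * q)] {x y : ℤ} {π : R}

/-- the isomorphism `F_q ≃ keyFw K (1 * q) 1` (the host with `w = 1`; the identity on series). -/
def oneIso : ↥(keyFq K (1 * q)) ≃ₐ[K] ↥(keyFw K (1 * q) 1) :=
  hostImageEquiv K 1 (keyFq K (1 * q))

@[simp] theorem coe_oneIso (f : ↥(keyFq K (1 * q))) :
    ((oneIso K q f : ↥(keyFw K (1 * q) 1)) : LaurentSeries K) = (f : LaurentSeries K) := by
  show qExpand K 1 (f : LaurentSeries K) = f
  exact qExpand_one_apply _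

/-- **the modular unit** `Δ(τ)/Δ(qτ)` of `X₀(q)` in `keyFw K (1 * q) 1`. -/
def oneUnit : ↥(keyFw K (1 * q) 1) :=
  oneIso K q (modUnit K (1 * q) q (Dvd.intro_left 1 rfl))

theorem oneUnit_ne_zero : oneUnit K q ≠ 0 :=
  (_root_.map_ne_zero _).mpr (deltaRatio_ne_zero 1 q K (1 * q) _ _)

theorem coe_oneUnit :
    ((oneUnit K q : ↥(keyFw K (1 * q) 1)) : LaurentSeries K) =
      coeffEmb K (modularUnitSeries q) := by
  rw [oneUnit, coe_oneIso, coe_modUnit]

theorem oneIso_jGen : oneIso K q (jGen K (1 * q)) =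
    (oneHostA K q : ↥K⟮jqNModC K 1⟯ →+* ↥(keyFw K (1 * q) 1))
      (AdjoinSimple.gen K (jqNModC K 1)) := by
  apply Subtype.ext
  rw [coe_oneIso]
  show coeffEmb K jq = qExpand K 1 (jqModC K)
  rw [qExpand_one_apply, coeffEmb_jq_eq_jqModC]

/-- integrality over `K[j]` is transported to `keyFw K (1 * q) 1`. -/
theorem isIntegral_oneIso {z : ↥(keyFq K (1 * q))}
    (hz : IsIntegral ↥(Algebra.adjoin K {jGen K (1 * q)}) z) :
    IsIntegral ↥(Algebra.adjoin K
      {(oneHostA K q : ↥K⟮jqNModC K 1⟯ →+* ↥(keyFw K (1 * q) 1))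
        (AdjoinSimple.gen K (jqNModC K 1))}) (oneIso K q z) := by
  have := isIntegral_adjoin_map (R := K) (S := ↥(keyFq K (1 * q)))
      (T := ↥(keyFw K (1 * q) 1)) (oneIso K q : ↥(keyFq K (1 * q)) →+* ↥(keyFw K (1 * q) 1))
      (fun r => (oneIso K q).commutes r) hz
  rw [← oneIso_jGen]
  exact this

variable {q}

/-- membership in `W_0` through the Atkin–Lehner involution. -/
theorem oneIso_mem_oneW0_of_atkinLehnerN (h : (q : ℤ) * x + ((1 : ℕ) : ℤ) * y = 1)
    (hq : q.Prime) (f : ↥(keyFq K (1 * q)))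
    (hf : ((atkinLehnerN (algebraMap K ℂ) h hq f : ↥(keyFq K (1 * q))) : LaurentSeries K) ∈
      gaussInt R K) :
    oneIso K q f ∈ oneW0 R K h hq :=
  inclusion_mem_hostW0_of_atkinLehnerN K (algebraMap K ℂ) 1 h hq R (keyFw K (1 * q) 1) le_rfl f hf

/-- membership in `W_0` through the Atkin–Lehner involution, as an equivalence. -/
theorem oneIso_mem_oneW0_iff (h : (q : ℤ) * x + ((1 : ℕ) : ℤ) * y = 1)
    (hq : q.Prime) (f : ↥(keyFq K (1 * q))) :
    oneIso K q f ∈ oneW0 R K h hq ↔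
      ((atkinLehnerN (algebraMap K ℂ) h hq f : ↥(keyFq K (1 * q))) : LaurentSeries K) ∈
        gaussInt R K := by
  have h1 := inclusion_mem_hostW0_iff K (algebraMap K ℂ) 1 h hq R (keyFw K (1 * q) 1) le_rfl
    (hostImageEquiv K 1 (keyFq K (1 * q)) f)
  rw [alHost_hostImageEquiv, coe_hostImageEquiv, qExpand_one_apply] at h1
  exact h1

/-- membership in `W_∞`. -/
theorem oneIso_mem_oneWinf_iff (f : ↥(keyFq K (1 * q))) :
    oneIso K q f ∈ oneWinf R K q ↔ (f : LaurentSeries K) ∈ gaussInt R K := by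
  show ((oneIso K q f : ↥(keyFw K (1 * q) 1)) : LaurentSeries K) ∈ gaussInt R K ↔ _
  rw [coe_oneIso]

variable (q)

theorem oneUnit_inv : (oneUnit K q)⁻¹ =
    oneIso K q (deltaRatio q 1 K (1 * q) (Dvd.intro_left 1 rfl) (one_dvd _)) := by
  rw [oneUnit, ← map_inv₀, modUnit, deltaRatio_inv]

/-- the modular unit is a unit of `W_∞`. -/
theorem oneUnit_mem_oneWinf : oneUnit K q ∈ oneWinf R K q := by
  rw [oneUnit, oneIso_mem_oneWinf_iff]
  exact coeffEmb_deltaRatioSeries_mem_gaussInt R K 1 q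

theorem oneUnit_inv_mem_oneWinf : (oneUnit K q)⁻¹ ∈ oneWinf R K q := by
  rw [oneUnit_inv, oneIso_mem_oneWinf_iff]
  exact coeffEmb_deltaRatioSeries_mem_gaussInt R K q 1

variable {q}

theorem model1_algebraMap_natCast_pow_eq :
    algebraMap R ↥(keyFw K (1 * q) 1) (q : R) ^ 12 =
      oneIso K q (algebraMap K ↥(keyFq K (1 * q)) ((q : K) ^ 12)) := by
  rw [AlgEquiv.commutes, map_pow, IsScalarTower.algebraMap_apply R K ↥(keyFw K (1 * q) 1),
    map_natCast]

/-- on `W_0` the modular unit is `q^12` times a unit. -/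
theorem oneUnit_div_mem_oneW0 (h : (q : ℤ) * x + ((1 : ℕ) : ℤ) * y = 1) (hq : q.Prime) :
    oneUnit K q * (algebraMap R ↥(keyFw K (1 * q) 1) (q : R) ^ 12)⁻¹ ∈ oneW0 R K h hq := by
  rw [model1_algebraMap_natCast_pow_eq, oneUnit, ← map_inv₀, ← map_mul, oneIso_mem_oneW0_iff,
    map_mul, map_inv₀, atkinLehnerN_algebraMap, atkinLehnerN_modUnit (algebraMap K ℂ) h hq]
  have hne : algebraMap K ↥(keyFq K (1 * q)) ((q : K) ^ 12) ≠ 0 :=
    (_root_.map_ne_zero _).mpr (pow_ne_zero _ (by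
      haveI : CharZero K := algebraRat.charZero K
      exact Nat.cast_ne_zero.mpr (NeZero.ne q)))
  have e1 : algebraMap K ↥(keyFq K (1 * q)) ((q : K) ^ 12) *
      (modUnit K (1 * q) q (Dvd.intro_left 1 rfl))⁻¹ *
      (algebraMap K ↥(keyFq K (1 * q)) ((q : K) ^ 12))⁻¹ =
      deltaRatio q 1 K (1 * q) (Dvd.intro_left 1 rfl) (one_dvd _) := by
    rw [modUnit, deltaRatio_inv]
    field_simp
  rw [e1, coe_deltaRatio]
  exact coeffEmb_deltaRatioSeries_mem_gaussInt R K q 1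

theorem oneUnit_div_inv_mem_oneW0 (h : (q : ℤ) * x + ((1 : ℕ) : ℤ) * y = 1) (hq : q.Prime) :
    (oneUnit K q * (algebraMap R ↥(keyFw K (1 * q) 1) (q : R) ^ 12)⁻¹)⁻¹ ∈ oneW0 R K h hq := by
  rw [model1_algebraMap_natCast_pow_eq, oneUnit, ← map_inv₀, ← map_mul, ← map_inv₀,
    oneIso_mem_oneW0_iff, map_inv₀, map_mul, map_inv₀, atkinLehnerN_algebraMap,
    atkinLehnerN_modUnit (algebraMap K ℂ) h hq]
  have hne : algebraMap K ↥(keyFq K (1 * q)) ((q : K) ^ 12) ≠ 0 :=
    (_root_.map_ne_zero _).mpr (pow_ne_zero _ (by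
      haveI : CharZero K := algebraRat.charZero K
      exact Nat.cast_ne_zero.mpr (NeZero.ne q)))
  have hu0 : modUnit K (1 * q) q (Dvd.intro_left 1 rfl) ≠ 0 :=
    deltaRatio_ne_zero 1 q K (1 * q) _ _
  have e1 : (algebraMap K ↥(keyFq K (1 * q)) ((q : K) ^ 12) *
      (modUnit K (1 * q) q (Dvd.intro_left 1 rfl))⁻¹ *
      (algebraMap K ↥(keyFq K (1 * q)) ((q : K) ^ 12))⁻¹)⁻¹ =
      deltaRatio 1 q K (1 * q) (one_dvd _) (Dvd.intro_left 1 rfl) := by
    rw [modUnit]
    field_simp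
  rw [e1, coe_deltaRatio]
  exact coeffEmb_deltaRatioSeries_mem_gaussInt R K 1 q

variable (q)

/-- the modular unit and its inverse are integral over `K[j]`. -/
theorem isIntegral_oneUnit :
    IsIntegral ↥(Algebra.adjoin K
      {(oneHostA K q : ↥K⟮jqNModC K 1⟯ →+* ↥(keyFw K (1 * q) 1))
        (AdjoinSimple.gen K (jqNModC K 1))}) (oneUnit K q) ∧
    IsIntegral ↥(Algebra.adjoin K
      {(oneHostA K q : ↥K⟮jqNModC K 1⟯ →+* ↥(keyFw K (1 * q) 1))
        (AdjoinSimple.gen K (jqNModC K 1))}) (oneUnit K q)⁻¹ := by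
  haveI : CharZero K := algebraRat.charZero K
  letI : Algebra (AlgebraicClosure K) ℂ :=
    ((IsAlgClosed.lift : AlgebraicClosure K →ₐ[K] ℂ) : AlgebraicClosure K →+* ℂ).toAlgebra
  haveI : IsScalarTower ℚ K (AlgebraicClosure K) :=
    IsScalarTower.of_algebraMap_eq fun r => by
      simp only [eq_ratCast, map_ratCast]
  haveI : IsScalarTower ℚ (AlgebraicClosure K) ℂ :=
    IsScalarTower.of_algebraMap_eq fun r => by
      simp only [eq_ratCast, map_ratCast]
  constructor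
  · exact isIntegral_oneIso K q
      (isIntegral_deltaRatio 1 q (AlgebraicClosure K) (one_dvd _) (Dvd.intro_left 1 rfl))
  · rw [oneUnit_inv]
    exact isIntegral_oneIso K q
      (isIntegral_deltaRatio q 1 (AlgebraicClosure K) (Dvd.intro_left 1 rfl) (one_dvd _))

end Unit

section Final

variable (R : Type*) [CommRing R] [IsDomain R] [IsDiscreteValuationRing R] [CharZero R]
  (K : Type*) [Field K] [Algebra R K] [IsFractionRing R K] [Algebra ℚ K] [Algebra K ℂ]
  {q : ℕ} [NeZero q] [NeZero (1 * q)] {x y : ℤ} {π : R}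

/-- **the `unit` clause of `SSModel`** for the explicit modular unit, `c = 12 v_π(q)`. -/
theorem oneUnit_unit_clause (hπ : Irreducible π) (h : (q : ℤ) * x + ((1 : ℕ) : ℤ) * y = 1)
    (hq : q.Prime) (hqπ : (q : R) ∈ Ideal.span {π})
    (hR0 : ∀ r : R, algebraMap R ↥(keyFw K (1 * q) 1) r ∈ oneW0 R K h hq) :
    ∃ c : ℕ, 1 ≤ c ∧ Associated ((q : R) ^ 12) (π ^ c) ∧
      oneUnit K q * (algebraMap R ↥(keyFw K (1 * q) 1) π ^ c)⁻¹ ∈ oneW0 R K h hq ∧
      (oneUnit K q * (algebraMap R ↥(keyFw K (1 * q) 1) π ^ c)⁻¹)⁻¹ ∈ oneW0 R K h hq := by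
  have hq0 : (q : R) ≠ 0 := Nat.cast_ne_zero.mpr (NeZero.ne q)
  obtain ⟨e, u, he, hu⟩ := exists_natCast_eq_unit_mul_pow hπ hq0 hqπ
  have hinj : Function.Injective (algebraMap R ↥(keyFw K (1 * q) 1)) := by
    rw [IsScalarTower.algebraMap_eq R K ↥(keyFw K (1 * q) 1)]
    exact (algebraMap K ↥(keyFw K (1 * q) 1)).injective.comp (IsFractionRing.injective R K)
  have hπ0 : algebraMap R ↥(keyFw K (1 * q) 1) π ≠ 0 :=
    (map_ne_zero_iff _ hinj).mpr hπ.ne_zero
  have hu0 : algebraMap R ↥(keyFw K (1 * q) 1) (u : R) ≠ 0 :=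
    (map_ne_zero_iff _ hinj).mpr u.ne_zero
  have hqe : algebraMap R ↥(keyFw K (1 * q) 1) (q : R) ^ 12 =
      algebraMap R ↥(keyFw K (1 * q) 1) ((u : R) ^ 12) *
        algebraMap R ↥(keyFw K (1 * q) 1) π ^ (12 * e) := by
    rw [hu, map_mul, map_pow, map_pow, mul_pow, ← pow_mul, mul_comm e 12]
  have huinv : algebraMap R ↥(keyFw K (1 * q) 1) ((u : R) ^ 12) *
      algebraMap R ↥(keyFw K (1 * q) 1) (((u⁻¹ : Rˣ) : R) ^ 12) = 1 := by
    rw [← map_mul, ← mul_pow, Units.mul_inv, one_pow, map_one]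
  have hU0 := oneUnit_ne_zero K q
  refine ⟨12 * e, by omega, ?_, ?_, ?_⟩
  · rw [hu, mul_pow, ← pow_mul, mul_comm e 12]
    exact ⟨((u⁻¹) ^ 12 : Rˣ), by
      rw [Units.val_pow_eq_pow_val, mul_comm ((u : R) ^ 12), mul_assoc, ← mul_pow,
        Units.mul_inv, one_pow, mul_one]⟩
  · have e1 : oneUnit K q * (algebraMap R ↥(keyFw K (1 * q) 1) π ^ (12 * e))⁻¹ =
        (oneUnit K q * (algebraMap R ↥(keyFw K (1 * q) 1) (q : R) ^ 12)⁻¹) *
          algebraMap R ↥(keyFw K (1 * q) 1) ((u : R) ^ 12) := by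
      rw [hqe]
      have h12 : algebraMap R ↥(keyFw K (1 * q) 1) ((u : R) ^ 12) ≠ 0 := by
        rw [map_pow]; exact pow_ne_zero _ hu0
      field_simp
    rw [e1]
    exact (oneW0 R K h hq).mul_mem _ _ (oneUnit_div_mem_oneW0 R K h hq) (hR0 _)
  · have e1 : (oneUnit K q * (algebraMap R ↥(keyFw K (1 * q) 1) π ^ (12 * e))⁻¹)⁻¹ =
        (oneUnit K q * (algebraMap R ↥(keyFw K (1 * q) 1) (q : R) ^ 12)⁻¹)⁻¹ *
          algebraMap R ↥(keyFw K (1 * q) 1) (((u⁻¹ : Rˣ) : R) ^ 12) := by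
      rw [hqe]
      have h12 : algebraMap R ↥(keyFw K (1 * q) 1) ((u : R) ^ 12) ≠ 0 := by
        rw [map_pow]; exact pow_ne_zero _ hu0
      have h13 : algebraMap R ↥(keyFw K (1 * q) 1) (((u⁻¹ : Rˣ) : R) ^ 12) =
          (algebraMap R ↥(keyFw K (1 * q) 1) ((u : R) ^ 12))⁻¹ :=
        (inv_eq_of_mul_eq_one_right huinv).symm
      rw [h13]
      field_simp
    rw [e1]
    exact (oneW0 R K h hq).mul_mem _ _ (oneUnit_div_inv_mem_oneW0 R K h hq) (hR0 _)

/-- **[MODEL1] the level-one two-sheet model of `X₀(q)`** (`q` prime, residue characteristic `q`;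
no condition `q ≠ 2, 3`, no condition on the residue field): `K_M = E_M = K_N = K(j)`,
`E_N = keyFw K (1 * q) 1`, `t = j_M = j`, `A` = inclusion, `B` = `f(x) ↦ f(x^q)`, `V_M` the Gauss
valuation subring of `K(j)`, `W_∞` the coefficientwise Gauss valuation subring of `F_q`, `W_0` its
Atkin–Lehner transform. -/
theorem ssModelOne [DecidableEq R] (hπ : Irreducible π)
    (h : (q : ℤ) * x + ((1 : ℕ) : ℤ) * y = 1) (hq : q.Prime) (hqπ : (q : R) ∈ Ideal.span {π}) :
    SSModel K (KM := ↥K⟮jqNModC K 1⟯) (EM := ↥K⟮jqNModC K 1⟯) (KN := ↥K⟮jqNModC K 1⟯)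
      (EN := ↥(keyFw K (1 * q) 1)) π q 1 (∅ : Finset R)
      (AdjoinSimple.gen K (jqNModC K 1)) (AdjoinSimple.gen K (jqNModC K 1))
      (AdjoinSimple.gen K (jqNModC K 1))
      (oneHostA K q : ↥K⟮jqNModC K 1⟯ →+* ↥(keyFw K (1 * q) 1))
      (oneHostB K q : ↥K⟮jqNModC K 1⟯ →+* ↥(keyFw K (1 * q) 1))
      (oneVM R K) (oneWinf R K q) (oneW0 R K h hq) := by
  obtain ⟨hA0, hB0, hk0, htwo, hri, hr0⟩ := model1_block R K hπ h hq hqπ
  have hkinf := model1_kron_j_inf R K hπ hq hqπ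
  have hR0 : ∀ r : R, algebraMap R ↥(keyFw K (1 * q) 1) r ∈ oneW0 R K h hq :=
    fun r => htwo.chart_le_zero _ (Subalgebra.algebraMap_mem _ r)
  have hAR : ∀ r : R, (oneHostA K q : ↥K⟮jqNModC K 1⟯ →+* ↥(keyFw K (1 * q) 1))
      (algebraMap R ↥K⟮jqNModC K 1⟯ r) = algebraMap R ↥(keyFw K (1 * q) 1) r := by
    intro r
    rw [IsScalarTower.algebraMap_apply R K ↥K⟮jqNModC K 1⟯,
      IsScalarTower.algebraMap_apply R K ↥(keyFw K (1 * q) 1)]
    exact (oneHostA K q).commutes _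
  have hBR : ∀ r : R, (oneHostB K q : ↥K⟮jqNModC K 1⟯ →+* ↥(keyFw K (1 * q) 1))
      (algebraMap R ↥K⟮jqNModC K 1⟯ r) = algebraMap R ↥(keyFw K (1 * q) 1) r := by
    intro r
    rw [IsScalarTower.algebraMap_apply R K ↥K⟮jqNModC K 1⟯,
      IsScalarTower.algebraMap_apply R K ↥(keyFw K (1 * q) 1)]
    exact (oneHostB K q).commutes _
  have hcusp := fun V hR hπV => model1_cuspord_both R K hπ hq V hR hπV
    ((oneHostA K q : ↥K⟮jqNModC K 1⟯ →+* ↥(keyFw K (1 * q) 1))
      (AdjoinSimple.gen K (jqNModC K 1)))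
    ((oneHostB K q : ↥K⟮jqNModC K 1⟯ →+* ↥(keyFw K (1 * q) 1))
      (AdjoinSimple.gen K (jqNModC K 1))) rfl rfl
  obtain ⟨c, hc, -, hU1, hU2⟩ := oneUnit_unit_clause R K hπ h hq hqπ hR0
  exact
    { q_prime := hq
      q_mem := hqπ
      geo := model1_geoHyps R K hπ
      gauss_M := (isGaussAt_comap_ringHom_iff (R := R)
        (algebraMap ↥K⟮jqNModC K 1⟯ ↥K⟮jqNModC K 1⟯)
        (fun r => rfl) π _ _).mpr (model1_isGaussAt_oneVM R K hπ)
      t_int := by
        have h1 : (algebraMap ↥K⟮jqNModC K 1⟯ ↥K⟮jqNModC K 1⟯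
            (AdjoinSimple.gen K (jqNModC K 1))) =
            algebraMap ↥(Algebra.adjoin R {AdjoinSimple.gen K (jqNModC K 1)}) ↥K⟮jqNModC K 1⟯
              ⟨AdjoinSimple.gen K (jqNModC K 1), Algebra.self_mem_adjoin_singleton R _⟩ := rfl
        rw [h1]
        exact isIntegral_algebraMap
      t_sub_inv_int := fun s hs => absurd hs (Finset.notMem_empty s)
      cusp_t := fun O _ _ _ hinv _ => Or.inr hinv
      j_transcendental := model1_transcendental_gen K
      j_adjoin := model1_adjoin_gen K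
      A_algebraMap := hAR
      B_algebraMap := hBR
      A_j := Subtype.ext rfl
      two := htwo
      comap_A_inf := by ext z; rfl
      comap_B_inf := comap_hostB_gaussValSub (R := R) K⟮jqNModC K 1⟯ (keyFw K (1 * q) 1) q
        (fun _ hf => model1_qExpand_mem K q hf) (model1_EM_le_gaussField R K)
        (keyFw_le_gaussField R K (1 * q) 1)
      comap_A_zero := hA0
      comap_B_zero := hB0
      res_inf := hri
      res_zero := hr0
      kron_j_inf := hkinf
      kron_j_zero := hk0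
      kron_t_inf := hkinf
      kron_t_zero := ⟨(oneHostB K q : ↥K⟮jqNModC K 1⟯ →+* ↥(keyFw K (1 * q) 1))
          (AdjoinSimple.gen K (jqNModC K 1)),
        (oneHostA K q : ↥K⟮jqNModC K 1⟯ →+* ↥(keyFw K (1 * q) 1))
          (AdjoinSimple.gen K (jqNModC K 1)),
        by
          have h1 : ((oneHostB K q : ↥K⟮jqNModC K 1⟯ →+* ↥(keyFw K (1 * q) 1))
              (AdjoinSimple.gen K (jqNModC K 1))) =
              algebraMap ↥(Algebra.adjoin R {(oneHostB K q : ↥K⟮jqNModC K 1⟯ →+*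
                ↥(keyFw K (1 * q) 1)) (AdjoinSimple.gen K (jqNModC K 1))}) _
                ⟨_, Algebra.self_mem_adjoin_singleton R _⟩ := rfl
          rw [h1]
          exact isIntegral_algebraMap,
        by
          have h1 : ((oneHostA K q : ↥K⟮jqNModC K 1⟯ →+* ↥(keyFw K (1 * q) 1))
              (AdjoinSimple.gen K (jqNModC K 1))) =
              algebraMap ↥(Algebra.adjoin R {(oneHostA K q : ↥K⟮jqNModC K 1⟯ →+*
                ↥(keyFw K (1 * q) 1)) (AdjoinSimple.gen K (jqNModC K 1))}) _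
                ⟨_, Algebra.self_mem_adjoin_singleton R _⟩ := rfl
          rw [h1]
          exact isIntegral_algebraMap,
        hk0, hkinf⟩
      cuspord := fun V hR hπV hj => (hcusp V hR hπV).1 hj
      cuspord' := fun V hR hπV hj => (hcusp V hR hπV).2 hj
      const := model1_const K
      unit := ⟨oneUnit K q, c, hc, oneUnit_ne_zero K q, oneUnit_mem_oneWinf R K q,
        oneUnit_inv_mem_oneWinf R K q, hU1, hU2, (isIntegral_oneUnit K q).1,
        (isIntegral_oneUnit K q).2⟩ }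

end Final

end

end Fermat.Agent.MW
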