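import Mathlib
import Fermat.Agent.MW.NADIC_helper1_Model1Unit
import Fermat.Agent.S35.FROBKRON_helper6_Key

/-!
# Project MW (S17) — [N-ADIC] / [MODEL1] helper1, part 5: bridges

* `model1_keyFw_eq_keyFq` : `keyFw K n 1 = keyFq K n` inside `K⸨x⸩`;
* the series of `A j`, `B j`;
* the sheets of `ssModelOne` against `keyFqWinf`, `keyFqW0` (S35/FROBKRON) through `oneIso`.
-/

set_option autoImplicit false
set_option linter.unusedSectionVars false
set_option linter.unusedVariables false
set_option linter.style.haveILetI false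
set_option synthInstance.maxHeartbeats 200000

open Polynomial ModularCurve IntermediateField

namespace Fermat.Agent.MW

open Fermat.Agent.JA Fermat.Agent.Igusa Fermat.Agent.SS Fermat.Agent.X0N Fermat.Agent.S35

open scoped Fermat.Agent.JA.Host

noncomputable section

section Bridge

variable (R : Type*) [CommRing R] [IsDomain R] [IsDiscreteValuationRing R] [CharZero R]
  (K : Type*) [Field K] [Algebra R K] [IsFractionRing R K] [Algebra ℚ K] [Algebra K ℂ]
  (q : ℕ) [NeZero q] [NeZero (1 * q)] {x y : ℤ} {π : R}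

omit [Algebra K ℂ] in
/-- the host with `w = 1` is the function field itself. -/
theorem model1_keyFw_eq_keyFq (n : ℕ) : keyFw K n 1 = keyFq K n := by
  show (keyFq K n).map (qExpandAlgHomC K 1) = keyFq K n
  have h1 : qExpandAlgHomC K 1 = AlgHom.id K (LaurentSeries K) :=
    AlgHom.ext fun f => by
      rw [qExpandAlgHomC_apply, qExpand_one_apply]
      rfl
  rw [h1, IntermediateField.map_id]

omit [Algebra K ℂ] in
/-- the series of `A j`. -/
theorem coe_oneHostA_gen :
    (((oneHostA K q : ↥K⟮jqNModC K 1⟯ →+* ↥(keyFw K (1 * q) 1))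
      (AdjoinSimple.gen K (jqNModC K 1)) : ↥(keyFw K (1 * q) 1)) : LaurentSeries K) =
      jqModC K := by
  show qExpand K 1 (jqModC K) = jqModC K
  exact qExpand_one_apply _

omit [Algebra K ℂ] in
/-- the series of `B j`. -/
theorem coe_oneHostB_gen :
    (((oneHostB K q : ↥K⟮jqNModC K 1⟯ →+* ↥(keyFw K (1 * q) 1))
      (AdjoinSimple.gen K (jqNModC K 1)) : ↥(keyFw K (1 * q) 1)) : LaurentSeries K) =
      qExpand K q (jqModC K) := by
  show qExpand K q (qExpand K 1 (jqModC K)) = qExpand K q (jqModC K)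
  rw [qExpand_one_apply]

variable {q}

/-- `W_∞` of the model is `keyFqWinf` through `oneIso`. -/
theorem oneWinf_comap_oneIso :
    (oneWinf R K q).comap (oneIso K q : ↥(keyFq K (1 * q)) →+* ↥(keyFw K (1 * q) 1)) =
      keyFqWinf R K (1 * q) := by
  ext f
  exact oneIso_mem_oneWinf_iff R K f

/-- `W_0` of the model is `keyFqW0` through `oneIso`. -/
theorem oneW0_comap_oneIso (h : (q : ℤ) * x + ((1 : ℕ) : ℤ) * y = 1) (hq : q.Prime) :
    (oneW0 R K h hq).comap (oneIso K q : ↥(keyFq K (1 * q)) →+* ↥(keyFw K (1 * q) 1)) =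
      keyFqW0 R K (algebraMap K ℂ) h hq := by
  ext f
  exact oneIso_mem_oneW0_iff R K h hq f

/-- the Atkin–Lehner involution of `keyFw K (1 * q) 1` is that of `F_q` through `oneIso`. -/
theorem alHost_oneIso (h : (q : ℤ) * x + ((1 : ℕ) : ℤ) * y = 1) (hq : q.Prime)
    (f : ↥(keyFq K (1 * q))) :
    alHost K (algebraMap K ℂ) 1 h hq (oneIso K q f) =
      oneIso K q (atkinLehnerN (algebraMap K ℂ) h hq f) :=
  alHost_hostImageEquiv K (algebraMap K ℂ) 1 h hq f

/-- membership in `W_0`: the Atkin–Lehner transform is Gauss-integral. -/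
theorem mem_oneW0_iff (h : (q : ℤ) * x + ((1 : ℕ) : ℤ) * y = 1) (hq : q.Prime)
    (z : ↥(keyFw K (1 * q) 1)) :
    z ∈ oneW0 R K h hq ↔ alHost K (algebraMap K ℂ) 1 h hq z ∈ oneWinf R K q := by
  obtain ⟨f, rfl⟩ := (oneIso K q).surjective z
  rw [oneIso_mem_oneW0_iff, alHost_oneIso, oneIso_mem_oneWinf_iff]

end Bridge

end

end Fermat.Agent.MW
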