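import Mathlib
import Fermat.Agent.MW.NADIC_helper1_LimVal
import Fermat.Agent.MW.NADIC_helper1_Model1Bridge

/-!
# Project MW (S17) — [N-ADIC] / [LIM-VAL] helper1, part 3: the dictionary on the host side

`ssModelOne` lives on `E₁ = keyFw K₁ (1 * q) 1`.  The comparison map with the function field over
`Ω` is `limPhi q K₁ = keyFqBC (1 * q) K₁ ∘ (oneIso K₁ q)⁻¹ : E₁ →+* FunN (1 * q)` (coefficientwise
base change of `q`-expansions).  `ptResW q K₁ Q` is the restriction of the point `Q` to `E₁`.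

(V1) `ord_ptResW`, (V2) `hasValueAt_ptResW_iff`, `valN_limPhi`, (V3) `exists_galBase_descentW`,
(V4) `exists_ptResW_eq`, `ptResW_injOn_rational`.
-/

set_option autoImplicit false
set_option linter.unusedSectionVars false
set_option linter.unusedVariables false
set_option linter.style.haveILetI false

open HahnSeries IntermediateField AlgebraicCurve ModularCurve

namespace Fermat.Agent.MW

open Fermat.Agent.JA Fermat.Agent.FF Fermat.Agent.SS Fermat.Agent.Igusa Fermat.Agent.X0N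

noncomputable section

/-- `Ω = AlgebraicClosure ℚ`. -/
local notation "Ω" => AlgebraicClosure ℚ

variable (q : ℕ) [NeZero q] [NeZero (1 * q)] (K₁ : IntermediateField ℚ Ω)

/-- the comparison map `keyFw K₁ (1 * q) 1 → FunN (1 * q)` (coefficientwise base change). -/
def limPhi : ↥(keyFw ↥K₁ (1 * q) 1) →+* FunN (1 * q) :=
  (keyFqBC (1 * q) K₁).comp
    (((oneIso ↥K₁ q).symm : ↥(keyFw ↥K₁ (1 * q) 1) ≃ₐ[↥K₁] ↥(keyFq ↥K₁ (1 * q))) :
      ↥(keyFw ↥K₁ (1 * q) 1) →+* ↥(keyFq ↥K₁ (1 * q)))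

theorem limPhi_apply (x : ↥(keyFw ↥K₁ (1 * q) 1)) :
    limPhi q K₁ x = keyFqBC (1 * q) K₁ ((oneIso ↥K₁ q).symm x) := rfl

theorem limPhi_oneIso (f : ↥(keyFq ↥K₁ (1 * q))) :
    limPhi q K₁ (oneIso ↥K₁ q f) = keyFqBC (1 * q) K₁ f := by
  rw [limPhi_apply, AlgEquiv.symm_apply_apply]

/-- `limPhi` is the coefficientwise base change of the `q`-expansion. -/
theorem coe_limPhi (x : ↥(keyFw ↥K₁ (1 * q) 1)) :
    ((limPhi q K₁ x : FunN (1 * q)) : LaurentSeries Ω) =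
      coeffMap (algebraMap ↥K₁ Ω) (x : LaurentSeries ↥K₁) := by
  letI : Algebra ↥K₁ ℂ :=
    (((IsAlgClosed.lift : Ω →ₐ[ℚ] ℂ) : Ω →+* ℂ).comp (algebraMap ↥K₁ Ω)).toAlgebra
  obtain ⟨f, rfl⟩ := (oneIso ↥K₁ q).surjective x
  rw [limPhi_oneIso, coe_keyFqBC, coe_oneIso]

theorem limPhi_algebraMap (a : ↥K₁) :
    limPhi q K₁ (algebraMap ↥K₁ ↥(keyFw ↥K₁ (1 * q) 1) a) =
      algebraMap Ω (FunN (1 * q)) (algebraMap ↥K₁ Ω a) := by
  rw [limPhi_apply, AlgEquiv.commutes]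
  exact keyFqBC_algebraMap (1 * q) K₁ a

theorem range_limPhi : Set.range (limPhi q K₁) = Set.range (keyFqBC (1 * q) K₁) := by
  ext z
  constructor
  · rintro ⟨x, rfl⟩
    exact ⟨_, rfl⟩
  · rintro ⟨f, rfl⟩
    exact ⟨oneIso ↥K₁ q f, limPhi_oneIso q K₁ f⟩

theorem closure_range_limPhi :
    Subfield.closure (Set.range (limPhi q K₁) ∪ Set.range (algebraMap Ω (FunN (1 * q)))) = ⊤ := by
  rw [range_limPhi]
  exact closure_range_keyFqBC (1 * q) K₁

/-- **(V1)** the restriction of a point of `X₀(q)` to the host field over `K₁`. -/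
def ptResW (Q : PtN (1 * q)) : Place ↥K₁ ↥(keyFw ↥K₁ (1 * q) 1) :=
  restrictBC (limPhi q K₁) (limPhi_algebraMap q K₁) (closure_range_limPhi q K₁) Q

variable {q K₁}

/-- **(V1)** orders are computed over the small field. -/
theorem ord_ptResW (Q : PtN (1 * q)) (x : ↥(keyFw ↥K₁ (1 * q) 1)) :
    (ptResW q K₁ Q).ord x = Q.ord (limPhi q K₁ x) :=
  ord_restrictBC _ _ _ Q x

theorem mem_ptResW_iff (Q : PtN (1 * q)) (x : ↥(keyFw ↥K₁ (1 * q) 1)) :
    x ∈ (ptResW q K₁ Q).toValuationSubring ↔ limPhi q K₁ x ∈ Q.toValuationSubring :=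
  mem_restrictBC_iff _ _ _ Q x

/-- **(V2)** values are computed over the small field. -/
theorem hasValueAt_ptResW_iff (Q : PtN (1 * q)) (x : ↥(keyFw ↥K₁ (1 * q) 1)) (c : ↥K₁) :
    HasValueAt (ptResW q K₁ Q) x c ↔ HasValueAt Q (limPhi q K₁ x) (c : Ω) :=
  hasValueAt_resBC_iff _ _ _ Q x c

/-- **(V2)** the value at `Q` of a function defined over `K₁`. -/
theorem valN_limPhi (Q : PtN (1 * q)) {x : ↥(keyFw ↥K₁ (1 * q) 1)} {c : ↥K₁}
    (h : HasValueAt (ptResW q K₁ Q) x c) : valN (1 * q) Q (limPhi q K₁ x) = (c : Ω) :=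
  valueAt_resBC _ _ _ Q h

/-- the two restrictions correspond under `oneIso`. -/
theorem mem_ptResW_oneIso_iff (Q : PtN (1 * q)) (f : ↥(keyFq ↥K₁ (1 * q))) :
    oneIso ↥K₁ q f ∈ (ptResW q K₁ Q).toValuationSubring ↔
      f ∈ (ptRes (1 * q) K₁ Q).toValuationSubring := by
  rw [mem_ptResW_iff, mem_ptRes_iff, limPhi_oneIso]

theorem ord_ptResW_oneIso (Q : PtN (1 * q)) (f : ↥(keyFq ↥K₁ (1 * q))) :
    (ptResW q K₁ Q).ord (oneIso ↥K₁ q f) = (ptRes (1 * q) K₁ Q).ord f := by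
  rw [ord_ptResW, ord_ptRes, limPhi_oneIso]

/-- rationality does not depend on the side. -/
theorem isRationalPlace_ptResW_iff (Q : PtN (1 * q)) :
    IsRationalPlace (ptResW q K₁ Q) ↔ IsRationalPlace (ptRes (1 * q) K₁ Q) := by
  constructor
  · intro h f hf
    obtain ⟨c, hc⟩ := h (oneIso ↥K₁ q f) ((mem_ptResW_oneIso_iff Q f).mpr hf)
    refine ⟨c, ?_⟩
    have e : oneIso ↥K₁ q f - algebraMap ↥K₁ _ c = oneIso ↥K₁ q (f - algebraMap ↥K₁ _ c) := by
      rw [map_sub, AlgEquiv.commutes]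
    rw [e] at hc
    rcases hc with hc | hc
    · exact Or.inl ((map_eq_zero_iff _ (oneIso ↥K₁ q).injective).mp hc)
    · exact Or.inr (by rwa [ord_ptResW_oneIso] at hc)
  · intro h x hx
    obtain ⟨f, rfl⟩ := (oneIso ↥K₁ q).surjective x
    obtain ⟨c, hc⟩ := h f ((mem_ptResW_oneIso_iff Q f).mp hx)
    refine ⟨c, ?_⟩
    have e : oneIso ↥K₁ q f - algebraMap ↥K₁ _ c = oneIso ↥K₁ q (f - algebraMap ↥K₁ _ c) := by
      rw [map_sub, AlgEquiv.commutes]
    rw [e]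
    rcases hc with hc | hc
    · exact Or.inl (by rw [hc, map_zero])
    · exact Or.inr (by rwa [ord_ptResW_oneIso])

/-- **(V4)** a point rational over `K₁` is determined by its restriction. -/
theorem ptResW_injOn_rational {Q Q' : PtN (1 * q)} (hrat : IsRationalPlace (ptResW q K₁ Q))
    (h : ptResW q K₁ Q = ptResW q K₁ Q') : Q = Q' :=
  restrictBC_injOn_rational _ _ _ Q Q' hrat h

/-- **(V4)** every place of the host field over `K₁` is the restriction of a point. -/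
theorem exists_ptResW_eq (P₁ : Place ↥K₁ ↥(keyFw ↥K₁ (1 * q) 1)) :
    ∃ Q : PtN (1 * q), ptResW q K₁ Q = P₁ :=
  exists_restrictBC_eq _ _ _ P₁

/-- at a point rational over `K₁`, every function over `K₁` regular there has its value in
`K₁`. -/
theorem exists_valN_limPhi_eq (Q : PtN (1 * q)) (hrat : IsRationalPlace (ptResW q K₁ Q))
    {x : ↥(keyFw ↥K₁ (1 * q) 1)} (hx : x ∈ (ptResW q K₁ Q).toValuationSubring) :
    ∃ c : ↥K₁, HasValueAt (ptResW q K₁ Q) x c ∧ valN (1 * q) Q (limPhi q K₁ x) = (c : Ω) := by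
  obtain ⟨c, hc⟩ := hrat.exists_hasValueAt hx
  exact ⟨c, hc, valN_limPhi Q hc⟩

/-- **(V3) descent (T0)** on the host side: finitely many functions on `X₀(q)`, finitely many
constants and finitely many points are defined (resp. rational) over a common Galois base. -/
theorem exists_galBase_descentW {ℓ : ℕ} {K₀ : IntermediateField ℚ Ω} (hK₀ : IsBase ℓ K₀)
    (t : Finset Ω) {ι : Type*} [Fintype ι] (f : ι → FunN (1 * q)) (s : Finset (PtN (1 * q))) :
    ∃ K₁ : IntermediateField ℚ Ω, IsGalBase ℓ K₁ ∧ K₀ ≤ K₁ ∧ (∀ c ∈ t, c ∈ K₁) ∧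
      (∀ i, ∃ x : ↥(keyFw ↥K₁ (1 * q) 1), limPhi q K₁ x = f i) ∧
      ∀ P ∈ s, IsRationalPlace (ptResW q K₁ P) := by
  obtain ⟨K₁, hK₁, hle, ht, hf, hs⟩ := exists_galBase_descent (L := 1 * q) hK₀ t f s
  refine ⟨K₁, hK₁, hle, ht, fun i => ?_, fun P hP => (isRationalPlace_ptResW_iff P).mpr (hs P hP)⟩
  obtain ⟨f₁, hf₁⟩ := hf i
  exact ⟨oneIso ↥K₁ q f₁, by rw [limPhi_oneIso, hf₁]⟩

end

end Fermat.Agent.MW
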