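import Mathlib
import Fermat.Agent.MW.NADIC_helper1_GaussV
import Fermat.Agent.MW.NADIC_helper1_LimW
import Fermat.Agent.SS.BASE_helper1_Leg
import Fermat.Agent.TW.Kill_helper1_Frob

/-!
# Project MW (S17) — [N-ADIC] / [LIM-VAL] helper1, part 5: the two sheet norms on `FunN`

`p` a prime, `A = padicPlace p ⊂ Ω`.  For `f ∈ FunN L`, `sheetNorm0 p L f = log |c|_p` for any
constant `c` such that `c⁻¹ f` is a Gauss unit of `Ω((q))` relative to `A` (`IsSheetConst`); this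
is the logarithm of the Gauss norm of `f` on the sheet `C_∞`.  On `FunN (1 * q)`,
`sheetNorm1 p h hq f = sheetNorm0 (W_q f)` (sheet `C_0`).

* `sheetNorm0_eq`, `exists_isSheetConst` (existence by descent to a base), `sheetNorm0_smul`,
  `sheetNorm0_add_le`, `sheetNorm0_mul`, `sheetNorm0_inv`, `sheetNorm0_algebraMap`;
* `alOm` : the Atkin–Lehner involution over `Ω`, `alOm_keyFqBC`, `alOm_limPhi`;
* the links with the level-one model: `sheetNorm0_limPhi`, `sheetNorm1_limPhi`.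
-/

set_option autoImplicit false
set_option linter.unusedSectionVars false
set_option linter.unusedVariables false
set_option linter.style.haveILetI false
set_option synthInstance.maxHeartbeats 200000

open HahnSeries IntermediateField AlgebraicCurve ModularCurve

namespace Fermat.Agent.MW

open Fermat.Agent.JA Fermat.Agent.FF Fermat.Agent.SS Fermat.Agent.Igusa Fermat.Agent.X0N

noncomputable section

/-- `Ω = AlgebraicClosure ℚ`. -/
local notation "Ω" => AlgebraicClosure ℚ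

section Base

variable (p : Nat.Primes) (K₁ : IntermediateField ℚ Ω)
  [IsDiscreteValuationRing ↥(baseRing (padicPlace (p : ℕ)) K₁)]

/-- **descent of Gauss constants**: a series over `K₁` which is `c ·` (unit of the Gauss ring of
`R₁`) has Gauss constant `c` over `Ω`. -/
theorem isSheetConst_coeffMap {x : LaurentSeries ↥K₁} {c : ↥K₁} (hc : c ≠ 0) (hx0 : x ≠ 0)
    (h1 : HahnSeries.C c⁻¹ * x ∈ gaussInt ↥(baseRing (padicPlace (p : ℕ)) K₁) ↥K₁)
    (h2 : (HahnSeries.C c⁻¹ * x)⁻¹ ∈ gaussInt ↥(baseRing (padicPlace (p : ℕ)) K₁) ↥K₁) :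
    IsSheetConst (padicPlace (p : ℕ)) (coeffMap (algebraMap ↥K₁ Ω) x) ((c : ↥K₁) : Ω) := by
  have hc' : ((c : ↥K₁) : Ω) ≠ 0 := fun h => hc (Subtype.ext h)
  refine ⟨hc', ?_⟩
  have hy0 : HahnSeries.C c⁻¹ * x ≠ 0 :=
    mul_ne_zero ((map_ne_zero_iff _ HahnSeries.C_injective).mpr (inv_ne_zero hc)) hx0
  have h := isGaussUnitV_coeffMap (padicPlace (p : ℕ)) ↥(baseRing (padicPlace (p : ℕ)) K₁) ↥K₁
    (algebraMap ↥K₁ Ω) (baseIncl (padicPlace (p : ℕ)) K₁) (fun r => rfl) hy0 h1 h2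
  rw [map_mul, coeffMapV_C, map_inv₀] at h
  exact h

end Base

section Norm0

variable (p : Nat.Primes) (L : ℕ) [NeZero L]

open Classical in
/-- **the logarithm of the Gauss norm on the sheet `C_∞`**. -/
def sheetNorm0 (f : FunN L) : ℝ :=
  if h : ∃ c : Ω, IsSheetConst (padicPlace (p : ℕ)) ((f : FunN L) : LaurentSeries Ω) c then
    lg (some p) (Classical.choose h) else 0

variable {p L}

theorem absv_div_le_one_of_mem {c c' : Ω} (hc : c ≠ 0) (h : c' / c ∈ padicPlace (p : ℕ)) :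
    absv (some p) c' ≤ absv (some p) c := by
  rw [mem_padicPlace_iff_absv, absv_div, div_le_one (absv_pos hc)] at h
  exact h

theorem lg_le_of_div_mem {c c' : Ω} (hc : c ≠ 0) (hc' : c' ≠ 0)
    (h : c' / c ∈ padicPlace (p : ℕ)) : lg (some p) c' ≤ lg (some p) c :=
  Real.log_le_log (absv_pos hc') (absv_div_le_one_of_mem hc h)

theorem lg_eq_of_isSheetConst {x : LaurentSeries Ω} {c c' : Ω}
    (h : IsSheetConst (padicPlace (p : ℕ)) x c) (h' : IsSheetConst (padicPlace (p : ℕ)) x c') :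
    lg (some p) c = lg (some p) c' :=
  le_antisymm (lg_le_of_div_mem h'.1 h.1 (h'.div_mem h)) (lg_le_of_div_mem h.1 h'.1 (h.div_mem h'))

/-- the sheet norm is computed by any Gauss constant. -/
theorem sheetNorm0_eq {f : FunN L} {c : Ω}
    (h : IsSheetConst (padicPlace (p : ℕ)) ((f : FunN L) : LaurentSeries Ω) c) :
    sheetNorm0 p L f = lg (some p) c := by
  have hex : ∃ c : Ω, IsSheetConst (padicPlace (p : ℕ)) ((f : FunN L) : LaurentSeries Ω) c :=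
    ⟨c, h⟩
  unfold sheetNorm0
  rw [dif_pos hex]
  exact lg_eq_of_isSheetConst (Classical.choose_spec hex) h

/-- **existence of the Gauss constant** (descent to a base, where the ring is a discrete
valuation ring). -/
theorem exists_isSheetConst {f : FunN L} (hf : f ≠ 0) :
    ∃ c : Ω, IsSheetConst (padicPlace (p : ℕ)) ((f : FunN L) : LaurentSeries Ω) c := by
  classical
  obtain ⟨K₁, hK₁, -, -, hdesc, -⟩ := exists_galBase_descent (L := L) (q := (p : ℕ))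
    (isBase_flatBase (ℓ := (p : ℕ))) ∅ (fun _ : Unit => f) ∅
  obtain ⟨f₁, hf₁⟩ := hdesc ()
  have hA : (padicPlace (p : ℕ)).LiesOverPrime (p : ℕ) :=
    Fermat.Agent.TW.Kill.padicPlace_liesOverPrime (p : ℕ)
  haveI : IsDiscreteValuationRing ↥(baseRing (padicPlace (p : ℕ)) K₁) :=
    hK₁.isBase.isDiscreteValuationRing hA
  obtain ⟨ϖ, hϖ⟩ := IsDiscreteValuationRing.exists_irreducible ↥(baseRing (padicPlace (p : ℕ)) K₁)
  have hf₁0 : (f₁ : LaurentSeries ↥K₁) ≠ 0 := by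
    intro h0
    apply hf
    have : f₁ = 0 := Subtype.ext h0
    rw [← hf₁, this, map_zero]
  have hgf : (f₁ : LaurentSeries ↥K₁) ∈ gaussField ↥(baseRing (padicPlace (p : ℕ)) K₁) ↥K₁ :=
    laurentBaseChange_full_le_gaussField ↥(baseRing (padicPlace (p : ℕ)) K₁) ↥K₁ L f₁.2
  obtain ⟨n, u, hu, hu', hxu⟩ := exists_zpow_mul_unit hϖ hgf hf₁0
  set c : ↥K₁ := (algebraMap ↥(baseRing (padicPlace (p : ℕ)) K₁) ↥K₁ ϖ) ^ n with hcdef
  have hϖ0 : algebraMap ↥(baseRing (padicPlace (p : ℕ)) K₁) ↥K₁ ϖ ≠ 0 := by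
    intro h0
    exact hϖ.ne_zero ((map_eq_zero_iff _
      (IsFractionRing.injective ↥(baseRing (padicPlace (p : ℕ)) K₁) ↥K₁)).mp h0)
  have hc : c ≠ 0 := zpow_ne_zero _ hϖ0
  have hCu : HahnSeries.C c⁻¹ * (f₁ : LaurentSeries ↥K₁) = u := by
    rw [hxu, hcdef, map_inv₀, map_zpow₀, ← mul_assoc, inv_mul_cancel₀, one_mul]
    exact zpow_ne_zero _ ((map_ne_zero_iff _ HahnSeries.C_injective).mpr hϖ0)
  refine ⟨((c : ↥K₁) : Ω), ?_⟩
  have h := isSheetConst_coeffMap p K₁ hc hf₁0 (by rw [hCu]; exact hu) (by rw [hCu]; exact hu')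
  rw [← coe_keyFqBC, hf₁] at h
  exact h

theorem sheetNorm0_isSheetConst {f : FunN L} (hf : f ≠ 0) :
    ∃ c : Ω, IsSheetConst (padicPlace (p : ℕ)) ((f : FunN L) : LaurentSeries Ω) c ∧
      sheetNorm0 p L f = lg (some p) c := by
  obtain ⟨c, hc⟩ := exists_isSheetConst (p := p) hf
  exact ⟨c, hc, sheetNorm0_eq hc⟩

theorem coe_smul_funN (c : Ω) (f : FunN L) :
    ((c • f : FunN L) : LaurentSeries Ω) = HahnSeries.C c * (f : LaurentSeries Ω) := by
  rw [Algebra.smul_def, IntermediateField.coe_mul, IntermediateField.coe_algebraMap_apply,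
    algebraMap_laurentSeries_eq_single, ← HahnSeries.C_apply]

/-- homogeneity. -/
theorem sheetNorm0_smul (c : Ω) (f : FunN L) (hc : c ≠ 0) (hf : f ≠ 0) :
    sheetNorm0 p L (c • f) = lg (some p) c + sheetNorm0 p L f := by
  obtain ⟨d, hd, hfd⟩ := sheetNorm0_isSheetConst (p := p) hf
  have h := hd.C_mul hc
  rw [← coe_smul_funN] at h
  rw [sheetNorm0_eq h, hfd, lg_mul (some p) hc hd.1]

/-- the sheet norm of a nonzero constant. -/
theorem sheetNorm0_algebraMap {c : Ω} (hc : c ≠ 0) :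
    sheetNorm0 p L (algebraMap Ω (FunN L) c) = lg (some p) c := by
  have e : algebraMap Ω (FunN L) c = c • (1 : FunN L) := by
    rw [Algebra.smul_def, mul_one]
  have h1 : IsSheetConst (padicPlace (p : ℕ)) (((1 : FunN L) : FunN L) : LaurentSeries Ω) 1 := by
    rw [IntermediateField.coe_one]
    exact isSheetConst_one
  rw [e, sheetNorm0_smul c 1 hc (one_ne_zero : (1 : FunN L) ≠ 0), sheetNorm0_eq h1, lg_one, add_zero]

/-- multiplicativity. -/
theorem sheetNorm0_mul {f g : FunN L} (hf : f ≠ 0) (hg : g ≠ 0) :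
    sheetNorm0 p L (f * g) = sheetNorm0 p L f + sheetNorm0 p L g := by
  obtain ⟨c, hc, hfc⟩ := sheetNorm0_isSheetConst (p := p) hf
  obtain ⟨d, hd, hgd⟩ := sheetNorm0_isSheetConst (p := p) hg
  have h := hc.mul hd
  rw [← IntermediateField.coe_mul] at h
  rw [sheetNorm0_eq h, hfc, hgd, lg_mul (some p) hc.1 hd.1]

theorem sheetNorm0_inv {f : FunN L} (hf : f ≠ 0) :
    sheetNorm0 p L f⁻¹ = -sheetNorm0 p L f := by
  obtain ⟨c, hc, hfc⟩ := sheetNorm0_isSheetConst (p := p) hf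
  have h := hc.inv
  rw [← IntermediateField.coe_inv] at h
  rw [sheetNorm0_eq h, hfc, lg_inv]

/-- the ultrametric inequality. -/
theorem sheetNorm0_add_le {f g : FunN L} (hf : f ≠ 0) (hg : g ≠ 0) (hfg : f + g ≠ 0) :
    sheetNorm0 p L (f + g) ≤ max (sheetNorm0 p L f) (sheetNorm0 p L g) := by
  obtain ⟨c, hc, hfc⟩ := sheetNorm0_isSheetConst (p := p) hf
  obtain ⟨d, hd, hgd⟩ := sheetNorm0_isSheetConst (p := p) hg
  obtain ⟨e, he, hfge⟩ := sheetNorm0_isSheetConst (p := p) hfg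
  rw [IntermediateField.coe_add] at he
  rw [hfc, hgd, hfge]
  rcases (padicPlace (p : ℕ)).mem_or_inv_mem (d / c) with h | h
  · exact le_max_of_le_left (lg_le_of_div_mem hc.1 he.1 (hc.add_div_mem hd he h))
  · rw [inv_div] at h
    rw [add_comm] at he
    exact le_max_of_le_right (lg_le_of_div_mem hd.1 he.1 (hd.add_div_mem hc he h))

end Norm0

section AL

/-- the complex embedding of `Ω` used by `baseToComplex`. -/
def omToC : Ω →+* ℂ := ((IsAlgClosed.lift : Ω →ₐ[ℚ] ℂ) : Ω →+* ℂ)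

variable {M q : ℕ} [NeZero M] [NeZero q] [NeZero (M * q)] {x y : ℤ}

/-- the Atkin–Lehner involution `W_q` of `X₀(Mq)` over `Ω`. -/
def alOm (h : (q : ℤ) * x + M * y = 1) (hq : q.Prime) : FunN (M * q) →+* FunN (M * q) :=
  atkinLehnerN omToC h hq

theorem alOm_alOm (h : (q : ℤ) * x + M * y = 1) (hq : q.Prime) (f : FunN (M * q)) :
    alOm h hq (alOm h hq f) = f :=
  atkinLehnerN_atkinLehnerN omToC h hq f

theorem alOm_algebraMap (h : (q : ℤ) * x + M * y = 1) (hq : q.Prime) (c : Ω) :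
    alOm h hq (algebraMap Ω (FunN (M * q)) c) = algebraMap Ω (FunN (M * q)) c :=
  atkinLehnerN_algebraMap omToC h hq c

theorem alOm_injective (h : (q : ℤ) * x + M * y = 1) (hq : q.Prime) :
    Function.Injective (alOm h hq) := (alOm h hq).injective

theorem alOm_smul (h : (q : ℤ) * x + M * y = 1) (hq : q.Prime) (c : Ω) (f : FunN (M * q)) :
    alOm h hq (c • f) = c • alOm h hq f := by
  rw [Algebra.smul_def, Algebra.smul_def, map_mul, alOm_algebraMap]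

/-- **the Atkin–Lehner involution commutes with the base change `K₁ → Ω`.** -/
theorem alOm_keyFqBC (K₁ : IntermediateField ℚ Ω) (h : (q : ℤ) * x + M * y = 1) (hq : q.Prime)
    (z : ↥(keyFq ↥K₁ (M * q))) :
    alOm h hq (keyFqBC (M * q) K₁ z) =
      keyFqBC (M * q) K₁ (atkinLehnerN (omToC.comp (algebraMap ↥K₁ Ω)) h hq z) := by
  induction z using induction_alpha_beta M q hq with
  | hconst c =>
    rw [atkinLehnerN_algebraMap, keyFqBC_algebraMap]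
    exact alOm_algebraMap h hq _
  | hα z =>
    have e1 : keyFqBC (M * q) K₁ (heckeAlphaBar ↥K₁ M q z) =
        heckeAlphaBar Ω M q (keyFqBC M K₁ z) := by
      apply Subtype.ext
      rw [coe_keyFqBC, coe_heckeAlphaBar, coe_heckeAlphaBar, coe_keyFqBC]
    have e2 : keyFqBC (M * q) K₁ (heckeBetaBar ↥K₁ M q z) =
        heckeBetaBar Ω M q (keyFqBC M K₁ z) := by
      apply Subtype.ext
      rw [coe_keyFqBC, coe_heckeBetaBar, coe_heckeBetaBar, coe_keyFqBC, coeffMap_qExpand]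
    rw [atkinLehnerN_alpha, e1, e2]
    exact atkinLehnerN_alpha omToC h hq _
  | hβ z =>
    have e1 : keyFqBC (M * q) K₁ (heckeAlphaBar ↥K₁ M q z) =
        heckeAlphaBar Ω M q (keyFqBC M K₁ z) := by
      apply Subtype.ext
      rw [coe_keyFqBC, coe_heckeAlphaBar, coe_heckeAlphaBar, coe_keyFqBC]
    have e2 : keyFqBC (M * q) K₁ (heckeBetaBar ↥K₁ M q z) =
        heckeBetaBar Ω M q (keyFqBC M K₁ z) := by
      apply Subtype.ext
      rw [coe_keyFqBC, coe_heckeBetaBar, coe_heckeBetaBar, coe_keyFqBC, coeffMap_qExpand]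
    rw [atkinLehnerN_beta, e1, e2]
    exact atkinLehnerN_beta omToC h hq _
  | hadd a b h1 h2 => rw [map_add, map_add, h1, h2, map_add, map_add]
  | hmul a b h1 h2 => rw [map_mul, map_mul, h1, h2, map_mul, map_mul]
  | hinv a h1 => rw [map_inv₀, map_inv₀, h1, map_inv₀, map_inv₀]

end AL

section Norm1

variable (p : Nat.Primes) {q : ℕ} [NeZero q] [NeZero (1 * q)] {x y : ℤ}

/-- **the logarithm of the Gauss norm on the sheet `C_0`** of `X₀(q)`. -/
def sheetNorm1 (h : (q : ℤ) * x + ((1 : ℕ) : ℤ) * y = 1) (hq : q.Prime) (f : FunN (1 * q)) : ℝ :=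
  sheetNorm0 p (1 * q) (alOm h hq f)

variable {p}
variable (h : (q : ℤ) * x + ((1 : ℕ) : ℤ) * y = 1) (hq : q.Prime)

theorem alOm_ne_zero {f : FunN (1 * q)} (hf : f ≠ 0) : alOm h hq f ≠ 0 :=
  (map_ne_zero_iff _ (alOm_injective h hq)).mpr hf

theorem sheetNorm1_smul (c : Ω) (f : FunN (1 * q)) (hc : c ≠ 0) (hf : f ≠ 0) :
    sheetNorm1 p h hq (c • f) = lg (some p) c + sheetNorm1 p h hq f := by
  unfold sheetNorm1
  rw [alOm_smul, sheetNorm0_smul c _ hc (alOm_ne_zero h hq hf)]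

theorem sheetNorm1_algebraMap {c : Ω} (hc : c ≠ 0) :
    sheetNorm1 p h hq (algebraMap Ω (FunN (1 * q)) c) = lg (some p) c := by
  unfold sheetNorm1
  rw [alOm_algebraMap, sheetNorm0_algebraMap hc]

theorem sheetNorm1_mul {f g : FunN (1 * q)} (hf : f ≠ 0) (hg : g ≠ 0) :
    sheetNorm1 p h hq (f * g) = sheetNorm1 p h hq f + sheetNorm1 p h hq g := by
  unfold sheetNorm1
  rw [map_mul, sheetNorm0_mul (alOm_ne_zero h hq hf) (alOm_ne_zero h hq hg)]

theorem sheetNorm1_inv {f : FunN (1 * q)} (hf : f ≠ 0) :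
    sheetNorm1 p h hq f⁻¹ = -sheetNorm1 p h hq f := by
  unfold sheetNorm1
  rw [map_inv₀, sheetNorm0_inv (alOm_ne_zero h hq hf)]

theorem sheetNorm1_add_le {f g : FunN (1 * q)} (hf : f ≠ 0) (hg : g ≠ 0) (hfg : f + g ≠ 0) :
    sheetNorm1 p h hq (f + g) ≤ max (sheetNorm1 p h hq f) (sheetNorm1 p h hq g) := by
  unfold sheetNorm1
  rw [map_add]
  refine sheetNorm0_add_le (alOm_ne_zero h hq hf) (alOm_ne_zero h hq hg) ?_
  rw [← map_add]
  exact alOm_ne_zero h hq hfg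

end Norm1

section Link

variable (p : Nat.Primes) {q : ℕ} [NeZero q] [NeZero (1 * q)] {x y : ℤ}
  (K₁ : IntermediateField ℚ Ω) [IsDiscreteValuationRing ↥(baseRing (padicPlace (p : ℕ)) K₁)]

/-- the series of `x · c⁻¹`. -/
theorem coe_mul_algebraMap_inv (z : ↥(keyFw ↥K₁ (1 * q) 1)) (c : ↥K₁) :
    ((z * (algebraMap ↥K₁ ↥(keyFw ↥K₁ (1 * q) 1) c)⁻¹ : ↥(keyFw ↥K₁ (1 * q) 1)) :
      LaurentSeries ↥K₁) = HahnSeries.C c⁻¹ * (z : LaurentSeries ↥K₁) := by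
  rw [IntermediateField.coe_mul, IntermediateField.coe_inv,
    IntermediateField.coe_algebraMap_apply, algebraMap_laurentSeries_eq_single,
    ← HahnSeries.C_apply, map_inv₀, mul_comm]

/-- **the link with the level-one model, sheet `C_∞`**: if `z · c⁻¹` is a unit of `W_∞`
(`c ∈ K₁` a nonzero constant), then the sheet norm of `limPhi z` is `log |c|`. -/
theorem sheetNorm0_limPhi {z : ↥(keyFw ↥K₁ (1 * q) 1)} {c : ↥K₁} (hc : c ≠ 0) (hz : z ≠ 0)
    (h1 : z * (algebraMap ↥K₁ ↥(keyFw ↥K₁ (1 * q) 1) c)⁻¹ ∈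
      oneWinf ↥(baseRing (padicPlace (p : ℕ)) K₁) ↥K₁ q)
    (h2 : (z * (algebraMap ↥K₁ ↥(keyFw ↥K₁ (1 * q) 1) c)⁻¹)⁻¹ ∈
      oneWinf ↥(baseRing (padicPlace (p : ℕ)) K₁) ↥K₁ q) :
    sheetNorm0 p (1 * q) (limPhi q K₁ z) = lg (some p) ((c : ↥K₁) : Ω) := by
  have hz0 : (z : LaurentSeries ↥K₁) ≠ 0 := fun h0 => hz (Subtype.ext h0)
  have g1 : HahnSeries.C c⁻¹ * (z : LaurentSeries ↥K₁) ∈
      gaussInt ↥(baseRing (padicPlace (p : ℕ)) K₁) ↥K₁ := by
    rw [← coe_mul_algebraMap_inv]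
    exact h1
  have g2 : (HahnSeries.C c⁻¹ * (z : LaurentSeries ↥K₁))⁻¹ ∈
      gaussInt ↥(baseRing (padicPlace (p : ℕ)) K₁) ↥K₁ := by
    rw [← coe_mul_algebraMap_inv, ← IntermediateField.coe_inv]
    exact h2
  have h := isSheetConst_coeffMap p K₁ hc hz0 g1 g2
  rw [← coe_limPhi] at h
  exact sheetNorm0_eq h

/-- the same with valuations. -/
theorem sheetNorm0_limPhi_of_valuation {z : ↥(keyFw ↥K₁ (1 * q) 1)} {c : ↥K₁} (hc : c ≠ 0)
    (hv : (oneWinf ↥(baseRing (padicPlace (p : ℕ)) K₁) ↥K₁ q).valuation z =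
      (oneWinf ↥(baseRing (padicPlace (p : ℕ)) K₁) ↥K₁ q).valuation
        (algebraMap ↥K₁ ↥(keyFw ↥K₁ (1 * q) 1) c)) :
    sheetNorm0 p (1 * q) (limPhi q K₁ z) = lg (some p) ((c : ↥K₁) : Ω) := by
  have hc' : algebraMap ↥K₁ ↥(keyFw ↥K₁ (1 * q) 1) c ≠ 0 :=
    (map_ne_zero_iff _ (algebraMap ↥K₁ ↥(keyFw ↥K₁ (1 * q) 1)).injective).mpr hc
  have hvc : (oneWinf ↥(baseRing (padicPlace (p : ℕ)) K₁) ↥K₁ q).valuation
      (algebraMap ↥K₁ ↥(keyFw ↥K₁ (1 * q) 1) c) ≠ 0 :=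
    (Valuation.ne_zero_iff _).mpr hc'
  have hz : z ≠ 0 := by
    rintro rfl
    rw [map_zero] at hv
    exact hvc hv.symm
  have hone : (oneWinf ↥(baseRing (padicPlace (p : ℕ)) K₁) ↥K₁ q).valuation
      (z * (algebraMap ↥K₁ ↥(keyFw ↥K₁ (1 * q) 1) c)⁻¹) = 1 := by
    rw [map_mul, map_inv₀, hv, mul_inv_cancel₀ hvc]
  refine sheetNorm0_limPhi p K₁ hc hz ?_ ?_
  · rw [← ValuationSubring.valuation_le_one_iff, hone]
  · rw [← ValuationSubring.valuation_le_one_iff, map_inv₀, hone, inv_one]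

variable (h : (q : ℤ) * x + ((1 : ℕ) : ℤ) * y = 1) (hq : q.Prime)

/-- `limPhi` intertwines the Atkin–Lehner involutions. -/
theorem alOm_limPhi (z : ↥(keyFw ↥K₁ (1 * q) 1)) :
    letI := baseToComplex K₁
    alOm h hq (limPhi q K₁ z) =
      limPhi q K₁ (alHost ↥K₁ (algebraMap ↥K₁ ℂ) 1 h hq z) := by
  letI := baseToComplex K₁
  obtain ⟨f, rfl⟩ := (oneIso ↥K₁ q).surjective z
  rw [alHost_oneIso, limPhi_oneIso, limPhi_oneIso, alOm_keyFqBC]
  rfl

/-- **the link with the level-one model, sheet `C_0`**. -/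
theorem sheetNorm1_limPhi {z : ↥(keyFw ↥K₁ (1 * q) 1)} {c : ↥K₁} (hc : c ≠ 0) (hz : z ≠ 0) :
    letI := baseToComplex K₁
    z * (algebraMap ↥K₁ ↥(keyFw ↥K₁ (1 * q) 1) c)⁻¹ ∈
      oneW0 ↥(baseRing (padicPlace (p : ℕ)) K₁) ↥K₁ h hq →
    (z * (algebraMap ↥K₁ ↥(keyFw ↥K₁ (1 * q) 1) c)⁻¹)⁻¹ ∈
      oneW0 ↥(baseRing (padicPlace (p : ℕ)) K₁) ↥K₁ h hq →
    sheetNorm1 p h hq (limPhi q K₁ z) = lg (some p) ((c : ↥K₁) : Ω) := by
  letI := baseToComplex K₁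
  intro h1 h2
  haveI : CharZero ↥(baseRing (padicPlace (p : ℕ)) K₁) := charZero_valuationSubring_of_algebraRat _
  rw [mem_oneW0_iff] at h1 h2
  have hal : ∀ c : ↥K₁, alHost ↥K₁ (algebraMap ↥K₁ ℂ) 1 h hq
      (algebraMap ↥K₁ ↥(keyFw ↥K₁ (1 * q) 1) c) = algebraMap ↥K₁ ↥(keyFw ↥K₁ (1 * q) 1) c := by
    intro c
    have e : algebraMap ↥K₁ ↥(keyFw ↥K₁ (1 * q) 1) c =
        oneIso ↥K₁ q (algebraMap ↥K₁ ↥(keyFq ↥K₁ (1 * q)) c) := ((oneIso ↥K₁ q).commutes c).symm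
    rw [e, alHost_oneIso, atkinLehnerN_algebraMap]
  have e1 : alHost ↥K₁ (algebraMap ↥K₁ ℂ) 1 h hq
      (z * (algebraMap ↥K₁ ↥(keyFw ↥K₁ (1 * q) 1) c)⁻¹) =
      alHost ↥K₁ (algebraMap ↥K₁ ℂ) 1 h hq z * (algebraMap ↥K₁ ↥(keyFw ↥K₁ (1 * q) 1) c)⁻¹ := by
    rw [map_mul, map_inv₀, hal]
  have e2 : alHost ↥K₁ (algebraMap ↥K₁ ℂ) 1 h hq
      (z * (algebraMap ↥K₁ ↥(keyFw ↥K₁ (1 * q) 1) c)⁻¹)⁻¹ =
      (alHost ↥K₁ (algebraMap ↥K₁ ℂ) 1 h hq z *
        (algebraMap ↥K₁ ↥(keyFw ↥K₁ (1 * q) 1) c)⁻¹)⁻¹ := by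
    rw [map_inv₀, e1]
  rw [e2] at h2
  rw [e1] at h1
  unfold sheetNorm1
  rw [alOm_limPhi]
  have hz' : alHost ↥K₁ (algebraMap ↥K₁ ℂ) 1 h hq z ≠ 0 :=
    (map_ne_zero_iff _ (alHost ↥K₁ (algebraMap ↥K₁ ℂ) 1 h hq).injective).mpr hz
  exact sheetNorm0_limPhi p K₁ hc hz' h1 h2

/-- the same with valuations. -/
theorem sheetNorm1_limPhi_of_valuation {z : ↥(keyFw ↥K₁ (1 * q) 1)} {c : ↥K₁} (hc : c ≠ 0) :
    letI := baseToComplex K₁
    (oneW0 ↥(baseRing (padicPlace (p : ℕ)) K₁) ↥K₁ h hq).valuation z =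
      (oneW0 ↥(baseRing (padicPlace (p : ℕ)) K₁) ↥K₁ h hq).valuation
        (algebraMap ↥K₁ ↥(keyFw ↥K₁ (1 * q) 1) c) →
    sheetNorm1 p h hq (limPhi q K₁ z) = lg (some p) ((c : ↥K₁) : Ω) := by
  letI := baseToComplex K₁
  intro hv
  have hc' : algebraMap ↥K₁ ↥(keyFw ↥K₁ (1 * q) 1) c ≠ 0 :=
    (map_ne_zero_iff _ (algebraMap ↥K₁ ↥(keyFw ↥K₁ (1 * q) 1)).injective).mpr hc
  have hvc : (oneW0 ↥(baseRing (padicPlace (p : ℕ)) K₁) ↥K₁ h hq).valuation
      (algebraMap ↥K₁ ↥(keyFw ↥K₁ (1 * q) 1) c) ≠ 0 :=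
    (Valuation.ne_zero_iff _).mpr hc'
  have hz : z ≠ 0 := by
    rintro rfl
    rw [map_zero] at hv
    exact hvc hv.symm
  have hone : (oneW0 ↥(baseRing (padicPlace (p : ℕ)) K₁) ↥K₁ h hq).valuation
      (z * (algebraMap ↥K₁ ↥(keyFw ↥K₁ (1 * q) 1) c)⁻¹) = 1 := by
    rw [map_mul, map_inv₀, hv, mul_inv_cancel₀ hvc]
  refine sheetNorm1_limPhi p K₁ h hq hc hz ?_ ?_
  · rw [← ValuationSubring.valuation_le_one_iff, hone]
  · rw [← ValuationSubring.valuation_le_one_iff, map_inv₀, hone, inv_one]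

end Link

end

end Fermat.Agent.MW
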