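import Mathlib
import Fermat.Agent.MW.NADIC_helper1_Sheet

/-!
# Project MW (S17) — [N-ADIC] / [LIM] helper1: the coordinates of the level-one model over `Ω`

The images under `limPhi` of the three global functions of `ssModelOne`:
`A j ↦ jBar (1 * q)`, `B j ↦ jqBar q` (`= j(qτ)`), `oneUnit ↦ unitBar q` (`= Δ(τ)/Δ(qτ)`), the action
of the Atkin–Lehner involution `alOm` on them, and the evaluation lemma turning a value formula over
`K₁` (as produced by the cell theorems) into an identity of logarithms of absolute values over `Ω`.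
-/

set_option autoImplicit false
set_option linter.unusedSectionVars false
set_option linter.unusedVariables false
set_option linter.style.haveILetI false
set_option synthInstance.maxHeartbeats 200000

open HahnSeries IntermediateField AlgebraicCurve ModularCurve

namespace Fermat.Agent.MW

open Fermat.Agent.JA Fermat.Agent.FF Fermat.Agent.SS Fermat.Agent.Igusa Fermat.Agent.X0N

noncomputable section

/-- `Ω = AlgebraicClosure ℚ`. -/
local notation "Ω" => AlgebraicClosure ℚ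

section Coord

variable (q : ℕ) [NeZero q] [NeZero (1 * q)] (K₁ : IntermediateField ℚ Ω)

/-- `j(qτ)` as a function on `X₀(q)` over `Ω`. -/
def jqBar : FunN (1 * q) := jdBar (k := Ω) (1 * q) (Dvd.intro_left 1 rfl : q ∣ 1 * q)

/-- the modular unit `Δ(τ)/Δ(qτ)` as a function on `X₀(q)` over `Ω`. -/
def unitBar : FunN (1 * q) := modUnit Ω (1 * q) q (Dvd.intro_left 1 rfl)

theorem coe_jqBar : ((jqBar q : FunN (1 * q)) : LaurentSeries Ω) = qExpand Ω q (jqModC Ω) := by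
  show coeffEmb Ω (qExpand ℚ q jq) = _
  rw [coeffEmb, coeffMap_qExpand]
  congr 1
  exact coeffEmb_jq_eq_jqModC Ω

theorem coe_unitBar :
    ((unitBar q : FunN (1 * q)) : LaurentSeries Ω) = coeffEmb Ω (modularUnitSeries q) :=
  coe_modUnit Ω (1 * q) q _

theorem unitBar_ne_zero : unitBar q ≠ 0 :=
  deltaRatio_ne_zero 1 q Ω (1 * q) (one_dvd _) (Dvd.intro_left 1 rfl)

/-- `limPhi (A j) = j`. -/
theorem limPhi_oneHostA_gen :
    limPhi q K₁ ((oneHostA ↥K₁ q : ↥(↥K₁)⟮jqNModC ↥K₁ 1⟯ →+* ↥(keyFw ↥K₁ (1 * q) 1))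
      (AdjoinSimple.gen ↥K₁ (jqNModC ↥K₁ 1))) = jBar (1 * q) := by
  apply Subtype.ext
  rw [coe_limPhi, coe_oneHostA_gen, coeffMap_jqModC, coe_jBar]
  exact (coeffEmb_jq_eq_jqModC Ω).symm

/-- `limPhi (B j) = j(qτ)`. -/
theorem limPhi_oneHostB_gen :
    limPhi q K₁ ((oneHostB ↥K₁ q : ↥(↥K₁)⟮jqNModC ↥K₁ 1⟯ →+* ↥(keyFw ↥K₁ (1 * q) 1))
      (AdjoinSimple.gen ↥K₁ (jqNModC ↥K₁ 1))) = jqBar q := by
  apply Subtype.ext
  rw [coe_limPhi, coe_oneHostB_gen, coeffMap_qExpand, coeffMap_jqModC, coe_jqBar]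

/-- `limPhi` of the modular unit. -/
theorem limPhi_oneUnit : limPhi q K₁ (oneUnit ↥K₁ q) = unitBar q := by
  letI : Algebra ↥K₁ ℂ := baseToComplex K₁
  apply Subtype.ext
  rw [coe_limPhi, coe_oneUnit, coeffMap_coeffEmb_hom, coe_unitBar]

end Coord

section ALCoord

variable {q : ℕ} [NeZero q] [NeZero (1 * q)] {x y : ℤ}
  (h : (q : ℤ) * x + ((1 : ℕ) : ℤ) * y = 1) (hq : q.Prime)

/-- `W_q j = j(qτ)`. -/
theorem alOm_jBar : alOm h hq (jBar (1 * q)) = jqBar q := by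
  have e1 : (jBar (1 * q) : FunN (1 * q)) = heckeAlphaBar Ω 1 q (jGen Ω 1) := by
    apply Subtype.ext
    rw [coe_heckeAlphaBar]
    rfl
  have e2 : (jqBar q : FunN (1 * q)) = heckeBetaBar Ω 1 q (jGen Ω 1) := by
    apply Subtype.ext
    rw [coe_heckeBetaBar, coe_jqBar]
    congr 1
    exact (coeffEmb_jq_eq_jqModC Ω).symm
  rw [e1, e2]
  exact atkinLehnerN_alpha omToC h hq _

/-- `W_q j(qτ) = j`. -/
theorem alOm_jqBar : alOm h hq (jqBar q) = jBar (1 * q) := by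
  rw [← alOm_jBar h hq, alOm_alOm]

/-- `W_q U = q^12 / U`. -/
theorem alOm_unitBar :
    alOm h hq (unitBar q) = algebraMap Ω (FunN (1 * q)) ((q : Ω) ^ 12) * (unitBar q)⁻¹ :=
  atkinLehnerN_modUnit omToC h hq

end ALCoord

section Eval

variable (p : Nat.Primes) {q : ℕ} [NeZero q] [NeZero (1 * q)] (K₁ : IntermediateField ℚ Ω)

/-- **evaluation**: a value formula over `K₁` at the restriction of the point `Q`, of the shape
`c · w · ∏ ξ_i ^ m_i` (`w` of absolute value one), gives the logarithm of the absolute value of the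
value over `Ω`. -/
theorem lg_valN_limPhi_of_hasValueAt (Q : PtN (1 * q)) {e : ↥(keyFw ↥K₁ (1 * q) 1)}
    {c w : ↥K₁} (hc : c ≠ 0) (hw : absv (some p) ((w : ↥K₁) : Ω) = 1)
    {ι : Type*} (T : Finset ι) (ξ : ι → ↥K₁) (m : ι → ℤ) (hξ : ∀ i ∈ T, ξ i ≠ 0)
    (h : HasValueAt (ptResW q K₁ Q) e (c * w * ∏ i ∈ T, ξ i ^ m i)) :
    lg (some p) (valN (1 * q) Q (limPhi q K₁ e)) =
      lg (some p) ((c : ↥K₁) : Ω) + ∑ i ∈ T, (m i : ℝ) * lg (some p) ((ξ i : ↥K₁) : Ω) := by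
  rw [valN_limPhi Q h]
  have hw0 : ((w : ↥K₁) : Ω) ≠ 0 := by
    intro h0
    rw [h0, absv_zero] at hw
    exact zero_ne_one hw
  have hc0 : ((c : ↥K₁) : Ω) ≠ 0 := fun h0 => hc (Subtype.ext h0)
  have e1 : (((c * w * ∏ i ∈ T, ξ i ^ m i : ↥K₁) : ↥K₁) : Ω) =
      ((c : ↥K₁) : Ω) * ((w : ↥K₁) : Ω) * ∏ i ∈ T, (((ξ i : ↥K₁) : Ω)) ^ m i := by
    have : ∀ z : ↥K₁, ((z : ↥K₁) : Ω) = algebraMap ↥K₁ Ω z := fun _ => rfl
    rw [this, map_mul, map_mul, map_prod]
    congr 1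
  have hprod0 : (∏ i ∈ T, (((ξ i : ↥K₁) : Ω)) ^ m i) ≠ 0 := by
    rw [Finset.prod_ne_zero_iff]
    intro i hi
    exact zpow_ne_zero _ (fun h0 => hξ i hi (Subtype.ext h0))
  have hlgw : lg (some p) ((w : ↥K₁) : Ω) = 0 := by
    unfold lg
    rw [hw, Real.log_one]
  rw [e1, lg_mul (some p) (mul_ne_zero hc0 hw0) hprod0, lg_mul (some p) hc0 hw0, hlgw, add_zero]
  congr 1
  have hlgprod : ∀ (S : Finset ι), (∀ i ∈ S, ξ i ≠ 0) →
      lg (some p) (∏ i ∈ S, (((ξ i : ↥K₁) : Ω)) ^ m i) =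
        ∑ i ∈ S, (m i : ℝ) * lg (some p) ((ξ i : ↥K₁) : Ω) := by
    classical
    intro S
    induction S using Finset.induction_on with
    | empty => intro _; simp
    | insert a S ha ih =>
      intro hS
      rw [Finset.prod_insert ha, Finset.sum_insert ha]
      have ha0 : (((ξ a : ↥K₁) : Ω)) ^ m a ≠ 0 :=
        zpow_ne_zero _ (fun h0 => hS a (Finset.mem_insert_self a S) (Subtype.ext h0))
      have hS0 : (∏ i ∈ S, (((ξ i : ↥K₁) : Ω)) ^ m i) ≠ 0 := by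
        rw [Finset.prod_ne_zero_iff]
        intro i hi
        exact zpow_ne_zero _ (fun h0 => hS i (Finset.mem_insert_of_mem hi) (Subtype.ext h0))
      rw [lg_mul (some p) ha0 hS0, lg_zpow, ih (fun i hi => hS i (Finset.mem_insert_of_mem hi))]
  exact hlgprod T hξ

end Eval

end

end Fermat.Agent.MW
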