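import Mathlib
import Fermat.Agent.MW.NADIC_helper1_Atlas
import Fermat.Agent.MW.NADIC_helper1_LimCoord

/-!
# Project MW (S17) — [N-ADIC] helper1, [CELLS]: the cells of `X₀(N)` at the place `N`, over `Ω`

The `Ω`-level description of the cells of the two-sheeted model of `X₀(N)` (level `1 * N`) at a
finite place `v = some p` (in the application `p = N`), in terms of the three functions
`j = jBar (1 * N)`, `j_N = jqBar N`, `U = unitBar N` (`Δ(τ)/Δ(Nτ)`) and of finitely many node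
coordinates `X_s` (`NodeCharts`):

* `IsFinPt Q` : `j` is regular at `Q` and `|j(Q)| ≤ 1` (the chart `j`);
* `KInf`, `KZero`, `KNode` : `|U(Q)| = 1`, `= |N^12|`, neither (the closed point lies only on `C_∞`,
  only on `C_0`, is a node);
* `KCuspInf`, `KCuspZero` : `¬ IsFinPt Q` and `|φ(Q)| = 1` resp. `< 1`, `φ = j_N / j^N`.

`DiscCF`, `NodeCF` : the cell formulas on the five kinds of cells, in resolved form (the targets of
the model side).  `NodeCharts.nAtlas` : the atlas (hence the `NCellSys2`) from them.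
-/

set_option autoImplicit false
set_option linter.unusedSectionVars false
set_option linter.unusedVariables false
set_option linter.style.haveILetI false
set_option linter.unreachableTactic false
set_option linter.unusedTactic false
set_option linter.unnecessarySeqFocus false

open scoped BigOperators

open AlgebraicCurve ModularCurve

namespace Fermat.Agent.MW

open Fermat.Agent.JA Fermat.Agent.FF Fermat.Agent.X0N

noncomputable section

/-- `Ω = AlgebraicClosure ℚ`. -/
local notation "Ω" => AlgebraicClosure ℚ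

section Defs

variable (p : Nat.Primes) (N : ℕ) [NeZero N] [NeZero (1 * N)]

/-- the value of `j` at a point. -/
def jv (Q : PtN (1 * N)) : Ω := valN (1 * N) Q (jBar (1 * N))

/-- the absolute value of `U = Δ(τ)/Δ(Nτ)` at a point. -/
def uabs (Q : PtN (1 * N)) : ℝ := absv (some p) (valN (1 * N) Q (unitBar N))

/-- `|N^12|`. -/
def nabs : ℝ := absv (some p) ((N : Ω) ^ 12)

/-- `φ = j_N / j^N`. -/
def phiBar : FunN (1 * N) := jqBar N * ((jBar (1 * N)) ^ N)⁻¹

/-- the absolute value of `φ` at a point. -/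
def phiabs (Q : PtN (1 * N)) : ℝ := absv (some p) (valN (1 * N) Q (phiBar N))

/-- the point lies on the chart `j`. -/
def IsFinPt (Q : PtN (1 * N)) : Prop :=
  0 ≤ Q.ord (jBar (1 * N)) ∧ absv (some p) (jv N Q) ≤ 1

/-- the point reduces to a closed point of the chart `j` lying only on `C_∞`. -/
def KInf (Q : PtN (1 * N)) : Prop := IsFinPt p N Q ∧ uabs p N Q = 1

/-- the point reduces to a closed point of the chart `j` lying only on `C_0`. -/
def KZero (Q : PtN (1 * N)) : Prop := IsFinPt p N Q ∧ uabs p N Q = nabs p N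

/-- the point reduces to a node. -/
def KNode (Q : PtN (1 * N)) : Prop :=
  IsFinPt p N Q ∧ uabs p N Q ≠ 1 ∧ uabs p N Q ≠ nabs p N

/-- the point reduces to the cusp `0` (on `C_0`). -/
def KCuspZero (Q : PtN (1 * N)) : Prop := ¬ IsFinPt p N Q ∧ phiabs p N Q < 1

/-- the point reduces to the cusp `∞` (on `C_∞`). -/
def KCuspInf (Q : PtN (1 * N)) : Prop := ¬ IsFinPt p N Q ∧ ¬ phiabs p N Q < 1

open Classical in
/-- the position on the skeleton: `log |U(Q)| / log |N^12|` clamped to `[0, 1]` on the chart `j`,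
`0` resp. `1` on the discs of the cusps `∞` resp. `0`. -/
def thetaN (Q : PtN (1 * N)) : ℝ :=
  if IsFinPt p N Q then
    max 0 (min 1 (lg (some p) (valN (1 * N) Q (unitBar N)) / lg (some p) ((N : Ω) ^ 12)))
  else if phiabs p N Q < 1 then 1 else 0

theorem thetaN_nonneg (Q : PtN (1 * N)) : 0 ≤ thetaN p N Q := by
  unfold thetaN
  split_ifs
  · exact le_max_left _ _
  · exact zero_le_one
  · exact le_rfl

theorem thetaN_le_one (Q : PtN (1 * N)) : thetaN p N Q ≤ 1 := by
  unfold thetaN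
  split_ifs
  · exact max_le zero_le_one (min_le_left _ _)
  · exact le_rfl
  · exact zero_le_one

variable {p N}

theorem thetaN_of_kInf {Q : PtN (1 * N)} (h : KInf p N Q) : thetaN p N Q = 0 := by
  unfold thetaN
  rw [if_pos h.1]
  have h1 : lg (some p) (valN (1 * N) Q (unitBar N)) = 0 := by
    unfold lg
    have := h.2
    unfold uabs at this
    rw [this, Real.log_one]
  rw [h1, zero_div, min_eq_right zero_le_one, max_self]

theorem thetaN_of_kZero (hlt : nabs p N < 1) (hpos : 0 < nabs p N) {Q : PtN (1 * N)}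
    (h : KZero p N Q) : thetaN p N Q = 1 := by
  unfold thetaN
  rw [if_pos h.1]
  have h1 : lg (some p) (valN (1 * N) Q (unitBar N)) = lg (some p) ((N : Ω) ^ 12) := by
    unfold lg
    have := h.2
    unfold uabs nabs at this
    rw [this]
  have h2 : lg (some p) ((N : Ω) ^ 12) ≠ 0 := by
    unfold lg
    have : Real.log (nabs p N) < 0 := Real.log_neg hpos hlt
    exact ne_of_lt this
  rw [h1, div_self h2, min_self, max_eq_right zero_le_one]

theorem thetaN_of_kCuspInf {Q : PtN (1 * N)} (h : KCuspInf p N Q) : thetaN p N Q = 0 := by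
  unfold thetaN
  rw [if_neg h.1, if_neg h.2]

theorem thetaN_of_kCuspZero {Q : PtN (1 * N)} (h : KCuspZero p N Q) : thetaN p N Q = 1 := by
  unfold thetaN
  rw [if_neg h.1, if_pos h.2]

/-- the five kinds exhaust the points. -/
theorem kinds_exhaust (Q : PtN (1 * N)) :
    KInf p N Q ∨ KZero p N Q ∨ KNode p N Q ∨ KCuspInf p N Q ∨ KCuspZero p N Q := by
  by_cases h : IsFinPt p N Q
  · by_cases h1 : uabs p N Q = 1
    · exact Or.inl ⟨h, h1⟩
    · by_cases h2 : uabs p N Q = nabs p N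
      · exact Or.inr (Or.inl ⟨h, h2⟩)
      · exact Or.inr (Or.inr (Or.inl ⟨h, h1, h2⟩))
  · by_cases h1 : phiabs p N Q < 1
    · exact Or.inr (Or.inr (Or.inr (Or.inr ⟨h, h1⟩)))
    · exact Or.inr (Or.inr (Or.inr (Or.inl ⟨h, h1⟩)))

end Defs

section Charts

variable (p : Nat.Primes) (N : ℕ) [NeZero N] [NeZero (1 * N)]

/-- **the node charts**: finitely many global functions `X s`, the node coordinates, and the
`j`-values `j₀ s` of the nodes. -/
structure NodeCharts where
  /-- the number of nodes -/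
  nn : ℕ
  /-- the node coordinates -/
  X : Fin nn → FunN (1 * N)
  /-- the `j`-invariants of the nodes -/
  j₀ : Fin nn → Ω

variable {N}
variable (W : NodeCharts N)

/-- the point lies on the annulus of the node `s`. -/
def NodeCharts.InAnn (s : Fin W.nn) (Q : PtN (1 * N)) : Prop :=
  KNode p N Q ∧ absv (some p) (jv N Q - W.j₀ s) < 1

/-- the four disc coordinates `j`, `j_N`, `j⁻¹`, `j_N⁻¹`. -/
def cellDiscCoord (N : ℕ) [NeZero N] [NeZero (1 * N)] : Fin 4 → FunN (1 * N) :=
  ![jBar (1 * N), jqBar N, (jBar (1 * N))⁻¹, (jqBar N)⁻¹]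

/-- the coordinate functions: the four disc coordinates, then the node coordinates. -/
def NodeCharts.zi : Fin (4 + W.nn) → FunN (1 * N) := Fin.addCases (cellDiscCoord N) W.X

open Classical in
/-- the coordinate used at a point. -/
def NodeCharts.idx (Q : PtN (1 * N)) : Fin (4 + W.nn) :=
  if IsFinPt p N Q then
    if uabs p N Q = 1 then Fin.castAdd W.nn 0
    else if uabs p N Q = nabs p N then Fin.castAdd W.nn 1
    else if h : ∃ s, absv (some p) (jv N Q - W.j₀ s) < 1 then Fin.natAdd 4 h.choose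
    else Fin.castAdd W.nn 0
  else if phiabs p N Q < 1 then Fin.castAdd W.nn 3 else Fin.castAdd W.nn 2

/-- the atlas data of the node charts. -/
def NodeCharts.atlasData : NAtlasData (1 * N) where
  nz := 4 + W.nn
  zi := W.zi
  idx := W.idx p
  isAnn := fun i => 4 ≤ i.val

@[simp] theorem NodeCharts.zi_castAdd (k : Fin 4) : W.zi (Fin.castAdd W.nn k) = cellDiscCoord N k :=
  Fin.addCases_left k

@[simp] theorem NodeCharts.zi_natAdd (s : Fin W.nn) : W.zi (Fin.natAdd 4 s) = W.X s :=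
  Fin.addCases_right s

theorem cellDiscCoord_zero : cellDiscCoord N 0 = jBar (1 * N) := rfl
theorem cellDiscCoord_one : cellDiscCoord N 1 = jqBar N := rfl
theorem cellDiscCoord_two : cellDiscCoord N 2 = (jBar (1 * N))⁻¹ := rfl
theorem cellDiscCoord_three : cellDiscCoord N 3 = (jqBar N)⁻¹ := rfl

variable {p}

theorem NodeCharts.idx_of_kInf {Q : PtN (1 * N)} (h : KInf p N Q) :
    W.idx p Q = Fin.castAdd W.nn 0 := by
  unfold NodeCharts.idx
  rw [if_pos h.1, if_pos h.2]

theorem NodeCharts.idx_of_kZero (hlt : nabs p N < 1) {Q : PtN (1 * N)} (h : KZero p N Q) :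
    W.idx p Q = Fin.castAdd W.nn 1 := by
  unfold NodeCharts.idx
  have h1 : uabs p N Q ≠ 1 := by rw [h.2]; exact ne_of_lt hlt
  rw [if_pos h.1, if_neg h1, if_pos h.2]

theorem NodeCharts.idx_of_kCuspInf {Q : PtN (1 * N)} (h : KCuspInf p N Q) :
    W.idx p Q = Fin.castAdd W.nn 2 := by
  unfold NodeCharts.idx
  rw [if_neg h.1, if_neg h.2]

theorem NodeCharts.idx_of_kCuspZero {Q : PtN (1 * N)} (h : KCuspZero p N Q) :
    W.idx p Q = Fin.castAdd W.nn 3 := by
  unfold NodeCharts.idx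
  rw [if_neg h.1, if_pos h.2]

theorem NodeCharts.idx_of_inAnn (hsep : ∀ s s' : Fin W.nn,
    absv (some p) (W.j₀ s - W.j₀ s') < 1 → s = s') {s : Fin W.nn} {Q : PtN (1 * N)}
    (h : W.InAnn p s Q) : W.idx p Q = Fin.natAdd 4 s := by
  unfold NodeCharts.idx
  have hex : ∃ s, absv (some p) (jv N Q - W.j₀ s) < 1 := ⟨s, h.2⟩
  rw [if_pos h.1.1, if_neg h.1.2.1, if_neg h.1.2.2, dif_pos hex]
  congr 1
  apply hsep
  have e : W.j₀ hex.choose - W.j₀ s = (jv N Q - W.j₀ s) + -(jv N Q - W.j₀ hex.choose) := by ring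
  rw [e]
  refine lt_of_le_of_lt (absv_some_add_le_max p _ _) (max_lt h.2 ?_)
  rw [absv_neg]
  exact hex.choose_spec

/-- the kinds, with the node kind split into the annuli. -/
theorem NodeCharts.kind_cases
    (hcomp : ∀ Q : PtN (1 * N), KNode p N Q → ∃ s, absv (some p) (jv N Q - W.j₀ s) < 1)
    (Q : PtN (1 * N)) :
    KInf p N Q ∨ KZero p N Q ∨ (∃ s, W.InAnn p s Q) ∨ KCuspInf p N Q ∨ KCuspZero p N Q := by
  rcases kinds_exhaust (p := p) Q with h | h | h | h | h
  · exact Or.inl h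
  · exact Or.inr (Or.inl h)
  · obtain ⟨s, hs⟩ := hcomp Q h
    exact Or.inr (Or.inr (Or.inl ⟨s, h, hs⟩))
  · exact Or.inr (Or.inr (Or.inr (Or.inl h)))
  · exact Or.inr (Or.inr (Or.inr (Or.inr h)))

end Charts

section Formulas

variable (p : Nat.Primes) (N : ℕ) [NeZero N] [NeZero (1 * N)] {x y : ℤ}
  (h : (N : ℤ) * x + ((1 : ℕ) : ℤ) * y = 1) (hN : N.Prime)

open Classical in
/-- **the cell formula on the discs of the kind `Kd`**, with the coordinate `z` and the sheet norm
`n`: the centred coordinate is a uniformizer and the value formula holds, the sum running over the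
zeros and poles of `f` of the same kind with congruent coordinate value. -/
def DiscCF (Kd : PtN (1 * N) → Prop) (z : FunN (1 * N)) (n : FunN (1 * N) → ℝ) : Prop :=
  ∀ (f : FunN (1 * N)) (D : PtN (1 * N) →₀ ℤ), f ≠ 0 → IsDivOf (1 * N) f D →
    ∀ Q : PtN (1 * N), Kd Q →
      Q.ord (z - algebraMap Ω (FunN (1 * N)) (valN (1 * N) Q z)) = 1 ∧
      lg (some p) (valN (1 * N) Q
        (f * (z - algebraMap Ω (FunN (1 * N)) (valN (1 * N) Q z)) ^ (-(D Q)))) =
        n f + ∑ P ∈ D.support,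
          if P ≠ Q ∧ Kd P ∧ absv (some p) (valN (1 * N) P z - valN (1 * N) Q z) < 1 then
            (D P : ℝ) * lg (some p) (valN (1 * N) P z - valN (1 * N) Q z) else 0

variable {N}

open Classical in
/-- **the cell formula on the annuli of the nodes.** -/
def NodeCF (W : NodeCharts N) : Prop :=
  ∀ (f : FunN (1 * N)) (D : PtN (1 * N) →₀ ℤ), f ≠ 0 → IsDivOf (1 * N) f D →
    ∀ (Q : PtN (1 * N)) (s : Fin W.nn), W.InAnn p s Q →
      Q.ord (W.X s - algebraMap Ω (FunN (1 * N)) (valN (1 * N) Q (W.X s))) = 1 ∧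
      absv (some p) (valN (1 * N) Q (W.X s)) < 1 ∧
      lg (some p) ((N : Ω) ^ 12) ≤ lg (some p) (valN (1 * N) Q (W.X s)) ∧
      lg (some p) (valN (1 * N) Q
        (f * (W.X s - algebraMap Ω (FunN (1 * N)) (valN (1 * N) Q (W.X s))) ^ (-(D Q)))) =
        (1 - thetaN p N Q) * sheetNorm0 p (1 * N) f + thetaN p N Q * sheetNorm1 p h hN f
          - thetaN p N Q * (∑ P ∈ D.support,
              if W.InAnn p s P then (D P : ℝ) * lg (some p) (valN (1 * N) P (W.X s)) else 0)
          + ∑ P ∈ D.support,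
              if P ≠ Q ∧ W.InAnn p s P then
                (D P : ℝ) * lg (some p) (valN (1 * N) P (W.X s) - valN (1 * N) Q (W.X s)) else 0

end Formulas

section Assembly

variable {p : Nat.Primes} {N : ℕ} [NeZero N] [NeZero (1 * N)] {x y : ℤ}
  (h : (N : ℤ) * x + ((1 : ℕ) : ℤ) * y = 1) (hN : N.Prime)
  (W : NodeCharts N) (hlt : nabs p N < 1)
  (hsep : ∀ s s' : Fin W.nn, absv (some p) (W.j₀ s - W.j₀ s') < 1 → s = s')
  (hcomp : ∀ Q : PtN (1 * N), KNode p N Q → ∃ s, absv (some p) (jv N Q - W.j₀ s) < 1)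

include hlt hsep hcomp

theorem NodeCharts.idx_eq_zero_iff (P : PtN (1 * N)) :
    W.idx p P = Fin.castAdd W.nn 0 ↔ KInf p N P := by
  refine ⟨fun hi => ?_, W.idx_of_kInf⟩
  rcases W.kind_cases hcomp P with h1 | h1 | ⟨s, h1⟩ | h1 | h1
  · exact h1
  · rw [W.idx_of_kZero hlt h1] at hi
    exact absurd (congrArg Fin.val hi) (by simp <;> omega)
  · rw [W.idx_of_inAnn hsep h1] at hi
    exact absurd (congrArg Fin.val hi) (by simp <;> omega)
  · rw [W.idx_of_kCuspInf h1] at hi
    exact absurd (congrArg Fin.val hi) (by simp <;> omega)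
  · rw [W.idx_of_kCuspZero h1] at hi
    exact absurd (congrArg Fin.val hi) (by simp <;> omega)

theorem NodeCharts.idx_eq_one_iff (P : PtN (1 * N)) :
    W.idx p P = Fin.castAdd W.nn 1 ↔ KZero p N P := by
  refine ⟨fun hi => ?_, W.idx_of_kZero hlt⟩
  rcases W.kind_cases hcomp P with h1 | h1 | ⟨s, h1⟩ | h1 | h1
  · rw [W.idx_of_kInf h1] at hi
    exact absurd (congrArg Fin.val hi) (by simp <;> omega)
  · exact h1
  · rw [W.idx_of_inAnn hsep h1] at hi
    exact absurd (congrArg Fin.val hi) (by simp <;> omega)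
  · rw [W.idx_of_kCuspInf h1] at hi
    exact absurd (congrArg Fin.val hi) (by simp <;> omega)
  · rw [W.idx_of_kCuspZero h1] at hi
    exact absurd (congrArg Fin.val hi) (by simp <;> omega)

theorem NodeCharts.idx_eq_two_iff (P : PtN (1 * N)) :
    W.idx p P = Fin.castAdd W.nn 2 ↔ KCuspInf p N P := by
  refine ⟨fun hi => ?_, W.idx_of_kCuspInf⟩
  rcases W.kind_cases hcomp P with h1 | h1 | ⟨s, h1⟩ | h1 | h1
  · rw [W.idx_of_kInf h1] at hi
    exact absurd (congrArg Fin.val hi) (by simp <;> omega)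
  · rw [W.idx_of_kZero hlt h1] at hi
    exact absurd (congrArg Fin.val hi) (by simp <;> omega)
  · rw [W.idx_of_inAnn hsep h1] at hi
    exact absurd (congrArg Fin.val hi) (by simp <;> omega)
  · exact h1
  · rw [W.idx_of_kCuspZero h1] at hi
    exact absurd (congrArg Fin.val hi) (by simp <;> omega)

theorem NodeCharts.idx_eq_three_iff (P : PtN (1 * N)) :
    W.idx p P = Fin.castAdd W.nn 3 ↔ KCuspZero p N P := by
  refine ⟨fun hi => ?_, W.idx_of_kCuspZero⟩
  rcases W.kind_cases hcomp P with h1 | h1 | ⟨s, h1⟩ | h1 | h1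
  · rw [W.idx_of_kInf h1] at hi
    exact absurd (congrArg Fin.val hi) (by simp <;> omega)
  · rw [W.idx_of_kZero hlt h1] at hi
    exact absurd (congrArg Fin.val hi) (by simp <;> omega)
  · rw [W.idx_of_inAnn hsep h1] at hi
    exact absurd (congrArg Fin.val hi) (by simp <;> omega)
  · rw [W.idx_of_kCuspInf h1] at hi
    exact absurd (congrArg Fin.val hi) (by simp <;> omega)
  · exact h1

theorem NodeCharts.idx_eq_natAdd_iff (s : Fin W.nn) (P : PtN (1 * N)) :
    W.idx p P = Fin.natAdd 4 s ↔ W.InAnn p s P := by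
  refine ⟨fun hi => ?_, W.idx_of_inAnn hsep⟩
  rcases W.kind_cases hcomp P with h1 | h1 | ⟨s', h1⟩ | h1 | h1
  · rw [W.idx_of_kInf h1] at hi
    exact absurd (congrArg Fin.val hi) (by simp <;> omega)
  · rw [W.idx_of_kZero hlt h1] at hi
    exact absurd (congrArg Fin.val hi) (by simp <;> omega)
  · rw [W.idx_of_inAnn hsep h1] at hi
    have : s' = s := Fin.natAdd_injective _ _ hi
    rw [← this]
    exact h1
  · rw [W.idx_of_kCuspInf h1] at hi
    exact absurd (congrArg Fin.val hi) (by simp <;> omega)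
  · rw [W.idx_of_kCuspZero h1] at hi
    exact absurd (congrArg Fin.val hi) (by simp <;> omega)


omit hlt hsep hcomp in
/-- the centred coordinate of the atlas at a point of a disc kind. -/
theorem NodeCharts.zcen_disc {Kd : PtN (1 * N) → Prop} {z : FunN (1 * N)}
    (k : Fin 4) (hz : cellDiscCoord N k = z)
    (hidx : ∀ P : PtN (1 * N), W.idx p P = Fin.castAdd W.nn k ↔ Kd P)
    {Q : PtN (1 * N)} (hQ : Kd Q) :
    (W.atlasData p).zcen Q = z - algebraMap Ω (FunN (1 * N)) (valN (1 * N) Q z) := by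
  have hiQ : (W.atlasData p).idx Q = Fin.castAdd W.nn k := (hidx Q).mpr hQ
  have hzi : (W.atlasData p).zi (Fin.castAdd W.nn k) = z := by
    show W.zi (Fin.castAdd W.nn k) = z
    rw [W.zi_castAdd, hz]
  rw [(W.atlasData p).zcen_of_idx hiQ, hzi]

omit hlt hcomp in
/-- the centred coordinate of the atlas at a point of an annulus. -/
theorem NodeCharts.zcen_node {Q : PtN (1 * N)} {s : Fin W.nn} (hQ : W.InAnn p s Q) :
    (W.atlasData p).zcen Q =
      W.X s - algebraMap Ω (FunN (1 * N)) (valN (1 * N) Q (W.X s)) := by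
  have hiQ : (W.atlasData p).idx Q = Fin.natAdd 4 s := W.idx_of_inAnn hsep hQ
  have hzi : (W.atlasData p).zi (Fin.natAdd 4 s) = W.X s := W.zi_natAdd s
  rw [(W.atlasData p).zcen_of_idx hiQ, hzi]

omit hlt hsep hcomp in
open Classical in
/-- the cell formula of the atlas at a point of a disc kind. -/
theorem NodeCharts.cf_disc {Kd : PtN (1 * N) → Prop} {z : FunN (1 * N)} {n : FunN (1 * N) → ℝ}
    (k : Fin 4) (hz : cellDiscCoord N k = z)
    (hidx : ∀ P : PtN (1 * N), W.idx p P = Fin.castAdd W.nn k ↔ Kd P)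
    (hcf : DiscCF p N Kd z n) {f : FunN (1 * N)} {D : PtN (1 * N) →₀ ℤ} (hf : f ≠ 0)
    (hD : IsDivOf (1 * N) f D) {Q : PtN (1 * N)} (hQ : Kd Q) (a0 a1 θQ : ℝ)
    (hθn : (1 - θQ) * a0 + θQ * a1 = n f) :
    (W.atlasData p).zcen Q = z - algebraMap Ω (FunN (1 * N)) (valN (1 * N) Q z) ∧
    lg (some p) (valN (1 * N) Q (f * ((W.atlasData p).zcen Q) ^ (-(D Q)))) =
      (1 - θQ) * a0 + θQ * a1
        - θQ * (∑ P ∈ D.support, (D P : ℝ) * (W.atlasData p).hfun (some p) P Q)
        - ∑ P ∈ D.support, (D P : ℝ) * (W.atlasData p).gfun (some p) P Q := by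
  have hiQ : (W.atlasData p).idx Q = Fin.castAdd W.nn k := (hidx Q).mpr hQ
  have hzi : (W.atlasData p).zi (Fin.castAdd W.nn k) = z := by
    show W.zi (Fin.castAdd W.nn k) = z
    rw [W.zi_castAdd, hz]
  have hzc : (W.atlasData p).zcen Q = z - algebraMap Ω (FunN (1 * N)) (valN (1 * N) Q z) := by
    rw [(W.atlasData p).zcen_of_idx hiQ, hzi]
  refine ⟨hzc, ?_⟩
  have hnotann : ¬ (W.atlasData p).isAnn ((W.atlasData p).idx Q) := by
    rw [hiQ]
    show ¬ 4 ≤ (Fin.castAdd W.nn k).val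
    rw [Fin.val_castAdd]
    exact not_le.mpr k.2
  rw [(W.atlasData p).sum_hfun_of_not_isAnn (some p) hnotann, mul_zero, sub_zero,
    (W.atlasData p).sum_gfun_of_idx (some p) hiQ, sub_neg_eq_add, hzc, hzi, hθn,
    (hcf f D hf hD Q hQ).2]
  congr 1
  refine Finset.sum_congr rfl (fun P _ => ?_)
  refine if_congr ?_ rfl rfl
  exact ⟨fun ⟨a, b, c⟩ => ⟨a, (hidx P).mpr b, c⟩, fun ⟨a, b, c⟩ => ⟨a, (hidx P).mp b, c⟩⟩


omit hlt hsep hcomp in
theorem isDivOf_one_zero : IsDivOf (1 * N) (1 : FunN (1 * N)) 0 := by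
  intro Q
  rw [Finsupp.zero_apply, Place.ord_one]

open Classical in
/-- the cell formula of the atlas at a point of an annulus. -/
theorem NodeCharts.cf_node (hnode : NodeCF p h hN W) {f : FunN (1 * N)}
    {D : PtN (1 * N) →₀ ℤ} (hf : f ≠ 0) (hD : IsDivOf (1 * N) f D) {Q : PtN (1 * N)}
    {s : Fin W.nn} (hQ : W.InAnn p s Q) :
    (W.atlasData p).zcen Q =
      W.X s - algebraMap Ω (FunN (1 * N)) (valN (1 * N) Q (W.X s)) ∧
    lg (some p) (valN (1 * N) Q (f * ((W.atlasData p).zcen Q) ^ (-(D Q)))) =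
      (1 - thetaN p N Q) * sheetNorm0 p (1 * N) f + thetaN p N Q * sheetNorm1 p h hN f
        - thetaN p N Q * (∑ P ∈ D.support, (D P : ℝ) * (W.atlasData p).hfun (some p) P Q)
        - ∑ P ∈ D.support, (D P : ℝ) * (W.atlasData p).gfun (some p) P Q := by
  have hiQ : (W.atlasData p).idx Q = Fin.natAdd 4 s := W.idx_of_inAnn hsep hQ
  have hzi : (W.atlasData p).zi (Fin.natAdd 4 s) = W.X s := W.zi_natAdd s
  have hzc : (W.atlasData p).zcen Q =
      W.X s - algebraMap Ω (FunN (1 * N)) (valN (1 * N) Q (W.X s)) := by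
    rw [(W.atlasData p).zcen_of_idx hiQ, hzi]
  refine ⟨hzc, ?_⟩
  have hann : (W.atlasData p).isAnn (Fin.natAdd 4 s) := by
    show 4 ≤ (Fin.natAdd 4 s).val
    rw [Fin.val_natAdd]
    exact Nat.le_add_right 4 _
  have hlt1 : ∀ P : PtN (1 * N), W.InAnn p s P → absv (some p) (valN (1 * N) P (W.X s)) < 1 :=
    fun P hP => (hnode 1 0 one_ne_zero isDivOf_one_zero P s hP).2.1
  have hnear : ∀ P : PtN (1 * N), W.InAnn p s P →
      absv (some p) (valN (1 * N) P (W.X s) - valN (1 * N) Q (W.X s)) < 1 := by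
    intro P hP
    rw [sub_eq_add_neg]
    refine lt_of_le_of_lt (absv_some_add_le_max p _ _) (max_lt (hlt1 P hP) ?_)
    rw [absv_neg]
    exact hlt1 Q hQ
  have e1 : (∑ P ∈ D.support,
      if (W.atlasData p).idx P = Fin.natAdd 4 s ∧
          absv (some p) (valN (1 * N) P ((W.atlasData p).zi (Fin.natAdd 4 s)) -
            valN (1 * N) Q ((W.atlasData p).zi (Fin.natAdd 4 s))) < 1 then
        (D P : ℝ) * lg (some p) (valN (1 * N) P ((W.atlasData p).zi (Fin.natAdd 4 s))) else 0) =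
      ∑ P ∈ D.support,
        if W.InAnn p s P then (D P : ℝ) * lg (some p) (valN (1 * N) P (W.X s)) else 0 := by
    refine Finset.sum_congr rfl (fun P _ => ?_)
    rw [hzi]
    refine if_congr ?_ rfl rfl
    exact ⟨fun ⟨a, _⟩ => (W.idx_eq_natAdd_iff hlt hsep hcomp s P).mp a,
      fun a => ⟨(W.idx_eq_natAdd_iff hlt hsep hcomp s P).mpr a, hnear P a⟩⟩
  have e2 : (∑ P ∈ D.support,
      if P ≠ Q ∧ (W.atlasData p).idx P = Fin.natAdd 4 s ∧
          absv (some p) (valN (1 * N) P ((W.atlasData p).zi (Fin.natAdd 4 s)) -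
            valN (1 * N) Q ((W.atlasData p).zi (Fin.natAdd 4 s))) < 1 then
        (D P : ℝ) * lg (some p) (valN (1 * N) P ((W.atlasData p).zi (Fin.natAdd 4 s)) -
            valN (1 * N) Q ((W.atlasData p).zi (Fin.natAdd 4 s))) else 0) =
      ∑ P ∈ D.support,
        if P ≠ Q ∧ W.InAnn p s P then
          (D P : ℝ) * lg (some p) (valN (1 * N) P (W.X s) - valN (1 * N) Q (W.X s)) else 0 := by
    refine Finset.sum_congr rfl (fun P _ => ?_)
    rw [hzi]
    refine if_congr ?_ rfl rfl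
    exact ⟨fun ⟨a, b, _⟩ => ⟨a, (W.idx_eq_natAdd_iff hlt hsep hcomp s P).mp b⟩,
      fun ⟨a, b⟩ => ⟨a, (W.idx_eq_natAdd_iff hlt hsep hcomp s P).mpr b, hnear P b⟩⟩
  rw [(W.atlasData p).sum_hfun_of_idx (some p) hiQ hann,
    (W.atlasData p).sum_gfun_of_idx (some p) hiQ, sub_neg_eq_add, e1, e2, hzc,
    (hnode f D hf hD Q s hQ).2.2.2]


/-- a point using an annulus coordinate lies on an annulus. -/
theorem NodeCharts.exists_inAnn_of_isAnn {P : PtN (1 * N)}
    (hP : (W.atlasData p).isAnn ((W.atlasData p).idx P)) :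
    ∃ s, W.InAnn p s P := by
  have hP' : 4 ≤ (W.idx p P).val := hP
  rcases W.kind_cases hcomp P with h1 | h1 | h1 | h1 | h1
  · rw [W.idx_of_kInf h1] at hP'
    exact absurd hP' (by simp)
  · rw [W.idx_of_kZero hlt h1] at hP'
    exact absurd hP' (by simp)
  · exact h1
  · rw [W.idx_of_kCuspInf h1] at hP'
    exact absurd hP' (by simp)
  · rw [W.idx_of_kCuspZero h1] at hP'
    exact absurd hP' (by simp)

/-- **the atlas of `X₀(N)` at the place `p`** from the cell formulas on the five kinds of cells and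
the global bound. -/
def NodeCharts.nAtlas
    (hinf : DiscCF p N (KInf p N) (jBar (1 * N)) (sheetNorm0 p (1 * N)))
    (hzero : DiscCF p N (KZero p N) (jqBar N) (sheetNorm1 p h hN))
    (hci : DiscCF p N (KCuspInf p N) (jBar (1 * N))⁻¹ (sheetNorm0 p (1 * N)))
    (hcz : DiscCF p N (KCuspZero p N) (jqBar N)⁻¹ (sheetNorm1 p h hN))
    (hnode : NodeCF p h hN W) (C : ℝ) (hC : 0 ≤ C)
    (hglob : ∀ (f : FunN (1 * N)) (D : PtN (1 * N) →₀ ℤ), f ≠ 0 → IsDivOf (1 * N) f D →
      |sheetNorm1 p h hN f - sheetNorm0 p (1 * N) f| ≤ C * (dnorm D : ℝ)) :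
    NAtlas (1 * N) (some p) where
  toNAtlasData := W.atlasData p
  θ := thetaN p N
  L := -lg (some p) ((N : Ω) ^ 12)
  C := C
  L_nonneg := by
    rw [neg_nonneg]
    unfold lg
    exact Real.log_nonpos (absv_nonneg _ _) hlt.le
  C_nonneg := hC
  θ_nonneg := thetaN_nonneg p N
  θ_le_one := thetaN_le_one p N
  zcen_ord := by
    intro Q
    rcases W.kind_cases hcomp Q with h1 | h1 | ⟨s, h1⟩ | h1 | h1
    · rw [W.zcen_disc 0 cellDiscCoord_zero (W.idx_eq_zero_iff hlt hsep hcomp) h1]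
      exact (hinf 1 0 one_ne_zero isDivOf_one_zero Q h1).1
    · rw [W.zcen_disc 1 cellDiscCoord_one (W.idx_eq_one_iff hlt hsep hcomp) h1]
      exact (hzero 1 0 one_ne_zero isDivOf_one_zero Q h1).1
    · rw [W.zcen_node hsep h1]
      exact (hnode 1 0 one_ne_zero isDivOf_one_zero Q s h1).1
    · rw [W.zcen_disc 2 cellDiscCoord_two (W.idx_eq_two_iff hlt hsep hcomp) h1]
      exact (hci 1 0 one_ne_zero isDivOf_one_zero Q h1).1
    · rw [W.zcen_disc 3 cellDiscCoord_three (W.idx_eq_three_iff hlt hsep hcomp) h1]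
      exact (hcz 1 0 one_ne_zero isDivOf_one_zero Q h1).1
  ann_lt := by
    intro P hP
    obtain ⟨s, hs⟩ := W.exists_inAnn_of_isAnn hlt hsep hcomp hP
    have hiP : (W.atlasData p).idx P = Fin.natAdd 4 s := W.idx_of_inAnn hsep hs
    rw [(W.atlasData p).zval_of_idx hiP]
    show absv (some p) (valN (1 * N) P (W.zi (Fin.natAdd 4 s))) < 1
    rw [W.zi_natAdd]
    exact (hnode 1 0 one_ne_zero isDivOf_one_zero P s hs).2.1
  ann_ge := by
    intro P hP
    obtain ⟨s, hs⟩ := W.exists_inAnn_of_isAnn hlt hsep hcomp hP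
    have hiP : (W.atlasData p).idx P = Fin.natAdd 4 s := W.idx_of_inAnn hsep hs
    rw [(W.atlasData p).zval_of_idx hiP, neg_neg]
    show _ ≤ lg (some p) (valN (1 * N) P (W.zi (Fin.natAdd 4 s)))
    rw [W.zi_natAdd]
    exact (hnode 1 0 one_ne_zero isDivOf_one_zero P s hs).2.2.1
  n0 := sheetNorm0 p (1 * N)
  n1 := sheetNorm1 p h hN
  n0_smul_le := fun c f hc hf => (sheetNorm0_smul c f hc hf).le
  n1_smul_le := fun c f hc hf => (sheetNorm1_smul h hN c f hc hf).le
  n0_add_le := fun f g hf hg hfg => sheetNorm0_add_le hf hg hfg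
  n1_add_le := fun f g hf hg hfg => sheetNorm1_add_le h hN hf hg hfg
  n_diff := hglob
  cf := by
    intro f D hf hD Q
    rcases W.kind_cases hcomp Q with h1 | h1 | ⟨s, h1⟩ | h1 | h1
    · refine (W.cf_disc 0 cellDiscCoord_zero (W.idx_eq_zero_iff hlt hsep hcomp) hinf hf hD h1 _ _ _
        ?_).2
      rw [thetaN_of_kInf h1]
      ring
    · refine (W.cf_disc 1 cellDiscCoord_one (W.idx_eq_one_iff hlt hsep hcomp) hzero hf hD h1 _ _ _
        ?_).2
      rw [thetaN_of_kZero hlt (absv_pos (pow_ne_zero 12 (Nat.cast_ne_zero.mpr (NeZero.ne N)))) h1]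
      ring
    · exact (W.cf_node h hN hlt hsep hcomp hnode hf hD h1).2
    · refine (W.cf_disc 2 cellDiscCoord_two (W.idx_eq_two_iff hlt hsep hcomp) hci hf hD h1 _ _ _
        ?_).2
      rw [thetaN_of_kCuspInf h1]
      ring
    · refine (W.cf_disc 3 cellDiscCoord_three (W.idx_eq_three_iff hlt hsep hcomp) hcz hf hD h1 _ _ _
        ?_).2
      rw [thetaN_of_kCuspZero h1]
      ring


/-- **the cell system of `X₀(N)` at the place `p`** from the cell formulas on the five kinds of cells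
and the global bound. -/
def NodeCharts.cellSys
    (hinf : DiscCF p N (KInf p N) (jBar (1 * N)) (sheetNorm0 p (1 * N)))
    (hzero : DiscCF p N (KZero p N) (jqBar N) (sheetNorm1 p h hN))
    (hci : DiscCF p N (KCuspInf p N) (jBar (1 * N))⁻¹ (sheetNorm0 p (1 * N)))
    (hcz : DiscCF p N (KCuspZero p N) (jqBar N)⁻¹ (sheetNorm1 p h hN))
    (hnode : NodeCF p h hN W) (C : ℝ) (hC : 0 ≤ C)
    (hglob : ∀ (f : FunN (1 * N)) (D : PtN (1 * N) →₀ ℤ), f ≠ 0 → IsDivOf (1 * N) f D →
      |sheetNorm1 p h hN f - sheetNorm0 p (1 * N) f| ≤ C * (dnorm D : ℝ)) :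
    NCellSys2 (1 * N) (some p) :=
  (W.nAtlas h hN hlt hsep hcomp hinf hzero hci hcz hnode C hC hglob).toCellSys

end Assembly

section AtN

variable {N : ℕ} [NeZero N] [NeZero (1 * N)]

/-- `|N^12|_N < 1`. -/
theorem nabs_lt_one (hN : N.Prime) : nabs ⟨N, hN⟩ N < 1 := by
  unfold nabs
  rw [absv_pow]
  have h1 : absv (some (⟨N, hN⟩ : Nat.Primes)) ((N : Ω)) = ((N : ℝ))⁻¹ := by
    have e : ((N : Ω)) = algebraMap ℚ Ω ((N : ℕ) : ℚ) := by rw [map_natCast]
    rw [e, absv_some_rat]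
    haveI : Fact N.Prime := ⟨hN⟩
    show ((padicNorm N ((N : ℕ) : ℚ) : ℚ) : ℝ) = _
    rw [padicNorm.padicNorm_p hN.one_lt]
    push_cast
    rfl
  rw [h1]
  have hN1 : (1 : ℝ) < N := by exact_mod_cast hN.one_lt
  have h2 : ((N : ℝ))⁻¹ < 1 := inv_lt_one_of_one_lt₀ hN1
  have h3 : (0 : ℝ) ≤ ((N : ℝ))⁻¹ := by positivity
  exact pow_lt_one₀ h3 h2 (by norm_num)

end AtN

end

end Fermat.Agent.MW
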