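import Mathlib
import Fermat.Agent.MW.NADIC_helper1_Model1Bridge
import Fermat.Agent.SS.EXPORT_helper4_Model

/-!
# Project MW (S17) — [N-ADIC] / [MODEL1] helper1, part 6: `j` is integral over `R[j_q]`

The Atkin–Lehner involution `alHost` of `keyFw K (1 * q) 1` swaps `A j = j` and `B j = j_q` and
fixes the constants; hence `hjint` (the hypothesis of the chart `j⁻¹`, `SSModel.isModelChart_two`)
for the level-one model `ssModelOne`.
-/

set_option autoImplicit false
set_option linter.unusedSectionVars false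
set_option linter.unusedVariables false
set_option linter.style.haveILetI false
set_option synthInstance.maxHeartbeats 200000

open Polynomial ModularCurve IntermediateField

namespace Fermat.Agent.MW

open Fermat.Agent.JA Fermat.Agent.Igusa Fermat.Agent.SS Fermat.Agent.X0N

open scoped Fermat.Agent.JA.Host

noncomputable section

section Int

variable (R : Type*) [CommRing R] [IsDomain R] [IsDiscreteValuationRing R] [CharZero R]
  (K : Type*) [Field K] [Algebra R K] [IsFractionRing R K] [Algebra ℚ K] [Algebra K ℂ]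
  {q : ℕ} [NeZero q] [NeZero (1 * q)] {x y : ℤ} {π : R}
  (h : (q : ℤ) * x + ((1 : ℕ) : ℤ) * y = 1) (hq : q.Prime)

/-- the Atkin–Lehner involution maps `A j` to `B j`. -/
theorem model1_alHost_A_gen :
    alHost K (algebraMap K ℂ) 1 h hq
      ((oneHostA K q : ↥K⟮jqNModC K 1⟯ →+* ↥(keyFw K (1 * q) 1))
        (AdjoinSimple.gen K (jqNModC K 1))) =
      (oneHostB K q : ↥K⟮jqNModC K 1⟯ →+* ↥(keyFw K (1 * q) 1))
        (AdjoinSimple.gen K (jqNModC K 1)) := by
  set a₀ : ↥(keyFw K 1 1) := ⟨jqNModC K 1, jqNModC_mem_keyFw 1 1⟩ with ha₀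
  have e : (oneHostA K q : ↥K⟮jqNModC K 1⟯ →+* ↥(keyFw K (1 * q) 1))
      (AdjoinSimple.gen K (jqNModC K 1)) =
      IntermediateField.inclusion (hw2_keyFw_le (K := K) (M := 1) (q := q) 1) a₀ :=
    Subtype.ext rfl
  apply Subtype.ext
  rw [e, coe_alHost_inclusion]
  rfl

/-- the Atkin–Lehner involution maps `B j` to `A j`. -/
theorem model1_alHost_B_gen :
    alHost K (algebraMap K ℂ) 1 h hq
      ((oneHostB K q : ↥K⟮jqNModC K 1⟯ →+* ↥(keyFw K (1 * q) 1))
        (AdjoinSimple.gen K (jqNModC K 1))) =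
      (oneHostA K q : ↥K⟮jqNModC K 1⟯ →+* ↥(keyFw K (1 * q) 1))
        (AdjoinSimple.gen K (jqNModC K 1)) := by
  rw [← model1_alHost_A_gen K h hq, alHost_alHost]

/-- the Atkin–Lehner involution fixes the constants of `K`. -/
theorem model1_alHost_algebraMap (c : K) :
    alHost K (algebraMap K ℂ) 1 h hq (algebraMap K ↥(keyFw K (1 * q) 1) c) =
      algebraMap K ↥(keyFw K (1 * q) 1) c := by
  have e : algebraMap K ↥(keyFw K (1 * q) 1) c =
      oneIso K q (algebraMap K ↥(keyFq K (1 * q)) c) := ((oneIso K q).commutes c).symm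
  rw [e, alHost_oneIso, atkinLehnerN_algebraMap]

/-- the Atkin–Lehner involution fixes the constants of `R`. -/
theorem model1_alHost_algebraMap_R (r : R) :
    alHost K (algebraMap K ℂ) 1 h hq (algebraMap R ↥(keyFw K (1 * q) 1) r) =
      algebraMap R ↥(keyFw K (1 * q) 1) r := by
  rw [IsScalarTower.algebraMap_apply R K ↥(keyFw K (1 * q) 1)]
  exact model1_alHost_algebraMap K h hq _

include h hq in
/-- **`hjint` for the level-one model**: `j` is integral over `R[j_q]`. -/
theorem model1_jint [DecidableEq R] (hπ : Irreducible π) (hqπ : (q : R) ∈ Ideal.span {π}) :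
    IsIntegral ↥(Algebra.adjoin R
      {(oneHostB K q : ↥K⟮jqNModC K 1⟯ →+* ↥(keyFw K (1 * q) 1))
        (AdjoinSimple.gen K (jqNModC K 1))})
      ((oneHostA K q : ↥K⟮jqNModC K 1⟯ →+* ↥(keyFw K (1 * q) 1))
        (AdjoinSimple.gen K (jqNModC K 1))) :=
  (ssModelOne R K hπ h hq hqπ).j_isIntegral_of_swap hπ (alHost K (algebraMap K ℂ) 1 h hq)
    (model1_alHost_algebraMap_R R K h hq) (model1_alHost_A_gen K h hq) (model1_alHost_B_gen K h hq)

include h hq in
/-- `j_q` is integral over `R[j]` (from the model). -/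
theorem model1_jq_int [DecidableEq R] (hπ : Irreducible π) (hqπ : (q : R) ∈ Ideal.span {π}) :
    IsIntegral ↥(Algebra.adjoin R
      {(oneHostA K q : ↥K⟮jqNModC K 1⟯ →+* ↥(keyFw K (1 * q) 1))
        (AdjoinSimple.gen K (jqNModC K 1))})
      ((oneHostB K q : ↥K⟮jqNModC K 1⟯ →+* ↥(keyFw K (1 * q) 1))
        (AdjoinSimple.gen K (jqNModC K 1))) :=
  (ssModelOne R K hπ h hq hqπ).jq_isIntegral hπ

end Int

end

end Fermat.Agent.MW
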