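import Mathlib
import Fermat.Agent.MW.NADIC_helper1_Sheet
import Fermat.Agent.MW.NADIC_helper1_Model1Int
import Fermat.Agent.Igusa.V_helper5_Funct

/-!
# Project MW (S17) — [N-ADIC] / [ONE-BC] helper1: base change of the level-one model

For two intermediate fields `K₀ ≤ K₁` of `Ω/ℚ`, `oneBC h01 : keyFw K₀ (1 * q) 1 →+* keyFw K₁ (1 * q) 1`
is the coefficientwise map of `q`-expansions.

(B1) `oneBC_algebraMap`, `oneBC_algebraMap_baseRing`; (B2) `oneBC_oneHostA_gen`,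
`oneBC_oneHostB_gen`, `oneBC_oneUnit`; (B3) `oneBC_mem_oneWinf(_iff)`, `oneBC_mem_oneW0(_iff)`,
`oneBC_alHost`; (B4) `limPhi_oneBC`; (B5) `exists_baseRingIncl_eq_unit_mul_pow`.
-/

set_option autoImplicit false
set_option linter.unusedSectionVars false
set_option linter.unusedVariables false
set_option linter.style.haveILetI false
set_option synthInstance.maxHeartbeats 200000

open HahnSeries IntermediateField AlgebraicCurve ModularCurve

namespace Fermat.Agent.MW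

open Fermat.Agent.JA Fermat.Agent.FF Fermat.Agent.SS Fermat.Agent.Igusa Fermat.Agent.X0N

open scoped Fermat.Agent.JA.Host

noncomputable section

/-- `Ω = AlgebraicClosure ℚ`. -/
local notation "Ω" => AlgebraicClosure ℚ

section ALHom

variable {K K' : Type*} [Field K] [Field K'] [Algebra ℚ K] [Algebra ℚ K'] (φ : K →+* K')
  (ι' : K' →+* ℂ) {M q : ℕ} [NeZero M] [NeZero q] [NeZero (M * q)] {x y : ℤ}

/-- coefficientwise base change of the function field of `X₀(N)` along a field homomorphism. -/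
def keyFqHom (N : ℕ) : ↥(keyFq K N) →+* ↥(keyFq K' N) :=
  coeffHom φ (keyFq K N) (keyFq K' N) (fun _ hx => coeffMap_hom_mem_laurentBaseChange φ _ hx)

theorem coe_keyFqHom (N : ℕ) (z : ↥(keyFq K N)) :
    ((keyFqHom φ N z : ↥(keyFq K' N)) : LaurentSeries K') = coeffMap φ (z : LaurentSeries K) := rfl

theorem keyFqHom_algebraMap (N : ℕ) (a : K) :
    keyFqHom φ N (algebraMap K ↥(keyFq K N) a) = algebraMap K' ↥(keyFq K' N) (φ a) :=
  coeffHom_algebraMap _ _ _ _ a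

/-- **the Atkin–Lehner involution commutes with every coefficientwise base change.** -/
theorem atkinLehnerN_keyFqHom (h : (q : ℤ) * x + M * y = 1) (hq : q.Prime)
    (z : ↥(keyFq K (M * q))) :
    atkinLehnerN ι' h hq (keyFqHom φ (M * q) z) =
      keyFqHom φ (M * q) (atkinLehnerN (ι'.comp φ) h hq z) := by
  induction z using induction_alpha_beta M q hq with
  | hconst c =>
    rw [atkinLehnerN_algebraMap, keyFqHom_algebraMap, atkinLehnerN_algebraMap]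
  | hα z =>
    have e1 : keyFqHom φ (M * q) (heckeAlphaBar K M q z) =
        heckeAlphaBar K' M q (keyFqHom φ M z) := by
      apply Subtype.ext
      rw [coe_keyFqHom, coe_heckeAlphaBar, coe_heckeAlphaBar, coe_keyFqHom]
    have e2 : keyFqHom φ (M * q) (heckeBetaBar K M q z) =
        heckeBetaBar K' M q (keyFqHom φ M z) := by
      apply Subtype.ext
      rw [coe_keyFqHom, coe_heckeBetaBar, coe_heckeBetaBar, coe_keyFqHom, coeffMap_qExpand]
    rw [atkinLehnerN_alpha, e1, e2, atkinLehnerN_alpha]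
  | hβ z =>
    have e1 : keyFqHom φ (M * q) (heckeAlphaBar K M q z) =
        heckeAlphaBar K' M q (keyFqHom φ M z) := by
      apply Subtype.ext
      rw [coe_keyFqHom, coe_heckeAlphaBar, coe_heckeAlphaBar, coe_keyFqHom]
    have e2 : keyFqHom φ (M * q) (heckeBetaBar K M q z) =
        heckeBetaBar K' M q (keyFqHom φ M z) := by
      apply Subtype.ext
      rw [coe_keyFqHom, coe_heckeBetaBar, coe_heckeBetaBar, coe_keyFqHom, coeffMap_qExpand]
    rw [atkinLehnerN_beta, e1, e2, atkinLehnerN_beta]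
  | hadd a b h1 h2 => rw [map_add, map_add, h1, h2, map_add, map_add]
  | hmul a b h1 h2 => rw [map_mul, map_mul, h1, h2, map_mul, map_mul]
  | hinv a h1 => rw [map_inv₀, map_inv₀, h1, map_inv₀, map_inv₀]

end ALHom

section OneBC

variable {q : ℕ} [NeZero q] [NeZero (1 * q)] {K₀ K₁ : IntermediateField ℚ Ω} (h01 : K₀ ≤ K₁)

/-- the inclusion `K₀ → K₁` as a ring homomorphism. -/
def baseFieldIncl : ↥K₀ →+* ↥K₁ := (IntermediateField.inclusion h01).toRingHom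

@[simp] theorem coe_baseFieldIncl (a : ↥K₀) : ((baseFieldIncl h01 a : ↥K₁) : Ω) = (a : Ω) := rfl

theorem coeffMap_baseFieldIncl_mem_keyFw {z : LaurentSeries ↥K₀}
    (hz : z ∈ keyFw ↥K₀ (1 * q) 1) :
    coeffMap (baseFieldIncl h01) z ∈ keyFw ↥K₁ (1 * q) 1 := by
  rw [model1_keyFw_eq_keyFq] at hz ⊢
  exact coeffMap_hom_mem_laurentBaseChange (baseFieldIncl h01) _ hz

/-- **the coefficientwise base change of the host field of the level-one model.** -/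
def oneBC : ↥(keyFw ↥K₀ (1 * q) 1) →+* ↥(keyFw ↥K₁ (1 * q) 1) :=
  coeffHom (baseFieldIncl h01) (keyFw ↥K₀ (1 * q) 1) (keyFw ↥K₁ (1 * q) 1)
    (fun _ hz => coeffMap_baseFieldIncl_mem_keyFw h01 hz)

theorem coe_oneBC (z : ↥(keyFw ↥K₀ (1 * q) 1)) :
    ((oneBC h01 z : ↥(keyFw ↥K₁ (1 * q) 1)) : LaurentSeries ↥K₁) =
      coeffMap (baseFieldIncl h01) (z : LaurentSeries ↥K₀) := rfl

theorem oneBC_injective : Function.Injective (oneBC (q := q) h01) := (oneBC h01).injective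

/-- **(B1)** constants of `K₀`. -/
theorem oneBC_algebraMap (a : ↥K₀) :
    oneBC h01 (algebraMap ↥K₀ ↥(keyFw ↥K₀ (1 * q) 1) a) =
      algebraMap ↥K₁ ↥(keyFw ↥K₁ (1 * q) 1) (baseFieldIncl h01 a) :=
  coeffHom_algebraMap _ _ _ _ a

/-- **(B1)** constants of the base ring. -/
theorem oneBC_algebraMap_baseRing (A : ValuationSubring Ω) (r : ↥(baseRing A K₀)) :
    oneBC h01 (algebraMap ↥(baseRing A K₀) ↥(keyFw ↥K₀ (1 * q) 1) r) =
      algebraMap ↥(baseRing A K₁) ↥(keyFw ↥K₁ (1 * q) 1) (baseRingIncl A h01 r) := by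
  rw [IsScalarTower.algebraMap_apply ↥(baseRing A K₀) ↥K₀ ↥(keyFw ↥K₀ (1 * q) 1),
    IsScalarTower.algebraMap_apply ↥(baseRing A K₁) ↥K₁ ↥(keyFw ↥K₁ (1 * q) 1), oneBC_algebraMap]
  rfl

/-- compatibility with `oneIso` and the base change of `F_q`. -/
theorem oneBC_oneIso (f : ↥(keyFq ↥K₀ (1 * q))) :
    oneBC h01 (oneIso ↥K₀ q f) = oneIso ↥K₁ q (keyFqHom (baseFieldIncl h01) (1 * q) f) := by
  letI : Algebra ↥K₀ ℂ := baseToComplex K₀
  letI : Algebra ↥K₁ ℂ := baseToComplex K₁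
  apply Subtype.ext
  rw [coe_oneBC, coe_oneIso, coe_oneIso, coe_keyFqHom]

/-- **(B2)** `A j`. -/
theorem oneBC_oneHostA_gen :
    oneBC h01 ((oneHostA ↥K₀ q : ↥(↥K₀)⟮jqNModC ↥K₀ 1⟯ →+* ↥(keyFw ↥K₀ (1 * q) 1))
      (AdjoinSimple.gen ↥K₀ (jqNModC ↥K₀ 1))) =
      (oneHostA ↥K₁ q : ↥(↥K₁)⟮jqNModC ↥K₁ 1⟯ →+* ↥(keyFw ↥K₁ (1 * q) 1))
        (AdjoinSimple.gen ↥K₁ (jqNModC ↥K₁ 1)) := by
  apply Subtype.ext
  rw [coe_oneBC, coe_oneHostA_gen, coe_oneHostA_gen, coeffMap_jqModC]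

/-- **(B2)** `B j`. -/
theorem oneBC_oneHostB_gen :
    oneBC h01 ((oneHostB ↥K₀ q : ↥(↥K₀)⟮jqNModC ↥K₀ 1⟯ →+* ↥(keyFw ↥K₀ (1 * q) 1))
      (AdjoinSimple.gen ↥K₀ (jqNModC ↥K₀ 1))) =
      (oneHostB ↥K₁ q : ↥(↥K₁)⟮jqNModC ↥K₁ 1⟯ →+* ↥(keyFw ↥K₁ (1 * q) 1))
        (AdjoinSimple.gen ↥K₁ (jqNModC ↥K₁ 1)) := by
  apply Subtype.ext
  rw [coe_oneBC, coe_oneHostB_gen, coe_oneHostB_gen, coeffMap_qExpand, coeffMap_jqModC]

/-- **(B2)** the modular unit. -/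
theorem oneBC_oneUnit : oneBC h01 (oneUnit ↥K₀ q) = oneUnit ↥K₁ q := by
  letI : Algebra ↥K₀ ℂ := baseToComplex K₀
  letI : Algebra ↥K₁ ℂ := baseToComplex K₁
  apply Subtype.ext
  rw [coe_oneBC, coe_oneUnit, coe_oneUnit, coeffMap_coeffEmb_hom]

/-- **(B4)** compatibility with the embeddings into `FunN (1 * q)`. -/
theorem limPhi_oneBC (z : ↥(keyFw ↥K₀ (1 * q) 1)) :
    limPhi q K₁ (oneBC h01 z) = limPhi q K₀ z := by
  apply Subtype.ext
  rw [coe_limPhi, coe_limPhi, coe_oneBC, coeffMap_coeffMap]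
  rfl

section Sheets

variable (A : ValuationSubring Ω) [IsDiscreteValuationRing ↥(baseRing A K₀)]
  [IsDiscreteValuationRing ↥(baseRing A K₁)]

/-- the morphism of Gauss data attached to `K₀ ≤ K₁`. -/
def oneGaussHom : GaussHom ↥(baseRing A K₀) ↥K₀ ↥(baseRing A K₁) ↥K₁ :=
  gaussHomBaseChange (baseRingIncl A h01) (baseFieldIncl h01) (fun _ => rfl)

/-- **(B3)** the sheet `W_∞`. -/
theorem oneBC_mem_oneWinf {z : ↥(keyFw ↥K₀ (1 * q) 1)}
    (hz : z ∈ oneWinf ↥(baseRing A K₀) ↥K₀ q) :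
    oneBC h01 z ∈ oneWinf ↥(baseRing A K₁) ↥K₁ q :=
  (oneGaussHom h01 A).map_mem_gaussInt hz

/-- **(B3)** the sheet `W_∞`, both directions. -/
theorem oneBC_mem_oneWinf_iff (z : ↥(keyFw ↥K₀ (1 * q) 1)) :
    oneBC h01 z ∈ oneWinf ↥(baseRing A K₁) ↥K₁ q ↔ z ∈ oneWinf ↥(baseRing A K₀) ↥K₀ q := by
  refine ⟨fun h => ?_, oneBC_mem_oneWinf h01 A⟩
  exact (oneGaussHom h01 A).mem_gaussInt_of_map_mem
    (keyFw_le_gaussField ↥(baseRing A K₀) ↥K₀ (1 * q) 1 z.2) h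

variable {x y : ℤ} (h : (q : ℤ) * x + ((1 : ℕ) : ℤ) * y = 1) (hq : q.Prime)

/-- **(B3)** the base change intertwines the Atkin–Lehner involutions. -/
theorem oneBC_alHost (z : ↥(keyFw ↥K₀ (1 * q) 1)) :
    letI i0 := baseToComplex K₀
    letI i1 := baseToComplex K₁
    oneBC h01 (alHost ↥K₀ (algebraMap ↥K₀ ℂ) 1 h hq z) =
      alHost ↥K₁ (algebraMap ↥K₁ ℂ) 1 h hq (oneBC h01 z) := by
  letI i0 := baseToComplex K₀
  letI i1 := baseToComplex K₁
  obtain ⟨f, rfl⟩ := (oneIso ↥K₀ q).surjective z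
  rw [alHost_oneIso, oneBC_oneIso, oneBC_oneIso, alHost_oneIso]
  congr 1
  exact (atkinLehnerN_keyFqHom (baseFieldIncl h01) (algebraMap ↥K₁ ℂ) h hq f).symm

/-- **(B3)** the sheet `W_0`, both directions. -/
theorem oneBC_mem_oneW0_iff (z : ↥(keyFw ↥K₀ (1 * q) 1)) :
    letI i0 := baseToComplex K₀
    letI i1 := baseToComplex K₁
    oneBC h01 z ∈ oneW0 ↥(baseRing A K₁) ↥K₁ h hq ↔ z ∈ oneW0 ↥(baseRing A K₀) ↥K₀ h hq := by
  letI i0 := baseToComplex K₀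
  letI i1 := baseToComplex K₁
  haveI : CharZero ↥(baseRing A K₀) := charZero_valuationSubring_of_algebraRat _
  haveI : CharZero ↥(baseRing A K₁) := charZero_valuationSubring_of_algebraRat _
  rw [mem_oneW0_iff, mem_oneW0_iff, ← oneBC_alHost h01 h hq, oneBC_mem_oneWinf_iff]

/-- **(B3)** the sheet `W_0`. -/
theorem oneBC_mem_oneW0 {z : ↥(keyFw ↥K₀ (1 * q) 1)} :
    letI i0 := baseToComplex K₀
    letI i1 := baseToComplex K₁
    z ∈ oneW0 ↥(baseRing A K₀) ↥K₀ h hq → oneBC h01 z ∈ oneW0 ↥(baseRing A K₁) ↥K₁ h hq :=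
  (oneBC_mem_oneW0_iff h01 A h hq z).mpr

/-- **(B5)** a uniformizer of the small base ring is a unit times a positive power of a
uniformizer of the big one. -/
theorem exists_baseRingIncl_eq_unit_mul_pow {ϖ₀ : ↥(baseRing A K₀)} (hϖ₀ : Irreducible ϖ₀)
    {ϖ₁ : ↥(baseRing A K₁)} (hϖ₁ : Irreducible ϖ₁) :
    ∃ (e : ℕ) (u : (↥(baseRing A K₁))ˣ), 1 ≤ e ∧ baseRingIncl A h01 ϖ₀ = u * ϖ₁ ^ e := by
  have h0 : baseRingIncl A h01 ϖ₀ ≠ 0 := by
    intro h
    exact hϖ₀.ne_zero ((map_eq_zero_iff _ (baseRingIncl_injective A h01)).mp h)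
  obtain ⟨e, u, hu⟩ := IsDiscreteValuationRing.eq_unit_mul_pow_irreducible h0 hϖ₁
  refine ⟨e, u, ?_, hu⟩
  by_contra he
  have he0 : e = 0 := by omega
  rw [he0, pow_zero, mul_one] at hu
  have h1 : IsUnit (baseRingIncl A h01 ϖ₀) := hu ▸ u.isUnit
  exact hϖ₀.not_isUnit (isUnit_of_map_unit (baseRingIncl A h01) ϖ₀ h1)

end Sheets

end OneBC

end

end Fermat.Agent.MW
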