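import Mathlib

/-!
# Project MW — [N-ADIC]/[RESDEG]: the residue divisor on a sheet with rational residue field
(helper7, literal of helper6 msg 1624)

`R` a discrete valuation ring with uniformizer `π` and residue field `k`; `W` a valuation subring of
a field `E ⊇ R`, `J ∈ E` transcendental over `R` such that `W ∩ R(J)` is the Gauss valuation ring
(H1) and the residue field of `W` is `k(J̄)` (H2).  For a unit `x` of `W` the reduction
`x̄ ∈ k(J̄)ˣ` has an order `resOrd x β` at every `β ∈ k` and an order `resOrdInf x` at infinity;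
they are additive, vanish on `1 + 𝔪_W`, are computed by root multiplicities / degrees on
polynomials in `J`, and (for `k` algebraically closed) satisfy the degree formula.
-/

set_option autoImplicit false
set_option linter.unusedSectionVars false

open Polynomial

namespace Fermat.Agent.MW

variable {R : Type*} [CommRing R] [IsDomain R] [IsDiscreteValuationRing R]
  {E : Type*} [Field E] [Algebra R E]

/-- the hypotheses of [RESDEG]: `J` transcendental, (H1) Gauss shape on `R[J]`, (H2) residue
degree one. -/
structure ResDegHyp (W : ValuationSubring E) (J : E) (π : R) : Prop where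
  irred : Irreducible π
  transc : Transcendental R J
  mem : ∀ p : R[X], aeval J p ∈ W
  pi_inv : (algebraMap R E π)⁻¹ ∉ W
  unit : ∀ p : R[X], ¬ C π ∣ p → (aeval J p)⁻¹ ∈ W
  deg_one : ∀ x ∈ W, ∃ p q : R[X], ¬ C π ∣ q ∧ W.valuation (x * aeval J q - aeval J p) < 1

namespace ResDegHyp

variable {W : ValuationSubring E} {J : E} {π : R} (H : ResDegHyp W J π)

local notation "k" => IsLocalRing.ResidueField R

/-- reduction of polynomials -/
noncomputable abbrev red (p : R[X]) : k[X] := p.map (IsLocalRing.residue R)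

include H in
theorem C_dvd_iff_red (p : R[X]) : C π ∣ p ↔ red p = 0 := by
  rw [Polynomial.C_dvd_iff_dvd_coeff, Polynomial.ext_iff]
  refine forall_congr' fun n => ?_
  rw [Polynomial.coeff_map, Polynomial.coeff_zero, IsLocalRing.residue_eq_zero_iff,
    H.irred.maximalIdeal_eq, Ideal.mem_span_singleton]

include H in
theorem algebraMap_pi_ne_zero : algebraMap R E π ≠ 0 := by
  intro h
  apply H.pi_inv
  rw [h, inv_zero]
  exact W.zero_mem

include H in
theorem valuation_pi_lt_one : W.valuation (algebraMap R E π) < 1 := by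
  have h1 : ¬ W.valuation ((algebraMap R E π)⁻¹) ≤ 1 := by
    rw [ValuationSubring.valuation_le_one_iff]
    exact H.pi_inv
  rw [not_le, map_inv₀] at h1
  have h0 : 0 < W.valuation (algebraMap R E π) :=
    zero_lt_iff.mpr ((Valuation.ne_zero_iff _).mpr H.algebraMap_pi_ne_zero)
  exact (one_lt_inv₀ h0).mp h1

include H in
theorem valuation_aeval_le_one (p : R[X]) : W.valuation (aeval J p) ≤ 1 :=
  (ValuationSubring.valuation_le_one_iff _ _).mpr (H.mem p)

include H in
theorem aeval_ne_zero {p : R[X]} (hp : p ≠ 0) : aeval J p ≠ 0 := by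
  intro h
  exact H.transc ⟨p, hp, h⟩

include H in
theorem ne_zero_of_not_dvd {p : R[X]} (hp : ¬ C π ∣ p) : p ≠ 0 := by
  rintro rfl
  exact hp (dvd_zero _)

include H in
theorem valuation_aeval_eq_one {p : R[X]} (hp : ¬ C π ∣ p) : W.valuation (aeval J p) = 1 := by
  apply le_antisymm (H.valuation_aeval_le_one p)
  have h1 : W.valuation ((aeval J p)⁻¹) ≤ 1 :=
    (ValuationSubring.valuation_le_one_iff _ _).mpr (H.unit p hp)
  have h0 : aeval J p ≠ 0 := H.aeval_ne_zero (H.ne_zero_of_not_dvd hp)
  rw [map_inv₀] at h1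
  have h2 : 0 < W.valuation (aeval J p) := zero_lt_iff.mpr ((Valuation.ne_zero_iff _).mpr h0)
  exact (inv_le_one₀ h2).mp h1

include H in
theorem valuation_aeval_lt_one {p : R[X]} (hp : C π ∣ p) : W.valuation (aeval J p) < 1 := by
  obtain ⟨p', rfl⟩ := hp
  rw [map_mul, aeval_C, map_mul]
  calc W.valuation (algebraMap R E π) * W.valuation (aeval J p')
      ≤ W.valuation (algebraMap R E π) * 1 :=
        mul_le_mul_right (H.valuation_aeval_le_one p') _
    _ = W.valuation (algebraMap R E π) := mul_one _
    _ < 1 := H.valuation_pi_lt_one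

include H in
theorem dvd_of_valuation_lt_one {p : R[X]} (h : W.valuation (aeval J p) < 1) : C π ∣ p := by
  by_contra hp
  rw [H.valuation_aeval_eq_one hp] at h
  exact lt_irrefl _ h

/-- `p / q` represents the reduction of `x`. -/
def IsResFrac (_H : ResDegHyp W J π) (x : E) (p q : R[X]) : Prop :=
  ¬ C π ∣ p ∧ ¬ C π ∣ q ∧ W.valuation (x * aeval J q - aeval J p) < 1

include H in
theorem exists_isResFrac {x : E} (hx : W.valuation x = 1) : ∃ p q, H.IsResFrac x p q := by
  have hxW : x ∈ W := (ValuationSubring.valuation_le_one_iff _ _).mp hx.le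
  obtain ⟨p, q, hq, h⟩ := H.deg_one x hxW
  refine ⟨p, q, ?_, hq, h⟩
  intro hp
  have h1 := H.valuation_aeval_lt_one hp
  have h2 : W.valuation (x * aeval J q) = 1 := by
    rw [map_mul, hx, H.valuation_aeval_eq_one hq, one_mul]
  have h3 : x * aeval J q = (x * aeval J q - aeval J p) + aeval J p := by ring
  have h4 : W.valuation (x * aeval J q) < 1 := by
    rw [h3]
    exact lt_of_le_of_lt (Valuation.map_add _ _ _) (max_lt h h1)
  rw [h2] at h4
  exact lt_irrefl _ h4

include H in
/-- the key cross-multiplication lemma -/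
theorem IsResFrac.cross {x x' : E} {p q p' q' : R[X]} (h : H.IsResFrac x p q)
    (h' : H.IsResFrac x' p' q') (hxx : W.valuation (x - x') < 1) :
    red p * red q' = red p' * red q := by
  have key : W.valuation (aeval J (p * q' - p' * q)) < 1 := by
    have e : aeval J (p * q' - p' * q)
        = -(x * aeval J q - aeval J p) * aeval J q'
          + (x' * aeval J q' - aeval J p') * aeval J q
          + (x - x') * (aeval J q * aeval J q') := by
      rw [map_sub, map_mul, map_mul]
      ring
    rw [e]
    refine lt_of_le_of_lt (Valuation.map_add _ _ _) (max_lt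
      (lt_of_le_of_lt (Valuation.map_add _ _ _) (max_lt ?_ ?_)) ?_)
    · rw [map_mul, Valuation.map_neg]
      calc W.valuation (x * aeval J q - aeval J p) * W.valuation (aeval J q')
          ≤ W.valuation (x * aeval J q - aeval J p) * 1 :=
            mul_le_mul_right (H.valuation_aeval_le_one q') _
        _ = _ := mul_one _
        _ < 1 := h.2.2
    · rw [map_mul]
      calc W.valuation (x' * aeval J q' - aeval J p') * W.valuation (aeval J q)
          ≤ W.valuation (x' * aeval J q' - aeval J p') * 1 :=
            mul_le_mul_right (H.valuation_aeval_le_one q) _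
        _ = _ := mul_one _
        _ < 1 := h'.2.2
    · rw [map_mul, map_mul]
      calc W.valuation (x - x') * (W.valuation (aeval J q) * W.valuation (aeval J q'))
          ≤ W.valuation (x - x') * (1 * 1) :=
            mul_le_mul_right (mul_le_mul' (H.valuation_aeval_le_one q)
              (H.valuation_aeval_le_one q')) _
        _ = _ := by rw [one_mul, mul_one]
        _ < 1 := hxx
  have hd := H.dvd_of_valuation_lt_one key
  rw [H.C_dvd_iff_red] at hd
  have : red (p * q' - p' * q) = red p * red q' - red p' * red q := by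
    simp only [red, Polynomial.map_sub, Polynomial.map_mul]
  rw [this, sub_eq_zero] at hd
  exact hd

include H in
theorem red_ne_zero {p : R[X]} (hp : ¬ C π ∣ p) : red p ≠ 0 := fun h =>
  hp ((H.C_dvd_iff_red p).mpr h)

include H in
theorem not_dvd_mul {p q : R[X]} (hp : ¬ C π ∣ p) (hq : ¬ C π ∣ q) : ¬ C π ∣ p * q := by
  rw [H.C_dvd_iff_red]
  have : red (p * q) = red p * red q := Polynomial.map_mul _
  rw [this]
  exact mul_ne_zero (H.red_ne_zero hp) (H.red_ne_zero hq)

include H in
theorem not_dvd_one : ¬ C π ∣ (1 : R[X]) := by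
  rw [H.C_dvd_iff_red]
  have : red (1 : R[X]) = 1 := Polynomial.map_one _
  rw [this]
  exact one_ne_zero

include H in
theorem IsResFrac.mul {x y : E} {p q p' q' : R[X]} (h : H.IsResFrac x p q)
    (h' : H.IsResFrac y p' q') (hy : W.valuation y ≤ 1) :
    H.IsResFrac (x * y) (p * p') (q * q') := by
  refine ⟨H.not_dvd_mul h.1 h'.1, H.not_dvd_mul h.2.1 h'.2.1, ?_⟩
  have e : x * y * aeval J (q * q') - aeval J (p * p')
      = (x * aeval J q - aeval J p) * (y * aeval J q')
        + aeval J p * (y * aeval J q' - aeval J p') := by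
    rw [map_mul, map_mul]
    ring
  rw [e]
  refine lt_of_le_of_lt (Valuation.map_add _ _ _) (max_lt ?_ ?_)
  · rw [map_mul, map_mul]
    calc W.valuation (x * aeval J q - aeval J p) * (W.valuation y * W.valuation (aeval J q'))
        ≤ W.valuation (x * aeval J q - aeval J p) * (1 * 1) :=
          mul_le_mul_right (mul_le_mul' hy (H.valuation_aeval_le_one q')) _
      _ = _ := by rw [one_mul, mul_one]
      _ < 1 := h.2.2
  · rw [map_mul]
    calc W.valuation (aeval J p) * W.valuation (y * aeval J q' - aeval J p')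
        ≤ 1 * W.valuation (y * aeval J q' - aeval J p') :=
          mul_le_mul_left (H.valuation_aeval_le_one p) _
      _ = _ := one_mul _
      _ < 1 := h'.2.2

include H in
theorem IsResFrac.inv {x : E} {p q : R[X]} (h : H.IsResFrac x p q) (hx : W.valuation x = 1) :
    H.IsResFrac x⁻¹ q p := by
  refine ⟨h.2.1, h.1, ?_⟩
  have hx0 : x ≠ 0 := by
    rintro rfl
    rw [map_zero] at hx
    exact zero_ne_one hx
  have e : x⁻¹ * aeval J p - aeval J q = -(x⁻¹ * (x * aeval J q - aeval J p)) := by
    field_simp
    ring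
  rw [e, Valuation.map_neg, map_mul, map_inv₀, hx, inv_one, one_mul]
  exact h.2.2

include H in
theorem isResFrac_aeval {p : R[X]} (hp : ¬ C π ∣ p) : H.IsResFrac (aeval J p) p 1 := by
  refine ⟨hp, H.not_dvd_one, ?_⟩
  rw [map_one, mul_one, sub_self, map_zero]
  exact zero_lt_one

include H in
theorem valuation_eq_one_of_sub_one {x : E} (h : W.valuation (x - 1) < 1) :
    W.valuation x = 1 := by
  have e : x = 1 + (x - 1) := by ring
  rw [e]
  exact (W.valuation).map_one_add_of_lt h

include H in
theorem isResFrac_of_sub_one {x : E} (h : W.valuation (x - 1) < 1) : H.IsResFrac x 1 1 := by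
  refine ⟨H.not_dvd_one, H.not_dvd_one, ?_⟩
  rw [map_one, mul_one]
  exact h

open Classical in
/-- the order at `β ∈ k` of the reduction of a unit `x` of `W` (junk `0` on non-units). -/
noncomputable def resOrd (H : ResDegHyp W J π) (x : E) (β : k) : ℤ :=
  if h : W.valuation x = 1 then
    ((red (H.exists_isResFrac h).choose).rootMultiplicity β : ℤ)
      - ((red (H.exists_isResFrac h).choose_spec.choose).rootMultiplicity β : ℤ)
  else 0

open Classical in
/-- the order at infinity of the reduction of a unit `x` of `W` (junk `0` on non-units). -/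
noncomputable def resOrdInf (H : ResDegHyp W J π) (x : E) : ℤ :=
  if h : W.valuation x = 1 then
    ((red (H.exists_isResFrac h).choose_spec.choose).natDegree : ℤ)
      - ((red (H.exists_isResFrac h).choose).natDegree : ℤ)
  else 0

theorem resOrd_eq {x : E} (hx : W.valuation x = 1) {p q : R[X]} (h : H.IsResFrac x p q)
    (β : k) :
    H.resOrd x β = ((red p).rootMultiplicity β : ℤ) - ((red q).rootMultiplicity β : ℤ) := by
  unfold resOrd
  rw [dif_pos hx]
  have hc := (H.exists_isResFrac hx).choose_spec.choose_spec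
  have hcross := hc.cross H h (by rw [sub_self, map_zero]; exact zero_lt_one)
  have h1 := Polynomial.rootMultiplicity_mul (x := β)
    (mul_ne_zero (H.red_ne_zero hc.1) (H.red_ne_zero h.2.1))
  have h2 := Polynomial.rootMultiplicity_mul (x := β)
    (mul_ne_zero (H.red_ne_zero h.1) (H.red_ne_zero hc.2.1))
  rw [hcross] at h1
  rw [h1] at h2
  omega

theorem resOrdInf_eq {x : E} (hx : W.valuation x = 1) {p q : R[X]} (h : H.IsResFrac x p q) :
    H.resOrdInf x = ((red q).natDegree : ℤ) - ((red p).natDegree : ℤ) := by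
  unfold resOrdInf
  rw [dif_pos hx]
  have hc := (H.exists_isResFrac hx).choose_spec.choose_spec
  have hcross := hc.cross H h (by rw [sub_self, map_zero]; exact zero_lt_one)
  have h1 := Polynomial.natDegree_mul (H.red_ne_zero hc.1) (H.red_ne_zero h.2.1)
  have h2 := Polynomial.natDegree_mul (H.red_ne_zero h.1) (H.red_ne_zero hc.2.1)
  rw [hcross] at h1
  rw [h1] at h2
  omega

/-- (a) -/
theorem resOrd_mul {x y : E} (hx : W.valuation x = 1) (hy : W.valuation y = 1) (β : k) :
    H.resOrd (x * y) β = H.resOrd x β + H.resOrd y β := by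
  obtain ⟨p, q, h⟩ := H.exists_isResFrac hx
  obtain ⟨p', q', h'⟩ := H.exists_isResFrac hy
  have hxy : W.valuation (x * y) = 1 := by rw [map_mul, hx, hy, one_mul]
  rw [H.resOrd_eq hxy (h.mul H h' hy.le), H.resOrd_eq hx h, H.resOrd_eq hy h']
  have e1 : red (p * p') = red p * red p' := Polynomial.map_mul _
  have e2 : red (q * q') = red q * red q' := Polynomial.map_mul _
  rw [e1, e2, Polynomial.rootMultiplicity_mul (mul_ne_zero (H.red_ne_zero h.1)
    (H.red_ne_zero h'.1)), Polynomial.rootMultiplicity_mul (mul_ne_zero (H.red_ne_zero h.2.1)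
    (H.red_ne_zero h'.2.1))]
  push_cast
  ring

theorem resOrdInf_mul {x y : E} (hx : W.valuation x = 1) (hy : W.valuation y = 1) :
    H.resOrdInf (x * y) = H.resOrdInf x + H.resOrdInf y := by
  obtain ⟨p, q, h⟩ := H.exists_isResFrac hx
  obtain ⟨p', q', h'⟩ := H.exists_isResFrac hy
  have hxy : W.valuation (x * y) = 1 := by rw [map_mul, hx, hy, one_mul]
  rw [H.resOrdInf_eq hxy (h.mul H h' hy.le), H.resOrdInf_eq hx h, H.resOrdInf_eq hy h']
  have e1 : red (p * p') = red p * red p' := Polynomial.map_mul _
  have e2 : red (q * q') = red q * red q' := Polynomial.map_mul _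
  rw [e1, e2, Polynomial.natDegree_mul (H.red_ne_zero h.1) (H.red_ne_zero h'.1),
    Polynomial.natDegree_mul (H.red_ne_zero h.2.1) (H.red_ne_zero h'.2.1)]
  push_cast
  ring

theorem resOrd_inv {x : E} (hx : W.valuation x = 1) (β : k) :
    H.resOrd x⁻¹ β = -H.resOrd x β := by
  obtain ⟨p, q, h⟩ := H.exists_isResFrac hx
  have hx' : W.valuation x⁻¹ = 1 := by rw [map_inv₀, hx, inv_one]
  rw [H.resOrd_eq hx' (h.inv H hx), H.resOrd_eq hx h]
  ring

theorem resOrdInf_inv {x : E} (hx : W.valuation x = 1) :
    H.resOrdInf x⁻¹ = -H.resOrdInf x := by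
  obtain ⟨p, q, h⟩ := H.exists_isResFrac hx
  have hx' : W.valuation x⁻¹ = 1 := by rw [map_inv₀, hx, inv_one]
  rw [H.resOrdInf_eq hx' (h.inv H hx), H.resOrdInf_eq hx h]
  ring

/-- (b) -/
theorem resOrd_eq_zero_of_sub_one {x : E} (h : W.valuation (x - 1) < 1) (β : k) :
    H.resOrd x β = 0 := by
  rw [H.resOrd_eq (H.valuation_eq_one_of_sub_one h) (H.isResFrac_of_sub_one h), sub_self]

theorem resOrdInf_eq_zero_of_sub_one {x : E} (h : W.valuation (x - 1) < 1) :
    H.resOrdInf x = 0 := by
  rw [H.resOrdInf_eq (H.valuation_eq_one_of_sub_one h) (H.isResFrac_of_sub_one h), sub_self]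

theorem resOrd_one (β : k) : H.resOrd 1 β = 0 :=
  H.resOrd_eq_zero_of_sub_one (by rw [sub_self, map_zero]; exact zero_lt_one) β

theorem resOrdInf_one : H.resOrdInf 1 = 0 :=
  H.resOrdInf_eq_zero_of_sub_one (by rw [sub_self, map_zero]; exact zero_lt_one)

theorem valuation_div_sub_one {x y : E} (hy : W.valuation y = 1)
    (h : W.valuation (x - y) < 1) : W.valuation (x * y⁻¹ - 1) < 1 := by
  have hy0 : y ≠ 0 := by
    rintro rfl
    rw [map_zero] at hy
    exact zero_ne_one hy
  have e : x * y⁻¹ - 1 = (x - y) * y⁻¹ := by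
    field_simp
  rw [e, map_mul, map_inv₀, hy, inv_one, mul_one]
  exact h

theorem resOrd_congr {x y : E} (hx : W.valuation x = 1) (hy : W.valuation y = 1)
    (h : W.valuation (x - y) < 1) (β : k) : H.resOrd x β = H.resOrd y β := by
  have hy' : W.valuation y⁻¹ = 1 := by rw [map_inv₀, hy, inv_one]
  have h1 := H.resOrd_eq_zero_of_sub_one (valuation_div_sub_one hy h) β
  rw [H.resOrd_mul hx hy', H.resOrd_inv hy] at h1
  linarith

theorem resOrdInf_congr {x y : E} (hx : W.valuation x = 1) (hy : W.valuation y = 1)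
    (h : W.valuation (x - y) < 1) : H.resOrdInf x = H.resOrdInf y := by
  have hy' : W.valuation y⁻¹ = 1 := by rw [map_inv₀, hy, inv_one]
  have h1 := H.resOrdInf_eq_zero_of_sub_one (valuation_div_sub_one hy h)
  rw [H.resOrdInf_mul hx hy', H.resOrdInf_inv hy] at h1
  linarith

/-- (c) -/
theorem resOrd_aeval {p : R[X]} (hp : ¬ C π ∣ p) (β : k) :
    H.resOrd (aeval J p) β = ((red p).rootMultiplicity β : ℤ) := by
  rw [H.resOrd_eq (H.valuation_aeval_eq_one hp) (H.isResFrac_aeval hp)]
  have : red (1 : R[X]) = C 1 := by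
    rw [map_one]
    exact Polynomial.map_one _
  rw [this, Polynomial.rootMultiplicity_C]
  simp

theorem resOrdInf_aeval {p : R[X]} (hp : ¬ C π ∣ p) :
    H.resOrdInf (aeval J p) = -((red p).natDegree : ℤ) := by
  rw [H.resOrdInf_eq (H.valuation_aeval_eq_one hp) (H.isResFrac_aeval hp)]
  have : red (1 : R[X]) = 1 := Polynomial.map_one _
  rw [this, Polynomial.natDegree_one]
  simp

/-- the sum of the root multiplicities over a finite set containing all roots is the degree
(over an algebraically closed field). -/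
theorem sum_rootMultiplicity_eq_natDegree [IsAlgClosed k] [DecidableEq k] {f : k[X]}
    (hf : f ≠ 0) (Z : Finset k) (hZ : ∀ β, f.IsRoot β → β ∈ Z) :
    ∑ β ∈ Z, (f.rootMultiplicity β : ℤ) = f.natDegree := by
  have h1 : f.roots.card = f.natDegree :=
    Polynomial.splits_iff_card_roots.mp (IsAlgClosed.splits f)
  have hsub : f.roots.toFinset ⊆ Z := by
    intro β hβ
    rw [Multiset.mem_toFinset, Polynomial.mem_roots hf] at hβ
    exact hZ β hβ
  rw [← h1, ← Multiset.toFinset_sum_count_eq]
  push_cast
  rw [← Finset.sum_subset hsub]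
  · refine Finset.sum_congr rfl fun β _ => ?_
    rw [Polynomial.count_roots]
  · intro β _ hβ
    rw [Multiset.mem_toFinset, Polynomial.mem_roots hf] at hβ
    rw [Polynomial.rootMultiplicity_eq_zero hβ]
    rfl

/-- (d) **the degree formula** -/
theorem exists_sum_resOrd [IsAlgClosed k] {x : E} (hx : W.valuation x = 1) :
    ∃ Z : Finset k, (∀ β, β ∉ Z → H.resOrd x β = 0) ∧
      ∑ β ∈ Z, H.resOrd x β + H.resOrdInf x = 0 := by
  classical
  obtain ⟨p, q, h⟩ := H.exists_isResFrac hx
  have hp0 := H.red_ne_zero h.1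
  have hq0 := H.red_ne_zero h.2.1
  refine ⟨(red p).roots.toFinset ∪ (red q).roots.toFinset, ?_, ?_⟩
  · intro β hβ
    rw [Finset.mem_union, not_or, Multiset.mem_toFinset, Multiset.mem_toFinset,
      Polynomial.mem_roots hp0, Polynomial.mem_roots hq0] at hβ
    rw [H.resOrd_eq hx h, Polynomial.rootMultiplicity_eq_zero hβ.1,
      Polynomial.rootMultiplicity_eq_zero hβ.2]
    simp
  · have e : ∀ β, H.resOrd x β
        = ((red p).rootMultiplicity β : ℤ) - ((red q).rootMultiplicity β : ℤ) :=
      fun β => H.resOrd_eq hx h β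
    simp only [e]
    rw [Finset.sum_sub_distrib, H.resOrdInf_eq hx h,
      sum_rootMultiplicity_eq_natDegree hp0 _ (fun β hβ => by
        simp only [Finset.mem_union, Multiset.mem_toFinset, Polynomial.mem_roots hp0,
          Polynomial.mem_roots hq0]
        exact Or.inl hβ),
      sum_rootMultiplicity_eq_natDegree hq0 _ (fun β hβ => by
        simp only [Finset.mem_union, Multiset.mem_toFinset, Polynomial.mem_roots hp0,
          Polynomial.mem_roots hq0]
        exact Or.inr hβ)]
    ring

end ResDegHyp

end Fermat.Agent.MW
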