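import Mathlib
import Fermat.Agent.MW.NADIC_helper7_ResDeg

/-!
# Project MW — [N-ADIC]/[RESINV] (helper4, literal of helper6 msg 1658)

The point at infinity of a sheet is the point `0` for the coordinate `J⁻¹`:
* `ResDegHyp.inv : ResDegHyp W J π → ResDegHyp W J⁻¹ π`;
* `ResDegHyp.resOrd_inv_zero : H.inv.resOrd x 0 = H.resOrdInf x` for units `x` of `W`.
-/

set_option autoImplicit false
set_option linter.unusedSectionVars false

open Polynomial

namespace Fermat.Agent.MW

/-- evaluation of a reflected polynomial at the inverse. -/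
theorem aeval_inv_reflect_mul_pow {R : Type*} [CommRing R] {E : Type*} [Field E] [Algebra R E]
    {J : E} (hJ : J ≠ 0) (N : ℕ) (p : R[X]) (hp : p.natDegree ≤ N) :
    aeval J⁻¹ (p.reflect N) * J ^ N = aeval J p := by
  let _ := invertibleOfNonzero hJ
  have h := eval₂_reflect_mul_pow (algebraMap R E) J N p hp
  rw [invOf_eq_inv] at h
  rw [aeval_def, aeval_def]
  exact h

theorem aeval_inv_mul_pow {R : Type*} [CommRing R] {E : Type*} [Field E] [Algebra R E]
    {J : E} (hJ : J ≠ 0) (N : ℕ) (p : R[X]) (hp : p.natDegree ≤ N) :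
    aeval J⁻¹ p * J ^ N = aeval J (p.reflect N) := by
  have h1 : (p.reflect N).natDegree ≤ N :=
    natDegree_reflect_le.trans (max_le le_rfl hp)
  have h := aeval_inv_reflect_mul_pow hJ N (p.reflect N) h1
  rwa [reflect_reflect] at h

/-- the root multiplicity at `0` of a reflected polynomial. -/
theorem rootMultiplicity_zero_reflect {K : Type*} [CommRing K] {f : K[X]} (hf : f ≠ 0) {d : ℕ}
    (hd : f.natDegree ≤ d) : (f.reflect d).rootMultiplicity 0 = d - f.natDegree := by
  rw [rootMultiplicity_eq_natTrailingDegree']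
  have hne : f.reflect d ≠ 0 := by rwa [Ne, reflect_eq_zero_iff]
  apply le_antisymm
  · apply natTrailingDegree_le_of_ne_zero
    rw [coeff_reflect, revAt_le (Nat.sub_le _ _), Nat.sub_sub_self hd]
    exact leadingCoeff_ne_zero.mpr hf
  · apply le_natTrailingDegree hne
    intro m hm
    rw [coeff_reflect, revAt_le (by omega)]
    apply coeff_eq_zero_of_natDegree_lt
    omega

variable {R : Type*} [CommRing R] [IsDomain R] [IsDiscreteValuationRing R]
  {E : Type*} [Field E] [Algebra R E]

namespace ResDegHyp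

variable {W : ValuationSubring E} {J : E} {π : R} (H : ResDegHyp W J π)

local notation "k" => IsLocalRing.ResidueField R

include H in
theorem not_dvd_X : ¬ C π ∣ (X : R[X]) := by
  rw [H.C_dvd_iff_red]
  have : red (X : R[X]) = X := Polynomial.map_X _
  rw [this]
  exact X_ne_zero

include H in
theorem valuation_J : W.valuation J = 1 := by
  have := H.valuation_aeval_eq_one H.not_dvd_X
  rwa [aeval_X] at this

include H in
theorem J_ne_zero : J ≠ 0 := by
  intro h
  have := H.valuation_J
  rw [h, map_zero] at this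
  exact zero_ne_one this

include H in
theorem J_mem : J ∈ W := (ValuationSubring.valuation_le_one_iff _ _).mp H.valuation_J.le

include H in
theorem J_inv_mem : J⁻¹ ∈ W := by
  rw [← ValuationSubring.valuation_le_one_iff, map_inv₀, H.valuation_J, inv_one]

include H in
theorem C_dvd_reflect_iff (p : R[X]) (N : ℕ) : C π ∣ p.reflect N ↔ C π ∣ p := by
  rw [H.C_dvd_iff_red, H.C_dvd_iff_red]
  have : red (p.reflect N) = (red p).reflect N := (reflect_map _ _ _).symm
  rw [this, reflect_eq_zero_iff]

include H in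
/-- (I1) **the coordinate `J⁻¹`.** -/
theorem inv : ResDegHyp W J⁻¹ π where
  irred := H.irred
  transc := fun h => H.transc (IsAlgebraic.inv_iff.mp h)
  mem := by
    intro p
    have h := aeval_inv_mul_pow (R := R) H.J_ne_zero p.natDegree p le_rfl
    have hJ : J ^ p.natDegree ≠ 0 := pow_ne_zero _ H.J_ne_zero
    have e : aeval J⁻¹ p = aeval J (p.reflect p.natDegree) * J⁻¹ ^ p.natDegree := by
      rw [← h, inv_pow, mul_assoc, mul_inv_cancel₀ hJ, mul_one]
    rw [e]
    exact W.mul_mem _ _ (H.mem _) (pow_mem H.J_inv_mem _)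
  pi_inv := H.pi_inv
  unit := by
    intro p hp
    have h := aeval_inv_mul_pow (R := R) H.J_ne_zero p.natDegree p le_rfl
    have hJ : J ^ p.natDegree ≠ 0 := pow_ne_zero _ H.J_ne_zero
    have hp' : ¬ C π ∣ p.reflect p.natDegree := by rwa [H.C_dvd_reflect_iff]
    have e : (aeval J⁻¹ p)⁻¹ = (aeval J (p.reflect p.natDegree))⁻¹ * J ^ p.natDegree := by
      rw [← h, mul_inv, mul_assoc, inv_mul_cancel₀ hJ, mul_one]
    rw [e]
    exact W.mul_mem _ _ (H.unit _ hp') (pow_mem H.J_mem _)
  deg_one := by
    intro x hx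
    obtain ⟨p, q, hq, h⟩ := H.deg_one x hx
    set d := max p.natDegree q.natDegree with hd
    have hJ : J ^ d ≠ 0 := pow_ne_zero _ H.J_ne_zero
    refine ⟨p.reflect d, q.reflect d, by rwa [H.C_dvd_reflect_iff], ?_⟩
    have hp1 := aeval_inv_reflect_mul_pow (R := R) H.J_ne_zero d p (le_max_left _ _)
    have hq1 := aeval_inv_reflect_mul_pow (R := R) H.J_ne_zero d q (le_max_right _ _)
    have e : x * aeval J⁻¹ (q.reflect d) - aeval J⁻¹ (p.reflect d) =
        (x * aeval J q - aeval J p) * J⁻¹ ^ d := by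
      rw [← hp1, ← hq1, inv_pow]
      field_simp
    rw [e, map_mul, map_pow, map_inv₀, H.valuation_J, inv_one, one_pow, mul_one]
    exact h

include H in
theorem IsResFrac.reflect {x : E} {p q : R[X]} (h : H.IsResFrac x p q) {d : ℕ}
    (hp : p.natDegree ≤ d) (hq : q.natDegree ≤ d) :
    H.inv.IsResFrac x (p.reflect d) (q.reflect d) := by
  refine ⟨by rw [H.C_dvd_reflect_iff]; exact h.1, by rw [H.C_dvd_reflect_iff]; exact h.2.1, ?_⟩
  have hJ : J ^ d ≠ 0 := pow_ne_zero _ H.J_ne_zero
  have hp1 := aeval_inv_reflect_mul_pow (R := R) H.J_ne_zero d p hp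
  have hq1 := aeval_inv_reflect_mul_pow (R := R) H.J_ne_zero d q hq
  have e : x * aeval J⁻¹ (q.reflect d) - aeval J⁻¹ (p.reflect d) =
      (x * aeval J q - aeval J p) * J⁻¹ ^ d := by
    rw [← hp1, ← hq1, inv_pow]
    field_simp
  rw [e, map_mul, map_pow, map_inv₀, H.valuation_J, inv_one, one_pow, mul_one]
  exact h.2.2

/-- (I2) **the order at infinity is the order at `0` for the coordinate `J⁻¹`.** -/
theorem resOrd_inv_zero {x : E} (hx : W.valuation x = 1) :
    H.inv.resOrd x 0 = H.resOrdInf x := by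
  obtain ⟨p, q, h⟩ := H.exists_isResFrac hx
  set d := max p.natDegree q.natDegree with hd
  have hp : p.natDegree ≤ d := le_max_left _ _
  have hq : q.natDegree ≤ d := le_max_right _ _
  rw [H.inv.resOrd_eq hx (h.reflect H hp hq) 0, H.resOrdInf_eq hx h]
  have e1 : red (p.reflect d) = (red p).reflect d := (reflect_map _ _ _).symm
  have e2 : red (q.reflect d) = (red q).reflect d := (reflect_map _ _ _).symm
  have hp' : (red p).natDegree ≤ d := (natDegree_map_le).trans hp
  have hq' : (red q).natDegree ≤ d := (natDegree_map_le).trans hq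
  rw [e1, e2, rootMultiplicity_zero_reflect (H.red_ne_zero h.1) hp',
    rootMultiplicity_zero_reflect (H.red_ne_zero h.2.1) hq']
  push_cast [Nat.cast_sub hp', Nat.cast_sub hq']
  ring

end ResDegHyp

end Fermat.Agent.MW
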