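import Mathlib
import Fermat.Agent.MW.NADIC_helper7_ResDeg

/-!
# Project MW — [N-ADIC]/[DET]: the sheet is a line (helper7, literal of helper6 msgs 1634/1638)

In the setting of `ResDegHyp W J π`: every element of `E` which is integral over a subalgebra `A`
all of whose elements are congruent to polynomials in `J` modulo the maximal ideal of `W` is itself
congruent to a polynomial in `J` (the residue ring `k[J̄]` is integrally closed in `k(J̄)`).
-/

set_option autoImplicit false
set_option linter.unusedSectionVars false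

open Polynomial

namespace Fermat.Agent.MW

/-- in `K[X]`: a monic homogeneous relation `∑ c_i Q^(n-i) P^i = 0`, `c_n = 1`, forces `Q ∣ P`. -/
theorem dvd_of_homogeneous_monic_relation {K : Type*} [Field K] (P Q : K[X]) (hQ : Q ≠ 0) (n : ℕ)
    (c : ℕ → K[X]) (hc : c n = 1)
    (h : ∑ i ∈ Finset.range (n + 1), c i * Q ^ (n - i) * P ^ i = 0) : Q ∣ P := by
  classical
  have hg0 : GCDMonoid.gcd P Q ≠ 0 := gcd_ne_zero_of_right hQ
  obtain ⟨P₁, hP₁⟩ := GCDMonoid.gcd_dvd_left P Q
  obtain ⟨Q₁, hQ₁⟩ := GCDMonoid.gcd_dvd_right P Q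
  set g := GCDMonoid.gcd P Q with hg
  have hcop : IsCoprime P₁ Q₁ := by
    have h1 := isCoprime_div_gcd_div_gcd (p := P) (q := Q) hQ
    have e1 : P / GCDMonoid.gcd P Q = P₁ := by
      rw [← hg]
      nth_rw 1 [hP₁]
      exact mul_div_cancel_left₀ _ hg0
    have e2 : Q / GCDMonoid.gcd P Q = Q₁ := by
      rw [← hg]
      nth_rw 1 [hQ₁]
      exact mul_div_cancel_left₀ _ hg0
    rwa [e1, e2] at h1
  have h2 : g ^ n * ∑ i ∈ Finset.range (n + 1), c i * Q₁ ^ (n - i) * P₁ ^ i = 0 := by
    rw [← h, Finset.mul_sum]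
    refine Finset.sum_congr rfl fun i hi => ?_
    have hi' : i ≤ n := Nat.lt_succ_iff.mp (Finset.mem_range.mp hi)
    have e : g ^ n = g ^ (n - i) * g ^ i := by rw [← pow_add, Nat.sub_add_cancel hi']
    rw [hP₁, hQ₁, mul_pow, mul_pow, e]
    ring
  have h3 : ∑ i ∈ Finset.range (n + 1), c i * Q₁ ^ (n - i) * P₁ ^ i = 0 :=
    (mul_eq_zero.mp h2).resolve_left (pow_ne_zero n hg0)
  rw [Finset.sum_range_succ, hc, Nat.sub_self, pow_zero, one_mul, one_mul] at h3
  have h4 : Q₁ ∣ P₁ ^ n := by
    have h5 : P₁ ^ n = -∑ i ∈ Finset.range n, c i * Q₁ ^ (n - i) * P₁ ^ i := by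
      linear_combination h3
    rw [h5]
    refine (Finset.dvd_sum fun i hi => ?_).neg_right
    have hi' : i < n := Finset.mem_range.mp hi
    exact Dvd.dvd.mul_right (Dvd.dvd.mul_left (dvd_pow_self Q₁ (by omega)) _) _
  have hu : IsUnit Q₁ := (hcop.pow_left (m := n)).isUnit_of_dvd' h4 dvd_rfl
  obtain ⟨u, hu⟩ := hu
  refine ⟨↑u⁻¹ * P₁, ?_⟩
  rw [hP₁, hQ₁, ← hu]
  have : (u : K[X]) * ↑u⁻¹ = 1 := Units.mul_inv u
  linear_combination (-(g * P₁)) * this

variable {R : Type*} [CommRing R] [IsDomain R] [IsDiscreteValuationRing R]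
  {E : Type*} [Field E] [Algebra R E]

namespace ResDegHyp

variable {W : ValuationSubring E} {J : E} {π : R} (H : ResDegHyp W J π)

local notation "k" => IsLocalRing.ResidueField R

theorem exists_red_eq (f : k[X]) : ∃ g : R[X], red g = f :=
  Polynomial.map_surjective _ IsLocalRing.residue_surjective f

include H in
theorem valuation_aeval_sub_lt_one_of_red_eq {p p' : R[X]} (h : red p = red p') :
    W.valuation (aeval J p - aeval J p') < 1 := by
  rw [← map_sub]
  apply H.valuation_aeval_lt_one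
  rw [H.C_dvd_iff_red]
  have : red (p - p') = red p - red p' := Polynomial.map_sub _
  rw [this, h, sub_self]

include H in
theorem red_eq_of_valuation_sub_lt_one {p p' : R[X]}
    (h : W.valuation (aeval J p - aeval J p') < 1) : red p = red p' := by
  rw [← map_sub] at h
  have h1 := H.dvd_of_valuation_lt_one h
  rw [H.C_dvd_iff_red] at h1
  have : red (p - p') = red p - red p' := Polynomial.map_sub _
  rw [this, sub_eq_zero] at h1
  exact h1

/-- elements congruent to polynomials in `J` lie in `W`. -/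
theorem mem_of_sub_lt_one (H : ResDegHyp W J π) {a : E} {g : R[X]}
    (h : W.valuation (a - aeval J g) < 1) : a ∈ W := by
  have e : a = (a - aeval J g) + aeval J g := by ring
  rw [e]
  exact W.add_mem _ _ ((ValuationSubring.valuation_le_one_iff _ _).mp h.le) (H.mem g)

/-- an element integral over a subalgebra of `W` lies in `W`. -/
theorem mem_of_isIntegral_of_le (A : Subalgebra R E) (hA : ∀ a ∈ A, a ∈ W) {b : E}
    (hb : IsIntegral ↥A b) : b ∈ W := by
  let φ : ↥A →+* ↥W :=
    { toFun := fun a => ⟨(a : E), hA a a.2⟩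
      map_one' := rfl
      map_mul' := fun _ _ => rfl
      map_zero' := rfl
      map_add' := fun _ _ => rfl }
  have hb' : IsIntegral ↥W b := by
    have := IsIntegral.map_of_comp_eq (R := ↥A) (S := E) (T := ↥W) (U := E) φ (RingHom.id E)
      (by ext a; rfl) hb
    simpa using this
  obtain ⟨y, hy⟩ := (IsIntegrallyClosed.isIntegral_iff (R := ↥W) (K := E)).mp hb'
  rw [← hy]
  exact y.2

section Cong

variable (W)

theorem vlt_add {a b : E} (ha : W.valuation a < 1) (hb : W.valuation b < 1) :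
    W.valuation (a + b) < 1 :=
  lt_of_le_of_lt (Valuation.map_add _ _ _) (max_lt ha hb)

theorem vlt_mul_of_mem {a b : E} (ha : W.valuation a < 1) (hb : b ∈ W) :
    W.valuation (a * b) < 1 := by
  rw [map_mul]
  calc W.valuation a * W.valuation b ≤ W.valuation a * 1 :=
        mul_le_mul_right ((ValuationSubring.valuation_le_one_iff _ _).mpr hb) _
    _ = W.valuation a := mul_one _
    _ < 1 := ha

theorem vlt_mem {a : E} (ha : W.valuation a < 1) : a ∈ W :=
  (ValuationSubring.valuation_le_one_iff _ _).mp ha.le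

theorem cong_mul {x x' y y' : E} (hx' : x' ∈ W) (hy : y ∈ W) (h1 : W.valuation (x - x') < 1)
    (h2 : W.valuation (y - y') < 1) : W.valuation (x * y - x' * y') < 1 := by
  have e : x * y - x' * y' = (x - x') * y + (y - y') * x' := by ring
  rw [e]
  exact vlt_add W (vlt_mul_of_mem W h1 hy) (vlt_mul_of_mem W h2 hx')

theorem cong_pow {x x' : E} (hx : x ∈ W) (hx' : x' ∈ W) (h : W.valuation (x - x') < 1) (n : ℕ) :
    W.valuation (x ^ n - x' ^ n) < 1 := by
  induction n with
  | zero =>
    rw [pow_zero, pow_zero, sub_self, map_zero]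
    exact zero_lt_one
  | succ n ih =>
    rw [pow_succ, pow_succ]
    exact cong_mul W (W.pow_mem hx' n) hx ih h

end Cong

/-- congruences modulo the maximal ideal of `W` are compatible with polynomial evaluation. -/
theorem valuation_aeval_sub_aeval_lt_one (H : ResDegHyp W J π) {x y : E} (hx : x ∈ W)
    (hy : y ∈ W) (hxy : W.valuation (x - y) < 1) (h : R[X]) :
    W.valuation (aeval x h - aeval y h) < 1 := by
  induction h using Polynomial.induction_on' with
  | add p q hp hq =>
    rw [map_add, map_add]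
    have e : aeval x p + aeval x q - (aeval y p + aeval y q)
        = (aeval x p - aeval y p) + (aeval x q - aeval y q) := by ring
    rw [e]
    exact vlt_add W hp hq
  | monomial n r =>
    rw [aeval_monomial, aeval_monomial]
    have hr : algebraMap R E r ∈ W := by
      have := H.mem (C r)
      rwa [aeval_C] at this
    have e : algebraMap R E r * x ^ n - algebraMap R E r * y ^ n
        = (x ^ n - y ^ n) * algebraMap R E r := by ring
    rw [e]
    exact vlt_mul_of_mem W (cong_pow W hx hy hxy n) hr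

/-- **[DET]**, general form: integral over a subalgebra of "polynomials modulo `𝔪_W`" ⇒ polynomial
modulo `𝔪_W`. -/
theorem exists_aeval_sub_lt_one_of_isIntegral (H : ResDegHyp W J π) (A : Subalgebra R E)
    (hA : ∀ a ∈ A, ∃ g : R[X], W.valuation (a - aeval J g) < 1) {b : E}
    (hb : IsIntegral ↥A b) : ∃ g : R[X], W.valuation (b - aeval J g) < 1 := by
  have hAW : ∀ a ∈ A, a ∈ W := fun a ha => by
    obtain ⟨g, hg⟩ := hA a ha
    exact H.mem_of_sub_lt_one hg
  have hbW : b ∈ W := mem_of_isIntegral_of_le A hAW hb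
  obtain ⟨p, q, hq, hpq⟩ := H.deg_one b hbW
  obtain ⟨T, hT, hroot⟩ := hb
  choose Γ hΓ using fun i : ℕ => hA (T.coeff i : E) (T.coeff i).2
  obtain ⟨n, hn⟩ : ∃ n, n = T.natDegree := ⟨_, rfl⟩
  have hqW : aeval J q ∈ W := H.mem q
  have hpW : aeval J p ∈ W := H.mem p
  have hbqW : b * aeval J q ∈ W := W.mul_mem _ _ hbW hqW
  -- the relation over `E`
  have h0 : ∑ i ∈ Finset.range (n + 1),
      ((T.coeff i : ↥A) : E) * aeval J q ^ (n - i) * (b * aeval J q) ^ i = 0 := by
    have h1 : eval₂ (algebraMap ↥A E) b T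
        = ∑ i ∈ Finset.range (n + 1), algebraMap ↥A E (T.coeff i) * b ^ i := by
      rw [hn]
      exact Polynomial.eval₂_eq_sum_range _ _
    have h2 : ∑ i ∈ Finset.range (n + 1),
        ((T.coeff i : ↥A) : E) * aeval J q ^ (n - i) * (b * aeval J q) ^ i
        = aeval J q ^ n * ∑ i ∈ Finset.range (n + 1), algebraMap ↥A E (T.coeff i) * b ^ i := by
      rw [Finset.mul_sum]
      refine Finset.sum_congr rfl fun i hi => ?_
      have hi' : i ≤ n := Nat.lt_succ_iff.mp (Finset.mem_range.mp hi)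
      have e : aeval J q ^ n = aeval J q ^ (n - i) * aeval J q ^ i := by
        rw [← pow_add, Nat.sub_add_cancel hi']
      rw [e, mul_pow]
      have : algebraMap ↥A E (T.coeff i) = ((T.coeff i : ↥A) : E) := rfl
      rw [this]
      ring
    rw [h2, ← h1, hroot, mul_zero]
  have hrel : W.valuation
      (aeval J (∑ i ∈ Finset.range (n + 1), Γ i * q ^ (n - i) * p ^ i)) < 1 := by
    rw [map_sum, ← sub_zero (∑ i ∈ Finset.range (n + 1), _), ← h0, ← Finset.sum_sub_distrib]
    refine Valuation.map_sum_lt _ one_ne_zero fun i _ => ?_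
    rw [map_mul, map_mul, map_pow, map_pow]
    have hcW : ((T.coeff i : ↥A) : E) ∈ W := hAW _ (T.coeff i).2
    refine cong_mul W (W.mul_mem _ _ hcW (W.pow_mem hqW _)) (W.pow_mem hpW _) ?_ ?_
    · have e : aeval J (Γ i) * aeval J q ^ (n - i) - ((T.coeff i : ↥A) : E) * aeval J q ^ (n - i)
          = -(((T.coeff i : ↥A) : E) - aeval J (Γ i)) * aeval J q ^ (n - i) := by ring
      rw [e]
      refine vlt_mul_of_mem W ?_ (W.pow_mem hqW _)
      rw [Valuation.map_neg]
      exact hΓ i
    · refine cong_pow W hpW hbqW ?_ i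
      rw [Valuation.map_sub_swap]
      exact hpq
  have hd := H.dvd_of_valuation_lt_one hrel
  rw [H.C_dvd_iff_red] at hd
  have hΓn : red (Γ n) = 1 := by
    have h1 : W.valuation (aeval J (1 : R[X]) - aeval J (Γ n)) < 1 := by
      have := hΓ n
      subst hn
      rw [hT.coeff_natDegree, OneMemClass.coe_one] at this
      rw [map_one]
      exact this
    rw [← H.red_eq_of_valuation_sub_lt_one h1]
    exact Polynomial.map_one _
  have hsum : ∑ i ∈ Finset.range (n + 1), red (Γ i) * red q ^ (n - i) * red p ^ i = 0 := by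
    rw [← hd]
    simp only [red, Polynomial.map_sum, Polynomial.map_mul, Polynomial.map_pow]
  obtain ⟨hbar, hh⟩ := dvd_of_homogeneous_monic_relation (red p) (red q) (H.red_ne_zero hq) n
    (fun i => red (Γ i)) hΓn hsum
  obtain ⟨h, rfl⟩ := exists_red_eq (R := R) hbar
  refine ⟨h, ?_⟩
  have h1 : W.valuation (aeval J p - aeval J (q * h)) < 1 := by
    apply H.valuation_aeval_sub_lt_one_of_red_eq
    rw [hh]
    exact (Polynomial.map_mul _).symm
  have h2 : W.valuation ((b - aeval J h) * aeval J q) < 1 := by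
    have e : (b - aeval J h) * aeval J q
        = (b * aeval J q - aeval J p) + (aeval J p - aeval J (q * h)) := by
      rw [map_mul]
      ring
    rw [e]
    exact vlt_add W hpq h1
  rwa [map_mul, H.valuation_aeval_eq_one hq, mul_one] at h2

/-- **[DET]**: an element integral over `R[J]` is a polynomial in `J` modulo `𝔪_W`. -/
theorem exists_aeval_sub_lt_one (H : ResDegHyp W J π) {b : E}
    (hb : IsIntegral ↥(Algebra.adjoin R {J}) b) :
    ∃ g : R[X], W.valuation (b - aeval J g) < 1 :=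
  H.exists_aeval_sub_lt_one_of_isIntegral _ (fun a ha => by
    rw [Algebra.adjoin_singleton_eq_range_aeval] at ha
    obtain ⟨g, rfl⟩ := ha
    refine ⟨g, ?_⟩
    rw [AlgHom.toRingHom_eq_coe, RingHom.coe_coe, sub_self, map_zero]
    exact zero_lt_one) hb

/-- **[DET]** for `R[J']` with `J' ≡ g₀(J)` modulo `𝔪_W`. -/
theorem exists_aeval_sub_lt_one_of_adjoin (H : ResDegHyp W J π) {J' : E} {g₀ : R[X]}
    (hJ' : W.valuation (J' - aeval J g₀) < 1) {b : E}
    (hb : IsIntegral ↥(Algebra.adjoin R {J'}) b) :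
    ∃ g : R[X], W.valuation (b - aeval J g) < 1 :=
  H.exists_aeval_sub_lt_one_of_isIntegral _ (fun a ha => by
    rw [Algebra.adjoin_singleton_eq_range_aeval] at ha
    obtain ⟨h, rfl⟩ := ha
    refine ⟨h.comp g₀, ?_⟩
    rw [AlgHom.toRingHom_eq_coe, RingHom.coe_coe, aeval_comp]
    exact H.valuation_aeval_sub_aeval_lt_one (H.mem_of_sub_lt_one hJ') (H.mem g₀) hJ' h) hb

theorem mem_of_isIntegral (H : ResDegHyp W J π) {b : E}
    (hb : IsIntegral ↥(Algebra.adjoin R {J}) b) : b ∈ W := by
  obtain ⟨g, hg⟩ := H.exists_aeval_sub_lt_one hb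
  exact H.mem_of_sub_lt_one hg

theorem mem_of_isIntegral_adjoin (H : ResDegHyp W J π) {J' : E} {g₀ : R[X]}
    (hJ' : W.valuation (J' - aeval J g₀) < 1) {b : E}
    (hb : IsIntegral ↥(Algebra.adjoin R {J'}) b) : b ∈ W := by
  obtain ⟨g, hg⟩ := H.exists_aeval_sub_lt_one_of_adjoin hJ' hb
  exact H.mem_of_sub_lt_one hg

/-- a unit of `W` congruent to `g(J)`: then `π ∤ g`. -/
theorem not_dvd_of_sub_lt_one (H : ResDegHyp W J π) {b : E} {g : R[X]}
    (hb1 : W.valuation b = 1) (h : W.valuation (b - aeval J g) < 1) : ¬ C π ∣ g := by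
  intro hd
  have h1 := H.valuation_aeval_lt_one hd
  have e : b = (b - aeval J g) + aeval J g := by ring
  have h2 : W.valuation b < 1 := by
    rw [e]
    exact vlt_add W h h1
  rw [hb1] at h2
  exact lt_irrefl _ h2

theorem resOrd_of_sub_lt_one (H : ResDegHyp W J π) {b : E} {g : R[X]}
    (hb1 : W.valuation b = 1) (h : W.valuation (b - aeval J g) < 1) (β : k) :
    H.resOrd b β = ((red g).rootMultiplicity β : ℤ) := by
  have hg := H.not_dvd_of_sub_lt_one hb1 h
  rw [H.resOrd_congr hb1 (H.valuation_aeval_eq_one hg) h β, H.resOrd_aeval hg]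

theorem resOrdInf_of_sub_lt_one (H : ResDegHyp W J π) {b : E} {g : R[X]}
    (hb1 : W.valuation b = 1) (h : W.valuation (b - aeval J g) < 1) :
    H.resOrdInf b = -((red g).natDegree : ℤ) := by
  have hg := H.not_dvd_of_sub_lt_one hb1 h
  rw [H.resOrdInf_congr hb1 (H.valuation_aeval_eq_one hg) h, H.resOrdInf_aeval hg]

theorem resOrd_nonneg_of_isIntegral_of_forall (H : ResDegHyp W J π) (A : Subalgebra R E)
    (hA : ∀ a ∈ A, ∃ g : R[X], W.valuation (a - aeval J g) < 1) {b : E}
    (hb : IsIntegral ↥A b) (hb1 : W.valuation b = 1) (β : k) : 0 ≤ H.resOrd b β := by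
  obtain ⟨g, hg⟩ := H.exists_aeval_sub_lt_one_of_isIntegral A hA hb
  rw [H.resOrd_of_sub_lt_one hb1 hg]
  exact Int.natCast_nonneg _

theorem resOrdInf_nonpos_of_isIntegral_of_forall (H : ResDegHyp W J π) (A : Subalgebra R E)
    (hA : ∀ a ∈ A, ∃ g : R[X], W.valuation (a - aeval J g) < 1) {b : E}
    (hb : IsIntegral ↥A b) (hb1 : W.valuation b = 1) : H.resOrdInf b ≤ 0 := by
  obtain ⟨g, hg⟩ := H.exists_aeval_sub_lt_one_of_isIntegral A hA hb
  rw [H.resOrdInf_of_sub_lt_one hb1 hg]
  have := Int.natCast_nonneg (red g).natDegree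
  omega

theorem resOrd_nonneg_of_isIntegral (H : ResDegHyp W J π) {b : E}
    (hb : IsIntegral ↥(Algebra.adjoin R {J}) b) (hb1 : W.valuation b = 1) (β : k) :
    0 ≤ H.resOrd b β := by
  obtain ⟨g, hg⟩ := H.exists_aeval_sub_lt_one hb
  rw [H.resOrd_of_sub_lt_one hb1 hg]
  exact Int.natCast_nonneg _

theorem resOrdInf_nonpos_of_isIntegral (H : ResDegHyp W J π) {b : E}
    (hb : IsIntegral ↥(Algebra.adjoin R {J}) b) (hb1 : W.valuation b = 1) :
    H.resOrdInf b ≤ 0 := by
  obtain ⟨g, hg⟩ := H.exists_aeval_sub_lt_one hb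
  rw [H.resOrdInf_of_sub_lt_one hb1 hg]
  have := Int.natCast_nonneg (red g).natDegree
  omega

theorem resOrd_nonneg_of_isIntegral_adjoin (H : ResDegHyp W J π) {J' : E} {g₀ : R[X]}
    (hJ' : W.valuation (J' - aeval J g₀) < 1) {b : E}
    (hb : IsIntegral ↥(Algebra.adjoin R {J'}) b) (hb1 : W.valuation b = 1) (β : k) :
    0 ≤ H.resOrd b β := by
  obtain ⟨g, hg⟩ := H.exists_aeval_sub_lt_one_of_adjoin hJ' hb
  rw [H.resOrd_of_sub_lt_one hb1 hg]
  exact Int.natCast_nonneg _

end ResDegHyp

end Fermat.Agent.MW
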