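import Mathlib
import Fermat.Agent.MW.NADIC_helper6_One
import Fermat.Agent.MW.NADIC_helper7_Det
import Fermat.Agent.JA.LINE_helper2_Gauss

/-!
# Project MW (S17) — [N-ADIC] helper6, [HYP]: the sheets of a level-one two-sheeted model are lines

For a model `h : SSModel K₁ π q n ∅ t jM j A B VM Winf W0` whose level of good reduction is the
`t`-line itself (`E_M = K_M = K₁(t)`), the two sheets satisfy helper7's `ResDegHyp`: the residue
field of `W_∞` is `k(A t)`, the residue field of `W_0` is `k(B t)`.
-/

set_option autoImplicit false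
set_option linter.unusedSectionVars false
set_option linter.style.haveILetI false

open Polynomial

namespace Fermat.Agent.MW.NAdic

open Fermat.Agent.SS Fermat.Agent.JA Fermat.Agent.MW

section Hyp

variable {R : Type*} [CommRing R] [IsDomain R] [IsDiscreteValuationRing R] [CharZero R]
  {K₁ : Type*} [Field K₁] [Algebra R K₁] [IsFractionRing R K₁]
  {KM : Type*} [Field KM] [Algebra K₁ KM] [Algebra R KM] [IsScalarTower R K₁ KM]
  {EM : Type*} [Field EM] [Algebra KM EM] [Algebra K₁ EM] [IsScalarTower K₁ KM EM] [Algebra R EM]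
  [IsScalarTower R KM EM]
  {EN : Type*} [Field EN] [Algebra R EN]
  {π : R} {t : KM}

/-- a sheet lying with residue degree one over the Gauss valuation of the `t`-line is a line with
coordinate `ι t`. -/
theorem resDegHyp_of_comap (hπ : Irreducible π) (htr : Transcendental K₁ t)
    (hgen : IntermediateField.adjoin K₁ {t} = ⊤) (VM : ValuationSubring EM)
    (hGM : IsGaussAt R π t (VM.comap (algebraMap KM EM)))
    (hsurj : Function.Surjective (algebraMap KM EM))
    (ι : EM →+* EN) (hι : ∀ c : R, ι (algebraMap R EM c) = algebraMap R EN c)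
    (W : ValuationSubring EN) (hcomap : W.comap ι = VM)
    (hres : ∀ x ∈ W, ∃ a ∈ VM, W.valuation (x - ι a) < 1) :
    ResDegHyp W (ι (algebraMap KM EM t)) π := by
  have haeval : ∀ p : R[X], aeval (ι (algebraMap KM EM t)) p =
      ι (algebraMap KM EM (aeval t p)) := by
    intro p
    rw [← Polynomial.aeval_algebraMap_apply]
    have hcomp : (ι : EM →+* EN).comp (algebraMap R EM) = algebraMap R EN := RingHom.ext hι
    rw [Polynomial.aeval_def, Polynomial.aeval_def, Polynomial.hom_eval₂, hcomp]
  have hmemVM : ∀ a : EM, ι a ∈ W ↔ a ∈ VM := by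
    intro a
    rw [← hcomap]
    rfl
  refine ⟨hπ, ?_, ?_, ?_, ?_, ?_⟩
  · -- transcendental
    have h1 : Transcendental R t :=
      Transcendental.restrictScalars (IsFractionRing.injective R K₁) htr
    have h2 : Transcendental R (algebraMap KM EM t) :=
      (transcendental_algebraMap_iff (algebraMap KM EM).injective).mpr h1
    exact Transcendental.ringHom_of_comp_eq (f := RingHom.id R) (g := ι) h2
      Function.surjective_id ι.injective (by
        ext c
        simp only [RingHom.comp_apply]
        exact (hι c).symm)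
  · intro p
    rw [haeval, hmemVM]
    exact hGM.1 p
  · intro hmem
    apply hGM.2.1
    show algebraMap KM EM ((algebraMap R KM π)⁻¹) ∈ VM
    rw [← hmemVM, map_inv₀, map_inv₀, ← IsScalarTower.algebraMap_apply R KM EM, hι]
    exact hmem
  · intro p hp
    have h1 := hGM.2.2 p hp
    have h2 : algebraMap KM EM ((aeval t p)⁻¹) ∈ VM := h1
    rw [← hmemVM, map_inv₀, map_inv₀, ← haeval] at h2
    exact h2
  · intro x hx
    obtain ⟨a, ha, hxa⟩ := hres x hx
    obtain ⟨a', rfl⟩ := hsurj a
    have ha' : (VM.comap (algebraMap KM EM)).valuation a' ≤ 1 :=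
      (ValuationSubring.valuation_le_one_iff _ _).mpr ha
    obtain ⟨f, g, hg, hfg⟩ := (IsGaussAt.valuation_le_one_iff hGM hπ htr hgen a').mp ha'
    refine ⟨f, g, hg, ?_⟩
    have h1 : ι (algebraMap KM EM a') * aeval (ι (algebraMap KM EM t)) g =
        aeval (ι (algebraMap KM EM t)) f := by
      rw [haeval, haeval, ← map_mul, ← map_mul, hfg]
    have h2 : x * aeval (ι (algebraMap KM EM t)) g - aeval (ι (algebraMap KM EM t)) f =
        (x - ι (algebraMap KM EM a')) * aeval (ι (algebraMap KM EM t)) g := by
      rw [← h1]; ring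
    rw [h2, map_mul]
    have h3 : W.valuation (aeval (ι (algebraMap KM EM t)) g) ≤ 1 := by
      rw [ValuationSubring.valuation_le_one_iff, haeval, hmemVM]
      exact hGM.1 g
    calc W.valuation (x - ι (algebraMap KM EM a')) * W.valuation (aeval (ι (algebraMap KM EM t)) g)
        ≤ W.valuation (x - ι (algebraMap KM EM a')) * 1 := mul_le_mul_right h3 _
      _ < 1 := by rw [mul_one]; exact hxa

end Hyp

section Model

variable {R : Type*} [CommRing R] [IsDomain R] [IsDiscreteValuationRing R] [CharZero R]
  {K₁ : Type*} [Field K₁] [Algebra R K₁] [IsFractionRing R K₁]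
  {KM : Type*} [Field KM] [Algebra K₁ KM] [Algebra R KM] [IsScalarTower R K₁ KM]
  {EM : Type*} [Field EM] [Algebra KM EM] [Algebra K₁ EM] [IsScalarTower K₁ KM EM] [Algebra R EM]
  [IsScalarTower R KM EM]
  {KN : Type*} [Field KN] [Algebra K₁ KN] [Algebra R KN] [IsScalarTower R K₁ KN]
  {EN : Type*} [Field EN] [Algebra KN EN] [Algebra K₁ EN] [IsScalarTower K₁ KN EN] [Algebra R EN]
  [IsScalarTower R KN EN] [FiniteDimensional KN EN]
  {π : R} {q n : ℕ} {S : Finset R} {t : KM} {jM : EM} {j : KN} {A B : EM →+* EN}
  {VM : ValuationSubring EM} {Winf W0 : ValuationSubring EN}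

/-- the sheet `C_∞` is a line with coordinate `A t`. -/
theorem SSModel.resDegHyp_inf (h : SSModel K₁ π q n S t jM j A B VM Winf W0)
    (hsurj : Function.Surjective (algebraMap KM EM)) :
    ResDegHyp Winf (A (algebraMap KM EM t)) π :=
  resDegHyp_of_comap h.geo.irreducible h.geo.transcendental h.geo.adjoin_eq_top VM h.gauss_M hsurj A
    h.A_algebraMap Winf h.comap_A_inf h.res_inf

/-- the sheet `C_0` is a line with coordinate `B t`. -/
theorem SSModel.resDegHyp_zero (h : SSModel K₁ π q n S t jM j A B VM Winf W0)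
    (hsurj : Function.Surjective (algebraMap KM EM)) :
    ResDegHyp W0 (B (algebraMap KM EM t)) π :=
  resDegHyp_of_comap h.geo.irreducible h.geo.transcendental h.geo.adjoin_eq_top VM h.gauss_M hsurj B
    h.B_algebraMap W0 h.comap_B_zero h.res_zero

end Model

end Fermat.Agent.MW.NAdic
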