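/-
Project MW — [N-ADIC]/[SAME] (helper9, literal of helper6 msg 1658): a closed point of a sheet is
determined by the residue of the coordinate; units of its local ring have `resOrd` zero.

`R` a DVR with uniformizer `π`, `W` a valuation subring of `E ⊇ R`, `J ∈ E` with
`H : ResDegHyp W J π` (helper7).  `B ⊆ E` a subalgebra all of whose elements are congruent to
polynomials in `J` modulo `𝔪_W` ([DET]), `𝔪` a prime of `B` through which the sheet of `W` passes
and at which `J` takes the value `ζ ∈ R`.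
-/
import Mathlib
import Fermat.Agent.MW.NADIC_helper7_Det
import Fermat.Agent.SS.EXPORT_helper4_Loc

set_option autoImplicit false
set_option linter.unusedSectionVars false

open Polynomial Fermat.Agent.SS

namespace Fermat.Agent.MW

variable {R : Type*} [CommRing R] [IsDomain R] [IsDiscreteValuationRing R]
  {E : Type*} [Field E] [Algebra R E]

open ResDegHyp

local notation "k" => IsLocalRing.ResidueField R

/-- a closed point `𝔪` of the chart `B` on the sheet of `W`, where the coordinate `J` takes the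
value `ζ`. -/
structure SheetPt {W : ValuationSubring E} {J : E} {π : R} (H : ResDegHyp W J π)
    (B : Subalgebra R E) (𝔪 : Ideal ↥B) [h𝔪 : 𝔪.IsPrime] (ζ : R) : Prop where
  det : ∀ b ∈ B, ∃ g : R[X], W.valuation (b - aeval J g) < 1
  sheet : ∀ e ∈ locRing B 𝔪, W.valuation e < 1 → e ∈ locMax B 𝔪
  reg : J ∈ locRing B 𝔪
  val : J - algebraMap R E ζ ∈ locMax B 𝔪

namespace SheetPt

variable {W : ValuationSubring E} {J : E} {π : R} {H : ResDegHyp W J π}
  {B : Subalgebra R E} {𝔪 : Ideal ↥B} [h𝔪 : 𝔪.IsPrime] {ζ : R}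

/-! ### (S0) -/

theorem mem_of_mem (h : SheetPt H B 𝔪 ζ) {b : E} (hb : b ∈ B) : b ∈ W := by
  obtain ⟨g, hg⟩ := h.det b hb
  exact H.mem_of_sub_lt_one hg

theorem valuation_coe_eq_one (h : SheetPt H B 𝔪 ζ) {s : ↥B} (hs : s ∉ 𝔪) :
    W.valuation (s : E) = 1 := by
  refine le_antisymm ((ValuationSubring.valuation_le_one_iff _ _).mpr (h.mem_of_mem s.2)) ?_
  rw [← not_lt]
  intro hlt
  exact hs ((coe_mem_locMax_iff s).mp (h.sheet _ (coe_mem_locRing s) hlt))

theorem mem (h : SheetPt H B 𝔪 ζ) {e : E} (he : e ∈ locRing B 𝔪) : e ∈ W := by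
  obtain ⟨r, s, hs, hrs⟩ := he
  have hs1 := h.valuation_coe_eq_one hs
  rw [← ValuationSubring.valuation_le_one_iff]
  have h1 : W.valuation e * W.valuation (s : E) = W.valuation (r : E) := by
    rw [← map_mul, hrs]
  rw [hs1, mul_one] at h1
  rw [h1]
  exact (ValuationSubring.valuation_le_one_iff _ _).mpr (h.mem_of_mem r.2)

theorem valuation_eq_one (h : SheetPt H B 𝔪 ζ) {e : E} (he : e ∈ locRing B 𝔪)
    (he' : e ∉ locMax B 𝔪) : W.valuation e = 1 := by
  refine le_antisymm ((ValuationSubring.valuation_le_one_iff _ _).mpr (h.mem he)) ?_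
  rw [← not_lt]
  intro hlt
  exact he' (h.sheet e he hlt)

/-! ### (S1) -/

theorem aeval_mem_locRing (h : SheetPt H B 𝔪 ζ) (g : R[X]) : aeval J g ∈ locRing B 𝔪 := by
  have h1 : aeval J g = ((aeval (⟨J, h.reg⟩ : ↥(locRing B 𝔪)) g : ↥(locRing B 𝔪)) : E) := by
    rw [← Subalgebra.coe_val, ← Polynomial.aeval_algHom_apply]
    rfl
  rw [h1]
  exact Subtype.coe_prop _

theorem algebraMap_pi_mem_locMax (h : SheetPt H B 𝔪 ζ) : algebraMap R E π ∈ locMax B 𝔪 :=
  h.sheet _ ((locRing B 𝔪).algebraMap_mem π) H.valuation_pi_lt_one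

/-- a constant of `R` lies in the maximal ideal iff it is divisible by `π`. -/
theorem algebraMap_mem_locMax_iff (h : SheetPt H B 𝔪 ζ) (c : R) :
    algebraMap R E c ∈ locMax B 𝔪 ↔ IsLocalRing.residue R c = 0 := by
  rw [IsLocalRing.residue_eq_zero_iff]
  constructor
  · intro hc
    by_contra hcm
    have hu : IsUnit c := by
      by_contra hnu
      exact hcm ((IsLocalRing.mem_maximalIdeal c).mpr hnu)
    obtain ⟨u, rfl⟩ := hu
    have h1 : algebraMap R E ((u⁻¹ : Rˣ) : R) * algebraMap R E (u : R) ∈ locMax B 𝔪 :=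
      mul_mem_locMax ((locRing B 𝔪).algebraMap_mem _) hc
    rw [← map_mul, Units.inv_mul, map_one] at h1
    exact one_notMem_locMax h1
  · intro hc
    rw [H.irred.maximalIdeal_eq, Ideal.mem_span_singleton] at hc
    obtain ⟨c', rfl⟩ := hc
    rw [mul_comm, map_mul]
    exact mul_mem_locMax ((locRing B 𝔪).algebraMap_mem _) h.algebraMap_pi_mem_locMax

/-- `g(J) - g(ζ)` lies in the maximal ideal. -/
theorem aeval_sub_eval_mem_locMax (h : SheetPt H B 𝔪 ζ) (g : R[X]) :
    aeval J g - algebraMap R E (g.eval ζ) ∈ locMax B 𝔪 := by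
  obtain ⟨q, hq⟩ : (X - C ζ) ∣ g - C (g.eval ζ) := by
    rw [Polynomial.dvd_iff_isRoot]
    simp
  have h1 : aeval J g - algebraMap R E (g.eval ζ) = aeval J q * (J - algebraMap R E ζ) := by
    have h2 := congrArg (aeval J) hq
    rw [map_sub, map_mul, map_sub, aeval_X, aeval_C, aeval_C] at h2
    rw [h2]
    ring
  rw [h1]
  exact mul_mem_locMax (h.aeval_mem_locRing q) h.val

theorem mem_locMax_iff (h : SheetPt H B 𝔪 ζ) {b : E} (hb : b ∈ locRing B 𝔪) {g : R[X]}
    (hg : W.valuation (b - aeval J g) < 1) :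
    b ∈ locMax B 𝔪 ↔ (red g).IsRoot (IsLocalRing.residue R ζ) := by
  have h1 : b - aeval J g ∈ locMax B 𝔪 :=
    h.sheet _ ((locRing B 𝔪).sub_mem hb (h.aeval_mem_locRing g)) hg
  have h2 := h.aeval_sub_eval_mem_locMax g
  have h3 : b ∈ locMax B 𝔪 ↔ algebraMap R E (g.eval ζ) ∈ locMax B 𝔪 := by
    constructor
    · intro hb'
      have e : algebraMap R E (g.eval ζ) =
          b - (b - aeval J g) - (aeval J g - algebraMap R E (g.eval ζ)) := by ring
      rw [e]
      exact sub_mem_locMax (sub_mem_locMax hb' h1) h2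
    · intro hc
      have e : b = (b - aeval J g) + (aeval J g - algebraMap R E (g.eval ζ)) +
          algebraMap R E (g.eval ζ) := by ring
      rw [e]
      exact add_mem_locMax (add_mem_locMax h1 h2) hc
  rw [h3, h.algebraMap_mem_locMax_iff, Polynomial.IsRoot.def, Polynomial.eval_map_apply]

/-! ### (S2) -/

/-- the residue order at `ζ̄` of an element of the chart which is a unit of `W`. -/
theorem resOrd_coe (h : SheetPt H B 𝔪 ζ) {r : ↥B} (hr : W.valuation (r : E) = 1) :
    0 ≤ H.resOrd (r : E) (IsLocalRing.residue R ζ) ∧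
      (r ∈ 𝔪 → 1 ≤ H.resOrd (r : E) (IsLocalRing.residue R ζ)) ∧
      (r ∉ 𝔪 → H.resOrd (r : E) (IsLocalRing.residue R ζ) = 0) := by
  obtain ⟨g, hg⟩ := h.det (r : E) r.2
  have hgd : ¬ C π ∣ g := H.not_dvd_of_sub_lt_one hr hg
  have hiff := h.mem_locMax_iff (coe_mem_locRing r) hg
  rw [coe_mem_locMax_iff] at hiff
  rw [H.resOrd_of_sub_lt_one hr hg]
  refine ⟨Int.natCast_nonneg _, fun hm => ?_, fun hm => ?_⟩
  · have := (Polynomial.rootMultiplicity_pos (H.red_ne_zero hgd)).mpr (hiff.mp hm)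
    exact_mod_cast this
  · have : ¬ (red g).IsRoot (IsLocalRing.residue R ζ) := fun hroot => hm (hiff.mpr hroot)
    rw [Polynomial.rootMultiplicity_eq_zero this]
    rfl

theorem resOrd_aux (h : SheetPt H B 𝔪 ζ) {e : E} (he : e ∈ locRing B 𝔪)
    (he1 : W.valuation e = 1) :
    0 ≤ H.resOrd e (IsLocalRing.residue R ζ) ∧
      (e ∈ locMax B 𝔪 → 1 ≤ H.resOrd e (IsLocalRing.residue R ζ)) ∧
      (e ∉ locMax B 𝔪 → H.resOrd e (IsLocalRing.residue R ζ) = 0) := by
  obtain ⟨r, s, hs, hrs⟩ := he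
  have hs1 := h.valuation_coe_eq_one hs
  have hr1 : W.valuation (r : E) = 1 := by rw [← hrs, map_mul, he1, hs1, one_mul]
  have hmul := H.resOrd_mul he1 hs1 (IsLocalRing.residue R ζ)
  rw [hrs] at hmul
  obtain ⟨-, -, hs0⟩ := h.resOrd_coe hs1
  obtain ⟨hr0, hrm, hrn⟩ := h.resOrd_coe hr1
  have hs0' := hs0 hs
  have heq : H.resOrd e (IsLocalRing.residue R ζ) =
      H.resOrd (r : E) (IsLocalRing.residue R ζ) := by omega
  have hiff : e ∈ locMax B 𝔪 ↔ r ∈ 𝔪 := by
    constructor
    · intro hem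
      have h1 : e * (s : E) ∈ locMax B 𝔪 := by
        rw [mul_comm]
        exact mul_mem_locMax (coe_mem_locRing s) hem
      rw [hrs] at h1
      exact (coe_mem_locMax_iff r).mp h1
    · intro hr
      exact ⟨r, s, hr, hs, hrs⟩
  rw [heq, hiff]
  exact ⟨hr0, hrm, hrn⟩

theorem resOrd_nonneg (h : SheetPt H B 𝔪 ζ) {e : E} (he : e ∈ locRing B 𝔪)
    (he1 : W.valuation e = 1) : 0 ≤ H.resOrd e (IsLocalRing.residue R ζ) :=
  (h.resOrd_aux he he1).1

theorem one_le_resOrd (h : SheetPt H B 𝔪 ζ) {e : E} (he1 : W.valuation e = 1)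
    (he : e ∈ locMax B 𝔪) : 1 ≤ H.resOrd e (IsLocalRing.residue R ζ) :=
  (h.resOrd_aux (locMax_subset_locRing he) he1).2.1 he

theorem resOrd_eq_zero (h : SheetPt H B 𝔪 ζ) {e : E} (he : e ∈ locRing B 𝔪)
    (he' : e ∉ locMax B 𝔪) : H.resOrd e (IsLocalRing.residue R ζ) = 0 :=
  (h.resOrd_aux he (h.valuation_eq_one he he')).2.2 he'

end SheetPt

/-! ### (S3) -/

/-- **two closed points of a sheet with congruent coordinate values coincide.** -/
theorem SheetPt.eq {W : ValuationSubring E} {J : E} {π : R} {H : ResDegHyp W J π}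
    {B : Subalgebra R E} {𝔪 𝔪' : Ideal ↥B} [h𝔪 : 𝔪.IsMaximal] [h𝔪' : 𝔪'.IsMaximal] {ζ ζ' : R}
    (h : SheetPt H B 𝔪 ζ) (h' : SheetPt H B 𝔪' ζ') (hζ : ζ - ζ' ∈ Ideal.span {π}) :
    𝔪 = 𝔪' := by
  have hres : IsLocalRing.residue R ζ = IsLocalRing.residue R ζ' := by
    rw [← sub_eq_zero, ← map_sub, IsLocalRing.residue_eq_zero_iff, H.irred.maximalIdeal_eq]
    exact hζ
  have hle : 𝔪 ≤ 𝔪' := by
    intro b hb
    obtain ⟨g, hg⟩ := h.det (b : E) b.2
    have h1 := (h.mem_locMax_iff (coe_mem_locRing b) hg).mp ((coe_mem_locMax_iff b).mpr hb)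
    rw [hres] at h1
    exact (coe_mem_locMax_iff b).mp ((h'.mem_locMax_iff (coe_mem_locRing b) hg).mpr h1)
  exact h𝔪.eq_of_le h𝔪'.ne_top hle

/-! ### (S5) -/

/-- a generator of the maximal ideal modulo `𝔪_W` which is a unit of `W` has residue order `1`. -/
theorem SheetPt.resOrd_eq_one_of_generates {W : ValuationSubring E} {J : E} {π : R}
    {H : ResDegHyp W J π} {B : Subalgebra R E} {𝔪 : Ideal ↥B} [h𝔪 : 𝔪.IsPrime] {ζ : R}
    (h : SheetPt H B 𝔪 ζ) {x : E} (hx : x ∈ locMax B 𝔪) (hx1 : W.valuation x = 1)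
    (hgen : ∀ e ∈ locMax B 𝔪, ∃ a ∈ locRing B 𝔪, W.valuation (e - a * x) < 1) :
    H.resOrd x (IsLocalRing.residue R ζ) = 1 := by
  obtain ⟨a, ha, hax⟩ := hgen _ h.val
  -- `J - ζ = aeval J (X - C ζ)`
  have hmonic : (X - C ζ : R[X]).Monic := Polynomial.monic_X_sub_C ζ
  have hnd : ¬ C π ∣ (X - C ζ : R[X]) := by
    rw [H.C_dvd_iff_red]
    have : red (X - C ζ : R[X]) = X - C (IsLocalRing.residue R ζ) := by
      simp [red]
    rw [this]
    exact Polynomial.X_sub_C_ne_zero _
  have hJ : aeval J (X - C ζ : R[X]) = J - algebraMap R E ζ := by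
    rw [map_sub, aeval_X, aeval_C]
  have hv1 : W.valuation (J - algebraMap R E ζ) = 1 := by
    rw [← hJ]
    exact H.valuation_aeval_eq_one hnd
  have hord1 : H.resOrd (J - algebraMap R E ζ) (IsLocalRing.residue R ζ) = 1 := by
    rw [← hJ, H.resOrd_aeval hnd]
    have : red (X - C ζ : R[X]) = X - C (IsLocalRing.residue R ζ) := by
      simp [red]
    rw [this, Polynomial.rootMultiplicity_X_sub_C_self]
    rfl
  -- `a * x` is a unit of `W`
  have hax1 : W.valuation (a * x) = 1 := by
    have e : a * x = (J - algebraMap R E ζ) + -((J - algebraMap R E ζ) - a * x) := by ring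
    rw [e]
    have hlt : W.valuation (-((J - algebraMap R E ζ) - a * x)) <
        W.valuation (J - algebraMap R E ζ) := by
      rw [Valuation.map_neg, hv1]
      exact hax
    rw [Valuation.map_add_eq_of_lt_left _ hlt, hv1]
  have ha1 : W.valuation a = 1 := by
    rw [map_mul, hx1, mul_one] at hax1
    exact hax1
  have hcong := H.resOrd_congr hv1 hax1 hax (IsLocalRing.residue R ζ)
  rw [hord1, H.resOrd_mul ha1 hx1] at hcong
  have h1 := h.resOrd_nonneg ha ha1
  have h2 := h.one_le_resOrd hx1 hx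
  omega

/-! ### (S4) existence -/

section Exists

variable {W : ValuationSubring E} {J : E} {π : R} (H : ResDegHyp W J π) (B : Subalgebra R E)
  (hdet : ∀ b ∈ B, ∃ g : R[X], W.valuation (b - aeval J g) < 1) (ζ : R)

include H in
theorem red_eq_of_cong {b : E} {g g' : R[X]} (hg : W.valuation (b - aeval J g) < 1)
    (hg' : W.valuation (b - aeval J g') < 1) : red g = red g' := by
  apply H.red_eq_of_valuation_sub_lt_one
  have e : aeval J g - aeval J g' = (b - aeval J g') + -(b - aeval J g) := by ring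
  rw [e]
  refine vlt_add W hg' ?_
  rw [Valuation.map_neg]
  exact hg

/-- the chosen polynomial representative of an element of the chart. -/
noncomputable def sheetRep (b : ↥B) : R[X] := (hdet (b : E) b.2).choose

theorem sheetRep_spec (b : ↥B) : W.valuation ((b : E) - aeval J (sheetRep B hdet b)) < 1 :=
  (hdet (b : E) b.2).choose_spec

include H in
theorem red_sheetRep (b : ↥B) {g : R[X]} (hg : W.valuation ((b : E) - aeval J g) < 1) :
    red (sheetRep B hdet b) = red g :=
  red_eq_of_cong H (sheetRep_spec B hdet b) hg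

/-- evaluation at the point `J = ζ` of the sheet: `B → k`. -/
noncomputable def sheetEval : ↥B →+* k where
  toFun b := (red (sheetRep B hdet b)).eval (IsLocalRing.residue R ζ)
  map_one' := by
    have h1 : W.valuation (((1 : ↥B) : E) - aeval J (1 : R[X])) < 1 := by
      rw [map_one, OneMemClass.coe_one, sub_self, map_zero]
      exact zero_lt_one
    rw [red_sheetRep H B hdet 1 h1]
    simp [red]
  map_mul' b b' := by
    have hb := sheetRep_spec B hdet b
    have hb' := sheetRep_spec B hdet b'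
    have h1 : W.valuation (((b * b' : ↥B) : E) -
        aeval J (sheetRep B hdet b * sheetRep B hdet b')) < 1 := by
      rw [map_mul, MulMemClass.coe_mul]
      exact cong_mul W (H.mem _) (H.mem_of_sub_lt_one hb') hb hb'
    rw [red_sheetRep H B hdet _ h1]
    simp [red]
  map_zero' := by
    have h1 : W.valuation (((0 : ↥B) : E) - aeval J (0 : R[X])) < 1 := by
      rw [map_zero, ZeroMemClass.coe_zero, sub_self, map_zero]
      exact zero_lt_one
    rw [red_sheetRep H B hdet 0 h1]
    simp [red]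
  map_add' b b' := by
    have hb := sheetRep_spec B hdet b
    have hb' := sheetRep_spec B hdet b'
    have h1 : W.valuation (((b + b' : ↥B) : E) -
        aeval J (sheetRep B hdet b + sheetRep B hdet b')) < 1 := by
      rw [map_add, AddMemClass.coe_add]
      have e : (b : E) + (b' : E) - (aeval J (sheetRep B hdet b) + aeval J (sheetRep B hdet b'))
          = ((b : E) - aeval J (sheetRep B hdet b)) + ((b' : E) - aeval J (sheetRep B hdet b')) := by
        ring
      rw [e]
      exact vlt_add W hb hb'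
    rw [red_sheetRep H B hdet _ h1]
    simp [red]

theorem sheetEval_eq (b : ↥B) {g : R[X]} (hg : W.valuation ((b : E) - aeval J g) < 1) :
    sheetEval H B hdet ζ b = (red g).eval (IsLocalRing.residue R ζ) := by
  show (red (sheetRep B hdet b)).eval (IsLocalRing.residue R ζ) = _
  rw [red_sheetRep H B hdet b hg]

theorem sheetEval_algebraMap (c : R) :
    sheetEval H B hdet ζ (algebraMap R ↥B c) = IsLocalRing.residue R c := by
  have h1 : W.valuation (((algebraMap R ↥B c : ↥B) : E) - aeval J (C c : R[X])) < 1 := by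
    rw [aeval_C]
    have : ((algebraMap R ↥B c : ↥B) : E) = algebraMap R E c := rfl
    rw [this, sub_self, map_zero]
    exact zero_lt_one
  rw [sheetEval_eq H B hdet ζ _ h1]
  simp [red]

theorem sheetEval_surjective : Function.Surjective (sheetEval H B hdet ζ) := by
  intro x
  obtain ⟨c, rfl⟩ := IsLocalRing.residue_surjective x
  exact ⟨algebraMap R ↥B c, sheetEval_algebraMap H B hdet ζ c⟩

include hdet in
/-- (S4) **the closed point of the sheet with coordinate value `ζ`.** -/
theorem exists_sheetPt (hJB : J ∈ B) :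
    ∃ (𝔪 : Ideal ↥B) (h𝔪 : 𝔪.IsMaximal), SheetPt (h𝔪 := h𝔪.isPrime) H B 𝔪 ζ := by
  have hmax : (RingHom.ker (sheetEval H B hdet ζ)).IsMaximal :=
    RingHom.ker_isMaximal_of_surjective _ (sheetEval_surjective H B hdet ζ)
  refine ⟨RingHom.ker (sheetEval H B hdet ζ), hmax, ?_⟩
  have := hmax.isPrime
  refine ⟨hdet, ?_, le_locRing hJB, ?_⟩
  · rintro e ⟨r, s, hs, hrs⟩ he
    refine ⟨r, s, ?_, hs, hrs⟩
    rw [RingHom.mem_ker]
    have hsW : (s : E) ∈ W := by
      obtain ⟨g, hg⟩ := hdet (s : E) s.2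
      exact H.mem_of_sub_lt_one hg
    have hr : W.valuation (r : E) < 1 := by
      rw [← hrs]
      exact vlt_mul_of_mem W he hsW
    obtain ⟨g, hg⟩ := hdet (r : E) r.2
    rw [sheetEval_eq H B hdet ζ r hg]
    have hgJ : W.valuation (aeval J g) < 1 := by
      have e : aeval J g = (r : E) + -((r : E) - aeval J g) := by ring
      rw [e]
      refine vlt_add W hr ?_
      rw [Valuation.map_neg]
      exact hg
    have hd := H.dvd_of_valuation_lt_one hgJ
    rw [H.C_dvd_iff_red] at hd
    rw [hd, Polynomial.eval_zero]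
  · have h1 : (J - algebraMap R E ζ) = ((⟨J, hJB⟩ - algebraMap R ↥B ζ : ↥B) : E) := rfl
    rw [h1, coe_mem_locMax_iff, RingHom.mem_ker]
    have h2 : W.valuation (((⟨J, hJB⟩ - algebraMap R ↥B ζ : ↥B) : E) -
        aeval J (X - C ζ : R[X])) < 1 := by
      rw [← h1, show aeval J (X - C ζ : R[X]) = J - algebraMap R E ζ by
        rw [map_sub, aeval_X, aeval_C], sub_self, map_zero]
      exact zero_lt_one
    rw [sheetEval_eq H B hdet ζ _ h2]
    simp [red]

end Exists

end Fermat.Agent.MW
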