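import Mathlib
import Fermat.Agent.MW.NADIC_helper6_Node
import Fermat.Agent.MW.NADIC_helper6_Hyp
import Fermat.Agent.MW.NADIC_helper9_Same
import Fermat.Agent.MW.NADIC_helper4_ResInv

/-!
# Project MW (S17) — [N-ADIC] helper6, [DICT]: closed points of the sheets are determined by the
residue of the coordinate

For a level-one type model (`E_M = K_M = K₁(t)`): the four `SheetPt` data
(chart `j` / `W_∞` / `A t`; chart `j` / `W_0` / `B t`; chart `j⁻¹` / `W_∞` / `(A t)⁻¹`;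
chart `j⁻¹` / `W_0` / `(B t)⁻¹`) and the resulting criteria for two closed points to coincide.
-/

set_option autoImplicit false
set_option linter.unusedSectionVars false
set_option linter.style.haveILetI false

open AlgebraicCurve IsLocalRing Polynomial

namespace Fermat.Agent.MW.NAdic

open Fermat.Agent.SS Fermat.Agent.JA Fermat.Agent.FF Fermat.Agent.MW

section Model

variable {R : Type*} [CommRing R] [IsDomain R] [IsDiscreteValuationRing R] [CharZero R]
  {K₁ : Type*} [Field K₁] [Algebra R K₁] [IsFractionRing R K₁]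
  {KM : Type*} [Field KM] [Algebra K₁ KM] [Algebra R KM] [IsScalarTower R K₁ KM]
  {EM : Type*} [Field EM] [Algebra KM EM] [Algebra K₁ EM] [IsScalarTower K₁ KM EM] [Algebra R EM]
  [IsScalarTower R KM EM]
  {KN : Type*} [Field KN] [Algebra K₁ KN] [Algebra R KN] [IsScalarTower R K₁ KN]
  {EN : Type*} [Field EN] [Algebra KN EN] [Algebra K₁ EN] [IsScalarTower K₁ KN EN] [Algebra R EN]
  [IsScalarTower R KN EN] [FiniteDimensional KN EN]
  {π : R} {q n : ℕ} {S : Finset R} {t : KM} {jM : EM} {j : KN} {A B : EM →+* EN}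
  {VM : ValuationSubring EM} {Winf W0 : ValuationSubring EN}

/-! ### integrality -/

/-- the elements of the chart `j` are integral over `R[A j_M]`. -/
theorem SSModel.isIntegral_of_mem_chartOne (h : SSModel K₁ π q n S t jM j A B VM Winf W0)
    {b : EN} (hb : b ∈ chartOne R EN j) : IsIntegral ↥(Algebra.adjoin R {A jM}) b := by
  rw [← chartOne_algebraMap_eq, mem_chartOne_iff, ← h.A_j] at hb
  exact hb

/-- the elements of the chart `j⁻¹` are integral over `R[(A j_M)⁻¹]`. -/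
theorem SSModel.isIntegral_of_mem_chartOne_inv (h : SSModel K₁ π q n S t jM j A B VM Winf W0)
    {b : EN} (hb : b ∈ chartOne R EN j⁻¹) : IsIntegral ↥(Algebra.adjoin R {(A jM)⁻¹}) b := by
  rw [← chartOne_algebraMap_eq, mem_chartOne_iff, map_inv₀, ← h.A_j] at hb
  exact hb

/-- the elements of the chart `j` are integral over `R[B j_M]` (given `hjint`). -/
theorem SSModel.isIntegral_jq_of_mem_chartOne (h : SSModel K₁ π q n S t jM j A B VM Winf W0)
    (hjint : IsIntegral ↥(Algebra.adjoin R {B jM}) (A jM))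
    {b : EN} (hb : b ∈ chartOne R EN j) : IsIntegral ↥(Algebra.adjoin R {B jM}) b := by
  have h1 := SSModel.isIntegral_of_mem_chartOne h hb
  have h2 : A jM ∈ chartOne R EN (B jM : EN) := by
    rw [mem_chartOne_iff]
    exact hjint
  have h3 := mem_chartOne_of_isIntegral_adjoin (B jM : EN) h2 h1
  rw [mem_chartOne_iff] at h3
  exact h3

/-! ### [DET] on the four (chart, sheet) pairs -/

/-- chart `j`, sheet `C_∞`, coordinate `A t`. -/
theorem SSModel.hdet_inf (h : SSModel K₁ π q n S t jM j A B VM Winf W0)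
    (htj : algebraMap KM EM t = jM) (hsurj : Function.Surjective (algebraMap KM EM)) :
    ∀ b ∈ chartOne R EN j, ∃ g : R[X],
      Winf.valuation (b - aeval (A (algebraMap KM EM t)) g) < 1 := by
  intro b hb
  have h1 := SSModel.isIntegral_of_mem_chartOne h hb
  rw [← htj] at h1
  exact (SSModel.resDegHyp_inf h hsurj).exists_aeval_sub_lt_one h1

/-- chart `j`, sheet `C_0`, coordinate `B t`. -/
theorem SSModel.hdet_zero (h : SSModel K₁ π q n S t jM j A B VM Winf W0)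
    (htj : algebraMap KM EM t = jM) (hsurj : Function.Surjective (algebraMap KM EM))
    (hjint : IsIntegral ↥(Algebra.adjoin R {B jM}) (A jM)) :
    ∀ b ∈ chartOne R EN j, ∃ g : R[X],
      W0.valuation (b - aeval (B (algebraMap KM EM t)) g) < 1 := by
  intro b hb
  have h1 := SSModel.isIntegral_jq_of_mem_chartOne h hjint hb
  rw [← htj] at h1
  exact (SSModel.resDegHyp_zero h hsurj).exists_aeval_sub_lt_one h1

/-- chart `j⁻¹`, sheet `C_∞`, coordinate `(A t)⁻¹`. -/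
theorem SSModel.hdet_cusp_inf (h : SSModel K₁ π q n S t jM j A B VM Winf W0)
    (htj : algebraMap KM EM t = jM) (hsurj : Function.Surjective (algebraMap KM EM)) :
    ∀ b ∈ chartOne R EN j⁻¹, ∃ g : R[X],
      Winf.valuation (b - aeval (A (algebraMap KM EM t))⁻¹ g) < 1 := by
  intro b hb
  have h1 := SSModel.isIntegral_of_mem_chartOne_inv h hb
  rw [← htj] at h1
  exact (SSModel.resDegHyp_inf h hsurj).inv.exists_aeval_sub_lt_one h1

/-- chart `j⁻¹`, sheet `C_0`, coordinate `(B t)⁻¹` (via `j⁻¹ ≡ (j_q⁻¹)^q` on `W_0`). -/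
theorem SSModel.hdet_cusp_zero (h : SSModel K₁ π q n S t jM j A B VM Winf W0)
    (htj : algebraMap KM EM t = jM) (hsurj : Function.Surjective (algebraMap KM EM)) :
    ∀ b ∈ chartOne R EN j⁻¹, ∃ g : R[X],
      W0.valuation (b - aeval (B (algebraMap KM EM t))⁻¹ g) < 1 := by
  intro b hb
  have h1 := SSModel.isIntegral_of_mem_chartOne_inv h hb
  have H := (SSModel.resDegHyp_zero h hsurj).inv
  have H0 := SSModel.resDegHyp_zero h hsurj
  rw [htj] at H H0
  -- `(A jM)⁻¹ ≡ ((B jM)⁻¹)^q` on `W_0`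
  have hk := h.kron_j_zero
  have hJN1 : W0.valuation (B jM) = 1 := H0.valuation_J
  have hJN0 : B jM ≠ 0 := H0.J_ne_zero
  have hJNq : W0.valuation (B jM ^ q) = 1 := by rw [map_pow, hJN1, one_pow]
  have hJ1 : W0.valuation (A jM) = 1 := by
    have e : A jM = (A jM - B jM ^ q) + B jM ^ q := by ring
    rw [e]
    have := Valuation.map_add_eq_of_lt_right W0.valuation (x := A jM - B jM ^ q) (y := B jM ^ q)
      (by rw [hJNq]; exact hk)
    rw [this, hJNq]
  have hJ0 : A jM ≠ 0 := by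
    intro h0
    rw [h0, map_zero] at hJ1
    exact zero_ne_one hJ1
  have hcong : W0.valuation ((A jM)⁻¹ - aeval (B jM)⁻¹ ((X : R[X]) ^ q)) < 1 := by
    rw [map_pow, aeval_X, inv_pow]
    have e : (A jM)⁻¹ - (B jM ^ q)⁻¹ = -((A jM - B jM ^ q) * ((A jM)⁻¹ * (B jM ^ q)⁻¹)) := by
      have := pow_ne_zero q hJN0
      field_simp
      ring
    rw [e, Valuation.map_neg, map_mul, map_mul, map_inv₀, map_inv₀, hJ1, hJNq, inv_one, mul_one,
      mul_one]
    exact hk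
  rw [htj]
  exact H.exists_aeval_sub_lt_one_of_adjoin hcong h1

/-! ### `SheetPt` and the same-centre criteria -/

/-- a closed point of a chart on the sheet of `W`, with the value of the coordinate. -/
theorem sheetPt_of_le {u : KN} {W : ValuationSubring EN} {Jc : EN} (H : ResDegHyp W Jc π)
    (hBW : ∀ b ∈ chartOne R EN u, b ∈ W)
    (hdet : ∀ b ∈ chartOne R EN u, ∃ g : R[X], W.valuation (b - aeval Jc g) < 1)
    (𝔪 : Ideal ↥(chartOne R EN u)) [h𝔪 : 𝔪.IsPrime] (hle : sheetIdeal u W hBW ≤ 𝔪)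
    (hreg : Jc ∈ locRing (chartOne R EN u) 𝔪) {ζ : R}
    (hval : Jc - algebraMap R EN ζ ∈ locMax (chartOne R EN u) 𝔪) :
    SheetPt H (chartOne R EN u) 𝔪 ζ :=
  ⟨hdet, (sheet_le_iff (B := chartOne R EN u) (𝔪 := 𝔪) hBW (mem_sheetIdeal_iff u W hBW)).mp hle,
    hreg, hval⟩

/-- two closed points of a chart on the sheet of `W` with congruent values of the coordinate
coincide. -/
theorem eq_of_sheet_of_value {u : KN} {W : ValuationSubring EN} {Jc : EN} (H : ResDegHyp W Jc π)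
    (hBW : ∀ b ∈ chartOne R EN u, b ∈ W)
    (hdet : ∀ b ∈ chartOne R EN u, ∃ g : R[X], W.valuation (b - aeval Jc g) < 1)
    (𝔪 𝔪' : Ideal ↥(chartOne R EN u)) [h𝔪 : 𝔪.IsMaximal] [h𝔪' : 𝔪'.IsMaximal]
    (hle : sheetIdeal u W hBW ≤ 𝔪) (hle' : sheetIdeal u W hBW ≤ 𝔪')
    (hreg : haveI := h𝔪.isPrime; Jc ∈ locRing (chartOne R EN u) 𝔪)
    (hreg' : haveI := h𝔪'.isPrime; Jc ∈ locRing (chartOne R EN u) 𝔪') {ζ ζ' : R}
    (hval : Jc - algebraMap R EN ζ ∈ locMax (chartOne R EN u) 𝔪)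
    (hval' : Jc - algebraMap R EN ζ' ∈ locMax (chartOne R EN u) 𝔪')
    (hζ : ζ - ζ' ∈ Ideal.span {π}) : 𝔪 = 𝔪' := by
  haveI := h𝔪.isPrime
  haveI := h𝔪'.isPrime
  exact SheetPt.eq (sheetPt_of_le H hBW hdet 𝔪 hle hreg hval)
    (sheetPt_of_le H hBW hdet 𝔪' hle' hreg' hval') hζ

/-- **same centre on `C_∞`, chart `j`**: congruent values of `A t`. -/
theorem SSModel.eq_of_inf (h : SSModel K₁ π q n S t jM j A B VM Winf W0)
    (htj : algebraMap KM EM t = jM) (hsurj : Function.Surjective (algebraMap KM EM))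
    (𝔪 𝔪' : Ideal ↥(chartOne R EN j)) [h𝔪 : 𝔪.IsMaximal] [h𝔪' : 𝔪'.IsMaximal]
    (hle : sheetIdeal j Winf h.two.chart_le_inf ≤ 𝔪)
    (hle' : sheetIdeal j Winf h.two.chart_le_inf ≤ 𝔪') {ζ ζ' : R}
    (hval : A (algebraMap KM EM t) - algebraMap R EN ζ ∈ locMax (chartOne R EN j) 𝔪)
    (hval' : A (algebraMap KM EM t) - algebraMap R EN ζ' ∈ locMax (chartOne R EN j) 𝔪')
    (hζ : ζ - ζ' ∈ Ideal.span {π}) : 𝔪 = 𝔪' := by
  haveI := h𝔪.isPrime
  haveI := h𝔪'.isPrime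
  exact eq_of_sheet_of_value (SSModel.resDegHyp_inf h hsurj) h.two.chart_le_inf
    (SSModel.hdet_inf h htj hsurj) 𝔪 𝔪' hle hle' (le_locRing h.A_t_mem) (le_locRing h.A_t_mem)
    hval hval' hζ

/-- **same centre on `C_0`, chart `j`**: congruent values of `B t`. -/
theorem SSModel.eq_of_zero (h : SSModel K₁ π q n S t jM j A B VM Winf W0) (hπ : Irreducible π)
    (htj : algebraMap KM EM t = jM) (hsurj : Function.Surjective (algebraMap KM EM))
    (hjint : IsIntegral ↥(Algebra.adjoin R {B jM}) (A jM))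
    (𝔪 𝔪' : Ideal ↥(chartOne R EN j)) [h𝔪 : 𝔪.IsMaximal] [h𝔪' : 𝔪'.IsMaximal]
    (hle : sheetIdeal j W0 h.two.chart_le_zero ≤ 𝔪)
    (hle' : sheetIdeal j W0 h.two.chart_le_zero ≤ 𝔪') {ζ ζ' : R}
    (hval : B (algebraMap KM EM t) - algebraMap R EN ζ ∈ locMax (chartOne R EN j) 𝔪)
    (hval' : B (algebraMap KM EM t) - algebraMap R EN ζ' ∈ locMax (chartOne R EN j) 𝔪')
    (hζ : ζ - ζ' ∈ Ideal.span {π}) : 𝔪 = 𝔪' := by
  haveI := h𝔪.isPrime
  haveI := h𝔪'.isPrime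
  have hBt := h.B_t_mem (h.jq_mem_chartOne hπ)
  exact eq_of_sheet_of_value (SSModel.resDegHyp_zero h hsurj) h.two.chart_le_zero
    (SSModel.hdet_zero h htj hsurj hjint) 𝔪 𝔪' hle hle' (le_locRing hBt) (le_locRing hBt)
    hval hval' hζ

/-- **same centre on `C_∞`, chart `j⁻¹`**: congruent values of `(A t)⁻¹`. -/
theorem SSModel.eq_of_cusp_inf (h : SSModel K₁ π q n S t jM j A B VM Winf W0)
    (htj : algebraMap KM EM t = jM) (hsurj : Function.Surjective (algebraMap KM EM))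
    (h2 : IsTwoSheet π j⁻¹ Winf W0)
    (𝔪 𝔪' : Ideal ↥(chartOne R EN j⁻¹)) [h𝔪 : 𝔪.IsMaximal] [h𝔪' : 𝔪'.IsMaximal]
    (hle : sheetIdeal j⁻¹ Winf h2.chart_le_inf ≤ 𝔪)
    (hle' : sheetIdeal j⁻¹ Winf h2.chart_le_inf ≤ 𝔪') {ζ ζ' : R}
    (hval : (A (algebraMap KM EM t))⁻¹ - algebraMap R EN ζ ∈ locMax (chartOne R EN j⁻¹) 𝔪)
    (hval' : (A (algebraMap KM EM t))⁻¹ - algebraMap R EN ζ' ∈ locMax (chartOne R EN j⁻¹) 𝔪')
    (hζ : ζ - ζ' ∈ Ideal.span {π}) : 𝔪 = 𝔪' := by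
  haveI := h𝔪.isPrime
  haveI := h𝔪'.isPrime
  have hJi : (A (algebraMap KM EM t))⁻¹ ∈ chartOne R EN j⁻¹ := by
    rw [htj, h.A_j, ← map_inv₀]
    exact algebraMap_coord_mem_chartOne j⁻¹
  exact eq_of_sheet_of_value (SSModel.resDegHyp_inf h hsurj).inv h2.chart_le_inf
    (SSModel.hdet_cusp_inf h htj hsurj) 𝔪 𝔪' hle hle' (le_locRing hJi) (le_locRing hJi)
    hval hval' hζ

/-- **same centre on `C_0`, chart `j⁻¹`**: congruent values of `(B t)⁻¹`. -/
theorem SSModel.eq_of_cusp_zero (h : SSModel K₁ π q n S t jM j A B VM Winf W0)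
    (htj : algebraMap KM EM t = jM) (hsurj : Function.Surjective (algebraMap KM EM))
    (h2 : IsTwoSheet π j⁻¹ Winf W0)
    (𝔪 𝔪' : Ideal ↥(chartOne R EN j⁻¹)) [h𝔪 : 𝔪.IsMaximal] [h𝔪' : 𝔪'.IsMaximal]
    (hle : sheetIdeal j⁻¹ W0 h2.chart_le_zero ≤ 𝔪)
    (hle' : sheetIdeal j⁻¹ W0 h2.chart_le_zero ≤ 𝔪')
    (hreg : haveI := h𝔪.isPrime; (B (algebraMap KM EM t))⁻¹ ∈ locRing (chartOne R EN j⁻¹) 𝔪)
    (hreg' : haveI := h𝔪'.isPrime; (B (algebraMap KM EM t))⁻¹ ∈ locRing (chartOne R EN j⁻¹) 𝔪')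
    {ζ ζ' : R}
    (hval : (B (algebraMap KM EM t))⁻¹ - algebraMap R EN ζ ∈ locMax (chartOne R EN j⁻¹) 𝔪)
    (hval' : (B (algebraMap KM EM t))⁻¹ - algebraMap R EN ζ' ∈ locMax (chartOne R EN j⁻¹) 𝔪')
    (hζ : ζ - ζ' ∈ Ideal.span {π}) : 𝔪 = 𝔪' :=
  eq_of_sheet_of_value (SSModel.resDegHyp_zero h hsurj).inv h2.chart_le_zero
    (SSModel.hdet_cusp_zero h htj hsurj) 𝔪 𝔪' hle hle' hreg hreg' hval hval' hζ

end Model

end Fermat.Agent.MW.NAdic
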