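import Mathlib
import Fermat.Agent.MW.NADIC_helper1_LimCoord
import Fermat.Agent.MW.NADIC_helper6_Abs2

/-!
# Project MW (S17) — [N-ADIC] helper6, [OM-DEFS]: the cells of `X₀(q)` at the prime `q`, over `Ω`

Everything is defined through VALUES of the global functions `j = jBar`, `j_q = jqBar`,
`U = unitBar = Δ(τ)/Δ(qτ)`, `φ = j_q / j^q` and of the node coordinates `x_i` of a node atlas.

* a point `Q` is *cuspidal* if `j⁻¹` is regular at `Q` with `|j⁻¹(Q)| < 1`;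
* kinds: `sinf` (`|U(Q)| = 1`), `s0` (`|U(Q)| = |q^12|`), `nd i` (otherwise; `i` the node with
  `|j(Q) - β_i| < 1`), `cinf` (cuspidal, `|φ(Q)| = 1`), `c0` (cuspidal, `|φ(Q)| ≠ 1`);
* coordinates: `j`, `j_q`, `x_i`, `j⁻¹`, `j_q⁻¹`;
* `g P Q = - log |z(P) - z(Q)|` for `P ≠ Q` of the same kind with `|z(P) - z(Q)| < 1`;
* `h P Q = log |x_i(P)|` (clamped to `[-L, 0]`) for `P`, `Q` of the same kind `nd i`;
* `θ Q = log |x_i(Q)| / μ_i` (clamped to `[0, 1]`), `μ_i` the logarithmic thickness of the node.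

`OneAtlas.mkCellSys` : the `NCellSys2 (1 * q) (some p)` from the three substantial fields
(`zc_ord`, `n_diff`, `cf`).
-/

set_option autoImplicit false
set_option linter.unusedSectionVars false

open scoped BigOperators

noncomputable section

namespace Fermat.Agent.MW.OneCell

open AlgebraicCurve ModularCurve Fermat.Agent.JA Fermat.Agent.FF Fermat.Agent.MW
  Fermat.Agent.X0N

/-- `Ω = AlgebraicClosure ℚ`. -/
local notation "Ω" => AlgebraicClosure ℚ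

variable (q : ℕ) [NeZero q] [NeZero (1 * q)]

/-- a node atlas: finitely many node coordinates `x i`, the `j`-values `β i` of the nodes, and the
logarithmic thicknesses `μ i = m_i · log |π|` (negative). -/
structure OneAtlas where
  I : Type
  fin : Fintype I
  dec : DecidableEq I
  x : I → FunN (1 * q)
  β : I → Ω
  μ : I → ℝ

attribute [instance] OneAtlas.fin OneAtlas.dec

variable {q} (p : Nat.Primes) (𝒜 : OneAtlas q)

/-- the kinds of cells. -/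
abbrev Kind : Type := Fin 4 ⊕ 𝒜.I

/-- smooth cells of `C_∞` -/
abbrev kSinf : Kind 𝒜 := Sum.inl 0
/-- smooth cells of `C_0` -/
abbrev kS0 : Kind 𝒜 := Sum.inl 1
/-- the cell of the cusp `∞` -/
abbrev kCinf : Kind 𝒜 := Sum.inl 2
/-- the cell of the cusp `0` -/
abbrev kC0 : Kind 𝒜 := Sum.inl 3
/-- the cell of the node `i` -/
abbrev kNd (i : 𝒜.I) : Kind 𝒜 := Sum.inr i

variable (q) in
/-- `φ = j_q / j^q`. -/
def phiBar : FunN (1 * q) := jqBar q * ((jBar (1 * q)) ^ q)⁻¹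

/-- the coordinate of a kind. -/
def coord : Kind 𝒜 → FunN (1 * q)
  | Sum.inl 0 => jBar (1 * q)
  | Sum.inl 1 => jqBar q
  | Sum.inl 2 => (jBar (1 * q))⁻¹
  | Sum.inl 3 => (jqBar q)⁻¹
  | Sum.inr i => 𝒜.x i

/-- `L = - log |q^12|_p` (`= 12 log q` for `p = q`). -/
def bigL : ℝ := -lg (some p) ((q : Ω) ^ 12)

/-- `Q` is cuspidal. -/
def IsCuspidal (Q : PtN (1 * q)) : Prop :=
  0 ≤ Q.ord (jBar (1 * q))⁻¹ ∧ absv (some p) (valN (1 * q) Q (jBar (1 * q))⁻¹) < 1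

open Classical in
/-- the kind of a point. -/
def kind (Q : PtN (1 * q)) : Kind 𝒜 :=
  if IsCuspidal p Q then
    (if absv (some p) (valN (1 * q) Q (phiBar q)) = 1 then kCinf 𝒜 else kC0 𝒜)
  else if lg (some p) (valN (1 * q) Q (unitBar q)) = 0 then kSinf 𝒜
  else if lg (some p) (valN (1 * q) Q (unitBar q)) = -bigL (q := q) p then kS0 𝒜
  else if h : ∃ i : 𝒜.I, absv (some p) (valN (1 * q) Q (jBar (1 * q)) - 𝒜.β i) < 1 then
    kNd 𝒜 h.choose
  else kSinf 𝒜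

/-- the value of the coordinate of `Q` at `Q`. -/
def zb (Q : PtN (1 * q)) : Ω := valN (1 * q) Q (coord 𝒜 (kind p 𝒜 Q))

open Classical in
/-- `- log` of the distance in a common cell. -/
def gg (P Q : PtN (1 * q)) : ℝ :=
  if P ≠ Q ∧ kind p 𝒜 P = kind p 𝒜 Q ∧ absv (some p) (zb p 𝒜 P - zb p 𝒜 Q) < 1 then
    -lg (some p) (zb p 𝒜 P - zb p 𝒜 Q)
  else 0

open Classical in
/-- `log |x_i(P)|` for `P`, `Q` in the annulus of the node `i`. -/
def hh (P Q : PtN (1 * q)) : ℝ :=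
  if kind p 𝒜 P = kind p 𝒜 Q ∧ (kind p 𝒜 Q).isRight then
    max (-bigL (q := q) p) (min 0 (lg (some p) (zb p 𝒜 P)))
  else 0

/-- the position on the skeleton. -/
def theta (Q : PtN (1 * q)) : ℝ :=
  match kind p 𝒜 Q with
  | Sum.inl 0 => 0
  | Sum.inl 1 => 1
  | Sum.inl 2 => 0
  | Sum.inl 3 => 1
  | Sum.inr i => max 0 (min 1 (lg (some p) (zb p 𝒜 Q) / 𝒜.μ i))

theorem gg_symm (P Q : PtN (1 * q)) : gg p 𝒜 P Q = gg p 𝒜 Q P := by
  classical
  unfold gg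
  have e : zb p 𝒜 P - zb p 𝒜 Q = -(zb p 𝒜 Q - zb p 𝒜 P) := by ring
  by_cases h : P ≠ Q ∧ kind p 𝒜 P = kind p 𝒜 Q ∧ absv (some p) (zb p 𝒜 P - zb p 𝒜 Q) < 1
  · have h' : Q ≠ P ∧ kind p 𝒜 Q = kind p 𝒜 P ∧ absv (some p) (zb p 𝒜 Q - zb p 𝒜 P) < 1 := by
      refine ⟨h.1.symm, h.2.1.symm, ?_⟩
      have := h.2.2
      rwa [e, absv_neg] at this
    rw [if_pos h, if_pos h', e]
    unfold lg
    rw [absv_neg]
  · have h' : ¬ (Q ≠ P ∧ kind p 𝒜 Q = kind p 𝒜 P ∧ absv (some p) (zb p 𝒜 Q - zb p 𝒜 P) < 1) := by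
      intro h'
      apply h
      refine ⟨h'.1.symm, h'.2.1.symm, ?_⟩
      have := h'.2.2
      rwa [e, absv_neg]
    rw [if_neg h, if_neg h']

theorem gg_diag (Q : PtN (1 * q)) : gg p 𝒜 Q Q = 0 := by
  classical
  unfold gg
  rw [if_neg]
  exact fun h => h.1 rfl

theorem gg_nonneg (P Q : PtN (1 * q)) : 0 ≤ gg p 𝒜 P Q := by
  classical
  unfold gg
  split_ifs with h
  · rw [neg_nonneg]
    unfold lg
    exact Real.log_nonpos (absv_nonneg _ _) h.2.2.le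
  · exact le_rfl

theorem gg_ne_zero {P Q : PtN (1 * q)} (h : gg p 𝒜 P Q ≠ 0) : kind p 𝒜 P = kind p 𝒜 Q := by
  classical
  unfold gg at h
  by_contra hne
  apply h
  rw [if_neg]
  exact fun h' => hne h'.2.1

theorem bigL_nonneg : 0 ≤ bigL (q := q) p := by
  unfold bigL
  rw [neg_nonneg]
  unfold lg
  apply Real.log_nonpos (absv_nonneg _ _)
  rw [absv_pow]
  apply pow_le_one₀ (absv_nonneg _ _)
  have h1 : ((q : ℕ) : Ω) = algebraMap ℚ Ω (q : ℚ) := by rw [map_natCast]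
  rw [h1, absv_some_rat]
  exact_mod_cast padicNorm.of_nat (p := (p : ℕ)) q

theorem hh_nonpos (P Q : PtN (1 * q)) : hh p 𝒜 P Q ≤ 0 := by
  classical
  unfold hh
  split_ifs
  · exact max_le (by have := bigL_nonneg (q := q) p; linarith) (min_le_left _ _)
  · exact le_rfl

theorem hh_ge (P Q : PtN (1 * q)) : -bigL (q := q) p ≤ hh p 𝒜 P Q := by
  classical
  unfold hh
  split_ifs
  · exact le_max_left _ _
  · have := bigL_nonneg (q := q) p; linarith

theorem hh_ne_zero {P Q : PtN (1 * q)} (h : hh p 𝒜 P Q ≠ 0) : kind p 𝒜 P = kind p 𝒜 Q := by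
  classical
  unfold hh at h
  by_contra hne
  apply h
  rw [if_neg]
  exact fun h' => hne h'.1

theorem theta_nonneg (Q : PtN (1 * q)) : 0 ≤ theta p 𝒜 Q := by
  unfold theta
  split <;> norm_num

theorem theta_le_one (Q : PtN (1 * q)) : theta p 𝒜 Q ≤ 1 := by
  unfold theta
  split <;> norm_num

/-- the centred coordinate at `Q`. -/
def zcen (Q : PtN (1 * q)) : FunN (1 * q) :=
  coord 𝒜 (kind p 𝒜 Q) - algebraMap Ω (FunN (1 * q)) (zb p 𝒜 Q)

variable {x y : ℤ} (h : (q : ℤ) * x + ((1 : ℕ) : ℤ) * y = 1) (hq : q.Prime)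

/-- **the cell system of `X₀(q)` at `p`** from its three substantial fields. -/
def OneAtlas.mkCellSys
    (zc_ord : ∀ Q : PtN (1 * q), Q.ord (zcen p 𝒜 Q) = 1)
    (n_diff : ∀ (f : FunN (1 * q)) (D : PtN (1 * q) →₀ ℤ), f ≠ 0 → IsDivOf (1 * q) f D →
      |sheetNorm1 p h hq f - sheetNorm0 p (1 * q) f| ≤ 2 * bigL (q := q) p * (dnorm D : ℝ))
    (cf : ∀ (f : FunN (1 * q)) (D : PtN (1 * q) →₀ ℤ), f ≠ 0 → IsDivOf (1 * q) f D →
      ∀ Q : PtN (1 * q),
        lg (some p) (valN (1 * q) Q (f * (zcen p 𝒜 Q) ^ (-(D Q)))) =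
          (1 - theta p 𝒜 Q) * sheetNorm0 p (1 * q) f + theta p 𝒜 Q * sheetNorm1 p h hq f
            - theta p 𝒜 Q * (∑ P ∈ D.support, (D P : ℝ) * hh p 𝒜 P Q)
            - ∑ P ∈ D.support, (D P : ℝ) * gg p 𝒜 P Q) :
    NCellSys2 (1 * q) (some p) where
  nz := Fintype.card (Kind 𝒜)
  zi := fun k => coord 𝒜 ((Fintype.equivFin (Kind 𝒜)).symm k)
  idx := fun Q => Fintype.equivFin (Kind 𝒜) (kind p 𝒜 Q)
  zb := zb p 𝒜
  g := gg p 𝒜
  h := hh p 𝒜
  θ := theta p 𝒜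
  L := bigL (q := q) p
  C := 2 * bigL (q := q) p
  L_nonneg := bigL_nonneg p
  C_nonneg := mul_nonneg (by norm_num) (bigL_nonneg p)
  zc_ord := fun Q => by
    rw [Equiv.symm_apply_apply]
    exact zc_ord Q
  idx_eq := fun P Q hPQ => by
    rcases hPQ with hPQ | hPQ
    · rw [gg_ne_zero p 𝒜 hPQ]
    · rw [hh_ne_zero p 𝒜 hPQ]
  g_symm := gg_symm p 𝒜
  g_diag := gg_diag p 𝒜
  g_nonneg := gg_nonneg p 𝒜
  h_nonpos := hh_nonpos p 𝒜
  h_ge := hh_ge p 𝒜
  θ_nonneg := theta_nonneg p 𝒜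
  θ_le_one := theta_le_one p 𝒜
  n0 := sheetNorm0 p (1 * q)
  n1 := sheetNorm1 p h hq
  n0_smul_le := fun c f hc hf => (sheetNorm0_smul c f hc hf).le
  n1_smul_le := fun c f hc hf => (sheetNorm1_smul h hq c f hc hf).le
  n0_add_le := fun f g hf hg hfg => sheetNorm0_add_le hf hg hfg
  n1_add_le := fun f g hf hg hfg => sheetNorm1_add_le h hq hf hg hfg
  n_diff := n_diff
  cf := fun f D hf hD Q => by
    rw [Equiv.symm_apply_apply]
    exact cf f D hf hD Q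

end Fermat.Agent.MW.OneCell
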