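import Mathlib
import Fermat.Agent.MW.NADIC_helper6_Dict
import Fermat.Agent.MW.NADIC_helper6_OmDefs
import Fermat.Agent.MW.NADIC_helper1_Model1Int
import Fermat.Agent.MW.NADIC_helper1_OneBC

/-!
# Project MW (S17) — [N-ADIC] helper6, [CTX]: the level-one model over a base `K₁ ⊂ Ω`, with all the
hypotheses of the generic cell theorems instantiated

`p` a prime, `q = p` the level, `K₁` an intermediate field with `R₁ = baseRing (padicPlace p) K₁` a
discrete valuation ring, `π` a uniformizer of `R₁`.  Abbreviations `R1`, `E1`, `KJ`, `gJ`, `hA`,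
`hB`, `J1`, `Jq1`, `U1`, `Winf1`, `W01`, `VM1`; the model `mdl`; the standard hypotheses `mdl_htj`,
`mdl_hsurj`, `mdl_geo'`, `mdl_two'`, `mdl_hjint`, `mdl_hk0`, `mdl_nodeUnit`.
-/

set_option autoImplicit false
set_option linter.unusedSectionVars false
set_option linter.unusedVariables false
set_option linter.style.haveILetI false
set_option synthInstance.maxHeartbeats 200000

open IntermediateField AlgebraicCurve ModularCurve

noncomputable section

namespace Fermat.Agent.MW.OneCell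

open Fermat.Agent.JA Fermat.Agent.FF Fermat.Agent.SS Fermat.Agent.Igusa Fermat.Agent.X0N
  Fermat.Agent.MW Fermat.Agent.MW.NAdic

open scoped Fermat.Agent.JA.Host

attribute [local instance] baseToComplex

/-- `Ω = AlgebraicClosure ℚ`. -/
local notation "Ω" => AlgebraicClosure ℚ

variable (p : Nat.Primes) (q : ℕ) [NeZero q] [NeZero (1 * q)] (K₁ : IntermediateField ℚ Ω)

/-- the base ring. -/
abbrev R1 : Type := ↥(baseRing (padicPlace (p : ℕ)) K₁)

/-- the function field of `X₀(q)` over `K₁`. -/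
abbrev E1 : Type := ↥(keyFw ↥K₁ (1 * q) 1)

/-- `K₁(j)`. -/
abbrev KJ : Type := ↥(↥K₁)⟮jqNModC ↥K₁ 1⟯

/-- `j ∈ K₁(j)`. -/
abbrev gJ : KJ K₁ := AdjoinSimple.gen ↥K₁ (jqNModC ↥K₁ 1)

/-- the degeneracy map `A`. -/
abbrev hA : KJ K₁ →+* E1 q K₁ := (oneHostA ↥K₁ q : KJ K₁ →+* E1 q K₁)

/-- the degeneracy map `B`. -/
abbrev hB : KJ K₁ →+* E1 q K₁ := (oneHostB ↥K₁ q : KJ K₁ →+* E1 q K₁)

/-- `j` on `X₀(q)`. -/
abbrev J1 : E1 q K₁ := hA q K₁ (gJ K₁)

/-- `j_q` on `X₀(q)`. -/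
abbrev Jq1 : E1 q K₁ := hB q K₁ (gJ K₁)

/-! ### instance shortcuts (the generic searches take about one second each) -/

scoped instance (priority := 5000) instAlgKKJ : Algebra ↥K₁ (KJ K₁) := inferInstance
scoped instance (priority := 5000) instAlgKE : Algebra ↥K₁ (E1 q K₁) := inferInstance
scoped instance (priority := 5000) instAlgKJE : Algebra (KJ K₁) (E1 q K₁) := inferInstance
scoped instance (priority := 5000) instSMulKJE : SMul (KJ K₁) (E1 q K₁) := inferInstance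
scoped instance (priority := 5000) instModKJE : Module (KJ K₁) (E1 q K₁) := inferInstance
scoped instance (priority := 5000) instAlgRK : Algebra (R1 p K₁) ↥K₁ := inferInstance
scoped instance (priority := 5000) instAlgRKJ : Algebra (R1 p K₁) (KJ K₁) := inferInstance
scoped instance (priority := 5000) instAlgRE : Algebra (R1 p K₁) (E1 q K₁) := inferInstance
scoped instance (priority := 5000) instSMulRE : SMul (R1 p K₁) (E1 q K₁) := inferInstance
scoped instance (priority := 5000) instSMulRKJ : SMul (R1 p K₁) (KJ K₁) := inferInstance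
scoped instance (priority := 5000) instSMulKE : SMul ↥K₁ (E1 q K₁) := inferInstance
scoped instance (priority := 5000) instSMulKKJ : SMul ↥K₁ (KJ K₁) := inferInstance
scoped instance (priority := 5000) instSMulRK : SMul (R1 p K₁) ↥K₁ := inferInstance
scoped instance (priority := 5000) instModKE : Module ↥K₁ (E1 q K₁) := inferInstance
scoped instance (priority := 5000) instModKKJ : Module ↥K₁ (KJ K₁) := inferInstance
scoped instance (priority := 5000) instTowRKE :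
    IsScalarTower (R1 p K₁) ↥K₁ (E1 q K₁) := inferInstance
scoped instance (priority := 5000) instTowRKKJ :
    IsScalarTower (R1 p K₁) ↥K₁ (KJ K₁) := inferInstance
scoped instance (priority := 5000) instTowRKJE :
    IsScalarTower (R1 p K₁) (KJ K₁) (E1 q K₁) := inferInstance
scoped instance (priority := 5000) instTowKKJE :
    IsScalarTower ↥K₁ (KJ K₁) (E1 q K₁) := inferInstance
scoped instance (priority := 5000) instTowKKJKJ :
    IsScalarTower ↥K₁ (KJ K₁) (KJ K₁) := inferInstance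
scoped instance (priority := 5000) instTowRKJKJ :
    IsScalarTower (R1 p K₁) (KJ K₁) (KJ K₁) := inferInstance
scoped instance (priority := 5000) instFinKJE :
    FiniteDimensional (KJ K₁) (E1 q K₁) := inferInstance
scoped instance (priority := 5000) instFracRK :
    IsFractionRing (R1 p K₁) ↥K₁ := inferInstance

scoped instance (priority := 5000) instCharZeroR : CharZero (R1 p K₁) :=
  RingHom.charZero (baseRing (padicPlace (p : ℕ)) K₁).subtype

variable [IsDiscreteValuationRing ↥(baseRing (padicPlace (p : ℕ)) K₁)]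
  {x y : ℤ} (h : (q : ℤ) * x + ((1 : ℕ) : ℤ) * y = 1) (hq : q.Prime)

/-- the sheet `C_∞`. -/
abbrev Winf1 : ValuationSubring (E1 q K₁) := oneWinf (R1 p K₁) ↥K₁ q

/-- the sheet `C_0`. -/
abbrev W01 : ValuationSubring (E1 q K₁) := oneW0 (R1 p K₁) ↥K₁ h hq

variable {p q K₁}
variable {π : R1 p K₁} (hπ : Irreducible π) (hpq : (p : ℕ) = q)

include hπ hpq in
/-- `q` lies in the maximal ideal. -/
theorem q_mem_span : (q : R1 p K₁) ∈ Ideal.span {π} := by
  rw [← hπ.maximalIdeal_eq, ← absv_lt_one_iff_mem_maximalIdeal]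
  have e : ((((q : R1 p K₁) : R1 p K₁) : ↥K₁) : Ω) = algebraMap ℚ Ω (q : ℚ) := by
    rw [map_natCast]
    rfl
  rw [e, absv_some_rat, ← hpq]
  have h1 : padicNorm (p : ℕ) ((p : ℕ) : ℚ) = ((p : ℕ) : ℚ)⁻¹ := by
    haveI : Fact (p : ℕ).Prime := ⟨p.2⟩
    exact padicNorm.padicNorm_p_of_prime
  rw [h1]
  have h2 : (1 : ℝ) < ((p : ℕ) : ℝ) := by exact_mod_cast p.2.one_lt
  push_cast
  exact inv_lt_one_of_one_lt₀ h2

include h hq hπ hpq in
/-- **the level-one model over `K₁`.** -/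
theorem mdl : SSModel ↥K₁ (KM := KJ K₁) (EM := KJ K₁) (KN := KJ K₁) (EN := E1 q K₁) π q 1
    (∅ : Finset (R1 p K₁)) (gJ K₁) (gJ K₁) (gJ K₁) (hA q K₁) (hB q K₁)
    (oneVM (R1 p K₁) ↥K₁) (Winf1 p q K₁) (W01 p q K₁ h hq) := by
  classical
  exact ssModelOne (R1 p K₁) ↥K₁ hπ h hq (q_mem_span hπ hpq)

theorem mdl_htj : algebraMap (KJ K₁) (KJ K₁) (gJ K₁) = gJ K₁ := rfl

theorem mdl_hsurj : Function.Surjective (algebraMap (KJ K₁) (KJ K₁)) := fun z => ⟨z, rfl⟩

include hπ in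
set_option maxHeartbeats 1000000 in
/-- good reduction of the `j⁻¹`-line. -/
theorem mdl_geo' : GeoHyps ↥K₁ (K := KJ K₁) π (gJ K₁)⁻¹ (KJ K₁) 1 (∅ : Finset (R1 p K₁)) := by
  have t1 : Transcendental ↥K₁ (gJ K₁)⁻¹ :=
    transcendental_inv_of_transcendental (model1_transcendental_gen ↥K₁)
  have t2 : IntermediateField.adjoin ↥K₁ {(gJ K₁)⁻¹} = ⊤ :=
    adjoin_inv_eq_top (model1_adjoin_gen ↥K₁)
  have t3 : FiniteDimensional (KJ K₁) (KJ K₁) := inferInstance
  have t4 : IsUnit (((1 : ℕ) : R1 p K₁)) := by simp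
  have t5 : ∃ ζ : R1 p K₁, IsPrimitiveRoot ζ 1 := ⟨1, IsPrimitiveRoot.one⟩
  exact ⟨t3, hπ, t1, t2, t4, t5, fun a ha => absurd ha (Finset.notMem_empty a),
    fun a ha => absurd ha (Finset.notMem_empty a), fun 𝒱 _ _ _ _ => model1_unr_self 𝒱,
    fun 𝒱 _ _ => model1_tameAt_self 𝒱, fun 𝒱 _ => model1_unr_self 𝒱, model1_const_EM ↥K₁⟩

include h hq hπ hpq in
/-- the two sheets in the chart `j⁻¹`. -/
theorem mdl_two' : IsTwoSheet π (gJ K₁)⁻¹ (Winf1 p q K₁) (W01 p q K₁ h hq) :=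
  (mdl h hq hπ hpq).two.inv hπ

include h hq hπ hpq in
/-- `j` is integral over `R₁[j_q]`. -/
theorem mdl_hjint : IsIntegral ↥(Algebra.adjoin (R1 p K₁) {Jq1 q K₁}) (J1 q K₁) := by
  classical
  exact model1_jint (R1 p K₁) ↥K₁ h hq hπ (q_mem_span hπ hpq)

include h hq hπ hpq in
/-- the Kronecker congruence on `C_0`. -/
theorem mdl_hk0 : (W01 p q K₁ h hq).valuation
    (hA q K₁ (algebraMap (KJ K₁) (KJ K₁) (gJ K₁)) -
      hB q K₁ (algebraMap (KJ K₁) (KJ K₁) (gJ K₁)) ^ q) < 1 :=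
  (mdl h hq hπ hpq).kron_j_zero

/-- the modular unit `Δ(τ)/Δ(qτ)` over `K₁`. -/
abbrev U1 (q : ℕ) [NeZero q] [NeZero (1 * q)] (K₁ : IntermediateField ℚ Ω) : E1 q K₁ :=
  oneUnit ↥K₁ q

include h hq hπ hpq in
/-- **the node unit of the level-one model**, with `q^12 ~ π^c`. -/
theorem mdl_nodeUnit : ∃ c : ℕ, Associated ((q : R1 p K₁) ^ 12) (π ^ c) ∧
    NodeUnit ↥K₁ π (hA q K₁ (gJ K₁)) (U1 q K₁) c (Winf1 p q K₁) (W01 p q K₁ h hq) := by
  have hm := mdl h hq hπ hpq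
  have hR0 : ∀ r : R1 p K₁, algebraMap (R1 p K₁) (E1 q K₁) r ∈ W01 p q K₁ h hq :=
    fun r => hm.two.chart_le_zero _ (Subalgebra.algebraMap_mem _ r)
  obtain ⟨c, hc, hass, hU1, hU2⟩ :=
    oneUnit_unit_clause (R1 p K₁) ↥K₁ hπ h hq (q_mem_span hπ hpq) hR0
  exact ⟨c, hass, oneUnit_ne_zero ↥K₁ q, hc, oneUnit_mem_oneWinf (R1 p K₁) ↥K₁ q,
    oneUnit_inv_mem_oneWinf (R1 p K₁) ↥K₁ q, hU1, hU2, (isIntegral_oneUnit ↥K₁ q).1,
    (isIntegral_oneUnit ↥K₁ q).2⟩

/-- `c · log |π| = log |q^12| = - L`. -/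
theorem natCast_mul_lg_pi {c : ℕ} (hass : Associated ((q : R1 p K₁) ^ 12) (π ^ c)) :
    (c : ℝ) * lg (some p) (((π : R1 p K₁) : ↥K₁) : Ω) = -bigL (q := q) p := by
  obtain ⟨u, hu⟩ := hass
  have h2 : ((u⁻¹ : (R1 p K₁)ˣ) : R1 p K₁) * π ^ c = (q : R1 p K₁) ^ 12 := by
    rw [← hu, mul_comm ((q : R1 p K₁) ^ 12), ← mul_assoc, Units.inv_mul, one_mul]
  have h3 := lg_unit_mul_pow p (ϖ := π) (u⁻¹).isUnit c
  rw [h2] at h3
  rw [← h3]
  unfold bigL
  rw [neg_neg]
  rfl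

end Fermat.Agent.MW.OneCell
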