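import Mathlib
import Fermat.Agent.MW.NADIC_helper6_Ctx
import Fermat.Agent.MW.NADIC_helper1_Cells

/-!
# Project MW (S17) — [N-ADIC] helper6, [NODE-IFACE]: the node dictionary (interface between the
model side of the nodes and the `Ω`-level cell formula `NodeCF` of `NADIC_helper1_Cells`)

* `SSModel.nodeUnit_value_node'` : the value of the node unit at a point of the annulus of a node,
  with the exponent made explicit: `c = k · m`, `X(Q) = w' π^ν`, `U(Q) = π^(ν k) w`.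
* `NodeDict p h hq hpq W K₀` : for every base `K₁ ⊇ K₀` (uniformizer `π`), every `s` and every
  point `Q` of the annulus `W.InAnn p s` rational over `K₁`: the centre of `Q` in the chart `j` of
  the level-one model over `K₁` is a node `𝔪`; `W.X s` is the image under `limPhi` of a node
  coordinate `X` in normal form at `𝔪`, of thickness `m ≤ c` (`q^12 ~ π^c`); and a point `P`
  rational over `K₁` is centred at `𝔪` iff it lies on the annulus `W.InAnn p s`.
-/

set_option autoImplicit false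
set_option linter.unusedSectionVars false
set_option linter.unusedVariables false
set_option linter.style.haveILetI false
set_option synthInstance.maxHeartbeats 200000

open IntermediateField AlgebraicCurve ModularCurve

noncomputable section

namespace Fermat.Agent.MW.NAdic

open Fermat.Agent.SS Fermat.Agent.JA Fermat.Agent.FF Fermat.Agent.MW

section Model

variable {R : Type*} [CommRing R] [IsDomain R] [IsDiscreteValuationRing R] [CharZero R]
  {K₁ : Type*} [Field K₁] [Algebra R K₁] [IsFractionRing R K₁]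
  {KM : Type*} [Field KM] [Algebra K₁ KM] [Algebra R KM] [IsScalarTower R K₁ KM]
  {EM : Type*} [Field EM] [Algebra KM EM] [Algebra K₁ EM] [IsScalarTower K₁ KM EM] [Algebra R EM]
  [IsScalarTower R KM EM]
  {KN : Type*} [Field KN] [Algebra K₁ KN] [Algebra R KN] [IsScalarTower R K₁ KN]
  {EN : Type*} [Field EN] [Algebra KN EN] [Algebra K₁ EN] [IsScalarTower K₁ KN EN] [Algebra R EN]
  [IsScalarTower R KN EN] [FiniteDimensional KN EN]
  {π : R} {q n : ℕ} {t : KM} {jM : EM} {j : KN} {A B : EM →+* EN}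
  {VM : ValuationSubring EM} {Winf W0 : ValuationSubring EN}

/-- **the value of the node unit on the cell of a node**, with explicit exponents: `c = k · m`,
`X(Q) = w' π^ν` with `0 < ν < m`, `U(Q) = π^(ν k) w`. -/
theorem SSModel.nodeUnit_value_node' [IsScalarTower R K₁ EN]
    (h : SSModel K₁ π q n (∅ : Finset R) t jM j A B VM Winf W0) (hπ : Irreducible π)
    {U : EN} {c : ℕ} (hU : NodeUnit K₁ π (A jM) U c Winf W0)
    (𝔪 : Ideal ↥(chartOne R EN j)) [h𝔪 : 𝔪.IsMaximal]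
    (hinf : sheetIdeal j Winf h.two.chart_le_inf ≤ 𝔪)
    (h0 : sheetIdeal j W0 h.two.chart_le_zero ≤ 𝔪)
    {X : EN} {m : ℕ}
    (hX : haveI := h𝔪.isPrime; IsNodeCoord π (isFractionRing_chartOne (K₁ := K₁) j h.j_adjoin)
      (sheetIdeal j Winf h.two.chart_le_inf) (sheetIdeal j W0 h.two.chart_le_zero) 𝔪 X m)
    {Q : Place K₁ EN} (hQ : CentredAt 𝔪 Q) (hQrat : IsRationalPlace Q) :
    ∃ (k ν : ℕ) (w w' : Rˣ), c = k * m ∧ 1 ≤ k ∧ 0 < ν ∧ ν < m ∧
      HasValueAt Q X (algebraMap R K₁ ((w' : R) * π ^ ν)) ∧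
      HasValueAt Q U (algebraMap R K₁ π ^ (ν * k) * algebraMap R K₁ (w : R)) := by
  classical
  haveI h𝔪p : 𝔪.IsPrime := h𝔪.isPrime
  haveI : IsFractionRing ↥(chartOne R EN j) EN := isFractionRing_chartOne (K₁ := K₁) j h.j_adjoin
  have hπ𝔪 : algebraMap R ↥(chartOne R EN j) π ∈ 𝔪 :=
    hinf (IsTwoSheet.pi_mem_inf (K₁ := K₁) h.two hπ)
  obtain ⟨ξ, hξ, -⟩ := exists_value_of_centredAt Q hQrat (chartOne R EN j) hπ 𝔪 hπ𝔪 hQ
    hX.mem_locRing
  have hm := hX.one_le
  obtain ⟨k, ν, hν, hrel, -, w', hw'⟩ := SSModel.node_value h hπ 𝔪 hinf h0 hX hU.ne_zero ∅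
    (fun P hP => by simp at hP) (fun P hP => by simp at hP)
    (fun P hP hne => absurd (SSModel.ord_nodeUnit_eq_zero h hU 𝔪 hP) hne) (fun _ => ξ)
    (fun P hP => by simp at hP) 0 (c : ℤ)
    (by rw [zpow_zero, inv_one, mul_one]; exact hU.mem_inf)
    (by rw [zpow_zero, inv_one, mul_one]; exact hU.inv_mem_inf)
    (by rw [zpow_natCast]; exact hU.mem_zero)
    (by rw [zpow_natCast]; exact hU.inv_mem_zero) hQ hQrat hξ
  obtain ⟨w, hw, hν0, hνm⟩ := hν Q (Finset.mem_insert_self Q ∅)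
  rw [Finset.sum_empty, add_zero, zero_add] at hrel
  have hc := hU.one_le
  have hk : 1 ≤ k := by
    by_contra hk
    have hk' : k ≤ 0 := by omega
    have : k * (m : ℤ) ≤ 0 := mul_nonpos_of_nonpos_of_nonneg hk' (by positivity)
    omega
  obtain ⟨k', rfl⟩ : ∃ k' : ℕ, k = (k' : ℤ) := ⟨k.toNat, by omega⟩
  have hk'1 : 1 ≤ k' := by exact_mod_cast hk
  have hck : c = k' * m := by exact_mod_cast hrel
  refine ⟨k', ν Q, w ^ k' * w', w, hck, hk'1, hν0, hνm, ?_, ?_⟩
  · rw [← hw]; exact hξ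
  · rw [SSModel.ord_nodeUnit_eq_zero h hU 𝔪 hQ, zpow_zero, inv_one, mul_one] at hw'
    have e : algebraMap R K₁ π ^ (0 : ℤ) * algebraMap R K₁ ξ ^ (k' : ℤ) * algebraMap R K₁ (w' : R) *
        ∏ P ∈ (∅ : Finset (Place K₁ EN)).erase Q,
          (algebraMap R K₁ ξ - algebraMap R K₁ ξ) ^ (P.ord U) =
        algebraMap R K₁ π ^ (ν Q * k') * algebraMap R K₁ ((w ^ k' * w' : Rˣ) : R) := by
      rw [Finset.erase_empty, Finset.prod_empty, mul_one, zpow_zero, one_mul, zpow_natCast, hw,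
        map_mul, map_pow, mul_pow, ← pow_mul, Units.val_mul, Units.val_pow_eq_pow_val, map_mul,
        map_pow]
      ring
    rw [← e]
    exact hw'

end Model

end Fermat.Agent.MW.NAdic

namespace Fermat.Agent.MW.OneCell

open Fermat.Agent.JA Fermat.Agent.FF Fermat.Agent.SS Fermat.Agent.Igusa Fermat.Agent.X0N
  Fermat.Agent.MW Fermat.Agent.MW.NAdic

open scoped Fermat.Agent.JA.Host

attribute [local instance] baseToComplex

/-- `Ω = AlgebraicClosure ℚ`. -/
local notation "Ω" => AlgebraicClosure ℚ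

variable (p : Nat.Primes) {q : ℕ} [NeZero q] [NeZero (1 * q)] {x y : ℤ}
  (h : (q : ℤ) * x + ((1 : ℕ) : ℤ) * y = 1) (hq : q.Prime) (hpq : (p : ℕ) = q)
  (W : NodeCharts q) (K₀ : IntermediateField ℚ Ω)

/-- **the node dictionary** (see the file header). -/
def NodeDict : Prop :=
  ∀ (K₁ : IntermediateField ℚ Ω) [IsDiscreteValuationRing (R1 p K₁)]
    (_ : IsBase (p : ℕ) K₁) (_ : K₀ ≤ K₁) {π : R1 p K₁} (hπ : Irreducible π)
    (s : Fin W.nn) (Q : PtN (1 * q)),
    IsRationalPlace (ptResW q K₁ Q) → W.InAnn p s Q →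
    ∃ (𝔪 : Ideal ↥(chartOne (R1 p K₁) (E1 q K₁) (gJ K₁))) (h𝔪 : 𝔪.IsMaximal),
      CentredAt 𝔪 (ptResW q K₁ Q) ∧
      sheetIdeal (gJ K₁) (Winf1 p q K₁) (mdl h hq hπ hpq).two.chart_le_inf ≤ 𝔪 ∧
      sheetIdeal (gJ K₁) (W01 p q K₁ h hq) (mdl h hq hπ hpq).two.chart_le_zero ≤ 𝔪 ∧
      (∃ (X : E1 q K₁) (m : ℕ),
        (haveI := h𝔪.isPrime; IsNodeCoord π
          (isFractionRing_chartOne (K₁ := ↥K₁) (gJ K₁) (mdl h hq hπ hpq).j_adjoin)
          (sheetIdeal (gJ K₁) (Winf1 p q K₁) (mdl h hq hπ hpq).two.chart_le_inf)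
          (sheetIdeal (gJ K₁) (W01 p q K₁ h hq) (mdl h hq hπ hpq).two.chart_le_zero) 𝔪 X m) ∧
        limPhi q K₁ X = W.X s) ∧
      ∀ P : PtN (1 * q), IsRationalPlace (ptResW q K₁ P) →
        (CentredAt 𝔪 (ptResW q K₁ P) ↔ W.InAnn p s P)

end Fermat.Agent.MW.OneCell
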