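/-
MW (S17) — helper3 — [GOOD-P], part 6: **the maximum principle on a residue disc.**

* `gaussNorm_add_le` : the Gauss norm is ultrametric;
* `IsDiscCoord.exists_point` : a disc coordinate takes every value of `𝔪_A` on its disc;
* `goodp_mem_W_of_values_mem` : **maximum principle** — a function which is regular on a residue
  disc and takes integral values at all points of the disc is Gauss-integral (`Ω` algebraically
  closed).
-/
import Mathlib
import Fermat.Agent.MW.GOODP_helper3_Lead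

set_option autoImplicit false
set_option linter.unusedSectionVars false
set_option linter.style.haveILetI false

noncomputable section

namespace Fermat.Agent.MW

open AlgebraicCurve IsLocalRing Fermat.Agent.FF Fermat.Agent.JA Fermat.Agent.FG
open scoped Classical

variable {Ω : Type*} [Field Ω] {A : ValuationSubring Ω} {𝔽 : Type*} [Field 𝔽] [Algebra Ω 𝔽]
  {𝔽b : Type*} [Field 𝔽b] [Algebra (ResidueField ↥A) 𝔽b] {X : GoodRed Ω A 𝔽 𝔽b}
  {Γ₀ : Type*} [LinearOrderedCommGroupWithZero Γ₀] {v : Valuation Ω Γ₀}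

/-- the Gauss norm is ultrametric (one-sided form). -/
theorem gaussNorm_add_le_of_le (hv : v.valuationSubring = A) {f g : 𝔽}
    (h : gaussNorm X v g ≤ gaussNorm X v f) : gaussNorm X v (f + g) ≤ gaussNorm X v f := by
  rcases eq_or_ne f 0 with rfl | hf
  · rw [gaussNorm_zero] at h
    have hg : g = 0 := by
      by_contra hg
      exact gaussNorm_ne_zero (X := X) (v := v) hg (le_antisymm h zero_le)
    rw [hg, add_zero]
  obtain ⟨c, hc, h1, h2⟩ := X.exists_smul_unit f hf
  have hvc : 0 < v c := zero_lt_iff.mpr ((Valuation.ne_zero_iff v).mpr hc)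
  have hnf : gaussNorm X v f = (v c)⁻¹ := gaussNorm_eq hv hf hc h1 h2
  have hg : c • g ∈ X.W := by
    rw [← gaussNorm_le_one_iff hv, gaussNorm_smul hv]
    calc v c * gaussNorm X v g ≤ v c * gaussNorm X v f := mul_le_mul_right h _
      _ = 1 := by rw [hnf, mul_inv_cancel₀ hvc.ne']
  have hsum : c • (f + g) ∈ X.W := by
    rw [smul_add]
    exact X.W.add_mem _ _ h1 hg
  rw [← gaussNorm_le_one_iff hv, gaussNorm_smul hv] at hsum
  rw [hnf, ← one_mul (v c)⁻¹, le_mul_inv_iff₀' hvc]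
  exact hsum

/-- **the Gauss norm is ultrametric.** -/
theorem gaussNorm_add_le (hv : v.valuationSubring = A) (f g : 𝔽) :
    gaussNorm X v (f + g) ≤ max (gaussNorm X v f) (gaussNorm X v g) := by
  rcases le_total (gaussNorm X v g) (gaussNorm X v f) with h | h
  · exact (gaussNorm_add_le_of_le hv h).trans (le_max_left _ _)
  · rw [add_comm]
    exact (gaussNorm_add_le_of_le hv h).trans (le_max_right _ _)

theorem gaussNorm_neg (hv : v.valuationSubring = A) (f : 𝔽) :
    gaussNorm X v (-f) = gaussNorm X v f := by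
  have : -f = (-1 : Ω) • f := by rw [neg_smul, one_smul]
  rw [this, gaussNorm_smul hv, Valuation.map_neg, map_one, one_mul]

theorem gaussNorm_sub_le (hv : v.valuationSubring = A) (f g : 𝔽) :
    gaussNorm X v (f - g) ≤ max (gaussNorm X v f) (gaussNorm X v g) := by
  rw [sub_eq_add_neg]
  have := gaussNorm_add_le (X := X) hv f (-g)
  rwa [gaussNorm_neg hv] at this

/-- a disc coordinate takes every value of `𝔪_A` on its disc. -/
theorem IsDiscCoord.exists_point {Q : Place (ResidueField ↥A) 𝔽b} {t : 𝔽}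
    (h : IsDiscCoord X Q t) {a : Ω} (ha : a ∈ A.nonunits) :
    ∃ P : Place Ω 𝔽, X.r P = Q ∧ HasValueAt P t a := by
  obtain ⟨P, hP, -⟩ := X.existsUnique_mem_disc Q ⟨t, h.mem⟩ h.regular h.ord ha
  exact ⟨P, hP⟩

theorem goodp_mem_nonunits_of_val_lt_one (hv : v.valuationSubring = A) {a : Ω} (ha : v a < 1) :
    a ∈ A.nonunits := by
  rw [A.mem_nonunits_iff_or]
  rcases eq_or_ne a 0 with h0 | h0
  · exact Or.inl h0
  · right
    intro hinv
    have h1 := goodp_val_le_one_of_mem hv hinv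
    rw [map_inv₀] at h1
    have hva : 0 < v a := zero_lt_iff.mpr ((Valuation.ne_zero_iff v).mpr h0)
    have h2 : 1 ≤ v a := (inv_le_one₀ hva).mp h1
    exact absurd ha (not_lt.mpr h2)

/-- **The maximum principle on a residue disc**: a function which is regular on the residue disc
of `Q` and takes integral values at all points of the disc is Gauss-integral. -/
theorem goodp_mem_W_of_values_mem [IsAlgClosed Ω] (hv : v.valuationSubring = A)
    {Q : Place (ResidueField ↥A) 𝔽b} {f : 𝔽} (hreg : X.RegularOn Q f)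
    (hval : ∀ P : Place Ω 𝔽, X.r P = Q → ∀ b : Ω, HasValueAt P f b → b ∈ A) : f ∈ X.W := by
  by_contra hfW
  have hf : f ≠ 0 := fun h => hfW (h ▸ X.W.zero_mem)
  obtain ⟨c, hc, h1, h2⟩ := X.exists_smul_unit f hf
  have hvc0 : 0 < v c := zero_lt_iff.mpr ((Valuation.ne_zero_iff v).mpr hc)
  have hnf : gaussNorm X v f = (v c)⁻¹ := gaussNorm_eq hv hf hc h1 h2
  have hvc : v c < 1 := by
    by_contra hge
    rw [not_lt] at hge
    apply hfW
    rw [← gaussNorm_le_one_iff hv, hnf]
    exact (inv_le_one₀ hvc0).mpr hge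
  obtain ⟨D, hD, -⟩ := X.principal_gen.exists_divisor f hf
  set t := discCoord X Q with htdef
  have h₀ : IsDiscCoord X Q t := isDiscCoord_discCoord X Q
  set S : Finset (Place Ω 𝔽) := D.support.filter (fun P => X.r P = Q) with hS
  set m : ℕ := ∑ P ∈ S, (D P).toNat with hm
  have hDnn : ∀ P ∈ S, 0 ≤ D P := by
    intro P hP
    rw [hD P]
    exact hreg.ord_nonneg X (Finset.mem_filter.mp hP).2
  -- a root of the normalising constant
  obtain ⟨c₁, hc₁⟩ := IsAlgClosed.exists_pow_nat_eq c (Nat.succ_pos m)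
  have hc₁0 : c₁ ≠ 0 := by
    intro h0
    rw [h0, zero_pow (Nat.succ_ne_zero m)] at hc₁
    exact hc hc₁.symm
  have hvc₁0 : 0 < v c₁ := zero_lt_iff.mpr ((Valuation.ne_zero_iff v).mpr hc₁0)
  have hvc₁ : v c₁ < 1 := by
    by_contra hge
    rw [not_lt] at hge
    have : 1 ≤ v c := by
      rw [← hc₁, map_pow]
      exact one_le_pow₀ hge
    exact absurd hvc (not_lt.mpr this)
  -- a bound for the values of `t` at the zeros of `f` in the disc
  have hex : ∃ c₀ : Ω, c₀ ≠ 0 ∧ v c₀ < 1 ∧ v c₁ ≤ v c₀ ∧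
      ∀ P ∈ S, v (valueAt P t) ≤ v c₀ := by
    by_cases hSe : S.Nonempty
    · obtain ⟨P₁, hP₁, hmax⟩ := Finset.exists_max_image S (fun P => v (valueAt P t)) hSe
      rcases le_total (v (valueAt P₁ t)) (v c₁) with hle | hle
      · exact ⟨c₁, hc₁0, hvc₁, le_refl _, fun P hP => (hmax P hP).trans hle⟩
      · refine ⟨valueAt P₁ t, ?_, ?_, hle, hmax⟩
        · intro h0
          rw [h0, map_zero] at hle
          exact absurd hvc₁0 (not_lt.mpr hle)
        · exact goodp_val_lt_one_of_mem_nonunits hv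
            (h₀.valueAt_mem_nonunits (Finset.mem_filter.mp hP₁).2)
    · rw [Finset.not_nonempty_iff_eq_empty] at hSe
      exact ⟨c₁, hc₁0, hvc₁, le_refl _, fun P hP => by rw [hSe] at hP; simp at hP⟩
  obtain ⟨c₀, hc₀0, hvc₀, hc₁c₀, hSc₀⟩ := hex
  have hvc₀0 : 0 < v c₀ := zero_lt_iff.mpr ((Valuation.ne_zero_iff v).mpr hc₀0)
  obtain ⟨c₂, hc₂⟩ := IsAlgClosed.exists_pow_nat_eq c₀ (Nat.succ_pos 1)
  have hc₂0 : c₂ ≠ 0 := by
    intro h0
    rw [h0, zero_pow (Nat.succ_ne_zero 1)] at hc₂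
    exact hc₀0 hc₂.symm
  have hvc₂0 : 0 < v c₂ := zero_lt_iff.mpr ((Valuation.ne_zero_iff v).mpr hc₂0)
  have hvc₂sq : v c₂ * v c₂ = v c₀ := by
    rw [← hc₂, map_pow, pow_two]
  have hvc₂ : v c₂ < 1 := by
    by_contra hge
    rw [not_lt] at hge
    have : 1 ≤ v c₀ := by
      rw [← hvc₂sq]
      exact one_le_mul_of_one_le_of_one_le hge hge
    exact absurd hvc₀ (not_lt.mpr this)
  have hc₀c₂ : v c₀ < v c₂ := by
    rw [← hvc₂sq]
    calc v c₂ * v c₂ < v c₂ * 1 := by
          exact mul_lt_mul_of_pos_left hvc₂ hvc₂0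
      _ = v c₂ := mul_one _
  -- the point `t = c₂`
  obtain ⟨P₂, hP₂Q, hP₂v⟩ := h₀.exists_point (goodp_mem_nonunits_of_val_lt_one hv hvc₂)
  -- the distances
  have hdistS : ∀ P ∈ S, locDist X v P P₂ = v c₂ := by
    intro P hP
    have hPQ : X.r P = Q := (Finset.mem_filter.mp hP).2
    rw [locDist_eq hv h₀ hPQ hP₂Q (h₀.hasValueAt_valueAt hPQ) hP₂v]
    exact Valuation.map_sub_eq_of_lt_right v (lt_of_le_of_lt (hSc₀ P hP) hc₀c₂)
  have hdistN : ∀ P ∈ D.support, P ∉ S → locDist X v P P₂ = 1 := by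
    intro P hP hPS
    apply locDist_of_ne
    intro hr
    exact hPS (Finset.mem_filter.mpr ⟨hP, hr.trans hP₂Q⟩)
  have hP₂S : P₂ ∉ S := by
    intro hP
    have := hdistS P₂ hP
    rw [locDist_self] at this
    exact hvc₂0.ne this
  have hordP₂ : P₂.ord f = 0 := by
    rw [← hD P₂]
    by_contra h0
    exact hP₂S (Finset.mem_filter.mpr ⟨Finsupp.mem_support_iff.mpr h0, hP₂Q⟩)
  obtain ⟨b, hb⟩ := HasValueAt.exists_of_mem (X.deg_gen P₂) (hreg P₂ hP₂Q)
  have hbA : b ∈ A := hval P₂ hP₂Q b hb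
  have hmain := valuation_value_eq_gaussNorm_mul_prod (X := X) hv hf D hD hordP₂ hb
  have hprod : ∏ P ∈ D.support, locDist X v P P₂ ^ D P = v c₂ ^ m := by
    rw [← Finset.prod_filter_mul_prod_filter_not D.support (fun P => X.r P = Q)]
    have e1 : ∏ P ∈ D.support.filter (fun P => ¬ X.r P = Q), locDist X v P P₂ ^ D P = 1 := by
      apply Finset.prod_eq_one
      intro P hP
      have hP' := Finset.mem_filter.mp hP
      rw [hdistN P hP'.1 (fun hPS => hP'.2 (Finset.mem_filter.mp hPS).2), one_zpow]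
    rw [e1, mul_one, hm, ← Finset.prod_pow_eq_pow_sum]
    apply Finset.prod_congr rfl
    intro P hP
    rw [hdistS P hP]
    conv_lhs => rw [← Int.toNat_of_nonneg (hDnn P hP)]
    rw [zpow_natCast]
  rw [hprod, hnf] at hmain
  have hb1 : v b ≤ 1 := goodp_val_le_one_of_mem hv hbA
  -- `(v c)⁻¹ * (v c₂)^m > 1`
  have hlt : v c < v c₂ ^ m := by
    have h3 : v c = v c₁ ^ m * v c₁ := by rw [← hc₁, map_pow, pow_succ]
    have h4 : v c₁ ^ m ≤ v c₂ ^ m := pow_le_pow_left₀ hvc₁0.le (hc₁c₀.trans hc₀c₂.le) m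
    have h5 : 0 < v c₁ ^ m := pow_pos hvc₁0 m
    calc v c = v c₁ ^ m * v c₁ := h3
      _ < v c₁ ^ m * 1 := mul_lt_mul_of_pos_left hvc₁ h5
      _ = v c₁ ^ m := mul_one _
      _ ≤ v c₂ ^ m := h4
  have : 1 < (v c)⁻¹ * v c₂ ^ m := by
    rw [← inv_mul_cancel₀ hvc0.ne']
    exact mul_lt_mul_of_pos_left hlt (inv_pos.mpr hvc0)
  rw [← hmain] at this
  exact absurd hb1 (not_le.mpr this)

end Fermat.Agent.MW

end
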