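/-
MW (S17) — helper3 — [GOOD-P], part 7: **derivations on a curve with good reduction.**

`D` a derivation of the function field `𝔽 / Ω` with "canonical divisor" `κ`
(`ord_Q (D τ) = - κ Q` for every uniformizer `τ` at `Q`: `D = d/ω`, `κ = div ω`).

* `IsDerDatum.ordGE` : `D` maps functions regular at `Q` to functions of order `≥ -κ Q`;
* `IsDiscCoord.der_div_hasValueAt` : for a coordinate `t` of a residue disc and `s ∈ W` regular on
  the disc, `D s / D t = ds/dt` is regular on the disc with integral values;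
* `IsDiscCoord.der_div_mem_W` : `ds/dt ∈ W` (derivative lemma, by the maximum principle);
* `IsDiscCoord.gaussNorm_der_le` : `‖D f‖ ≤ ‖D t‖` for ALL `f ∈ W` (poles on the disc allowed);
* `gaussNorm_der_eq` : **`‖D t‖` is the same for all coordinates of all residue discs.**
-/
import Mathlib
import Fermat.Agent.MW.GOODP_helper3_Max

set_option autoImplicit false
set_option linter.unusedSectionVars false
set_option linter.style.haveILetI false

noncomputable section

namespace Fermat.Agent.MW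

open AlgebraicCurve IsLocalRing Fermat.Agent.FF Fermat.Agent.JA Fermat.Agent.FG
open scoped Classical

variable {Ω : Type*} [Field Ω] {A : ValuationSubring Ω} {𝔽 : Type*} [Field 𝔽] [Algebra Ω 𝔽]
  {𝔽b : Type*} [Field 𝔽b] [Algebra (ResidueField ↥A) 𝔽b] {X : GoodRed Ω A 𝔽 𝔽b}
  {Γ₀ : Type*} [LinearOrderedCommGroupWithZero Γ₀] {v : Valuation Ω Γ₀}

/-- **a derivation with canonical divisor `κ`**: `D = d/ω` with `div ω = κ`, i.e.
`ord_Q (D τ) = - κ Q` for every uniformizer `τ` at `Q`. -/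
structure IsDerDatum (D : Derivation Ω 𝔽 𝔽) (κ : Place Ω 𝔽 → ℤ) : Prop where
  spec : ∀ (Q : Place Ω 𝔽) (τ : 𝔽), Q.ord τ = 1 → D τ ≠ 0 ∧ Q.ord (D τ) = -κ Q

namespace IsDerDatum

variable {D : Derivation Ω 𝔽 𝔽} {κ : Place Ω 𝔽 → ℤ}

theorem goodp_exists_unif (Q : Place Ω 𝔽) : ∃ τ : 𝔽, Q.ord τ = 1 := by
  obtain ⟨π, hπ⟩ := IsDiscreteValuationRing.exists_irreducible Q.toValuationSubring
  exact ⟨(π : 𝔽), Q.ord_coe_irreducible hπ⟩

/-- `D` maps functions regular at `Q` to functions of order `≥ - κ Q`. -/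
theorem ordGE (hD : IsDerDatum D κ) {Q : Place Ω 𝔽} (hdeg : Q.deg = 1) {w : 𝔽}
    (hw : w ∈ Q.toValuationSubring) : OrdGE Q (-κ Q) (D w) := by
  obtain ⟨a, ha⟩ := HasValueAt.exists_of_mem hdeg hw
  have hDw : D w = D (w - algebraMap Ω 𝔽 a) := by
    rw [map_sub, Derivation.map_algebraMap, sub_zero]
  rw [hDw]
  rcases HasValueAt.iff_ord.mp ha with h0 | hpos
  · left
    rw [h0, map_zero]
  set w₁ := w - algebraMap Ω 𝔽 a with hw₁
  have hw₁0 : w₁ ≠ 0 := by
    intro h0
    rw [h0, Place.ord_zero] at hpos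
    exact lt_irrefl _ hpos
  by_cases h1 : Q.ord w₁ = 1
  · right
    rw [(hD.spec Q w₁ h1).2]
  · obtain ⟨τ, hτ⟩ := goodp_exists_unif Q
    have hτ0 : τ ≠ 0 := by
      intro h0
      rw [h0, Place.ord_zero] at hτ
      exact zero_ne_one hτ
    have hlt : Q.ord τ < Q.ord w₁ := by rw [hτ]; omega
    have hsum : Q.ord (τ + w₁) = 1 := by
      rw [PlaceAux.ord_add_eq_of_lt Q hτ0 hw₁0 hlt, hτ]
    have e : D w₁ = D (τ + w₁) + -(D τ) := by
      rw [map_add]; ring
    rw [e]
    refine OrdGE.add (Or.inr ?_) (OrdGE.neg (Or.inr ?_))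
    · rw [(hD.spec Q _ hsum).2]
    · rw [(hD.spec Q τ hτ).2]

end IsDerDatum

namespace IsDiscCoord

variable {D : Derivation Ω 𝔽 𝔽} {κ : Place Ω 𝔽 → ℤ} {Q : Place (ResidueField ↥A) 𝔽b} {t : 𝔽}

/-- `D t ≠ 0` and `ord_P (D t) = - κ P` on the disc. -/
theorem der_spec (hD : IsDerDatum D κ) (h : IsDiscCoord X Q t) {P : Place Ω 𝔽}
    (hP : X.r P = Q) : D t ≠ 0 ∧ P.ord (D t) = -κ P := by
  have ha := h.hasValueAt_valueAt hP
  have h1 := hD.spec P _ (h.ord_sub_self hP ha)
  rwa [map_sub, Derivation.map_algebraMap, sub_zero] at h1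

theorem der_ne_zero (hD : IsDerDatum D κ) (h : IsDiscCoord X Q t) :
    D t ≠ 0 := by
  obtain ⟨P, hP, -⟩ := h.exists_point (goodp_zero_mem_nonunits (A := A))
  exact (h.der_spec hD hP).1

/-- **`ds/dt` is regular on the disc, with integral values** (`s ∈ W` regular on the disc). -/
theorem der_div_hasValueAt (hD : IsDerDatum D κ) (h : IsDiscCoord X Q t) {P : Place Ω 𝔽}
    (hP : X.r P = Q) {s : 𝔽} (hs : s ∈ X.W) (hsreg : X.RegularOn Q s) :
    ∃ c : Ω, c ∈ A ∧ HasValueAt P (D s / D t) c := by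
  have ha := h.hasValueAt_valueAt hP
  set a := valueAt P t with hadef
  obtain ⟨b, hb, -⟩ := X.exists_value P ⟨s, hs⟩ (hP ▸ hsreg)
  have hb' : HasValueAt P s (b : Ω) := hb
  set u := t - algebraMap Ω 𝔽 a with hu
  set w := (s - algebraMap Ω 𝔽 (b : Ω)) / u with hw
  have hwW : w ∈ X.W := h.div_mem_W hP ha hs b.2
  have hwreg : X.RegularOn Q w := h.div_regularOn hP ha hsreg hb'
  obtain ⟨c, hc, -⟩ := X.exists_value P ⟨w, hwW⟩ (hP ▸ hwreg)
  have hc' : HasValueAt P w (c : Ω) := hc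
  have hordu : P.ord u = 1 := h.ord_sub_self hP ha
  have hu0 : u ≠ 0 := by
    intro h0
    rw [h0, Place.ord_zero] at hordu
    exact zero_ne_one hordu
  have hDu : D u = D t := by rw [hu, map_sub, Derivation.map_algebraMap, sub_zero]
  obtain ⟨hDt0, hordDt⟩ := h.der_spec hD hP
  have hseq : s = algebraMap Ω 𝔽 (b : Ω) + u * w := by
    rw [hw, mul_div_cancel₀ _ hu0]; ring
  have hDs : D s = u * D w + w * D t := by
    conv_lhs => rw [hseq]
    rw [map_add, Derivation.map_algebraMap, zero_add, Derivation.leibniz, smul_eq_mul, smul_eq_mul,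
      hDu]
  have hquot : D s / D t = w + u * (D w / D t) := by
    rw [hDs]; field_simp; ring
  refine ⟨c, c.2, ?_⟩
  rw [hquot, ← add_zero (c : Ω)]
  refine hc'.add ?_
  rcases hD.ordGE (X.deg_gen P) (hwreg P hP) with h0 | hge
  · rw [h0, zero_div, mul_zero]
    exact HasValueAt.zero' P
  · by_cases hDw0 : D w = 0
    · rw [hDw0, zero_div, mul_zero]
      exact HasValueAt.zero' P
    · apply HasValueAt.zero_iff.mpr
      right
      rw [P.ord_mul hu0 (div_ne_zero hDw0 hDt0), PlaceAux.ord_div P hDw0 hDt0, hordu, hordDt]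
      omega

/-- **the derivative lemma**: `ds/dt ∈ W` for `s ∈ W` regular on the disc. -/
theorem der_div_mem_W [IsAlgClosed Ω] (hv : v.valuationSubring = A) (hD : IsDerDatum D κ)
    (h : IsDiscCoord X Q t) {s : 𝔽} (hs : s ∈ X.W) (hsreg : X.RegularOn Q s) :
    D s / D t ∈ X.W := by
  apply goodp_mem_W_of_values_mem hv (Q := Q)
  · intro P hP
    obtain ⟨c, -, hc⟩ := h.der_div_hasValueAt hD hP hs hsreg
    exact hc.mem
  · intro P hP b hb
    obtain ⟨c, hcA, hc⟩ := h.der_div_hasValueAt hD hP hs hsreg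
    rw [hb.unique hc]
    exact hcA

/-- the derivative lemma, Gauss-norm form (regular case). -/
theorem gaussNorm_der_le_of_regularOn [IsAlgClosed Ω] (hv : v.valuationSubring = A)
    (hD : IsDerDatum D κ) (h : IsDiscCoord X Q t) {s : 𝔽} (hs : s ∈ X.W)
    (hsreg : X.RegularOn Q s) : gaussNorm X v (D s) ≤ gaussNorm X v (D t) := by
  have h1 := h.der_div_mem_W hv hD hs hsreg
  rw [← gaussNorm_le_one_iff hv] at h1
  have e : D s = D s / D t * D t := by
    rw [div_mul_cancel₀ _ (h.der_ne_zero hD)]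
  rw [e, gaussNorm_mul hv]
  calc gaussNorm X v (D s / D t) * gaussNorm X v (D t) ≤ 1 * gaussNorm X v (D t) :=
        mul_le_mul_left h1 _
    _ = gaussNorm X v (D t) := one_mul _

/-- **clearing the poles on a disc**: every `f ≠ 0` becomes regular on the disc after
multiplication with a Gauss unit which is regular on the disc. -/
theorem exists_clear_poles (h : IsDiscCoord X Q t) {f : 𝔽} (hf : f ≠ 0) :
    ∃ b : 𝔽, b ≠ 0 ∧ b ∈ X.W ∧ b⁻¹ ∈ X.W ∧ X.RegularOn Q b ∧ X.RegularOn Q (f * b) := by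
  obtain ⟨D', hD', -⟩ := X.principal_gen.exists_divisor f hf
  set S : Finset (Place Ω 𝔽) := D'.support.filter (fun P => X.r P = Q ∧ D' P < 0) with hS
  set u : Place Ω 𝔽 → 𝔽 := fun P => t - algebraMap Ω 𝔽 (valueAt P t) with hu
  set n : Place Ω 𝔽 → ℕ := fun P => (-D' P).toNat with hn
  have huC : ∀ P ∈ S, IsDiscCoord X Q (u P) := fun P hP =>
    h.sub_const (h.valueAt_mem_nonunits (Finset.mem_filter.mp hP).2.1)
  have hu0 : ∀ P ∈ S, u P ≠ 0 := fun P hP => (huC P hP).ne_zero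
  set b : 𝔽 := ∏ P ∈ S, u P ^ n P with hb
  have hb0 : b ≠ 0 := by
    rw [hb, Finset.prod_ne_zero_iff]
    exact fun P hP => pow_ne_zero _ (hu0 P hP)
  have hbW : b ∈ X.W := by
    rw [hb]
    exact Subring.prod_mem X.W.toSubring fun P hP => Subring.pow_mem _ (huC P hP).mem _
  have hbW' : b⁻¹ ∈ X.W := by
    rw [hb, ← Finset.prod_inv_distrib]
    refine Subring.prod_mem X.W.toSubring fun P hP => ?_
    rw [← inv_pow]
    exact Subring.pow_mem _ (huC P hP).inv_mem _
  have hordb : ∀ P' : Place Ω 𝔽, X.r P' = Q →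
      P'.ord b = if P' ∈ S then (n P' : ℤ) else 0 := by
    intro P' hP'
    have e1 : b = ∏ P ∈ S, u P ^ (n P : ℤ) := by
      rw [hb]
      exact Finset.prod_congr rfl fun P _ => (zpow_natCast _ _).symm
    rw [e1, Fermat.Agent.JA.ord_prod_zpow P' S u (fun P => (n P : ℤ)) hu0]
    have e2 : ∀ P ∈ S, (n P : ℤ) * P'.ord (u P) = if P' = P then (n P : ℤ) else 0 := by
      intro P hP
      rw [h.ord_sub (Finset.mem_filter.mp hP).2.1 hP'
        (h.hasValueAt_valueAt (Finset.mem_filter.mp hP).2.1)]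
      split_ifs <;> simp
    rw [Finset.sum_congr rfl e2]
    split_ifs with hmem
    · rw [Finset.sum_eq_single_of_mem P' hmem]
      · rw [if_pos rfl]
      · intro P _ hne
        rw [if_neg (Ne.symm hne)]
    · apply Finset.sum_eq_zero
      intro P hP
      rw [if_neg]
      intro hPP
      exact hmem (hPP ▸ hP)
  refine ⟨b, hb0, hbW, hbW', ?_, ?_⟩
  · intro P' hP'
    rw [PlaceAux.mem_iff_ord_nonneg' P' hb0, hordb P' hP']
    split_ifs
    · exact Int.natCast_nonneg _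
    · exact le_refl _
  · intro P' hP'
    rw [PlaceAux.mem_iff_ord_nonneg' P' (mul_ne_zero hf hb0), P'.ord_mul hf hb0, hordb P' hP',
      ← hD' P']
    split_ifs with hmem
    · have hneg : D' P' < 0 := (Finset.mem_filter.mp hmem).2.2
      have : ((n P' : ℕ) : ℤ) = -D' P' := by
        rw [hn]
        exact Int.toNat_of_nonneg (by omega)
      rw [this]; omega
    · rw [add_zero]
      by_contra hlt
      rw [not_le] at hlt
      apply hmem
      rw [hS, Finset.mem_filter]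
      exact ⟨Finsupp.mem_support_iff.mpr (by omega), hP', hlt⟩

/-- **`‖D f‖ ≤ ‖D t‖` for every `f ∈ W`** (`t` a coordinate of any residue disc). -/
theorem gaussNorm_der_le [IsAlgClosed Ω] (hv : v.valuationSubring = A) (hD : IsDerDatum D κ)
    (h : IsDiscCoord X Q t) {f : 𝔽} (hf : f ∈ X.W) :
    gaussNorm X v (D f) ≤ gaussNorm X v (D t) := by
  rcases eq_or_ne f 0 with rfl | hf0
  · rw [map_zero, gaussNorm_zero]
    exact zero_le
  obtain ⟨b, hb0, hbW, hbW', hbreg, hfbreg⟩ := h.exists_clear_poles hf0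
  have h1 : gaussNorm X v (D (f * b)) ≤ gaussNorm X v (D t) :=
    h.gaussNorm_der_le_of_regularOn hv hD (X.W.mul_mem _ _ hf hbW) hfbreg
  have h2 : gaussNorm X v (D b) ≤ gaussNorm X v (D t) :=
    h.gaussNorm_der_le_of_regularOn hv hD hbW hbreg
  have hfn : gaussNorm X v f ≤ 1 := (gaussNorm_le_one_iff hv f).mpr hf
  have hbn : gaussNorm X v b⁻¹ = 1 :=
    Fermat.Agent.MW.gaussNorm_eq_one hv (inv_ne_zero hb0) hbW' (by rwa [inv_inv])
  have e : D f = (D (f * b) - f * D b) * b⁻¹ := by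
    rw [Derivation.leibniz, smul_eq_mul, smul_eq_mul]
    field_simp
    ring
  rw [e, gaussNorm_mul hv, hbn, mul_one]
  refine (gaussNorm_sub_le hv _ _).trans (max_le h1 ?_)
  rw [gaussNorm_mul hv]
  calc gaussNorm X v f * gaussNorm X v (D b) ≤ 1 * gaussNorm X v (D t) :=
        mul_le_mul' hfn h2
    _ = gaussNorm X v (D t) := one_mul _

end IsDiscCoord

/-- **the Gauss norm of `D t` does not depend on the disc coordinate `t`** (nor on the disc):
`‖D‖ := ‖D t‖` is the Gauss norm of the derivation `D`, and `-log ‖D‖` that of the differential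
`ω` with `D = d/ω`. -/
theorem gaussNorm_der_eq [IsAlgClosed Ω] (hv : v.valuationSubring = A)
    {D : Derivation Ω 𝔽 𝔽} {κ : Place Ω 𝔽 → ℤ} (hD : IsDerDatum D κ)
    {Q₁ Q₂ : Place (ResidueField ↥A) 𝔽b} {t₁ t₂ : 𝔽} (h₁ : IsDiscCoord X Q₁ t₁)
    (h₂ : IsDiscCoord X Q₂ t₂) : gaussNorm X v (D t₁) = gaussNorm X v (D t₂) :=
  le_antisymm (h₂.gaussNorm_der_le hv hD h₁.mem) (h₁.gaussNorm_der_le hv hD h₂.mem)

variable (X v)

/-- **the Gauss norm of a derivation** `D` (`= ‖D t‖` for any disc coordinate `t`); for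
`D = d/ω` this is `‖ω‖⁻¹`. -/
def derNorm (D : Derivation Ω 𝔽 𝔽) : Γ₀ := gaussNorm X v (D (discCoord X X.cuspb))

variable {X v}

theorem derNorm_eq [IsAlgClosed Ω] (hv : v.valuationSubring = A)
    {D : Derivation Ω 𝔽 𝔽} {κ : Place Ω 𝔽 → ℤ} (hD : IsDerDatum D κ)
    {Q : Place (ResidueField ↥A) 𝔽b} {t : 𝔽} (h : IsDiscCoord X Q t) :
    gaussNorm X v (D t) = derNorm X v D :=
  gaussNorm_der_eq hv hD h (isDiscCoord_discCoord X X.cuspb)

theorem derNorm_ne_zero {D : Derivation Ω 𝔽 𝔽} {κ : Place Ω 𝔽 → ℤ} (hD : IsDerDatum D κ) :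
    derNorm X v D ≠ 0 :=
  gaussNorm_ne_zero ((isDiscCoord_discCoord X X.cuspb).der_ne_zero hD)

/-- two products of local distances to `Q` agree if the exponents agree on the residue disc
of `Q`. -/
theorem goodp_prod_locDist_congr (E K : Divisor Ω 𝔽) (Q : Place Ω 𝔽)
    (hEK : ∀ P, P ≠ Q → X.r P = X.r Q → E P = K P) :
    ∏ P ∈ E.support.erase Q, locDist X v P Q ^ E P
      = ∏ P ∈ K.support.erase Q, locDist X v P Q ^ K P := by
  set U : Finset (Place Ω 𝔽) := (E.support ∪ K.support).erase Q with hU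
  have h1 : ∏ P ∈ E.support.erase Q, locDist X v P Q ^ E P
      = ∏ P ∈ U, locDist X v P Q ^ E P := by
    apply Finset.prod_subset
    · intro P hP
      rw [Finset.mem_erase] at hP
      exact Finset.mem_erase.mpr ⟨hP.1, Finset.mem_union_left _ hP.2⟩
    · intro P hP hPE
      have hPQ : P ≠ Q := (Finset.mem_erase.mp hP).1
      have : E P = 0 := by
        by_contra h0
        exact hPE (Finset.mem_erase.mpr ⟨hPQ, Finsupp.mem_support_iff.mpr h0⟩)
      rw [this, zpow_zero]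
  have h2 : ∏ P ∈ K.support.erase Q, locDist X v P Q ^ K P
      = ∏ P ∈ U, locDist X v P Q ^ K P := by
    apply Finset.prod_subset
    · intro P hP
      rw [Finset.mem_erase] at hP
      exact Finset.mem_erase.mpr ⟨hP.1, Finset.mem_union_right _ hP.2⟩
    · intro P hP hPK
      have hPQ : P ≠ Q := (Finset.mem_erase.mp hP).1
      have : K P = 0 := by
        by_contra h0
        exact hPK (Finset.mem_erase.mpr ⟨hPQ, Finsupp.mem_support_iff.mpr h0⟩)
      rw [this, zpow_zero]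
  rw [h1, h2]
  apply Finset.prod_congr rfl
  intro P hP
  have hPQ : P ≠ Q := (Finset.mem_erase.mp hP).1
  by_cases hr : X.r P = X.r Q
  · rw [hEK P hPQ hr]
  · rw [locDist_of_ne hr, one_zpow, one_zpow]

/-- **THE ADJUNCTION FORMULA at a place of good reduction** (host form of (A4)): for a derivation
`D = d/ω` with `div ω = K`, a point `Q` and a coordinate `t` of the residue disc of `Q`,
`|lead_Q (D t)| = ‖D‖ · ∏_{Z ≠ Q} locDist(Z, Q) ^ (- K Z)`. -/
theorem locLead_der_eq [IsAlgClosed Ω] (hv : v.valuationSubring = A)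
    {D : Derivation Ω 𝔽 𝔽} {κ : Place Ω 𝔽 → ℤ} (hD : IsDerDatum D κ) (K : Divisor Ω 𝔽)
    (hK : ∀ P, K P = κ P) (Q : Place Ω 𝔽) {t : 𝔽} (h : IsDiscCoord X (X.r Q) t) :
    locLead X v (D t) Q
      = derNorm X v D * ∏ Z ∈ K.support.erase Q, locDist X v Z Q ^ (-K Z) := by
  have hDt0 : D t ≠ 0 := h.der_ne_zero hD
  obtain ⟨E, hE⟩ := X.exists_div (D t) hDt0
  rw [locLead_eq_gaussNorm_mul_prod hv hDt0 E hE Q, derNorm_eq hv hD h]
  congr 1
  have h3 := goodp_prod_locDist_congr (X := X) (v := v) E (-K) Q (by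
    intro P _ hr
    rw [hE P, (h.der_spec hD hr).2, Finsupp.neg_apply, hK P])
  rw [h3, Finsupp.support_neg]
  exact Finset.prod_congr rfl fun P _ => by rw [Finsupp.neg_apply]

/-- the adjunction formula at a point where `ω` has neither a zero nor a pole:
`v ((D t)(Q)) = ‖D‖ · ∏_Z locDist(Z, Q) ^ (- K Z)`. -/
theorem valuation_der_value_eq [IsAlgClosed Ω] (hv : v.valuationSubring = A)
    {D : Derivation Ω 𝔽 𝔽} {κ : Place Ω 𝔽 → ℤ} (hD : IsDerDatum D κ) (K : Divisor Ω 𝔽)
    (hK : ∀ P, K P = κ P) {Q : Place Ω 𝔽} (hQ : κ Q = 0) {t : 𝔽}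
    (h : IsDiscCoord X (X.r Q) t) {b : Ω} (hb : HasValueAt Q (D t) b) :
    v b = derNorm X v D * ∏ Z ∈ K.support, locDist X v Z Q ^ (-K Z) := by
  have hDt0 : D t ≠ 0 := h.der_ne_zero hD
  have hord : Q.ord (D t) = 0 := by rw [(h.der_spec hD rfl).2, hQ, neg_zero]
  rw [← locLead_of_ord_eq_zero (X := X) hv hDt0 hord hb, locLead_der_eq hv hD K hK Q h]
  congr 1
  rw [Finset.erase_eq_of_notMem]
  rw [Finsupp.mem_support_iff, hK Q, hQ]
  exact fun h => h rfl

end Fermat.Agent.MW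

end
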