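/-
MW (S17) — helper3 — [GOOD-P], part 9: **derivations of function fields: canonical divisor,
extension to a finite cover, Hurwitz.**

* `derCan δ v = - ord_v (δ t_v)` : the canonical divisor of the differential `ω` with `δ = d/ω`;
  `isDerDatum_derCan` : EVERY nonzero derivation of a function field (char. `0`, algebraically
  closed constants) is a `IsDerDatum` for `derCan`;
* `exists_derivation_extension` : a derivation extends along a finite cover (char. `0`);
* `derCan_extension` : **Hurwitz** — `κ_E(W) = e(W) · κ_F(W|_F) + e(W) - 1`.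
-/
import Mathlib
import Fermat.Agent.FF.Differential
import Fermat.Agent.MW.GOODP_helper3_Der

set_option autoImplicit false
set_option linter.unusedSectionVars false
set_option linter.style.haveILetI false

noncomputable section

namespace Fermat.Agent.MW

open AlgebraicCurve Fermat.Agent.FF Fermat.Agent.JA KaehlerDifferential

section Can

variable {k F : Type*} [Field k] [Field F] [Algebra k F]

/-- a chosen uniformizer `t_v` with `v.dCoord = d t_v`. -/
def derUnif (v : Place k F) : F := (exists_uniformizer_dCoord v).choose

theorem ord_derUnif (v : Place k F) : v.ord (derUnif v) = 1 :=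
  (exists_uniformizer_dCoord v).choose_spec.1

theorem dCoord_eq_D_derUnif (v : Place k F) : v.dCoord = D k F (derUnif v) :=
  (exists_uniformizer_dCoord v).choose_spec.2

/-- **the canonical divisor of a derivation** `δ = d/ω`: `ord_v ω = - ord_v (δ t_v)`. -/
def derCan (δ : Derivation k F F) (v : Place k F) : ℤ := -v.ord (δ (derUnif v))

variable [CharZero k] (c : Coord k F)

include c in
/-- every derivation is determined by its value on a local uniformizer. -/
theorem der_eq_differentialCoeff_mul (δ : Derivation k F F) (v : Place k F) (y : F) :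
    δ y = v.differentialCoeff (D k F y) * δ (derUnif v) := by
  haveI := c.dCoordGenerates v
  have h1 : δ y = δ.liftKaehlerDifferential (D k F y) := (δ.liftKaehlerDifferential_comp_D y).symm
  have h2 : D k F y = v.differentialCoeff (D k F y) • D k F (derUnif v) := by
    rw [← dCoord_eq_D_derUnif, v.differentialCoeff_smul_dCoord]
  rw [h1]
  conv_lhs => rw [h2]
  rw [map_smul, Derivation.liftKaehlerDifferential_comp_D, smul_eq_mul]

include c in
/-- **every nonzero derivation of a function field has a canonical divisor.** -/
theorem isDerDatum_derCan [IsAlgClosed k] {δ : Derivation k F F} (hδ : δ ≠ 0) :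
    IsDerDatum δ (derCan δ) := by
  have hne : ∀ v : Place k F, δ (derUnif v) ≠ 0 := by
    intro v h0
    apply hδ
    ext y
    rw [der_eq_differentialCoeff_mul c δ v y, h0, mul_zero]
    rfl
  refine ⟨fun v τ hτ => ?_⟩
  have hτ' : v.ord τ ≠ 0 := by rw [hτ]; exact one_ne_zero
  obtain ⟨h1, h2⟩ := c.ordDifferential_D v hτ'
  rw [Place.ordDifferential, hτ, sub_self] at h2
  rw [der_eq_differentialCoeff_mul c δ v τ]
  refine ⟨mul_ne_zero h1 (hne v), ?_⟩
  rw [v.ord_mul h1 (hne v), h2, zero_add, derCan, neg_neg]

include c in
/-- the order of `δ y` at a zero or pole of `y`. -/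
theorem ord_der_of_ord_ne_zero [IsAlgClosed k] {δ : Derivation k F F} (hδ : δ ≠ 0)
    (v : Place k F) {y : F} (hy : v.ord y ≠ 0) :
    δ y ≠ 0 ∧ v.ord (δ y) = v.ord y - 1 - derCan δ v := by
  have hne : δ (derUnif v) ≠ 0 :=
    ((isDerDatum_derCan c hδ).spec v _ (ord_derUnif v)).1
  obtain ⟨h1, h2⟩ := c.ordDifferential_D v hy
  rw [Place.ordDifferential] at h2
  rw [der_eq_differentialCoeff_mul c δ v y]
  refine ⟨mul_ne_zero h1 hne, ?_⟩
  rw [v.ord_mul h1 hne, h2, derCan]
  ring

end Can

section Extension

variable {k F E : Type*} [Field k] [Field F] [Field E] [Algebra k F] [Algebra k E] [CharZero k]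

/-- **a derivation extends along a finite cover** (characteristic zero). -/
theorem exists_derivation_extension (φ : F →ₐ[k] E) (hfin : FiniteAlong k φ)
    (D₀ : Derivation k F F) : ∃ DE : Derivation k E E, ∀ f : F, DE (φ f) = φ (D₀ f) := by
  letI := algebraAlong φ
  haveI := isScalarTower_along φ
  haveI : FiniteDimensional F E := hfin
  haveI : CharZero F := charZero_of_injective_algebraMap (algebraMap k F).injective
  letI : Differential F := ⟨D₀.restrictScalars ℤ⟩
  letI dE : Differential E := Differential.differentialFiniteDimensional F E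
  haveI hda : DifferentialAlgebra F E := Differential.differentialAlgebraFiniteDimensional
  set d : Derivation ℤ E E := dE.deriv with hd
  have hext : ∀ f : F, d (φ f) = φ (D₀ f) := fun f => hda.deriv_algebraMap f
  have hconst : ∀ a : k, d (algebraMap k E a) = 0 := by
    intro a
    rw [← φ.commutes a, hext, Derivation.map_algebraMap, map_zero]
  let L : E →ₗ[k] E :=
    { toFun := fun x => d x
      map_add' := fun x y => map_add d x y
      map_smul' := fun a x => by
        simp only [RingHom.id_apply]
        rw [Algebra.smul_def, Derivation.leibniz, hconst, smul_zero, add_zero, smul_eq_mul,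
          Algebra.smul_def] }
  refine ⟨Derivation.mk' L (fun a b => Derivation.leibniz d a b), fun f => hext f⟩

variable [IsAlgClosed k] (cF : Coord k F) (cE : Coord k E)

include cF cE in
/-- **Hurwitz**: the canonical divisor of the extension of `δ₀ = d/ω` to a finite cover is
`φ^* div ω + Ram`, i.e. `κ_E(W) = e(W) · κ_F(W|_F) + (e(W) - 1)`. -/
theorem derCan_extension (φ : F →ₐ[k] E) (hφ : φ.toRingHom.IsIntegral)
    {D₀ : Derivation k F F} (hD₀ : D₀ ≠ 0) {DE : Derivation k E E}
    (hDE : ∀ f : F, DE (φ f) = φ (D₀ f)) (W : Place k E) :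
    derCan DE W = (Place.ramificationIndexAlong φ W : ℤ) * derCan D₀ (W.restrictAlong φ hφ)
      + ((Place.ramificationIndexAlong φ W : ℤ) - 1) := by
  set P := W.restrictAlong φ hφ with hP
  set e : ℤ := (Place.ramificationIndexAlong φ W : ℤ) with he
  have hepos : 0 < Place.ramificationIndexAlong φ W := by
    letI := algebraAlong φ
    haveI := isScalarTower_along φ
    haveI := isIntegral_along φ hφ
    exact Place.ramificationIndex_pos (F := F) W
  have hepos' : 0 < e := by rw [he]; exact_mod_cast hepos
  have hDE0 : DE ≠ 0 := by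
    intro h0
    apply hD₀
    ext f
    have := hDE f
    rw [h0] at this
    exact (map_eq_zero_iff φ φ.toRingHom.injective).mp this.symm
  set τ := derUnif P with hτ
  have hordτ : P.ord τ = 1 := ord_derUnif P
  obtain ⟨h1, h2⟩ := (isDerDatum_derCan cF hD₀).spec P τ hordτ
  have hordφτ : W.ord (φ τ) = e := by
    rw [Place.ord_restrictAlong φ hφ, ← hP, hordτ, mul_one]
  have hne : W.ord (φ τ) ≠ 0 := by rw [hordφτ]; exact hepos'.ne'
  obtain ⟨h3, h4⟩ := ord_der_of_ord_ne_zero cE hDE0 W hne
  rw [hDE τ, Place.ord_restrictAlong φ hφ, ← hP, h2, hordφτ] at h4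
  linarith

end Extension

end Fermat.Agent.MW

end
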