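/-
MW / [ARCH] (helper9): the finite `GQ`-stable set `ArchBad` of points of `X₀(N)` which the
archimedean package wants inside the exceptional set `Zp`: the cusp `0` and all points over
`j = 0` and `j = 1728` (these contain the elliptic points).
-/
import Mathlib
import Fermat.Agent.MW.NADIC_helper6_Lc
import Fermat.Agent.S35.DESC_helper2_Inv

set_option autoImplicit false
set_option linter.unusedSectionVars false

open AlgebraicCurve ModularCurve

namespace Fermat.Agent.MW

variable (N : ℕ) [NeZero N]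

/-- the archimedean bad points: poles of `j` other than `∞`, zeros of `j`, zeros of `j - 1728`. -/
def ArchBad (P : PtN N) : Prop :=
  P ≠ infN N ∧ (P.ord (Fermat.Agent.X0N.jBar N) < 0 ∨ 0 < P.ord (Fermat.Agent.X0N.jBar N) ∨
    0 < P.ord (Fermat.Agent.X0N.jBar N - 1728))

theorem jBar_sub_ne_zero : (Fermat.Agent.X0N.jBar N - 1728 : FunN N) ≠ 0 := by
  intro h
  have h1 := infN_ord N (jBar_ne_zero N)
  rw [order_jBar] at h1
  have h2 : Fermat.Agent.X0N.jBar N =
      algebraMap (AlgebraicClosure ℚ) (FunN N) (1728 : AlgebraicClosure ℚ) := by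
    rw [map_ofNat]
    exact sub_eq_zero.mp h
  rw [h2, Fermat.Agent.FF.PlaceAux.ord_algebraMap] at h1
  norm_num at h1

theorem archBad_finite : {P : PtN N | ArchBad N P}.Finite := by
  obtain ⟨D₁, hD₁⟩ := exists_isDivOf (jBar_ne_zero N)
  obtain ⟨D₂, hD₂⟩ := exists_isDivOf (jBar_sub_ne_zero N)
  refine ((D₁.support ∪ D₂.support : Finset (PtN N)).finite_toSet).subset ?_
  rintro P ⟨-, h | h | h⟩
  · have : D₁ P ≠ 0 := by rw [hD₁ P]; omega
    simp [Finsupp.mem_support_iff, this]
  · have : D₁ P ≠ 0 := by rw [hD₁ P]; omega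
    simp [Finsupp.mem_support_iff, this]
  · have : D₂ P ≠ 0 := by rw [hD₂ P]; omega
    simp [Finsupp.mem_support_iff, this]

open scoped Fermat.Agent.MW in
theorem archGal_smul_infN (σ : GQ) : σ • infN N = infN N :=
  Fermat.Agent.S35.desc_smul_cusp (N := N) (fun _ hx => infN_ord N hx) σ

open scoped Fermat.Agent.MW in
theorem archGal_smul_jBar (σ : GQ) : σ • Fermat.Agent.X0N.jBar N = Fermat.Agent.X0N.jBar N := by
  show arithmeticGalois (modularFunctionFieldFull N) σ • Fermat.Agent.X0N.jBar N = _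
  apply Subtype.ext
  rw [coe_arithmeticGalois_smul, Fermat.Agent.X0N.coe_jBar, coeffMap_coeffEmb]

open scoped Fermat.Agent.MW in
theorem archGal_smul_jBar_sub (σ : GQ) :
    σ • (Fermat.Agent.X0N.jBar N - 1728 : FunN N) = Fermat.Agent.X0N.jBar N - 1728 := by
  rw [smul_sub, archGal_smul_jBar]
  congr 1
  exact map_ofNat (MulSemiringAction.toRingHom GQ (FunN N) σ) 1728

open scoped Fermat.Agent.MW in
theorem archBad_smul (σ : GQ) {P : PtN N} (h : ArchBad N P) : ArchBad N (σ • P) := by
  obtain ⟨h1, h2⟩ := h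
  refine ⟨?_, ?_⟩
  · intro e
    apply h1
    have := congrArg (fun x => σ⁻¹ • x) e
    simpa [archGal_smul_infN] using this
  · have e1 : (σ • P).ord (Fermat.Agent.X0N.jBar N) = P.ord (Fermat.Agent.X0N.jBar N) := by
      conv_lhs => rw [← archGal_smul_jBar N σ]
      exact ord_gal_smul N σ P _
    have e2 : (σ • P).ord (Fermat.Agent.X0N.jBar N - 1728) =
        P.ord (Fermat.Agent.X0N.jBar N - 1728) := by
      conv_lhs => rw [← archGal_smul_jBar_sub N σ]
      exact ord_gal_smul N σ P _
    rw [e1, e2]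
    exact h2

open scoped Fermat.Agent.MW in
theorem archBad_smul_iff (σ : GQ) (P : PtN N) : ArchBad N (σ • P) ↔ ArchBad N P := by
  refine ⟨fun h => ?_, archBad_smul N σ⟩
  have := archBad_smul N σ⁻¹ h
  rwa [inv_smul_smul] at this

end Fermat.Agent.MW
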