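/-
MW (S17) — helper3 — [GOOD-P], part 15: **the deck group of a Galois cover of function fields.**

`φ : F →ₐ[K] E` a finite Galois embedding of function fields over an algebraically closed field of
characteristic zero.  `deckGroup φ` is the group of automorphisms of `E` fixing `φ F`, as a
subgroup of `SemilinearAut K E`; it is the Galois group of the cover in the sense of
`IsGaloisCoverGroup` (fibres preserved, transitive on the fibres, stabilisers of the order of the
ramification index).
-/
import Mathlib
import Fermat.Agent.MW.GOODP_helper3_Omega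
import Fermat.Agent.FF.Gal_helper7_Stab
import Fermat.Agent.FG.EGAL_helper6_Gal

set_option autoImplicit false
set_option linter.unusedSectionVars false
set_option linter.style.haveILetI false

noncomputable section

namespace Fermat.Agent.MW

open AlgebraicCurve IsLocalRing Fermat.Agent.FF Fermat.Agent.JA Fermat.Agent.FG Fermat.Agent.GR
  Fermat.Agent.FF.Gal
open scoped Classical Pointwise

variable {K F E : Type*} [Field K] [Field F] [Field E] [Algebra K F] [Algebra K E]

/-- **the deck group** of the cover `φ`. -/
def deckGroup (φ : F →ₐ[K] E) : Subgroup (SemilinearAut K E) :=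
  (fixingAlong φ).map SemilinearAut.ofAlgAut

theorem mem_deckGroup {φ : F →ₐ[K] E} {g : SemilinearAut K E} :
    g ∈ deckGroup φ ↔ ∃ h ∈ fixingAlong φ, SemilinearAut.ofAlgAut h = g := Subgroup.mem_map

/-- the two actions on places agree. -/
theorem goodp_ofAlgAut_smul_place (σ : E ≃ₐ[K] E) (v : Place K E) :
    SemilinearAut.ofAlgAut σ • v = σ • v := by
  apply Place.ext
  ext x
  rw [SemilinearAut.smul_toValuationSubring, AlgebraicCurve.Place.smul_toValuationSubring,
    ValuationSubring.mem_pointwise_smul_iff_inv_smul_mem,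
    ValuationSubring.mem_pointwise_smul_iff_inv_smul_mem]
  rfl

theorem deckGroup_base {φ : F →ₐ[K] E} {g : SemilinearAut K E} (hg : g ∈ deckGroup φ) (a : K) :
    SemilinearAut.baseAut g a = a := by
  obtain ⟨h, -, rfl⟩ := mem_deckGroup.mp hg
  rfl

/-- deck transformations preserve the fibres. -/
theorem deckGroup_restrict (φ : F →ₐ[K] E) (hφ : φ.toRingHom.IsIntegral) {g : SemilinearAut K E}
    (hg : g ∈ deckGroup φ) (W : Place K E) :
    (g • W).restrictAlong φ hφ = W.restrictAlong φ hφ := by
  obtain ⟨h, hh, rfl⟩ := mem_deckGroup.mp hg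
  have ht : Transports (1 : SemilinearAut K F) (SemilinearAut.ofAlgAut h) φ φ := by
    intro x
    rw [one_smul]
    exact hh x
  have := ht.restrictAlong_smul hφ hφ W
  rwa [one_smul] at this

section Galois

variable [CharZero K] (φ : F →ₐ[K] E) (hφ : φ.toRingHom.IsIntegral)

/-- automorphisms over `F` commute with the scalars of `K`. -/
theorem goodp_smulCommClass_along :
    letI := algebraAlong φ
    SMulCommClass (E ≃ₐ[F] E) K E := by
  letI := algebraAlong φ
  haveI := isScalarTower_along φ
  refine ⟨fun g c y => ?_⟩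
  rw [Algebra.smul_def, Algebra.smul_def, smul_mul', IsScalarTower.algebraMap_apply K F E]
  congr 1
  exact g.commutes _

/-- a place lies over its restriction. -/
theorem goodp_liesOver_restrictAlong (W : Place K E) :
    letI := algebraAlong φ
    haveI := isScalarTower_along φ
    LiesOver W (W.restrictAlong φ hφ) := by
  letI := algebraAlong φ
  haveI := isScalarTower_along φ
  rfl

/-- the comparison of the Galois group with the deck group. -/
def deckEquiv :
    letI := algebraAlong φ
    (E ≃ₐ[F] E) ≃ ↥(deckGroup φ) := by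
  letI := algebraAlong φ
  haveI := isScalarTower_along φ
  refine Equiv.ofBijective (fun σ => ⟨SemilinearAut.ofAlgAut (σ.restrictScalars K),
    mem_deckGroup.mpr ⟨σ.restrictScalars K, restrictScalars_mem_fixingAlong φ σ, rfl⟩⟩) ⟨?_, ?_⟩
  · intro σ σ' h
    have h1 : SemilinearAut.ofAlgAut (σ.restrictScalars K) =
        SemilinearAut.ofAlgAut (σ'.restrictScalars K) := congrArg Subtype.val h
    ext x
    have h2 := congrArg (fun g : SemilinearAut K E => g • x) h1
    exact h2
  · rintro ⟨g, hg⟩
    obtain ⟨h, hh, rfl⟩ := mem_deckGroup.mp hg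
    refine ⟨fixingAlongToAlgEquiv φ ⟨h, hh⟩, ?_⟩
    apply Subtype.ext
    show SemilinearAut.ofAlgAut ((fixingAlongToAlgEquiv φ ⟨h, hh⟩).restrictScalars K) =
      SemilinearAut.ofAlgAut h
    congr 1

theorem coe_deckEquiv
    (σ : letI := algebraAlong φ; E ≃ₐ[F] E) :
    letI := algebraAlong φ
    haveI := isScalarTower_along φ
    ((deckEquiv φ σ : ↥(deckGroup φ)) : SemilinearAut K E) =
      SemilinearAut.ofAlgAut (σ.restrictScalars K) := rfl

include hφ in
/-- **the deck group of a finite cover is finite.** -/
theorem deckGroup_finite (hfin : FiniteAlong K φ) : Finite ↥(deckGroup φ) := by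
  letI := algebraAlong φ
  haveI : Module.Finite F E := hfin
  exact Finite.of_equiv _ (deckEquiv φ)

/-- the action of the Galois group on places, compared with the deck group. -/
theorem deckEquiv_smul_place
    (σ : letI := algebraAlong φ; E ≃ₐ[F] E) (W : Place K E) :
    letI := algebraAlong φ
    haveI := isScalarTower_along φ
    letI : SMulCommClass (E ≃ₐ[F] E) K E := goodp_smulCommClass_along φ
    ((deckEquiv φ σ : ↥(deckGroup φ)) : SemilinearAut K E) • W = σ • W := by
  letI := algebraAlong φ
  haveI := isScalarTower_along φ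
  letI : SMulCommClass (E ≃ₐ[F] E) K E := goodp_smulCommClass_along φ
  rw [coe_deckEquiv, goodp_ofAlgAut_smul_place, smul_place_def]
  congr 1

/-- **the deck group acts transitively on the fibres** of a Galois cover. -/
theorem deckGroup_trans (hfin : FiniteAlong K φ)
    (hgal : letI := algebraAlong φ; IsGalois F E) {W W' : Place K E}
    (h : W.restrictAlong φ hφ = W'.restrictAlong φ hφ) :
    ∃ g : ↥(deckGroup φ), (g : SemilinearAut K E) • W = W' := by
  letI := algebraAlong φ
  haveI := isScalarTower_along φ
  haveI : Module.Finite F E := hfin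
  haveI : IsGalois F E := hgal
  letI : SMulCommClass (E ≃ₐ[F] E) K E := goodp_smulCommClass_along φ
  have hW : LiesOver W (W.restrictAlong φ hφ) := goodp_liesOver_restrictAlong φ hφ W
  have hW' : LiesOver W' (W.restrictAlong φ hφ) := by
    rw [h]
    exact goodp_liesOver_restrictAlong φ hφ W'
  obtain ⟨σ, hσ⟩ := exists_smul_eq (G := E ≃ₐ[F] E) hW hW'
  exact ⟨deckEquiv φ σ, by rw [deckEquiv_smul_place, hσ]⟩

include hφ in
/-- **the stabilisers of the deck group have the order of the ramification index.** -/
theorem deckGroup_card_stab [Fintype ↥(deckGroup φ)] (hfin : FiniteAlong K φ)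
    (hgal : letI := algebraAlong φ; IsGalois F E) (hdeg : ∀ W : Place K E, W.deg = 1)
    (W : Place K E) :
    stabCard (deckGroup φ) W = Place.ramificationIndexAlong φ W := by
  letI := algebraAlong φ
  haveI := isScalarTower_along φ
  haveI : Module.Finite F E := hfin
  haveI : IsGalois F E := hgal
  letI : SMulCommClass (E ≃ₐ[F] E) K E := goodp_smulCommClass_along φ
  have hW : LiesOver W (W.restrictAlong φ hφ) := goodp_liesOver_restrictAlong φ hφ W
  obtain ⟨π, hπ0, hπ⟩ := exists_ord_eq_one (W.restrictAlong φ hφ)
  have hres : ∀ x : E, x ∈ W.toValuationSubring →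
      ∃ c : K, x = algebraMap K E c ∨ 0 < W.ord (x - algebraMap K E c) := by
    intro x hx
    obtain ⟨c, hc⟩ := HasValueAt.exists_of_mem (hdeg W) hx
    refine ⟨c, ?_⟩
    rcases HasValueAt.iff_ord.mp hc with h | h
    · exact Or.inl (sub_eq_zero.mp h)
    · exact Or.inr h
  have h1 := card_stabilizer (G := E ≃ₐ[F] E) hW hres hπ
  have h2 := Place.ord_restrictAlong φ hφ W π
  rw [hπ, mul_one] at h2
  have h3 : stabCard (deckGroup φ) W = Nat.card (MulAction.stabilizer (E ≃ₐ[F] E) W) := by
    rw [stabCard, ← Fintype.card_subtype, ← Nat.card_eq_fintype_card]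
    refine (Nat.card_congr (Equiv.subtypeEquiv (deckEquiv φ) (fun σ => ?_))).symm
    rw [MulAction.mem_stabilizer_iff, deckEquiv_smul_place]
  have h4 : (stabCard (deckGroup φ) W : ℤ) = (Place.ramificationIndexAlong φ W : ℤ) := by
    rw [h3, h1]
    exact h2
  exact_mod_cast h4

/-- **the deck group of a finite Galois cover is its Galois group** in the sense of
`IsGaloisCoverGroup`. -/
theorem isGaloisCoverGroup_deckGroup [HasPrincipalDivisors K E] [Fintype ↥(deckGroup φ)]
    (hfin : FiniteAlong K φ) (hgal : letI := algebraAlong φ; IsGalois F E)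
    (hdeg : ∀ W : Place K E, W.deg = 1) :
    IsGaloisCoverGroup φ hφ (deckGroup φ) where
  restrict g W := deckGroup_restrict φ hφ g.2 W
  trans W W' h := deckGroup_trans φ hφ hfin hgal h
  card_stab W := deckGroup_card_stab φ hφ hfin hgal hdeg W

end Galois

/-- **the fundamental identity with all points rational**: the ramification indices in a fibre add
up to the degree of the cover. -/
theorem goodp_sum_ramificationIndexAlong [HasPrincipalDivisors K E] (φ : F →ₐ[K] E)
    (hφ : φ.toRingHom.IsIntegral) (hFI : FundamentalIdentityAlong K φ hφ)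
    (hdegE : ∀ W : Place K E, W.deg = 1) (hdegF : ∀ v : Place K F, v.deg = 1) (v : Place K F) :
    ∑ W ∈ Place.fiberAlong φ hφ v, (Place.ramificationIndexAlong φ W : ℝ) = finrankAlong K φ := by
  letI := algebraAlong φ
  haveI := isScalarTower_along φ
  haveI := isIntegral_along φ hφ
  haveI : FundamentalIdentity K F E := hFI
  have h := FundamentalIdentity.sum_ramificationIndex_mul_deg (K := K) (F := F) (F' := E) v
  rw [hdegF v] at h
  have h' : ∑ W ∈ Place.fiberAlong φ hφ v, (Place.ramificationIndexAlong φ W : ℤ) =
      (finrankAlong K φ : ℤ) := by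
    have e : ∑ w ∈ v.fiber E, (w.ramificationIndex F : ℤ) * (w.deg : ℤ) =
        ∑ W ∈ Place.fiberAlong φ hφ v, (Place.ramificationIndexAlong φ W : ℤ) := by
      refine Finset.sum_congr rfl fun w _ => ?_
      rw [hdegE w]
      simp [Place.ramificationIndexAlong]
    rw [← e, h]
    simp [finrankAlong]
  have h'' := congrArg (fun z : ℤ => (z : ℝ)) h'
  simpa using h''

/-- a point with trivial stabiliser is unramified. -/
theorem goodp_ramificationIndexAlong_eq_one [HasPrincipalDivisors K E] {φ : F →ₐ[K] E}
    {hφ : φ.toRingHom.IsIntegral} {G : Subgroup (SemilinearAut K E)} [Fintype G]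
    (hcov : IsGaloisCoverGroup φ hφ G) {Q' : Place K E}
    (h : ∀ g ∈ G, g • Q' = Q' → g = 1) : Place.ramificationIndexAlong φ Q' = 1 := by
  rw [← hcov.card_stab Q', stabCard, Finset.card_eq_one]
  refine ⟨1, ?_⟩
  ext g
  rw [Finset.mem_filter, Finset.mem_singleton]
  constructor
  · rintro ⟨-, hg⟩
    exact Subtype.ext (h g g.2 hg)
  · rintro rfl
    exact ⟨Finset.mem_univ _, one_smul _ _⟩

end Fermat.Agent.MW

end
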