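/-
MW (S17) — helper3 — [GOOD-P], part 8: **descent of the local theory along a finite cover.**

`φ : F →ₐ[Ω] E` a finite cover of function fields, `X` a good-reduction datum of the HOST `E`
(no such datum is available for `F = FunN N` itself), `v : Valuation Ω ℝ≥0` with valuation ring `A`.

* `hostGreen X v P' Q' = - log locDist(P', Q')` (`0` on the diagonal) : the Green function of the
  host at the place `A`; symmetric, `≥ 0`;
* `log_locLead_eq` : the exact local decomposition of the host in logarithmic form;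
* `fibSum`, `sum_pullbackAlong_mul` : sums over fibres against a pulled-back divisor;
* `descGreen`, `descLead` : the Green function and the leading-coefficient term on `F`
  (weighted fibre averages);
* `descGreen_weil` : **(A3) on `F`, EXACT, including the diagonal case.**
-/
import Mathlib
import Fermat.Agent.MW.GOODP_helper3_Der

set_option autoImplicit false
set_option linter.unusedSectionVars false
set_option linter.style.haveILetI false

noncomputable section

namespace Fermat.Agent.MW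

open AlgebraicCurve IsLocalRing Fermat.Agent.FF Fermat.Agent.JA Fermat.Agent.FG
open scoped Classical NNReal

variable {Ω : Type*} [Field Ω] {A : ValuationSubring Ω} {E : Type*} [Field E] [Algebra Ω E]
  {𝔽b : Type*} [Field 𝔽b] [Algebra (ResidueField ↥A) 𝔽b] (X : GoodRed Ω A E 𝔽b)
  (v : Valuation Ω ℝ≥0)

/-- **the Green function of the host** at the place `A`: `- log locDist(P', Q')`
(`0` on the diagonal, by the convention `log 0 = 0`). -/
def hostGreen (P' Q' : Place Ω E) : ℝ := -Real.log ((locDist X v P' Q' : ℝ≥0) : ℝ)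

variable {X v}

@[simp]
theorem hostGreen_self (P : Place Ω E) : hostGreen X v P P = 0 := by
  rw [hostGreen, locDist_self, NNReal.coe_zero, Real.log_zero, neg_zero]

theorem hostGreen_comm (hv : v.valuationSubring = A) (P Q : Place Ω E) :
    hostGreen X v P Q = hostGreen X v Q P := by
  rw [hostGreen, hostGreen, locDist_comm hv]

theorem hostGreen_nonneg (hv : v.valuationSubring = A) (P Q : Place Ω E) :
    0 ≤ hostGreen X v P Q := by
  rw [hostGreen, neg_nonneg]
  apply Real.log_nonpos (NNReal.coe_nonneg _)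
  exact_mod_cast locDist_le_one hv P Q

theorem hostGreen_of_ne {P Q : Place Ω E} (h : X.r P ≠ X.r Q) : hostGreen X v P Q = 0 := by
  rw [hostGreen, locDist_of_ne h, NNReal.coe_one, Real.log_one, neg_zero]

/-- **the exact local decomposition of the host, logarithmic form**:
`log |lead_Q g| = log ‖g‖ - ∑_P ord_P g · G(P, Q)`. -/
theorem log_locLead_eq (hv : v.valuationSubring = A) {g : E} (hg : g ≠ 0) (D : Divisor Ω E)
    (hD : ∀ P, D P = P.ord g) (Q : Place Ω E) :
    Real.log ((locLead X v g Q : ℝ≥0) : ℝ)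
      = Real.log ((gaussNorm X v g : ℝ≥0) : ℝ) - ∑ P ∈ D.support, (D P : ℝ) * hostGreen X v P Q := by
  rw [locLead_eq_gaussNorm_mul_prod hv hg D hD Q, NNReal.coe_mul, NNReal.coe_prod]
  have h1 : ((gaussNorm X v g : ℝ≥0) : ℝ) ≠ 0 := by
    exact_mod_cast gaussNorm_ne_zero (X := X) (v := v) hg
  have h2 : ∀ P ∈ D.support.erase Q, ((locDist X v P Q ^ D P : ℝ≥0) : ℝ) ≠ 0 := by
    intro P hP
    have hne : locDist X v P Q ≠ 0 := locDist_ne_zero hv (Finset.mem_erase.mp hP).1
    exact_mod_cast zpow_ne_zero _ hne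
  rw [Real.log_mul h1 (Finset.prod_ne_zero_iff.mpr h2), Real.log_prod h2]
  have h3 : ∑ P ∈ D.support.erase Q, Real.log ((locDist X v P Q ^ D P : ℝ≥0) : ℝ)
      = -∑ P ∈ D.support.erase Q, (D P : ℝ) * hostGreen X v P Q := by
    rw [← Finset.sum_neg_distrib]
    apply Finset.sum_congr rfl
    intro P _
    rw [NNReal.coe_zpow, Real.log_zpow, hostGreen]
    ring
  have h4 : ∑ P ∈ D.support.erase Q, (D P : ℝ) * hostGreen X v P Q
      = ∑ P ∈ D.support, (D P : ℝ) * hostGreen X v P Q := by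
    apply Finset.sum_erase
    rw [hostGreen_self, mul_zero]
  rw [h3, h4]
  ring

theorem locLead_one (hv : v.valuationSubring = A) (P : Place Ω E) :
    locLead X v (1 : E) P = 1 := by
  have h := locLead_of_ord_eq_zero (X := X) hv (one_ne_zero) (P₀ := P) (by
    have := PlaceAux.ord_algebraMap P (1 : Ω)
    simp) (HasValueAt.one' P)
  rw [h, map_one]

theorem locLead_inv (hv : v.valuationSubring = A) {g : E} (hg : g ≠ 0) (P : Place Ω E) :
    locLead X v g⁻¹ P = (locLead X v g P)⁻¹ := by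
  have h := locLead_mul (X := X) hv hg (inv_ne_zero hg) P
  rw [mul_inv_cancel₀ hg, locLead_one hv] at h
  exact eq_inv_of_mul_eq_one_right h.symm

theorem locLead_pow (hv : v.valuationSubring = A) {g : E} (hg : g ≠ 0) (P : Place Ω E) (n : ℕ) :
    locLead X v (g ^ n) P = locLead X v g P ^ n := by
  induction n with
  | zero => rw [pow_zero, pow_zero, locLead_one hv]
  | succ n ih => rw [pow_succ, pow_succ, locLead_mul hv (pow_ne_zero _ hg) hg, ih]

theorem locLead_zpow (hv : v.valuationSubring = A) {g : E} (hg : g ≠ 0) (P : Place Ω E) (n : ℤ) :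
    locLead X v (g ^ n) P = locLead X v g P ^ n := by
  cases n with
  | ofNat n => rw [Int.ofNat_eq_natCast, zpow_natCast, zpow_natCast, locLead_pow hv hg]
  | negSucc n =>
    rw [zpow_negSucc, zpow_negSucc, locLead_inv hv (pow_ne_zero _ hg), locLead_pow hv hg]

/-! ### the cover -/

section Cover

variable {F : Type*} [Field F] [Algebra Ω F] [HasPrincipalDivisors Ω E]
  (φ : F →ₐ[Ω] E) (hφ : φ.toRingHom.IsIntegral)

/-- the weighted sum of `h` over the fibre of `P`: `∑_{P' | P} e(P') · h(P')`. -/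
def fibSum (P : Place Ω F) (h : Place Ω E → ℝ) : ℝ :=
  ∑ P' ∈ Place.fiberAlong φ hφ P, (Place.ramificationIndexAlong φ P' : ℝ) * h P'

theorem fibSum_nonneg {P : Place Ω F} {h : Place Ω E → ℝ} (hh : ∀ P', 0 ≤ h P') :
    0 ≤ fibSum φ hφ P h :=
  Finset.sum_nonneg fun P' _ => mul_nonneg (Nat.cast_nonneg _) (hh P')

/-- **regrouping along the fibres**: `∑_{P'} (φ^* D)(P') h(P') = ∑_P D(P) ∑_{P' | P} e(P') h(P')`. -/
theorem sum_pullbackAlong_mul (D : Divisor Ω F) (h : Place Ω E → ℝ) :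
    (Divisor.pullbackAlong φ hφ D).sum (fun P' m => (m : ℝ) * h P')
      = D.sum (fun P m => (m : ℝ) * fibSum φ hφ P h) := by
  have hz : ∀ P' : Place Ω E, ((0 : ℤ) : ℝ) * h P' = 0 := fun P' => by simp
  have ha : ∀ (P' : Place Ω E) (m₁ m₂ : ℤ),
      ((m₁ + m₂ : ℤ) : ℝ) * h P' = (m₁ : ℝ) * h P' + (m₂ : ℝ) * h P' := fun P' m₁ m₂ => by
    push_cast; ring
  have hz' : ∀ P : Place Ω F, ((0 : ℤ) : ℝ) * fibSum φ hφ P h = 0 := fun P => by simp
  have ha' : ∀ (P : Place Ω F) (m₁ m₂ : ℤ), ((m₁ + m₂ : ℤ) : ℝ) * fibSum φ hφ P h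
      = (m₁ : ℝ) * fibSum φ hφ P h + (m₂ : ℝ) * fibSum φ hφ P h := fun P m₁ m₂ => by
    push_cast; ring
  induction D using Finsupp.induction_linear with
  | zero => simp
  | add D₁ D₂ h₁ h₂ =>
    rw [map_add, Finsupp.sum_add_index' hz ha, Finsupp.sum_add_index' hz' ha', h₁, h₂]
  | single P m =>
    rw [Divisor.pullbackAlong_single, ← Finsupp.sum_finsetSum_index hz ha,
      Finsupp.sum_single_index (hz' P), fibSum, Finset.mul_sum]
    apply Finset.sum_congr rfl
    intro W _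
    rw [Finsupp.sum_single_index (hz W)]
    push_cast
    ring

/-- the pulled-back divisor of `div f` is `div (φ f)`. -/
theorem pullbackAlong_apply_eq_ord {f : F} (D : Divisor Ω F) (hD : ∀ P, D P = P.ord f)
    (W : Place Ω E) : Divisor.pullbackAlong φ hφ D W = W.ord (φ f) := by
  rw [Divisor.pullbackAlong_apply, Place.ord_restrictAlong φ hφ, hD]

variable (X v)

/-- **the Green function on `F`** at the place `A`: the weighted fibre average of the host's,
`γ(P, Q) = (1/n) ∑_{Q' | Q} e(Q') ∑_{P' | P} e(P') G(P', Q')`. -/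
def descGreen (n : ℕ) (P Q : Place Ω F) : ℝ :=
  (n : ℝ)⁻¹ * fibSum φ hφ Q (fun Q' => fibSum φ hφ P (fun P' => hostGreen X v P' Q'))

/-- the weighted fibre average of the logarithms of the leading coefficients of `τ`. -/
def descLead (n : ℕ) (τ : F) (Q : Place Ω F) : ℝ :=
  (n : ℝ)⁻¹ * fibSum φ hφ Q (fun Q' => Real.log ((locLead X v (φ τ) Q' : ℝ≥0) : ℝ))

variable {X v}

/-- (A1), symmetry. -/
theorem descGreen_comm (hv : v.valuationSubring = A) (n : ℕ) (P Q : Place Ω F) :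
    descGreen X v φ hφ n P Q = descGreen X v φ hφ n Q P := by
  unfold descGreen fibSum
  congr 1
  simp_rw [Finset.mul_sum]
  rw [Finset.sum_comm]
  apply Finset.sum_congr rfl
  intro P' _
  apply Finset.sum_congr rfl
  intro Q' _
  rw [hostGreen_comm hv]
  ring

/-- (A1), lower bound. -/
theorem descGreen_nonneg (hv : v.valuationSubring = A) (n : ℕ) (P Q : Place Ω F) :
    0 ≤ descGreen X v φ hφ n P Q :=
  mul_nonneg (inv_nonneg.mpr (Nat.cast_nonneg _))
    (fibSum_nonneg φ hφ fun _ => fibSum_nonneg φ hφ fun _ => hostGreen_nonneg hv _ _)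

/-- **(A3) on `F`, pointwise on the host**: for `Q' | Q`, a uniformizer `τ` at `Q` and the value
`b₁` of `f / τ^{ord_Q f}` at `Q`,
`log v(b₁) = log ‖φ f‖ - ∑_P ord_P f ∑_{P' | P} e(P') G(P', Q') - ord_Q f · log |lead_{Q'} φ τ|`. -/
theorem log_value_eq_of_mem_fiber (hv : v.valuationSubring = A) {f : F} (hf : f ≠ 0)
    (D : Divisor Ω F) (hD : ∀ P, D P = P.ord f) {Q : Place Ω F} {τ : F} (hτ : Q.ord τ = 1)
    {b₁ : Ω} (hb₁ : HasValueAt Q (f * τ ^ (-Q.ord f)) b₁) {Q' : Place Ω E}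
    (hQ' : Q'.restrictAlong φ hφ = Q) :
    Real.log ((v b₁ : ℝ≥0) : ℝ)
      = Real.log ((gaussNorm X v (φ f) : ℝ≥0) : ℝ)
        - D.sum (fun P m => (m : ℝ) * fibSum φ hφ P (fun P' => hostGreen X v P' Q'))
        - (D Q : ℝ) * Real.log ((locLead X v (φ τ) Q' : ℝ≥0) : ℝ) := by
  have hτ0 : τ ≠ 0 := by
    intro h0
    rw [h0, Place.ord_zero] at hτ
    exact zero_ne_one hτ
  have hφf : φ f ≠ 0 := (map_ne_zero φ).mpr hf
  have hφτ : φ τ ≠ 0 := (map_ne_zero φ).mpr hτ0
  set m := Q.ord f with hm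
  have hf₁ : f * τ ^ (-m) ≠ 0 := mul_ne_zero hf (zpow_ne_zero _ hτ0)
  have hordf₁ : Q.ord (f * τ ^ (-m)) = 0 := by
    rw [Q.ord_mul hf (zpow_ne_zero _ hτ0), Place.ord_zpow, hτ, ← hm]; ring
  -- `φ f₁` at `Q'`
  have hval : HasValueAt Q' (φ (f * τ ^ (-m))) b₁ := by
    rw [← hasValueAt_restrictAlong_iff φ hφ, hQ']
    exact hb₁
  have hord' : Q'.ord (φ (f * τ ^ (-m))) = 0 := by
    rw [Place.ord_restrictAlong φ hφ, hQ', hordf₁, mul_zero]
  have h1 : locLead X v (φ (f * τ ^ (-m))) Q' = v b₁ :=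
    locLead_of_ord_eq_zero hv ((map_ne_zero φ).mpr hf₁) hord' hval
  have h2 : locLead X v (φ (f * τ ^ (-m))) Q'
      = locLead X v (φ f) Q' * locLead X v (φ τ) Q' ^ (-m) := by
    rw [map_mul, map_zpow₀, locLead_mul hv hφf (zpow_ne_zero _ hφτ), locLead_zpow hv hφτ]
  have h3 : ((locLead X v (φ f) Q' : ℝ≥0) : ℝ) ≠ 0 := by
    exact_mod_cast locLead_ne_zero hv hφf Q'
  have h4 : ((locLead X v (φ τ) Q' : ℝ≥0) : ℝ) ≠ 0 := by
    exact_mod_cast locLead_ne_zero hv hφτ Q'
  rw [← h1, h2, NNReal.coe_mul, NNReal.coe_zpow, Real.log_mul h3 (zpow_ne_zero _ h4),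
    Real.log_zpow,
    log_locLead_eq hv hφf (Divisor.pullbackAlong φ hφ D)
      (pullbackAlong_apply_eq_ord φ hφ D hD) Q']
  have h5 := sum_pullbackAlong_mul φ hφ D (fun P' => hostGreen X v P' Q')
  rw [Finsupp.sum] at h5
  rw [h5, hD Q]
  push_cast
  ring

/-- **(A3) on `F`, EXACT, including the diagonal case**: for `f ≠ 0` with divisor `D`, a point
`Q`, a uniformizer `τ` at `Q` and the value `b₁` of `f / τ^{ord_Q f}` at `Q`,
`∑_P ord_P f · γ(P, Q) + ord_Q f · Λ(τ, Q) + log v(b₁) = log ‖φ f‖`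
(`γ(Q, Q)` is the finite self-term of the fibre average). -/
theorem descGreen_weil (hv : v.valuationSubring = A) {n : ℕ}
    (hsum : ∀ Q : Place Ω F,
      ∑ W ∈ Place.fiberAlong φ hφ Q, (Place.ramificationIndexAlong φ W : ℝ) = n)
    (hn : n ≠ 0) {f : F} (hf : f ≠ 0)
    (D : Divisor Ω F) (hD : ∀ P, D P = P.ord f) {Q : Place Ω F} {τ : F} (hτ : Q.ord τ = 1)
    {b₁ : Ω} (hb₁ : HasValueAt Q (f * τ ^ (-Q.ord f)) b₁) :
    (∑ P ∈ D.support, (D P : ℝ) * descGreen X v φ hφ n P Q)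
        + (D Q : ℝ) * descLead X v φ hφ n τ Q + Real.log ((v b₁ : ℝ≥0) : ℝ)
      = Real.log ((gaussNorm X v (φ f) : ℝ≥0) : ℝ) := by
  have hn' : (n : ℝ) ≠ 0 := Nat.cast_ne_zero.mpr hn
  have key : ∀ Q' ∈ Place.fiberAlong φ hφ Q,
      (Place.ramificationIndexAlong φ Q' : ℝ) * Real.log ((v b₁ : ℝ≥0) : ℝ)
      = (Place.ramificationIndexAlong φ Q' : ℝ) * Real.log ((gaussNorm X v (φ f) : ℝ≥0) : ℝ)
        - ∑ P ∈ D.support, (D P : ℝ) * ((Place.ramificationIndexAlong φ Q' : ℝ) *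
            fibSum φ hφ P (fun P' => hostGreen X v P' Q'))
        - (D Q : ℝ) * ((Place.ramificationIndexAlong φ Q' : ℝ) *
            Real.log ((locLead X v (φ τ) Q' : ℝ≥0) : ℝ)) := by
    intro Q' hQ'
    rw [log_value_eq_of_mem_fiber (X := X) φ hφ hv hf D hD hτ hb₁ (Place.mem_fiberAlong.mp hQ'),
      Finsupp.sum, mul_sub, mul_sub, Finset.mul_sum]
    congr 1
    · congr 1
      apply Finset.sum_congr rfl
      intro P _
      ring
    · ring
  have hS := Finset.sum_congr rfl key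
  rw [← Finset.sum_mul, hsum Q, Finset.sum_sub_distrib, Finset.sum_sub_distrib, ← Finset.sum_mul,
    hsum Q, Finset.sum_comm, ← Finset.mul_sum] at hS
  have e1 : ∑ P ∈ D.support, (D P : ℝ) * descGreen X v φ hφ n P Q
      = (n : ℝ)⁻¹ * ∑ P ∈ D.support, ∑ Q' ∈ Place.fiberAlong φ hφ Q,
          (D P : ℝ) * ((Place.ramificationIndexAlong φ Q' : ℝ) *
            fibSum φ hφ P (fun P' => hostGreen X v P' Q')) := by
    rw [Finset.mul_sum]
    apply Finset.sum_congr rfl
    intro P _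
    rw [descGreen, fibSum, ← Finset.mul_sum]
    ring
  have e2 : descLead X v φ hφ n τ Q = (n : ℝ)⁻¹ * ∑ Q' ∈ Place.fiberAlong φ hφ Q,
      (Place.ramificationIndexAlong φ Q' : ℝ) *
        Real.log ((locLead X v (φ τ) Q' : ℝ≥0) : ℝ) := rfl
  rw [e1, e2]
  generalize (∑ P ∈ D.support, ∑ Q' ∈ Place.fiberAlong φ hφ Q,
          (D P : ℝ) * ((Place.ramificationIndexAlong φ Q' : ℝ) *
            fibSum φ hφ P (fun P' => hostGreen X v P' Q'))) = S1 at hS ⊢
  generalize (∑ Q' ∈ Place.fiberAlong φ hφ Q,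
      (Place.ramificationIndexAlong φ Q' : ℝ) *
        Real.log ((locLead X v (φ τ) Q' : ℝ≥0) : ℝ)) = S2 at hS ⊢
  have h6 : Real.log ((v b₁ : ℝ≥0) : ℝ) = Real.log ((gaussNorm X v (φ f) : ℝ≥0) : ℝ)
      - (n : ℝ)⁻¹ * S1 - (D Q : ℝ) * ((n : ℝ)⁻¹ * S2) := by
    field_simp
    linarith
  rw [h6]
  ring

end Cover

end Fermat.Agent.MW

end
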