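/-
MW (S17) — helper3 — [GOOD-P], part 2: **the local distance at a place of good reduction and the
exact local decomposition of `|f(Q)|`** (abstract `FG.GoodRed Ω A 𝔽 𝔽b` language).

Everything is stated for an arbitrary valuation `v : Valuation Ω Γ₀` whose valuation ring is `A`
(`hv : v.valuationSubring = A`): take `v = A.valuation` for the canonical value group, or the
`ℝ≥0`-valued `p`-adic absolute value.

* `locDist X v P P'` : `v (t(P) - t(P'))` for a coordinate `t` on the common residue disc, `1` if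
  `P` and `P'` lie in different residue discs; independent of `t` (`locDist_eq`); symmetric,
  `≤ 1`, `< 1` iff same disc, `= 0` iff `P = P'`, ultrametric.
* `le_locDist` : integral functions regular on a disc are `1`-Lipschitz.
* `valuation_value_mul_eq_prod` : **the exact local decomposition**
  `v c · v (f(Q)) = ∏_P locDist(P, Q) ^ ord_P f` if `c • f` is a Gauss unit and `ord_Q f = 0`.
* `gaussNorm X v f`, `valuation_value_eq_gaussNorm_mul_prod`.
-/
import Mathlib
import Fermat.Agent.MW.GOODP_helper3_Disc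

set_option autoImplicit false
set_option linter.unusedSectionVars false
set_option linter.style.haveILetI false

noncomputable section

namespace Fermat.Agent.MW

open AlgebraicCurve IsLocalRing Fermat.Agent.FF Fermat.Agent.JA Fermat.Agent.FG
open scoped Classical

variable {Ω : Type*} [Field Ω] {A : ValuationSubring Ω} {𝔽 : Type*} [Field 𝔽] [Algebra Ω 𝔽]
  {𝔽b : Type*} [Field 𝔽b] [Algebra (ResidueField ↥A) 𝔽b] (X : GoodRed Ω A 𝔽 𝔽b)
  {Γ₀ : Type*} [LinearOrderedCommGroupWithZero Γ₀] (v : Valuation Ω Γ₀)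

section Val

variable {v}

theorem goodp_val_le_one_of_mem (hv : v.valuationSubring = A) {a : Ω} (ha : a ∈ A) : v a ≤ 1 := by
  rw [← hv] at ha
  exact (Valuation.mem_valuationSubring_iff v a).mp ha

theorem goodp_mem_of_val_le_one (hv : v.valuationSubring = A) {a : Ω} (ha : v a ≤ 1) : a ∈ A := by
  rw [← hv]
  exact (Valuation.mem_valuationSubring_iff v a).mpr ha

theorem goodp_val_eq_one_of_unit (hv : v.valuationSubring = A) {a : Ω} (ha : a ∈ A) (ha' : a⁻¹ ∈ A)
    (ha0 : a ≠ 0) : v a = 1 := by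
  have h1 := goodp_val_le_one_of_mem hv ha
  have h2 := goodp_val_le_one_of_mem hv ha'
  rw [map_inv₀] at h2
  have h0 : v a ≠ 0 := (Valuation.ne_zero_iff v).mpr ha0
  have h3 : 1 ≤ v a := (inv_le_one₀ (zero_lt_iff.mpr h0)).mp h2
  exact le_antisymm h1 h3

theorem goodp_val_lt_one_of_mem_nonunits (hv : v.valuationSubring = A) {a : Ω}
    (ha : a ∈ A.nonunits) : v a < 1 := by
  have h1 := goodp_val_le_one_of_mem hv (goodp_mem_of_mem_nonunits ha)
  refine lt_of_le_of_ne h1 fun h => ?_
  rcases A.mem_nonunits_iff_or.mp ha with h0 | h0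
  · rw [h0, map_zero] at h
    exact zero_ne_one h
  · apply h0
    apply goodp_mem_of_val_le_one hv
    rw [map_inv₀, h, inv_one]

end Val

/-- a chosen coordinate on the residue disc of `Q`. -/
def discCoord (Q : Place (ResidueField ↥A) 𝔽b) : 𝔽 := (exists_isDiscCoord X Q).choose

theorem isDiscCoord_discCoord (Q : Place (ResidueField ↥A) 𝔽b) :
    IsDiscCoord X Q (discCoord X Q) := (exists_isDiscCoord X Q).choose_spec

/-- **the local distance** of two points of the generic fibre at the place `A` (measured by the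
valuation `v`): `v (t(P) - t(P'))` for a coordinate `t` of the common residue disc, and `1` if the
points have different reductions.  `-log` of it is the local intersection multiplicity
`(P · P')_A`. -/
def locDist (P P' : Place Ω 𝔽) : Γ₀ :=
  if X.r P = X.r P' then
    v (valueAt P (discCoord X (X.r P)) - valueAt P' (discCoord X (X.r P)))
  else 1

variable {X v}

/-- **integral functions regular on a disc are `1`-Lipschitz** with respect to any coordinate. -/
theorem val_sub_le_of_isDiscCoord (hv : v.valuationSubring = A)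
    {Q : Place (ResidueField ↥A) 𝔽b} {t : 𝔽} (h : IsDiscCoord X Q t) {P P' : Place Ω 𝔽}
    (hP : X.r P = Q) (hP' : X.r P' = Q) {a a' : Ω} (ha : HasValueAt P t a)
    (ha' : HasValueAt P' t a') {f : 𝔽} (hf : f ∈ X.W) (hreg : X.RegularOn Q f) {b b' : Ω}
    (hb : HasValueAt P f b) (hb' : HasValueAt P' f b') : v (b - b') ≤ v (a - a') := by
  obtain ⟨c, hc, hcc⟩ := h.exists_lipschitz hP hP' ha ha' hf hreg hb hb'
  rw [hcc, map_mul]
  calc v c * v (a - a') ≤ 1 * v (a - a') := mul_le_mul_left (goodp_val_le_one_of_mem hv hc) _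
    _ = v (a - a') := one_mul _

/-- **independence of the coordinate.** -/
theorem locDist_eq (hv : v.valuationSubring = A) {Q : Place (ResidueField ↥A) 𝔽b} {t : 𝔽}
    (h : IsDiscCoord X Q t) {P P' : Place Ω 𝔽} (hP : X.r P = Q) (hP' : X.r P' = Q) {a a' : Ω}
    (ha : HasValueAt P t a) (ha' : HasValueAt P' t a') : locDist X v P P' = v (a - a') := by
  rw [locDist, if_pos (hP.trans hP'.symm)]
  have h₀ : IsDiscCoord X Q (discCoord X (X.r P)) := hP ▸ isDiscCoord_discCoord X (X.r P)
  have hv₀ := h₀.hasValueAt_valueAt hP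
  have hv₀' := h₀.hasValueAt_valueAt hP'
  exact le_antisymm
    (val_sub_le_of_isDiscCoord hv h hP hP' ha ha' h₀.mem h₀.regular hv₀ hv₀')
    (val_sub_le_of_isDiscCoord hv h₀ hP hP' hv₀ hv₀' h.mem h.regular ha ha')

theorem locDist_of_ne {P P' : Place Ω 𝔽} (h : X.r P ≠ X.r P') : locDist X v P P' = 1 := by
  rw [locDist, if_neg h]

@[simp]
theorem locDist_self (P : Place Ω 𝔽) : locDist X v P P = 0 := by
  rw [locDist, if_pos rfl, sub_self, map_zero]

theorem locDist_comm (hv : v.valuationSubring = A) (P P' : Place Ω 𝔽) :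
    locDist X v P P' = locDist X v P' P := by
  by_cases h : X.r P = X.r P'
  · have h₀ := isDiscCoord_discCoord X (X.r P)
    rw [locDist_eq hv h₀ rfl h.symm (h₀.hasValueAt_valueAt rfl) (h₀.hasValueAt_valueAt h.symm),
      locDist_eq hv h₀ h.symm rfl (h₀.hasValueAt_valueAt h.symm) (h₀.hasValueAt_valueAt rfl)]
    exact Valuation.map_sub_swap v _ _
  · rw [locDist_of_ne h, locDist_of_ne (Ne.symm h)]

theorem locDist_lt_one_iff (hv : v.valuationSubring = A) (P P' : Place Ω 𝔽) :
    locDist X v P P' < 1 ↔ X.r P = X.r P' := by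
  constructor
  · intro hlt
    by_contra h
    rw [locDist_of_ne h] at hlt
    exact lt_irrefl _ hlt
  · intro h
    have h₀ := isDiscCoord_discCoord X (X.r P)
    rw [locDist_eq hv h₀ rfl h.symm (h₀.hasValueAt_valueAt rfl) (h₀.hasValueAt_valueAt h.symm)]
    exact lt_of_le_of_lt (Valuation.map_sub v _ _)
      (max_lt (goodp_val_lt_one_of_mem_nonunits hv (h₀.valueAt_mem_nonunits rfl))
        (goodp_val_lt_one_of_mem_nonunits hv (h₀.valueAt_mem_nonunits h.symm)))

theorem locDist_le_one (hv : v.valuationSubring = A) (P P' : Place Ω 𝔽) :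
    locDist X v P P' ≤ 1 := by
  by_cases h : X.r P = X.r P'
  · exact le_of_lt ((locDist_lt_one_iff hv P P').mpr h)
  · rw [locDist_of_ne h]

theorem locDist_eq_zero_iff (hv : v.valuationSubring = A) (P P' : Place Ω 𝔽) :
    locDist X v P P' = 0 ↔ P = P' := by
  constructor
  · intro h0
    have h : X.r P = X.r P' := by
      by_contra h
      rw [locDist_of_ne h] at h0
      exact one_ne_zero h0
    have h₀ := isDiscCoord_discCoord X (X.r P)
    rw [locDist_eq hv h₀ rfl h.symm (h₀.hasValueAt_valueAt rfl) (h₀.hasValueAt_valueAt h.symm),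
      Valuation.zero_iff, sub_eq_zero] at h0
    have h1 := h₀.hasValueAt_valueAt (P := P') h.symm
    rw [← h0] at h1
    exact h₀.eq_of_value_eq rfl h.symm (h₀.hasValueAt_valueAt rfl) h1
  · rintro rfl
    exact locDist_self P

theorem locDist_ne_zero (hv : v.valuationSubring = A) {P P' : Place Ω 𝔽} (h : P ≠ P') :
    locDist X v P P' ≠ 0 := fun h0 => h ((locDist_eq_zero_iff hv P P').mp h0)

/-- **the ultrametric inequality.** -/
theorem locDist_triangle (hv : v.valuationSubring = A) (P P' P'' : Place Ω 𝔽) :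
    locDist X v P P'' ≤ max (locDist X v P P') (locDist X v P' P'') := by
  by_cases h1 : X.r P = X.r P'
  · by_cases h2 : X.r P' = X.r P''
    · have h₀ := isDiscCoord_discCoord X (X.r P)
      have e := h₀.hasValueAt_valueAt (P := P) rfl
      have e' := h₀.hasValueAt_valueAt (P := P') h1.symm
      have e'' := h₀.hasValueAt_valueAt (P := P'') (h1.trans h2).symm
      rw [locDist_eq hv h₀ rfl (h1.trans h2).symm e e'', locDist_eq hv h₀ rfl h1.symm e e',
        locDist_eq hv h₀ h1.symm (h1.trans h2).symm e' e'']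
      have : valueAt P (discCoord X (X.r P)) - valueAt P'' (discCoord X (X.r P))
          = (valueAt P (discCoord X (X.r P)) - valueAt P' (discCoord X (X.r P)))
            + (valueAt P' (discCoord X (X.r P)) - valueAt P'' (discCoord X (X.r P))) := by ring
      rw [this]
      exact Valuation.map_add v _ _
    · rw [locDist_of_ne h2]
      exact le_trans (locDist_le_one hv P P'') (le_max_right _ _)
  · rw [locDist_of_ne h1]
    exact le_trans (locDist_le_one hv P P'') (le_max_left _ _)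

/-- **integral functions regular on a residue disc are `1`-Lipschitz for the local distance.** -/
theorem val_sub_le_locDist (hv : v.valuationSubring = A) {P P' : Place Ω 𝔽}
    (hPP' : X.r P = X.r P') {f : 𝔽} (hf : f ∈ X.W) (hreg : X.RegularOn (X.r P) f) {b b' : Ω}
    (hb : HasValueAt P f b) (hb' : HasValueAt P' f b') : v (b - b') ≤ locDist X v P P' := by
  have h₀ := isDiscCoord_discCoord X (X.r P)
  have e := h₀.hasValueAt_valueAt (P := P) rfl
  have e' := h₀.hasValueAt_valueAt (P := P') hPP'.symm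
  rw [locDist_eq hv h₀ rfl hPP'.symm e e']
  exact val_sub_le_of_isDiscCoord hv h₀ rfl hPP'.symm e e' hf hreg hb hb'

/-- values of integer powers. -/
theorem goodp_hasValueAt_zpow {K F : Type*} [Field K] [Field F] [Algebra K F] {P : Place K F} {f : F}
    {c : K} (h : HasValueAt P f c) (hc : c ≠ 0) (n : ℤ) : HasValueAt P (f ^ n) (c ^ n) := by
  cases n with
  | ofNat n =>
    rw [Int.ofNat_eq_natCast, zpow_natCast, zpow_natCast]
    exact h.pow n
  | negSucc n =>
    rw [zpow_negSucc, zpow_negSucc]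
    exact (h.pow (n + 1)).inv (pow_ne_zero _ hc)

/-- **THE EXACT LOCAL DECOMPOSITION at a place of good reduction.**  Let `f ≠ 0` with divisor `D`,
`c ∈ Ω^×` with `c • f` a Gauss unit, and `Q` a point which is neither a zero nor a pole of `f`,
`f(Q) = b`.  Then
`v c · v b = ∏_{P ∈ supp D} locDist(P, Q) ^ ord_P f`. -/
theorem valuation_value_mul_eq_prod (hv : v.valuationSubring = A) {f : 𝔽} (hf : f ≠ 0)
    (D : Divisor Ω 𝔽) (hD : ∀ P, D P = P.ord f) {c : Ω} (hc : c ≠ 0) (hcW : c • f ∈ X.W)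
    (hcW' : (c • f)⁻¹ ∈ X.W) {Q : Place Ω 𝔽} (hQ : Q.ord f = 0) {b : Ω}
    (hb : HasValueAt Q f b) :
    v c * v b = ∏ P ∈ D.support, locDist X v P Q ^ D P := by
  set t := discCoord X (X.r Q) with ht
  have h₀ : IsDiscCoord X (X.r Q) t := isDiscCoord_discCoord X (X.r Q)
  set S : Finset (Place Ω 𝔽) := D.support.filter (fun P => X.r P = X.r Q) with hS
  have hSmem : ∀ P ∈ S, X.r P = X.r Q := fun P hP => (Finset.mem_filter.mp hP).2
  have hQS : Q ∉ S := by
    intro hQS
    have := Finsupp.mem_support_iff.mp (Finset.mem_filter.mp hQS).1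
    exact this ((hD Q).trans hQ)
  -- the linear factors
  set s : Place Ω 𝔽 → 𝔽 := fun P => t - algebraMap Ω 𝔽 (valueAt P t) with hs
  have hsc : ∀ P ∈ S, IsDiscCoord X (X.r Q) (s P) := fun P hP =>
    h₀.sub_const (h₀.valueAt_mem_nonunits (hSmem P hP))
  have hs0 : ∀ P ∈ S, s P ≠ 0 := fun P hP => (hsc P hP).ne_zero
  -- the unit
  set y : 𝔽 := c • f * ∏ P ∈ S, s P ^ (-D P) with hy
  have hcf0 : c • f ≠ 0 := smul_ne_zero hc hf
  have hprod0 : ∏ P ∈ S, s P ^ (-D P) ≠ 0 :=
    Finset.prod_ne_zero_iff.mpr fun P hP => zpow_ne_zero _ (hs0 P hP)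
  have hy0 : y ≠ 0 := mul_ne_zero hcf0 hprod0
  have hzW : ∀ (n : ℤ), ∀ P ∈ S, s P ^ n ∈ X.W := by
    intro n P hP
    cases n with
    | ofNat n =>
      rw [Int.ofNat_eq_natCast, zpow_natCast]
      exact X.W.pow_mem (hsc P hP).mem n
    | negSucc n =>
      rw [zpow_negSucc, ← inv_pow]
      exact X.W.pow_mem (hsc P hP).inv_mem _
  have hyW : y ∈ X.W := X.W.mul_mem _ _ hcW (Subring.prod_mem _ fun P hP => hzW _ P hP)
  have hyW' : y⁻¹ ∈ X.W := by
    rw [hy, mul_inv, ← Finset.prod_inv_distrib]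
    refine X.W.mul_mem _ _ hcW' (Subring.prod_mem _ fun P hP => ?_)
    rw [← zpow_neg]
    exact hzW _ P hP
  -- `y` has no zeros and poles on the disc
  have hordy : ∀ P' : Place Ω 𝔽, X.r P' = X.r Q → P'.ord y = 0 := by
    intro P' hP'
    rw [hy, P'.ord_mul hcf0 hprod0, ord_prod_zpow P' S s (fun P => -D P) hs0]
    have h1 : P'.ord (c • f) = D P' := by
      rw [Algebra.smul_def, P'.ord_mul ((map_ne_zero _).mpr hc) hf, PlaceAux.ord_algebraMap,
        zero_add, hD]
    have h2 : ∀ P ∈ S, -D P * P'.ord (s P) = if P' = P then -D P else 0 := by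
      intro P hP
      rw [h₀.ord_sub (hSmem P hP) hP' (h₀.hasValueAt_valueAt (hSmem P hP))]
      split_ifs <;> simp
    rw [h1, Finset.sum_congr rfl h2, Finset.sum_ite_eq S P' (fun P => -D P)]
    split_ifs with hP'S
    · ring
    · have : P' ∉ D.support := fun hmem => hP'S (Finset.mem_filter.mpr ⟨hmem, hP'⟩)
      rw [Finsupp.notMem_support_iff.mp this, add_zero]
  obtain ⟨u, hu, hu', hu0, hyu⟩ := discUnit_value X hyW hyW' hy0 Q hordy
  -- values at `Q`
  have hvQ := h₀.hasValueAt_valueAt (P := Q) rfl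
  have hsQ : ∀ P ∈ S, HasValueAt Q (s P) (valueAt Q t - valueAt P t) := fun P hP =>
    hvQ.sub (HasValueAt.algebraMap' Q _)
  have hne : ∀ P ∈ S, valueAt Q t - valueAt P t ≠ 0 := fun P hP =>
    h₀.value_sub_ne_zero rfl (hSmem P hP) (fun h => hQS (h ▸ hP)) hvQ
      (h₀.hasValueAt_valueAt (hSmem P hP))
  have hprodQ : HasValueAt Q (∏ P ∈ S, s P ^ D P) (∏ P ∈ S, (valueAt Q t - valueAt P t) ^ D P) :=
    HasValueAt.prod S _ _ fun P hP => goodp_hasValueAt_zpow (hsQ P hP) (hne P hP) (D P)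
  have hcfQ : HasValueAt Q (c • f) (c * b) := by
    rw [Algebra.smul_def]
    exact (HasValueAt.algebraMap' Q c).mul hb
  have hfact : c • f = y * ∏ P ∈ S, s P ^ D P := by
    rw [hy, mul_assoc, ← Finset.prod_mul_distrib]
    have : ∏ P ∈ S, s P ^ (-D P) * s P ^ D P = 1 :=
      Finset.prod_eq_one fun P hP => by
        rw [← zpow_add₀ (hs0 P hP), neg_add_cancel, zpow_zero]
    rw [this, mul_one]
  have hkey : c * b = u * ∏ P ∈ S, (valueAt Q t - valueAt P t) ^ D P := by
    have h1 := hyu.mul hprodQ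
    rw [← hfact] at h1
    exact hcfQ.unique h1
  -- apply `v`
  have hvu : v u = 1 := goodp_val_eq_one_of_unit hv hu hu' hu0
  have hL : v c * v b = ∏ P ∈ S, v (valueAt Q t - valueAt P t) ^ D P := by
    rw [← map_mul, hkey, map_mul, hvu, one_mul, map_prod]
    exact Finset.prod_congr rfl fun P hP => map_zpow₀ v _ _
  rw [hL, hS, Finset.prod_filter]
  refine Finset.prod_congr rfl fun P hP => ?_
  split_ifs with hPQ
  · rw [locDist_eq hv h₀ hPQ rfl (h₀.hasValueAt_valueAt hPQ) hvQ, Valuation.map_sub_swap]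
  · rw [locDist_of_ne hPQ, one_zpow]


/-! ### the Gauss norm -/

variable (X v)

/-- **the Gauss norm** of a function at the place `A` (measured by `v`): `(v c)⁻¹` for any `c`
such that `c • f` is a Gauss unit; `0` for `f = 0`. -/
def gaussNorm (f : 𝔽) : Γ₀ :=
  if h : f = 0 then 0 else (v (X.exists_smul_unit f h).choose)⁻¹

variable {X v}

@[simp]
theorem gaussNorm_zero : gaussNorm X v (0 : 𝔽) = 0 := by
  rw [gaussNorm, dif_pos rfl]

/-- two normalising constants of the same function differ by a unit of `A`. -/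
theorem goodp_val_eq_of_smul_unit (hv : v.valuationSubring = A) {f : 𝔽} (hf : f ≠ 0) {c c' : Ω}
    (hc : c ≠ 0) (hcW : c • f ∈ X.W) (hcW' : (c • f)⁻¹ ∈ X.W) (hc' : c' ≠ 0)
    (hc'W : c' • f ∈ X.W) (hc'W' : (c' • f)⁻¹ ∈ X.W) : v c = v c' := by
  have key : ∀ {c c' : Ω}, c ≠ 0 → c' ≠ 0 → c • f ∈ X.W → (c' • f)⁻¹ ∈ X.W → v c ≤ v c' := by
    intro c c' hc hc' h1 h2
    have h3 : algebraMap Ω 𝔽 (c / c') ∈ X.W := by
      have : algebraMap Ω 𝔽 (c / c') = c • f * (c' • f)⁻¹ := by
        rw [Algebra.smul_def, Algebra.smul_def, map_div₀]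
        have hc'F : algebraMap Ω 𝔽 c' ≠ 0 := (map_ne_zero _).mpr hc'
        field_simp
      rw [this]
      exact X.W.mul_mem _ _ h1 h2
    have h4 : v (c / c') ≤ 1 := goodp_val_le_one_of_mem hv ((X.algebraMap_mem_iff _).mp h3)
    rw [map_div₀] at h4
    have hc'0 : 0 < v c' := zero_lt_iff.mpr ((Valuation.ne_zero_iff v).mpr hc')
    exact (div_le_one₀ hc'0).mp h4
  exact le_antisymm (key hc hc' hcW hc'W') (key hc' hc hc'W hcW')

theorem gaussNorm_eq (hv : v.valuationSubring = A) {f : 𝔽} (hf : f ≠ 0) {c : Ω} (hc : c ≠ 0)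
    (hcW : c • f ∈ X.W) (hcW' : (c • f)⁻¹ ∈ X.W) : gaussNorm X v f = (v c)⁻¹ := by
  rw [gaussNorm, dif_neg hf]
  obtain ⟨h1, h2, h3⟩ := (X.exists_smul_unit f hf).choose_spec
  rw [goodp_val_eq_of_smul_unit hv hf h1 h2 h3 hc hcW hcW']

theorem gaussNorm_ne_zero {f : 𝔽} (hf : f ≠ 0) : gaussNorm X v f ≠ 0 := by
  rw [gaussNorm, dif_neg hf]
  exact inv_ne_zero ((Valuation.ne_zero_iff v).mpr (X.exists_smul_unit f hf).choose_spec.1)

/-- the Gauss norm of a Gauss unit is `1`. -/
theorem gaussNorm_eq_one (hv : v.valuationSubring = A) {f : 𝔽} (hf : f ≠ 0) (hW : f ∈ X.W)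
    (hW' : f⁻¹ ∈ X.W) : gaussNorm X v f = 1 := by
  rw [gaussNorm_eq hv hf one_ne_zero (by rwa [one_smul]) (by rwa [one_smul]), map_one, inv_one]

theorem gaussNorm_algebraMap (hv : v.valuationSubring = A) (a : Ω) :
    gaussNorm X v (algebraMap Ω 𝔽 a) = v a := by
  rcases eq_or_ne a 0 with rfl | ha
  · rw [map_zero, gaussNorm_zero, map_zero]
  have h1 : a⁻¹ • algebraMap Ω 𝔽 a = 1 := by
    rw [Algebra.smul_def, ← map_mul, inv_mul_cancel₀ ha, map_one]
  rw [gaussNorm_eq hv ((map_ne_zero _).mpr ha) (inv_ne_zero ha) (by rw [h1]; exact X.W.one_mem)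
    (by rw [h1, inv_one]; exact X.W.one_mem), map_inv₀, inv_inv]

theorem gaussNorm_mul (hv : v.valuationSubring = A) (f g : 𝔽) :
    gaussNorm X v (f * g) = gaussNorm X v f * gaussNorm X v g := by
  rcases eq_or_ne f 0 with rfl | hf
  · rw [zero_mul, gaussNorm_zero, zero_mul]
  rcases eq_or_ne g 0 with rfl | hg
  · rw [mul_zero, gaussNorm_zero, mul_zero]
  obtain ⟨c, hc, h1, h2⟩ := X.exists_smul_unit f hf
  obtain ⟨d, hd, h3, h4⟩ := X.exists_smul_unit g hg
  have e : (c * d) • (f * g) = c • f * d • g := by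
    rw [smul_mul_smul_comm]
  rw [gaussNorm_eq hv hf hc h1 h2, gaussNorm_eq hv hg hd h3 h4,
    gaussNorm_eq hv (mul_ne_zero hf hg) (mul_ne_zero hc hd) (by rw [e]; exact X.W.mul_mem _ _ h1 h3)
      (by rw [e, mul_inv]; exact X.W.mul_mem _ _ h2 h4), map_mul, mul_inv]

theorem gaussNorm_smul (hv : v.valuationSubring = A) (a : Ω) (f : 𝔽) :
    gaussNorm X v (a • f) = v a * gaussNorm X v f := by
  rw [Algebra.smul_def, gaussNorm_mul hv, gaussNorm_algebraMap hv]

/-- `f ∈ W ↔ ‖f‖ ≤ 1`. -/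
theorem gaussNorm_le_one_iff (hv : v.valuationSubring = A) (f : 𝔽) :
    gaussNorm X v f ≤ 1 ↔ f ∈ X.W := by
  rcases eq_or_ne f 0 with rfl | hf
  · rw [gaussNorm_zero]
    exact ⟨fun _ => X.W.zero_mem, fun _ => zero_le_one⟩
  obtain ⟨c, hc, h1, h2⟩ := X.exists_smul_unit f hf
  have hvc : 0 < v c := zero_lt_iff.mpr ((Valuation.ne_zero_iff v).mpr hc)
  rw [gaussNorm_eq hv hf hc h1 h2, inv_le_one₀ hvc]
  have hf' : f = c⁻¹ • (c • f) := by rw [smul_smul, inv_mul_cancel₀ hc, one_smul]
  constructor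
  · intro h
    have hcinv : c⁻¹ ∈ A := by
      apply goodp_mem_of_val_le_one hv
      rw [map_inv₀]
      exact (inv_le_one₀ hvc).mpr h
    rw [hf']
    exact X.smul_mem_W hcinv h1
  · intro hfW
    have h3 : algebraMap Ω 𝔽 c⁻¹ ∈ X.W := by
      have : algebraMap Ω 𝔽 c⁻¹ = f * (c • f)⁻¹ := by
        rw [Algebra.smul_def, mul_inv, map_inv₀]
        field_simp
      rw [this]
      exact X.W.mul_mem _ _ hfW h2
    have h4 := goodp_val_le_one_of_mem hv ((X.algebraMap_mem_iff _).mp h3)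
    rw [map_inv₀] at h4
    exact (inv_le_one₀ hvc).mp h4

/-- **the exact local decomposition, Gauss-norm form**:
`v (f(Q)) = ‖f‖ · ∏_P locDist(P, Q) ^ ord_P f`. -/
theorem valuation_value_eq_gaussNorm_mul_prod (hv : v.valuationSubring = A) {f : 𝔽}
    (hf : f ≠ 0) (D : Divisor Ω 𝔽) (hD : ∀ P, D P = P.ord f) {Q : Place Ω 𝔽}
    (hQ : Q.ord f = 0) {b : Ω} (hb : HasValueAt Q f b) :
    v b = gaussNorm X v f * ∏ P ∈ D.support, locDist X v P Q ^ D P := by
  obtain ⟨c, hc, h1, h2⟩ := X.exists_smul_unit f hf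
  rw [gaussNorm_eq hv hf hc h1 h2, ← valuation_value_mul_eq_prod hv hf D hD hc h1 h2 hQ hb,
    ← mul_assoc, inv_mul_cancel₀ ((Valuation.ne_zero_iff v).mpr hc), one_mul]

end Fermat.Agent.MW

end
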