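/-
MW (S17) — helper3 — [GOOD-P], part 3: **the local decomposition at a zero or pole** (leading
coefficients; the diagonal terms of Mumford's formula at a place of good reduction).

For `f ≠ 0`, a point `P₀` and a coordinate `t` on the residue disc of `P₀`, the function
`f / (t - t(P₀)) ^ ord_{P₀} f` has a nonzero value at `P₀` (the leading coefficient of `f` at
`P₀` with respect to `t`), and
`v (lead) = ‖f‖ · ∏_{P ≠ P₀} locDist(P, P₀) ^ ord_P f`;
in particular `v (lead)` does not depend on the coordinate.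
-/
import Mathlib
import Fermat.Agent.MW.GOODP_helper3_Dist

set_option autoImplicit false
set_option linter.unusedSectionVars false
set_option linter.style.haveILetI false

noncomputable section

namespace Fermat.Agent.MW

open AlgebraicCurve IsLocalRing Fermat.Agent.FF Fermat.Agent.JA Fermat.Agent.FG
open scoped Classical

variable {Ω : Type*} [Field Ω] {A : ValuationSubring Ω} {𝔽 : Type*} [Field 𝔽] [Algebra Ω 𝔽]
  {𝔽b : Type*} [Field 𝔽b] [Algebra (ResidueField ↥A) 𝔽b] {X : GoodRed Ω A 𝔽 𝔽b}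
  {Γ₀ : Type*} [LinearOrderedCommGroupWithZero Γ₀] {v : Valuation Ω Γ₀}

/-- a coordinate is a Gauss unit. -/
theorem IsDiscCoord.gaussNorm_eq_one (hv : v.valuationSubring = A)
    {Q : Place (ResidueField ↥A) 𝔽b} {t : 𝔽} (h : IsDiscCoord X Q t) : gaussNorm X v t = 1 :=
  MW.gaussNorm_eq_one hv h.ne_zero h.mem h.inv_mem

theorem gaussNorm_zpow (hv : v.valuationSubring = A) (f : 𝔽) (hf : f ≠ 0) (n : ℤ) :
    gaussNorm X v (f ^ n) = gaussNorm X v f ^ n := by
  have hpow : ∀ m : ℕ, gaussNorm X v (f ^ m) = gaussNorm X v f ^ m := by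
    intro m
    induction m with
    | zero =>
      rw [pow_zero, pow_zero]
      exact MW.gaussNorm_eq_one hv one_ne_zero X.W.one_mem (by rw [inv_one]; exact X.W.one_mem)
    | succ m ih => rw [pow_succ, pow_succ, gaussNorm_mul hv, ih]
  cases n with
  | ofNat n => rw [Int.ofNat_eq_natCast, zpow_natCast, zpow_natCast, hpow]
  | negSucc n =>
    rw [zpow_negSucc, zpow_negSucc, ← hpow]
    have h1 : gaussNorm X v (f ^ (n + 1)) * gaussNorm X v (f ^ (n + 1))⁻¹ = 1 := by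
      rw [← gaussNorm_mul hv, mul_inv_cancel₀ (pow_ne_zero _ hf)]
      exact MW.gaussNorm_eq_one hv one_ne_zero X.W.one_mem (by rw [inv_one]; exact X.W.one_mem)
    exact eq_inv_of_mul_eq_one_right h1

/-- **existence of the leading coefficient.** -/
theorem exists_lead {f : 𝔽} (hf : f ≠ 0) {P₀ : Place Ω 𝔽} {t : 𝔽}
    (ht : IsDiscCoord X (X.r P₀) t) {a : Ω} (ha : HasValueAt P₀ t a) :
    ∃ b : Ω, b ≠ 0 ∧
      HasValueAt P₀ (f * (t - algebraMap Ω 𝔽 a) ^ (-P₀.ord f)) b := by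
  have ha' : a ∈ A.nonunits :=
    X.value_mem_nonunits (X.r P₀) ⟨t, ht.mem⟩ ht.regular (by rw [ht.ord]; exact zero_lt_one) rfl ha
  have hs0 : t - algebraMap Ω 𝔽 a ≠ 0 := (ht.sub_const ha').ne_zero
  have h0 : f * (t - algebraMap Ω 𝔽 a) ^ (-P₀.ord f) ≠ 0 := mul_ne_zero hf (zpow_ne_zero _ hs0)
  have hord : P₀.ord (f * (t - algebraMap Ω 𝔽 a) ^ (-P₀.ord f)) = 0 := by
    rw [P₀.ord_mul hf (zpow_ne_zero _ hs0), Place.ord_zpow, ht.ord_sub_self rfl ha]
    ring
  have hmem : f * (t - algebraMap Ω 𝔽 a) ^ (-P₀.ord f) ∈ P₀.toValuationSubring := by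
    rw [PlaceAux.mem_iff_ord_nonneg' P₀ h0, hord]
  obtain ⟨b, hb⟩ := HasValueAt.exists_of_mem (X.deg_gen P₀) hmem
  refine ⟨b, ?_, hb⟩
  rintro rfl
  rcases HasValueAt.zero_iff.mp hb with h | h
  · exact h0 h
  · rw [hord] at h
    exact lt_irrefl _ h

/-- **THE LOCAL DECOMPOSITION AT A ZERO OR POLE**: the valuation of the leading coefficient of
`f` at `P₀` (with respect to any coordinate `t` of the residue disc of `P₀`) is
`‖f‖ · ∏_{P ∈ supp D, P ≠ P₀} locDist(P, P₀) ^ ord_P f`. -/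
theorem valuation_lead_eq (hv : v.valuationSubring = A) {f : 𝔽} (hf : f ≠ 0) (D : Divisor Ω 𝔽)
    (hD : ∀ P, D P = P.ord f) {P₀ : Place Ω 𝔽} {t : 𝔽} (ht : IsDiscCoord X (X.r P₀) t) {a : Ω}
    (ha : HasValueAt P₀ t a) {b : Ω}
    (hb : HasValueAt P₀ (f * (t - algebraMap Ω 𝔽 a) ^ (-P₀.ord f)) b) :
    v b = gaussNorm X v f * ∏ P ∈ D.support.erase P₀, locDist X v P P₀ ^ D P := by
  have ha' : a ∈ A.nonunits :=
    X.value_mem_nonunits (X.r P₀) ⟨t, ht.mem⟩ ht.regular (by rw [ht.ord]; exact zero_lt_one) rfl ha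
  have hsc := ht.sub_const ha'
  set s : 𝔽 := t - algebraMap Ω 𝔽 a with hs
  have hs0 : s ≠ 0 := hsc.ne_zero
  set m : ℤ := P₀.ord f with hm
  have h0 : f * s ^ (-m) ≠ 0 := mul_ne_zero hf (zpow_ne_zero _ hs0)
  obtain ⟨D', hD'⟩ := X.exists_div _ h0
  have hD'eq : ∀ P, D' P = D P - m * P.ord s := by
    intro P
    rw [hD', P.ord_mul hf (zpow_ne_zero _ hs0), Place.ord_zpow, hD]
    ring
  have hord0 : P₀.ord (f * s ^ (-m)) = 0 := by
    rw [← hD', hD'eq, hD, ht.ord_sub_self rfl ha]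
    ring
  have hmain := valuation_value_eq_gaussNorm_mul_prod (X := X) hv h0 D' hD' hord0 hb
  have hnorm : gaussNorm X v (f * s ^ (-m)) = gaussNorm X v f := by
    rw [gaussNorm_mul hv, gaussNorm_zpow hv s hs0, hsc.gaussNorm_eq_one hv, one_zpow, mul_one]
  rw [hmain, hnorm]
  congr 1
  -- compare the two products over the union of the supports
  set U : Finset (Place Ω 𝔽) := D.support ∪ D'.support with hU
  have h1 : ∏ P ∈ D'.support, locDist X v P P₀ ^ D' P = ∏ P ∈ U, locDist X v P P₀ ^ D' P := by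
    refine Finset.prod_subset Finset.subset_union_right fun P _ hP => ?_
    rw [Finsupp.notMem_support_iff.mp hP, zpow_zero]
  have h2 : ∏ P ∈ D.support.erase P₀, locDist X v P P₀ ^ D P
      = ∏ P ∈ U.erase P₀, locDist X v P P₀ ^ D P := by
    refine Finset.prod_subset (Finset.erase_subset_erase _ Finset.subset_union_left)
      fun P _ hP => ?_
    have : P ∉ D.support := fun hmem => by
      by_cases hPP : P = P₀
      · subst hPP
        have := Finset.mem_erase.mp ‹P ∈ U.erase P›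
        exact this.1 rfl
      · exact hP (Finset.mem_erase.mpr ⟨hPP, hmem⟩)
    rw [Finsupp.notMem_support_iff.mp this, zpow_zero]
  have h3 : ∀ P ∈ U.erase P₀, locDist X v P P₀ ^ D' P = locDist X v P P₀ ^ D P := by
    intro P hP
    have hPP : P ≠ P₀ := (Finset.mem_erase.mp hP).1
    by_cases hr : X.r P = X.r P₀
    · rw [hD'eq, ht.ord_sub_of_ne rfl hr hPP ha, mul_zero, sub_zero]
    · rw [locDist_of_ne hr, one_zpow, one_zpow]
  rw [h1, h2]
  by_cases hP₀U : P₀ ∈ U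
  · rw [← Finset.mul_prod_erase U _ hP₀U, Finset.prod_congr rfl h3]
    have : D' P₀ = 0 := by rw [hD', hord0]
    rw [this, zpow_zero, one_mul]
  · rw [Finset.erase_eq_of_notMem hP₀U]
    exact Finset.prod_congr rfl fun P hP => by
      have hPe : P ∈ U.erase P₀ := by rwa [Finset.erase_eq_of_notMem hP₀U]
      exact h3 P hPe

/-- the valuation of the leading coefficient does not depend on the coordinate. -/
theorem valuation_lead_congr (hv : v.valuationSubring = A) {f : 𝔽} (hf : f ≠ 0)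
    {P₀ : Place Ω 𝔽} {t t' : 𝔽} (ht : IsDiscCoord X (X.r P₀) t)
    (ht' : IsDiscCoord X (X.r P₀) t') {a a' : Ω} (ha : HasValueAt P₀ t a)
    (ha' : HasValueAt P₀ t' a') {b b' : Ω}
    (hb : HasValueAt P₀ (f * (t - algebraMap Ω 𝔽 a) ^ (-P₀.ord f)) b)
    (hb' : HasValueAt P₀ (f * (t' - algebraMap Ω 𝔽 a') ^ (-P₀.ord f)) b') : v b = v b' := by
  obtain ⟨D, hD⟩ := X.exists_div f hf
  rw [valuation_lead_eq hv hf D hD ht ha hb, valuation_lead_eq hv hf D hD ht' ha' hb']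

variable (X v)

/-- **the local leading coefficient** `|lead_{P₀} f|_A` of `f` at `P₀`: the valuation of the
value at `P₀` of `f / (t - t(P₀)) ^ ord_{P₀} f`, `t` a coordinate of the residue disc of `P₀`;
for `ord_{P₀} f = 0` this is `v (f(P₀))`, and for a function `s` with a simple zero at `P₀` it is
`|ds/dt (P₀)|_A`. -/
def locLead (f : 𝔽) (P₀ : Place Ω 𝔽) : Γ₀ :=
  v (valueAt P₀ (f * (discCoord X (X.r P₀)
    - algebraMap Ω 𝔽 (valueAt P₀ (discCoord X (X.r P₀)))) ^ (-P₀.ord f)))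

variable {X v}

/-- `locLead` computed in any coordinate. -/
theorem locLead_eq (hv : v.valuationSubring = A) {f : 𝔽} (hf : f ≠ 0) {P₀ : Place Ω 𝔽}
    {t : 𝔽} (ht : IsDiscCoord X (X.r P₀) t) {a : Ω} (ha : HasValueAt P₀ t a) {b : Ω}
    (hb : HasValueAt P₀ (f * (t - algebraMap Ω 𝔽 a) ^ (-P₀.ord f)) b) :
    locLead X v f P₀ = v b := by
  have h₀ := isDiscCoord_discCoord X (X.r P₀)
  have hv₀ := h₀.hasValueAt_valueAt (P := P₀) rfl
  obtain ⟨b₀, -, hb₀⟩ := exists_lead hf h₀ hv₀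
  rw [locLead, hb₀.valueAt_eq]
  exact valuation_lead_congr hv hf h₀ ht hv₀ ha hb₀ hb

theorem locLead_ne_zero (hv : v.valuationSubring = A) {f : 𝔽} (hf : f ≠ 0) (P₀ : Place Ω 𝔽) :
    locLead X v f P₀ ≠ 0 := by
  have h₀ := isDiscCoord_discCoord X (X.r P₀)
  have hv₀ := h₀.hasValueAt_valueAt (P := P₀) rfl
  obtain ⟨b₀, hb0, hb₀⟩ := exists_lead hf h₀ hv₀
  rw [locLead_eq hv hf h₀ hv₀ hb₀]
  exact (Valuation.ne_zero_iff v).mpr hb0

/-- at a point which is neither a zero nor a pole, `locLead` is the valuation of the value. -/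
theorem locLead_of_ord_eq_zero (hv : v.valuationSubring = A) {f : 𝔽} (hf : f ≠ 0)
    {P₀ : Place Ω 𝔽} (h0 : P₀.ord f = 0) {b : Ω} (hb : HasValueAt P₀ f b) :
    locLead X v f P₀ = v b := by
  have h₀ := isDiscCoord_discCoord X (X.r P₀)
  have hv₀ := h₀.hasValueAt_valueAt (P := P₀) rfl
  refine locLead_eq hv hf h₀ hv₀ ?_
  rw [h0, neg_zero, zpow_zero, mul_one]
  exact hb

/-- **the local decomposition, general form**:
`locLead f P₀ = ‖f‖ · ∏_{P ∈ supp(div f), P ≠ P₀} locDist(P, P₀) ^ ord_P f`. -/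
theorem locLead_eq_gaussNorm_mul_prod (hv : v.valuationSubring = A) {f : 𝔽} (hf : f ≠ 0)
    (D : Divisor Ω 𝔽) (hD : ∀ P, D P = P.ord f) (P₀ : Place Ω 𝔽) :
    locLead X v f P₀ = gaussNorm X v f * ∏ P ∈ D.support.erase P₀, locDist X v P P₀ ^ D P := by
  have h₀ := isDiscCoord_discCoord X (X.r P₀)
  have hv₀ := h₀.hasValueAt_valueAt (P := P₀) rfl
  obtain ⟨b₀, -, hb₀⟩ := exists_lead hf h₀ hv₀
  rw [locLead_eq hv hf h₀ hv₀ hb₀]
  exact valuation_lead_eq hv hf D hD h₀ hv₀ hb₀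

/-- `locLead` is multiplicative. -/
theorem locLead_mul (hv : v.valuationSubring = A) {f g : 𝔽} (hf : f ≠ 0) (hg : g ≠ 0)
    (P₀ : Place Ω 𝔽) : locLead X v (f * g) P₀ = locLead X v f P₀ * locLead X v g P₀ := by
  have h₀ := isDiscCoord_discCoord X (X.r P₀)
  have hv₀ := h₀.hasValueAt_valueAt (P := P₀) rfl
  obtain ⟨b, -, hb⟩ := exists_lead hf h₀ hv₀
  obtain ⟨c, -, hc⟩ := exists_lead hg h₀ hv₀
  have hs0 : discCoord X (X.r P₀) - algebraMap Ω 𝔽 (valueAt P₀ (discCoord X (X.r P₀))) ≠ 0 :=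
    (h₀.sub_const (h₀.valueAt_mem_nonunits rfl)).ne_zero
  rw [locLead_eq hv hf h₀ hv₀ hb, locLead_eq hv hg h₀ hv₀ hc, ← map_mul]
  refine locLead_eq hv (mul_ne_zero hf hg) h₀ hv₀ ?_
  have := hb.mul hc
  rw [P₀.ord_mul hf hg, neg_add, zpow_add₀ hs0]
  convert this using 1
  ring

end Fermat.Agent.MW

end
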