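/-
MW (S17) — helper3 — [GOOD-P], part 4: **`Ω`-linear automorphisms of a good-reduction datum**
(deck transformations of a host cover) and the residue discs.

* `IsDeckAut X g` : `g` is `Ω`-linear, preserves the Gauss ring `W` and is compatible with the
  reduction of points (`IsAut` without the conditions on the base point);
* `IsDeckAut.inv`, `IsDeckAut.r_eq_of_r_eq` (discs are mapped to discs),
  regularity and values along `g`;
* `IsDeckAut.ρ_smul_sub_ne_zero` : **rigidity on the special fibre** — if `g` acts non-trivially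
  on the reduced function field and maps the residue disc of `Q` to itself, then for every
  coordinate `t` of that disc `ρ (g⁻¹ • t - t) ≠ 0`.
-/
import Mathlib
import Fermat.Agent.MW.GOODP_helper3_Lead

set_option autoImplicit false
set_option linter.unusedSectionVars false
set_option linter.style.haveILetI false

noncomputable section

namespace Fermat.Agent.MW

open AlgebraicCurve IsLocalRing Fermat.Agent.FF Fermat.Agent.JA Fermat.Agent.FG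
open scoped Classical Pointwise

variable {Ω : Type*} [Field Ω] {A : ValuationSubring Ω} {𝔽 : Type*} [Field 𝔽] [Algebra Ω 𝔽]
  {𝔽b : Type*} [Field 𝔽b] [Algebra (ResidueField ↥A) 𝔽b] (X : GoodRed Ω A 𝔽 𝔽b)

/-- **`Ω`-linear automorphisms of the good-reduction datum** (deck transformations): they preserve
the Gauss ring and are compatible with the reduction of points. -/
structure IsDeckAut (g : SemilinearAut Ω 𝔽) : Prop where
  base : ∀ a : Ω, SemilinearAut.baseAut g a = a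
  smul_mem : ∀ f : 𝔽, g • f ∈ X.W ↔ f ∈ X.W
  r_smul : ∀ (P : Place Ω 𝔽) (f : ↥X.W) (hf : g • (f : 𝔽) ∈ X.W),
    X.ρ ⟨g • (f : 𝔽), hf⟩ ∈ (X.r (g • P)).toValuationSubring ↔
      X.ρ f ∈ (X.r P).toValuationSubring

variable {X}

namespace IsDeckAut

variable {g : SemilinearAut Ω 𝔽}

theorem smul_algebraMap (hg : IsDeckAut X g) (a : Ω) :
    g • algebraMap Ω 𝔽 a = algebraMap Ω 𝔽 a := by
  rw [SemilinearAut.smul_algebraMap, hg.base]

theorem inv (hg : IsDeckAut X g) : IsDeckAut X g⁻¹ where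
  base a := by
    rw [SemilinearAut.baseAut_inv]
    have h := hg.base a
    conv_lhs => rw [← h]
    exact RingEquiv.symm_apply_apply _ _
  smul_mem f := by
    have h := hg.smul_mem (g⁻¹ • f)
    rw [smul_inv_smul] at h
    exact h.symm
  r_smul P f hf := by
    have hf' : g • (g⁻¹ • (f : 𝔽)) ∈ X.W := by rw [smul_inv_smul]; exact f.2
    have h := hg.r_smul (g⁻¹ • P) ⟨g⁻¹ • (f : 𝔽), hf⟩ hf'
    rw [smul_inv_smul] at h
    have e : (⟨g • (g⁻¹ • (f : 𝔽)), hf'⟩ : ↥X.W) = f := Subtype.ext (smul_inv_smul g (f : 𝔽))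
    rw [e] at h
    exact h.symm

/-- the residue disc of `g • P` only depends on the residue disc of `P`. -/
theorem r_eq_of_r_eq (hg : IsDeckAut X g) {P P' : Place Ω 𝔽} (h : X.r P = X.r P') :
    X.r (g • P) = X.r (g • P') := by
  apply Place.ext
  ext x
  obtain ⟨f, rfl⟩ := X.ρ_surjective x
  have hf' : g⁻¹ • (f : 𝔽) ∈ X.W := (hg.inv.smul_mem _).mpr f.2
  have hf'' : g • (g⁻¹ • (f : 𝔽)) ∈ X.W := by rw [smul_inv_smul]; exact f.2
  have e : (⟨g • (g⁻¹ • (f : 𝔽)), hf''⟩ : ↥X.W) = f := Subtype.ext (smul_inv_smul g (f : 𝔽))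
  have h1 := hg.r_smul P ⟨g⁻¹ • (f : 𝔽), hf'⟩ hf''
  have h2 := hg.r_smul P' ⟨g⁻¹ • (f : 𝔽), hf'⟩ hf''
  rw [e] at h1 h2
  rw [h1, h2, h]

/-- a residue disc mapped to itself by `g`. -/
theorem r_smul_eq_of_mem_disc (hg : IsDeckAut X g) {P₀ P : Place Ω 𝔽}
    (h₀ : X.r (g • P₀) = X.r P₀) (hP : X.r P = X.r P₀) : X.r (g • P) = X.r P₀ :=
  (hg.r_eq_of_r_eq hP).trans h₀

theorem r_inv_smul_eq_of_mem_disc (hg : IsDeckAut X g) {P₀ P : Place Ω 𝔽}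
    (h₀ : X.r (g • P₀) = X.r P₀) (hP : X.r P = X.r P₀) : X.r (g⁻¹ • P) = X.r P₀ := by
  have h1 : X.r (g⁻¹ • (g • P₀)) = X.r (g⁻¹ • P₀) := hg.inv.r_eq_of_r_eq h₀
  rw [inv_smul_smul] at h1
  exact (hg.inv.r_eq_of_r_eq hP).trans h1.symm

end IsDeckAut

/-- regularity along an automorphism. -/
theorem goodp_smul_mem_smul_place_iff (g : SemilinearAut Ω 𝔽) (P : Place Ω 𝔽) (f : 𝔽) :
    g • f ∈ (g • P).toValuationSubring ↔ f ∈ P.toValuationSubring := by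
  rw [SemilinearAut.smul_toValuationSubring]
  exact ValuationSubring.smul_mem_pointwise_smul_iff

theorem goodp_inv_smul_mem_place_iff (g : SemilinearAut Ω 𝔽) (P : Place Ω 𝔽) (f : 𝔽) :
    g⁻¹ • f ∈ P.toValuationSubring ↔ f ∈ (g • P).toValuationSubring := by
  rw [← goodp_smul_mem_smul_place_iff g P (g⁻¹ • f), smul_inv_smul]

namespace IsDeckAut

variable {g : SemilinearAut Ω 𝔽}

/-- values along a deck automorphism: `(g⁻¹ • f)(P) = f(g • P)`. -/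
theorem hasValueAt_inv_smul (hg : IsDeckAut X g) {P : Place Ω 𝔽} {f : 𝔽} {c : Ω}
    (h : HasValueAt (g • P) f c) : HasValueAt P (g⁻¹ • f) c := by
  have h1 := h.smul g⁻¹
  rwa [inv_smul_smul, hg.inv.base] at h1

/-- `g⁻¹ • f` is regular on a `g`-stable disc if `f` is. -/
theorem regularOn_inv_smul (hg : IsDeckAut X g) {P₀ : Place Ω 𝔽}
    (h₀ : X.r (g • P₀) = X.r P₀) {f : 𝔽} (hf : X.RegularOn (X.r P₀) f) :
    X.RegularOn (X.r P₀) (g⁻¹ • f) := fun P hP =>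
  (goodp_inv_smul_mem_place_iff g P f).mpr (hf (g • P) (hg.r_smul_eq_of_mem_disc h₀ hP))

/-- `g` preserves the kernel of `ρ`. -/
theorem ρ_smul_eq_zero (hg : IsDeckAut X g) {f : 𝔽} (hf : f ∈ X.W) (hgf : g • f ∈ X.W)
    (h0 : X.ρ ⟨f, hf⟩ = 0) : X.ρ ⟨g • f, hgf⟩ = 0 := by
  by_contra hne
  have hgf0 : g • f ≠ 0 := X.ρ_ne_zero_imp_ne_zero hgf hne
  have hf0 : f ≠ 0 := by
    rintro rfl
    exact hgf0 (smul_zero g)
  have hinv : (g • f)⁻¹ ∈ X.W := (X.inv_mem_W_iff hgf hgf0).mpr hne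
  have hinv' : f⁻¹ ∈ X.W := by
    have : g • f⁻¹ = (g • f)⁻¹ := smul_inv'' g f
    rw [← hg.smul_mem, this]
    exact hinv
  exact (X.inv_mem_W_iff hf hf0).mp hinv' h0

/-- **rigidity on the special fibre**: let the residue disc of `P₀` be `g`-stable, `t` a coordinate
on it with `ρ (g⁻¹ • t - t) = 0`.  Then `g⁻¹` acts trivially on the reduced function field. -/
theorem ρ_inv_smul_eq_of_coord (hg : IsDeckAut X g) {P₀ : Place Ω 𝔽}
    (h₀ : X.r (g • P₀) = X.r P₀) {t : 𝔽} (ht : IsDiscCoord X (X.r P₀) t)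
    (hgt : g⁻¹ • t ∈ X.W) (h0 : X.ρ ⟨g⁻¹ • t, hgt⟩ = X.ρ ⟨t, ht.mem⟩) (f : ↥X.W)
    (hgf : g⁻¹ • (f : 𝔽) ∈ X.W) : X.ρ ⟨g⁻¹ • (f : 𝔽), hgf⟩ = X.ρ f := by
  set Q := X.r P₀ with hQ
  have hgi := hg.inv
  -- `g⁻¹` maps the local ring at `Q` to itself
  have hloc : ∀ (f : ↥X.W) (hgf : g⁻¹ • (f : 𝔽) ∈ X.W),
      X.ρ ⟨g⁻¹ • (f : 𝔽), hgf⟩ ∈ Q.toValuationSubring ↔ X.ρ f ∈ Q.toValuationSubring := by
    intro f hgf
    have h1 := hgi.r_smul P₀ f hgf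
    have h2 : X.r (g⁻¹ • P₀) = Q := hg.r_inv_smul_eq_of_mem_disc h₀ rfl
    rw [h2] at h1
    exact h1
  set tb : 𝔽b := X.ρ ⟨t, ht.mem⟩ with htb
  have htb0 : tb ≠ 0 := ht.ρ_ne_zero
  -- the key induction
  have key : ∀ n : ℕ, ∀ (f : ↥X.W) (hgf : g⁻¹ • (f : 𝔽) ∈ X.W),
      X.ρ f ∈ Q.toValuationSubring →
        OrdGE Q (n : ℤ) (X.ρ ⟨g⁻¹ • (f : 𝔽), hgf⟩ - X.ρ f) := by
    intro n
    induction n with
    | zero =>
      intro f hgf hf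
      rw [Nat.cast_zero, ordGE_zero_iff_mem]
      exact sub_mem ((hloc f hgf).mpr hf) hf
    | succ n ih =>
      intro f hgf hf
      -- `ρ f = c̄ + t̄ f̄₁`
      obtain ⟨cb, hcb⟩ := exists_const_sub_ordGE_one Q (X.deg_red Q) hf
      obtain ⟨c, rfl⟩ := IsLocalRing.residue_surjective (R := ↥A) cb
      set f1b : 𝔽b := (X.ρ f - algebraMap (ResidueField ↥A) 𝔽b (residue ↥A c)) / tb with hf1b
      have hf1b_mem : f1b ∈ Q.toValuationSubring := by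
        rw [← ordGE_zero_iff_mem]
        rcases hcb with h | h
        · left
          rw [hf1b, h, zero_div]
        · right
          have hne : X.ρ f - algebraMap (ResidueField ↥A) 𝔽b (residue ↥A c) ≠ 0 := by
            intro h0
            rw [h0, Place.ord_zero] at h
            omega
          rw [hf1b, PlaceAux.ord_div Q hne htb0, ht.ord]
          omega
      obtain ⟨f1, hf1⟩ := X.ρ_surjective f1b
      -- `m = f - c - t f₁ ∈ ker ρ`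
      have hcW : algebraMap Ω 𝔽 (c : Ω) ∈ X.W := X.algebraMap_mem_W c.2
      set m : ↥X.W := f - ⟨algebraMap Ω 𝔽 (c : Ω), hcW⟩ - ⟨t, ht.mem⟩ * f1 with hm
      have hρm : X.ρ m = 0 := by
        rw [hm, map_sub, map_sub, map_mul, X.ρ_const, hf1, ← htb, hf1b, mul_div_cancel₀ _ htb0,
          sub_self]
      have hgf1 : g⁻¹ • (f1 : 𝔽) ∈ X.W := (hgi.smul_mem _).mpr f1.2
      have hgm : g⁻¹ • (m : 𝔽) ∈ X.W := (hgi.smul_mem _).mpr m.2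
      have hρgm : X.ρ ⟨g⁻¹ • (m : 𝔽), hgm⟩ = 0 := hgi.ρ_smul_eq_zero m.2 hgm hρm
      -- `g⁻¹ f - f = (g⁻¹ t - t) g⁻¹ f₁ + t (g⁻¹ f₁ - f₁) + (g⁻¹ m - m)`
      have hdecomp : (⟨g⁻¹ • (f : 𝔽), hgf⟩ : ↥X.W) - f
          = (⟨g⁻¹ • t, hgt⟩ - ⟨t, ht.mem⟩) * ⟨g⁻¹ • (f1 : 𝔽), hgf1⟩
            + ⟨t, ht.mem⟩ * (⟨g⁻¹ • (f1 : 𝔽), hgf1⟩ - f1) + (⟨g⁻¹ • (m : 𝔽), hgm⟩ - m) := by
        apply Subtype.ext
        have hfm : (f : 𝔽) = (m : 𝔽) + algebraMap Ω 𝔽 (c : Ω) + t * (f1 : 𝔽) := by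
          rw [hm]
          push_cast
          ring
        show g⁻¹ • (f : 𝔽) - (f : 𝔽) = (g⁻¹ • t - t) * (g⁻¹ • (f1 : 𝔽))
          + t * (g⁻¹ • (f1 : 𝔽) - (f1 : 𝔽)) + (g⁻¹ • (m : 𝔽) - (m : 𝔽))
        conv_lhs => rw [hfm]
        rw [smul_add, smul_add, smul_mul', hgi.smul_algebraMap]
        ring
      have hρ : X.ρ ⟨g⁻¹ • (f : 𝔽), hgf⟩ - X.ρ f
          = tb * (X.ρ ⟨g⁻¹ • (f1 : 𝔽), hgf1⟩ - X.ρ f1) := by
        rw [← map_sub, hdecomp, map_add, map_add, map_mul, map_mul, map_sub, map_sub, map_sub, h0,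
          sub_self, zero_mul, zero_add, hρgm, hρm, sub_self, add_zero]
      rw [hρ]
      have h1 : OrdGE Q (1 : ℤ) tb := Or.inr (by rw [ht.ord])
      have h2 := ih f1 hgf1 (by rw [hf1]; exact hf1b_mem)
      have := h1.mul h2
      rw [add_comm] at this
      exact_mod_cast this
  -- conclusion
  have hreg : ∀ (f : ↥X.W) (hgf : g⁻¹ • (f : 𝔽) ∈ X.W), X.ρ f ∈ Q.toValuationSubring →
      X.ρ ⟨g⁻¹ • (f : 𝔽), hgf⟩ = X.ρ f := by
    intro f hgf hf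
    by_contra hne
    have hne' : X.ρ ⟨g⁻¹ • (f : 𝔽), hgf⟩ - X.ρ f ≠ 0 := sub_ne_zero.mpr hne
    obtain ⟨n, hn⟩ : ∃ n : ℕ, Q.ord (X.ρ ⟨g⁻¹ • (f : 𝔽), hgf⟩ - X.ρ f) < n := by
      refine ⟨(Q.ord (X.ρ ⟨g⁻¹ • (f : 𝔽), hgf⟩ - X.ρ f)).toNat + 1, ?_⟩
      have := Int.self_le_toNat (Q.ord (X.ρ ⟨g⁻¹ • (f : 𝔽), hgf⟩ - X.ρ f))
      push_cast
      omega
    have := (key n f hgf hf).resolve_left hne'
    omega
  by_cases hf : X.ρ f ∈ Q.toValuationSubring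
  · exact hreg f hgf hf
  · -- `ρ f` has a pole at `Q`: pass to the inverse
    have hf0 : X.ρ f ≠ 0 := fun h => hf (h ▸ Q.toValuationSubring.zero_mem)
    have hfF0 : (f : 𝔽) ≠ 0 := X.ρ_ne_zero_imp_ne_zero f.2 hf0
    have hinvW : (f : 𝔽)⁻¹ ∈ X.W := (X.inv_mem_W_iff f.2 hfF0).mpr hf0
    have hρinv : X.ρ ⟨(f : 𝔽)⁻¹, hinvW⟩ = (X.ρ f)⁻¹ := by
      have h1 : (⟨(f : 𝔽)⁻¹, hinvW⟩ : ↥X.W) * f = 1 := Subtype.ext (inv_mul_cancel₀ hfF0)
      have h2 := congrArg X.ρ h1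
      rw [map_mul, map_one] at h2
      exact eq_inv_of_mul_eq_one_left h2
    have hinv_mem : X.ρ ⟨(f : 𝔽)⁻¹, hinvW⟩ ∈ Q.toValuationSubring := by
      rw [hρinv]
      exact (Q.toValuationSubring.mem_or_inv_mem (X.ρ f)).resolve_left hf
    have hginv : g⁻¹ • (f : 𝔽)⁻¹ ∈ X.W := (hgi.smul_mem _).mpr hinvW
    have h3 := hreg ⟨(f : 𝔽)⁻¹, hinvW⟩ hginv hinv_mem
    -- `ρ (g⁻¹ f) · ρ (g⁻¹ f⁻¹) = 1`
    have h4 : (⟨g⁻¹ • (f : 𝔽), hgf⟩ : ↥X.W) * ⟨g⁻¹ • (f : 𝔽)⁻¹, hginv⟩ = 1 := by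
      apply Subtype.ext
      show g⁻¹ • (f : 𝔽) * g⁻¹ • (f : 𝔽)⁻¹ = 1
      rw [← smul_mul', mul_inv_cancel₀ hfF0, smul_one]
    have h5 := congrArg X.ρ h4
    rw [map_mul, map_one, h3, hρinv] at h5
    have h6 : X.ρ ⟨g⁻¹ • (f : 𝔽), hgf⟩ = ((X.ρ f)⁻¹)⁻¹ := eq_inv_of_mul_eq_one_left h5
    rw [h6, inv_inv]

/-- **faithfulness on the special fibre gives non-degeneracy on every stable disc**: if `g⁻¹`
moves some reduced function, the disc of `P₀` is `g`-stable and `t` is a coordinate on it, then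
`ρ (g⁻¹ • t - t) ≠ 0`. -/
theorem ρ_inv_smul_sub_ne_zero (hg : IsDeckAut X g)
    (hfaith : ∃ (f : ↥X.W) (hgf : g⁻¹ • (f : 𝔽) ∈ X.W), X.ρ ⟨g⁻¹ • (f : 𝔽), hgf⟩ ≠ X.ρ f)
    {P₀ : Place Ω 𝔽} (h₀ : X.r (g • P₀) = X.r P₀) {t : 𝔽} (ht : IsDiscCoord X (X.r P₀) t)
    (hu : g⁻¹ • t - t ∈ X.W) : X.ρ ⟨g⁻¹ • t - t, hu⟩ ≠ 0 := by
  intro h0
  obtain ⟨f, hgf, hne⟩ := hfaith
  have hgt : g⁻¹ • t ∈ X.W := (hg.inv.smul_mem _).mpr ht.mem
  apply hne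
  refine hg.ρ_inv_smul_eq_of_coord h₀ ht hgt ?_ f hgf
  have : (⟨g⁻¹ • t - t, hu⟩ : ↥X.W) = ⟨g⁻¹ • t, hgt⟩ - ⟨t, ht.mem⟩ := rfl
  rw [this, map_sub, sub_eq_zero] at h0
  exact h0

end IsDeckAut

end Fermat.Agent.MW

end
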