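/-
MW (S17) — helper3 — [GOOD-P], part 5: **the fixed-point formula for a deck automorphism.**

* `goodp_ord_smul_sub_eq_one` (characteristic `0`): an automorphism of finite order of a function field
  which fixes a rational place `Z` and moves a uniformizer `s` at `Z` satisfies
  `ord_Z (σ • s - s) = 1` (it acts on the cotangent line through a root of unity `≠ 1`).
* `locDist_smul_eq_prod` : for a deck automorphism `g` of finite order of a good-reduction datum
  which acts non-trivially on the reduced function field, and a point `P₀` with `g • P₀ ≠ P₀`: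
  `locDist (g • P₀, P₀) = ∏_{Z fixed by g} locDist (Z, P₀)`
  ("the graph of `g` meets the diagonal exactly in the fixed sections, transversally").
  This is the relative different of a Galois cover of curves with good reduction.
-/
import Mathlib
import Fermat.Agent.MW.GOODP_helper3_Aut

set_option autoImplicit false
set_option linter.unusedSectionVars false
set_option linter.style.haveILetI false

noncomputable section

namespace Fermat.Agent.MW

open AlgebraicCurve IsLocalRing Fermat.Agent.FF Fermat.Agent.JA Fermat.Agent.FG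
open scoped Classical Pointwise

section Unipotent

variable {K F : Type*} [Field K] [Field F] [Algebra K F]

theorem goodp_ord_smul_of_fixed (σ : SemilinearAut K F) {Z : Place K F} (hZ : σ • Z = Z) (h : F) :
    Z.ord (σ • h) = Z.ord h := by
  have := SemilinearAut.ord_smul σ Z h
  rwa [hZ] at this

theorem goodp_ordGE_smul_of_fixed (σ : SemilinearAut K F) {Z : Place K F} (hZ : σ • Z = Z) {k : ℤ}
    {h : F} (hh : OrdGE Z k h) : OrdGE Z k (σ • h) := by
  rcases hh with rfl | hh
  · left; exact smul_zero σ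
  · right; rw [goodp_ord_smul_of_fixed σ hZ]; exact hh

theorem goodp_ordGE_sub {v : Place K F} {n : ℤ} {f g : F} (hf : OrdGE v n f) (hg : OrdGE v n g) :
    OrdGE v n (f - g) := by
  rw [sub_eq_add_neg]
  exact hf.add hg.neg

theorem goodp_ordGE_sum {v : Place K F} {n : ℤ} {ι : Type*} (s : Finset ι) (f : ι → F)
    (h : ∀ i ∈ s, OrdGE v n (f i)) : OrdGE v n (∑ i ∈ s, f i) := by
  induction s using Finset.induction_on with
  | empty => left; simp
  | insert a s ha ih =>
    rw [Finset.sum_insert ha]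
    exact (h a (Finset.mem_insert_self a s)).add (ih fun i hi => h i (Finset.mem_insert_of_mem hi))

theorem goodp_ordGE_pow {v : Place K F} {n : ℤ} {f : F} (hf : OrdGE v n f) (k : ℕ) :
    OrdGE v (k * n) (f ^ k) := by
  rcases hf with rfl | hf
  · rcases Nat.eq_zero_or_pos k with rfl | hk
    · right; simp
    · left; exact zero_pow hk.ne'
  · right
    rw [PlaceAux.ord_pow]
    exact mul_le_mul_of_nonneg_left hf (Int.natCast_nonneg k)

theorem goodp_ordGE_natCast (v : Place K F) (j : ℕ) : OrdGE v 0 ((j : F)) := by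
  have : ((j : F)) = algebraMap K F (j : K) := by simp
  rw [this, ordGE_zero_iff_mem]
  exact v.algebraMap_mem' _

variable (σ : SemilinearAut K F) (hσ : ∀ a : K, SemilinearAut.baseAut σ a = a)
  {Z : Place K F} (hZ : σ • Z = Z) (hdeg : Z.deg = 1)

include hσ hZ hdeg in
/-- `σ - 1` raises the order at a fixed rational place by one on the local ring. -/
theorem goodp_ordGE_smul_sub_zero {h : F} (hh : OrdGE Z 0 h) : OrdGE Z 1 (σ • h - h) := by
  rw [ordGE_zero_iff_mem] at hh
  obtain ⟨c, hc⟩ := exists_const_sub_ordGE_one Z hdeg hh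
  have e : σ • h - h = σ • (h - algebraMap K F c) - (h - algebraMap K F c) := by
    rw [smul_sub, SemilinearAut.smul_algebraMap, hσ]
    ring
  rw [e]
  have h1 : OrdGE Z 1 (h - algebraMap K F c) := hc
  exact goodp_ordGE_sub (goodp_ordGE_smul_of_fixed σ hZ h1) h1

include hσ hZ hdeg in
/-- if `σ` acts trivially on the cotangent line at the fixed place `Z` then `σ - 1` raises the
order by one everywhere. -/
theorem goodp_ordGE_smul_sub_of_unipotent {s : F} (hs : Z.ord s = 1) (hu : OrdGE Z 2 (σ • s - s))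
    (k : ℕ) {h : F} (hh : OrdGE Z k h) : OrdGE Z (k + 1) (σ • h - h) := by
  rcases eq_or_ne h 0 with rfl | h0
  · left; rw [smul_zero, sub_zero]
  have hs0 : s ≠ 0 := by
    rintro rfl
    rw [Place.ord_zero] at hs
    exact zero_ne_one hs
  have hk := hh.resolve_left h0
  set h₀ : F := h / s ^ k with hh₀
  have hsk0 : s ^ k ≠ 0 := pow_ne_zero _ hs0
  have hh₀0 : h₀ ≠ 0 := div_ne_zero h0 hsk0
  have hordh₀ : OrdGE Z 0 h₀ := by
    right
    rw [hh₀, PlaceAux.ord_div Z h0 hsk0, PlaceAux.ord_pow, hs]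
    omega
  have hh : h = s ^ k * h₀ := by rw [hh₀]; field_simp
  have e : σ • h - h = ((σ • s) ^ k - s ^ k) * σ • h₀ + s ^ k * (σ • h₀ - h₀) := by
    conv_lhs => rw [hh]
    rw [smul_mul', smul_pow']
    ring
  rw [e]
  have h1 : OrdGE Z ((k : ℤ) * 1) (s ^ k) := goodp_ordGE_pow (Or.inr (by rw [hs])) k
  have h2 : OrdGE Z 1 (σ • h₀ - h₀) := goodp_ordGE_smul_sub_zero σ hσ hZ hdeg hordh₀
  have h3 := h1.mul h2
  have hσs : OrdGE Z 1 (σ • s) := Or.inr (by rw [goodp_ord_smul_of_fixed σ hZ, hs])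
  have h4 : OrdGE Z ((k : ℤ) + 1) (((σ • s) ^ k - s ^ k) * σ • h₀) := by
    rcases Nat.eq_zero_or_pos k with rfl | hkpos
    · left; simp
    have hgeom : (σ • s) ^ k - s ^ k
        = (∑ i ∈ Finset.range k, (σ • s) ^ i * s ^ (k - 1 - i)) * (σ • s - s) :=
      (Commute.all (σ • s) s).geom_sum₂_mul k |>.symm
    rw [hgeom]
    have hsum : OrdGE Z ((k : ℤ) - 1) (∑ i ∈ Finset.range k, (σ • s) ^ i * s ^ (k - 1 - i)) := by
      refine goodp_ordGE_sum _ _ fun i hi => ?_
      have hi' : i < k := Finset.mem_range.mp hi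
      have a1 : OrdGE Z ((i : ℤ) * 1) ((σ • s) ^ i) := goodp_ordGE_pow hσs i
      have a2 : OrdGE Z (((k - 1 - i : ℕ) : ℤ) * 1) (s ^ (k - 1 - i)) :=
        goodp_ordGE_pow (Or.inr (by rw [hs])) _
      have := a1.mul a2
      refine this.mono ?_
      have : ((k - 1 - i : ℕ) : ℤ) = (k : ℤ) - 1 - i := by omega
      rw [this]
      omega
    have := (hsum.mul hu).mul (goodp_ordGE_smul_of_fixed σ hZ hordh₀)
    refine this.mono ?_
    omega
  have h3' : OrdGE Z ((k : ℤ) + 1) (s ^ k * (σ • h₀ - h₀)) := h3.mono (by omega)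
  exact h4.add h3'

include hσ hZ hdeg in
/-- **finite-order automorphisms in characteristic zero act faithfully on the cotangent line at a
fixed rational place**: if `σ ^ m = 1`, `m ≥ 1`, `σ • Z = Z`, `s` is a uniformizer at `Z` and
`σ • s ≠ s`, then `ord_Z (σ • s - s) = 1`. -/
theorem goodp_ord_smul_sub_eq_one [CharZero K] {m : ℕ} (hm : 0 < m) (hσm : σ ^ m = 1) {s : F}
    (hs : Z.ord s = 1) (hne : σ • s - s ≠ 0) : Z.ord (σ • s - s) = 1 := by
  set u : F := σ • s - s with hu
  have hs1 : OrdGE Z 1 s := Or.inr (by rw [hs])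
  have hge1 : OrdGE Z 1 u := goodp_ordGE_sub (goodp_ordGE_smul_of_fixed σ hZ hs1) hs1
  have h1 : 1 ≤ Z.ord u := hge1.resolve_left hne
  by_contra hcon
  have h2 : 2 ≤ Z.ord u := by omega
  obtain ⟨K', hK'⟩ : ∃ K' : ℕ, Z.ord u = K' := ⟨(Z.ord u).toNat, by omega⟩
  have hK2 : 2 ≤ K' := by omega
  have hu2 : OrdGE Z 2 u := Or.inr h2
  have huK : OrdGE Z (K' : ℤ) u := Or.inr (by omega)
  -- `σ^j s - s - j u` has order `≥ K' + 1`
  have key : ∀ j : ℕ, OrdGE Z ((K' : ℤ) + 1) ((σ ^ j) • s - s - (j : F) * u) := by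
    intro j
    induction j with
    | zero => left; simp
    | succ j ih =>
      have e : (σ ^ (j + 1)) • s - s - ((j + 1 : ℕ) : F) * u
          = σ • ((σ ^ j) • s - s - (j : F) * u) + (j : F) * (σ • u - u) := by
        have hj : σ • ((j : F)) = (j : F) := by
          have : ((j : F)) = algebraMap K F (j : K) := by simp
          rw [this, SemilinearAut.smul_algebraMap, hσ]
        rw [pow_succ', mul_smul, smul_sub, smul_sub, smul_mul', hj, hu]
        push_cast
        ring
      rw [e]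
      have a1 := goodp_ordGE_smul_of_fixed σ hZ ih
      have a2 : OrdGE Z ((K' : ℤ) + 1) (σ • u - u) :=
        goodp_ordGE_smul_sub_of_unipotent σ hσ hZ hdeg hs hu2 K' huK
      have a3 := (goodp_ordGE_natCast Z j).mul a2
      rw [zero_add] at a3
      exact a1.add a3
  have hfin := key m
  rw [hσm, one_smul, sub_self, zero_sub] at hfin
  have hmF : ((m : F)) ≠ 0 := by
    have : ((m : F)) = algebraMap K F (m : K) := by simp
    rw [this]
    exact (map_ne_zero _).mpr (Nat.cast_ne_zero.mpr hm.ne')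
  have hmu : -((m : F) * u) ≠ 0 := neg_ne_zero.mpr (mul_ne_zero hmF hne)
  have h3 := hfin.resolve_left hmu
  have hordm : Z.ord ((m : F)) = 0 := by
    have : ((m : F)) = algebraMap K F (m : K) := by simp
    rw [this]
    exact PlaceAux.ord_algebraMap Z _
  have h4 : Z.ord (-((m : F) * u)) = Z.ord u := by
    have : -((m : F) * u) = (-1 : F) * ((m : F) * u) := by ring
    have hneg1 : Z.ord (-1 : F) = 0 := by
      have : (-1 : F) = algebraMap K F (-1 : K) := by simp
      rw [this]
      exact PlaceAux.ord_algebraMap Z _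
    rw [this, Z.ord_mul (by norm_num) (mul_ne_zero hmF hne), Z.ord_mul hmF hne, hneg1, hordm]
    ring
  rw [h4] at h3
  omega

end Unipotent

variable {Ω : Type*} [Field Ω] {A : ValuationSubring Ω} {𝔽 : Type*} [Field 𝔽] [Algebra Ω 𝔽]
  {𝔽b : Type*} [Field 𝔽b] [Algebra (ResidueField ↥A) 𝔽b] {X : GoodRed Ω A 𝔽 𝔽b}
  {Γ₀ : Type*} [LinearOrderedCommGroupWithZero Γ₀] {v : Valuation Ω Γ₀}

/-- **THE FIXED-POINT FORMULA.**  Let `g` be a deck automorphism of finite order of the
good-reduction datum acting non-trivially on the reduced function field, `Fix` its set of fixed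
points.  For every point `P₀` not fixed by `g`:
`locDist (g • P₀, P₀) = ∏_{Z ∈ Fix} locDist (Z, P₀)`. -/
theorem locDist_smul_eq_prod [CharZero Ω] (hv : v.valuationSubring = A)
    {g : SemilinearAut Ω 𝔽} (hg : IsDeckAut X g) {m : ℕ} (hm : 0 < m) (hgm : g ^ m = 1)
    (hfaith : ∃ (f : ↥X.W) (hgf : g⁻¹ • (f : 𝔽) ∈ X.W), X.ρ ⟨g⁻¹ • (f : 𝔽), hgf⟩ ≠ X.ρ f)
    (Fix : Finset (Place Ω 𝔽)) (hFix : ∀ Z, Z ∈ Fix ↔ g • Z = Z) {P₀ : Place Ω 𝔽}
    (hP₀ : g • P₀ ≠ P₀) :
    locDist X v (g • P₀) P₀ = ∏ Z ∈ Fix, locDist X v Z P₀ := by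
  by_cases h₀ : X.r (g • P₀) = X.r P₀
  swap
  · -- different discs: both sides are `1`
    rw [locDist_of_ne h₀]
    symm
    refine Finset.prod_eq_one fun Z hZ => locDist_of_ne fun hr => h₀ ?_
    have h1 := hg.r_eq_of_r_eq hr
    rw [(hFix Z).mp hZ] at h1
    rw [← h1, hr]
  -- the same disc
  set t := discCoord X (X.r P₀) with ht
  have hc : IsDiscCoord X (X.r P₀) t := isDiscCoord_discCoord X (X.r P₀)
  have hgi := hg.inv
  have hgt : g⁻¹ • t ∈ X.W := (hgi.smul_mem _).mpr hc.mem
  have huW : g⁻¹ • t - t ∈ X.W := sub_mem hgt hc.mem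
  set u : 𝔽 := g⁻¹ • t - t with hu
  have hρu : X.ρ ⟨u, huW⟩ ≠ 0 := hg.ρ_inv_smul_sub_ne_zero hfaith h₀ hc huW
  have hu0 : u ≠ 0 := X.ρ_ne_zero_imp_ne_zero huW hρu
  have huW' : u⁻¹ ∈ X.W := (X.inv_mem_W_iff huW hu0).mpr hρu
  have hureg : X.RegularOn (X.r P₀) u := fun P hP =>
    sub_mem (hg.regularOn_inv_smul h₀ hc.regular P hP) (hc.regular P hP)
  -- values of `u` on the disc
  have hval : ∀ P : Place Ω 𝔽, X.r P = X.r P₀ →
      HasValueAt P u (valueAt (g • P) t - valueAt P t) := fun P hP =>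
    (hg.hasValueAt_inv_smul (hc.hasValueAt_valueAt (hg.r_smul_eq_of_mem_disc h₀ hP))).sub
      (hc.hasValueAt_valueAt hP)
  -- zeros of `u` on the disc are the fixed points, and they are simple
  have hzero : ∀ P : Place Ω 𝔽, X.r P = X.r P₀ → (0 < P.ord u ↔ g • P = P) := by
    intro P hP
    constructor
    · intro hpos
      have h1 : HasValueAt P u 0 := HasValueAt.zero_iff.mpr (Or.inr hpos)
      have h2 := (hval P hP).unique h1
      rw [sub_eq_zero] at h2
      have h3 := hc.hasValueAt_valueAt (hg.r_smul_eq_of_mem_disc h₀ hP)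
      rw [h2] at h3
      exact hc.eq_of_value_eq (hg.r_smul_eq_of_mem_disc h₀ hP) hP h3 (hc.hasValueAt_valueAt hP)
    · intro hfix
      have h1 := hval P hP
      rw [hfix, sub_self] at h1
      exact (HasValueAt.zero_iff.mp h1).resolve_left hu0
  have hsimple : ∀ P : Place Ω 𝔽, X.r P = X.r P₀ → g • P = P → P.ord u = 1 := by
    intro P hP hfix
    have hfix' : g⁻¹ • P = P := by
      conv_lhs => rw [← hfix]
      exact inv_smul_smul g P
    have hvP := hc.hasValueAt_valueAt hP
    set s : 𝔽 := t - algebraMap Ω 𝔽 (valueAt P t) with hs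
    have hsord : P.ord s = 1 := hc.ord_sub_self hP hvP
    have hus : u = g⁻¹ • s - s := by
      rw [hu, hs, smul_sub, hgi.smul_algebraMap]
      ring
    have hgm' : g⁻¹ ^ m = 1 := by rw [inv_pow, hgm, inv_one]
    rw [hus]
    exact goodp_ord_smul_sub_eq_one g⁻¹ hgi.base hfix' (X.deg_gen P) hm hgm' hsord (by rw [← hus]; exact hu0)
  -- the main formula for `u` at `P₀`
  obtain ⟨D, hD⟩ := X.exists_div u hu0
  have hb := hval P₀ rfl
  have hbne : valueAt (g • P₀) t - valueAt P₀ t ≠ 0 :=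
    hc.value_sub_ne_zero h₀ rfl hP₀ (hc.hasValueAt_valueAt h₀) (hc.hasValueAt_valueAt rfl)
  have hord0 : P₀.ord u = 0 := (hb.ord_eq_zero hbne).2
  have hmain := valuation_value_eq_gaussNorm_mul_prod (X := X) hv hu0 D hD hord0 hb
  rw [gaussNorm_eq_one hv hu0 huW huW', one_mul] at hmain
  rw [locDist_eq hv hc h₀ rfl (hc.hasValueAt_valueAt h₀) (hc.hasValueAt_valueAt rfl), hmain]
  -- compare the two products
  have hL : ∏ P ∈ D.support, locDist X v P P₀ ^ D P
      = ∏ P ∈ D.support.filter (fun P => X.r P = X.r P₀), locDist X v P P₀ := by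
    rw [Finset.prod_filter]
    refine Finset.prod_congr rfl fun P hP => ?_
    split_ifs with hr
    · have hne0 : P.ord u ≠ 0 := by
        rw [← hD]; exact Finsupp.mem_support_iff.mp hP
      have hge : 0 ≤ P.ord u := hureg.ord_nonneg X hr
      have hfix : g • P = P := (hzero P hr).mp (lt_of_le_of_ne hge (Ne.symm hne0))
      rw [hD, hsimple P hr hfix, zpow_one]
    · rw [locDist_of_ne hr, one_zpow]
  have hR : ∏ Z ∈ Fix, locDist X v Z P₀
      = ∏ Z ∈ Fix.filter (fun P => X.r P = X.r P₀), locDist X v Z P₀ := by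
    rw [Finset.prod_filter]
    refine Finset.prod_congr rfl fun Z _ => ?_
    split_ifs with hr
    · rfl
    · exact locDist_of_ne hr
  rw [hL, hR]
  congr 1
  ext P
  simp only [Finset.mem_filter, Finsupp.mem_support_iff]
  constructor
  · rintro ⟨hne0, hr⟩
    refine ⟨(hFix P).mpr ?_, hr⟩
    rw [hD] at hne0
    have hge : 0 ≤ P.ord u := hureg.ord_nonneg X hr
    exact (hzero P hr).mp (lt_of_le_of_ne hge (Ne.symm hne0))
  · rintro ⟨hfix, hr⟩
    refine ⟨?_, hr⟩
    rw [hD, hsimple P hr ((hFix P).mp hfix)]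
    exact one_ne_zero

end Fermat.Agent.MW

end
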