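/-
MW (S17) — helper3 — [GOOD-P], part 10: **the different of a Galois cover at a place of good
reduction.**

`G` a finite group of deck automorphisms of the good-reduction datum `X` of the host, acting
faithfully on the reduced function field.

* `IsDeckGroup.finite_fix` : a non-trivial element has finitely many fixed points;
* `ramDiv` : the ramification divisor `∑_Z (|Stab Z| - 1) Z`;
* `sum_hostGreen_smul_eq` : **the different identity** — for a point `Q'` with trivial stabiliser
  `∑_{g ≠ 1} G(g Q', Q') = ∑_Z (|Stab Z| - 1) G(Z, Q')`.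
-/
import Mathlib
import Fermat.Agent.MW.GOODP_helper3_Fix
import Fermat.Agent.MW.GOODP_helper3_Desc

set_option autoImplicit false
set_option linter.unusedSectionVars false
set_option linter.style.haveILetI false

noncomputable section

namespace Fermat.Agent.MW

open AlgebraicCurve IsLocalRing Fermat.Agent.FF Fermat.Agent.JA Fermat.Agent.FG
open scoped Classical NNReal Pointwise

variable {Ω : Type*} [Field Ω] {A : ValuationSubring Ω} {E : Type*} [Field E] [Algebra Ω E]
  {𝔽b : Type*} [Field 𝔽b] [Algebra (ResidueField ↥A) 𝔽b] (X : GoodRed Ω A E 𝔽b)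
  (G : Subgroup (SemilinearAut Ω E))

/-- **a group of deck automorphisms** of the good-reduction datum, acting faithfully on the
reduced function field. -/
structure IsDeckGroup : Prop where
  deck : ∀ g ∈ G, IsDeckAut X g
  faith : ∀ g ∈ G, g ≠ 1 → ∃ (f : ↥X.W) (hgf : g⁻¹ • (f : E) ∈ X.W),
    X.ρ ⟨g⁻¹ • (f : E), hgf⟩ ≠ X.ρ f

variable {X G}

/-- a non-trivial deck automorphism has finitely many fixed points. -/
theorem IsDeckGroup.finite_fix (hG : IsDeckGroup X G) {g : SemilinearAut Ω E} (hg : g ∈ G)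
    (hg1 : g ≠ 1) : {Z : Place Ω E | g • Z = Z}.Finite := by
  obtain ⟨f, hgf, hne⟩ := hG.faith g hg hg1
  have hdeck := hG.deck g hg
  have hf0 : (f : E) ≠ 0 := by
    intro h0
    apply hne
    have e1 : (⟨g⁻¹ • (f : E), hgf⟩ : ↥X.W) = f := by
      apply Subtype.ext
      show g⁻¹ • (f : E) = (f : E)
      rw [h0, smul_zero]
    rw [e1]
  set h : E := g⁻¹ • (f : E) - (f : E) with hh
  have hh0 : h ≠ 0 := by
    intro h0
    apply hne
    have e1 : (⟨g⁻¹ • (f : E), hgf⟩ : ↥X.W) = f := Subtype.ext (sub_eq_zero.mp h0)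
    rw [e1]
  obtain ⟨Df, hDf⟩ := X.exists_div (f : E) hf0
  obtain ⟨Dh, hDh⟩ := X.exists_div h hh0
  apply Set.Finite.subset (Df.support ∪ Dh.support).finite_toSet
  intro Z hZ
  change g • Z = Z at hZ
  rw [Finset.mem_coe, Finset.mem_union, Finsupp.mem_support_iff, Finsupp.mem_support_iff]
  by_cases hreg : (f : E) ∈ Z.toValuationSubring
  · right
    obtain ⟨c, hc⟩ := HasValueAt.exists_of_mem (X.deg_gen Z) hreg
    have hc' : HasValueAt (g • Z) (f : E) c := by rw [hZ]; exact hc
    have h1 := (hdeck.hasValueAt_inv_smul hc').sub hc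
    rw [sub_self] at h1
    rw [hDh Z]
    rcases HasValueAt.zero_iff.mp h1 with h0 | hpos
    · exact absurd h0 hh0
    · exact hpos.ne'
  · left
    rw [hDf Z]
    intro h0
    exact hreg ((PlaceAux.mem_iff_ord_nonneg' Z hf0).mpr h0.ge)

variable [Fintype G]

variable (G) in
/-- the order of the stabiliser of a point. -/
def stabCard (W : Place Ω E) : ℕ :=
  (Finset.univ.filter (fun g : G => (g : SemilinearAut Ω E) • W = W)).card

theorem stabCard_pos (W : Place Ω E) : 0 < stabCard G W :=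
  Finset.card_pos.mpr ⟨1, Finset.mem_filter.mpr ⟨Finset.mem_univ _, one_smul _ W⟩⟩

theorem goodp_coe_ne_one {g : G} (hg : g ≠ 1) : (g : SemilinearAut Ω E) ≠ 1 := fun h =>
  hg (Subtype.ext h)

/-- the ramification locus: the points with non-trivial stabiliser. -/
def ramLocus (hG : IsDeckGroup X G) : Finset (Place Ω E) :=
  Finset.univ.biUnion (fun g : G =>
    if h : g = 1 then ∅ else (hG.finite_fix g.2 (goodp_coe_ne_one h)).toFinset)

theorem mem_ramLocus_iff (hG : IsDeckGroup X G) (W : Place Ω E) :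
    W ∈ ramLocus hG ↔ ∃ g : G, g ≠ 1 ∧ (g : SemilinearAut Ω E) • W = W := by
  rw [ramLocus, Finset.mem_biUnion]
  constructor
  · rintro ⟨g, -, hW⟩
    by_cases h : g = 1
    · rw [dif_pos h] at hW
      exact absurd hW (Finset.notMem_empty W)
    · rw [dif_neg h, Set.Finite.mem_toFinset] at hW
      exact ⟨g, h, hW⟩
  · rintro ⟨g, h, hW⟩
    refine ⟨g, Finset.mem_univ _, ?_⟩
    rw [dif_neg h, Set.Finite.mem_toFinset]
    exact hW

theorem one_lt_stabCard_iff (hG : IsDeckGroup X G) (W : Place Ω E) :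
    1 < stabCard G W ↔ W ∈ ramLocus hG := by
  rw [mem_ramLocus_iff, stabCard, Finset.one_lt_card_iff]
  constructor
  · rintro ⟨a, b, ha, hb, hab⟩
    by_cases h1 : a = 1
    · refine ⟨b, fun h => hab (h1.trans h.symm), (Finset.mem_filter.mp hb).2⟩
    · exact ⟨a, h1, (Finset.mem_filter.mp ha).2⟩
  · rintro ⟨g, h1, hW⟩
    exact ⟨g, 1, Finset.mem_filter.mpr ⟨Finset.mem_univ _, hW⟩,
      Finset.mem_filter.mpr ⟨Finset.mem_univ _, one_smul _ W⟩, h1⟩

/-- **the ramification divisor** `∑_Z (|Stab Z| - 1) · Z`. -/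
def ramDiv (hG : IsDeckGroup X G) : Divisor Ω E :=
  Finsupp.onFinset (ramLocus hG) (fun W => (stabCard G W : ℤ) - 1) (by
    intro W hW
    rw [← one_lt_stabCard_iff]
    have := stabCard_pos (G := G) W
    by_contra hle
    apply hW
    have : stabCard G W = 1 := by omega
    rw [this]
    simp)

theorem ramDiv_apply (hG : IsDeckGroup X G) (W : Place Ω E) :
    ramDiv hG W = (stabCard G W : ℤ) - 1 := rfl

theorem ramDiv_support_subset (hG : IsDeckGroup X G) : (ramDiv hG).support ⊆ ramLocus hG :=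
  Finsupp.support_onFinset_subset

variable {v : Valuation Ω ℝ≥0}

/-- the fixed-point formula in logarithmic form. -/
theorem hostGreen_smul_eq_sum [CharZero Ω] (hv : v.valuationSubring = A) (hG : IsDeckGroup X G)
    {g : G} (hg1 : g ≠ 1) {Q' : Place Ω E} (hQ' : (g : SemilinearAut Ω E) • Q' ≠ Q') :
    hostGreen X v ((g : SemilinearAut Ω E) • Q') Q'
      = ∑ Z ∈ ramLocus hG,
          if (g : SemilinearAut Ω E) • Z = Z then hostGreen X v Z Q' else 0 := by
  have hm : 0 < Fintype.card G := Fintype.card_pos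
  have hgm : (g : SemilinearAut Ω E) ^ Fintype.card G = 1 := by
    have := pow_card_eq_one (x := g)
    exact_mod_cast congrArg (Subtype.val) this
  set Fix : Finset (Place Ω E) :=
    (ramLocus hG).filter (fun Z => (g : SemilinearAut Ω E) • Z = Z) with hFixdef
  have hFix : ∀ Z, Z ∈ Fix ↔ (g : SemilinearAut Ω E) • Z = Z := by
    intro Z
    rw [hFixdef, Finset.mem_filter, mem_ramLocus_iff]
    exact ⟨fun h => h.2, fun h => ⟨⟨g, hg1, h⟩, h⟩⟩
  have key := locDist_smul_eq_prod (X := X) hv (hG.deck _ g.2) hm hgm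
    (hG.faith _ g.2 (goodp_coe_ne_one hg1)) Fix hFix hQ'
  rw [← Finset.sum_filter, hostGreen, key, NNReal.coe_prod, Real.log_prod, ← Finset.sum_neg_distrib]
  · rfl
  · intro Z hZ
    have hne : Z ≠ Q' := by
      intro h
      rw [h] at hZ
      exact hQ' ((hFix Q').mp hZ)
    exact_mod_cast locDist_ne_zero hv hne

/-- **THE DIFFERENT IDENTITY**: for a point `Q'` with trivial stabiliser,
`∑_{g ≠ 1} G(g Q', Q') = ∑_Z (|Stab Z| - 1) · G(Z, Q')`. -/
theorem sum_hostGreen_smul_eq [CharZero Ω] (hv : v.valuationSubring = A) (hG : IsDeckGroup X G)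
    {Q' : Place Ω E} (hfree : ∀ g : G, g ≠ 1 → (g : SemilinearAut Ω E) • Q' ≠ Q') :
    ∑ g ∈ Finset.univ.filter (fun g : G => g ≠ 1),
        hostGreen X v ((g : SemilinearAut Ω E) • Q') Q'
      = ∑ Z ∈ (ramDiv hG).support, (ramDiv hG Z : ℝ) * hostGreen X v Z Q' := by
  have h1 : ∀ g ∈ Finset.univ.filter (fun g : G => g ≠ 1),
      hostGreen X v ((g : SemilinearAut Ω E) • Q') Q'
        = ∑ Z ∈ ramLocus hG,
            if (g : SemilinearAut Ω E) • Z = Z then hostGreen X v Z Q' else 0 := by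
    intro g hg
    have hg1 : g ≠ 1 := (Finset.mem_filter.mp hg).2
    exact hostGreen_smul_eq_sum hv hG hg1 (hfree g hg1)
  rw [Finset.sum_congr rfl h1, Finset.sum_comm]
  have h2 : ∑ Z ∈ (ramDiv hG).support, (ramDiv hG Z : ℝ) * hostGreen X v Z Q'
      = ∑ Z ∈ ramLocus hG, (ramDiv hG Z : ℝ) * hostGreen X v Z Q' := by
    apply Finset.sum_subset (ramDiv_support_subset hG)
    intro Z _ hZ
    rw [Finsupp.notMem_support_iff.mp hZ]
    simp
  rw [h2]
  apply Finset.sum_congr rfl
  intro Z _
  rw [← Finset.sum_filter, Finset.sum_const, nsmul_eq_mul, ramDiv_apply]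
  congr 1
  have h3 : (Finset.univ.filter (fun g : G => g ≠ 1)).filter
      (fun g : G => (g : SemilinearAut Ω E) • Z = Z)
      = (Finset.univ.filter (fun g : G => (g : SemilinearAut Ω E) • Z = Z)).erase 1 := by
    ext g
    simp only [Finset.mem_filter, Finset.mem_univ, true_and, Finset.mem_erase]
  have hmem : (1 : G) ∈ Finset.univ.filter (fun g : G => (g : SemilinearAut Ω E) • Z = Z) :=
    Finset.mem_filter.mpr ⟨Finset.mem_univ _, one_smul _ Z⟩
  rw [h3, Finset.card_erase_of_mem hmem]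
  have := stabCard_pos (G := G) Z
  rw [stabCard] at this ⊢
  push_cast [Nat.cast_sub this]
  ring

end Fermat.Agent.MW

end
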