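/-
MW (S17) — helper3 — [GOOD-P], part 11: **(A4) on `F`** (the adjunction formula descended along a
Galois cover with good reduction upstairs).

* `IsDerDatum.hasValueAt_der_div_unif` : `D(u w)/D u` has the value `w(P)` at `P` (`u` a
  uniformizer at `P`, `w` regular at `P`);
* `log_locLead_sub_log_der` : host form — for a uniformizer `s` at `Q'` (not in the support of the
  canonical divisor) `log |lead_{Q'} s| - log |(D s)(Q')| = - log ‖D‖ - ∑_Z K(Z) G(Z, Q')`;
* `descGreen_omega` : **(A4) on `F`**, exact.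
-/
import Mathlib
import Fermat.Agent.MW.GOODP_helper3_Ext
import Fermat.Agent.MW.GOODP_helper3_Ram

set_option autoImplicit false
set_option linter.unusedSectionVars false
set_option linter.style.haveILetI false

noncomputable section

namespace Fermat.Agent.MW

open AlgebraicCurve IsLocalRing Fermat.Agent.FF Fermat.Agent.JA Fermat.Agent.FG
open scoped Classical NNReal Pointwise

variable {Ω : Type*} [Field Ω] {A : ValuationSubring Ω} {E : Type*} [Field E] [Algebra Ω E]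
  {𝔽b : Type*} [Field 𝔽b] [Algebra (ResidueField ↥A) 𝔽b] {X : GoodRed Ω A E 𝔽b}
  {v : Valuation Ω ℝ≥0}

/-- `D(u w)/D u` has the value `w(P)` at `P` (`u` a uniformizer at `P`, `w` regular at `P`). -/
theorem IsDerDatum.hasValueAt_der_div_unif {D : Derivation Ω E E} {κ : Place Ω E → ℤ}
    (hD : IsDerDatum D κ) {P : Place Ω E} (hdeg : P.deg = 1) {u w : E} (hu : P.ord u = 1) {c : Ω}
    (hw : HasValueAt P w c) : HasValueAt P (D (u * w) / D u) c := by
  obtain ⟨hDu0, hordDu⟩ := hD.spec P u hu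
  have hu0 : u ≠ 0 := by
    intro h0
    rw [h0, Place.ord_zero] at hu
    exact zero_ne_one hu
  have hquot : D (u * w) / D u = w + u * (D w / D u) := by
    rw [Derivation.leibniz, smul_eq_mul, smul_eq_mul]
    field_simp
    ring
  rw [hquot, ← add_zero c]
  refine hw.add ?_
  rcases hD.ordGE hdeg hw.mem with h0 | hge
  · rw [h0, zero_div, mul_zero]
    exact HasValueAt.zero' P
  · by_cases hDw0 : D w = 0
    · rw [hDw0, zero_div, mul_zero]
      exact HasValueAt.zero' P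
    · apply HasValueAt.zero_iff.mpr
      right
      rw [P.ord_mul hu0 (div_ne_zero hDw0 hDu0), PlaceAux.ord_div P hDw0 hDu0, hu, hordDu]
      omega

/-- **the adjunction formula of the host for an arbitrary uniformizer** `s` at a point `Q'`
outside the canonical divisor:
`log |lead_{Q'} s| - log |(D s)(Q')| = - log ‖D‖ - ∑_Z K(Z) · G(Z, Q')`. -/
theorem log_locLead_sub_log_der [IsAlgClosed Ω] (hv : v.valuationSubring = A)
    {D : Derivation Ω E E} {κ : Place Ω E → ℤ} (hD : IsDerDatum D κ) (K : Divisor Ω E)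
    (hK : ∀ P, K P = κ P) {Q' : Place Ω E} (hκ : κ Q' = 0) {s : E} (hs : Q'.ord s = 1) {d : Ω}
    (hd : HasValueAt Q' (D s) d) :
    Real.log ((locLead X v s Q' : ℝ≥0) : ℝ) - Real.log ((v d : ℝ≥0) : ℝ)
      = -Real.log ((derNorm X v D : ℝ≥0) : ℝ) - ∑ Z ∈ K.support, (K Z : ℝ) * hostGreen X v Z Q' := by
  have hs0 : s ≠ 0 := by
    intro h0
    rw [h0, Place.ord_zero] at hs
    exact zero_ne_one hs
  set t := discCoord X (X.r Q') with ht
  have hc : IsDiscCoord X (X.r Q') t := isDiscCoord_discCoord X (X.r Q')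
  have ha := hc.hasValueAt_valueAt (P := Q') rfl
  set a := valueAt Q' t with hadef
  set u := t - algebraMap Ω E a with hu
  have hordu : Q'.ord u = 1 := hc.ord_sub_self rfl ha
  have hu0 : u ≠ 0 := by
    intro h0
    rw [h0, Place.ord_zero] at hordu
    exact zero_ne_one hordu
  have hDu : D u = D t := by rw [hu, map_sub, Derivation.map_algebraMap, sub_zero]
  obtain ⟨hDt0, hordDt⟩ := hc.der_spec hD (P := Q') rfl
  rw [hκ, neg_zero] at hordDt
  -- the value of `D t` at `Q'`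
  obtain ⟨b, hb⟩ := HasValueAt.exists_of_mem (X.deg_gen Q')
    ((PlaceAux.mem_iff_ord_nonneg' Q' hDt0).mpr hordDt.ge)
  -- the leading coefficient of `s`
  set w := s * u ^ (-Q'.ord s) with hw
  have hw' : w = s * u⁻¹ := by rw [hw, hs, zpow_neg_one]
  have hw0 : w ≠ 0 := by rw [hw']; exact mul_ne_zero hs0 (inv_ne_zero hu0)
  have hordw : Q'.ord w = 0 := by
    rw [hw', Q'.ord_mul hs0 (inv_ne_zero hu0), Place.ord_inv, hs, hordu]; ring
  obtain ⟨c, hcw⟩ := HasValueAt.exists_of_mem (X.deg_gen Q')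
    ((PlaceAux.mem_iff_ord_nonneg' Q' hw0).mpr hordw.ge)
  have hlead : locLead X v s Q' = v c := locLead_eq hv hs0 hc ha hcw
  -- `D s = (D s / D u) * D t`
  have huw : u * w = s := by rw [hw']; field_simp
  have h1 := hD.hasValueAt_der_div_unif (X.deg_gen Q') hordu hcw
  rw [huw, hDu] at h1
  have h2 := h1.mul hb
  rw [div_mul_cancel₀ _ hDt0] at h2
  have hdcb : d = c * b := hd.unique h2
  -- the adjunction formula for `t`
  have h3 := valuation_der_value_eq (X := X) hv hD K hK hκ hc hb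
  have hb0 : b ≠ 0 := by
    intro h0
    rw [h0] at hb
    rcases HasValueAt.zero_iff.mp hb with h | h
    · exact hDt0 h
    · rw [hordDt] at h; exact lt_irrefl _ h
  have hc0 : c ≠ 0 := by
    intro h0
    rw [h0] at hcw
    rcases HasValueAt.zero_iff.mp hcw with h | h
    · exact hw0 h
    · rw [hordw] at h; exact lt_irrefl _ h
  have hvc : ((v c : ℝ≥0) : ℝ) ≠ 0 := by
    exact_mod_cast (Valuation.ne_zero_iff v).mpr hc0
  have hvb : ((v b : ℝ≥0) : ℝ) ≠ 0 := by
    exact_mod_cast (Valuation.ne_zero_iff v).mpr hb0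
  have hlogb : Real.log ((v b : ℝ≥0) : ℝ) = Real.log ((derNorm X v D : ℝ≥0) : ℝ)
      + ∑ Z ∈ K.support, (K Z : ℝ) * hostGreen X v Z Q' := by
    rw [h3, NNReal.coe_mul, NNReal.coe_prod]
    have hn0 : ((derNorm X v D : ℝ≥0) : ℝ) ≠ 0 := by
      exact_mod_cast derNorm_ne_zero (X := X) (v := v) hD
    have hf0 : ∀ Z ∈ K.support, ((locDist X v Z Q' ^ (-K Z) : ℝ≥0) : ℝ) ≠ 0 := by
      intro Z hZ
      have hne : Z ≠ Q' := by
        intro h
        rw [h, Finsupp.mem_support_iff, hK Q', hκ] at hZ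
        exact hZ rfl
      exact_mod_cast zpow_ne_zero _ (locDist_ne_zero hv hne)
    rw [Real.log_mul hn0 (Finset.prod_ne_zero_iff.mpr hf0), Real.log_prod hf0]
    congr 1
    apply Finset.sum_congr rfl
    intro Z _
    rw [NNReal.coe_zpow, Real.log_zpow, hostGreen]
    push_cast
    ring
  rw [hlead, hdcb, map_mul, NNReal.coe_mul, Real.log_mul hvc hvb, hlogb]
  ring

/-! ### the cover -/

section Cover

variable {F : Type*} [Field F] [Algebra Ω F] [HasPrincipalDivisors Ω E]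
  (φ : F →ₐ[Ω] E) (hφ : φ.toRingHom.IsIntegral)
  (G : Subgroup (SemilinearAut Ω E)) [Fintype G]

/-- **the deck group is the Galois group of the cover**: it preserves the fibres, acts
transitively on them, and the stabilisers have the order of the ramification index. -/
structure IsGaloisCoverGroup : Prop where
  restrict : ∀ (g : G) (W : Place Ω E),
    ((g : SemilinearAut Ω E) • W).restrictAlong φ hφ = W.restrictAlong φ hφ
  trans : ∀ W W' : Place Ω E, W.restrictAlong φ hφ = W'.restrictAlong φ hφ →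
    ∃ g : G, (g : SemilinearAut Ω E) • W = W'
  card_stab : ∀ W : Place Ω E, stabCard G W = Place.ramificationIndexAlong φ W

variable {φ hφ G}

/-- a fibre with trivial stabilisers is a free orbit. -/
theorem IsGaloisCoverGroup.sum_fiber_eq (hcov : IsGaloisCoverGroup φ hφ G) {Q' : Place Ω E}
    (hQ' : stabCard G Q' = 1) (h : Place Ω E → ℝ) :
    ∑ Q'' ∈ Place.fiberAlong φ hφ (Q'.restrictAlong φ hφ), h Q''
      = ∑ g : G, h ((g : SemilinearAut Ω E) • Q') := by
  symm
  apply Finset.sum_nbij (fun g : G => (g : SemilinearAut Ω E) • Q')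
  · intro g _
    exact Place.mem_fiberAlong.mpr (hcov.restrict g Q')
  · intro g _ g' _ hgg'
    have h1 : ((g'⁻¹ * g : G) : SemilinearAut Ω E) • Q' = Q' := by
      have hgg'' : (g : SemilinearAut Ω E) • Q' = (g' : SemilinearAut Ω E) • Q' := hgg'
      rw [Subgroup.coe_mul, mul_smul, hgg'', Subgroup.coe_inv, inv_smul_smul]
    have h2 : (g'⁻¹ * g) ∈ Finset.univ.filter (fun g : G => (g : SemilinearAut Ω E) • Q' = Q') :=
      Finset.mem_filter.mpr ⟨Finset.mem_univ _, h1⟩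
    have h3 : (1 : G) ∈ Finset.univ.filter (fun g : G => (g : SemilinearAut Ω E) • Q' = Q') :=
      Finset.mem_filter.mpr ⟨Finset.mem_univ _, one_smul _ Q'⟩
    rw [stabCard, Finset.card_eq_one] at hQ'
    obtain ⟨a, ha⟩ := hQ'
    rw [ha, Finset.mem_singleton] at h2 h3
    have : g'⁻¹ * g = 1 := h2.trans h3.symm
    exact (inv_mul_eq_one.mp this).symm
  · intro Q'' hQ''
    obtain ⟨g, hg⟩ := hcov.trans Q' Q'' (Place.mem_fiberAlong.mp hQ'').symm
    exact ⟨g, Finset.mem_coe.mpr (Finset.mem_univ _), hg⟩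
  · intro g _
    rfl

/-- **(A4) on `F`, pointwise on the host**: for `Q' | Q` with `Q` unramified and outside the
canonical divisor,
`log |lead_{Q'} φτ| - log |(D₀τ)(Q)| = - log ‖D_E‖ - ∑_Z K0(Z) ∑_{Z'|Z} e(Z') G(Z', Q')
   - ∑_{Q''|Q} G(Q'', Q')`. -/
theorem log_locLead_sub_log_der_of_mem_fiber [IsAlgClosed Ω] [CharZero Ω]
    (hv : v.valuationSubring = A) (hG : IsDeckGroup X G) (hcov : IsGaloisCoverGroup φ hφ G)
    (cF : Coord Ω F) (cE : Coord Ω E) {D₀ : Derivation Ω F F} (K0 : Divisor Ω F)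
    (hD₀ : IsDerDatum D₀ (fun P => K0 P)) {DE : Derivation Ω E E}
    (hDE : ∀ f : F, DE (φ f) = φ (D₀ f)) {Q : Place Ω F} (hQK : K0 Q = 0)
    (hQun : ∀ Q' ∈ Place.fiberAlong φ hφ Q, Place.ramificationIndexAlong φ Q' = 1)
    {τ : F} (hτ : Q.ord τ = 1) {d : Ω} (hd : HasValueAt Q (D₀ τ) d) {Q' : Place Ω E}
    (hQ' : Q' ∈ Place.fiberAlong φ hφ Q) :
    Real.log ((locLead X v (φ τ) Q' : ℝ≥0) : ℝ) - Real.log ((v d : ℝ≥0) : ℝ)
      = -Real.log ((derNorm X v DE : ℝ≥0) : ℝ)
        - K0.sum (fun Z m => (m : ℝ) * fibSum φ hφ Z (fun Z' => hostGreen X v Z' Q'))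
        - fibSum φ hφ Q (fun Q'' => hostGreen X v Q'' Q') := by
  have hQ'r : Q'.restrictAlong φ hφ = Q := Place.mem_fiberAlong.mp hQ'
  have hD₀0 : D₀ ≠ 0 := by
    intro h0
    have := (hD₀.spec Q τ hτ).1
    rw [h0] at this
    exact this rfl
  have hDE0 : DE ≠ 0 := by
    intro h0
    apply hD₀0
    ext f
    have := hDE f
    rw [h0] at this
    exact (map_eq_zero_iff φ φ.toRingHom.injective).mp this.symm
  have hκE := isDerDatum_derCan cE hDE0
  have hcan₀ : ∀ P : Place Ω F, derCan D₀ P = K0 P := by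
    intro P
    rw [derCan, (hD₀.spec P _ (ord_derUnif P)).2, neg_neg]
  set KE : Divisor Ω E := Divisor.pullbackAlong φ hφ K0 + ramDiv hG with hKEdef
  have hKE : ∀ W : Place Ω E, KE W = derCan DE W := by
    intro W
    rw [hKEdef, Finsupp.add_apply, Divisor.pullbackAlong_apply, ramDiv_apply, hcov.card_stab,
      derCan_extension cF cE φ hφ hD₀0 hDE W, hcan₀]
  have he1 : Place.ramificationIndexAlong φ Q' = 1 := hQun Q' hQ'
  have hκQ' : derCan DE Q' = 0 := by
    rw [derCan_extension cF cE φ hφ hD₀0 hDE Q', hcan₀, hQ'r, hQK, he1]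
    simp
  have hs : Q'.ord (φ τ) = 1 := by
    rw [Place.ord_restrictAlong φ hφ, hQ'r, hτ, he1]
    simp
  have hd' : HasValueAt Q' (DE (φ τ)) d := by
    rw [hDE, ← hasValueAt_restrictAlong_iff φ hφ, hQ'r]
    exact hd
  rw [log_locLead_sub_log_der hv hκE KE hKE hκQ' hs hd']
  -- split the sum over `KE`
  have hz : ∀ Z : Place Ω E, ((0 : ℤ) : ℝ) * hostGreen X v Z Q' = 0 := fun Z => by simp
  have hadd : ∀ (Z : Place Ω E) (m₁ m₂ : ℤ), ((m₁ + m₂ : ℤ) : ℝ) * hostGreen X v Z Q'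
      = (m₁ : ℝ) * hostGreen X v Z Q' + (m₂ : ℝ) * hostGreen X v Z Q' := fun Z m₁ m₂ => by
    push_cast; ring
  have h1 : ∑ Z ∈ KE.support, (KE Z : ℝ) * hostGreen X v Z Q'
      = (Divisor.pullbackAlong φ hφ K0).sum (fun Z m => (m : ℝ) * hostGreen X v Z Q')
        + (ramDiv hG).sum (fun Z m => (m : ℝ) * hostGreen X v Z Q') := by
    rw [← Finsupp.sum_add_index' hz hadd]
    rfl
  rw [h1, sum_pullbackAlong_mul φ hφ K0 (fun Z => hostGreen X v Z Q')]
  -- the ramification part: the different identity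
  have hstab : stabCard G Q' = 1 := by rw [hcov.card_stab, he1]
  have hfree : ∀ g : G, g ≠ 1 → (g : SemilinearAut Ω E) • Q' ≠ Q' := by
    intro g hg1 hfix
    have h2 : g ∈ Finset.univ.filter (fun g : G => (g : SemilinearAut Ω E) • Q' = Q') :=
      Finset.mem_filter.mpr ⟨Finset.mem_univ _, hfix⟩
    have h3 : (1 : G) ∈ Finset.univ.filter (fun g : G => (g : SemilinearAut Ω E) • Q' = Q') :=
      Finset.mem_filter.mpr ⟨Finset.mem_univ _, one_smul _ Q'⟩
    rw [stabCard, Finset.card_eq_one] at hstab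
    obtain ⟨a, ha⟩ := hstab
    rw [ha, Finset.mem_singleton] at h2 h3
    exact hg1 (h2.trans h3.symm)
  have h2 : (ramDiv hG).sum (fun Z m => (m : ℝ) * hostGreen X v Z Q')
      = fibSum φ hφ Q (fun Q'' => hostGreen X v Q'' Q') := by
    rw [Finsupp.sum, ← sum_hostGreen_smul_eq hv hG hfree, fibSum]
    have h3 : ∑ Q'' ∈ Place.fiberAlong φ hφ Q,
        (Place.ramificationIndexAlong φ Q'' : ℝ) * hostGreen X v Q'' Q'
        = ∑ Q'' ∈ Place.fiberAlong φ hφ Q, hostGreen X v Q'' Q' := by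
      apply Finset.sum_congr rfl
      intro Q'' hQ''
      rw [hQun Q'' hQ'']
      simp
    rw [h3, ← hQ'r, hcov.sum_fiber_eq hstab (fun Q'' => hostGreen X v Q'' Q'),
      ← Finset.sum_filter_add_sum_filter_not Finset.univ (fun g : G => g ≠ 1)]
    have h4 : ∑ g ∈ Finset.univ.filter (fun g : G => ¬ g ≠ 1),
        hostGreen X v ((g : SemilinearAut Ω E) • Q') Q' = 0 := by
      apply Finset.sum_eq_zero
      intro g hg
      have hg1 : g = 1 := not_not.mp (Finset.mem_filter.mp hg).2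
      rw [hg1, Subgroup.coe_one, one_smul, hostGreen_self]
    rw [h4, add_zero]
  rw [h2]
  ring

/-- **(A4) ON `F`, EXACT**: for an unramified point `Q` outside the canonical divisor `K0`, a
uniformizer `τ` at `Q` and `d = (D₀ τ)(Q)`,
`γ(Q, Q) + Λ(τ, Q) - log |d| + ∑_Z K0(Z) γ(Z, Q) = - log ‖D_E‖`. -/
theorem descGreen_omega [IsAlgClosed Ω] [CharZero Ω]
    (hv : v.valuationSubring = A) (hG : IsDeckGroup X G) (hcov : IsGaloisCoverGroup φ hφ G)
    {n : ℕ} (hsum : ∀ Q : Place Ω F,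
      ∑ W ∈ Place.fiberAlong φ hφ Q, (Place.ramificationIndexAlong φ W : ℝ) = n) (hn : n ≠ 0)
    (cF : Coord Ω F) (cE : Coord Ω E) {D₀ : Derivation Ω F F} (K0 : Divisor Ω F)
    (hD₀ : IsDerDatum D₀ (fun P => K0 P)) {DE : Derivation Ω E E}
    (hDE : ∀ f : F, DE (φ f) = φ (D₀ f)) {Q : Place Ω F} (hQK : K0 Q = 0)
    (hQun : ∀ Q' ∈ Place.fiberAlong φ hφ Q, Place.ramificationIndexAlong φ Q' = 1)
    {τ : F} (hτ : Q.ord τ = 1) {d : Ω} (hd : HasValueAt Q (D₀ τ) d) :
    descGreen X v φ hφ n Q Q + descLead X v φ hφ n τ Q - Real.log ((v d : ℝ≥0) : ℝ)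
        + ∑ Z ∈ K0.support, (K0 Z : ℝ) * descGreen X v φ hφ n Z Q
      = -Real.log ((derNorm X v DE : ℝ≥0) : ℝ) := by
  have hn' : (n : ℝ) ≠ 0 := Nat.cast_ne_zero.mpr hn
  have key : ∀ Q' ∈ Place.fiberAlong φ hφ Q,
      (Place.ramificationIndexAlong φ Q' : ℝ) * Real.log ((locLead X v (φ τ) Q' : ℝ≥0) : ℝ)
      = (Place.ramificationIndexAlong φ Q' : ℝ) * Real.log ((v d : ℝ≥0) : ℝ)
        - (Place.ramificationIndexAlong φ Q' : ℝ) * Real.log ((derNorm X v DE : ℝ≥0) : ℝ)
        - ∑ Z ∈ K0.support, (K0 Z : ℝ) * ((Place.ramificationIndexAlong φ Q' : ℝ) *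
            fibSum φ hφ Z (fun Z' => hostGreen X v Z' Q'))
        - (Place.ramificationIndexAlong φ Q' : ℝ) *
            fibSum φ hφ Q (fun Q'' => hostGreen X v Q'' Q') := by
    intro Q' hQ'
    have h1 := log_locLead_sub_log_der_of_mem_fiber (X := X) hv hG hcov cF cE K0 hD₀ hDE hQK hQun
      hτ hd hQ'
    rw [Finsupp.sum] at h1
    have h2 : Real.log ((locLead X v (φ τ) Q' : ℝ≥0) : ℝ) = Real.log ((v d : ℝ≥0) : ℝ)
        - Real.log ((derNorm X v DE : ℝ≥0) : ℝ)
        - ∑ Z ∈ K0.support, (K0 Z : ℝ) * fibSum φ hφ Z (fun Z' => hostGreen X v Z' Q')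
        - fibSum φ hφ Q (fun Q'' => hostGreen X v Q'' Q') := by linarith
    rw [h2, mul_sub, mul_sub, mul_sub, Finset.mul_sum]
    congr 2
    apply Finset.sum_congr rfl
    intro Z _
    ring
  have hS := Finset.sum_congr rfl key
  rw [Finset.sum_sub_distrib, Finset.sum_sub_distrib, Finset.sum_sub_distrib, ← Finset.sum_mul,
    ← Finset.sum_mul, hsum Q, Finset.sum_comm] at hS
  have e1 : ∑ Z ∈ K0.support, (K0 Z : ℝ) * descGreen X v φ hφ n Z Q
      = (n : ℝ)⁻¹ * ∑ Z ∈ K0.support, ∑ Q' ∈ Place.fiberAlong φ hφ Q,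
          (K0 Z : ℝ) * ((Place.ramificationIndexAlong φ Q' : ℝ) *
            fibSum φ hφ Z (fun Z' => hostGreen X v Z' Q')) := by
    rw [Finset.mul_sum]
    apply Finset.sum_congr rfl
    intro Z _
    rw [descGreen, fibSum, ← Finset.mul_sum]
    ring
  have e2 : descLead X v φ hφ n τ Q = (n : ℝ)⁻¹ * ∑ Q' ∈ Place.fiberAlong φ hφ Q,
      (Place.ramificationIndexAlong φ Q' : ℝ) *
        Real.log ((locLead X v (φ τ) Q' : ℝ≥0) : ℝ) := rfl
  have e3 : descGreen X v φ hφ n Q Q = (n : ℝ)⁻¹ * ∑ Q' ∈ Place.fiberAlong φ hφ Q,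
      (Place.ramificationIndexAlong φ Q' : ℝ) *
        fibSum φ hφ Q (fun Q'' => hostGreen X v Q'' Q') := rfl
  rw [e1, e2, e3]
  generalize (∑ Z ∈ K0.support, ∑ Q' ∈ Place.fiberAlong φ hφ Q,
          (K0 Z : ℝ) * ((Place.ramificationIndexAlong φ Q' : ℝ) *
            fibSum φ hφ Z (fun Z' => hostGreen X v Z' Q'))) = S1 at hS ⊢
  generalize (∑ Q' ∈ Place.fiberAlong φ hφ Q,
      (Place.ramificationIndexAlong φ Q' : ℝ) *
        Real.log ((locLead X v (φ τ) Q' : ℝ≥0) : ℝ)) = S2 at hS ⊢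
  generalize (∑ Q' ∈ Place.fiberAlong φ hφ Q,
      (Place.ramificationIndexAlong φ Q' : ℝ) *
        fibSum φ hφ Q (fun Q'' => hostGreen X v Q'' Q')) = S3 at hS ⊢
  rw [hS]
  field_simp
  ring

end Cover

end Fermat.Agent.MW

end
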