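/-
MW (S17) — helper3 — [GOOD-P], part 12: **assembly of the local package at a good prime** from a
host with good reduction.

* `padicVal p : Valuation Ω ℝ≥0` : the `p`-adic valuation of `Ω` (chosen embedding), with valuation
  ring `padicPlace p` and `(padicVal p x : ℝ) = absv (some p) x`;
* `gaussNorm_sum_le` : ultrametric inequality for finite sums;
* `goodR` : the function `r` of the package; `goodp_weil_exact` : (A3) in the literal form of
  `LocalPkgAt.weil`, exact; `goodp_omega_exact` : (A4) exact at unramified points;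
* `goodPkg` : **the package `LocalPkgAt N 𝔡 Zp (some p)`**.
-/
import Mathlib
import Fermat.Agent.MW.GOODP_helper3_Omega
import Fermat.Agent.MW.NADIC_helper6_Lc

set_option autoImplicit false
set_option linter.unusedSectionVars false
set_option linter.style.haveILetI false

noncomputable section

namespace Fermat.Agent.MW

open AlgebraicCurve ModularCurve IsLocalRing Fermat.Agent.FF Fermat.Agent.JA Fermat.Agent.FG
open scoped Classical NNReal Pointwise

local notation "Ω" => AlgebraicClosure ℚ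

/-! ### the valuation -/

/-- the `p`-adic valuation of `Ω` through the chosen embedding. -/
def padicVal (p : ℕ) [Fact p.Prime] : Valuation Ω ℝ≥0 :=
  (Valued.v : Valuation (PadicAlgCl p) ℝ≥0).comap (padicEmbedding p).toRingHom

theorem padicVal_apply (p : ℕ) [Fact p.Prime] (x : Ω) :
    padicVal p x = ‖padicEmbedding p x‖₊ := rfl

theorem coe_padicVal (p : Nat.Primes) (x : Ω) :
    ((padicVal (p : ℕ) x : ℝ≥0) : ℝ) = absv (some p) x := rfl

theorem log_padicVal (p : Nat.Primes) (x : Ω) :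
    Real.log ((padicVal (p : ℕ) x : ℝ≥0) : ℝ) = lg (some p) x := rfl

theorem padicVal_valuationSubring (p : ℕ) [Fact p.Prime] :
    (padicVal p).valuationSubring = padicPlace p := by
  ext x
  exact Iff.rfl

/-! ### finite sums -/

section Sum

variable {K : Type*} [Field K] {A : ValuationSubring K} {𝔽 : Type*} [Field 𝔽] [Algebra K 𝔽]
  {𝔽b : Type*} [Field 𝔽b] [Algebra (ResidueField ↥A) 𝔽b] {X : GoodRed K A 𝔽 𝔽b}
  {Γ₀ : Type*} [LinearOrderedCommGroupWithZero Γ₀] {v : Valuation K Γ₀}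

theorem gaussNorm_sum_le (hv : v.valuationSubring = A) {ι : Type*} (s : Finset ι) (g : ι → 𝔽)
    (B : Γ₀) (h : ∀ i ∈ s, gaussNorm X v (g i) ≤ B) : gaussNorm X v (∑ i ∈ s, g i) ≤ B := by
  induction s using Finset.induction_on with
  | empty => rw [Finset.sum_empty, gaussNorm_zero]; exact zero_le
  | insert a s ha ih =>
    rw [Finset.sum_insert ha]
    refine (gaussNorm_add_le hv _ _).trans (max_le (h a (Finset.mem_insert_self a s)) ?_)
    exact ih fun i hi => h i (Finset.mem_insert_of_mem hi)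

end Sum

/-! ### the package -/

section Assembly

variable {N : ℕ} [NeZero N] (𝔡 : DiffDatum N) (p : Nat.Primes)
  {E : Type*} [Field E] [Algebra Ω E] {𝔽b : Type*} [Field 𝔽b]
  [Algebra (ResidueField ↥(padicPlace (p : ℕ))) 𝔽b]
  (X : GoodRed Ω (padicPlace (p : ℕ)) E 𝔽b) [HasPrincipalDivisors Ω E]
  (φ : FunN N →ₐ[Ω] E) (hφ : φ.toRingHom.IsIntegral) (n : ℕ)

/-- **the function `r`** of the package at a good prime:
`r(Q) = γ(Q, Q) + Λ(τ_Q, Q) - log |D₀ τ_Q (Q)|_p`, `τ_Q = unifAt Q`. -/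
def goodR (Q : PtN N) : ℝ :=
  descGreen X (padicVal (p : ℕ)) φ hφ n Q Q + descLead X (padicVal (p : ℕ)) φ hφ n (unifAt N Q) Q
    - lg (some p) (valN N Q (𝔡.D₀ (unifAt N Q)))

variable {𝔡 p X φ hφ n}

/-- **(A3) in the literal form of `LocalPkgAt.weil`, EXACT.** -/
theorem goodp_weil_exact
    (hsum : ∀ Q : PtN N,
      ∑ W ∈ Place.fiberAlong φ hφ Q, (Place.ramificationIndexAlong φ W : ℝ) = n)
    (hn : n ≠ 0) {f : FunN N} (hf : f ≠ 0) {D : PtN N →₀ ℤ} (hD : IsDivOf N f D) (Q : PtN N)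
    (hQ : D Q = 0 ∨ 𝔡.K0 Q = 0) :
    (∑ P ∈ D.support, (D P : ℝ) *
        (if P = Q then goodR 𝔡 p X φ hφ n Q else descGreen X (padicVal (p : ℕ)) φ hφ n P Q))
      + lg (some p) (𝔡.lcN f Q)
      = Real.log ((gaussNorm X (padicVal (p : ℕ)) (φ f) : ℝ≥0) : ℝ) := by
  set τ := unifAt N Q with hτdef
  have hτ : Q.ord τ = 1 := ord_unifAt N Q
  have hτ0 : τ ≠ 0 := unifAt_ne_zero N Q
  have hDQ : D Q = Q.ord f := hD Q
  have hf₁0 : f * τ ^ (-Q.ord f) ≠ 0 := mul_ne_zero hf (zpow_ne_zero _ hτ0)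
  have hordf₁ : Q.ord (f * τ ^ (-Q.ord f)) = 0 := by
    rw [Q.ord_mul hf (zpow_ne_zero _ hτ0), Place.ord_zpow, hτ]; ring
  set b₁ := valN N Q (f * τ ^ (-Q.ord f)) with hb₁def
  have hb₁ : HasValueAt Q (f * τ ^ (-Q.ord f)) b₁ := valN_spec Q (Or.inr hordf₁.ge)
  have hb₁0 : b₁ ≠ 0 := valN_ne_zero Q hf₁0 hordf₁
  set d := valN N Q (𝔡.D₀ τ) with hddef
  have key := descGreen_weil (X := X) φ hφ (padicVal_valuationSubring (p : ℕ)) hsum hn hf D hD hτ hb₁
  rw [log_padicVal] at key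
  -- the leading coefficient
  have hlc : lg (some p) (𝔡.lcN f Q) = lg (some p) b₁ + (D Q : ℝ) * lg (some p) d := by
    rcases hQ with h0 | hK
    · have hm : Q.ord f = 0 := by rw [← hDQ, h0]
      have e1 : 𝔡.lcN f Q = valN N Q f := by rw [DiffDatum.lcN, if_pos hm]
      have e2 : b₁ = valN N Q f := by rw [hb₁def, hm, neg_zero, zpow_zero, mul_one]
      rw [e1, e2, h0]
      simp
    · have hd0 : d ≠ 0 := by
        apply valN_ne_zero Q (𝔡.D₀_unif_ne_zero hτ)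
        rw [𝔡.ord_D₀_unif hτ, hK]
        simp
      rw [𝔡.lcN_eq_of_unif hK hτ hf, lg_mul _ hb₁0 (zpow_ne_zero _ hd0), lg_zpow, hDQ]
  -- the sum with the diagonal term
  have hsplit : ∑ P ∈ D.support, (D P : ℝ) *
        (if P = Q then goodR 𝔡 p X φ hφ n Q else descGreen X (padicVal (p : ℕ)) φ hφ n P Q)
      = (∑ P ∈ D.support, (D P : ℝ) * descGreen X (padicVal (p : ℕ)) φ hφ n P Q)
        + (D Q : ℝ) * (goodR 𝔡 p X φ hφ n Q - descGreen X (padicVal (p : ℕ)) φ hφ n Q Q) := by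
    have h1 : ∀ P ∈ D.support, (D P : ℝ) *
        (if P = Q then goodR 𝔡 p X φ hφ n Q else descGreen X (padicVal (p : ℕ)) φ hφ n P Q)
        = (D P : ℝ) * descGreen X (padicVal (p : ℕ)) φ hφ n P Q
          + (if P = Q then (D Q : ℝ) *
              (goodR 𝔡 p X φ hφ n Q - descGreen X (padicVal (p : ℕ)) φ hφ n Q Q) else 0) := by
      intro P _
      split_ifs with hPQ
      · subst hPQ; ring
      · ring
    rw [Finset.sum_congr rfl h1, Finset.sum_add_distrib, Finset.sum_ite_eq']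
    congr 1
    split_ifs with hmem
    · rfl
    · rw [Finsupp.notMem_support_iff.mp hmem]
      simp
  rw [hsplit, hlc, goodR]
  linarith

/-! #### the differential -/

variable (𝔡) in
/-- `K0` as an integer divisor. -/
def k0Div : Divisor Ω (FunN N) := 𝔡.K0.mapRange (Nat.cast : ℕ → ℤ) Nat.cast_zero

theorem k0Div_apply (P : PtN N) : k0Div 𝔡 P = (𝔡.K0 P : ℤ) := rfl

theorem k0Div_support : (k0Div 𝔡).support = 𝔡.K0.support :=
  Finsupp.support_mapRange_of_injective Nat.cast_zero _ Nat.cast_injective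

theorem isDerDatum_D₀ : IsDerDatum 𝔡.D₀ (fun P => k0Div 𝔡 P) :=
  ⟨fun Q τ hτ => 𝔡.K0_spec Q τ hτ⟩

variable (𝔡 φ) in
/-- a chosen extension of `D₀` to the host. -/
def hostDer (hfin : FiniteAlong Ω φ) : Derivation Ω E E :=
  (exists_derivation_extension φ hfin 𝔡.D₀).choose

theorem hostDer_spec (hfin : FiniteAlong Ω φ) (f : FunN N) :
    hostDer 𝔡 φ hfin (φ f) = φ (𝔡.D₀ f) :=
  (exists_derivation_extension φ hfin 𝔡.D₀).choose_spec f

variable {G : Subgroup (SemilinearAut Ω E)} [Fintype G]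

/-- **(A4) in the literal form of `LocalPkgAt.omega`, EXACT** at the unramified points outside
`K0`. -/
theorem goodp_omega_exact (hG : IsDeckGroup X G) (hcov : IsGaloisCoverGroup φ hφ G)
    (hsum : ∀ Q : PtN N,
      ∑ W ∈ Place.fiberAlong φ hφ Q, (Place.ramificationIndexAlong φ W : ℝ) = n)
    (hn : n ≠ 0) (cE : Coord Ω E) (hfin : FiniteAlong Ω φ) {Q : PtN N} (hQK : 𝔡.K0 Q = 0)
    (hQun : ∀ Q' ∈ Place.fiberAlong φ hφ Q, Place.ramificationIndexAlong φ Q' = 1) :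
    goodR 𝔡 p X φ hφ n Q
        + ∑ Z ∈ 𝔡.K0.support, (𝔡.K0 Z : ℝ) * descGreen X (padicVal (p : ℕ)) φ hφ n Z Q
      = -Real.log ((derNorm X (padicVal (p : ℕ)) (hostDer 𝔡 φ hfin) : ℝ≥0) : ℝ) := by
  have hτ : Q.ord (unifAt N Q) = 1 := ord_unifAt N Q
  have hord : Q.ord (𝔡.D₀ (unifAt N Q)) = 0 := by
    rw [𝔡.ord_D₀_unif hτ, hQK]; simp
  have hd : HasValueAt Q (𝔡.D₀ (unifAt N Q)) (valN N Q (𝔡.D₀ (unifAt N Q))) :=
    valN_spec Q (Or.inr hord.ge)
  have key := descGreen_omega (X := X) (padicVal_valuationSubring (p : ℕ)) hG hcov hsum hn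
    (Fermat.Agent.X0N.jCoordBar N) cE (k0Div 𝔡) (isDerDatum_D₀ (𝔡 := 𝔡)) (hostDer_spec hfin)
    (by rw [k0Div_apply, hQK]; rfl) hQun hτ hd
  rw [log_padicVal, k0Div_support] at key
  rw [goodR, ← key]
  congr 1

/-! #### (A7) -/

variable (𝔡 p X φ) in
/-- the constant of (A7): `∑_k log⁺ ‖φ_k‖_p`. -/
def goodC7 : ℝ :=
  ∑ k : Fin 𝔡.gq, max 0 (Real.log ((gaussNorm X (padicVal (p : ℕ)) (φ (𝔡.φ k)) : ℝ≥0) : ℝ))

theorem goodC7_nonneg : 0 ≤ goodC7 𝔡 p X φ :=
  Finset.sum_nonneg fun _ _ => le_max_left _ _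

/-- the Gauss norm of a combination of the `φ_k` with coefficients of size `≤ M`. -/
theorem goodp_log_gaussNorm_le (c : Fin 𝔡.gq → Ω) (M : ℝ) (hM : 0 < M)
    (hc : ∀ k, absv (some p) (c k) ≤ M) (hψ : (∑ k, c k • 𝔡.φ k) ≠ 0) :
    Real.log ((gaussNorm X (padicVal (p : ℕ)) (φ (∑ k, c k • 𝔡.φ k)) : ℝ≥0) : ℝ)
      ≤ Real.log M + goodC7 𝔡 p X φ := by
  have hv := padicVal_valuationSubring (p : ℕ)
  set B : ℝ≥0 := ⟨M, hM.le⟩ * ⟨Real.exp (goodC7 𝔡 p X φ), (Real.exp_pos _).le⟩ with hB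
  have hBcoe : (B : ℝ) = M * Real.exp (goodC7 𝔡 p X φ) := rfl
  have hterm : ∀ k ∈ (Finset.univ : Finset (Fin 𝔡.gq)),
      gaussNorm X (padicVal (p : ℕ)) (c k • φ (𝔡.φ k)) ≤ B := by
    intro k _
    rw [gaussNorm_smul hv, ← NNReal.coe_le_coe, NNReal.coe_mul, hBcoe, coe_padicVal]
    apply mul_le_mul (hc k) _ (NNReal.coe_nonneg _) hM.le
    by_cases h0 : φ (𝔡.φ k) = 0
    · rw [h0, gaussNorm_zero, NNReal.coe_zero]
      exact (Real.exp_pos _).le
    · have hpos : (0 : ℝ) < ((gaussNorm X (padicVal (p : ℕ)) (φ (𝔡.φ k)) : ℝ≥0) : ℝ) := by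
        have := gaussNorm_ne_zero (X := X) (v := padicVal (p : ℕ)) h0
        exact_mod_cast pos_iff_ne_zero.mpr this
      rw [← Real.exp_log hpos]
      apply Real.exp_le_exp.mpr
      refine le_trans (le_max_right 0 _) ?_
      exact Finset.single_le_sum
        (f := fun k : Fin 𝔡.gq =>
          max 0 (Real.log ((gaussNorm X (padicVal (p : ℕ)) (φ (𝔡.φ k)) : ℝ≥0) : ℝ)))
        (fun _ _ => le_max_left _ _) (Finset.mem_univ k)
  have hsum : φ (∑ k, c k • 𝔡.φ k) = ∑ k, c k • φ (𝔡.φ k) := by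
    rw [map_sum]
    exact Finset.sum_congr rfl fun k _ => map_smul φ (c k) (𝔡.φ k)
  have hle := gaussNorm_sum_le (X := X) hv Finset.univ (fun k => c k • φ (𝔡.φ k)) B hterm
  rw [← hsum] at hle
  have hφψ : φ (∑ k, c k • 𝔡.φ k) ≠ 0 := (map_ne_zero φ).mpr hψ
  have hpos : (0 : ℝ) < ((gaussNorm X (padicVal (p : ℕ)) (φ (∑ k, c k • 𝔡.φ k)) : ℝ≥0) : ℝ) := by
    have := gaussNorm_ne_zero (X := X) (v := padicVal (p : ℕ)) hφψ
    exact_mod_cast pos_iff_ne_zero.mpr this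
  calc Real.log ((gaussNorm X (padicVal (p : ℕ)) (φ (∑ k, c k • 𝔡.φ k)) : ℝ≥0) : ℝ)
      ≤ Real.log (B : ℝ) := Real.log_le_log hpos (by exact_mod_cast hle)
    _ = Real.log M + goodC7 𝔡 p X φ := by
      rw [hBcoe, Real.log_mul hM.ne' (Real.exp_pos _).ne', Real.log_exp]

/-! #### the structure -/

/-- **THE LOCAL PACKAGE AT A GOOD PRIME** from a host with good reduction: all constants of
(A1), (A3) vanish; `cω = - log ‖D_E‖_p`; `Cω` only accounts for the point `∞`; `C7 = ∑ log⁺ ‖φ_k‖_p`.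
`Zp` must contain the zeros of `ω₀` and the points `≠ ∞` over which the host is ramified. -/
def goodPkg (hG : IsDeckGroup X G) (hcov : IsGaloisCoverGroup φ hφ G)
    (hsum : ∀ Q : PtN N,
      ∑ W ∈ Place.fiberAlong φ hφ Q, (Place.ramificationIndexAlong φ W : ℝ) = n)
    (hn : n ≠ 0) (cE : Coord Ω E) (hfin : FiniteAlong Ω φ) (Zp : Finset (PtN N))
    (hZK : ∀ P : PtN N, 𝔡.K0 P ≠ 0 → P ∈ Zp)
    (hZram : ∀ Q : PtN N, Q ∉ Zp → Q ≠ infN N →
      ∀ Q' ∈ Place.fiberAlong φ hφ Q, Place.ramificationIndexAlong φ Q' = 1) :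
    LocalPkgAt N 𝔡 Zp (some p) where
  γ := descGreen X (padicVal (p : ℕ)) φ hφ n
  r := goodR 𝔡 p X φ hφ n
  Cγ := 0
  Cw := fun _ => 0
  cω := -Real.log ((derNorm X (padicVal (p : ℕ)) (hostDer 𝔡 φ hfin) : ℝ≥0) : ℝ)
  Cω := |goodR 𝔡 p X φ hφ n (infN N)
      + (∑ Z ∈ 𝔡.K0.support, (𝔡.K0 Z : ℝ) * descGreen X (padicVal (p : ℕ)) φ hφ n Z (infN N))
      - -Real.log ((derNorm X (padicVal (p : ℕ)) (hostDer 𝔡 φ hfin) : ℝ≥0) : ℝ)|
  C7 := goodC7 𝔡 p X φ
  Cγ_nonneg := le_refl _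
  Cw_nonneg := fun _ => le_refl _
  Cω_nonneg := abs_nonneg _
  C7_nonneg := goodC7_nonneg
  γ_symm := descGreen_comm φ hφ (padicVal_valuationSubring (p : ℕ)) n
  γ_lower := fun P Q _ => by
    rw [neg_zero]
    exact descGreen_nonneg φ hφ (padicVal_valuationSubring (p : ℕ)) n P Q
  weil := fun d f D hf hD _ => by
    refine ⟨Real.log ((gaussNorm X (padicVal (p : ℕ)) (φ f) : ℝ≥0) : ℝ), fun Q hQ => ?_⟩
    have hQ' : D Q = 0 ∨ 𝔡.K0 Q = 0 := by
      rcases hQ with h | h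
      · exact Or.inl h
      · right
        by_contra hne
        exact h (hZK Q hne)
    have := goodp_weil_exact (𝔡 := 𝔡) (p := p) (X := X) (φ := φ) (hφ := hφ) hsum hn hf hD Q hQ'
    rw [this, sub_self, abs_zero]
  omega := fun Q hQ => by
    by_cases hinf : Q = infN N
    · rw [hinf]
    · have hQK : 𝔡.K0 Q = 0 := by
        by_contra hne
        exact hQ (hZK Q hne)
      rw [goodp_omega_exact (𝔡 := 𝔡) (p := p) hG hcov hsum hn cE hfin hQK (hZram Q hQ hinf),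
        sub_self, abs_zero]
      exact abs_nonneg _
  sup := fun c M D hM hc hψ hD Q hQ => by
    have hQK : 𝔡.K0 Q = 0 := by
      by_contra hne
      exact hQ (hZK Q hne)
    rw [goodp_weil_exact (𝔡 := 𝔡) (p := p) (X := X) (φ := φ) (hφ := hφ) hsum hn hψ hD Q
      (Or.inr hQK)]
    exact goodp_log_gaussNorm_le c M hM hc hψ

end Assembly

end Fermat.Agent.MW

end
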