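/-
MW (S17) — helper3 — [GOOD-P], part 13: **`Ω`-linear automorphisms preserve the Gauss ring.**

`X : GoodRed Ω A 𝔽 𝔽b`.  A *Gauss coordinate* is an element `u ∈ W` whose reduction is transcendental
over the residue field; the valuation of `W` restricted to `Ω(u)` is then the Gauss valuation with
respect to `u`.

* `IsGaussCoord X u`, Gauss lemma `IsGaussCoord.coeff_mem_of_aeval_mem`;
* `IsGaussCoord.one_sub`, `IsGaussCoord.inv`, `IsGaussCoord.mobius` : Moebius transforms with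
  integral coefficients and unit determinant of a Gauss coordinate are Gauss coordinates;
* `goodp_isIntegral_of_mem_W` : `W` is integral over `W ∩ Ω(τ)` (orthogonal basis);
* `goodp_smul_mem_W` : an `Ω`-linear automorphism `g` of `𝔽` mapping a Gauss coordinate `u` with
  `Ω(u) = Ω(τ)` to a Gauss coordinate maps `W` into `W`.
-/
import Mathlib
import Fermat.Agent.MW.GOODP_helper3_Aut
import Fermat.Agent.FG.OB_helper2_Basis

set_option autoImplicit false
set_option linter.unusedSectionVars false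
set_option linter.style.haveILetI false

noncomputable section

namespace Fermat.Agent.MW

open AlgebraicCurve IsLocalRing IntermediateField Polynomial Fermat.Agent.FF Fermat.Agent.JA
  Fermat.Agent.FG

variable {Ω : Type*} [Field Ω] {A : ValuationSubring Ω} {𝔽 : Type*} [Field 𝔽] [Algebra Ω 𝔽]
  {𝔽b : Type*} [Field 𝔽b] [Algebra (ResidueField ↥A) 𝔽b] (X : GoodRed Ω A 𝔽 𝔽b)

/-- **a Gauss coordinate**: an integral function with transcendental reduction. -/
structure IsGaussCoord (u : 𝔽) : Prop where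
  mem : u ∈ X.W
  trans : Transcendental (ResidueField ↥A) (X.ρ ⟨u, mem⟩)

/-- evaluation of an integral polynomial at an integral function. -/
def gaussEval (u : ↥X.W) (p : (↥A)[X]) : ↥X.W := eval₂ X.constW u p

theorem coe_gaussEval (u : ↥X.W) (p : (↥A)[X]) :
    ((gaussEval X u p : ↥X.W) : 𝔽) = aeval (u : 𝔽) (p.map (algebraMap ↥A Ω)) := by
  rw [gaussEval, aeval_def, eval₂_map]
  exact hom_eval₂ p X.constW X.W.subtype u

theorem ρ_gaussEval (u : ↥X.W) (p : (↥A)[X]) :
    X.ρ (gaussEval X u p) = aeval (X.ρ u) (p.map (residue ↥A)) := by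
  rw [gaussEval, hom_eval₂, aeval_def, eval₂_map]
  congr 1
  ext a
  exact X.ρ_constW a

theorem isGaussCoord_τ : IsGaussCoord X X.τ := ⟨X.τ_mem, X.transcendental_τb⟩

variable {X}

namespace IsGaussCoord

variable {u : 𝔽}

theorem ρ_gaussEval_ne_zero (hu : IsGaussCoord X u) {p : (↥A)[X]} (hp : p.map (residue ↥A) ≠ 0) :
    X.ρ (gaussEval X ⟨u, hu.mem⟩ p) ≠ 0 := by
  rw [ρ_gaussEval]
  intro h0
  exact hp ((transcendental_iff.1 hu.trans) _ h0)

/-- **normalisation of a polynomial in a Gauss coordinate.** -/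
theorem exists_smul_unit_aeval (hu : IsGaussCoord X u) {p : Polynomial Ω} (hp : p ≠ 0) :
    ∃ (a : Ω) (hw : a • aeval u p ∈ X.W), a ≠ 0 ∧ (∀ j, a * p.coeff j ∈ A) ∧
      X.ρ ⟨_, hw⟩ ≠ 0 := by
  classical
  set x : Fin (p.natDegree + 1) → Ω := fun j => p.coeff j with hx
  have hx0 : x ≠ 0 := by
    intro h0
    have h1 : p.coeff p.natDegree = 0 := congrFun h0 ⟨p.natDegree, Nat.lt_succ_self _⟩
    exact hp (leadingCoeff_eq_zero.1 h1)
  obtain ⟨j₁, a, ha0, haA, ha1⟩ := exists_normalised_multiple (A := A) hx0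
  have hcoeff : ∀ j, (C a * p).coeff j ∈ A := by
    intro j
    rw [coeff_C_mul]
    by_cases hj : j < p.natDegree + 1
    · exact haA ⟨j, hj⟩
    · rw [coeff_eq_zero_of_natDegree_lt (by omega), mul_zero]
      exact A.zero_mem
  set q : (↥A)[X] := GoodRed.liftPoly (C a * p) hcoeff with hq
  have hqτ : ((gaussEval X ⟨u, hu.mem⟩ q : ↥X.W) : 𝔽) = a • aeval u p := by
    rw [coe_gaussEval, hq, GoodRed.map_liftPoly, map_mul, aeval_C, Algebra.smul_def]
  have hw : a • aeval u p ∈ X.W := hqτ ▸ (gaussEval X ⟨u, hu.mem⟩ q).2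
  have hqe : gaussEval X ⟨u, hu.mem⟩ q = ⟨_, hw⟩ := Subtype.ext hqτ
  have hq1 : (q.map (residue ↥A)).coeff (j₁ : ℕ) = 1 := by
    rw [coeff_map]
    have h1 : q.coeff (j₁ : ℕ) = 1 := by
      apply Subtype.ext
      rw [hq, GoodRed.coeff_liftPoly, coeff_C_mul]
      exact ha1
    rw [h1, map_one]
  have hq0 : q.map (residue ↥A) ≠ 0 := by
    intro h0
    rw [h0, coeff_zero] at hq1
    exact zero_ne_one hq1
  refine ⟨a, hw, ha0, fun j => ?_, ?_⟩
  · have := hcoeff j
    rwa [coeff_C_mul] at this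
  · rw [← hqe]
    exact hu.ρ_gaussEval_ne_zero hq0

/-- **Gauss lemma**: a polynomial in a Gauss coordinate is integral iff its coefficients are. -/
theorem coeff_mem_of_aeval_mem (hu : IsGaussCoord X u) {p : Polynomial Ω}
    (h : aeval u p ∈ X.W) (j : ℕ) : p.coeff j ∈ A := by
  by_cases hp : p = 0
  · rw [hp, coeff_zero]; exact A.zero_mem
  obtain ⟨a, hw, ha0, haA, hρ⟩ := hu.exists_smul_unit_aeval hp
  have hinv := X.mem_of_smul_unit h hw ha0 hρ
  have h1 : p.coeff j = a⁻¹ * (a * p.coeff j) := by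
    rw [← mul_assoc, inv_mul_cancel₀ ha0, one_mul]
  rw [h1]
  exact A.mul_mem _ _ hinv (haA j)

theorem aeval_mem_of_coeff_mem (hu : IsGaussCoord X u) {p : Polynomial Ω}
    (h : ∀ j, p.coeff j ∈ A) : aeval u p ∈ X.W := by
  rw [aeval_eq_sum_range]
  refine sum_mem fun i _ => ?_
  exact X.smul_mem_W (h i) (pow_mem hu.mem i)

/-- elements of `W ∩ Ω(u)` are quotients of integral polynomials whose denominator is a Gauss
unit. -/
theorem exists_quot_of_mem_adjoin (hu : IsGaussCoord X u) {c : 𝔽} (hc : c ∈ Ω⟮u⟯)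
    (hcW : c ∈ X.W) :
    ∃ (p q : Polynomial Ω), (∀ j, p.coeff j ∈ A) ∧ (∀ j, q.coeff j ∈ A) ∧
      (∃ j, q.coeff j = 1) ∧ c * aeval u q = aeval u p := by
  obtain ⟨p₀, q₀, rfl⟩ := (mem_adjoin_simple_iff Ω c).1 hc
  by_cases hq0 : aeval u q₀ = 0
  · refine ⟨0, 1, fun j => by rw [coeff_zero]; exact A.zero_mem, fun j => ?_, ⟨0, coeff_one_zero⟩, ?_⟩
    · rw [coeff_one]
      split_ifs
      · exact A.one_mem
      · exact A.zero_mem
    · rw [hq0, div_zero, zero_mul, map_zero]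
  have hq₀ : q₀ ≠ 0 := by
    rintro rfl
    exact hq0 (map_zero _)
  classical
  set x : Fin (q₀.natDegree + 1) → Ω := fun j => q₀.coeff j with hx
  have hx0 : x ≠ 0 := by
    intro h0
    have h1 : q₀.coeff q₀.natDegree = 0 := congrFun h0 ⟨q₀.natDegree, Nat.lt_succ_self _⟩
    exact hq₀ (leadingCoeff_eq_zero.1 h1)
  obtain ⟨j₁, a, ha0, haA, ha1⟩ := exists_normalised_multiple (A := A) hx0
  have hcoeff : ∀ j, (C a * q₀).coeff j ∈ A := by
    intro j
    rw [coeff_C_mul]
    by_cases hj : j < q₀.natDegree + 1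
    · exact haA ⟨j, hj⟩
    · rw [coeff_eq_zero_of_natDegree_lt (by omega), mul_zero]
      exact A.zero_mem
  have hrel : aeval u p₀ / aeval u q₀ * aeval u (C a * q₀) = aeval u (C a * p₀) := by
    rw [map_mul, map_mul, aeval_C]
    field_simp
  refine ⟨C a * p₀, C a * q₀, ?_, hcoeff, ⟨j₁, by rw [coeff_C_mul]; exact ha1⟩, hrel⟩
  apply hu.coeff_mem_of_aeval_mem
  rw [← hrel]
  exact X.W.mul_mem _ _ hcW (hu.aeval_mem_of_coeff_mem hcoeff)

/-- a polynomial with integral coefficients one of which is `1`, evaluated at a Gauss coordinate,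
is a unit of `W`. -/
theorem inv_aeval_mem (hu : IsGaussCoord X u) {q : Polynomial Ω} (hq : ∀ j, q.coeff j ∈ A)
    {j₁ : ℕ} (hq1 : q.coeff j₁ = 1) : aeval u q ≠ 0 ∧ (aeval u q)⁻¹ ∈ X.W := by
  set q' : (↥A)[X] := GoodRed.liftPoly q hq with hq'
  have hqτ : ((gaussEval X ⟨u, hu.mem⟩ q' : ↥X.W) : 𝔽) = aeval u q := by
    rw [coe_gaussEval, hq', GoodRed.map_liftPoly]
  have hw : aeval u q ∈ X.W := hqτ ▸ (gaussEval X ⟨u, hu.mem⟩ q').2
  have hqe : gaussEval X ⟨u, hu.mem⟩ q' = ⟨_, hw⟩ := Subtype.ext hqτ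
  have hc1 : (q'.map (residue ↥A)).coeff j₁ = 1 := by
    rw [coeff_map]
    have h1 : q'.coeff j₁ = 1 := by
      apply Subtype.ext
      rw [hq', GoodRed.coeff_liftPoly]
      exact hq1
    rw [h1, map_one]
  have hq0 : q'.map (residue ↥A) ≠ 0 := by
    intro h0
    rw [h0, coeff_zero] at hc1
    exact zero_ne_one hc1
  have hρ : X.ρ ⟨_, hw⟩ ≠ 0 := by
    rw [← hqe]
    exact hu.ρ_gaussEval_ne_zero hq0
  have h0 := X.ρ_ne_zero_imp_ne_zero hw hρ
  exact ⟨h0, (X.inv_mem_W_iff hw h0).2 hρ⟩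

end IsGaussCoord

/-- `Ω`-linear automorphisms commute with polynomial evaluation. -/
theorem goodp_smul_aeval {g : SemilinearAut Ω 𝔽} (hbase : ∀ a : Ω, SemilinearAut.baseAut g a = a)
    (u : 𝔽) (p : Polynomial Ω) : g • aeval u p = aeval (g • u) p := by
  induction p using Polynomial.induction_on' with
  | add p q hp hq => rw [map_add, smul_add, hp, hq, map_add]
  | monomial n a =>
    rw [aeval_monomial, aeval_monomial, smul_mul', smul_pow', SemilinearAut.smul_algebraMap, hbase]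

/-- **transport of `W ∩ Ω(u)`**: an `Ω`-linear automorphism mapping the Gauss coordinate `u` to a
Gauss coordinate maps `W ∩ Ω(u)` into `W`. -/
theorem IsGaussCoord.smul_mem_of_mem_adjoin {g : SemilinearAut Ω 𝔽}
    (hbase : ∀ a : Ω, SemilinearAut.baseAut g a = a) {u : 𝔽} (hu : IsGaussCoord X u)
    (hgu : IsGaussCoord X (g • u)) {c : 𝔽} (hc : c ∈ Ω⟮u⟯) (hcW : c ∈ X.W) : g • c ∈ X.W := by
  obtain ⟨p, q, hp, hq, ⟨j₁, hq1⟩, hrel⟩ := hu.exists_quot_of_mem_adjoin hc hcW
  have h1 := congrArg (fun z => g • z) hrel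
  simp only [smul_mul', goodp_smul_aeval hbase] at h1
  obtain ⟨h0, hinv⟩ := hgu.inv_aeval_mem hq hq1
  have h2 : g • c = aeval (g • u) p * (aeval (g • u) q)⁻¹ := by
    rw [← h1, mul_assoc, mul_inv_cancel₀ h0, mul_one]
  rw [h2]
  exact X.W.mul_mem _ _ (hgu.aeval_mem_of_coeff_mem hp) hinv

variable (X)

/-- the subring `W ∩ Ω(τ)` of `𝔽`. -/
def gaussBase : Subring 𝔽 := Ω⟮X.τ⟯.toSubring ⊓ X.W.toSubring

theorem mem_gaussBase {c : 𝔽} : c ∈ gaussBase X ↔ c ∈ Ω⟮X.τ⟯ ∧ c ∈ X.W := Iff.rfl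

/-- `W` as an algebra over `W ∩ Ω(τ)`. -/
def gaussAlg : Subalgebra ↥(gaussBase X) 𝔽 :=
  { X.W.toSubring.toSubsemiring with
    algebraMap_mem' := fun r => r.2.2 }

theorem mem_gaussAlg {f : 𝔽} : f ∈ gaussAlg X ↔ f ∈ X.W := Iff.rfl

/-- `W` is a finitely generated module over `W ∩ Ω(τ)` (orthogonal basis). -/
theorem gaussAlg_fg : (gaussAlg X).toSubmodule.FG := by
  have h : (gaussAlg X).toSubmodule = Submodule.span ↥(gaussBase X) (Set.range X.b) := by
    apply le_antisymm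
    · intro f hf
      have hfW : f ∈ X.W := hf
      have hsum := X.basisτ.sum_repr f
      rw [← hsum]
      refine Submodule.sum_mem _ fun i _ => ?_
      have hmem : ((X.basisτ.repr f i : ↥Ω⟮X.τ⟯) : 𝔽) ∈ gaussBase X :=
        ⟨(X.basisτ.repr f i).2, X.repr_mem_Wτ hfW i⟩
      have e : X.basisτ.repr f i • X.basisτ i =
          (⟨((X.basisτ.repr f i : ↥Ω⟮X.τ⟯) : 𝔽), hmem⟩ : ↥(gaussBase X)) • X.b i := by
        rw [X.basisτ_apply]
        rfl
      rw [e]
      exact Submodule.smul_mem _ _ (Submodule.subset_span ⟨i, rfl⟩)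
    · rw [Submodule.span_le]
      rintro _ ⟨i, rfl⟩
      exact X.b_mem i
  rw [h]
  exact Submodule.fg_span (Set.finite_range _)

/-- **`W` is integral over `W ∩ Ω(τ)`.** -/
theorem goodp_isIntegral_of_mem_W {f : 𝔽} (hf : f ∈ X.W) : IsIntegral ↥(gaussBase X) f :=
  IsIntegral.of_mem_of_fg (gaussAlg X) (gaussAlg_fg X) f hf

variable {X}

/-- **`Ω`-linear automorphisms preserve the Gauss ring**: if `g` maps a Gauss coordinate `u` with
`Ω(u) = Ω(τ)` to a Gauss coordinate, then `g W ⊆ W`. -/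
theorem goodp_smul_mem_W {g : SemilinearAut Ω 𝔽}
    (hbase : ∀ a : Ω, SemilinearAut.baseAut g a = a) {u : 𝔽} (hu : IsGaussCoord X u)
    (hgu : IsGaussCoord X (g • u)) (hΩ : Ω⟮u⟯ = Ω⟮X.τ⟯) {f : 𝔽} (hf : f ∈ X.W) :
    g • f ∈ X.W := by
  have hint := goodp_isIntegral_of_mem_W X hf
  let φ : ↥(gaussBase X) →+* ↥X.W :=
    { toFun := fun c => ⟨g • (c : 𝔽),
        hu.smul_mem_of_mem_adjoin hbase hgu (by rw [hΩ]; exact c.2.1) c.2.2⟩
      map_one' := Subtype.ext (smul_one g)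
      map_mul' := fun a b => Subtype.ext (smul_mul' g (a : 𝔽) (b : 𝔽))
      map_zero' := Subtype.ext (smul_zero g)
      map_add' := fun a b => Subtype.ext (smul_add g (a : 𝔽) (b : 𝔽)) }
  have h2 : IsIntegral ↥X.W (MulSemiringAction.toRingHom (SemilinearAut Ω 𝔽) 𝔽 g f) :=
    IsIntegral.map_of_comp_eq φ (MulSemiringAction.toRingHom (SemilinearAut Ω 𝔽) 𝔽 g)
      (by ext c; rfl) hint
  obtain ⟨y, hy⟩ := IsIntegrallyClosed.isIntegral_iff.mp h2
  have h3 : g • f = (y : 𝔽) := hy.symm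
  rw [h3]
  exact y.2

/-! ### Moebius transforms of a Gauss coordinate -/

section Mobius

variable {u : 𝔽} {a b c d e : Ω} (ha : a ∈ A) (hb : b ∈ A) (hc : c ∈ A) (hd : d ∈ A) (he : e ∈ A)

include ha hb hc hd he in
/-- the reduced determinant is a unit. -/
theorem goodp_mobius_det (hdet : (a * d - b * c) * e = 1) :
    (residue ↥A ⟨a, ha⟩ * residue ↥A ⟨d, hd⟩ - residue ↥A ⟨b, hb⟩ * residue ↥A ⟨c, hc⟩) *
      residue ↥A ⟨e, he⟩ = 1 := by
  have h1 : ((⟨a, ha⟩ : ↥A) * ⟨d, hd⟩ - ⟨b, hb⟩ * ⟨c, hc⟩) * ⟨e, he⟩ = 1 := Subtype.ext hdet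
  have h2 := congrArg (residue ↥A) h1
  simpa only [map_mul, map_sub, map_one] using h2

include ha hb hc hd he in
/-- **Moebius transforms with integral coefficients and unit determinant of a Gauss coordinate are
Gauss coordinates.** -/
theorem IsGaussCoord.mobius (hu : IsGaussCoord X u) (hdet : (a * d - b * c) * e = 1) {y : 𝔽}
    (hy : y * (algebraMap Ω 𝔽 c * u + algebraMap Ω 𝔽 d) =
      algebraMap Ω 𝔽 a * u + algebraMap Ω 𝔽 b) : IsGaussCoord X y := by
  have hdet' := goodp_mobius_det ha hb hc hd he hdet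
  set K := algebraMap (ResidueField ↥A) 𝔽b with hK
  set ra := residue ↥A ⟨a, ha⟩ with hra
  set rb := residue ↥A ⟨b, hb⟩ with hrb
  set rc := residue ↥A ⟨c, hc⟩ with hrc
  set rd := residue ↥A ⟨d, hd⟩ with hrd
  set re := residue ↥A ⟨e, he⟩ with hre
  set uW : ↥X.W := ⟨u, hu.mem⟩ with huW
  set ub := X.ρ uW with hub
  set den : ↥X.W := X.constW ⟨c, hc⟩ * uW + X.constW ⟨d, hd⟩ with hden
  set num : ↥X.W := X.constW ⟨a, ha⟩ * uW + X.constW ⟨b, hb⟩ with hnum
  have hρden : X.ρ den = K rc * ub + K rd := by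
    rw [hden, map_add, map_mul, X.ρ_constW, X.ρ_constW]
  have hρnum : X.ρ num = K ra * ub + K rb := by
    rw [hnum, map_add, map_mul, X.ρ_constW, X.ρ_constW]
  have hden0 : X.ρ den ≠ 0 := by
    intro h0
    rw [hρden] at h0
    have hp : (C rc * Polynomial.X + C rd : Polynomial (ResidueField ↥A)) = 0 := by
      apply transcendental_iff.1 hu.trans
      rw [map_add, map_mul, aeval_C, aeval_C, aeval_X]
      exact h0
    have h1 : rc = 0 := by
      have := congrArg (fun q => Polynomial.coeff q 1) hp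
      simpa using this
    have h2 : rd = 0 := by
      have := congrArg (fun q => Polynomial.coeff q 0) hp
      simpa using this
    rw [h1, h2] at hdet'
    simp at hdet'
  have hdenF : (den : 𝔽) ≠ 0 := X.ρ_ne_zero_imp_ne_zero den.2 hden0
  have hinv : (den : 𝔽)⁻¹ ∈ X.W := (X.inv_mem_W_iff den.2 hdenF).2 hden0
  have hy' : y = (num : 𝔽) * (den : 𝔽)⁻¹ := by
    rw [eq_mul_inv_iff_mul_eq₀ hdenF]
    exact hy
  have hyW : y ∈ X.W := by
    rw [hy']
    exact X.W.mul_mem _ _ num.2 hinv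
  have hmul : (⟨y, hyW⟩ : ↥X.W) * den = num := Subtype.ext hy
  have hρ : X.ρ ⟨y, hyW⟩ * (K rc * ub + K rd) = K ra * ub + K rb := by
    rw [← hρden, ← hρnum, ← map_mul, hmul]
  refine ⟨hyW, fun halg => ?_⟩
  set yb := X.ρ ⟨y, hyW⟩ with hyb
  have hKdet : (K ra * K rd - K rb * K rc) * K re = 1 := by
    have := congrArg K hdet'
    simpa only [map_mul, map_sub, map_one] using this
  have hlin : ub * (K rc * yb - K ra) = K rb - K rd * yb := by
    linear_combination hρ
  by_cases hs : K rc * yb - K ra = 0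
  · rw [hs, mul_zero] at hlin
    have h0 : K ra * K rd - K rb * K rc = 0 := by
      linear_combination (-(K rd)) * hs + (K rc) * hlin
    rw [h0, zero_mul] at hKdet
    exact zero_ne_one hKdet
  · apply hu.trans
    have hyL : yb ∈ algebraicClosure (ResidueField ↥A) 𝔽b := mem_algebraicClosure_iff.2 halg
    have hub' : ub = (K rb - K rd * yb) / (K rc * yb - K ra) := by
      rw [eq_div_iff hs]
      exact hlin
    have : ub ∈ algebraicClosure (ResidueField ↥A) 𝔽b := by
      rw [hub']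
      exact div_mem (sub_mem (IntermediateField.algebraMap_mem _ _)
        (mul_mem (IntermediateField.algebraMap_mem _ _) hyL))
        (sub_mem (mul_mem (IntermediateField.algebraMap_mem _ _) hyL)
          (IntermediateField.algebraMap_mem _ _))
    exact mem_algebraicClosure_iff.1 this

include ha hb hc hd in
/-- a Moebius transform which is not the identity modulo the maximal ideal moves the reduction of a
Gauss coordinate. -/
theorem IsGaussCoord.ρ_mobius_ne (hu : IsGaussCoord X u) {y : 𝔽} (hyW : y ∈ X.W)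
    (hy : y * (algebraMap Ω 𝔽 c * u + algebraMap Ω 𝔽 d) =
      algebraMap Ω 𝔽 a * u + algebraMap Ω 𝔽 b)
    (hne : residue ↥A ⟨c, hc⟩ ≠ 0 ∨ residue ↥A ⟨b, hb⟩ ≠ 0 ∨
      residue ↥A ⟨d, hd⟩ ≠ residue ↥A ⟨a, ha⟩) :
    X.ρ ⟨y, hyW⟩ ≠ X.ρ ⟨u, hu.mem⟩ := by
  intro heq
  set K := algebraMap (ResidueField ↥A) 𝔽b with hK
  set ra := residue ↥A ⟨a, ha⟩ with hra
  set rb := residue ↥A ⟨b, hb⟩ with hrb
  set rc := residue ↥A ⟨c, hc⟩ with hrc
  set rd := residue ↥A ⟨d, hd⟩ with hrd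
  set uW : ↥X.W := ⟨u, hu.mem⟩ with huW
  set ub := X.ρ uW with hub
  set den : ↥X.W := X.constW ⟨c, hc⟩ * uW + X.constW ⟨d, hd⟩ with hden
  set num : ↥X.W := X.constW ⟨a, ha⟩ * uW + X.constW ⟨b, hb⟩ with hnum
  have hρden : X.ρ den = K rc * ub + K rd := by
    rw [hden, map_add, map_mul, X.ρ_constW, X.ρ_constW]
  have hρnum : X.ρ num = K ra * ub + K rb := by
    rw [hnum, map_add, map_mul, X.ρ_constW, X.ρ_constW]
  have hmul : (⟨y, hyW⟩ : ↥X.W) * den = num := Subtype.ext hy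
  have hρ : ub * (K rc * ub + K rd) = K ra * ub + K rb := by
    rw [← hρden, ← hρnum, ← heq, ← map_mul, hmul]
  have hp : (C rc * Polynomial.X ^ 2 + C (rd - ra) * Polynomial.X - C rb :
      Polynomial (ResidueField ↥A)) = 0 := by
    apply transcendental_iff.1 hu.trans
    rw [map_sub, map_add, map_mul, map_mul, aeval_C, aeval_C, aeval_C, map_pow, aeval_X, map_sub]
    linear_combination hρ
  have h2 : rc = 0 := by
    have := congrArg (fun q => Polynomial.coeff q 2) hp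
    simpa [coeff_X, coeff_C] using this
  have h1 : rd - ra = 0 := by
    have := congrArg (fun q => Polynomial.coeff q 1) hp
    simpa [coeff_X, coeff_C] using this
  have h0 : rb = 0 := by
    have := congrArg (fun q => Polynomial.coeff q 0) hp
    simpa [coeff_X, coeff_C] using this
  rcases hne with h | h | h
  · exact h h2
  · exact h h0
  · exact h (sub_eq_zero.mp h1)

end Mobius

/-! ### the six anharmonic transforms -/

section Six

variable {u : 𝔽}

theorem IsGaussCoord.ne_algebraMap (hu : IsGaussCoord X u) {a : Ω} (ha : a ∈ A) :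
    u ≠ algebraMap Ω 𝔽 a := by
  intro h
  apply hu.trans
  have e : (⟨u, hu.mem⟩ : ↥X.W) = X.constW ⟨a, ha⟩ := Subtype.ext h
  rw [e, X.ρ_constW]
  exact isAlgebraic_algebraMap _

theorem IsGaussCoord.ne_zero (hu : IsGaussCoord X u) : u ≠ 0 := by
  have := hu.ne_algebraMap A.zero_mem
  rwa [map_zero] at this

theorem IsGaussCoord.ne_one (hu : IsGaussCoord X u) : u ≠ 1 := by
  have := hu.ne_algebraMap A.one_mem
  rwa [map_one] at this

/-- `y` is one of the six anharmonic transforms of `u`. -/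
def IsAnharmonic (u y : 𝔽) : Prop :=
  y = u ∨ y = 1 - u ∨ y = u⁻¹ ∨ y = (1 - u)⁻¹ ∨ y = (u - 1) / u ∨ y = u / (u - 1)

/-- **the six anharmonic transforms of a Gauss coordinate are Gauss coordinates.** -/
theorem IsGaussCoord.anharmonic (hu : IsGaussCoord X u) {y : 𝔽} (hy : IsAnharmonic u y) :
    IsGaussCoord X y := by
  have h0 := hu.ne_zero
  have h1 : u - 1 ≠ 0 := sub_ne_zero.mpr hu.ne_one
  have h1' : 1 - u ≠ 0 := sub_ne_zero.mpr (Ne.symm hu.ne_one)
  have hm1 : (-1 : Ω) ∈ A := A.neg_mem _ A.one_mem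
  rcases hy with rfl | rfl | rfl | rfl | rfl | rfl
  · exact hu
  · refine hu.mobius (a := -1) (b := 1) (c := 0) (d := 1) (e := -1) hm1 A.one_mem A.zero_mem
      A.one_mem hm1 (by ring) ?_
    simp only [map_neg, map_one, map_zero]
    ring
  · refine hu.mobius (a := 0) (b := 1) (c := 1) (d := 0) (e := -1) A.zero_mem A.one_mem A.one_mem
      A.zero_mem hm1 (by ring) ?_
    simp only [map_one, map_zero]
    field_simp
    ring
  · refine hu.mobius (a := 0) (b := 1) (c := -1) (d := 1) (e := 1) A.zero_mem A.one_mem hm1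
      A.one_mem A.one_mem (by ring) ?_
    simp only [map_neg, map_one, map_zero]
    rw [show -1 * u + 1 = 1 - u by ring, inv_mul_cancel₀ h1']
    ring
  · refine hu.mobius (a := 1) (b := -1) (c := 1) (d := 0) (e := 1) A.one_mem hm1 A.one_mem
      A.zero_mem A.one_mem (by ring) ?_
    simp only [map_neg, map_one, map_zero]
    field_simp
    ring
  · refine hu.mobius (a := 1) (b := 0) (c := 1) (d := -1) (e := -1) A.one_mem A.zero_mem A.one_mem
      hm1 hm1 (by ring) ?_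
    simp only [map_neg, map_one, map_zero]
    rw [show 1 * u + -1 = u - 1 by ring, div_mul_cancel₀ _ h1]
    ring

/-- **a non-trivial anharmonic transform moves the reduction of a Gauss coordinate.** -/
theorem IsGaussCoord.ρ_anharmonic_ne (hu : IsGaussCoord X u) {y : 𝔽} (hy : IsAnharmonic u y)
    (hne : y ≠ u) (hyW : y ∈ X.W) : X.ρ ⟨y, hyW⟩ ≠ X.ρ ⟨u, hu.mem⟩ := by
  have h0 := hu.ne_zero
  have h1 : u - 1 ≠ 0 := sub_ne_zero.mpr hu.ne_one
  have h1' : 1 - u ≠ 0 := sub_ne_zero.mpr (Ne.symm hu.ne_one)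
  have hm1 : (-1 : Ω) ∈ A := A.neg_mem _ A.one_mem
  have r1 : residue ↥A ⟨1, A.one_mem⟩ ≠ 0 := by
    have : (⟨1, A.one_mem⟩ : ↥A) = 1 := rfl
    rw [this, map_one]
    exact one_ne_zero
  have rm1 : residue ↥A ⟨-1, hm1⟩ ≠ 0 := by
    have : (⟨-1, hm1⟩ : ↥A) = -1 := rfl
    rw [this, map_neg, map_one]
    exact neg_ne_zero.mpr one_ne_zero
  rcases hy with rfl | rfl | rfl | rfl | rfl | rfl
  · exact absurd rfl hne
  · refine hu.ρ_mobius_ne (a := -1) (b := 1) (c := 0) (d := 1) hm1 A.one_mem A.zero_mem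
      A.one_mem hyW ?_ (Or.inr (Or.inl r1))
    simp only [map_neg, map_one, map_zero]
    ring
  · refine hu.ρ_mobius_ne (a := 0) (b := 1) (c := 1) (d := 0) A.zero_mem A.one_mem A.one_mem
      A.zero_mem hyW ?_ (Or.inl r1)
    simp only [map_one, map_zero]
    field_simp
    ring
  · refine hu.ρ_mobius_ne (a := 0) (b := 1) (c := -1) (d := 1) A.zero_mem A.one_mem hm1
      A.one_mem hyW ?_ (Or.inl rm1)
    simp only [map_neg, map_one, map_zero]
    rw [show -1 * u + 1 = 1 - u by ring, inv_mul_cancel₀ h1']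
    ring
  · refine hu.ρ_mobius_ne (a := 1) (b := -1) (c := 1) (d := 0) A.one_mem hm1 A.one_mem
      A.zero_mem hyW ?_ (Or.inl r1)
    simp only [map_neg, map_one, map_zero]
    field_simp
    ring
  · refine hu.ρ_mobius_ne (a := 1) (b := 0) (c := 1) (d := -1) A.one_mem A.zero_mem A.one_mem
      hm1 hyW ?_ (Or.inl r1)
    simp only [map_neg, map_one, map_zero]
    rw [show 1 * u + -1 = u - 1 by ring, div_mul_cancel₀ _ h1]
    ring

end Six

end Fermat.Agent.MW

end
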