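/-
MW (S17) — helper3 — [GOOD-P], part 14: **the reduction of points is determined by the reduction
of functions**, and deck automorphisms.

`X : GoodRed Ω A 𝔽 𝔽b`.
* `goodp_exists_single_pole` : a function whose only pole is a given point (Riemann's inequality);
* `goodp_r_unique` : a map `r'` of points satisfying the reduction axiom `r'_* (div y) = div (ρ y)`
  coincides with `X.r`;
* `isDeckAut_of_preservesGauss` : an `Ω`-linear automorphism preserving the Gauss ring is
  automatically compatible with the reduction of points (`IsDeckAut`).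
-/
import Mathlib
import Fermat.Agent.MW.GOODP_helper3_Int
import Fermat.Agent.FG.TAUREG_helper2
import Fermat.Agent.FG.ERED_helper1_Aut

set_option autoImplicit false
set_option linter.unusedSectionVars false
set_option linter.style.haveILetI false

noncomputable section

namespace Fermat.Agent.MW

open AlgebraicCurve IsLocalRing IntermediateField Fermat.Agent.FF Fermat.Agent.JA
  Fermat.Agent.FG
open scoped Classical

variable {Ω : Type*} [Field Ω] {A : ValuationSubring Ω} {𝔽 : Type*} [Field 𝔽] [Algebra Ω 𝔽]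
  {𝔽b : Type*} [Field 𝔽b] [Algebra (ResidueField ↥A) 𝔽b] (X : GoodRed Ω A 𝔽 𝔽b)

include X in
/-- **a function whose only pole is `P`** (Riemann's inequality). -/
theorem goodp_exists_single_pole (P : Place Ω 𝔽) :
    ∃ f : 𝔽, P.ord f < 0 ∧ ∀ P' : Place Ω 𝔽, P' ≠ P → 0 ≤ P'.ord f := by
  obtain ⟨hfin, hineq⟩ := X.riemann_gen (Finsupp.single P ((X.g : ℤ) + 1))
  rw [Divisor.degree_single, X.deg_gen P] at hineq
  have h2 : 2 ≤ Module.finrank Ω ↥(riemannRochSpace (K := Ω) (Finsupp.single P ((X.g : ℤ) + 1))) := by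
    have : (2 : ℤ) ≤ (Module.finrank Ω
        ↥(riemannRochSpace (K := Ω) (Finsupp.single P ((X.g : ℤ) + 1))) : ℤ) := by
      push_cast at hineq
      linarith
    exact_mod_cast this
  have hex : ∃ f ∈ riemannRochSpace (K := Ω) (Finsupp.single P ((X.g : ℤ) + 1)),
      ∀ a : Ω, f ≠ algebraMap Ω 𝔽 a := by
    by_contra hcon
    push Not at hcon
    have hle : riemannRochSpace (K := Ω) (Finsupp.single P ((X.g : ℤ) + 1)) ≤
        Submodule.span Ω {(1 : 𝔽)} := by
      intro f hf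
      obtain ⟨a, ha⟩ := hcon f hf
      rw [Submodule.mem_span_singleton]
      exact ⟨a, by rw [ha, Algebra.algebraMap_eq_smul_one]⟩
    have h1 := Submodule.finrank_mono hle
    have h3 : Module.finrank Ω ↥(Submodule.span Ω {(1 : 𝔽)}) ≤ 1 := by
      have := finrank_span_le_card (R := Ω) ({(1 : 𝔽)} : Set 𝔽)
      simpa using this
    omega
  obtain ⟨f, hfL, hfc⟩ := hex
  have hf0 : f ≠ 0 := fun h0 => hfc 0 (by rw [h0, map_zero])
  rw [mem_riemannRochSpace_iff] at hfL
  have hreg : ∀ P' : Place Ω 𝔽, P' ≠ P → 0 ≤ P'.ord f := by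
    intro P' hP'
    have h := (hfL P').resolve_left hf0
    rw [Finsupp.single_apply, if_neg (Ne.symm hP')] at h
    simpa using h
  refine ⟨f, ?_, hreg⟩
  by_contra hP
  push Not at hP
  obtain ⟨a, ha⟩ := X.const_gen f (fun P' => by
    by_cases hP' : P' = P
    · rw [hP']; exact hP
    · exact hreg P' hP')
  exact hfc a ha

/-- the reduction of points is not constant. -/
theorem goodp_exists_r_ne (P : Place Ω 𝔽) : ∃ P₁ : Place Ω 𝔽, X.r P₁ ≠ X.r P := by
  by_cases h : X.r P = X.r X.cusp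
  · -- a pole of `τ`
    have hex : ∃ P₁ : Place Ω 𝔽, P₁.ord X.τ < 0 := by
      by_contra hcon
      push Not at hcon
      obtain ⟨a, ha⟩ := X.const_gen X.τ hcon
      apply X.τ_transcendental
      rw [ha]
      exact isAlgebraic_algebraMap a
    obtain ⟨P₁, hP₁⟩ := hex
    refine ⟨P₁, fun h1 => ?_⟩
    have := X.τ_regular P₁ (h1.trans h)
    omega
  · exact ⟨X.cusp, fun h1 => h h1.symm⟩

/-- **the reduction of points is determined by the reduction of functions.** -/
theorem goodp_r_unique (r' : Place Ω 𝔽 → Place (ResidueField ↥A) 𝔽b)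
    (hr' : ∀ (y : ↥X.W), X.ρ y ≠ 0 → ∀ D : Divisor Ω 𝔽, (∀ P, D P = P.ord (y : 𝔽)) →
      ∀ Q, Finsupp.mapDomain r' D Q = Q.ord (X.ρ y)) (P : Place Ω 𝔽) : r' P = X.r P := by
  by_contra hne
  obtain ⟨P₁, hP₁⟩ := goodp_exists_r_ne X P
  have hP₁P : P₁ ≠ P := fun h => hP₁ (by rw [h])
  obtain ⟨f, hfP, hfreg⟩ := goodp_exists_single_pole X P
  have hf0 : f ≠ 0 := by
    rintro rfl
    simp at hfP
  have hfmem : ∀ P' : Place Ω 𝔽, P' ≠ P → f ∈ P'.toValuationSubring := fun P' hP' =>
    (PlaceAux.mem_iff_ord_nonneg' P' hf0).mpr (hfreg P' hP')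
  obtain ⟨c, hc⟩ := HasValueAt.exists_of_mem (X.deg_gen P₁) (hfmem P₁ hP₁P)
  set h : 𝔽 := f - algebraMap Ω 𝔽 c with hh
  have hordP : P.ord h = P.ord f := by
    by_cases hc0 : algebraMap Ω 𝔽 c = 0
    · rw [hh, hc0, sub_zero]
    · rw [hh, sub_eq_add_neg]
      apply PlaceAux.ord_add_eq_of_lt P hf0 (neg_ne_zero.mpr hc0)
      rw [show -algebraMap Ω 𝔽 c = algebraMap Ω 𝔽 (-c) by rw [map_neg], PlaceAux.ord_algebraMap]
      exact hfP
  have hh0 : h ≠ 0 := by
    intro h0
    rw [h0] at hordP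
    simp at hordP
    omega
  have hreg : ∀ P' : Place Ω 𝔽, P' ≠ P → 0 ≤ P'.ord h := fun P' hP' =>
    PlaceAux.ord_nonneg_of_mem P'
      (sub_mem (hfmem P' hP') (P'.algebraMap_mem' c))
  have hpos : 0 < P₁.ord h := (HasValueAt.iff_ord.mp hc).resolve_left hh0
  obtain ⟨a, ha0, haW, haW'⟩ := X.exists_smul_unit h hh0
  have hah0 : a • h ≠ 0 := smul_ne_zero ha0 hh0
  have hρ : X.ρ ⟨a • h, haW⟩ ≠ 0 := X.ρ_ne_zero_of_inv_mem haW haW' hah0
  haveI := X.principal_gen
  obtain ⟨D, hD, hdeg⟩ := HasPrincipalDivisors.exists_divisor (K := Ω) h hh0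
  have hD' : ∀ v : Place Ω 𝔽, D v = v.ord (a • h) := by
    intro v
    rw [hD, Algebra.smul_def, v.ord_mul ((_root_.map_ne_zero _).mpr ha0) hh0,
      PlaceAux.ord_algebraMap, zero_add]
  have e1 := X.r_div ⟨a • h, haW⟩ hρ D hD' (X.r P)
  have e2 := hr' ⟨a • h, haW⟩ hρ D hD' (X.r P)
  rw [FG.mapDomain_apply_eq_sum_filter X.r D D.support (Finset.Subset.refl _)] at e1
  rw [FG.mapDomain_apply_eq_sum_filter r' D D.support (Finset.Subset.refl _)] at e2
  -- the `r'`-side is nonnegative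
  have hnn : 0 ≤ ∑ v ∈ D.support.filter (fun v => r' v = X.r P), D v := by
    refine Finset.sum_nonneg fun v hv => ?_
    have hvP : v ≠ P := by
      rintro rfl
      exact hne (Finset.mem_filter.mp hv).2
    rw [hD]
    exact hreg v hvP
  -- the degree
  have hsum : ∑ v ∈ D.support, D v = 0 := by
    rw [← hdeg, degree_eq_sum_of_support_subset D D.support (Finset.Subset.refl _)]
    refine Finset.sum_congr rfl fun v _ => ?_
    rw [X.deg_gen v]
    simp
  have hsplit := Finset.sum_filter_add_sum_filter_not D.support (fun v => X.r v = X.r P)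
    (fun v => D v)
  have hle : ∑ v ∈ D.support.filter (fun v => ¬ X.r v = X.r P), D v ≤ 0 := by
    have : 0 ≤ ∑ v ∈ D.support.filter (fun v => X.r v = X.r P), D v := by
      rw [e1, ← e2]
      exact hnn
    linarith
  have hmem : P₁ ∈ D.support.filter (fun v => ¬ X.r v = X.r P) := by
    refine Finset.mem_filter.mpr ⟨?_, hP₁⟩
    rw [Finsupp.mem_support_iff, hD]
    omega
  have hlt : 0 < ∑ v ∈ D.support.filter (fun v => ¬ X.r v = X.r P), D v := by
    refine Finset.sum_pos' (fun v hv => ?_) ⟨P₁, hmem, by rw [hD]; exact hpos⟩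
    have hvP : v ≠ P := by
      rintro rfl
      exact (Finset.mem_filter.mp hv).2 rfl
    rw [hD]
    exact hreg v hvP
  omega

variable {X}

/-- **an `Ω`-linear automorphism preserving the Gauss ring is a deck automorphism of the
good-reduction datum**: the compatibility with the reduction of points is automatic. -/
theorem isDeckAut_of_preservesGauss {g : SemilinearAut Ω 𝔽}
    (hbase : ∀ a : Ω, SemilinearAut.baseAut g a = a) (hpg : PreservesGauss A X.W g) :
    IsDeckAut X g := by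
  have hAW : ∀ a : Ω, a ∈ A → algebraMap Ω 𝔽 a ∈ X.W := fun a ha =>
    (X.algebraMap_mem_iff a).mpr ha
  set gb : SemilinearAut (ResidueField ↥A) 𝔽b :=
    redAut X.ρ_surjective X.ρ_algebraMap hAW hpg with hgb
  have key : ∀ P : Place Ω 𝔽, X.r (g • P) = gb • X.r P := by
    intro P
    have h := goodp_r_unique X (fun P => gb⁻¹ • X.r (g • P)) ?_ P
    · have h' : gb⁻¹ • X.r (g • P) = X.r P := h
      rw [← h', smul_inv_smul]
    · intro y hy D hD Q
      have hcomp : (fun P : Place Ω 𝔽 => gb⁻¹ • X.r (g • P)) =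
          (fun Q : Place (ResidueField ↥A) 𝔽b => gb⁻¹ • Q) ∘ X.r ∘ (fun P : Place Ω 𝔽 => g • P) :=
        rfl
      rw [hcomp, Finsupp.mapDomain_comp, Finsupp.mapDomain_comp]
      set D₁ : Divisor Ω 𝔽 := Finsupp.mapDomain (fun P : Place Ω 𝔽 => g • P) D with hD₁
      have hy₁ : g • (y : 𝔽) ∈ X.W := (hpg.smul_mem _).mpr y.2
      have hρ₁ : X.ρ ⟨g • (y : 𝔽), hy₁⟩ = gb • X.ρ y :=
        (redAut_smul X.ρ_surjective X.ρ_algebraMap hAW hpg y).symm
      have hρ₁0 : X.ρ ⟨g • (y : 𝔽), hy₁⟩ ≠ 0 := by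
        rw [hρ₁]
        exact (smul_ne_zero_iff_ne gb).mpr hy
      have hD₁v : ∀ P' : Place Ω 𝔽, D₁ P' = P'.ord (g • (y : 𝔽)) := by
        intro P'
        have e1 : D₁ (g • (g⁻¹ • P')) = D (g⁻¹ • P') :=
          Finsupp.mapDomain_apply (MulAction.injective g) D (g⁻¹ • P')
        rw [smul_inv_smul] at e1
        rw [e1, hD]
        have e2 := SemilinearAut.ord_smul g (g⁻¹ • P') (y : 𝔽)
        rw [smul_inv_smul] at e2
        exact e2.symm
      have e3 : Finsupp.mapDomain (fun Q : Place (ResidueField ↥A) 𝔽b => gb⁻¹ • Q)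
          (Finsupp.mapDomain X.r D₁) (gb⁻¹ • (gb • Q)) = Finsupp.mapDomain X.r D₁ (gb • Q) :=
        Finsupp.mapDomain_apply (MulAction.injective gb⁻¹) _ (gb • Q)
      rw [inv_smul_smul] at e3
      rw [e3, X.r_div ⟨g • (y : 𝔽), hy₁⟩ hρ₁0 D₁ hD₁v (gb • Q), hρ₁]
      exact SemilinearAut.ord_smul gb Q (X.ρ y)
  refine ⟨hbase, hpg.smul_mem, fun P f hf => ?_⟩
  rw [key P]
  exact mem_redAut_smul_iff X.ρ_surjective X.ρ_algebraMap hAW hpg (X.r P) (f : 𝔽) f.2 hf

/-- **deck automorphisms from Gauss coordinates**: an `Ω`-linear automorphism `g` such that `g` and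
`g⁻¹` map a Gauss coordinate `u` with `Ω(u) = Ω(τ)` to Gauss coordinates is a deck automorphism of
the good-reduction datum. -/
theorem isDeckAut_of_isGaussCoord {g : SemilinearAut Ω 𝔽}
    (hbase : ∀ a : Ω, SemilinearAut.baseAut g a = a) {u : 𝔽} (hu : IsGaussCoord X u)
    (hgu : IsGaussCoord X (g • u)) (hgu' : IsGaussCoord X (g⁻¹ • u)) (hΩ : Ω⟮u⟯ = Ω⟮X.τ⟯) :
    IsDeckAut X g := by
  have hbase' : ∀ a : Ω, SemilinearAut.baseAut g⁻¹ a = a := by
    intro a
    rw [SemilinearAut.baseAut_inv]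
    have h := hbase a
    conv_lhs => rw [← h]
    exact RingEquiv.symm_apply_apply _ _
  refine isDeckAut_of_preservesGauss hbase ⟨fun a => by rw [hbase a], fun f => ⟨fun h => ?_, fun h => ?_⟩⟩
  · have := goodp_smul_mem_W hbase' hu hgu' hΩ h
    rwa [inv_smul_smul] at this
  · exact goodp_smul_mem_W hbase hu hgu hΩ h

end Fermat.Agent.MW

end
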