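/-
MW (S17) — helper3 — [GOOD-P], part 16: **the Legendre host at an odd prime `p ∤ N`**: the deck
group of `legE Ω N / FunN N` is a group of deck automorphisms of `legGoodRed` acting faithfully on
the reduced function field, and it is the Galois group of the cover.
-/
import Mathlib
import Fermat.Agent.MW.GOODP_helper3_Pkg
import Fermat.Agent.MW.GOODP_helper3_Uniq
import Fermat.Agent.MW.GOODP_helper3_Cover
import Fermat.Agent.FG.INST_helper5_Leg
import Fermat.Agent.FG.EGAL_helper6_PullLeg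
import Fermat.Agent.TW.Kill_helper1_Frob
import Fermat.Agent.MW.ARCH_helper9_Bad

set_option autoImplicit false
set_option linter.unusedSectionVars false
set_option linter.style.haveILetI false

noncomputable section

namespace Fermat.Agent.MW

open AlgebraicCurve ModularCurve IsLocalRing IntermediateField Fermat.Agent.FF Fermat.Agent.JA
  Fermat.Agent.FG Fermat.Agent.SS
open scoped Classical NNReal Pointwise

local notation "Ω" => AlgebraicClosure ℚ

section Leg

variable (N : ℕ) [NeZero N] {ℓ : ℕ} [Fact ℓ.Prime] {A : ValuationSubring Ω}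
  (hA : A.LiesOverPrime ℓ) (hℓN : ¬ ℓ ∣ N) (hℓ2 : ℓ ≠ 2)

/-- the Legendre coordinate is a Gauss coordinate of `legGoodRed`. -/
theorem isGaussCoord_legTE : IsGaussCoord (legGoodRed hA N hℓN hℓ2) (legTE Ω N) := by
  rw [legTE_eq_legCoordBar_x]
  exact ⟨legCoordBar_x_mem_legWE hA N hℓ2, (legEt_facts hA N hℓN hℓ2).1⟩

theorem adjoin_legTE_eq_adjoin_τ :
    Ω⟮legTE Ω N⟯ = Ω⟮(legGoodRed hA N hℓN hℓ2).τ⟯ := (adjoin_legTau Ω N).symm

/-- the action of a deck transformation on the Legendre coordinate. -/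
theorem isAnharmonic_legTE {h : ↥(legE Ω N) ≃ₐ[Ω] ↥(legE Ω N)}
    (hh : h ∈ fixingAlong (fullToLegE Ω N)) : IsAnharmonic (legTE Ω N) (h (legTE Ω N)) :=
  legendre_six (legTE_ne_zero N) (legTE_ne_one N) (legE_conj_rel N hh)

/-- **the deck transformations of the Legendre cover are deck automorphisms of the
good-reduction datum.** -/
theorem isDeckAut_leg {g : SemilinearAut Ω ↥(legE Ω N)} (hg : g ∈ deckGroup (fullToLegE Ω N)) :
    IsDeckAut (legGoodRed hA N hℓN hℓ2) g := by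
  have hu := isGaussCoord_legTE N hA hℓN hℓ2
  have hginv : g⁻¹ ∈ deckGroup (fullToLegE Ω N) := inv_mem hg
  obtain ⟨h, hh, rfl⟩ := mem_deckGroup.mp hg
  obtain ⟨h', hh', hh'eq⟩ := mem_deckGroup.mp hginv
  refine isDeckAut_of_isGaussCoord (deckGroup_base hg) hu ?_ ?_ (adjoin_legTE_eq_adjoin_τ N hA hℓN hℓ2)
  · exact hu.anharmonic (isAnharmonic_legTE N hh)
  · rw [← hh'eq]
    exact hu.anharmonic (isAnharmonic_legTE N hh')

/-- **the deck group of the Legendre cover is a deck group of the good-reduction datum.** -/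
theorem isDeckGroup_leg :
    IsDeckGroup (legGoodRed hA N hℓN hℓ2) (deckGroup (fullToLegE Ω N)) where
  deck g hg := isDeckAut_leg N hA hℓN hℓ2 hg
  faith g hg hg1 := by
    have hu := isGaussCoord_legTE N hA hℓN hℓ2
    have hginv : g⁻¹ ∈ deckGroup (fullToLegE Ω N) := inv_mem hg
    obtain ⟨h', hh', hh'eq⟩ := mem_deckGroup.mp hginv
    have han : IsAnharmonic (legTE Ω N) (g⁻¹ • legTE Ω N) := by
      rw [← hh'eq]
      exact isAnharmonic_legTE N hh'
    have hmem := (hu.anharmonic han).mem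
    refine ⟨⟨legTE Ω N, hu.mem⟩, hmem, hu.ρ_anharmonic_ne han ?_ hmem⟩
    intro heq
    apply hg1
    have h1 : h' = 1 := legE_eq_one_of_apply_legTE N hh' (by rw [← hh'eq] at heq; exact heq)
    rw [h1, map_one] at hh'eq
    exact inv_eq_one.mp hh'eq.symm

end Leg

/-! ### the ramification of the Legendre cover -/

section Ram

/-- the fixed points of the non-trivial anharmonic transformations lie over `j = 0, 1728`. -/
theorem goodp_legendre_fixed_point {K : Type*} [Field K] [CharZero K] {j₀ t₀ s : K}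
    (hrel : j₀ * (t₀ ^ 2 * (t₀ - 1) ^ 2) = 256 * (t₀ ^ 2 - t₀ + 1) ^ 3) (h0 : t₀ ≠ 0)
    (h1 : t₀ ≠ 1)
    (hs : s = 1 - t₀ ∨ s = t₀⁻¹ ∨ s = (1 - t₀)⁻¹ ∨ s = (t₀ - 1) / t₀ ∨ s = t₀ / (t₀ - 1))
    (hfix : s = t₀) : j₀ = 0 ∨ j₀ = 1728 := by
  have h1' : t₀ - 1 ≠ 0 := sub_ne_zero.mpr h1
  have h1'' : 1 - t₀ ≠ 0 := sub_ne_zero.mpr (Ne.symm h1)
  have hzero : t₀ ^ 2 - t₀ + 1 = 0 → j₀ = 0 := by
    intro hz
    rw [hz] at hrel
    have h2 : t₀ ^ 2 * (t₀ - 1) ^ 2 ≠ 0 := mul_ne_zero (pow_ne_zero 2 h0) (pow_ne_zero 2 h1')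
    have h3 : j₀ * (t₀ ^ 2 * (t₀ - 1) ^ 2) = 0 := by rw [hrel]; ring
    exact (mul_eq_zero.mp h3).resolve_right h2
  rcases hs with rfl | rfl | rfl | rfl | rfl
  · -- `2 t₀ = 1`
    right
    have h2 : t₀ = 1 / 2 := by
      have : 2 * t₀ = 1 := by linear_combination -hfix
      field_simp
      linear_combination this
    rw [h2] at hrel
    have h3 : j₀ * (1 / 16) = 108 := by
      have : ((1 / 2 : K) ^ 2 * ((1 / 2 : K) - 1) ^ 2) = 1 / 16 := by norm_num
      rw [this] at hrel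
      rw [hrel]
      norm_num
    have : j₀ = 108 * 16 := by
      field_simp at h3
      linear_combination h3
    rw [this]; norm_num
  · -- `t₀² = 1`
    right
    have h2 : t₀ ^ 2 = 1 := by
      have := hfix
      rw [inv_eq_iff_eq_inv] at this
      field_simp at this
      linear_combination this
    have h3 : t₀ = -1 := by
      have : (t₀ - 1) * (t₀ + 1) = 0 := by linear_combination h2
      rcases mul_eq_zero.mp this with h | h
      · exact absurd h h1'
      · linear_combination h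
    rw [h3] at hrel
    have : j₀ * 4 = 256 * 27 := by
      have e : ((-1 : K) ^ 2 * ((-1 : K) - 1) ^ 2) = 4 := by norm_num
      have e' : ((-1 : K) ^ 2 - (-1) + 1) ^ 3 = 27 := by norm_num
      rw [e, e'] at hrel
      exact hrel
    have : j₀ = 1728 := by linear_combination this / 4
    exact this
  · -- `t₀ (1 - t₀) = 1`
    left
    apply hzero
    have := hfix
    rw [inv_eq_iff_eq_inv] at this
    field_simp at this
    linear_combination -this
  · -- `t₀ - 1 = t₀²`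
    left
    apply hzero
    have := hfix
    rw [div_eq_iff h0] at this
    linear_combination -this
  · -- `t₀ = 2`
    right
    have h3 : t₀ = 2 := by
      have := hfix
      rw [div_eq_iff h1'] at this
      have h4 : t₀ * (t₀ - 2) = 0 := by linear_combination -this
      rcases mul_eq_zero.mp h4 with h | h
      · exact absurd h h0
      · linear_combination h
    rw [h3] at hrel
    have : j₀ * 4 = 256 * 27 := by
      have e : ((2 : K) ^ 2 * ((2 : K) - 1) ^ 2) = 4 := by norm_num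
      have e' : ((2 : K) ^ 2 - 2 + 1) ^ 3 = 27 := by norm_num
      rw [e, e'] at hrel
      exact hrel
    have : j₀ = 1728 := by linear_combination this / 4
    exact this

variable (N : ℕ) [NeZero N]

/-- **the stabilisers of the Legendre cover are trivial away from `j = 0, 1728, ∞`.** -/
theorem leg_stabilizer_trivial {Q' : Place Ω ↥(legE Ω N)} {j₀ : Ω}
    (hj : HasValueAt Q' (legJE Ω N) j₀) (hj0 : j₀ ≠ 0) (hj1728 : j₀ ≠ 1728)
    {g : SemilinearAut Ω ↥(legE Ω N)} (hg : g ∈ deckGroup (fullToLegE Ω N))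
    (hfix : g • Q' = Q') : g = 1 := by
  obtain ⟨h, hh, rfl⟩ := mem_deckGroup.mp hg
  set T := legTE Ω N with hT
  have hT0 : T ≠ 0 := legTE_ne_zero N
  have hrel := legTE_rel N
  -- `T` is regular at `Q'`
  have hreg : T ∈ Q'.toValuationSubring := by
    by_contra hnot
    have hinv : T⁻¹ ∈ Q'.toValuationSubring :=
      (Q'.toValuationSubring.mem_or_inv_mem T).resolve_left hnot
    have hs0 : HasValueAt Q' T⁻¹ 0 := by
      rw [HasValueAt.zero_iff]
      right
      have h1 : 0 ≤ Q'.ord T⁻¹ := PlaceAux.ord_nonneg_of_mem Q' hinv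
      have h2 : ¬ 0 ≤ Q'.ord T := fun h3 =>
        hnot ((PlaceAux.mem_iff_ord_nonneg' Q' hT0).mpr h3)
      rw [Q'.ord_inv] at h1 ⊢
      omega
    have hrel' : legJE Ω N * (T⁻¹ ^ 2 * (1 - T⁻¹) ^ 2) = 256 * (1 - T⁻¹ + T⁻¹ ^ 2) ^ 3 := by
      have e1 : T⁻¹ ^ 2 * (1 - T⁻¹) ^ 2 = (T ^ 2 * (T - 1) ^ 2) * T⁻¹ ^ 6 := by
        field_simp
      have e2 : (1 - T⁻¹ + T⁻¹ ^ 2) ^ 3 = (T ^ 2 - T + 1) ^ 3 * T⁻¹ ^ 6 := by
        field_simp
      rw [e1, e2, ← mul_assoc, hrel]
      ring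
    have hv1 : HasValueAt Q' (legJE Ω N * (T⁻¹ ^ 2 * (1 - T⁻¹) ^ 2))
        (j₀ * (0 ^ 2 * (1 - 0) ^ 2)) :=
      hj.mul ((hs0.pow 2).mul (((HasValueAt.one' Q').sub hs0).pow 2))
    have hv2 : HasValueAt Q' (256 * (1 - T⁻¹ + T⁻¹ ^ 2) ^ 3)
        (256 * (1 - 0 + 0 ^ 2) ^ 3) := by
      have h256 : HasValueAt Q' (256 : ↥(legE Ω N)) (256 : Ω) :=
        HasValueAt.of_eq (map_ofNat _ 256).symm
      exact h256.mul ((((HasValueAt.one' Q').sub hs0).add (hs0.pow 2)).pow 3)
    rw [hrel'] at hv1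
    have := hv1.unique hv2
    norm_num at this
  obtain ⟨t₀, ht₀⟩ := HasValueAt.exists_of_mem (legE_deg_gen N Q') hreg
  have h256 : HasValueAt Q' (256 : ↥(legE Ω N)) (256 : Ω) :=
    HasValueAt.of_eq (map_ofNat _ 256).symm
  have hv1 : HasValueAt Q' (legJE Ω N * (T ^ 2 * (T - 1) ^ 2)) (j₀ * (t₀ ^ 2 * (t₀ - 1) ^ 2)) :=
    hj.mul ((ht₀.pow 2).mul ((ht₀.sub (HasValueAt.one' Q')).pow 2))
  have hv2 : HasValueAt Q' (256 * (T ^ 2 - T + 1) ^ 3) (256 * (t₀ ^ 2 - t₀ + 1) ^ 3) :=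
    h256.mul ((((ht₀.pow 2).sub ht₀).add (HasValueAt.one' Q')).pow 3)
  rw [hrel] at hv1
  have hrel₀ : j₀ * (t₀ ^ 2 * (t₀ - 1) ^ 2) = 256 * (t₀ ^ 2 - t₀ + 1) ^ 3 := hv1.unique hv2
  have ht0 : t₀ ≠ 0 := by
    rintro rfl
    norm_num at hrel₀
  have ht1 : t₀ ≠ 1 := by
    rintro rfl
    norm_num at hrel₀
  -- the value of `h T` at `Q'`
  have hval : HasValueAt Q' (h T) t₀ := by
    have := ht₀.smul (SemilinearAut.ofAlgAut h)
    rwa [hfix] at this
  have hone : HasValueAt Q' (1 : ↥(legE Ω N)) (1 : Ω) := HasValueAt.one' Q'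
  have ht1' : t₀ - 1 ≠ 0 := sub_ne_zero.mpr ht1
  have ht1'' : 1 - t₀ ≠ 0 := sub_ne_zero.mpr (Ne.symm ht1)
  have hcase := isAnharmonic_legTE N hh
  have hT_eq : h T = T := by
    rcases hcase with hc | hc | hc | hc | hc | hc
    · exact hc
    all_goals exfalso
    · have hv : HasValueAt Q' (h T) (1 - t₀) := by rw [hc]; exact hone.sub ht₀
      rcases goodp_legendre_fixed_point hrel₀ ht0 ht1 (Or.inl rfl) (hv.unique hval) with h | h
      · exact hj0 h
      · exact hj1728 h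
    · have hv : HasValueAt Q' (h T) t₀⁻¹ := by rw [hc]; exact ht₀.inv ht0
      rcases goodp_legendre_fixed_point hrel₀ ht0 ht1 (Or.inr (Or.inl rfl))
        (hv.unique hval) with h | h
      · exact hj0 h
      · exact hj1728 h
    · have hv : HasValueAt Q' (h T) (1 - t₀)⁻¹ := by
        rw [hc]; exact (hone.sub ht₀).inv ht1''
      rcases goodp_legendre_fixed_point hrel₀ ht0 ht1 (Or.inr (Or.inr (Or.inl rfl)))
        (hv.unique hval) with h | h
      · exact hj0 h
      · exact hj1728 h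
    · have hv : HasValueAt Q' (h T) ((t₀ - 1) / t₀) := by
        rw [hc, div_eq_mul_inv, div_eq_mul_inv]
        exact (ht₀.sub hone).mul (ht₀.inv ht0)
      rcases goodp_legendre_fixed_point hrel₀ ht0 ht1 (Or.inr (Or.inr (Or.inr (Or.inl rfl))))
        (hv.unique hval) with h | h
      · exact hj0 h
      · exact hj1728 h
    · have hv : HasValueAt Q' (h T) (t₀ / (t₀ - 1)) := by
        rw [hc, div_eq_mul_inv, div_eq_mul_inv]
        exact ht₀.mul ((ht₀.sub hone).inv ht1')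
      rcases goodp_legendre_fixed_point hrel₀ ht0 ht1 (Or.inr (Or.inr (Or.inr (Or.inr rfl))))
        (hv.unique hval) with h | h
      · exact hj0 h
      · exact hj1728 h
  rw [legE_eq_one_of_apply_legTE N hh hT_eq, map_one]

end Ram

/-! ### the package -/

section Pkg

variable (N : ℕ) [NeZero N]

theorem egalJ_eq_jBar : egalJ N = Fermat.Agent.X0N.jBar N :=
  Subtype.ext (coeffEmb_jq_eq_jqModC Ω).symm

/-- the value of `j` at a point which is not archimedean-bad. -/
theorem exists_value_jBar_of_not_archBad {Q : PtN N} (hQ : ¬ ArchBad N Q) (hQinf : Q ≠ infN N) :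
    ∃ j₀ : Ω, HasValueAt Q (Fermat.Agent.X0N.jBar N) j₀ ∧ j₀ ≠ 0 ∧ j₀ ≠ 1728 := by
  have h1 : ¬ (Q.ord (Fermat.Agent.X0N.jBar N) < 0 ∨ 0 < Q.ord (Fermat.Agent.X0N.jBar N) ∨
      0 < Q.ord (Fermat.Agent.X0N.jBar N - 1728)) := fun h => hQ ⟨hQinf, h⟩
  push Not at h1
  obtain ⟨ha, hb, hc⟩ := h1
  have hmem : Fermat.Agent.X0N.jBar N ∈ Q.toValuationSubring :=
    (PlaceAux.mem_iff_ord_nonneg' Q (jBar_ne_zero N)).mpr ha
  obtain ⟨j₀, hj₀⟩ := HasValueAt.exists_of_mem (ptN_deg Q) hmem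
  refine ⟨j₀, hj₀, ?_, ?_⟩
  · rintro rfl
    rcases HasValueAt.zero_iff.mp hj₀ with h | h
    · exact jBar_ne_zero N h
    · omega
  · rintro rfl
    rcases HasValueAt.iff_ord.mp hj₀ with h | h
    · rw [map_ofNat] at h
      exact jBar_sub_ne_zero N h
    · rw [map_ofNat] at h
      omega

instance deckGroup_leg_fintype : Fintype ↥(deckGroup (fullToLegE Ω N)) :=
  haveI := deckGroup_finite (fullToLegE Ω N) (isIntegral_fullToLegE_bar N) (finiteAlong_fullToLegE N)
  Fintype.ofFinite _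

theorem isGaloisCoverGroup_leg :
    haveI : HasPrincipalDivisors Ω ↥(legE Ω N) := legE_principal_gen N
    IsGaloisCoverGroup (fullToLegE Ω N) (isIntegral_fullToLegE_bar N)
      (deckGroup (fullToLegE Ω N)) :=
  haveI : HasPrincipalDivisors Ω ↥(legE Ω N) := legE_principal_gen N
  isGaloisCoverGroup_deckGroup (fullToLegE Ω N) (isIntegral_fullToLegE_bar N)
    (finiteAlong_fullToLegE N) (isGalois_fullToLegE N) (legE_deg_gen N)

/-- **the Legendre cover is unramified over the points which are not archimedean-bad.** -/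
theorem leg_unramified_of_not_archBad {Q : PtN N} (hQ : ¬ ArchBad N Q) (hQinf : Q ≠ infN N) :
    haveI : HasPrincipalDivisors Ω ↥(legE Ω N) := legE_principal_gen N
    ∀ Q' ∈ Place.fiberAlong (fullToLegE Ω N) (isIntegral_fullToLegE_bar N) Q,
      Place.ramificationIndexAlong (fullToLegE Ω N) Q' = 1 := by
  haveI : HasPrincipalDivisors Ω ↥(legE Ω N) := legE_principal_gen N
  intro Q' hQ'
  obtain ⟨j₀, hj₀, hj0, hj1728⟩ := exists_value_jBar_of_not_archBad N hQ hQinf
  have hQ'Q : Q'.restrictAlong (fullToLegE Ω N) (isIntegral_fullToLegE_bar N) = Q :=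
    Place.mem_fiberAlong.mp hQ'
  have hv : HasValueAt Q' (legJE Ω N) j₀ := by
    rw [← fullToLegE_egalJ, egalJ_eq_jBar, ← hasValueAt_restrictAlong_iff _
      (isIntegral_fullToLegE_bar N), hQ'Q]
    exact hj₀
  exact goodp_ramificationIndexAlong_eq_one (isGaloisCoverGroup_leg N)
    (fun g hg hfix => leg_stabilizer_trivial N hv hj0 hj1728 hg hfix)

variable (𝔡 : DiffDatum N) (p : Nat.Primes) (hpN : ¬ (p : ℕ) ∣ N) (hp2 : (p : ℕ) ≠ 2)

/-- **THE LOCAL PACKAGE AT AN ODD PRIME `p ∤ N`** (Legendre host). -/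
def legGoodPkg (Zp : Finset (PtN N)) (hZK : ∀ P : PtN N, 𝔡.K0 P ≠ 0 → P ∈ Zp)
    (hZ : ∀ P : PtN N, ArchBad N P → P ∈ Zp) : LocalPkgAt N 𝔡 Zp (some p) :=
  haveI : HasPrincipalDivisors Ω ↥(legE Ω N) := legE_principal_gen N
  goodPkg (X := legGoodRed (Fermat.Agent.TW.Kill.padicPlace_liesOverPrime (p : ℕ)) N hpN hp2)
    (φ := fullToLegE Ω N) (hφ := isIntegral_fullToLegE_bar N)
    (n := finrankAlong Ω (fullToLegE Ω N))
    (isDeckGroup_leg N (Fermat.Agent.TW.Kill.padicPlace_liesOverPrime (p : ℕ)) hpN hp2)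
    (isGaloisCoverGroup_leg N)
    (fun Q => goodp_sum_ramificationIndexAlong (fullToLegE Ω N) (isIntegral_fullToLegE_bar N)
      (fundamentalIdentityAlong_fullToLegE N) (legE_deg_gen N) ptN_deg Q)
    (by
      letI := algebraAlong (fullToLegE Ω N)
      haveI : Module.Finite ↥(keyFq Ω N) ↥(legE Ω N) := finiteAlong_fullToLegE N
      exact (Module.finrank_pos (R := ↥(keyFq Ω N)) (M := ↥(legE Ω N))).ne')
    (legCoordBar N) (finiteAlong_fullToLegE N) Zp hZK
    (fun Q hQ hQinf => leg_unramified_of_not_archBad N (fun h => hQ (hZ Q h)) hQinf)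

end Pkg

end Fermat.Agent.MW

end
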