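import Mathlib
import Fermat.Agent.MW.DIFF_helper8_Defs
import Fermat.Agent.MW.NADIC_helper6_Lc

/-!
# Project MW — [INST] part 1: divisors of functions and the class map on `X₀(N)` (helper8)

`dvN f` (the divisor of a nonzero function), `ddeg = Divisor.degree` (all points have degree `1`),
`clsN : dZero (PtN N) →+ JZero N` with its kernel, surjectivity and `GQ`-equivariance.
-/

set_option autoImplicit false
set_option linter.unusedSectionVars false

open scoped BigOperators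

noncomputable section

namespace Fermat.Agent.MW

open AlgebraicCurve ModularCurve

variable (N : ℕ) [NeZero N]

/-- the divisor of a nonzero function. -/
def dvN (f : FnN N) : PtN N →₀ ℤ := (exists_isDivOf (N := N) f.2).choose

theorem dvN_spec (f : FnN N) : IsDivOf N f.1 (dvN N f) := (exists_isDivOf (N := N) f.2).choose_spec

theorem dvN_apply (f : FnN N) (Q : PtN N) : dvN N f Q = Q.ord f.1 := dvN_spec N f Q

theorem ddeg_eq_degree (D : PtN N →₀ ℤ) : ddeg D = Divisor.degree D := by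
  unfold ddeg Divisor.degree
  rw [Finsupp.liftAddHom_apply, Finsupp.liftAddHom_apply]
  refine Finsupp.sum_congr fun P _ => ?_
  simp [ptN_deg P]

theorem mem_dZero_iff (D : PtN N →₀ ℤ) :
    D ∈ dZero (PtN N) ↔ D ∈ Divisor.degZero (K := AlgebraicClosure ℚ) (F := FunN N) := by
  unfold dZero
  rw [AddMonoidHom.mem_ker, Divisor.mem_degZero, ddeg_eq_degree]

theorem ddeg_dvN (f : FnN N) : ddeg (dvN N f) = 0 := by
  have h := sum_eq_zero_of_isDivOf (N := N) f.2 (dvN_spec N f)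
  unfold ddeg
  rw [Finsupp.liftAddHom_apply, Finsupp.sum]
  simpa using h

theorem gdiv_eq_galN (σ : GQ) (D : PtN N →₀ ℤ) : gdiv σ D = galN N σ • D := rfl

theorem gdiv_apply (σ : GQ) (D : PtN N →₀ ℤ) (Q : PtN N) : gdiv σ D Q = D (σ⁻¹ • Q) := by
  rw [gdiv_eq_galN, SemilinearAut.divisor_smul_apply]
  show D ((galN N σ)⁻¹ • Q) = D (galN N σ⁻¹ • Q)
  rw [galN, galN, map_inv]

theorem dvN_smul (σ : GQ) (f : FnN N) : dvN N (σ • f) = gdiv σ (dvN N f) := by
  ext Q
  rw [gdiv_apply, dvN_apply, dvN_apply, coe_gal_smul_fn]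
  have h := ord_gal_smul N σ (σ⁻¹ • Q) f.1
  rw [smul_inv_smul] at h
  exact h

/-! ### the class map -/

/-- the class of a divisor of degree zero. -/
def clsN : dZero (PtN N) →+ JZero N where
  toFun D := Pic0.mk ⟨D.1, (mem_dZero_iff N D.1).mp D.2⟩
  map_zero' := rfl
  map_add' _ _ := rfl

theorem clsN_apply (D : dZero (PtN N)) :
    clsN N D = Pic0.mk ⟨D.1, (mem_dZero_iff N D.1).mp D.2⟩ := rfl

theorem clsN_surj : Function.Surjective (clsN N) := by
  intro y
  obtain ⟨D, rfl⟩ := Pic0.mk_surjective y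
  exact ⟨⟨D.1, (mem_dZero_iff N D.1).mpr D.2⟩, rfl⟩

theorem clsN_eq_zero (D : dZero (PtN N)) : clsN N D = 0 ↔ ∃ f : FnN N, dvN N f = D.1 := by
  rw [clsN_apply, Pic0.mk, QuotientAddGroup.eq_zero_iff, AddSubgroup.mem_addSubgroupOf,
    Divisor.mem_principal]
  constructor
  · rintro ⟨f, hf, hD⟩
    refine ⟨⟨f, hf⟩, ?_⟩
    ext Q
    rw [dvN_apply]
    exact (hD Q).symm
  · rintro ⟨f, hf⟩
    refine ⟨f.1, f.2, fun Q => ?_⟩
    show D.1 Q = Q.ord f.1
    rw [← hf, dvN_apply]

theorem clsN_smul (σ : GQ) (D : dZero (PtN N)) (h : gdiv σ D.1 ∈ dZero (PtN N)) :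
    clsN N ⟨gdiv σ D.1, h⟩ = σ • clsN N D := by
  rw [clsN_apply, clsN_apply, gal_smul_class_def, SemilinearAut.pic0_smul_mk]
  rfl

end Fermat.Agent.MW
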