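import Mathlib
import Fermat.Agent.MW.IFACE_helper8_Defs

/-!
# Project MW — [MUMFORD] layer M0: Galois averages (helper8)

Lemmas on `gavg G Φ y` = the average of `Φ` over the finite orbit of `y`:
linearity, monotonicity, invariance, and the change of variables along equivariant maps
(`gavg_comp_equivariant`, `gavg_eq_of_joint`), finiteness of orbits of pairs, tuples and
finitely supported functions.
-/

set_option autoImplicit false

open scoped BigOperators

noncomputable section

namespace Fermat.Agent.MW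

section Basic

variable {G : Type*} [Group G] {Y : Type*} [MulAction G Y]

theorem gavg_of_finite (Φ : Y → ℝ) (y : Y) (h : (MulAction.orbit G y).Finite) :
    gavg G Φ y = (∑ y' ∈ h.toFinset, Φ y') / (h.toFinset.card : ℝ) := by
  classical
  unfold gavg gavgBy
  have h' : (Set.range fun σ : G => σ • y).Finite := h
  rw [dif_pos h']
  rfl

theorem gavg_of_not_finite (Φ : Y → ℝ) (y : Y) (h : ¬ (MulAction.orbit G y).Finite) :
    gavg G Φ y = 0 := by
  classical
  unfold gavg gavgBy
  have h' : ¬ (Set.range fun σ : G => σ • y).Finite := h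
  rw [dif_neg h']

theorem orbit_card_pos (y : Y) (h : (MulAction.orbit G y).Finite) :
    0 < (h.toFinset.card : ℝ) := by
  have : y ∈ h.toFinset := by
    rw [Set.Finite.mem_toFinset]
    exact MulAction.mem_orbit_self y
  exact_mod_cast Finset.card_pos.mpr ⟨y, this⟩

theorem gavg_congr {Φ Ψ : Y → ℝ} (y : Y) (hΦ : ∀ σ : G, Φ (σ • y) = Ψ (σ • y)) :
    gavg G Φ y = gavg G Ψ y := by
  by_cases h : (MulAction.orbit G y).Finite
  · rw [gavg_of_finite Φ y h, gavg_of_finite Ψ y h]
    congr 1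
    refine Finset.sum_congr rfl fun y' hy' => ?_
    rw [Set.Finite.mem_toFinset] at hy'
    obtain ⟨σ, rfl⟩ := hy'
    exact hΦ σ
  · rw [gavg_of_not_finite Φ y h, gavg_of_not_finite Ψ y h]

theorem gavg_add (Φ Ψ : Y → ℝ) (y : Y) :
    gavg G (fun z => Φ z + Ψ z) y = gavg G Φ y + gavg G Ψ y := by
  by_cases h : (MulAction.orbit G y).Finite
  · rw [gavg_of_finite _ y h, gavg_of_finite Φ y h, gavg_of_finite Ψ y h,
      Finset.sum_add_distrib, add_div]
  · rw [gavg_of_not_finite _ y h, gavg_of_not_finite Φ y h, gavg_of_not_finite Ψ y h, add_zero]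

theorem gavg_neg (Φ : Y → ℝ) (y : Y) : gavg G (fun z => -Φ z) y = -gavg G Φ y := by
  by_cases h : (MulAction.orbit G y).Finite
  · rw [gavg_of_finite _ y h, gavg_of_finite Φ y h, Finset.sum_neg_distrib, neg_div]
  · rw [gavg_of_not_finite _ y h, gavg_of_not_finite Φ y h, neg_zero]

theorem gavg_sub (Φ Ψ : Y → ℝ) (y : Y) :
    gavg G (fun z => Φ z - Ψ z) y = gavg G Φ y - gavg G Ψ y := by
  simp only [sub_eq_add_neg]
  rw [gavg_add, gavg_neg]

theorem gavg_const_mul (c : ℝ) (Φ : Y → ℝ) (y : Y) :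
    gavg G (fun z => c * Φ z) y = c * gavg G Φ y := by
  by_cases h : (MulAction.orbit G y).Finite
  · rw [gavg_of_finite _ y h, gavg_of_finite Φ y h, ← Finset.mul_sum, mul_div_assoc]
  · rw [gavg_of_not_finite _ y h, gavg_of_not_finite Φ y h, mul_zero]

theorem gavg_zero (y : Y) : gavg G (fun _ : Y => (0 : ℝ)) y = 0 := by
  by_cases h : (MulAction.orbit G y).Finite
  · rw [gavg_of_finite _ y h, Finset.sum_const_zero, zero_div]
  · rw [gavg_of_not_finite _ y h]

theorem gavg_finset_sum {ι : Type*} (s : Finset ι) (Φ : ι → Y → ℝ) (y : Y) :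
    gavg G (fun z => ∑ i ∈ s, Φ i z) y = ∑ i ∈ s, gavg G (Φ i) y := by
  classical
  induction s using Finset.induction_on with
  | empty => simp only [Finset.sum_empty]; exact gavg_zero y
  | insert a s ha ih =>
    simp only [Finset.sum_insert ha]
    rw [gavg_add, ih]

theorem gavg_const (c : ℝ) (y : Y) (h : (MulAction.orbit G y).Finite) :
    gavg G (fun _ : Y => c) y = c := by
  rw [gavg_of_finite _ y h, Finset.sum_const, nsmul_eq_mul]
  have := orbit_card_pos y h
  field_simp

theorem gavg_le_gavg {Φ Ψ : Y → ℝ} (y : Y) (hΦ : ∀ σ : G, Φ (σ • y) ≤ Ψ (σ • y)) :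
    gavg G Φ y ≤ gavg G Ψ y := by
  by_cases h : (MulAction.orbit G y).Finite
  · rw [gavg_of_finite Φ y h, gavg_of_finite Ψ y h]
    apply div_le_div_of_nonneg_right _ (orbit_card_pos y h).le
    refine Finset.sum_le_sum fun y' hy' => ?_
    rw [Set.Finite.mem_toFinset] at hy'
    obtain ⟨σ, rfl⟩ := hy'
    exact hΦ σ
  · rw [gavg_of_not_finite Φ y h, gavg_of_not_finite Ψ y h]

theorem gavg_nonneg {Φ : Y → ℝ} (y : Y) (hΦ : ∀ σ : G, 0 ≤ Φ (σ • y)) : 0 ≤ gavg G Φ y := by
  have := gavg_le_gavg (G := G) (Φ := fun _ => 0) (Ψ := Φ) y hΦ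
  rwa [gavg_zero] at this

theorem gavg_le_of_le {Φ : Y → ℝ} (y : Y) {c : ℝ} (hc : 0 ≤ c) (hΦ : ∀ σ : G, Φ (σ • y) ≤ c) :
    gavg G Φ y ≤ c := by
  by_cases h : (MulAction.orbit G y).Finite
  · have := gavg_le_gavg (G := G) (Φ := Φ) (Ψ := fun _ => c) y hΦ
    rwa [gavg_const c y h] at this
  · rw [gavg_of_not_finite Φ y h]; exact hc

theorem abs_gavg_le {Φ : Y → ℝ} (y : Y) {c : ℝ} (hc : 0 ≤ c) (hΦ : ∀ σ : G, |Φ (σ • y)| ≤ c) :
    |gavg G Φ y| ≤ c := by
  rw [abs_le]
  constructor
  · have h1 := gavg_le_of_le (G := G) (Φ := fun z => -Φ z) y hc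
      (fun σ => by have := (abs_le.mp (hΦ σ)).1; linarith)
    rw [gavg_neg] at h1
    linarith
  · exact gavg_le_of_le y hc (fun σ => (abs_le.mp (hΦ σ)).2)

theorem gavg_smul (Φ : Y → ℝ) (σ : G) (y : Y) : gavg G Φ (σ • y) = gavg G Φ y := by
  classical
  unfold gavg gavgBy
  have e : (Set.range fun τ : G => τ • (σ • y)) = Set.range fun τ : G => τ • y :=
    MulAction.orbit_smul σ y
  simp only [e]

end Basic

section Equivariant

variable {G : Type*} [Group G] {Y Z : Type*} [MulAction G Y] [MulAction G Z]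

theorem orbit_finite_of_equivariant (π : Y → Z) (hπ : ∀ (σ : G) (y : Y), π (σ • y) = σ • π y)
    (y : Y) (h : (MulAction.orbit G y).Finite) : (MulAction.orbit G (π y)).Finite := by
  refine (h.image π).subset ?_
  rintro _ ⟨σ, rfl⟩
  exact ⟨σ • y, ⟨σ, rfl⟩, hπ σ y⟩

/-- **change of variables** along an equivariant map. -/
theorem gavg_comp_equivariant (π : Y → Z) (hπ : ∀ (σ : G) (y : Y), π (σ • y) = σ • π y)
    (Φ : Z → ℝ) (y : Y) (h : (MulAction.orbit G y).Finite) :
    gavg G (fun y' => Φ (π y')) y = gavg G Φ (π y) := by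
  classical
  have h' := orbit_finite_of_equivariant π hπ y h
  rw [gavg_of_finite _ y h, gavg_of_finite Φ (π y) h']
  set A := h.toFinset with hA
  set B := h'.toFinset with hB
  have hmap : ∀ a ∈ A, π a ∈ B := by
    intro a ha
    rw [hA, Set.Finite.mem_toFinset] at ha
    rw [hB, Set.Finite.mem_toFinset]
    obtain ⟨σ, rfl⟩ := ha
    exact ⟨σ, (hπ σ y).symm⟩
  -- fibres
  set fib : Z → Finset Y := fun b => A.filter fun a => π a = b with hfib
  have hcard : ∀ b ∈ B, (fib b).card = (fib (π y)).card := by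
    intro b hb
    rw [hB, Set.Finite.mem_toFinset] at hb
    obtain ⟨σ, rfl⟩ := hb
    symm
    refine Finset.card_bij' (fun a _ => σ • a) (fun a _ => σ⁻¹ • a) ?_ ?_ ?_ ?_
    · intro a ha
      simp only [hfib, Finset.mem_filter, hA, Set.Finite.mem_toFinset] at ha ⊢
      refine ⟨?_, by rw [hπ, ha.2]⟩
      obtain ⟨τ, rfl⟩ := ha.1
      exact ⟨σ * τ, mul_smul σ τ y⟩
    · intro a ha
      simp only [hfib, Finset.mem_filter, hA, Set.Finite.mem_toFinset] at ha ⊢
      refine ⟨?_, by rw [hπ, ha.2, inv_smul_smul]⟩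
      obtain ⟨τ, rfl⟩ := ha.1
      exact ⟨σ⁻¹ * τ, mul_smul σ⁻¹ τ y⟩
    · intro a _; exact inv_smul_smul σ a
    · intro a _; exact smul_inv_smul σ a
  set k := (fib (π y)).card with hk
  have hkpos : 0 < k := by
    rw [hk, Finset.card_pos]
    refine ⟨y, ?_⟩
    simp only [hfib, Finset.mem_filter, hA, Set.Finite.mem_toFinset]
    exact ⟨MulAction.mem_orbit_self y, trivial⟩
  have hsum : ∑ a ∈ A, Φ (π a) = (k : ℝ) * ∑ b ∈ B, Φ b := by
    rw [← Finset.sum_fiberwise_of_maps_to hmap, Finset.mul_sum]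
    refine Finset.sum_congr rfl fun b hb => ?_
    have : ∀ a ∈ A.filter (fun a => π a = b), Φ (π a) = Φ b := by
      intro a ha
      rw [(Finset.mem_filter.mp ha).2]
    rw [Finset.sum_congr rfl this, Finset.sum_const, nsmul_eq_mul]
    have := hcard b hb
    simp only [hfib] at this
    rw [this]
  have hcardA : (A.card : ℝ) = (k : ℝ) * (B.card : ℝ) := by
    have h1 : A.card = ∑ b ∈ B, (fib b).card :=
      Finset.card_eq_sum_card_fiberwise hmap
    rw [h1, Finset.sum_congr rfl hcard, Finset.sum_const, smul_eq_mul]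
    push_cast
    ring
  rw [hsum, hcardA]
  have hk0 : (k : ℝ) ≠ 0 := by exact_mod_cast hkpos.ne'
  have hB0 : (B.card : ℝ) ≠ 0 := (orbit_card_pos (π y) h').ne'
  field_simp

theorem orbit_prod_finite (y : Y) (z : Z) (hy : (MulAction.orbit G y).Finite)
    (hz : (MulAction.orbit G z).Finite) : (MulAction.orbit G (y, z)).Finite := by
  refine (hy.prod hz).subset ?_
  rintro _ ⟨σ, rfl⟩
  exact ⟨⟨σ, rfl⟩, ⟨σ, rfl⟩⟩

/-- **joint change of variables**: if `Ψ (σ • y) = Φ (σ • z)` for all `σ`, the two averages agree. -/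
theorem gavg_eq_of_joint (Ψ : Y → ℝ) (Φ : Z → ℝ) (y : Y) (z : Z)
    (hy : (MulAction.orbit G y).Finite) (hz : (MulAction.orbit G z).Finite)
    (h : ∀ σ : G, Ψ (σ • y) = Φ (σ • z)) : gavg G Ψ y = gavg G Φ z := by
  have hw := orbit_prod_finite y z hy hz
  have h1 := gavg_comp_equivariant (G := G) (Prod.fst : Y × Z → Y) (fun _ _ => rfl) Ψ (y, z) hw
  have h2 := gavg_comp_equivariant (G := G) (Prod.snd : Y × Z → Z) (fun _ _ => rfl) Φ (y, z) hw
  rw [← h1, ← h2]
  exact gavg_congr (y, z) h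

end Equivariant

section Orbits

variable {G : Type*} [Group G] {Y : Type*} [MulAction G Y]

theorem orbit_pi_finite {ι : Type*} [Finite ι] (t : ι → Y)
    (h : ∀ i, (MulAction.orbit G (t i)).Finite) : (MulAction.orbit G t).Finite := by
  refine (Set.Finite.pi' h).subset ?_
  rintro _ ⟨σ, rfl⟩ i
  exact ⟨σ, rfl⟩

attribute [local instance] Finsupp.comapSMul Finsupp.comapMulAction Finsupp.comapDistribMulAction

theorem gdiv_eq_smul (σ : G) (D : Y →₀ ℤ) : gdiv σ D = σ • D := rfl

theorem gdivNat_eq_smul (σ : G) (E : Y →₀ ℕ) : gdivNat σ E = σ • E := rfl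

theorem orbit_finsupp_finite {M : Type*} [AddCommMonoid M] (D : Y →₀ M)
    (h : ∀ P : Y, (MulAction.orbit G P).Finite) : (MulAction.orbit G D).Finite := by
  classical
  -- the tuple of the points of the support
  set t : D.support → Y := fun P => P.1 with ht
  have hfin := orbit_pi_finite (G := G) t (fun i => h _)
  set π : (D.support → Y) → (Y →₀ M) := fun u => ∑ P : D.support, Finsupp.single (u P) (D P.1)
    with hπ
  have hπD : π t = D := by
    have h1 : π t = ∑ P ∈ D.support, Finsupp.single P (D P) :=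
      Finset.sum_coe_sort D.support (fun P => Finsupp.single P (D P))
    rw [h1]
    exact Finsupp.sum_single D
  have heq : ∀ (σ : G) (u : D.support → Y), π (σ • u) = σ • π u := by
    intro σ u
    simp only [hπ, Finset.smul_sum, Finsupp.comapSMul_single]
    rfl
  have := orbit_finite_of_equivariant (G := G) π heq t hfin
  rwa [hπD] at this

end Orbits

end Fermat.Agent.MW
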