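import Mathlib
import Fermat.Agent.MW.ABS_helper8_Defs

/-!
# Project MW — [PF] part 1: the product formula for `ℚ` (helper8)

`∑ᶠ v : Pl, lg v (r : Ω) = 0` for `r ∈ ℚ^×`, with finite support.
-/

set_option autoImplicit false
set_option linter.style.haveILetI false

open scoped BigOperators

noncomputable section

namespace Fermat.Agent.MW

/-- `lg v` on rational numbers. -/
def lgQ (v : Pl) (r : ℚ) : ℝ := lg v (algebraMap ℚ (AlgebraicClosure ℚ) r)

theorem lgQ_none (r : ℚ) : lgQ none r = Real.log |(r : ℝ)| := by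
  unfold lgQ lg
  rw [absv_none_rat]

theorem lgQ_some (p : Nat.Primes) {r : ℚ} (hr : r ≠ 0) :
    lgQ (some p) r = -((padicValRat (p : ℕ) r : ℝ) * Real.log (p : ℕ)) := by
  unfold lgQ lg
  rw [absv_some_rat, padicNorm.eq_zpow_of_nonzero hr]
  push_cast
  rw [Real.log_zpow]
  push_cast
  ring

theorem lgQ_mul (v : Pl) {r s : ℚ} (hr : r ≠ 0) (hs : s ≠ 0) :
    lgQ v (r * s) = lgQ v r + lgQ v s := by
  unfold lgQ
  rw [map_mul, lg_mul v ((map_ne_zero _).mpr hr) ((map_ne_zero _).mpr hs)]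

theorem lgQ_neg (v : Pl) (r : ℚ) : lgQ v (-r) = lgQ v r := by
  unfold lgQ
  rw [map_neg, lg_neg]

theorem lgQ_one (v : Pl) : lgQ v 1 = 0 := by
  unfold lgQ
  rw [map_one, lg_one]

theorem lgQ_inv (v : Pl) (r : ℚ) : lgQ v r⁻¹ = -lgQ v r := by
  unfold lgQ
  rw [map_inv₀, lg_inv]

theorem lgQ_int_natAbs (v : Pl) (z : ℤ) : lgQ v (z : ℚ) = lgQ v ((z.natAbs : ℕ) : ℚ) := by
  obtain ⟨n, rfl | rfl⟩ := Int.eq_nat_or_neg z
  · simp
  · simp [lgQ_neg]

/-- the support of `v ↦ lgQ v n` for a positive natural number is contained in `none` and the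
prime factors. -/
theorem lgQ_some_nat_eq_zero (p : Nat.Primes) {n : ℕ} (hn : n ≠ 0) (hp : ¬ (p : ℕ) ∣ n) :
    lgQ (some p) (n : ℚ) = 0 := by
  rw [lgQ_some p (by exact_mod_cast hn)]
  have : padicValRat (p : ℕ) (n : ℚ) = 0 := by
    rw [← padicValRat_of_nat]
    exact_mod_cast padicValNat.eq_zero_of_not_dvd hp
  rw [this]
  simp

theorem lgQ_nat_support_finite {n : ℕ} (hn : n ≠ 0) :
    (Function.support fun v : Pl => lgQ v (n : ℚ)).Finite := by
  classical
  have hfin : (insert (none : Pl) ((fun p : Nat.Primes => (some p : Pl)) ''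
      {p : Nat.Primes | (p : ℕ) ∣ n})).Finite := by
    refine Set.Finite.insert _ (Set.Finite.image _ ?_)
    have : {p : Nat.Primes | (p : ℕ) ∣ n} ⊆
        (fun p : Nat.Primes => (p : ℕ)) ⁻¹' (n.divisors : Set ℕ) := by
      intro p hp
      simp only [Set.mem_preimage, Finset.mem_coe, Nat.mem_divisors]
      exact ⟨hp, hn⟩
    exact (Set.Finite.preimage (Subtype.val_injective.injOn) n.divisors.finite_toSet).subset this
  refine hfin.subset ?_
  intro v hv
  rw [Function.mem_support] at hv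
  cases v with
  | none => exact Set.mem_insert _ _
  | some p =>
    refine Set.mem_insert_of_mem _ ⟨p, ?_, rfl⟩
    by_contra hp
    exact hv (lgQ_some_nat_eq_zero p hn hp)

/-- the product formula for a prime number. -/
theorem finsum_lgQ_prime {p : ℕ} (hp : p.Prime) : ∑ᶠ v : Pl, lgQ v (p : ℚ) = 0 := by
  classical
  set P : Nat.Primes := ⟨p, hp⟩ with hP
  have hsub : (Function.support fun v : Pl => lgQ v (p : ℚ)) ⊆
      (({none, some P} : Finset Pl) : Set Pl) := by
    intro v hv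
    rw [Function.mem_support] at hv
    cases v with
    | none => simp
    | some q =>
      have hq : (q : ℕ) ∣ p := by
        by_contra hq
        exact hv (lgQ_some_nat_eq_zero q hp.ne_zero hq)
      have hqp : (q : ℕ) = p := (Nat.prime_dvd_prime_iff_eq q.2 hp).mp hq
      have : q = P := Subtype.ext hqp
      simp [this]
  rw [finsum_eq_sum_of_support_subset _ hsub, Finset.sum_pair (by simp), lgQ_none,
    lgQ_some P (by exact_mod_cast hp.ne_zero)]
  haveI : Fact p.Prime := ⟨hp⟩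
  have h1 : padicValRat ((P : Nat.Primes) : ℕ) (p : ℚ) = 1 := by
    show padicValRat p (p : ℚ) = 1
    rw [← padicValRat_of_nat, padicValNat_self]
    rfl
  rw [h1]
  have h2 : |((p : ℚ) : ℝ)| = (p : ℝ) := by
    push_cast
    exact abs_of_nonneg (Nat.cast_nonneg p)
  rw [h2]
  show Real.log (p : ℝ) + -(((1 : ℤ) : ℝ) * Real.log ((p : ℕ) : ℝ)) = 0
  push_cast
  ring

/-- the product formula for a positive natural number. -/
theorem finsum_lgQ_nat {n : ℕ} (hn : n ≠ 0) : ∑ᶠ v : Pl, lgQ v (n : ℚ) = 0 := by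
  induction n using Nat.recOnMul with
  | zero => exact absurd rfl hn
  | one =>
    simp only [Nat.cast_one, lgQ_one]
    exact finsum_zero
  | prime p hp => exact finsum_lgQ_prime hp
  | mul a b ha hb =>
    have ha0 : a ≠ 0 := fun h => hn (by rw [h, zero_mul])
    have hb0 : b ≠ 0 := fun h => hn (by rw [h, mul_zero])
    have e : ∀ v : Pl, lgQ v ((a * b : ℕ) : ℚ) = lgQ v (a : ℚ) + lgQ v (b : ℚ) := by
      intro v
      push_cast
      exact lgQ_mul v (by exact_mod_cast ha0) (by exact_mod_cast hb0)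
    rw [finsum_congr e, finsum_add_distrib (lgQ_nat_support_finite ha0)
      (lgQ_nat_support_finite hb0), ha ha0, hb hb0, add_zero]

/-- finiteness of the support for any nonzero rational. -/
theorem lgQ_support_finite {r : ℚ} (hr : r ≠ 0) :
    (Function.support fun v : Pl => lgQ v r).Finite := by
  have hnum : r.num.natAbs ≠ 0 := Int.natAbs_ne_zero.mpr (Rat.num_ne_zero.mpr hr)
  have hden : r.den ≠ 0 := r.den_ne_zero
  have h1 := lgQ_nat_support_finite hnum
  have h2 := lgQ_nat_support_finite hden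
  refine (h1.union h2).subset ?_
  intro v hv
  rw [Function.mem_support] at hv
  by_contra hcon
  simp only [Set.mem_union, Function.mem_support, not_or, not_not] at hcon
  apply hv
  have e : r = (r.num : ℚ) * (r.den : ℚ)⁻¹ := by
    rw [← div_eq_mul_inv]; exact (Rat.num_div_den r).symm
  have hnumQ : (r.num : ℚ) ≠ 0 := by exact_mod_cast Rat.num_ne_zero.mpr hr
  have hdenQ : (r.den : ℚ) ≠ 0 := by exact_mod_cast hden
  rw [e, lgQ_mul v hnumQ (inv_ne_zero hdenQ), lgQ_inv, hcon.2, neg_zero, add_zero]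
  rw [lgQ_int_natAbs, hcon.1]

/-- **the product formula for `ℚ`.** -/
theorem finsum_lgQ {r : ℚ} (hr : r ≠ 0) : ∑ᶠ v : Pl, lgQ v r = 0 := by
  have hnum : r.num.natAbs ≠ 0 := Int.natAbs_ne_zero.mpr (Rat.num_ne_zero.mpr hr)
  have hden : r.den ≠ 0 := r.den_ne_zero
  have hdenQ : (r.den : ℚ) ≠ 0 := by exact_mod_cast hden
  -- `r * den = ± natAbs num`
  have e : ∀ v : Pl, lgQ v r + lgQ v (r.den : ℚ) = lgQ v ((r.num.natAbs : ℕ) : ℚ) := by
    intro v
    rw [← lgQ_mul v hr hdenQ, Rat.mul_den_eq_num, lgQ_int_natAbs]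
  have h1 := finsum_lgQ_nat hnum
  have h2 := finsum_lgQ_nat hden
  have h3 : ∑ᶠ v : Pl, (lgQ v r + lgQ v (r.den : ℚ)) = 0 := by
    rw [finsum_congr e, h1]
  rw [finsum_add_distrib (lgQ_support_finite hr) (lgQ_nat_support_finite hden), h2, add_zero] at h3
  exact h3

end Fermat.Agent.MW
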