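import Mathlib
import Fermat.Agent.MW.PF_helper8_Rat
import Fermat.Agent.MW.MUMFORD_helper8_Gavg

/-!
# Project MW — [PF] part 2: the Galois-averaged product formula on `Ω` (helper8)

For `a ∈ Ω^×`: `v ↦ gavg GQ (lg v) a` has finite support and `∑ᶠ v, gavg GQ (lg v) a = 0`
(the product of the conjugates of `a` is a nonzero rational number).
-/

set_option autoImplicit false
set_option linter.style.haveILetI false

open scoped BigOperators

noncomputable section

namespace Fermat.Agent.MW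

local notation "Ωq" => AlgebraicClosure ℚ
local notation "GQq" => (AlgebraicClosure ℚ ≃ₐ[ℚ] AlgebraicClosure ℚ)

theorem isGalois_Om : IsGalois ℚ Ωq := by
  haveI := isAlgebraic_Om
  haveI : IsAlgClosure ℚ Ωq := ⟨inferInstance, inferInstance⟩
  haveI : Normal ℚ Ωq := IsAlgClosure.normal ℚ Ωq
  haveI : Algebra.IsSeparable ℚ Ωq := Algebra.IsAlgebraic.isSeparable_of_perfectField
  exact ⟨⟩

/-- orbits of `GQ` on `Ω` are finite. -/
theorem orbit_Om_finite (a : Ωq) : (MulAction.orbit GQq a).Finite := by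
  have halg : IsAlgebraic ℚ a := isAlgebraic_Om.isAlgebraic a
  have hne : minpoly ℚ a ≠ 0 := minpoly.ne_zero halg.isIntegral
  refine ((minpoly ℚ a).rootSet_finite Ωq).subset ?_
  rintro _ ⟨σ, rfl⟩
  rw [Polynomial.mem_rootSet]
  refine ⟨hne, ?_⟩
  show Polynomial.aeval (σ a) (minpoly ℚ a) = 0
  rw [Polynomial.aeval_algEquiv, AlgHom.comp_apply, minpoly.aeval, map_zero]

/-- the product of the conjugates is a nonzero rational number. -/
theorem exists_rat_prod_orbit (a : Ωq) (ha : a ≠ 0) :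
    ∃ r : ℚ, r ≠ 0 ∧ ∏ b ∈ (orbit_Om_finite a).toFinset, b = algebraMap ℚ Ωq r := by
  classical
  haveI := isGalois_Om
  set O := (orbit_Om_finite a).toFinset with hO
  have hfix : ∀ σ : GQq, σ (∏ b ∈ O, b) = ∏ b ∈ O, b := by
    intro σ
    rw [map_prod]
    refine Finset.prod_bij' (fun b _ => σ b) (fun b _ => σ⁻¹ b) ?_ ?_ ?_ ?_ ?_
    · intro b hb
      rw [hO, Set.Finite.mem_toFinset] at hb ⊢
      obtain ⟨τ, rfl⟩ := hb
      exact ⟨σ * τ, rfl⟩
    · intro b hb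
      rw [hO, Set.Finite.mem_toFinset] at hb ⊢
      obtain ⟨τ, rfl⟩ := hb
      exact ⟨σ⁻¹ * τ, rfl⟩
    · intro b _
      show σ⁻¹ (σ b) = b
      rw [← AlgEquiv.mul_apply, inv_mul_cancel, AlgEquiv.one_apply]
    · intro b _
      show σ (σ⁻¹ b) = b
      rw [← AlgEquiv.mul_apply, mul_inv_cancel, AlgEquiv.one_apply]
    · intro b _; rfl
  obtain ⟨r, hr⟩ := (InfiniteGalois.mem_range_algebraMap_iff_fixed (k := ℚ) (K := Ωq) _).mpr hfix
  refine ⟨r, ?_, hr.symm⟩
  intro h0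
  rw [h0, map_zero] at hr
  have hprod := Finset.prod_eq_zero_iff.mp hr.symm
  obtain ⟨b, hb, hb0⟩ := hprod
  rw [hO, Set.Finite.mem_toFinset] at hb
  obtain ⟨σ, rfl⟩ := hb
  exact ha ((map_eq_zero σ).mp hb0)

theorem gavg_lg_eq (a : Ωq) (ha : a ≠ 0) :
    ∃ r : ℚ, r ≠ 0 ∧ ∀ v : Pl, gavg GQq (lg v) a
      = lgQ v r / ((orbit_Om_finite a).toFinset.card : ℝ) := by
  obtain ⟨r, hr0, hr⟩ := exists_rat_prod_orbit a ha
  refine ⟨r, hr0, fun v => ?_⟩
  rw [gavg_of_finite _ _ (orbit_Om_finite a)]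
  congr 1
  unfold lgQ
  rw [← hr, lg_prod]
  intro b hb
  rw [Set.Finite.mem_toFinset] at hb
  obtain ⟨σ, rfl⟩ := hb
  exact (map_ne_zero σ).mpr ha

/-- **[PF]** finiteness of the support. -/
theorem pf_support_Om (a : Ωq) (ha : a ≠ 0) :
    (Function.support fun v : Pl => gavg GQq (lg v) a).Finite := by
  obtain ⟨r, hr0, hr⟩ := gavg_lg_eq a ha
  refine (lgQ_support_finite hr0).subset fun v hv => ?_
  rw [Function.mem_support] at hv ⊢
  intro h0
  apply hv
  rw [hr v, h0, zero_div]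

/-- **[PF]** the Galois-averaged product formula. -/
theorem pf_Om (a : Ωq) (ha : a ≠ 0) : ∑ᶠ v : Pl, gavg GQq (lg v) a = 0 := by
  obtain ⟨r, hr0, hr⟩ := gavg_lg_eq a ha
  rw [finsum_congr hr]
  simp only [div_eq_mul_inv]
  rw [← finsum_mul, finsum_lgQ hr0, zero_mul]

end Fermat.Agent.MW
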