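import Mathlib
import Fermat.Agent.MW.INST_helper8_Dv
import Fermat.Agent.MW.PF_helper8_Main
import Fermat.Agent.JA.BC_helper9_Desc
import Fermat.Agent.FF.RiemannHurwitz

/-!
# Project MW — [INST] part 2: the Galois action on the points of `X₀(N)` (helper8)

`σ • j = j`, `σ • ∞ = ∞`, and the orbits of `GQ` on `PtN N` are finite.
-/

set_option autoImplicit false
set_option linter.unusedSectionVars false

open scoped BigOperators

noncomputable section

namespace Fermat.Agent.MW

open AlgebraicCurve ModularCurve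

variable (N : ℕ) [NeZero N]

theorem coe_gal_smul (σ : GQ) (f : FunN N) :
    ((σ • f : FunN N) : LaurentSeries (AlgebraicClosure ℚ))
      = coeffMap (σ : AlgebraicClosure ℚ →+* AlgebraicClosure ℚ)
          (f : LaurentSeries (AlgebraicClosure ℚ)) := rfl

theorem gal_smul_jBar (σ : GQ) :
    σ • (Fermat.Agent.X0N.jBar N : FunN N) = Fermat.Agent.X0N.jBar N := by
  apply Subtype.ext
  rw [coe_gal_smul, Fermat.Agent.X0N.coe_jBar, coeffMap_coeffEmb]

theorem gal_smul_algebraMap (σ : GQ) (a : AlgebraicClosure ℚ) :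
    σ • (algebraMap (AlgebraicClosure ℚ) (FunN N) a) = algebraMap (AlgebraicClosure ℚ) (FunN N) (σ a) :=
  SemilinearAut.smul_algebraMap (galN N σ) a

theorem ord_smul_left (σ : GQ) (P : PtN N) (f : FunN N) : (σ • P).ord f = P.ord (σ⁻¹ • f) := by
  have h := ord_gal_smul N σ P (σ⁻¹ • f)
  rwa [smul_inv_smul] at h

/-- the cusp `∞` is `GQ`-fixed. -/
theorem gal_smul_infN (σ : GQ) : σ • infN N = infN N := by
  have hord : ∀ f : FunN N, (σ • infN N).ord f = (infN N).ord f := by
    intro f
    by_cases hf : f = 0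
    · rw [hf, Place.ord_zero, Place.ord_zero]
    have hf' : σ⁻¹ • f ≠ 0 := by
      intro h
      apply hf
      have := congrArg (fun x => σ • x) h
      simpa using this
    rw [ord_smul_left, infN_ord N hf', infN_ord N hf, coe_gal_smul]
    exact Fermat.Agent.JA.order_coeffMap_of_injective (RingHom.injective _) _
  apply Place.ext
  ext f
  rw [Fermat.Agent.FF.PlaceAux.mem_iff_ord_nonneg, Fermat.Agent.FF.PlaceAux.mem_iff_ord_nonneg,
    hord f]

/-- **the orbits of `GQ` on the points of `X₀(N)` are finite.** -/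
theorem orbit_PtN_finite (P : PtN N) : (MulAction.orbit GQ P).Finite := by
  classical
  set c := Fermat.Agent.X0N.jCoordBar N with hc
  have hx : c.x = Fermat.Agent.X0N.jBar N := rfl
  rcases c.mem_poles_or_exists_mem_zeros P with hP | ⟨a, hP⟩
  · refine c.poles.finite_toSet.subset ?_
    rintro _ ⟨σ, rfl⟩
    rw [c.mem_poles] at hP
    rw [Finset.mem_coe, c.mem_poles]
    show ((σ • P : PtN N)).ord c.x < 0
    have h := ord_gal_smul N σ P c.x
    rw [hx, gal_smul_jBar] at h
    rw [hx, h]
    rwa [hx] at hP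
  · have hfin : (⋃ b ∈ (orbit_Om_finite a).toFinset,
        ((c.zeros b : Finset (PtN N)) : Set (PtN N))).Finite :=
      Set.Finite.biUnion (Finset.finite_toSet _) fun b _ => Finset.finite_toSet _
    refine hfin.subset ?_
    rintro _ ⟨σ, rfl⟩
    rw [Set.mem_iUnion₂]
    refine ⟨σ a, ?_, ?_⟩
    · rw [Set.Finite.mem_toFinset]; exact ⟨σ, rfl⟩
    · rw [Finset.mem_coe, c.mem_zeros]
      rw [c.mem_zeros] at hP
      show 0 < ((σ • P : PtN N)).ord (c.x - algebraMap _ _ (σ a))
      have h := ord_gal_smul N σ P (c.x - algebraMap _ _ a)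
      rw [smul_sub, gal_smul_algebraMap, hx, gal_smul_jBar] at h
      rw [hx, h]
      rwa [hx] at hP

end Fermat.Agent.MW
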