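import Mathlib
import Fermat.Agent.MW.INST_helper8_Gal

/-!
# Project MW — [INST] part 3: equivariance of values, leading coefficients and the confluent
determinant (helper8)

`valN (σ • Q) (σ • f) = σ (valN Q f)`, `lcN f Q ≠ 0`, `lcN (σ • f) (σ • Q) = σ (lcN f Q)`,
`wdetN (σ • E) = ± σ (wdetN E)`.
-/

set_option autoImplicit false
set_option linter.unusedSectionVars false

open scoped BigOperators

noncomputable section

namespace Fermat.Agent.MW

open AlgebraicCurve ModularCurve Fermat.Agent.JA Fermat.Agent.FF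

variable {N : ℕ} [NeZero N]

theorem hasValueAt_gal_smul (σ : GQ) {Q : PtN N} {f : FunN N} {c : AlgebraicClosure ℚ}
    (h : HasValueAt Q f c) : HasValueAt (σ • Q) (σ • f) (σ c) :=
  h.smul (galN N σ)

/-- values are `GQ`-equivariant (also the junk value). -/
theorem valN_gal_smul (σ : GQ) (Q : PtN N) (f : FunN N) :
    valN N (σ • Q) (σ • f) = σ (valN N Q f) := by
  by_cases h : ∃ c, HasValueAt Q f c
  · obtain ⟨c, hc⟩ := h
    show valueAt (σ • Q) (σ • f) = σ (valueAt Q f)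
    rw [(hasValueAt_gal_smul σ hc).valueAt_eq, hc.valueAt_eq]
  · have h' : ¬ ∃ c, HasValueAt (σ • Q) (σ • f) c := by
      rintro ⟨c, hc⟩
      apply h
      have h2 := hasValueAt_gal_smul σ⁻¹ hc
      rw [inv_smul_smul, inv_smul_smul] at h2
      exact ⟨_, h2⟩
    show valueAt (σ • Q) (σ • f) = σ (valueAt Q f)
    unfold valueAt
    rw [dif_neg h, dif_neg h', map_zero]

theorem gal_smul_zpow (σ : GQ) (x : FunN N) (z : ℤ) : σ • x ^ z = (σ • x) ^ z :=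
  map_zpow₀ (MulSemiringAction.toRingHom GQ (FunN N) σ) x z

namespace DiffDatum

variable (𝔡 : DiffDatum N)

theorem K0_gal_smul (σ : GQ) (Q : PtN N) : 𝔡.K0 (σ • Q) = 𝔡.K0 Q := by
  have hτ := ord_unifAt N Q
  have hτ' : (σ • Q).ord (σ • unifAt N Q) = 1 := by rw [ord_gal_smul, hτ]
  have h1 := 𝔡.ord_D₀_unif hτ'
  rw [𝔡.D₀_smul, ord_gal_smul, 𝔡.ord_D₀_unif hτ] at h1
  have : ((𝔡.K0 Q : ℕ) : ℤ) = (𝔡.K0 (σ • Q) : ℕ) := by linarith
  exact_mod_cast this.symm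

theorem lcN_ne_zero {f : FunN N} (hf : f ≠ 0) (Q : PtN N) : 𝔡.lcN f Q ≠ 0 := by
  unfold lcN
  by_cases h0 : Q.ord f = 0
  · rw [if_pos h0]
    exact valN_ne_zero Q hf h0
  rw [if_neg h0]
  by_cases hK : 𝔡.K0 Q = 0
  · rw [if_pos hK]
    have hτ := ord_unifAt N Q
    have hτ0 := unifAt_ne_zero N Q
    have hKz : -((𝔡.K0 Q : ℕ) : ℤ) = 0 := by rw [hK]; simp
    refine mul_ne_zero ?_ (zpow_ne_zero _ ?_)
    · refine valN_ne_zero Q (mul_ne_zero hf (zpow_ne_zero _ hτ0)) ?_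
      rw [Q.ord_mul hf (zpow_ne_zero _ hτ0), Q.ord_zpow, hτ]
      ring
    · refine valN_ne_zero Q (𝔡.D₀_unif_ne_zero hτ) ?_
      rw [𝔡.ord_D₀_unif hτ, hKz]
  · rw [if_neg hK]
    exact one_ne_zero

theorem lcN_gal_smul (σ : GQ) {f : FunN N} (hf : f ≠ 0) (Q : PtN N) :
    𝔡.lcN (σ • f) (σ • Q) = σ (𝔡.lcN f Q) := by
  have hσf : σ • f ≠ 0 := by
    intro h
    apply hf
    have := congrArg (fun x => σ⁻¹ • x) h
    simpa using this
  by_cases h0 : Q.ord f = 0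
  · have h0' : (σ • Q).ord (σ • f) = 0 := by rw [ord_gal_smul, h0]
    unfold lcN
    rw [if_pos h0, if_pos h0', valN_gal_smul]
  by_cases hK : 𝔡.K0 Q = 0
  · have hK' : 𝔡.K0 (σ • Q) = 0 := by rw [𝔡.K0_gal_smul, hK]
    have hτ := ord_unifAt N Q
    have hτ' : (σ • Q).ord (σ • unifAt N Q) = 1 := by rw [ord_gal_smul, hτ]
    rw [𝔡.lcN_eq_of_unif hK' hτ' hσf, 𝔡.lcN_eq_of_unif hK hτ hf, ord_gal_smul, 𝔡.D₀_smul,
      valN_gal_smul, map_mul, map_zpow₀]
    congr 1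
    rw [← valN_gal_smul, smul_mul', gal_smul_zpow]
  · have h0' : ¬ (σ • Q).ord (σ • f) = 0 := by rw [ord_gal_smul]; exact h0
    have hK' : ¬ 𝔡.K0 (σ • Q) = 0 := by rw [𝔡.K0_gal_smul]; exact hK
    unfold lcN
    rw [if_neg h0, if_neg h0', if_neg hK, if_neg hK', map_one]

end DiffDatum

end Fermat.Agent.MW
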