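import Mathlib
import Fermat.Agent.MW.INST_helper8_Lc

/-!
# Project MW — [INST] part 4: equivariance of the confluent determinant (helper8)

`wdetN (σ • E) = ± σ (wdetN E)`, hence `lg v (wdetN (σ • E)) = lg v (σ (wdetN E))`.
-/

set_option autoImplicit false
set_option linter.unusedSectionVars false

open scoped BigOperators

noncomputable section

namespace Fermat.Agent.MW

open AlgebraicCurve ModularCurve Fermat.Agent.JA Fermat.Agent.FF

variable {N : ℕ} [NeZero N]

theorem gal_smul_const_smul (σ : GQ) (c : AlgebraicClosure ℚ) (f : FunN N) :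
    σ • (c • f) = (σ c) • (σ • f) := by
  rw [Algebra.smul_def, Algebra.smul_def, smul_mul', gal_smul_algebraMap]

theorem gdivNat_apply_smul (σ : GQ) (E : PtN N →₀ ℕ) (P : PtN N) :
    gdivNat σ E (σ • P) = E P :=
  Finsupp.mapDomain_apply (MulAction.injective σ) E P

theorem mem_support_gdivNat_iff (σ : GQ) (E : PtN N →₀ ℕ) (P : PtN N) :
    P ∈ E.support ↔ σ • P ∈ (gdivNat σ E).support := by
  rw [Finsupp.mem_support_iff, Finsupp.mem_support_iff, gdivNat_apply_smul]

namespace DiffDatum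

variable (𝔡 : DiffDatum N)

theorem D₀_iterate_gal_smul (σ : GQ) (s : ℕ) (f : FunN N) :
    σ • (𝔡.D₀^[s]) f = (𝔡.D₀^[s]) (σ • f) := by
  induction s with
  | zero => rfl
  | succ s ih =>
    rw [Function.iterate_succ_apply', Function.iterate_succ_apply', ← 𝔡.D₀_smul, ih]

theorem jet_gal_smul (σ : GQ) (s : ℕ) (f : FunN N) : σ • 𝔡.jet s f = 𝔡.jet s (σ • f) := by
  unfold jet
  rw [gal_smul_const_smul, 𝔡.D₀_iterate_gal_smul, map_inv₀, map_natCast]

/-- the bijection between the column index sets of `E` and `σ • E`. -/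
def colEquiv (σ : GQ) (E : PtN N →₀ ℕ) : ColIdx E ≃ ColIdx (gdivNat σ E) :=
  Equiv.sigmaCongr
    (Equiv.subtypeEquiv (MulAction.toPerm σ) (fun P => mem_support_gdivNat_iff σ E P))
    (fun P => finCongr (gdivNat_apply_smul σ E P.1).symm)

theorem colEquiv_fst (σ : GQ) (E : PtN N →₀ ℕ) (c : ColIdx E) :
    ((colEquiv σ E c).1 : PtN N) = σ • (c.1 : PtN N) := rfl

theorem colEquiv_snd (σ : GQ) (E : PtN N →₀ ℕ) (c : ColIdx E) :
    ((colEquiv σ E c).2 : ℕ) = (c.2 : ℕ) := rfl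

theorem wmat_colEquiv (σ : GQ) (E : PtN N →₀ ℕ) (k : Fin 𝔡.gq) (c : ColIdx E) :
    𝔡.wmat (gdivNat σ E) k (colEquiv σ E c) = σ (𝔡.wmat E k c) := by
  have h : valN N (σ • (c.1 : PtN N)) (𝔡.jet (c.2 : ℕ) (𝔡.φ k))
      = σ (valN N (c.1 : PtN N) (𝔡.jet (c.2 : ℕ) (𝔡.φ k))) := by
    rw [← valN_gal_smul, 𝔡.jet_gal_smul, 𝔡.φ_fix]
  exact h

open Classical in
/-- **`wdetN (σ • E) = ± σ (wdetN E)`.** -/
theorem wdetN_gal_smul (σ : GQ) (E : PtN N →₀ ℕ) :
    𝔡.wdetN (gdivNat σ E) = σ (𝔡.wdetN E) ∨ 𝔡.wdetN (gdivNat σ E) = -σ (𝔡.wdetN E) := by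
  have hcard : Fintype.card (ColIdx (gdivNat σ E)) = Fintype.card (ColIdx E) :=
    (Fintype.card_congr (colEquiv σ E)).symm
  unfold wdetN
  by_cases h : Fintype.card (ColIdx E) = 𝔡.gq
  · have h' : Fintype.card (ColIdx (gdivNat σ E)) = 𝔡.gq := hcard.trans h
    rw [dif_pos h, dif_pos h']
    set ε := Fintype.equivFinOfCardEq h with hε
    set ε' := Fintype.equivFinOfCardEq h' with hε'
    set π : Equiv.Perm (Fin 𝔡.gq) := ε'.symm.trans ((colEquiv σ E).symm.trans ε) with hπ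
    set A := (𝔡.wmat E).submatrix id ε.symm with hA
    have hmat : (𝔡.wmat (gdivNat σ E)).submatrix id ε'.symm
        = ((σ : AlgebraicClosure ℚ →+* AlgebraicClosure ℚ).mapMatrix A).submatrix id π := by
      ext k i
      simp only [Matrix.submatrix_apply, id, RingHom.mapMatrix_apply, Matrix.map_apply, hA, hπ,
        Equiv.trans_apply, Equiv.symm_apply_apply]
      have := 𝔡.wmat_colEquiv σ E k ((colEquiv σ E).symm (ε'.symm i))
      rw [Equiv.apply_symm_apply] at this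
      exact this
    rw [hmat, Matrix.det_permute', ← RingHom.map_det]
    rcases Int.units_eq_one_or (Equiv.Perm.sign π) with hs | hs
    · left
      rw [hs]
      simp
    · right
      rw [hs]
      simp
  · have h' : ¬ Fintype.card (ColIdx (gdivNat σ E)) = 𝔡.gq := by rw [hcard]; exact h
    rw [dif_neg h, dif_neg h']
    left
    rw [map_zero]

theorem lg_wdetN_gal_smul (v : Pl) (σ : GQ) (E : PtN N →₀ ℕ) :
    lg v (𝔡.wdetN (gdivNat σ E)) = lg v (σ • 𝔡.wdetN E) := by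
  rcases 𝔡.wdetN_gal_smul σ E with h | h
  · rw [h]; rfl
  · rw [h, lg_neg]; rfl

end DiffDatum

end Fermat.Agent.MW
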