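import Mathlib

/-!
# Project MW — [RR-APP] part 5a: a basis dual to a separating family of functionals (helper8)

Pure linear algebra: if a family `φ i` of linear functionals separates the points of a
finite-dimensional space `V`, then `V` has a basis `b` and indices `idx` with
`φ (idx i) (b j) = δ_ij`.
-/

set_option autoImplicit false

open Module

namespace Fermat.Agent.MW

theorem exists_basis_dual_to_family {K V ι : Type*} [Field K] [AddCommGroup V] [Module K V]
    [FiniteDimensional K V] (φ : ι → Dual K V) (hφ : ∀ x : V, (∀ i, φ i x = 0) → x = 0) :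
    ∃ (n : ℕ) (idx : Fin n → ι) (b : Basis (Fin n) K V),
      ∀ i j, φ (idx i) (b j) = if i = j then 1 else 0 := by
  classical
  -- the family spans the dual
  have hspan : Submodule.span K (Set.range φ) = ⊤ := by
    have h1 : (Submodule.span K (Set.range φ)).dualCoannihilator = ⊥ := by
      rw [eq_bot_iff]
      intro x hx
      rw [Submodule.mem_dualCoannihilator] at hx
      rw [Submodule.mem_bot]
      exact hφ x fun i => hx (φ i) (Submodule.subset_span ⟨i, rfl⟩)
    have h2 := Subspace.dualCoannihilator_dualAnnihilator_eq
      (W := Submodule.span K (Set.range φ))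
    rw [h1, Submodule.dualAnnihilator_bot] at h2
    exact h2.symm
  obtain ⟨B, hBsub, hBspan, hBli⟩ := exists_linearIndependent K (Set.range φ)
  have hBfin : B.Finite := hBli.setFinite
  letI : Fintype ↥B := hBfin.fintype
  have htop : ⊤ ≤ Submodule.span K (Set.range (Subtype.val : ↥B → Dual K V)) := by
    rw [Subtype.range_coe, hBspan, hspan]
  set β₀ : Basis ↥B K (Dual K V) := Basis.mk hBli htop with hβ₀
  set n := Fintype.card ↥B with hn
  set β : Basis (Fin n) K (Dual K V) := β₀.reindex (Fintype.equivFin ↥B) with hβ
  have hβmem : ∀ i, β i ∈ Set.range φ := by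
    intro i
    rw [hβ, Basis.reindex_apply, hβ₀, Basis.mk_apply]
    exact hBsub (Subtype.mem _)
  choose idx hidx using hβmem
  refine ⟨n, idx, β.dualBasis.map (evalEquiv K V).symm, fun i j => ?_⟩
  rw [hidx i, Basis.map_apply, apply_evalEquiv_symm_apply, Basis.dualBasis_apply_self]

end Fermat.Agent.MW
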