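import Mathlib
import Fermat.Agent.MW.RRAPP_helper8_Dual
import Fermat.Agent.MW.INST_helper8_Gal

/-!
# Project MW — [RR-APP] part 5b: Galois-stable spaces of functions have `GQ`-fixed bases (helper8)

The `q`-expansion coefficients are `GQ`-equivariant linear functionals separating the points of
`FunN N`; the basis dual to a suitable finite subfamily is `GQ`-fixed.
-/

set_option autoImplicit false
set_option linter.unusedSectionVars false

open Module

noncomputable section

namespace Fermat.Agent.MW

open AlgebraicCurve ModularCurve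

variable (N : ℕ) [NeZero N]

/-- the `n`-th `q`-expansion coefficient. -/
def coeffLin (n : ℤ) : FunN N →ₗ[AlgebraicClosure ℚ] AlgebraicClosure ℚ where
  toFun f := (f : LaurentSeries (AlgebraicClosure ℚ)).coeff n
  map_add' f g := by
    show ((f + g : FunN N) : LaurentSeries (AlgebraicClosure ℚ)).coeff n = _
    rw [IntermediateField.coe_add, HahnSeries.coeff_add]
  map_smul' a f := by
    show ((a • f : FunN N) : LaurentSeries (AlgebraicClosure ℚ)).coeff n = _
    rw [IntermediateField.coe_smul, Algebra.smul_def, algebraMap_laurentSeries_eq_single,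
      HahnSeries.coeff_single_zero_mul]
    rfl

theorem coeffLin_apply (n : ℤ) (f : FunN N) :
    coeffLin N n f = (f : LaurentSeries (AlgebraicClosure ℚ)).coeff n := rfl

theorem coeffLin_gal_smul (σ : GQ) (n : ℤ) (f : FunN N) :
    coeffLin N n (σ • f) = σ (coeffLin N n f) := by
  rw [coeffLin_apply, coeffLin_apply, coe_gal_smul, coeffMap_coeff]
  rfl

theorem eq_zero_of_forall_coeffLin {f : FunN N} (h : ∀ n, coeffLin N n f = 0) : f = 0 := by
  apply Subtype.ext
  ext n
  exact h n

/-- **a `GQ`-stable finite-dimensional space of functions has a `GQ`-fixed basis.** -/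
theorem exists_fixed_basis (V : Submodule (AlgebraicClosure ℚ) (FunN N))
    [FiniteDimensional (AlgebraicClosure ℚ) V]
    (hV : ∀ (σ : GQ) (f : FunN N), f ∈ V → σ • f ∈ V) :
    ∃ (n : ℕ) (b : Fin n → FunN N), n = finrank (AlgebraicClosure ℚ) V ∧ (∀ i, b i ∈ V) ∧
      LinearIndependent (AlgebraicClosure ℚ) b ∧
      Submodule.span (AlgebraicClosure ℚ) (Set.range b) = V ∧ ∀ (σ : GQ) i, σ • b i = b i := by
  classical
  set φ : ℤ → Dual (AlgebraicClosure ℚ) ↥V := fun n => (coeffLin N n).comp V.subtype with hφ
  have hsep : ∀ x : ↥V, (∀ n, φ n x = 0) → x = 0 := by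
    intro x hx
    apply Subtype.ext
    exact eq_zero_of_forall_coeffLin N hx
  obtain ⟨n, idx, B, hB⟩ := exists_basis_dual_to_family φ hsep
  refine ⟨n, fun i => (B i : FunN N), ?_, fun i => (B i).2, ?_, ?_, ?_⟩
  · rw [finrank_eq_card_basis B, Fintype.card_fin]
  · have := B.linearIndependent.map' V.subtype (Submodule.ker_subtype V)
    exact this
  · have h1 : Set.range (fun i => (B i : FunN N)) = V.subtype '' Set.range B := by
      rw [← Set.range_comp]; rfl
    rw [h1, ← Submodule.map_span, B.span_eq, Submodule.map_subtype_top]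
  · intro σ j
    have hmem : σ • (B j : FunN N) ∈ V := hV σ _ (B j).2
    set x : ↥V := ⟨σ • (B j : FunN N), hmem⟩ - B j with hx
    have hx0 : x = 0 := by
      apply B.repr.map_eq_zero_iff.mp
      ext i
      have hcoord : B.coord i = φ (idx i) := by
        apply B.ext
        intro j'
        rw [hB i j', Basis.coord_apply, Basis.repr_self, Finsupp.single_apply]
        by_cases h : i = j'
        · rw [if_pos h, if_pos h.symm]
        · rw [if_neg h, if_neg (Ne.symm h)]
      rw [Finsupp.zero_apply, ← Basis.coord_apply, hcoord, hx, map_sub]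
      have h1 : φ (idx i) ⟨σ • (B j : FunN N), hmem⟩ = σ (φ (idx i) (B j)) :=
        coeffLin_gal_smul N σ (idx i) (B j : FunN N)
      rw [h1, hB i j]
      split_ifs
      · rw [map_one, sub_self]
      · rw [map_zero, sub_self]
    have := congrArg (Subtype.val) hx0
    rw [hx] at this
    simpa [sub_eq_zero] using this

end Fermat.Agent.MW
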