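import Mathlib
import Fermat.Agent.MW.MUMFORD_helper8_Gavg

/-!
# Project MW — [MUMFORD] layer M1: the global pairing `bil` (helper8)

`locPair` is biadditive and symmetric; for admissible pairs (common support off `𝒵'`) the local
pairings vanish for almost all `v`; `bil` is symmetric and biadditive on admissible pairs.
-/

set_option autoImplicit false

open scoped BigOperators

noncomputable section

namespace Fermat.Agent.MW

attribute [local instance] Finsupp.comapSMul Finsupp.comapMulAction Finsupp.comapDistribMulAction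

section LocPair

variable {X : Type*} [DecidableEq X] (γ : X → X → ℝ) (r : X → ℝ)

/-- the kernel of the local pairing. -/
def lker (P Q : X) : ℝ := if P = Q then r P else γ P Q

theorem locPair_eq_sum (D E : X →₀ ℤ) :
    locPair γ r D E = D.sum fun P a => E.sum fun Q b => (a : ℝ) * (b : ℝ) * lker γ r P Q := rfl

theorem locPair_add_left (D D' E : X →₀ ℤ) :
    locPair γ r (D + D') E = locPair γ r D E + locPair γ r D' E := by
  rw [locPair_eq_sum, locPair_eq_sum, locPair_eq_sum]
  refine Finsupp.sum_add_index' ?_ ?_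
  · intro P
    simp [Finsupp.sum]
  · intro P a b
    simp only [Finsupp.sum, Int.cast_add, ← Finset.sum_add_distrib]
    refine Finset.sum_congr rfl fun Q _ => ?_
    ring

theorem locPair_add_right (D E E' : X →₀ ℤ) :
    locPair γ r D (E + E') = locPair γ r D E + locPair γ r D E' := by
  rw [locPair_eq_sum, locPair_eq_sum, locPair_eq_sum]
  simp only [Finsupp.sum]
  rw [← Finset.sum_add_distrib]
  refine Finset.sum_congr rfl fun P _ => ?_
  have := Finsupp.sum_add_index' (f := E) (g := E')
    (h := fun Q b => ((D P : ℤ) : ℝ) * ((b : ℤ) : ℝ) * lker γ r P Q) (by intro Q; simp)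
    (by intro Q a b; push_cast; ring)
  simpa only [Finsupp.sum] using this

theorem locPair_zero_left (E : X →₀ ℤ) : locPair γ r 0 E = 0 := by
  simp [locPair_eq_sum]

theorem locPair_zero_right (D : X →₀ ℤ) : locPair γ r D 0 = 0 := by
  simp [locPair_eq_sum]

theorem locPair_neg_left (D E : X →₀ ℤ) : locPair γ r (-D) E = -locPair γ r D E := by
  have h := locPair_add_left γ r D (-D) E
  rw [add_neg_cancel, locPair_zero_left] at h
  linarith

theorem locPair_neg_right (D E : X →₀ ℤ) : locPair γ r D (-E) = -locPair γ r D E := by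
  have h := locPair_add_right γ r D E (-E)
  rw [add_neg_cancel, locPair_zero_right] at h
  linarith

theorem locPair_sub_left (D D' E : X →₀ ℤ) :
    locPair γ r (D - D') E = locPair γ r D E - locPair γ r D' E := by
  rw [sub_eq_add_neg, locPair_add_left, locPair_neg_left, sub_eq_add_neg]

theorem locPair_sub_right (D E E' : X →₀ ℤ) :
    locPair γ r D (E - E') = locPair γ r D E - locPair γ r D E' := by
  rw [sub_eq_add_neg, locPair_add_right, locPair_neg_right, sub_eq_add_neg]

theorem locPair_symm (hγ : ∀ P Q, γ P Q = γ Q P) (D E : X →₀ ℤ) :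
    locPair γ r D E = locPair γ r E D := by
  unfold locPair
  rw [Finset.sum_comm]
  refine Finset.sum_congr rfl fun Q _ => Finset.sum_congr rfl fun P _ => ?_
  by_cases h : P = Q
  · subst h; simp only [if_true]; ring
  · rw [if_neg h, if_neg (Ne.symm h), hγ P Q]; ring

/-- the local pairing with a divisor in the second variable, as a sum over its support of the
"potential" of the first. -/
theorem locPair_eq_sum_right (D E : X →₀ ℤ) :
    locPair γ r D E = ∑ Q ∈ E.support, (E Q : ℝ) *
      ∑ P ∈ D.support, (D P : ℝ) * (if P = Q then r Q else γ P Q) := by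
  unfold locPair
  rw [Finset.sum_comm]
  refine Finset.sum_congr rfl fun Q _ => ?_
  rw [Finset.mul_sum]
  refine Finset.sum_congr rfl fun P _ => ?_
  by_cases h : P = Q
  · subst h; simp only [if_true]; ring
  · rw [if_neg h, if_neg h]; ring

end LocPair

namespace HtSys

variable {G K X Fn V J : Type} [Group G] [Field K] [MulSemiringAction G K]
  [MulAction G X] [MulAction G Fn] [AddCommGroup J] [DistribMulAction G J] [DecidableEq X]
  (S : HtSys G K X Fn V J)

/-- the local pairing at `v`. -/
def Lam (v : V) (D E : X →₀ ℤ) : ℝ := locPair (S.γ v) (S.r v) D E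

theorem bil_eq (D E : X →₀ ℤ) :
    S.bil D E = -∑ᶠ v, gavg G (fun DE : (X →₀ ℤ) × (X →₀ ℤ) => S.Lam v DE.1 DE.2) (D, E) := rfl

/-- admissible pair: the common support avoids `𝒵'`. -/
def Adm (D E : X →₀ ℤ) : Prop := ∀ P, P ∈ D.support → P ∈ E.support → P ∉ S.Zp

theorem Adm.symm {D E : X →₀ ℤ} (h : S.Adm D E) : S.Adm E D := fun P h1 h2 => h P h2 h1

theorem Adm.add_left {D D' E : X →₀ ℤ} (h : S.Adm D E) (h' : S.Adm D' E) : S.Adm (D + D') E := by
  intro P hP hE
  rcases Finset.mem_union.mp (Finsupp.support_add hP) with h1 | h1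
  · exact h P h1 hE
  · exact h' P h1 hE

theorem Adm.neg_left {D E : X →₀ ℤ} (h : S.Adm D E) : S.Adm (-D) E := by
  intro P hP hE
  rw [Finsupp.support_neg] at hP
  exact h P hP hE

theorem Adm.sub_left {D D' E : X →₀ ℤ} (h : S.Adm D E) (h' : S.Adm D' E) : S.Adm (D - D') E := by
  rw [sub_eq_add_neg]
  exact Adm.add_left S h (Adm.neg_left S h')

theorem adm_of_right {D E : X →₀ ℤ} (h : ∀ P ∈ E.support, P ∉ S.Zp) : S.Adm D E :=
  fun P _ hE => h P hE

theorem adm_of_left {D E : X →₀ ℤ} (h : ∀ P ∈ D.support, P ∉ S.Zp) : S.Adm D E :=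
  fun P hD _ => h P hD

omit [DecidableEq X] in
theorem mem_support_smul_iff {M : Type*} [AddCommMonoid M] (σ : G) (D : X →₀ M) (P : X) :
    P ∈ (σ • D).support ↔ σ⁻¹ • P ∈ D.support := by
  rw [Finsupp.mem_support_iff, Finsupp.mem_support_iff, Finsupp.comapSMul_apply]

theorem Adm.smul {D E : X →₀ ℤ} (h : S.Adm D E) (σ : G) : S.Adm (σ • D) (σ • E) := by
  intro P hP hE hZ
  rw [mem_support_smul_iff] at hP hE
  exact h _ hP hE (S.Zp_smul σ⁻¹ P hZ)

/-- for an admissible pair the local pairings vanish for almost all `v`. -/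
theorem Lam_support_finite {D E : X →₀ ℤ} (h : S.Adm D E) :
    (Function.support fun v => S.Lam v D E).Finite := by
  classical
  -- the finite set of places where some kernel value is nonzero
  have hfin : (⋃ P ∈ D.support, ⋃ Q ∈ E.support,
      Function.support fun v => lker (S.γ v) (S.r v) P Q).Finite := by
    refine Set.Finite.biUnion D.support.finite_toSet fun P hP => ?_
    refine Set.Finite.biUnion E.support.finite_toSet fun Q hQ => ?_
    by_cases hPQ : P = Q
    · subst hPQ
      have := S.r_support P (h P hP hQ)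
      simpa [lker] using this
    · have := S.γ_support P Q hPQ
      simpa [lker, hPQ] using this
  refine hfin.subset ?_
  intro v hv
  rw [Function.mem_support] at hv
  by_contra hcon
  apply hv
  simp only [Set.mem_iUnion, Function.mem_support, not_exists, not_not] at hcon
  unfold Lam locPair
  refine Finset.sum_eq_zero fun P hP => Finset.sum_eq_zero fun Q hQ => ?_
  have := hcon P hP Q hQ
  simp only [lker] at this
  rw [this, mul_zero]

include S in
theorem orbit_pair_finite (D E : X →₀ ℤ) : (MulAction.orbit G (D, E)).Finite :=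
  orbit_prod_finite D E (orbit_finsupp_finite D S.orbX) (orbit_finsupp_finite E S.orbX)

/-- the averaged local pairing of an admissible pair vanishes for almost all `v`. -/
theorem gavg_Lam_support_finite {D E : X →₀ ℤ} (h : S.Adm D E) :
    (Function.support fun v =>
      gavg G (fun DE : (X →₀ ℤ) × (X →₀ ℤ) => S.Lam v DE.1 DE.2) (D, E)).Finite := by
  classical
  have horb := S.orbit_pair_finite D E
  have hfin : (⋃ DE ∈ horb.toFinset, Function.support fun v => S.Lam v DE.1 DE.2).Finite := by
    refine Set.Finite.biUnion horb.toFinset.finite_toSet fun DE hDE => ?_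
    rw [Finset.mem_coe, Set.Finite.mem_toFinset] at hDE
    obtain ⟨σ, rfl⟩ := hDE
    exact S.Lam_support_finite (h.smul S σ)
  refine hfin.subset ?_
  intro v hv
  rw [Function.mem_support] at hv
  by_contra hcon
  apply hv
  simp only [Set.mem_iUnion, Function.mem_support, not_exists, not_not] at hcon
  rw [gavg_of_finite _ _ horb]
  rw [Finset.sum_eq_zero, zero_div]
  intro DE hDE
  exact hcon DE hDE

/-- `bil` is symmetric. -/
theorem bil_symm (D E : X →₀ ℤ) : S.bil D E = S.bil E D := by
  rw [bil_eq, bil_eq]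
  congr 1
  refine finsum_congr fun v => ?_
  have h1 := gavg_comp_equivariant (G := G) (Prod.swap : (X →₀ ℤ) × (X →₀ ℤ) → _)
    (fun _ _ => rfl) (fun DE : (X →₀ ℤ) × (X →₀ ℤ) => S.Lam v DE.1 DE.2) (D, E)
    (S.orbit_pair_finite D E)
  rw [Prod.swap_prod_mk] at h1
  rw [← h1]
  refine gavg_congr _ fun σ => ?_
  exact locPair_symm _ _ (S.γ_symm v) _ _

/-- `bil` is additive in the first variable on admissible pairs. -/
theorem bil_add_left {D D' E : X →₀ ℤ} (h : S.Adm D E) (h' : S.Adm D' E) :
    S.bil (D + D') E = S.bil D E + S.bil D' E := by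
  rw [bil_eq, bil_eq, bil_eq, ← neg_add, ← finsum_add_distrib (S.gavg_Lam_support_finite h)
    (S.gavg_Lam_support_finite h')]
  congr 1
  refine finsum_congr fun v => ?_
  -- the joint orbit of the triple
  have horb : (MulAction.orbit G (D, D', E)).Finite :=
    orbit_prod_finite D (D', E) (orbit_finsupp_finite D S.orbX) (S.orbit_pair_finite D' E)
  set Φ := fun DE : (X →₀ ℤ) × (X →₀ ℤ) => S.Lam v DE.1 DE.2 with hΦ
  have h0 := gavg_comp_equivariant (G := G)
    (fun w : (X →₀ ℤ) × (X →₀ ℤ) × (X →₀ ℤ) => (w.1 + w.2.1, w.2.2))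
    (fun σ w => by
      show (σ • w.1 + σ • w.2.1, σ • w.2.2) = (σ • (w.1 + w.2.1), σ • w.2.2)
      rw [smul_add]) Φ (D, D', E) horb
  have h1 := gavg_comp_equivariant (G := G)
    (fun w : (X →₀ ℤ) × (X →₀ ℤ) × (X →₀ ℤ) => (w.1, w.2.2)) (fun _ _ => rfl) Φ (D, D', E) horb
  have h2 := gavg_comp_equivariant (G := G)
    (fun w : (X →₀ ℤ) × (X →₀ ℤ) × (X →₀ ℤ) => (w.2.1, w.2.2)) (fun _ _ => rfl) Φ (D, D', E) horb
  simp only at h0 h1 h2
  rw [← h0, ← h1, ← h2, ← gavg_add]
  refine gavg_congr _ fun σ => ?_
  simp only [hΦ, Lam]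
  exact locPair_add_left _ _ _ _ _

theorem bil_add_right {D E E' : X →₀ ℤ} (h : S.Adm D E) (h' : S.Adm D E') :
    S.bil D (E + E') = S.bil D E + S.bil D E' := by
  rw [S.bil_symm D (E + E'), S.bil_add_left h.symm h'.symm, S.bil_symm E D, S.bil_symm E' D]

theorem bil_zero_left (E : X →₀ ℤ) : S.bil 0 E = 0 := by
  have h0 : S.Adm 0 E := fun P hP _ => by simp at hP
  have := S.bil_add_left h0 h0
  rw [add_zero] at this
  linarith

theorem bil_neg_left {D E : X →₀ ℤ} (h : S.Adm D E) : S.bil (-D) E = -S.bil D E := by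
  have := S.bil_add_left h (h.neg_left S)
  rw [add_neg_cancel, bil_zero_left] at this
  linarith

theorem bil_sub_left {D D' E : X →₀ ℤ} (h : S.Adm D E) (h' : S.Adm D' E) :
    S.bil (D - D') E = S.bil D E - S.bil D' E := by
  rw [sub_eq_add_neg, S.bil_add_left h (h'.neg_left S), S.bil_neg_left h', sub_eq_add_neg]

end HtSys

end Fermat.Agent.MW
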