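import Mathlib
import Fermat.Agent.MW.MUMFORD_helper8_Bil

/-!
# Project MW — [MUMFORD] layer M2: quasi-invariance (QI) (helper8)

`|bil (dv f) E| ≤ dnorm E · Σ_v Cw v d` for a function `f` with `dnorm (dv f) ≤ d` and a divisor `E`
of degree `0` whose support avoids `𝒵'`.
-/

set_option autoImplicit false

open scoped BigOperators

noncomputable section

namespace Fermat.Agent.MW

attribute [local instance] Finsupp.comapSMul Finsupp.comapMulAction Finsupp.comapDistribMulAction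

section Aux

variable {G : Type*} [Group G] {X : Type*} [MulAction G X]

theorem sum_smul_index {M N : Type*} [AddCommMonoid M] [AddCommMonoid N] (σ : G) (E : X →₀ M)
    (h : X → M → N) : (σ • E).sum h = E.sum fun Q b => h (σ • Q) b := by
  rw [Finsupp.comapSMul_def]
  exact Finsupp.sum_mapDomain_index_inj (MulAction.injective σ)

theorem dnorm_smul (σ : G) (D : X →₀ ℤ) : dnorm (σ • D) = dnorm D := by
  unfold dnorm
  rw [sum_smul_index]

theorem ddeg_apply (D : X →₀ ℤ) : ddeg D = D.sum fun _ n => n := by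
  unfold ddeg
  rw [Finsupp.liftAddHom_apply]
  rfl

theorem ddeg_smul (σ : G) (D : X →₀ ℤ) : ddeg (σ • D) = ddeg D := by
  rw [ddeg_apply, ddeg_apply, sum_smul_index]

theorem smul_mem_dZero (σ : G) {D : X →₀ ℤ} (h : D ∈ dZero X) : σ • D ∈ dZero X := by
  unfold dZero at *
  rw [AddMonoidHom.mem_ker] at *
  rw [ddeg_smul, h]

theorem sum_abs_le_dnorm (E : X →₀ ℤ) : ∑ Q ∈ E.support, |(E Q : ℝ)| = (dnorm E : ℝ) := by
  unfold dnorm
  rw [Finsupp.sum]
  push_cast
  rfl

end Aux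

section Finsum

variable {α : Type*}

theorem abs_finsum_le {f g : α → ℝ} (hf : (Function.support f).Finite)
    (hg : (Function.support g).Finite) (h : ∀ a, |f a| ≤ g a) : |∑ᶠ a, f a| ≤ ∑ᶠ a, g a := by
  classical
  have hsub1 : Function.support f ⊆ ((hf.union hg).toFinset : Set α) := by
    intro a ha; simp only [Set.Finite.coe_toFinset]; exact Or.inl ha
  have hsub2 : Function.support g ⊆ ((hf.union hg).toFinset : Set α) := by
    intro a ha; simp only [Set.Finite.coe_toFinset]; exact Or.inr ha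
  rw [finsum_eq_sum_of_support_subset f hsub1, finsum_eq_sum_of_support_subset g hsub2]
  exact le_trans (Finset.abs_sum_le_sum_abs _ _) (Finset.sum_le_sum fun a _ => h a)

theorem finsum_le_finsum_of_le {f g : α → ℝ} (hf : (Function.support f).Finite)
    (hg : (Function.support g).Finite) (h : ∀ a, f a ≤ g a) : ∑ᶠ a, f a ≤ ∑ᶠ a, g a := by
  classical
  have hsub1 : Function.support f ⊆ ((hf.union hg).toFinset : Set α) := by
    intro a ha; simp only [Set.Finite.coe_toFinset]; exact Or.inl ha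
  have hsub2 : Function.support g ⊆ ((hf.union hg).toFinset : Set α) := by
    intro a ha; simp only [Set.Finite.coe_toFinset]; exact Or.inr ha
  rw [finsum_eq_sum_of_support_subset f hsub1, finsum_eq_sum_of_support_subset g hsub2]
  exact Finset.sum_le_sum fun a _ => h a

theorem support_finite_of_abs_le {f g : α → ℝ} (hg : (Function.support g).Finite)
    (h : ∀ a, |f a| ≤ g a) : (Function.support f).Finite := by
  refine hg.subset fun a ha => ?_
  rw [Function.mem_support] at ha ⊢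
  intro h0
  have := h a
  rw [h0] at this
  exact ha (abs_eq_zero.mp (le_antisymm this (abs_nonneg _)))

end Finsum

namespace HtSys

variable {G K X Fn V J : Type} [Group G] [Field K] [MulSemiringAction G K]
  [MulAction G X] [MulAction G Fn] [AddCommGroup J] [DistribMulAction G J] [DecidableEq X]
  (S : HtSys G K X Fn V J)

/-- the potential of a divisor `D` at `Q` for the place `v`. -/
def pot (v : V) (D : X →₀ ℤ) (Q : X) : ℝ :=
  ∑ P ∈ D.support, (D P : ℝ) * (if P = Q then S.r v Q else S.γ v P Q)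

theorem Lam_eq_sum_pot (v : V) (D E : X →₀ ℤ) :
    S.Lam v D E = E.sum fun Q b => (b : ℝ) * S.pot v D Q := by
  unfold Lam pot
  rw [locPair_eq_sum_right]
  rfl

/-- pointwise form of (QI): for every `σ`. -/
theorem Lam_smul_dv_add (f : Fn) (d : ℕ) (hd : dnorm (S.dv f) ≤ d) (E : X →₀ ℤ)
    (hE0 : E ∈ dZero X) (hE : ∀ P ∈ E.support, P ∉ S.Zp) (v : V) (σ : G) :
    |S.Lam v (σ • S.dv f) (σ • E) + ∑ Q ∈ E.support, (E Q : ℝ) * S.lg v (σ • S.lc f Q)|
      ≤ (dnorm E : ℝ) * S.Cw v d := by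
  have hdv : σ • S.dv f = S.dv (σ • f) := (S.dv_smul σ f).symm
  have hd' : dnorm (S.dv (σ • f)) ≤ d := by rw [← hdv, dnorm_smul]; exact hd
  obtain ⟨c, -, hc⟩ := S.weil d (σ • f) hd'
  rw [hdv, Lam_eq_sum_pot, sum_smul_index, Finsupp.sum, ← Finset.sum_add_distrib]
  have hdeg : ∑ Q ∈ E.support, (E Q : ℝ) * c v = 0 := by
    rw [← Finset.sum_mul]
    have h0 : ddeg E = 0 := hE0
    rw [ddeg_apply, Finsupp.sum] at h0
    have : (∑ Q ∈ E.support, (E Q : ℝ)) = ((∑ Q ∈ E.support, E Q : ℤ) : ℝ) := by push_cast; rfl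
    rw [this, h0, Int.cast_zero, zero_mul]
  have key : ∀ Q ∈ E.support,
      |(E Q : ℝ) * S.pot v (S.dv (σ • f)) (σ • Q) + (E Q : ℝ) * S.lg v (σ • S.lc f Q)
        - (E Q : ℝ) * c v| ≤ |(E Q : ℝ)| * S.Cw v d := by
    intro Q hQ
    have hQZ : σ • Q ∉ S.Zp := by
      intro hz
      have := S.Zp_smul σ⁻¹ _ hz
      rw [inv_smul_smul] at this
      exact hE Q hQ this
    have h1 := hc v (σ • Q) (Or.inr hQZ)
    rw [S.lc_smul σ f Q] at h1
    have e : (E Q : ℝ) * S.pot v (S.dv (σ • f)) (σ • Q) + (E Q : ℝ) * S.lg v (σ • S.lc f Q)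
        - (E Q : ℝ) * c v
        = (E Q : ℝ) * (S.pot v (S.dv (σ • f)) (σ • Q) + S.lg v (σ • S.lc f Q) - c v) := by ring
    rw [e, abs_mul]
    exact mul_le_mul_of_nonneg_left h1 (abs_nonneg _)
  calc |∑ Q ∈ E.support, ((E Q : ℝ) * S.pot v (S.dv (σ • f)) (σ • Q)
          + (E Q : ℝ) * S.lg v (σ • S.lc f Q))|
      = |∑ Q ∈ E.support, ((E Q : ℝ) * S.pot v (S.dv (σ • f)) (σ • Q)
          + (E Q : ℝ) * S.lg v (σ • S.lc f Q) - (E Q : ℝ) * c v)| := by
        rw [Finset.sum_sub_distrib (f := fun Q => (E Q : ℝ) * S.pot v (S.dv (σ • f)) (σ • Q)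
          + (E Q : ℝ) * S.lg v (σ • S.lc f Q)), hdeg, sub_zero]
    _ ≤ ∑ Q ∈ E.support, |(E Q : ℝ) * S.pot v (S.dv (σ • f)) (σ • Q)
          + (E Q : ℝ) * S.lg v (σ • S.lc f Q) - (E Q : ℝ) * c v| :=
        Finset.abs_sum_le_sum_abs _ _
    _ ≤ ∑ Q ∈ E.support, |(E Q : ℝ)| * S.Cw v d := Finset.sum_le_sum key
    _ = (dnorm E : ℝ) * S.Cw v d := by rw [← Finset.sum_mul, sum_abs_le_dnorm]

/-- averaged form of (QI) at one place. -/
theorem abs_gavg_Lam_dv_add (f : Fn) (d : ℕ) (hd : dnorm (S.dv f) ≤ d) (E : X →₀ ℤ)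
    (hE0 : E ∈ dZero X) (hE : ∀ P ∈ E.support, P ∉ S.Zp) (v : V) :
    |gavg G (fun DE : (X →₀ ℤ) × (X →₀ ℤ) => S.Lam v DE.1 DE.2) (S.dv f, E)
      + ∑ Q ∈ E.support, (E Q : ℝ) * gavg G (S.lg v) (S.lc f Q)|
      ≤ (dnorm E : ℝ) * S.Cw v d := by
  classical
  set a : E.support → K := fun Q => S.lc f Q.1 with ha
  have horb1 := S.orbit_pair_finite (S.dv f) E
  have horb2 : (MulAction.orbit G a).Finite := orbit_pi_finite a fun Q => S.orbK _
  have horb := orbit_prod_finite (G := G) (S.dv f, E) a horb1 horb2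
  set Φ := fun DE : (X →₀ ℤ) × (X →₀ ℤ) => S.Lam v DE.1 DE.2 with hΦ
  have h1 := gavg_comp_equivariant (G := G)
    (Prod.fst : ((X →₀ ℤ) × (X →₀ ℤ)) × (E.support → K) → _) (fun _ _ => rfl) Φ
    ((S.dv f, E), a) horb
  have h2 : ∀ Q : E.support, gavg G (fun w : ((X →₀ ℤ) × (X →₀ ℤ)) × (E.support → K) =>
      S.lg v (w.2 Q)) ((S.dv f, E), a) = gavg G (S.lg v) (S.lc f Q.1) := fun Q =>
    gavg_comp_equivariant (G := G)
      (fun w : ((X →₀ ℤ) × (X →₀ ℤ)) × (E.support → K) => w.2 Q) (fun _ _ => rfl) (S.lg v)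
      ((S.dv f, E), a) horb
  have h3 : ∑ Q ∈ E.support, (E Q : ℝ) * gavg G (S.lg v) (S.lc f Q)
      = gavg G (fun w : ((X →₀ ℤ) × (X →₀ ℤ)) × (E.support → K) =>
          ∑ Q : E.support, (E Q.1 : ℝ) * S.lg v (w.2 Q)) ((S.dv f, E), a) := by
    rw [gavg_finset_sum, ← Finset.sum_coe_sort]
    refine Finset.sum_congr rfl fun Q _ => ?_
    rw [gavg_const_mul, h2 Q]
  rw [← h1, h3, ← gavg_add]
  refine abs_gavg_le _ (mul_nonneg (by exact_mod_cast
    (Finsupp.sum_nonneg fun _ _ => abs_nonneg _ : (0 : ℤ) ≤ dnorm E)) (S.Cw_nonneg v d))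
    fun σ => ?_
  have := S.Lam_smul_dv_add f d hd E hE0 hE v σ
  rw [← Finset.sum_coe_sort] at this
  exact this

/-- **(QI) quasi-invariance.** -/
theorem quasi_invariance (f : Fn) (d : ℕ) (hd : dnorm (S.dv f) ≤ d) (E : X →₀ ℤ)
    (hE0 : E ∈ dZero X) (hE : ∀ P ∈ E.support, P ∉ S.Zp) :
    |S.bil (S.dv f) E| ≤ (dnorm E : ℝ) * ∑ᶠ v, S.Cw v d := by
  classical
  rw [bil_eq, abs_neg]
  set A : V → ℝ := fun v =>
    gavg G (fun DE : (X →₀ ℤ) × (X →₀ ℤ) => S.Lam v DE.1 DE.2) (S.dv f, E) with hA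
  set B : V → ℝ := fun v => ∑ Q ∈ E.support, (E Q : ℝ) * gavg G (S.lg v) (S.lc f Q) with hB
  have hAfin : (Function.support A).Finite :=
    S.gavg_Lam_support_finite (S.adm_of_right hE)
  have hBfin : (Function.support B).Finite := by
    refine (Set.Finite.biUnion E.support.finite_toSet
      fun Q _ => S.pf_support (S.lc f Q) (S.lc_ne f Q)).subset ?_
    intro v hv
    rw [Function.mem_support] at hv
    by_contra hcon
    apply hv
    simp only [Set.mem_iUnion, Function.mem_support, not_exists, not_not] at hcon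
    exact Finset.sum_eq_zero fun Q hQ => by rw [hcon Q hQ, mul_zero]
  have hB0 : ∑ᶠ v, B v = 0 := by
    rw [hB, finsum_sum_comm]
    · refine Finset.sum_eq_zero fun Q _ => ?_
      rw [← mul_finsum, S.pf _ (S.lc_ne f Q), mul_zero]
    · intro Q _
      refine (S.pf_support (S.lc f Q) (S.lc_ne f Q)).subset fun v hv => ?_
      rw [Function.mem_support] at hv ⊢
      intro h0
      apply hv
      rw [h0, mul_zero]
  have hAB : ∑ᶠ v, A v = ∑ᶠ v, (A v + B v) := by
    rw [finsum_add_distrib hAfin hBfin, hB0, add_zero]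
  rw [hAB, mul_finsum]
  exact abs_finsum_le ((hAfin.union hBfin).subset (Function.support_add A B))
    ((S.Cw_support d).subset fun v hv => by
      rw [Function.mem_support] at hv ⊢
      intro h0; apply hv; rw [h0, mul_zero])
    fun v => S.abs_gavg_Lam_dv_add f d hd E hE0 hE v

end HtSys

end Fermat.Agent.MW
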