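import Mathlib
import Fermat.Agent.MW.MUMFORD_helper8_QI

/-!
# Project MW — [MUMFORD] layer M3: the quasi-pairing `β` on `J` (helper8)

`β y z := bil (rep y) (rep z)` for chosen representatives avoiding `𝒵`; it is a `QuasiPairing`
with constant `4 g · Σ_v Cw v (12 g)`.
-/

set_option autoImplicit false

open scoped BigOperators

noncomputable section

namespace Fermat.Agent.MW

attribute [local instance] Finsupp.comapSMul Finsupp.comapMulAction Finsupp.comapDistribMulAction

section Dnorm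

variable {X : Type*}

theorem dnorm_nonneg (D : X →₀ ℤ) : 0 ≤ dnorm D := Finsupp.sum_nonneg fun _ _ => abs_nonneg _

theorem dnorm_eq_sum_of_subset [DecidableEq X] (D : X →₀ ℤ) (s : Finset X) (h : D.support ⊆ s) :
    dnorm D = ∑ P ∈ s, |D P| := by
  unfold dnorm
  rw [Finsupp.sum]
  refine Finset.sum_subset h fun P _ hP => ?_
  rw [Finsupp.notMem_support_iff.mp hP, abs_zero]

theorem dnorm_add_le (D E : X →₀ ℤ) : dnorm (D + E) ≤ dnorm D + dnorm E := by
  classical
  set s := D.support ∪ E.support with hs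
  rw [dnorm_eq_sum_of_subset (D + E) s Finsupp.support_add,
    dnorm_eq_sum_of_subset D s Finset.subset_union_left,
    dnorm_eq_sum_of_subset E s Finset.subset_union_right, ← Finset.sum_add_distrib]
  exact Finset.sum_le_sum fun P _ => by rw [Finsupp.add_apply]; exact abs_add_le _ _

theorem dnorm_neg (D : X →₀ ℤ) : dnorm (-D) = dnorm D := by
  unfold dnorm
  rw [Finsupp.sum, Finsupp.sum, Finsupp.support_neg]
  exact Finset.sum_congr rfl fun P _ => by rw [Finsupp.neg_apply, abs_neg]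

theorem dnorm_sub_le (D E : X →₀ ℤ) : dnorm (D - E) ≤ dnorm D + dnorm E := by
  rw [sub_eq_add_neg]
  exact le_trans (dnorm_add_le _ _) (by rw [dnorm_neg])

end Dnorm

namespace HtSys

variable {G K X Fn V J : Type} [Group G] [Field K] [MulSemiringAction G K]
  [MulAction G X] [MulAction G Fn] [AddCommGroup J] [DistribMulAction G J] [DecidableEq X]
  (S : HtSys G K X Fn V J)

/-- the chosen representative of a class (degree zero, `dnorm ≤ 4 g`, support off `𝒵`). -/
def repD (y : J) : dZero X := (S.rep y).choose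

theorem cls_repD (y : J) : S.cls (S.repD y) = y := (S.rep y).choose_spec.1

theorem dnorm_repD (y : J) : dnorm (S.repD y).1 ≤ 4 * S.gq := (S.rep y).choose_spec.2.1

theorem repD_supp (y : J) : ∀ P ∈ (S.repD y).1.support, P ∉ S.Zp ∧ P ≠ S.inf :=
  (S.rep y).choose_spec.2.2

theorem repD_supp' (y : J) : ∀ P ∈ (S.repD y).1.support, P ∉ S.Zp :=
  fun P hP => (S.repD_supp y P hP).1

/-- the quasi-pairing. -/
def β (y z : J) : ℝ := S.bil (S.repD y).1 (S.repD z).1

/-- the total Weil constant `Σ_v Cw v d`. -/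
def CwTot (d : ℕ) : ℝ := ∑ᶠ v, S.Cw v d

theorem CwTot_nonneg (d : ℕ) : 0 ≤ S.CwTot d := finsum_nonneg fun v => S.Cw_nonneg v d

/-- a divisor of degree zero with trivial class is the divisor of a function. -/
theorem exists_dv_eq {D : X →₀ ℤ} (hD : D ∈ dZero X) (h : S.cls ⟨D, hD⟩ = 0) :
    ∃ f : Fn, S.dv f = D := (S.cls_eq_zero ⟨D, hD⟩).mp h

/-- (QI) for a divisor with trivial class. -/
theorem abs_bil_le_of_cls_eq_zero {D : X →₀ ℤ} (hD : D ∈ dZero X) (h : S.cls ⟨D, hD⟩ = 0)
    (d : ℕ) (hd : dnorm D ≤ d) (E : X →₀ ℤ) (hE0 : E ∈ dZero X)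
    (hE : ∀ P ∈ E.support, P ∉ S.Zp) : |S.bil D E| ≤ (dnorm E : ℝ) * S.CwTot d := by
  obtain ⟨f, rfl⟩ := S.exists_dv_eq hD h
  exact S.quasi_invariance f d hd E hE0 hE

theorem β_symm (y z : J) : S.β y z = S.β z y := S.bil_symm _ _

theorem β_add_left (x y z : J) :
    |S.β (x + y) z - S.β x z - S.β y z| ≤ (4 * S.gq : ℝ) * S.CwTot (12 * S.gq) := by
  unfold β
  have hz := S.repD_supp' z
  have hadm : ∀ D : X →₀ ℤ, S.Adm D (S.repD z).1 := fun D => S.adm_of_right hz
  rw [← S.bil_sub_left (hadm _) (hadm _), ← S.bil_sub_left (hadm _) (hadm _)]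
  set D : X →₀ ℤ := (S.repD (x + y)).1 - (S.repD x).1 - (S.repD y).1 with hDdef
  have hD : D ∈ dZero X :=
    (dZero X).sub_mem ((dZero X).sub_mem (S.repD (x + y)).2 (S.repD x).2) (S.repD y).2
  have hcls : S.cls ⟨D, hD⟩ = 0 := by
    have e : (⟨D, hD⟩ : dZero X) = S.repD (x + y) - S.repD x - S.repD y := rfl
    rw [e, map_sub, map_sub, cls_repD, cls_repD, cls_repD]
    abel
  have hd : dnorm D ≤ ((12 * S.gq : ℕ) : ℤ) := by
    have h1 := dnorm_sub_le ((S.repD (x + y)).1 - (S.repD x).1) (S.repD y).1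
    have h2 := dnorm_sub_le (S.repD (x + y)).1 (S.repD x).1
    have h3 := S.dnorm_repD (x + y)
    have h4 := S.dnorm_repD x
    have h5 := S.dnorm_repD y
    push_cast
    linarith
  have h := S.abs_bil_le_of_cls_eq_zero hD hcls _ hd (S.repD z).1 (S.repD z).2 hz
  refine le_trans h ?_
  refine mul_le_mul_of_nonneg_right ?_ (S.CwTot_nonneg _)
  have := S.dnorm_repD z
  exact_mod_cast this

theorem quasiPairing_β : QuasiPairing S.β ((4 * S.gq : ℝ) * S.CwTot (12 * S.gq)) where
  symm := S.β_symm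
  add_left := S.β_add_left

end HtSys

end Fermat.Agent.MW
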