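import Mathlib
import Fermat.Agent.MW.MUMFORD_helper8_Beta

/-!
# Project MW — [MUMFORD] layer M5: from the Mumford bound to `MumfordGoal` (helper8)

`HtSys.MumfordBound S` : `∃ C', ∀ y, NS y → (1/nφ) · eta y - C' ≤ β y y`.
`HtSys.mumfordGoal_of_bound` : (MB) + (TR) + (NC) ⇒ `S.MumfordGoal`.
-/

set_option autoImplicit false

open scoped BigOperators

noncomputable section

namespace Fermat.Agent.MW

namespace HtSys

variable {G K X Fn V J : Type} [Group G] [Field K] [MulSemiringAction G K]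
  [MulAction G X] [MulAction G Fn] [AddCommGroup J] [DistribMulAction G J] [DecidableEq X]
  (S : HtSys G K X Fn V J)

/-- **(MB) the Mumford bound** (layer M4). -/
def MumfordBound : Prop :=
  ∃ C' : ℝ, ∀ y : J, S.NS y → (1 / (S.nφ : ℝ)) * S.eta y - C' ≤ S.β y y

theorem habs_nonneg (a : K) : 0 ≤ S.habs a :=
  finsum_nonneg fun _ => gavg_nonneg a fun _ => le_max_left _ _

theorem eta_nonneg (y : J) : 0 ≤ S.eta y :=
  Finset.sum_nonneg fun _ _ => mul_nonneg (Nat.cast_nonneg _) (S.habs_nonneg _)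

theorem mumfordGoal_of_bound (hMB : S.MumfordBound) : S.MumfordGoal := by
  classical
  intro hNC
  obtain ⟨C', hC'⟩ := hMB
  set C : ℝ := (4 * S.gq : ℝ) * S.CwTot (12 * S.gq) with hC
  have hβ : QuasiPairing S.β C := S.quasiPairing_β
  have hC0 : 0 ≤ C := hβ.nonneg
  refine ⟨S.β, C, hβ, ?_⟩
  set M : ℝ := ∑ a ∈ S.𝒜, |S.β a a| with hM
  have hM' : ∀ a ∈ S.𝒜, |S.β a a| ≤ M := fun a ha =>
    Finset.single_le_sum (f := fun a => |S.β a a|) (fun _ _ => abs_nonneg _) ha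
  have hnφ : (1 : ℝ) ≤ S.nφ := by exact_mod_cast S.nφ_pos
  have hnφ0 : (0 : ℝ) < S.nφ := lt_of_lt_of_le one_pos hnφ
  -- lower bound for `β` on `NS`
  have hNSlow : ∀ y : J, S.NS y → -C' ≤ S.β y y := by
    intro y hy
    have h1 := hC' y hy
    have h2 : 0 ≤ (1 / (S.nφ : ℝ)) * S.eta y :=
      mul_nonneg (by positivity) (S.eta_nonneg y)
    linarith
  -- lower bound for `β` everywhere
  set C'' : ℝ := C' + M + 8 * C with hC''
  have hlow : ∀ y : J, -C'' ≤ S.β y y := by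
    intro y
    obtain ⟨a, ha, hp, hm⟩ := S.translate y
    have h1 := hβ.parallelogram y a
    have h2 := hNSlow _ hp
    have h3 := hNSlow _ hm
    have h4 := hM' a ha
    rw [abs_le] at h1 h4
    linarith [h1.1, h1.2, h4.1, h4.2]
  intro B
  set B' : ℝ := (S.nφ : ℝ) * (2 * B + 2 * M + C'' + 16 * C + C') with hB'
  refine (Set.Finite.biUnion S.𝒜.finite_toSet fun a ha => hNC a ha B').subset ?_
  intro x hx
  obtain ⟨hfix, hxB⟩ := hx
  obtain ⟨a, ha, hp, hm⟩ := S.translate x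
  simp only [Set.mem_iUnion, Set.mem_ofPred_eq]
  refine ⟨a, ha, hfix, hp, ?_⟩
  have h1 := hβ.parallelogram x a
  have h3 := hlow (x - a)
  have h4 := hM' a ha
  have h5 := hC' _ hp
  rw [abs_le] at h1 h4
  have h6 : (1 / (S.nφ : ℝ)) * S.eta (x + a) ≤ 2 * B + 2 * M + C'' + 16 * C + C' := by
    linarith [h1.1, h1.2, h4.1, h4.2]
  rw [hB']
  have h7 : S.eta (x + a) = (S.nφ : ℝ) * ((1 / (S.nφ : ℝ)) * S.eta (x + a)) := by
    field_simp
  rw [h7]
  exact mul_le_mul_of_nonneg_left h6 hnφ0.le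

end HtSys

end Fermat.Agent.MW
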