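import Mathlib
import Fermat.Agent.MW.MUMFORD_helper8_Fin

/-!
# Project MW — [MUMFORD] layer M4, part 1: the pointwise Mumford inequality (helper8)

For an effective divisor `E` of degree `g`, off `𝒵`, with `wdet E ≠ 0`, and `D₁ = E - g·∞`:
`Λ_v(D₁, D₁) ≤ - Σ_P E(P) γ_v(∞,P) - 2 lg_v (wdet E) - (1/g) Σ_P E(P) lg_v (ψ(P)) + C_v`.
-/

set_option autoImplicit false

open scoped BigOperators

noncomputable section

namespace Fermat.Agent.MW

attribute [local instance] Finsupp.comapSMul Finsupp.comapMulAction Finsupp.comapDistribMulAction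

section DofNat

variable {X : Type*}

theorem dofNat_apply (E : X →₀ ℕ) (P : X) : dofNat E P = (E P : ℤ) := by
  unfold dofNat
  rw [Finsupp.mapRange_apply]

theorem support_dofNat (E : X →₀ ℕ) : (dofNat E).support = E.support := by
  unfold dofNat
  exact Finsupp.support_mapRange_of_injective (by simp) E Nat.cast_injective

theorem ddeg_dofNat (E : X →₀ ℕ) : ddeg (dofNat E) = (ndeg E : ℤ) := by
  rw [ddeg_apply, Finsupp.sum, support_dofNat]
  unfold ndeg
  rw [Finsupp.sum]
  push_cast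
  exact Finset.sum_congr rfl fun P _ => dofNat_apply E P

theorem dnorm_dofNat (E : X →₀ ℕ) : dnorm (dofNat E) = (ndeg E : ℤ) := by
  unfold dnorm ndeg
  rw [Finsupp.sum, support_dofNat, Finsupp.sum]
  push_cast
  refine Finset.sum_congr rfl fun P _ => ?_
  rw [dofNat_apply, abs_of_nonneg (Int.natCast_nonneg _)]

theorem ddeg_single (P : X) (n : ℤ) : ddeg (Finsupp.single P n) = n := by
  unfold ddeg
  simp

theorem dnorm_single (P : X) (n : ℤ) : dnorm (Finsupp.single P n) = |n| := by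
  unfold dnorm
  rw [Finsupp.sum_single_index (by simp)]

end DofNat

namespace HtSys

variable {G K X Fn V J : Type} [Group G] [Field K] [MulSemiringAction G K]
  [MulAction G X] [MulAction G Fn] [AddCommGroup J] [DistribMulAction G J] [DecidableEq X]
  (S : HtSys G K X Fn V J)

/-- `D₁(E) = E - g·∞`. -/
def D1 (E : X →₀ ℕ) : X →₀ ℤ := dofNat E - Finsupp.single S.inf (S.gq : ℤ)

/-- the local height of `E` with respect to `∞`. -/
def hinf (v : V) (E : X →₀ ℕ) : ℝ := ∑ P ∈ E.support, (E P : ℝ) * S.γ v S.inf P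

/-- good effective divisors: degree `g`, support off `𝒵`, `wdet ≠ 0`. -/
structure GoodE (E : X →₀ ℕ) : Prop where
  deg : ndeg E = S.gq
  supp : ∀ P ∈ E.support, P ∉ S.Zp ∧ P ≠ S.inf
  wdet : S.wdet E ≠ 0

theorem D1_mem_dZero {E : X →₀ ℕ} (hE : ndeg E = S.gq) : S.D1 E ∈ dZero X := by
  unfold D1 dZero
  rw [AddMonoidHom.mem_ker, map_sub, ddeg_dofNat, ddeg_single, hE, sub_self]

theorem dnorm_D1_le {E : X →₀ ℕ} (hE : ndeg E = S.gq) : dnorm (S.D1 E) ≤ 2 * S.gq := by
  unfold D1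
  refine le_trans (dnorm_sub_le _ _) ?_
  rw [dnorm_dofNat, dnorm_single, hE, abs_of_nonneg (Int.natCast_nonneg _)]
  linarith

theorem D1_supp {E : X →₀ ℕ} (hE : ∀ P ∈ E.support, P ∉ S.Zp ∧ P ≠ S.inf) :
    ∀ P ∈ (S.D1 E).support, P ∉ S.Zp := by
  classical
  intro P hP
  unfold D1 at hP
  rcases Finset.mem_union.mp (Finsupp.support_sub hP) with h | h
  · rw [support_dofNat] at h
    exact (hE P h).1
  · have := Finsupp.support_single_subset h
    rw [Finset.mem_singleton] at this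
    rw [this]
    exact S.inf_notMem

/-- potential of `dofNat E` at `∞`. -/
theorem pot_dofNat_inf (v : V) {E : X →₀ ℕ} (hE : ∀ P ∈ E.support, P ∉ S.Zp ∧ P ≠ S.inf) :
    S.pot v (dofNat E) S.inf = S.hinf v E := by
  unfold pot hinf
  rw [support_dofNat]
  refine Finset.sum_congr rfl fun P hP => ?_
  rw [if_neg (hE P hP).2, dofNat_apply, S.γ_symm v P S.inf]
  push_cast
  rfl

theorem Lam_single_right (v : V) (D : X →₀ ℤ) (Q : X) (n : ℤ) :
    S.Lam v D (Finsupp.single Q n) = (n : ℝ) * S.pot v D Q := by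
  rw [Lam_eq_sum_pot, Finsupp.sum_single_index (by simp)]

/-- expansion of `Λ_v(D₁, D₁)`. -/
theorem Lam_D1 (v : V) {E : X →₀ ℕ} (hE : ∀ P ∈ E.support, P ∉ S.Zp ∧ P ≠ S.inf) :
    S.Lam v (S.D1 E) (S.D1 E) = S.Lam v (dofNat E) (dofNat E)
      - 2 * (S.gq : ℝ) * S.hinf v E + (S.gq : ℝ) ^ 2 * S.r v S.inf := by
  have hs : ∀ A B : X →₀ ℤ, S.Lam v A B = S.Lam v B A := fun A B =>
    locPair_symm _ _ (S.γ_symm v) A B
  unfold D1
  unfold Lam
  rw [locPair_sub_left, locPair_sub_right, locPair_sub_right]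
  have h1 : locPair (S.γ v) (S.r v) (dofNat E) (Finsupp.single S.inf (S.gq : ℤ))
      = (S.gq : ℝ) * S.hinf v E := by
    have := S.Lam_single_right v (dofNat E) S.inf (S.gq : ℤ)
    rw [pot_dofNat_inf S v hE] at this
    rw [show locPair (S.γ v) (S.r v) (dofNat E) (Finsupp.single S.inf (S.gq : ℤ))
      = S.Lam v (dofNat E) (Finsupp.single S.inf (S.gq : ℤ)) from rfl, this]
    push_cast
    rfl
  have h2 : locPair (S.γ v) (S.r v) (Finsupp.single S.inf (S.gq : ℤ)) (dofNat E)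
      = (S.gq : ℝ) * S.hinf v E := by
    rw [locPair_symm _ _ (S.γ_symm v), h1]
  have h3 : locPair (S.γ v) (S.r v) (Finsupp.single S.inf (S.gq : ℤ))
      (Finsupp.single S.inf (S.gq : ℤ)) = (S.gq : ℝ) ^ 2 * S.r v S.inf := by
    have := S.Lam_single_right v (Finsupp.single S.inf (S.gq : ℤ)) S.inf (S.gq : ℤ)
    rw [show locPair (S.γ v) (S.r v) (Finsupp.single S.inf (S.gq : ℤ))
      (Finsupp.single S.inf (S.gq : ℤ))
      = S.Lam v (Finsupp.single S.inf (S.gq : ℤ)) (Finsupp.single S.inf (S.gq : ℤ)) from rfl, this]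
    unfold pot
    by_cases hg : (S.gq : ℤ) = 0
    · have hg' : (S.gq : ℝ) = 0 := by exact_mod_cast hg
      rw [hg]
      simp [hg']
    · rw [Finsupp.support_single _ hg, Finset.sum_singleton, if_pos rfl,
        Finsupp.single_eq_same]
      push_cast
      ring
  rw [h1, h2, h3]
  ring

end HtSys

end Fermat.Agent.MW
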