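import Mathlib
import Fermat.Agent.FF.RR_helper3_Final

/-!
# Project MW — [RR3] part 1: Riemann–Roch for an arbitrary divisor, typeclass setting (helper7)

From helper3's `FF/RR_helper3_*` (Euler characteristic `chi_eq`, duality `finrank_quotient_pair`,
exponents of the canonical pair): for `W = div(dx)` and every divisor `D`,
`L(D)` is finite-dimensional and `l(D) - l(W - D) = deg D + 1 - l(W)`.
-/

set_option autoImplicit false
set_option linter.style.haveILetI false
set_option linter.unusedSectionVars false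

namespace Fermat.Agent.MW

open Polynomial Module nonZeroDivisors IsDedekindDomain FractionalIdeal AlgebraicCurve
  KaehlerDifferential Fermat.Agent.FF Fermat.Agent.FF.RR

section TC

variable {K F : Type*} [Field K] [IsAlgClosed K] [CharZero K] [Field F] [Algebra K F]
  [Algebra K[X] F] [Algebra (RatFunc K) F]
  [IsScalarTower K[X] (RatFunc K) F] [IsScalarTower K K[X] F] [IsScalarTower K (RatFunc K) F]
  [FiniteDimensional (RatFunc K) F] [Algebra.IsSeparable (RatFunc K) F]

local notation "B" => FunctionField.ringOfIntegers K F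
local notation "Binf" => ringAtInfty K F

/-- the exponents of `I_D` at the finite primes: `-D(P)`. -/
noncomputable def rr3ExpFin (D : Divisor K F) : HeightOneSpectrum B →₀ ℤ :=
  Finsupp.ofSupportFinite (fun P => -D (placeOf (k := K) (F := F) P)) (by
    refine (finite_support_fin D).subset ?_
    intro P hP
    rw [Function.mem_support] at hP ⊢
    intro h
    apply hP
    rw [h, neg_zero])

/-- the exponents of `J_D` at the infinite primes: `-D(Q)`. -/
noncomputable def rr3ExpInf (D : Divisor K F) : HeightOneSpectrum Binf →₀ ℤ :=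
  Finsupp.ofSupportFinite (fun Q => -D (placeOf (k := K) (F := F) Q)) (by
    refine (finite_support_inf D).subset ?_
    intro Q hQ
    rw [Function.mem_support] at hQ ⊢
    intro h
    apply hQ
    rw [h, neg_zero])

/-- the fractional ideal `I_D = ∏ P^{-D(P)}` of the ring of integers. -/
noncomputable def rr3IdealFin (D : Divisor K F) : FractionalIdeal B⁰ F :=
  (rr3ExpFin D).prod (fun P k => (P.asIdeal : FractionalIdeal B⁰ F) ^ k)

/-- the fractional ideal `J_D = ∏ Q^{-D(Q)}` of the ring at infinity. -/
noncomputable def rr3IdealInf (D : Divisor K F) : FractionalIdeal Binf⁰ F :=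
  (rr3ExpInf D).prod (fun Q k => (Q.asIdeal : FractionalIdeal Binf⁰ F) ^ k)

theorem rr3IdealFin_ne_zero (D : Divisor K F) : rr3IdealFin D ≠ 0 := by
  rw [rr3IdealFin, Finsupp.prod, Finset.prod_ne_zero_iff]
  intro v _
  exact zpow_ne_zero _ (coeIdeal_ne_zero.mpr v.ne_bot)

theorem rr3IdealInf_ne_zero (D : Divisor K F) : rr3IdealInf D ≠ 0 := by
  rw [rr3IdealInf, Finsupp.prod, Finset.prod_ne_zero_iff]
  intro v _
  exact zpow_ne_zero _ (coeIdeal_ne_zero.mpr v.ne_bot)

theorem count_rr3IdealFin (D : Divisor K F) (P : HeightOneSpectrum B) :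
    count F P (rr3IdealFin D) = -D (placeOf (k := K) (F := F) P) := by
  rw [rr3IdealFin, count_finsuppProd]
  rfl

theorem count_rr3IdealInf (D : Divisor K F) (Q : HeightOneSpectrum Binf) :
    count F Q (rr3IdealInf D) = -D (placeOf (k := K) (F := F) Q) := by
  rw [rr3IdealInf, count_finsuppProd]
  rfl

/-- `L(D) = I_D ∩ J_D`. -/
theorem rr3_riemannRochSpace_eq (D : Divisor K F) :
    riemannRochSpace D = finLat (rr3IdealFin D) ⊓ infLat (rr3IdealInf D) := by
  ext f
  rw [mem_riemannRochSpace_iff_valuation, Submodule.mem_inf, mem_finLat, mem_infLat,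
    mem_iff_valuation_le (rr3IdealFin_ne_zero D), mem_iff_valuation_le (rr3IdealInf_ne_zero D)]
  simp only [count_rr3IdealFin, count_rr3IdealInf, neg_neg]

theorem rr3_finsum_count (D : Divisor K F) :
    -∑ᶠ P : HeightOneSpectrum B, count F P (rr3IdealFin D)
      - ∑ᶠ Q : HeightOneSpectrum Binf, count F Q (rr3IdealInf D) = Divisor.degree D := by
  rw [degree_eq_finsum_add_finsum (deg_eq_one_TC K F) D]
  simp only [count_rr3IdealFin, count_rr3IdealInf]
  rw [finsum_neg_distrib, finsum_neg_distrib]
  ring

variable (W : Divisor K F)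
  (hW : ∀ v : Place K F, W v = v.ordDifferential (D K F (xF K F)))

include hW in
theorem rr3_dual_fin (D : Divisor K F) :
    dual K[X] (RatFunc K) (rr3IdealFin D) = rr3IdealFin (W - D) := by
  have hI := rr3IdealFin_ne_zero D
  have h1 : dual K[X] (RatFunc K) (1 : FractionalIdeal B⁰ F) ≠ 0 := by
    rw [ne_eq, dual_eq_zero_iff]
    exact one_ne_zero
  refine eq_of_count_eq (by rw [ne_eq, dual_eq_zero_iff]; exact hI) (rr3IdealFin_ne_zero _)
    fun P => ?_
  have hfin : W (placeOf (k := K) (F := F) P) = -count F P (canI K F) :=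
    (hW _).trans (ordDifferential_placeOf_fin P)
  rw [dual_eq_mul_inv, count_mul F P h1 (inv_ne_zero hI), count_inv, count_rr3IdealFin,
    count_rr3IdealFin, Finsupp.sub_apply, hfin, canI]
  ring

include hW in
theorem rr3_dual_inf (D : Divisor K F) :
    twist (-2) (dual (Oinf K) (RatFunc K) (rr3IdealInf D)) = rr3IdealInf (W - D) := by
  have hJ := rr3IdealInf_ne_zero D
  have h1 : dual (Oinf K) (RatFunc K) (1 : FractionalIdeal Binf⁰ F) ≠ 0 := by
    rw [ne_eq, dual_eq_zero_iff]
    exact one_ne_zero
  have hd : dual (Oinf K) (RatFunc K) (rr3IdealInf D) ≠ 0 := by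
    rw [ne_eq, dual_eq_zero_iff]
    exact hJ
  refine eq_of_count_eq (twist_ne_zero hd) (rr3IdealInf_ne_zero _) fun Q => ?_
  have hinf : W (placeOf (k := K) (F := F) Q) = -count F Q (canJ K F) :=
    (hW _).trans (ordDifferential_placeOf_inf Q)
  have e : twist (-2) (dual (Oinf K) (RatFunc K) (rr3IdealInf D))
      = canJ K F * (rr3IdealInf D)⁻¹ := by
    rw [canJ, twist, twist, dual_eq_mul_inv, mul_assoc]
  rw [e, count_mul F Q canJ_ne_zero (inv_ne_zero hJ), count_inv, count_rr3IdealInf,
    count_rr3IdealInf, Finsupp.sub_apply, hinf]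
  ring

include hW in
/-- **Riemann–Roch in the typeclass setting**: `l(D) - l(W - D) = deg D + χ(1,1)`. -/
theorem rr3_chi_TC (D : Divisor K F) :
    Module.Finite K ↥(riemannRochSpace D) ∧
      (finrank K ↥(riemannRochSpace D) : ℤ) - finrank K ↥(riemannRochSpace (W - D))
        = Divisor.degree D
          + chi (1 : FractionalIdeal B⁰ F) (1 : FractionalIdeal Binf⁰ F) := by
  have hI := rr3IdealFin_ne_zero D
  have hJ := rr3IdealInf_ne_zero D
  refine ⟨?_, ?_⟩
  · rw [rr3_riemannRochSpace_eq]
    exact (finite_pair _ hI _ hJ).1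
  · have h1 := chi_eq hI hJ
    have h2 := finrank_quotient_pair _ hI _ hJ
    rw [rr3_dual_fin W hW D, rr3_dual_inf W hW D, ← rr3_riemannRochSpace_eq] at h2
    rw [chi, h2, ← rr3_riemannRochSpace_eq] at h1
    have h3 := rr3_finsum_count D
    linarith

include hW in
/-- **Riemann–Roch in the typeclass setting**: `l(D) - l(W - D) = deg D + 1 - l(W)`. -/
theorem rr3_general_TC (D : Divisor K F) :
    Module.Finite K ↥(riemannRochSpace D) ∧
      (finrank K ↥(riemannRochSpace D) : ℤ) - finrank K ↥(riemannRochSpace (W - D))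
        = Divisor.degree D + 1 - finrank K ↥(riemannRochSpace W) := by
  obtain ⟨hfin, h⟩ := rr3_chi_TC W hW D
  refine ⟨hfin, ?_⟩
  obtain ⟨-, h0⟩ := rr3_chi_TC W hW 0
  rw [sub_zero, map_zero, zero_add] at h0
  have h00 : finrank K ↥(riemannRochSpace (0 : Divisor K F)) = 1 := by
    have e1 : rr3IdealFin (0 : Divisor K F) = 1 := by
      refine eq_of_count_eq (rr3IdealFin_ne_zero _) one_ne_zero fun P => ?_
      rw [count_rr3IdealFin, count_one]
      simp
    have e2 : rr3IdealInf (0 : Divisor K F) = 1 := by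
      refine eq_of_count_eq (rr3IdealInf_ne_zero _) one_ne_zero fun Q => ?_
      rw [count_rr3IdealInf, count_one]
      simp
    rw [rr3_riemannRochSpace_eq, e1, e2]
    exact finrank_one_one
  rw [h00] at h0
  push_cast at h0
  linarith

end TC

end Fermat.Agent.MW

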