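import Mathlib
import Fermat.Agent.FF.Differential
import Fermat.Agent.FF.RiemannHurwitz
import Fermat.Agent.FF.Canonical
import Fermat.Agent.MW.RR3_helper7_TC

/-!
# Project MW — [RR3] part 2: Riemann–Roch, derivation form (helper7)

* `Coord.riemann_roch_D_x` : Riemann–Roch for `W = div(dx)` and an arbitrary divisor;
* **`riemann_roch_der`** : for a derivation `δ = d/ω` with canonical divisor `κ`
  (`ord_Q (δ τ) = -κ Q` for every uniformizer `τ` at `Q`): `∃ g, 2g - 2 = deg κ ∧ ∀ D,
  L(D) finite-dimensional ∧ l(D) - l(κ - D) = deg D + 1 - g`;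
* `rr3_eq_bot_of_degree_neg` (C1), `riemann_roch_der_of_lt` (C2).
-/

set_option autoImplicit false
set_option linter.style.haveILetI false
set_option linter.unusedSectionVars false

namespace Fermat.Agent.MW

open Polynomial Module AlgebraicCurve KaehlerDifferential Fermat.Agent.FF

variable {k F : Type*} [Field k] [Field F] [Algebra k F] [IsAlgClosed k] [CharZero k]

/-- **Riemann–Roch for `W = div(dx)`** and an arbitrary divisor `D`. -/
theorem rr3_coord (c : Coord k F) (W : Divisor k F)
    (hW : ∀ v : Place k F, W v = v.ordDifferential (D k F c.x)) (E : Divisor k F) :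
    Module.Finite k ↥(riemannRochSpace E) ∧
      (finrank k ↥(riemannRochSpace E) : ℤ) - finrank k ↥(riemannRochSpace (W - E))
        = Divisor.degree E + 1 - finrank k ↥(riemannRochSpace W) := by
  obtain ⟨i1, i2, i3, i4, i5, i6, i7, hx⟩ := c.exists_typeclass_setting
  exact rr3_general_TC W (by rw [hx]; exact hW) E

/-- multiplication by `h ≠ 0` identifies `L(E)` with `L(E - div h)`. -/
theorem rr3_finrank_mul {h : F} (hh : h ≠ 0) (E E' : Divisor k F)
    (hE : ∀ v : Place k F, E' v = E v - v.ord h) :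
    finrank k ↥(riemannRochSpace E') = finrank k ↥(riemannRochSpace E) := by
  have hinj : Function.Injective (LinearMap.mulLeft k h) := by
    intro a b hab
    exact mul_left_cancel₀ hh hab
  have hmap : riemannRochSpace E' = (riemannRochSpace E).map (LinearMap.mulLeft k h) := by
    ext g
    rw [Submodule.mem_map, mem_riemannRochSpace_iff]
    constructor
    · intro hg
      refine ⟨h⁻¹ * g, ?_, ?_⟩
      · rw [mem_riemannRochSpace_iff]
        intro v
        rcases hg v with h0 | h1
        · left
          rw [h0, mul_zero]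
        · by_cases hg0 : g = 0
          · left
            rw [hg0, mul_zero]
          · right
            rw [v.ord_mul (inv_ne_zero hh) hg0, v.ord_inv]
            rw [hE v] at h1
            omega
      · rw [LinearMap.mulLeft_apply, ← mul_assoc, mul_inv_cancel₀ hh, one_mul]
    · rintro ⟨f, hf, rfl⟩ v
      rw [mem_riemannRochSpace_iff] at hf
      rw [LinearMap.mulLeft_apply]
      rcases hf v with h0 | h1
      · left
        rw [h0, mul_zero]
      · by_cases hf0 : f = 0
        · left
          rw [hf0, mul_zero]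
        · right
          rw [v.ord_mul hh hf0, hE v]
          omega
  rw [hmap]
  exact (LinearEquiv.finrank_eq (Submodule.equivMapOfInjective _ hinj _)).symm

/-- a derivation is determined by its value on a local uniformizer. -/
theorem rr3_der_eq (c : Coord k F) (δ : Derivation k F F) (v : Place k F) {t : F}
    (ht : v.dCoord = D k F t) (y : F) :
    δ y = v.differentialCoeff (D k F y) * δ t := by
  haveI := c.dCoordGenerates v
  have h1 : δ y = δ.liftKaehlerDifferential (D k F y) := (δ.liftKaehlerDifferential_comp_D y).symm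
  have h2 : D k F y = v.differentialCoeff (D k F y) • D k F t := by
    rw [← ht, v.differentialCoeff_smul_dCoord]
  rw [h1]
  conv_lhs => rw [h2]
  rw [map_smul, Derivation.liftKaehlerDifferential_comp_D, smul_eq_mul]

/-- the canonical divisor of a derivation `δ` is `div(dx) - div(δ x)`. -/
theorem rr3_kappa_eq (c : Coord k F) (δ : Derivation k F F) (κ : Divisor k F)
    (hκ : ∀ (Q : Place k F) (τ : F), Q.ord τ = 1 → δ τ ≠ 0 ∧ Q.ord (δ τ) = -κ Q)
    (W : Divisor k F) (hW : ∀ v : Place k F, W v = v.ordDifferential (D k F c.x)) :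
    δ c.x ≠ 0 ∧ ∀ v : Place k F, κ v = W v - v.ord (δ c.x) := by
  have key : ∀ v : Place k F, δ c.x ≠ 0 ∧ κ v = W v - v.ord (δ c.x) := by
    intro v
    obtain ⟨t, ht1, htd⟩ := exists_uniformizer_dCoord v
    obtain ⟨h1, h2⟩ := hκ v t ht1
    have h3 := rr3_der_eq c δ v htd c.x
    have h4 := c.differentialCoeff_D_x_ne_zero v
    refine ⟨by rw [h3]; exact mul_ne_zero h4 h1, ?_⟩
    rw [h3, v.ord_mul h4 h1, h2, hW v, Place.ordDifferential]
    ring
  obtain ⟨v₀⟩ : Nonempty (Place k F) := by
    obtain ⟨S, hS, hsum⟩ := c.exists_zeros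
    by_contra hne
    rw [not_nonempty_iff] at hne
    have : S = ∅ := Finset.eq_empty_of_isEmpty S
    rw [this, Finset.sum_empty] at hsum
    have h5 : 0 < Module.finrank ↥(IntermediateField.adjoin k {c.x}) F := c.degree_pos
    omega
  exact ⟨(key v₀).1, fun v => (key v).2⟩

/-- **Riemann–Roch, derivation form.** -/
theorem riemann_roch_der (c : Coord k F) (δ : Derivation k F F) (κ : Divisor k F)
    (hκ : ∀ (Q : Place k F) (τ : F), Q.ord τ = 1 → δ τ ≠ 0 ∧ Q.ord (δ τ) = -κ Q) :
    ∃ g : ℕ, 2 * (g : ℤ) - 2 = Divisor.degree κ ∧ ∀ E : Divisor k F,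
      Module.Finite k ↥(riemannRochSpace E) ∧
      (Module.finrank k ↥(riemannRochSpace E) : ℤ)
          - Module.finrank k ↥(riemannRochSpace (κ - E))
        = Divisor.degree E + 1 - g := by
  obtain ⟨W, hW⟩ := c.exists_divisor_D_x
  obtain ⟨hh, hκW⟩ := rr3_kappa_eq c δ κ hκ W hW
  obtain ⟨Dh, hDh, hDhdeg⟩ := c.exists_principal_divisor (δ c.x) hh
  have hκeq : κ = W - Dh := by
    ext v
    rw [Finsupp.sub_apply, hκW v, hDh v]
  refine ⟨finrank k ↥(riemannRochSpace W), ?_, fun E => ?_⟩
  · have h1 := (c.two_mul_finrank_riemannRochSpace_D_x W hW).2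
    rw [hκeq, map_sub, hDhdeg, sub_zero]
    linarith
  · obtain ⟨hfin, hrr⟩ := rr3_coord c W hW E
    refine ⟨hfin, ?_⟩
    have h2 : finrank k ↥(riemannRochSpace (κ - E)) = finrank k ↥(riemannRochSpace (W - E)) :=
      rr3_finrank_mul hh (W - E) (κ - E) (fun v => by
        rw [Finsupp.sub_apply, Finsupp.sub_apply, hκW v]
        ring)
    rw [h2]
    exact hrr

/-- (C1): a divisor of negative degree has no sections. -/
theorem rr3_eq_bot_of_degree_neg (c : Coord k F) (E : Divisor k F)
    (hE : Divisor.degree E < 0) : riemannRochSpace E = ⊥ := by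
  rw [eq_bot_iff]
  intro f hf
  rw [Submodule.mem_bot]
  by_contra hf0
  rw [mem_riemannRochSpace_iff] at hf
  obtain ⟨Df, hDf, hDfdeg⟩ := c.exists_principal_divisor f hf0
  have h1 : Divisor.degree (Df + E) = Divisor.degree E := by
    rw [map_add, hDfdeg, zero_add]
  have h2 : 0 ≤ Divisor.degree (Df + E) := by
    rw [degree_eq_sum_of_support_subset (Df + E) _ (Finset.Subset.refl _)]
    refine Finset.sum_nonneg fun v _ => ?_
    have h3 := (hf v).resolve_left hf0
    rw [Finsupp.add_apply, hDf v]
    exact mul_nonneg (by omega) (Int.natCast_nonneg _)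
  omega

/-- (C2): for `deg D > 2g - 2`, `l(D) = deg D + 1 - g`. -/
theorem riemann_roch_der_of_lt (c : Coord k F) (δ : Derivation k F F) (κ : Divisor k F)
    (hκ : ∀ (Q : Place k F) (τ : F), Q.ord τ = 1 → δ τ ≠ 0 ∧ Q.ord (δ τ) = -κ Q)
    (g : ℤ) (hg : 2 * g - 2 = Divisor.degree κ) (E : Divisor k F)
    (hE : 2 * g - 2 < Divisor.degree E) :
    Module.Finite k ↥(riemannRochSpace E) ∧
      (Module.finrank k ↥(riemannRochSpace E) : ℤ) = Divisor.degree E + 1 - g := by
  obtain ⟨g', hg', hrr⟩ := riemann_roch_der c δ κ hκ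
  obtain ⟨hfin, h⟩ := hrr E
  refine ⟨hfin, ?_⟩
  have h1 : riemannRochSpace (κ - E) = ⊥ :=
    rr3_eq_bot_of_degree_neg c _ (by rw [map_sub]; omega)
  rw [h1, finrank_bot] at h
  have : (g' : ℤ) = g := by omega
  rw [← this]
  push_cast at h
  linarith

end Fermat.Agent.MW
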