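import Mathlib
import Fermat.Agent.MW.RR3_helper7_Main
import Fermat.Agent.MW.IFACE_helper8_Defs

/-!
# Project MW — [RR-APP] part 1: basic consequences of Riemann–Roch (helper8)

General setting: `k` algebraically closed of characteristic `0`, `F/k` a function field with a
coordinate `c : Coord k F`.  `divOf c f` is the divisor of a function, `RRHyp κ g` packages
Riemann–Roch for the canonical divisor `κ` and the genus `g`.
-/

set_option autoImplicit false
set_option linter.unusedSectionVars false
set_option linter.style.haveILetI false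

open scoped BigOperators

noncomputable section

namespace Fermat.Agent.MW

open AlgebraicCurve Fermat.Agent.FF Module IntermediateField

variable {k F : Type*} [Field k] [Field F] [Algebra k F] [IsAlgClosed k] [CharZero k]

/-- the divisor of a function (`0` for the zero function). -/
def divOf (c : Coord k F) (f : F) : Divisor k F := by
  classical
  exact if h : f = 0 then 0 else (c.exists_principal_divisor f h).choose

theorem divOf_apply (c : Coord k F) (f : F) (v : Place k F) : divOf c f v = v.ord f := by
  classical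
  unfold divOf
  by_cases h : f = 0
  · rw [dif_pos h, h, Place.ord_zero]; rfl
  · rw [dif_neg h]
    exact (c.exists_principal_divisor f h).choose_spec.1 v

theorem degree_divOf (c : Coord k F) (f : F) : Divisor.degree (divOf c f) = 0 := by
  classical
  unfold divOf
  by_cases h : f = 0
  · rw [dif_pos h, map_zero]
  · rw [dif_neg h]
    exact (c.exists_principal_divisor f h).choose_spec.2

theorem divOf_mul (c : Coord k F) {f g : F} (hf : f ≠ 0) (hg : g ≠ 0) :
    divOf c (f * g) = divOf c f + divOf c g := by
  ext v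
  rw [Finsupp.add_apply, divOf_apply, divOf_apply, divOf_apply, v.ord_mul hf hg]

theorem divOf_inv (c : Coord k F) (f : F) : divOf c f⁻¹ = -divOf c f := by
  ext v
  rw [Finsupp.neg_apply, divOf_apply, divOf_apply, v.ord_inv]

theorem divOf_algebraMap (c : Coord k F) (a : k) : divOf c (algebraMap k F a) = 0 := by
  ext v
  rw [divOf_apply, PlaceAux.ord_algebraMap]; rfl

theorem divOf_mem_principal (c : Coord k F) {f : F} (hf : f ≠ 0) :
    divOf c f ∈ Divisor.principal (K := k) (F := F) :=
  ⟨f, hf, fun v => divOf_apply c f v⟩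

/-! ### the spaces `L(E)` -/

theorem mem_L_iff (c : Coord k F) {E : Divisor k F} {f : F} (hf : f ≠ 0) :
    f ∈ riemannRochSpace E ↔ 0 ≤ divOf c f + E := by
  rw [mem_riemannRochSpace_iff, Finsupp.le_def]
  refine forall_congr' fun v => ?_
  rw [or_iff_right hf, Finsupp.add_apply, divOf_apply]
  show -E v ≤ v.ord f ↔ (0 : ℤ) ≤ v.ord f + E v
  omega

theorem L_mono {E E' : Divisor k F} (h : E ≤ E') : riemannRochSpace E ≤ riemannRochSpace E' := by
  intro f hf
  rw [mem_riemannRochSpace_iff] at hf ⊢
  intro v
  rcases hf v with h0 | h1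
  · exact Or.inl h0
  · right
    have := Finsupp.le_def.mp h v
    omega

theorem algebraMap_mem_L {E : Divisor k F} (hE : 0 ≤ E) (a : k) :
    algebraMap k F a ∈ riemannRochSpace E := by
  rw [mem_riemannRochSpace_iff]
  intro v
  right
  rw [PlaceAux.ord_algebraMap]
  have := Finsupp.le_def.mp hE v
  simp only [Finsupp.coe_zero, Pi.zero_apply] at this
  omega

/-- a function without poles is constant. -/
theorem exists_const_of_mem_L_zero (c : Coord k F) {f : F}
    (hf : f ∈ riemannRochSpace (0 : Divisor k F)) : ∃ a : k, algebraMap k F a = f := by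
  by_cases halg : IsAlgebraic k f
  · haveI : Algebra.IsAlgebraic k k⟮f⟯ := isAlgebraic_adjoin_simple halg.isIntegral
    have hbot := IntermediateField.eq_bot_of_isAlgClosed_of_isAlgebraic k⟮f⟯
    have hmem : f ∈ k⟮f⟯ := mem_adjoin_simple_self k f
    rw [hbot, IntermediateField.mem_bot] at hmem
    exact hmem
  · exfalso
    have htr : Transcendental k f := halg
    obtain ⟨S, hS, hsum⟩ := (c.ofTranscendental f htr).exists_poles
    have hne : S.Nonempty := by
      by_contra hemp
      rw [Finset.not_nonempty_iff_eq_empty] at hemp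
      rw [hemp, Finset.sum_empty] at hsum
      have := (c.ofTranscendental f htr).degree_pos
      omega
    obtain ⟨v, hv⟩ := hne
    have h1 := (hS v).mp hv
    rw [Coord.ofTranscendental_x] at h1
    rw [mem_riemannRochSpace_iff] at hf
    rcases hf v with h0 | h2
    · rw [h0, Place.ord_zero] at h1; exact lt_irrefl _ h1
    · simp only [Finsupp.coe_zero, Pi.zero_apply, neg_zero] at h2
      omega

theorem L_zero_eq (c : Coord k F) :
    riemannRochSpace (0 : Divisor k F) = Submodule.span k {(1 : F)} := by
  apply le_antisymm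
  · intro f hf
    obtain ⟨a, rfl⟩ := exists_const_of_mem_L_zero c hf
    rw [Submodule.mem_span_singleton]
    exact ⟨a, by rw [Algebra.smul_def, mul_one]⟩
  · rw [Submodule.span_le]
    intro f hf
    rw [Set.mem_singleton_iff] at hf
    rw [hf, ← map_one (algebraMap k F)]
    exact algebraMap_mem_L (le_refl _) 1

theorem finrank_L_zero (c : Coord k F) :
    finrank k ↥(riemannRochSpace (0 : Divisor k F)) = 1 := by
  rw [L_zero_eq c]
  exact finrank_span_singleton one_ne_zero

/-! ### Riemann–Roch as a hypothesis -/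

/-- Riemann–Roch for the canonical divisor `κ` and the genus `g`. -/
structure RRHyp (κ : Divisor k F) (g : ℕ) : Prop where
  deg : 2 * (g : ℤ) - 2 = Divisor.degree κ
  fin : ∀ E : Divisor k F, Module.Finite k ↥(riemannRochSpace E)
  rr : ∀ E : Divisor k F, (finrank k ↥(riemannRochSpace E) : ℤ)
    - finrank k ↥(riemannRochSpace (κ - E)) = Divisor.degree E + 1 - g

theorem exists_rrHyp (c : Coord k F) (δ : Derivation k F F) (κ : Divisor k F)
    (hκ : ∀ (Q : Place k F) (τ : F), Q.ord τ = 1 → δ τ ≠ 0 ∧ Q.ord (δ τ) = -κ Q) :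
    ∃ g : ℕ, RRHyp κ g := by
  obtain ⟨g, hg, h⟩ := riemann_roch_der c δ κ hκ
  exact ⟨g, hg, fun E => (h E).1, fun E => (h E).2⟩

namespace RRHyp

variable {κ : Divisor k F} {g : ℕ} (H : RRHyp κ g)

/-- `ℓ(E)`. -/
abbrev _root_.Fermat.Agent.MW.ell (E : Divisor k F) : ℕ := finrank k ↥(riemannRochSpace E)

include H in
theorem ell_of_lt (c : Coord k F) {E : Divisor k F} (hE : 2 * (g : ℤ) - 2 < Divisor.degree E) :
    (ell E : ℤ) = Divisor.degree E + 1 - g := by
  have h := H.rr E
  have h1 : riemannRochSpace (κ - E) = ⊥ :=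
    rr3_eq_bot_of_degree_neg c _ (by rw [map_sub, ← H.deg]; omega)
  rw [h1, finrank_bot] at h
  push_cast at h
  linarith

include H in
/-- Riemann's inequality. -/
theorem ell_ge (E : Divisor k F) : Divisor.degree E + 1 - g ≤ (ell E : ℤ) := by
  have h := H.rr E
  have h1 : (0 : ℤ) ≤ finrank k ↥(riemannRochSpace (κ - E)) := Int.natCast_nonneg _
  unfold ell
  linarith

include H in
theorem ell_canonical (c : Coord k F) : ell κ = g := by
  have h := H.rr κ
  rw [sub_self, finrank_L_zero c, ← H.deg] at h
  unfold ell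
  push_cast at h
  omega

include H in
theorem L_ne_bot_of_le {E : Divisor k F} (hE : (g : ℤ) ≤ Divisor.degree E) :
    riemannRochSpace E ≠ ⊥ := by
  intro h
  have h1 := H.ell_ge E
  unfold ell at h1
  rw [h, finrank_bot] at h1
  push_cast at h1
  omega

include H in
theorem exists_ne_zero_mem_L {E : Divisor k F} (hE : (g : ℤ) ≤ Divisor.degree E) :
    ∃ f : F, f ≠ 0 ∧ f ∈ riemannRochSpace E := by
  have h := H.L_ne_bot_of_le hE
  obtain ⟨f, hf, hf0⟩ := (Submodule.ne_bot_iff _).mp h
  exact ⟨f, hf0, hf⟩

include H in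
/-- `ℓ(E) = 0` iff `L(E) = ⊥`. -/
theorem L_eq_bot_iff (E : Divisor k F) : riemannRochSpace E = ⊥ ↔ ell E = 0 := by
  haveI := H.fin E
  unfold ell
  rw [Submodule.finrank_eq_zero]

include H in
/-- the dual form: `ℓ(E) = ℓ(κ - E) + deg E + 1 - g`. -/
theorem ell_eq (E : Divisor k F) :
    (ell E : ℤ) = ell (κ - E) + Divisor.degree E + 1 - g := by
  have h := H.rr E
  unfold ell
  linarith

end RRHyp

end Fermat.Agent.MW
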