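import Mathlib
import Fermat.Agent.MW.RRAPP_helper8_Basic
import Fermat.Agent.MW.MUMFORD_helper8_MB1
import Fermat.Agent.FF.Residue

/-!
# Project MW — [RR-APP] part 2: effective divisors of sections, avoidance, general position
(helper8)
-/

set_option autoImplicit false
set_option linter.unusedSectionVars false
set_option linter.style.haveILetI false

open scoped BigOperators

noncomputable section

namespace Fermat.Agent.MW

open AlgebraicCurve Fermat.Agent.FF Module

section Gen

variable {X : Type*}

/-- the effective divisor `max(D, 0)`. -/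
def toEff (D : X →₀ ℤ) : X →₀ ℕ := D.mapRange Int.toNat rfl

theorem toEff_apply (D : X →₀ ℤ) (P : X) : toEff D P = (D P).toNat := by
  unfold toEff
  rw [Finsupp.mapRange_apply]

theorem dofNat_toEff {D : X →₀ ℤ} (h : 0 ≤ D) : dofNat (toEff D) = D := by
  ext P
  rw [dofNat_apply, toEff_apply]
  have := Finsupp.le_def.mp h P
  simp only [Finsupp.coe_zero, Pi.zero_apply] at this
  omega

theorem dofNat_nonneg (E : X →₀ ℕ) : 0 ≤ dofNat E := by
  rw [Finsupp.le_def]
  intro P
  rw [dofNat_apply]
  simp

theorem dofNat_add (E E' : X →₀ ℕ) : dofNat (E + E') = dofNat E + dofNat E' := by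
  ext P
  rw [Finsupp.add_apply, dofNat_apply, dofNat_apply, dofNat_apply, Finsupp.add_apply]
  push_cast
  rfl

theorem dofNat_single (P : X) (n : ℕ) : dofNat (Finsupp.single P n) = Finsupp.single P (n : ℤ) := by
  classical
  ext Q
  rw [dofNat_apply, Finsupp.single_apply, Finsupp.single_apply]
  split_ifs <;> simp

theorem dofNat_injective : Function.Injective (dofNat (X := X)) := by
  intro E E' h
  ext P
  have := DFunLike.congr_fun h P
  rw [dofNat_apply, dofNat_apply] at this
  exact_mod_cast this

theorem ndeg_add (E E' : X →₀ ℕ) : ndeg (E + E') = ndeg E + ndeg E' := by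
  classical
  unfold ndeg
  exact Finsupp.sum_add_index' (fun _ => rfl) (fun _ _ _ => rfl)

theorem ndeg_single (P : X) (n : ℕ) : ndeg (Finsupp.single P n) = n := by
  unfold ndeg
  rw [Finsupp.sum_single_index rfl]

theorem card_support_le_ndeg (E : X →₀ ℕ) : E.support.card ≤ ndeg E := by
  unfold ndeg
  rw [Finsupp.sum, Finset.card_eq_sum_ones]
  refine Finset.sum_le_sum fun P hP => ?_
  exact Nat.one_le_iff_ne_zero.mpr (Finsupp.mem_support_iff.mp hP)

end Gen

variable {k F : Type*} [Field k] [Field F] [Algebra k F] [IsAlgClosed k] [CharZero k]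

theorem degree_eq_ddeg (c : Coord k F) (D : Divisor k F) : Divisor.degree D = ddeg D := by
  unfold ddeg Divisor.degree
  rw [Finsupp.liftAddHom_apply, Finsupp.liftAddHom_apply]
  refine Finsupp.sum_congr fun P _ => ?_
  simp [c.deg_eq_one P]

theorem degree_dofNat (c : Coord k F) (E : Place k F →₀ ℕ) :
    Divisor.degree (dofNat E) = (ndeg E : ℤ) := by
  rw [degree_eq_ddeg c, ddeg_dofNat]

theorem degree_single_one (c : Coord k F) (P : Place k F) (n : ℤ) :
    Divisor.degree (Finsupp.single P n) = n := by
  rw [Divisor.degree_single, c.deg_eq_one P]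
  simp

/-! ### there are infinitely many places -/

theorem zeros_nonempty (c : Coord k F) (a : k) : (c.zeros a).Nonempty := by
  by_contra hemp
  rw [Finset.not_nonempty_iff_eq_empty] at hemp
  have h := c.sum_zeros a
  rw [hemp, Finset.sum_empty] at h
  have := c.degree_pos
  omega

theorem infinite_place (c : Coord k F) : Infinite (Place k F) := by
  classical
  refine Infinite.of_injective (fun a : k => (zeros_nonempty c a).choose) ?_
  intro a b hab
  by_contra hne
  have h1 := (zeros_nonempty c a).choose_spec
  have h2 := (zeros_nonempty c b).choose_spec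
  simp only at hab
  rw [hab] at h1
  exact Finset.disjoint_left.mp (c.zeros_disjoint hne) h1 h2

theorem exists_place_notMem (c : Coord k F) (S : Finset (Place k F)) : ∃ P, P ∉ S :=
  haveI := infinite_place c
  Infinite.exists_notMem_finset S

theorem exists_finset_place_card (c : Coord k F) (n : ℕ) (S : Finset (Place k F)) :
    ∃ T : Finset (Place k F), T.card = n ∧ Disjoint T S := by
  classical
  haveI := infinite_place c
  induction n with
  | zero => exact ⟨∅, rfl, Finset.disjoint_empty_left _⟩
  | succ n ih =>
    obtain ⟨T, hT, hd⟩ := ih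
    obtain ⟨P, hP⟩ := exists_place_notMem c (T ∪ S)
    rw [Finset.mem_union, not_or] at hP
    refine ⟨insert P T, ?_, ?_⟩
    · rw [Finset.card_insert_of_notMem hP.1, hT]
    · rw [Finset.disjoint_insert_left]
      exact ⟨hP.2, hd⟩

/-! ### the effective divisor of a section -/

/-- the effective divisor `div f + M` of a section `f ∈ L(M)`. -/
def effOf (c : Coord k F) (f : F) (M : Divisor k F) : Place k F →₀ ℕ := toEff (divOf c f + M)

theorem dofNat_effOf (c : Coord k F) {f : F} {M : Divisor k F} (hf0 : f ≠ 0)
    (hf : f ∈ riemannRochSpace M) : dofNat (effOf c f M) = divOf c f + M :=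
  dofNat_toEff ((mem_L_iff c hf0).mp hf)

theorem ndeg_effOf (c : Coord k F) {f : F} {M : Divisor k F} (hf0 : f ≠ 0)
    (hf : f ∈ riemannRochSpace M) : (ndeg (effOf c f M) : ℤ) = Divisor.degree M := by
  rw [← degree_dofNat c, dofNat_effOf c hf0 hf, map_add, degree_divOf, zero_add]

theorem effOf_apply (c : Coord k F) {f : F} {M : Divisor k F} (hf0 : f ≠ 0)
    (hf : f ∈ riemannRochSpace M) (P : Place k F) :
    (effOf c f M P : ℤ) = P.ord f + M P := by
  have := DFunLike.congr_fun (dofNat_effOf c hf0 hf) P
  rw [dofNat_apply, Finsupp.add_apply, divOf_apply] at this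
  exact this

/-- a section not vanishing (relative to `M`) at `P` is not a section of `M - P`. -/
theorem notMem_L_sub_single {f : F} {M : Divisor k F} (hf0 : f ≠ 0)
    {P : Place k F} (hP : P.ord f + M P = 0) :
    f ∉ riemannRochSpace (M - Finsupp.single P 1) := by
  intro h
  rw [mem_riemannRochSpace_iff] at h
  rcases h P with h0 | h1
  · exact hf0 h0
  · rw [Finsupp.sub_apply, Finsupp.single_eq_same] at h1
    omega

theorem mem_L_sub_single_iff {f : F} {M : Divisor k F} (hf0 : f ≠ 0)
    (hf : f ∈ riemannRochSpace M) (P : Place k F) :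
    f ∈ riemannRochSpace (M - Finsupp.single P 1) ↔ 1 ≤ P.ord f + M P := by
  classical
  rw [mem_riemannRochSpace_iff]
  constructor
  · intro h
    rcases h P with h0 | h1
    · exact absurd h0 hf0
    · rw [Finsupp.sub_apply, Finsupp.single_eq_same] at h1
      omega
  · intro h v
    right
    rw [mem_riemannRochSpace_iff] at hf
    have h2 := (hf v).resolve_left hf0
    rw [Finsupp.sub_apply, Finsupp.single_apply]
    split_ifs with hv
    · subst hv; omega
    · omega

/-! ### avoidance: a section whose divisor avoids finitely many points -/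

theorem exists_section_avoiding (c : Coord k F) (M : Divisor k F)
    (hne : riemannRochSpace M ≠ ⊥) (Z : Finset (Place k F))
    (hZ : ∀ Q ∈ Z, riemannRochSpace (M - Finsupp.single Q 1) ≠ riemannRochSpace M) :
    ∃ f : F, f ≠ 0 ∧ f ∈ riemannRochSpace M ∧ ∀ Q ∈ Z, Q.ord f + M Q = 0 := by
  classical
  set V := riemannRochSpace M with hV
  let W : Place k F → Subspace k ↥V := fun Q =>
    (riemannRochSpace (M - Finsupp.single Q 1)).comap V.subtype
  set s : Finset (Subspace k ↥V) := insert ⊥ (Z.image W) with hs
  have htop : (⊤ : Subspace k ↥V) ∉ s := by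
    rw [hs, Finset.mem_insert, Finset.mem_image]
    rintro (h | ⟨Q, hQ, h⟩)
    · apply hne
      rw [eq_bot_iff]
      intro f hf
      have : (⟨f, hf⟩ : ↥V) ∈ (⊤ : Subspace k ↥V) := Submodule.mem_top
      rw [h, Submodule.mem_bot] at this
      rw [Submodule.mem_bot]
      exact congrArg Subtype.val this
    · apply hZ Q hQ
      apply le_antisymm
      · exact L_mono (by
          rw [Finsupp.le_def]; intro v
          rw [Finsupp.sub_apply, Finsupp.single_apply]
          split_ifs <;> omega)
      · intro f hf
        have : (⟨f, hf⟩ : ↥V) ∈ W Q := by rw [h]; exact Submodule.mem_top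
        exact this
  have hcov := Subspace.biUnion_ne_univ_of_top_notMem htop
  obtain ⟨x, hx⟩ : ∃ x : ↥V, x ∉ ⋃ p ∈ s, (p : Set ↥V) := by
    by_contra hcon
    apply hcov
    rw [Set.eq_univ_iff_forall]
    intro x
    by_contra hx
    exact hcon ⟨x, hx⟩
  rw [Set.mem_iUnion₂] at hx
  have hx0 : (x : F) ≠ 0 := by
    intro h0
    apply hx
    refine ⟨⊥, Finset.mem_insert_self _ _, ?_⟩
    rw [SetLike.mem_coe, Submodule.mem_bot]
    exact Subtype.ext h0
  refine ⟨x.1, hx0, x.2, fun Q hQ => ?_⟩
  have hnot : (x : F) ∉ riemannRochSpace (M - Finsupp.single Q 1) := by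
    intro hmem
    apply hx
    exact ⟨W Q, Finset.mem_insert_of_mem (Finset.mem_image_of_mem W hQ), hmem⟩
  have h1 := (mem_L_sub_single_iff hx0 x.2 Q).not.mp hnot
  have h2 := (mem_L_iff c hx0).mp x.2
  have h3 := Finsupp.le_def.mp h2 Q
  rw [Finsupp.add_apply, divOf_apply] at h3
  simp only [Finsupp.coe_zero, Pi.zero_apply] at h3
  omega

end Fermat.Agent.MW
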