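import Mathlib
import Fermat.Agent.MW.RRAPP_helper8_Eff

/-!
# Project MW — [RR-APP] part 3: general position (helper8)

Given finitely many divisors `M` with `ℓ(M) ≤ m` and degree `≤ d`, and a set `𝒯` of more than
`#Ms · d` points, there is an effective divisor `A` of degree `m` supported in `𝒯` with
`L(M - A) = 0` for all `M`.
-/

set_option autoImplicit false
set_option linter.unusedSectionVars false
set_option linter.style.haveILetI false

open scoped BigOperators

noncomputable section

namespace Fermat.Agent.MW

open AlgebraicCurve Fermat.Agent.FF Module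

variable {k F : Type*} [Field k] [Field F] [Algebra k F] [IsAlgClosed k] [CharZero k]

open Classical in
/-- the base locus to be avoided when removing one point from `M`. -/
def badSet (c : Coord k F) (M : Divisor k F) : Finset (Place k F) :=
  if h : ∃ f : F, f ≠ 0 ∧ f ∈ riemannRochSpace M then (effOf c h.choose M).support else ∅

theorem card_badSet_le (c : Coord k F) (M : Divisor k F) {d : ℕ}
    (hd : Divisor.degree M ≤ d) : (badSet c M).card ≤ d := by
  classical
  unfold badSet
  split_ifs with h
  · obtain ⟨hf0, hf⟩ := h.choose_spec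
    have h1 := card_support_le_ndeg (effOf c h.choose M)
    have h2 := ndeg_effOf c hf0 hf
    have : (ndeg (effOf c h.choose M) : ℤ) ≤ d := by rw [h2]; exact hd
    have : ndeg (effOf c h.choose M) ≤ d := by exact_mod_cast this
    omega
  · simp

theorem ell_sub_single_lt {κ : Divisor k F} {g : ℕ} (H : RRHyp κ g) (c : Coord k F)
    (M : Divisor k F) {T : Place k F} (hT : T ∉ badSet c M)
    (hne : riemannRochSpace M ≠ ⊥) :
    ell (M - Finsupp.single T 1) < ell M := by
  classical
  have hex : ∃ f : F, f ≠ 0 ∧ f ∈ riemannRochSpace M := by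
    obtain ⟨f, hf, hf0⟩ := (Submodule.ne_bot_iff _).mp hne
    exact ⟨f, hf0, hf⟩
  unfold badSet at hT
  rw [dif_pos hex] at hT
  obtain ⟨hf0, hf⟩ := hex.choose_spec
  set f := hex.choose with hfdef
  have h0 : effOf c f M T = 0 := by
    by_contra hne0
    exact hT (Finsupp.mem_support_iff.mpr hne0)
  have h1 : T.ord f + M T = 0 := by
    have := effOf_apply c hf0 hf T
    rw [h0] at this
    simpa using this.symm
  have hnot := notMem_L_sub_single hf0 h1
  have hle : riemannRochSpace (M - Finsupp.single T 1) ≤ riemannRochSpace M :=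
    L_mono (by
      rw [Finsupp.le_def]; intro v
      rw [Finsupp.sub_apply, Finsupp.single_apply]
      split_ifs <;> omega)
  have hlt : riemannRochSpace (M - Finsupp.single T 1) < riemannRochSpace M :=
    lt_of_le_of_ne hle (fun heq => hnot (heq ▸ hf))
  haveI := H.fin M
  exact Submodule.finrank_lt_finrank_of_lt hlt

/-- **general position.** -/
theorem exists_eff_drop {κ : Divisor k F} {g : ℕ} (H : RRHyp κ g) (c : Coord k F) (d : ℕ)
    (𝒯 : Finset (Place k F)) :
    ∀ (m : ℕ) (Ms : Finset (Divisor k F)), (∀ M ∈ Ms, Divisor.degree M ≤ d) →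
      (∀ M ∈ Ms, ell M ≤ m) → Ms.card * d < 𝒯.card →
      ∃ A : Place k F →₀ ℕ, ndeg A = m ∧ (∀ P ∈ A.support, P ∈ 𝒯) ∧
        ∀ M ∈ Ms, riemannRochSpace (M - dofNat A) = ⊥ := by
  classical
  intro m
  induction m with
  | zero =>
    intro Ms _ hell _
    refine ⟨0, ?_, ?_, ?_⟩
    · unfold ndeg; simp
    · intro P hP; simp at hP
    · intro M hM
      have h0 : dofNat (0 : Place k F →₀ ℕ) = 0 := by
        ext P; rw [dofNat_apply]; simp
      rw [h0, sub_zero, H.L_eq_bot_iff]
      exact Nat.le_zero.mp (hell M hM)
  | succ m ih =>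
    intro Ms hdeg hell hcard
    -- choose a point of `𝒯` outside all bad sets
    have hB : (Ms.biUnion (badSet c)).card < 𝒯.card := by
      refine lt_of_le_of_lt ?_ hcard
      refine le_trans Finset.card_biUnion_le ?_
      refine le_trans (Finset.sum_le_card_nsmul Ms _ d fun M hM =>
        card_badSet_le c M (hdeg M hM)) ?_
      rw [smul_eq_mul]
    obtain ⟨T, hT𝒯, hTB⟩ := Finset.exists_mem_notMem_of_card_lt_card hB
    have hTM : ∀ M ∈ Ms, T ∉ badSet c M := fun M hM h =>
      hTB (Finset.mem_biUnion.mpr ⟨M, hM, h⟩)
    set Ms' : Finset (Divisor k F) := Ms.image (fun M => M - Finsupp.single T 1) with hMs'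
    have hdeg' : ∀ M' ∈ Ms', Divisor.degree M' ≤ d := by
      intro M' hM'
      rw [hMs', Finset.mem_image] at hM'
      obtain ⟨M, hM, rfl⟩ := hM'
      rw [map_sub, degree_single_one c]
      have := hdeg M hM
      omega
    have hell' : ∀ M' ∈ Ms', ell M' ≤ m := by
      intro M' hM'
      rw [hMs', Finset.mem_image] at hM'
      obtain ⟨M, hM, rfl⟩ := hM'
      by_cases hne : riemannRochSpace M = ⊥
      · have hle : riemannRochSpace (M - Finsupp.single T 1) ≤ riemannRochSpace M :=
          L_mono (by
            rw [Finsupp.le_def]; intro v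
            rw [Finsupp.sub_apply, Finsupp.single_apply]
            split_ifs <;> omega)
        rw [hne, le_bot_iff] at hle
        have := (H.L_eq_bot_iff _).mp hle
        omega
      · have h1 := ell_sub_single_lt H c M (hTM M hM) hne
        have h2 := hell M hM
        omega
    have hcard' : Ms'.card * d < 𝒯.card :=
      lt_of_le_of_lt (Nat.mul_le_mul_right d Finset.card_image_le) hcard
    obtain ⟨A', hA'deg, hA'supp, hA'⟩ := ih Ms' hdeg' hell' hcard'
    refine ⟨A' + Finsupp.single T 1, ?_, ?_, ?_⟩
    · rw [ndeg_add, ndeg_single, hA'deg]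
    · intro P hP
      have := Finsupp.support_add hP
      rw [Finset.mem_union] at this
      rcases this with h | h
      · exact hA'supp P h
      · have hPT : P = T := by
          by_contra hne
          rw [Finsupp.mem_support_iff, Finsupp.single_eq_of_ne hne] at h
          exact h rfl
        rw [hPT]; exact hT𝒯
    · intro M hM
      have hmem : M - Finsupp.single T 1 ∈ Ms' := Finset.mem_image_of_mem _ hM
      have := hA' _ hmem
      rw [dofNat_add, dofNat_single]
      have e : M - (dofNat A' + Finsupp.single T ((1 : ℕ) : ℤ))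
          = M - Finsupp.single T 1 - dofNat A' := by
        push_cast
        abel
      rw [e]
      exact this

end Fermat.Agent.MW
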