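import Mathlib
import Fermat.Agent.MW.RRAPP_helper8_GenPos

/-!
# Project MW — [RR-APP] part 4: (REP), non-special divisors, the translate lemma — general form
(helper8)
-/

set_option autoImplicit false
set_option linter.unusedSectionVars false
set_option linter.style.haveILetI false

open scoped BigOperators

noncomputable section

namespace Fermat.Agent.MW

open AlgebraicCurve Fermat.Agent.FF Module

variable {k F : Type*} [Field k] [Field F] [Algebra k F] [IsAlgClosed k] [CharZero k]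
  {κ : Divisor k F} {g : ℕ}

theorem sub_single_le (M : Divisor k F) (Q : Place k F) : M - Finsupp.single Q 1 ≤ M := by
  classical
  rw [Finsupp.le_def]; intro v
  rw [Finsupp.sub_apply, Finsupp.single_apply]
  split_ifs <;> omega

theorem le_add_single (M : Divisor k F) (Q : Place k F) : M ≤ M + Finsupp.single Q 1 := by
  classical
  rw [Finsupp.le_def]; intro v
  rw [Finsupp.add_apply, Finsupp.single_apply]
  split_ifs <;> omega

/-- for a divisor of degree `g - 1`: `L(E) = 0 ⇔ L(κ - E) = 0`. -/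
theorem RRHyp.L_eq_bot_iff_dual (H : RRHyp κ g) {E : Divisor k F}
    (hdeg : Divisor.degree E = (g : ℤ) - 1) :
    riemannRochSpace E = ⊥ ↔ riemannRochSpace (κ - E) = ⊥ := by
  rw [H.L_eq_bot_iff, H.L_eq_bot_iff]
  have h := H.ell_eq E
  rw [hdeg] at h
  constructor <;> intro h0 <;> omega

/-- **(REP), general form.** -/
theorem RRHyp.exists_rep (H : RRHyp κ g) (c : Coord k F) (hg : 1 ≤ g) (Z : Finset (Place k F))
    (D₀ : Divisor k F) (hD₀ : Divisor.degree D₀ = 0) :
    ∃ (f : F) (E : Place k F →₀ ℕ) (P₀ : Place k F), f ≠ 0 ∧ P₀ ∉ Z ∧ ndeg E = 2 * g ∧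
      (∀ Q ∈ Z, E Q = 0) ∧
      dofNat E = divOf c f + (D₀ + Finsupp.single P₀ ((2 * g : ℕ) : ℤ)) := by
  obtain ⟨P₀, hP₀⟩ := exists_place_notMem c Z
  set M : Divisor k F := D₀ + Finsupp.single P₀ ((2 * g : ℕ) : ℤ) with hM
  have hdegM : Divisor.degree M = 2 * (g : ℤ) := by
    rw [hM, map_add, hD₀, degree_single_one c]; push_cast; ring
  have hellM : (ell M : ℤ) = (g : ℤ) + 1 := by
    rw [H.ell_of_lt c (by rw [hdegM]; omega), hdegM]; ring
  have hne : riemannRochSpace M ≠ ⊥ := by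
    intro h
    rw [H.L_eq_bot_iff] at h
    omega
  have hZ : ∀ Q ∈ Z, riemannRochSpace (M - Finsupp.single Q 1) ≠ riemannRochSpace M := by
    intro Q _ heq
    have hdeg' : Divisor.degree (M - Finsupp.single Q 1) = 2 * (g : ℤ) - 1 := by
      rw [map_sub, hdegM, degree_single_one c]
    have h1 : (ell (M - Finsupp.single Q 1) : ℤ) = g := by
      rw [H.ell_of_lt c (by rw [hdeg']; omega), hdeg']; ring
    have h2 : ell (M - Finsupp.single Q 1) = ell M := by unfold ell; rw [heq]
    omega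
  obtain ⟨f, hf0, hf, hfZ⟩ := exists_section_avoiding c M hne Z hZ
  refine ⟨f, effOf c f M, P₀, hf0, hP₀, ?_, ?_, dofNat_effOf c hf0 hf⟩
  · have := ndeg_effOf c hf0 hf
    rw [hdegM] at this
    exact_mod_cast this
  · intro Q hQ
    have := effOf_apply c hf0 hf Q
    rw [hfZ Q hQ] at this
    exact_mod_cast this

/-- **existence of the non-special effective divisor** in a class of degree `g` in general
position with respect to `Z`. -/
theorem RRHyp.exists_nonspecial (H : RRHyp κ g) (c : Coord k F) (Z : Finset (Place k F))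
    (hZne : Z.Nonempty) (D : Divisor k F) (hdeg : Divisor.degree D = g)
    (hD : ∀ Q ∈ Z, riemannRochSpace (D - Finsupp.single Q 1) = ⊥) :
    ∃ f : F, f ≠ 0 ∧ f ∈ riemannRochSpace D ∧ ndeg (effOf c f D) = g ∧
      (∀ Q ∈ Z, effOf c f D Q = 0) ∧ riemannRochSpace (κ - dofNat (effOf c f D)) = ⊥ := by
  obtain ⟨f, hf0, hf⟩ := H.exists_ne_zero_mem_L (E := D) (by rw [hdeg])
  refine ⟨f, hf0, hf, ?_, ?_, ?_⟩
  · have := ndeg_effOf c hf0 hf
    rw [hdeg] at this
    exact_mod_cast this
  · intro Q hQ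
    by_contra hne
    have h1 : 1 ≤ effOf c f D Q := Nat.one_le_iff_ne_zero.mpr hne
    have h2 := effOf_apply c hf0 hf Q
    have h3 : f ∈ riemannRochSpace (D - Finsupp.single Q 1) := by
      rw [mem_L_sub_single_iff hf0 hf Q]
      rw [← h2]; exact_mod_cast h1
    rw [hD Q hQ, Submodule.mem_bot] at h3
    exact hf0 h3
  · obtain ⟨Q, hQ⟩ := hZne
    -- `L(κ - D) = 0`
    have hdegQ : Divisor.degree (D - Finsupp.single Q 1) = (g : ℤ) - 1 := by
      rw [map_sub, hdeg, degree_single_one c]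
    have h1 : riemannRochSpace (κ - (D - Finsupp.single Q 1)) = ⊥ :=
      (H.L_eq_bot_iff_dual hdegQ).mp (hD Q hQ)
    have h2 : riemannRochSpace (κ - D) = ⊥ := by
      rw [eq_bot_iff, ← h1]
      refine L_mono ?_
      have : κ - (D - Finsupp.single Q 1) = (κ - D) + Finsupp.single Q 1 := by abel
      rw [this]
      exact le_add_single _ _
    -- transport along `f`
    rw [H.L_eq_bot_iff]
    have h3 : ell (κ - dofNat (effOf c f D)) = ell (κ - D) := by
      unfold ell
      refine rr3_finrank_mul hf0 (κ - D) (κ - dofNat (effOf c f D)) fun v => ?_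
      rw [dofNat_effOf c hf0 hf, Finsupp.sub_apply, Finsupp.sub_apply, Finsupp.add_apply,
        divOf_apply]
      ring
    rw [h3, ← H.L_eq_bot_iff]
    exact h2

/-- **uniqueness of the non-special effective divisor** in its class. -/
theorem RRHyp.nonspecial_unique (H : RRHyp κ g) (c : Coord k F) {E E' : Place k F →₀ ℕ}
    (hE' : ndeg E' = g) (hsp : riemannRochSpace (κ - dofNat E') = ⊥) {h : F} (hh : h ≠ 0)
    (hEE' : dofNat E = divOf c h + dofNat E') : E = E' := by
  -- `ℓ(E') = 1`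
  have h1 : ell (dofNat E' : Divisor k F) = 1 := by
    have := H.ell_eq (dofNat E')
    rw [(H.L_eq_bot_iff _).mp hsp, degree_dofNat c, hE'] at this
    push_cast at this
    omega
  -- `h ∈ L(E')`
  have hmem : h ∈ riemannRochSpace (dofNat E' : Divisor k F) := by
    rw [mem_L_iff c hh, ← hEE']
    exact dofNat_nonneg E
  have hone : (1 : F) ∈ riemannRochSpace (dofNat E' : Divisor k F) := by
    have := algebraMap_mem_L (k := k) (F := F) (dofNat_nonneg E') 1
    rwa [map_one] at this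
  -- hence `h` is constant
  haveI := H.fin (dofNat E')
  obtain ⟨a, ha⟩ : ∃ a : k, a • (1 : F) = h := by
    have hfr : finrank k ↥(riemannRochSpace (dofNat E' : Divisor k F)) = 1 := h1
    have hne : (⟨1, hone⟩ : ↥(riemannRochSpace (dofNat E' : Divisor k F))) ≠ 0 := by
      intro h0
      exact one_ne_zero (congrArg Subtype.val h0)
    obtain ⟨a, ha⟩ := (finrank_eq_one_iff_of_nonzero' _ hne).mp hfr ⟨h, hmem⟩
    exact ⟨a, congrArg Subtype.val ha⟩
  have hdiv : divOf c h = 0 := by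
    rw [← ha, Algebra.smul_def, mul_one]
    exact divOf_algebraMap c a
  rw [hdiv, zero_add] at hEE'
  exact dofNat_injective hEE'

/-- **the translate lemma, general form.** -/
theorem RRHyp.exists_translate (H : RRHyp κ g) (c : Coord k F) (hg : 1 ≤ g)
    (inf : Place k F) (Z : Finset (Place k F)) (𝒯 : Finset (Place k F))
    (h𝒯 : 2 * Z.card * (2 * g - 1) < 𝒯.card) (Y : Divisor k F) (hY : Divisor.degree Y = 0) :
    ∃ A : Place k F →₀ ℕ, ndeg A = g ∧ (∀ P ∈ A.support, P ∈ 𝒯) ∧
      (∀ Q ∈ Z, riemannRochSpace (Y + dofNat A - Finsupp.single Q 1) = ⊥) ∧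
      (∀ Q ∈ Z, riemannRochSpace
        (Y + Finsupp.single inf ((2 * g : ℕ) : ℤ) - dofNat A - Finsupp.single Q 1) = ⊥) := by
  classical
  set Ms₁ : Finset (Divisor k F) := Z.image fun Q => κ - Y + Finsupp.single Q 1 with hMs₁
  set Ms₂ : Finset (Divisor k F) :=
    Z.image fun Q => Y + Finsupp.single inf ((2 * g : ℕ) : ℤ) - Finsupp.single Q 1 with hMs₂
  have hdeg₁ : ∀ Q : Place k F,
      Divisor.degree (κ - Y + Finsupp.single Q 1) = 2 * (g : ℤ) - 1 := by
    intro Q
    rw [map_add, map_sub, ← H.deg, hY, degree_single_one c]; ring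
  have hdeg₂ : ∀ Q : Place k F, Divisor.degree
      (Y + Finsupp.single inf ((2 * g : ℕ) : ℤ) - Finsupp.single Q 1) = 2 * (g : ℤ) - 1 := by
    intro Q
    rw [map_sub, map_add, hY, degree_single_one c, degree_single_one c]; push_cast; ring
  have hcast : ((2 * g - 1 : ℕ) : ℤ) = 2 * (g : ℤ) - 1 := by
    have : 1 ≤ 2 * g := by omega
    push_cast [Nat.cast_sub this]; ring
  have hell : ∀ M : Divisor k F, Divisor.degree M = 2 * (g : ℤ) - 1 → ell M ≤ g := by
    intro M hM
    have := H.ell_of_lt c (E := M) (by rw [hM]; omega)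
    rw [hM] at this
    omega
  have hdegs : ∀ M ∈ Ms₁ ∪ Ms₂, Divisor.degree M ≤ ((2 * g - 1 : ℕ) : ℤ) := by
    intro M hM
    rw [hcast]
    rw [Finset.mem_union, hMs₁, hMs₂, Finset.mem_image, Finset.mem_image] at hM
    rcases hM with ⟨Q, _, rfl⟩ | ⟨Q, _, rfl⟩
    · rw [hdeg₁]
    · rw [hdeg₂]
  have hells : ∀ M ∈ Ms₁ ∪ Ms₂, ell M ≤ g := by
    intro M hM
    rw [Finset.mem_union, hMs₁, hMs₂, Finset.mem_image, Finset.mem_image] at hM
    rcases hM with ⟨Q, _, rfl⟩ | ⟨Q, _, rfl⟩
    · exact hell _ (hdeg₁ Q)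
    · exact hell _ (hdeg₂ Q)
  have hcard : (Ms₁ ∪ Ms₂).card * (2 * g - 1) < 𝒯.card := by
    refine lt_of_le_of_lt (Nat.mul_le_mul_right _ ?_) h𝒯
    refine le_trans (Finset.card_union_le _ _) ?_
    have h1 : Ms₁.card ≤ Z.card := Finset.card_image_le
    have h2 : Ms₂.card ≤ Z.card := Finset.card_image_le
    omega
  obtain ⟨A, hAdeg, hAsupp, hA⟩ :=
    exists_eff_drop H c (2 * g - 1) 𝒯 g (Ms₁ ∪ Ms₂) hdegs hells hcard
  refine ⟨A, hAdeg, hAsupp, fun Q hQ => ?_, fun Q hQ => ?_⟩
  · have hmem : κ - Y + Finsupp.single Q 1 ∈ Ms₁ ∪ Ms₂ :=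
      Finset.mem_union_left _ (Finset.mem_image_of_mem _ hQ)
    have h1 := hA _ hmem
    have hdegE : Divisor.degree (Y + dofNat A - Finsupp.single Q 1) = (g : ℤ) - 1 := by
      rw [map_sub, map_add, hY, degree_dofNat c, hAdeg, degree_single_one c]; ring
    rw [H.L_eq_bot_iff_dual hdegE]
    have e : κ - (Y + dofNat A - Finsupp.single Q 1)
        = κ - Y + Finsupp.single Q 1 - dofNat A := by abel
    rw [e]
    exact h1
  · have hmem : Y + Finsupp.single inf ((2 * g : ℕ) : ℤ) - Finsupp.single Q 1 ∈ Ms₁ ∪ Ms₂ :=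
      Finset.mem_union_right _ (Finset.mem_image_of_mem _ hQ)
    have h1 := hA _ hmem
    have e : Y + Finsupp.single inf ((2 * g : ℕ) : ℤ) - dofNat A - Finsupp.single Q 1
        = Y + Finsupp.single inf ((2 * g : ℕ) : ℤ) - Finsupp.single Q 1 - dofNat A := by abel
    rw [e]
    exact h1

end Fermat.Agent.MW
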