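import Mathlib
import Fermat.Agent.MW.RRAPP_helper8_Fix
import Fermat.Agent.MW.INST_helper8_Wdet
import Fermat.Agent.MW.RRAPP_helper8_NS
import Fermat.Agent.MW.GOODP_helper3_Ext
import Fermat.Agent.FF.LocalDer

/-!
# Project MW — [RR-APP] part 6: the derivation `d/dj`, its equivariance and canonical divisor
(helper8)
-/

set_option autoImplicit false
set_option linter.unusedSectionVars false
set_option linter.style.haveILetI false

open scoped BigOperators

noncomputable section

namespace Fermat.Agent.MW

open AlgebraicCurve Fermat.Agent.FF Module KaehlerDifferential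

section General

variable {k F : Type*} [Field k] [Field F] [Algebra k F] [CharZero k]

/-- the derivation `d/dx` for a coordinate `x`. -/
theorem _root_.Fermat.Agent.FF.Coord.exists_derX (c : Coord k F) : ∃ δ : Derivation k F F, δ c.x = 1 := by
  letI := c.algPoly
  letI := c.algRat
  haveI := c.tower1
  haveI := c.tower2
  haveI := c.tower3
  haveI : FunctionField k F := c.functionField
  haveI : CharZero (RatFunc k) :=
    charZero_of_injective_algebraMap (algebraMap k (RatFunc k)).injective
  haveI : Algebra.IsSeparable (RatFunc k) F := inferInstance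
  refine ⟨derCoord k F, ?_⟩
  rw [← c.coord_eq]
  exact derCoord_coord k F

/-- a derivation of `F/k` is determined by its value on a coordinate. -/
theorem _root_.Fermat.Agent.FF.Coord.derX_apply_eq (c : Coord k F) (δ : Derivation k F F) (f : F) :
    ∃ g : F, D k F f = g • D k F c.x ∧ δ f = g * δ c.x := by
  obtain ⟨g, hg⟩ := c.exists_eq_smul_D_x (D k F f)
  refine ⟨g, hg, ?_⟩
  have h1 : δ f = δ.liftKaehlerDifferential (D k F f) :=
    (δ.liftKaehlerDifferential_comp_D f).symm
  rw [h1, hg, map_smul, Derivation.liftKaehlerDifferential_comp_D, smul_eq_mul]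

theorem _root_.Fermat.Agent.FF.Coord.derX_ext (c : Coord k F) {δ δ' : Derivation k F F} (h : δ c.x = δ' c.x) :
    δ = δ' := by
  ext f
  obtain ⟨g, hg, h1⟩ := c.derX_apply_eq δ f
  obtain ⟨g', hg', h2⟩ := c.derX_apply_eq δ' f
  have : g = g' := c.smul_D_x_injective (hg.symm.trans hg')
  rw [h1, h2, this, h]

/-- the chosen derivation `d/dx`. -/
def _root_.Fermat.Agent.FF.Coord.derX (c : Coord k F) : Derivation k F F := c.exists_derX.choose

theorem _root_.Fermat.Agent.FF.Coord.derX_x (c : Coord k F) : c.derX c.x = 1 := c.exists_derX.choose_spec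

theorem _root_.Fermat.Agent.FF.Coord.derX_ne_zero (c : Coord k F) : c.derX ≠ 0 := by
  intro h
  have := c.derX_x
  rw [h] at this
  exact zero_ne_one this

end General

/-! ### the derivation `d/dj` on `X₀(N)` -/

variable (N : ℕ) [NeZero N]

/-- `d/dj`. -/
def derJ : Derivation (AlgebraicClosure ℚ) (FunN N) (FunN N) :=
  (Fermat.Agent.X0N.jCoordBar N).derX

theorem derJ_jBar : derJ N (Fermat.Agent.X0N.jBar N) = 1 :=
  (Fermat.Agent.X0N.jCoordBar N).derX_x

/-- the conjugate `σ ∘ δ ∘ σ⁻¹` of a derivation. -/
def conjDer (σ : GQ) (δ : Derivation (AlgebraicClosure ℚ) (FunN N) (FunN N)) :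
    Derivation (AlgebraicClosure ℚ) (FunN N) (FunN N) :=
  Derivation.mk'
    { toFun := fun f => σ • δ (σ⁻¹ • f)
      map_add' := fun f g => by rw [smul_add, map_add, smul_add]
      map_smul' := fun a f => by
        simp only [RingHom.id_apply]
        rw [gal_smul_const_smul, Derivation.map_smul, gal_smul_const_smul]
        congr 1
        show σ (σ⁻¹ a) = a
        rw [← AlgEquiv.mul_apply, mul_inv_cancel, AlgEquiv.one_apply] }
    (fun f g => by
      show σ • δ (σ⁻¹ • (f * g)) = f • (σ • δ (σ⁻¹ • g)) + g • (σ • δ (σ⁻¹ • f))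
      rw [smul_mul', Derivation.leibniz, smul_add, smul_eq_mul, smul_eq_mul, smul_mul', smul_mul',
        smul_inv_smul, smul_inv_smul, smul_eq_mul, smul_eq_mul])

theorem conjDer_apply (σ : GQ) (δ : Derivation (AlgebraicClosure ℚ) (FunN N) (FunN N))
    (f : FunN N) : conjDer N σ δ f = σ • δ (σ⁻¹ • f) := rfl

/-- **`d/dj` is `GQ`-equivariant.** -/
theorem derJ_gal_smul (σ : GQ) (f : FunN N) : derJ N (σ • f) = σ • derJ N f := by
  have h : conjDer N σ (derJ N) = derJ N := by
    apply (Fermat.Agent.X0N.jCoordBar N).derX_ext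
    rw [conjDer_apply, Fermat.Agent.X0N.jCoordBar_x, gal_smul_jBar, derJ_jBar]
    exact smul_one σ
  have h2 := congrArg (fun d => d (σ • f)) h
  simp only [conjDer_apply, inv_smul_smul] at h2
  exact h2.symm

end Fermat.Agent.MW
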