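import Mathlib
import Fermat.Agent.MW.RRAPP_helper8_Der

/-!
# Project MW — [RR-APP] part 7: the canonical divisor of a derivation; `ℓ(P) = 1` in positive
genus (helper8)
-/

set_option autoImplicit false
set_option linter.unusedSectionVars false
set_option linter.style.haveILetI false

open scoped BigOperators

noncomputable section

namespace Fermat.Agent.MW

open AlgebraicCurve Fermat.Agent.FF Module KaehlerDifferential

variable {k F : Type*} [Field k] [Field F] [Algebra k F] [IsAlgClosed k] [CharZero k]

/-- **every nonzero derivation has a canonical divisor** (as a finitely supported function). -/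
theorem exists_derDivisor (c : Coord k F) {δ : Derivation k F F} (hδ : δ ≠ 0) :
    ∃ κ : Divisor k F, ∀ (Q : Place k F) (τ : F), Q.ord τ = 1 →
      δ τ ≠ 0 ∧ Q.ord (δ τ) = -κ Q := by
  obtain ⟨W, hW⟩ := c.exists_divisor_D_x
  have hdat := isDerDatum_derCan c hδ
  refine ⟨W - divOf c (δ c.x), fun Q τ hτ => ?_⟩
  obtain ⟨h1, h2⟩ := hdat.spec Q τ hτ
  refine ⟨h1, ?_⟩
  rw [h2]
  congr 1
  have hu := hdat.spec Q (derUnif Q) (ord_derUnif Q)
  have hcoef := c.differentialCoeff_D_x_ne_zero Q
  have e := der_eq_differentialCoeff_mul c δ Q c.x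
  have hord : Q.ord (δ c.x) = Q.ordDifferential (D k F c.x) + Q.ord (δ (derUnif Q)) := by
    rw [e, Q.ord_mul hcoef hu.1]
    rfl
  rw [Finsupp.sub_apply, divOf_apply, hW Q, hord, hu.2]
  ring

/-- the derivation `u • δ`. -/
def scaleDer (u : F) (δ : Derivation k F F) : Derivation k F F := u • δ

theorem scaleDer_apply (u : F) (δ : Derivation k F F) (f : F) : scaleDer u δ f = u * δ f := rfl

/-- scaling the derivation by `u⁻¹` adds `div u` to the canonical divisor. -/
theorem derDivisor_smul (c : Coord k F) {δ : Derivation k F F} {κ : Divisor k F}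
    (hκ : ∀ (Q : Place k F) (τ : F), Q.ord τ = 1 → δ τ ≠ 0 ∧ Q.ord (δ τ) = -κ Q)
    {u : F} (hu : u ≠ 0) :
    ∀ (Q : Place k F) (τ : F), Q.ord τ = 1 →
      (scaleDer u⁻¹ δ) τ ≠ 0 ∧ Q.ord ((scaleDer u⁻¹ δ) τ) = -(κ + divOf c u) Q := by
  intro Q τ hτ
  obtain ⟨h1, h2⟩ := hκ Q τ hτ
  rw [scaleDer_apply]
  refine ⟨mul_ne_zero (inv_ne_zero hu) h1, ?_⟩
  rw [Q.ord_mul (inv_ne_zero hu) h1, Q.ord_inv, h2, Finsupp.add_apply, divOf_apply]
  ring

/-- in positive genus no function has a single simple pole. -/
theorem RRHyp.L_single_eq {κ : Divisor k F} {g : ℕ} (H : RRHyp κ g) (c : Coord k F)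
    (hg : 1 ≤ g) (P : Place k F) :
    riemannRochSpace (Finsupp.single P 1 : Divisor k F) = riemannRochSpace (0 : Divisor k F) := by
  classical
  have hle : riemannRochSpace (0 : Divisor k F) ≤ riemannRochSpace (Finsupp.single P 1) :=
    L_mono (by
      rw [Finsupp.le_def]; intro v
      rw [Finsupp.single_apply]
      split_ifs <;> simp)
  by_contra hne
  have hlt : riemannRochSpace (0 : Divisor k F) < riemannRochSpace (Finsupp.single P 1) :=
    lt_of_le_of_ne hle (Ne.symm hne)
  obtain ⟨x, hx, hx0⟩ := SetLike.exists_of_lt hlt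
  have hxne : x ≠ 0 := fun h => hx0 (h ▸ Submodule.zero_mem _)
  -- `ord_P x = -1`, `ord_Q x ≥ 0` elsewhere
  rw [mem_riemannRochSpace_iff] at hx
  have hQ : ∀ Q : Place k F, Q ≠ P → 0 ≤ Q.ord x := by
    intro Q hQ
    have := (hx Q).resolve_left hxne
    rw [Finsupp.single_eq_of_ne hQ] at this
    simpa using this
  have hP : P.ord x = -1 := by
    have h1 := (hx P).resolve_left hxne
    rw [Finsupp.single_eq_same] at h1
    by_contra hne1
    apply hx0
    rw [mem_riemannRochSpace_iff]
    intro Q
    right
    by_cases hQP : Q = P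
    · subst hQP
      simp only [Finsupp.coe_zero, Pi.zero_apply, neg_zero]
      omega
    · simpa using hQ Q hQP
  -- the chain `ℓ(nP) ≥ n + 1`
  have hchain : ∀ n : ℕ, n + 1 ≤ ell (Finsupp.single P (n : ℤ) : Divisor k F) := by
    intro n
    induction n with
    | zero =>
      have : (Finsupp.single P ((0 : ℕ) : ℤ) : Divisor k F) = 0 := by simp
      rw [this]
      unfold ell
      rw [finrank_L_zero c]
    | succ n ih =>
      have hle' : riemannRochSpace (Finsupp.single P (n : ℤ) : Divisor k F)
          ≤ riemannRochSpace (Finsupp.single P ((n + 1 : ℕ) : ℤ)) :=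
        L_mono (by
          rw [Finsupp.le_def]; intro v
          rw [Finsupp.single_apply, Finsupp.single_apply]
          split_ifs
          · push_cast; omega
          · exact le_refl _)
      have hmem : x ^ (n + 1) ∈ riemannRochSpace (Finsupp.single P ((n + 1 : ℕ) : ℤ)) := by
        rw [mem_riemannRochSpace_iff]
        intro Q
        right
        rw [PlaceAux.ord_pow]
        by_cases hQP : Q = P
        · subst hQP
          rw [Finsupp.single_eq_same, hP]
          push_cast; ring_nf; exact le_refl _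
        · rw [Finsupp.single_eq_of_ne hQP]
          have := hQ Q hQP
          have h2 : (0 : ℤ) ≤ ((n + 1 : ℕ) : ℤ) * Q.ord x :=
            mul_nonneg (Int.natCast_nonneg _) this
          simpa using h2
      have hnot : x ^ (n + 1) ∉ riemannRochSpace (Finsupp.single P (n : ℤ) : Divisor k F) := by
        intro h
        rw [mem_riemannRochSpace_iff] at h
        have := (h P).resolve_left (pow_ne_zero _ hxne)
        rw [Finsupp.single_eq_same, PlaceAux.ord_pow, hP] at this
        push_cast at this
        omega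
      have hlt' : riemannRochSpace (Finsupp.single P (n : ℤ) : Divisor k F)
          < riemannRochSpace (Finsupp.single P ((n + 1 : ℕ) : ℤ)) :=
        lt_of_le_of_ne hle' (fun heq => hnot (heq ▸ hmem))
      haveI := H.fin (Finsupp.single P ((n + 1 : ℕ) : ℤ))
      have := Submodule.finrank_lt_finrank_of_lt hlt'
      unfold ell at ih ⊢
      omega
  -- contradiction with Riemann–Roch at `n = 2g`
  have h1 := hchain (2 * g)
  have hdeg : Divisor.degree (Finsupp.single P ((2 * g : ℕ) : ℤ) : Divisor k F) = 2 * (g : ℤ) := by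
    rw [degree_single_one c]; push_cast; ring
  have h2 := H.ell_of_lt c (E := Finsupp.single P ((2 * g : ℕ) : ℤ)) (by rw [hdeg]; omega)
  rw [hdeg] at h2
  omega

theorem RRHyp.ell_single {κ : Divisor k F} {g : ℕ} (H : RRHyp κ g) (c : Coord k F)
    (hg : 1 ≤ g) (P : Place k F) : ell (Finsupp.single P 1 : Divisor k F) = 1 := by
  unfold ell
  rw [H.L_single_eq c hg P, finrank_L_zero c]

/-- in positive genus the canonical system has no base point. -/
theorem RRHyp.ell_canonical_sub_single {κ : Divisor k F} {g : ℕ} (H : RRHyp κ g)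
    (c : Coord k F) (hg : 1 ≤ g) (P : Place k F) :
    ell (κ - Finsupp.single P 1) + 1 = g := by
  have h := H.ell_eq (κ - Finsupp.single P 1)
  have e : κ - (κ - Finsupp.single P 1) = Finsupp.single P 1 := by abel
  rw [e, H.ell_single c hg P, map_sub, ← H.deg, degree_single_one c] at h
  push_cast at h
  omega

end Fermat.Agent.MW
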