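import Mathlib
import Fermat.Agent.MW.RRAPP_helper8_Can

/-!
# Project MW — [RR-APP] part 8: existence of the rational differential (helper8)

`genusN N`, Riemann–Roch on `X₀(N)` for the canonical divisor of `d/dj`, and in positive genus a
`DiffDatum N` with `IsBasis`: `ω₀ = f₀ dj` with `f₀` `GQ`-fixed, regular, not vanishing at `∞`,
and a `GQ`-fixed basis of the regular differentials.
-/

set_option autoImplicit false
set_option linter.unusedSectionVars false
set_option linter.style.haveILetI false

open scoped BigOperators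

noncomputable section

namespace Fermat.Agent.MW

open AlgebraicCurve ModularCurve Fermat.Agent.FF Module

variable (N : ℕ) [NeZero N]

local notation "Ωq" => AlgebraicClosure ℚ

/-- the coordinate `j` on `X₀(N)`. -/
abbrev cN : Coord Ωq (FunN N) := Fermat.Agent.X0N.jCoordBar N

theorem derJ_ne_zero : derJ N ≠ 0 := (cN N).derX_ne_zero

/-- the canonical divisor of `dj`. -/
def kapJ : Divisor Ωq (FunN N) := (exists_derDivisor (cN N) (derJ_ne_zero N)).choose

theorem kapJ_spec : ∀ (Q : PtN N) (τ : FunN N), Q.ord τ = 1 →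
    derJ N τ ≠ 0 ∧ Q.ord (derJ N τ) = -kapJ N Q :=
  (exists_derDivisor (cN N) (derJ_ne_zero N)).choose_spec

/-- the genus of `X₀(N)`. -/
def genusN : ℕ := (exists_rrHyp (cN N) (derJ N) (kapJ N) (kapJ_spec N)).choose

theorem rrHyp_kapJ : RRHyp (kapJ N) (genusN N) :=
  (exists_rrHyp (cN N) (derJ N) (kapJ N) (kapJ_spec N)).choose_spec

/-! ### Galois stability -/

/-- a divisor is `GQ`-invariant. -/
def GalInv (M : Divisor Ωq (FunN N)) : Prop := ∀ (σ : GQ) (Q : PtN N), M (σ • Q) = M Q

theorem kapJ_galInv : GalInv N (kapJ N) := by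
  intro σ Q
  have hτ := ord_unifAt N Q
  have hτ' : (σ • Q).ord (σ • unifAt N Q) = 1 := by rw [ord_gal_smul, hτ]
  have h1 := (kapJ_spec N (σ • Q) _ hτ').2
  rw [derJ_gal_smul, ord_gal_smul, (kapJ_spec N Q _ hτ).2] at h1
  linarith

theorem divOf_galInv {f : FunN N} (hf : ∀ σ : GQ, σ • f = f) : GalInv N (divOf (cN N) f) := by
  intro σ Q
  rw [divOf_apply, divOf_apply]
  have := ord_gal_smul N σ Q f
  rwa [hf σ] at this

theorem GalInv.add {M M' : Divisor Ωq (FunN N)} (h : GalInv N M) (h' : GalInv N M') :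
    GalInv N (M + M') := fun σ Q => by
  rw [Finsupp.add_apply, Finsupp.add_apply, h σ Q, h' σ Q]

theorem GalInv.sub {M M' : Divisor Ωq (FunN N)} (h : GalInv N M) (h' : GalInv N M') :
    GalInv N (M - M') := fun σ Q => by
  rw [Finsupp.sub_apply, Finsupp.sub_apply, h σ Q, h' σ Q]

theorem galInv_single_inf (n : ℤ) : GalInv N (Finsupp.single (infN N) n) := by
  classical
  intro σ Q
  rw [Finsupp.single_apply, Finsupp.single_apply]
  have : infN N = σ • Q ↔ infN N = Q := by
    constructor
    · intro h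
      have := congrArg (fun P => σ⁻¹ • P) h
      simp only [inv_smul_smul] at this
      rw [gal_smul_infN] at this
      exact this
    · intro h
      rw [← h, gal_smul_infN]
  simp only [this]

theorem GalInv.smul_mem {M : Divisor Ωq (FunN N)} (hM : GalInv N M) (σ : GQ) {f : FunN N}
    (hf : f ∈ riemannRochSpace M) : σ • f ∈ riemannRochSpace M := by
  rw [mem_riemannRochSpace_iff] at hf ⊢
  intro Q
  rcases hf (σ⁻¹ • Q) with h0 | h1
  · left
    rw [h0, smul_zero]
  · right
    have h2 := ord_gal_smul N σ (σ⁻¹ • Q) f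
    rw [smul_inv_smul] at h2
    have h3 := hM σ (σ⁻¹ • Q)
    rw [smul_inv_smul] at h3
    rw [h2, h3]
    exact h1

/-- **a `GQ`-fixed section outside a given subspace.** -/
theorem exists_fixed_notMem {g : ℕ} {κ : Divisor Ωq (FunN N)} (H : RRHyp κ g)
    {M : Divisor Ωq (FunN N)} (hM : GalInv N M) (W : Submodule Ωq (FunN N))
    (hW : ¬ riemannRochSpace M ≤ W) :
    ∃ f : FunN N, f ∈ riemannRochSpace M ∧ f ∉ W ∧ ∀ σ : GQ, σ • f = f := by
  haveI := H.fin M
  obtain ⟨n, b, -, hbV, -, hspan, hfix⟩ :=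
    exists_fixed_basis N (riemannRochSpace M) (fun σ f hf => hM.smul_mem N σ hf)
  by_contra hcon
  apply hW
  rw [← hspan, Submodule.span_le]
  rintro _ ⟨i, rfl⟩
  by_contra hi
  exact hcon ⟨b i, hbV i, hi, fun σ => hfix σ i⟩

/-! ### the rational differential in positive genus -/

theorem exists_diffDatum (hg : 1 ≤ genusN N) :
    ∃ 𝔡 : DiffDatum N, 𝔡.IsBasis ∧ 𝔡.gq = genusN N ∧
      RRHyp (dofNat 𝔡.K0 : Divisor Ωq (FunN N)) (genusN N) := by
  classical
  set g := genusN N with hgdef
  have H := rrHyp_kapJ N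
  set c := cN N with hc
  -- a fixed regular differential not vanishing at `∞`
  have hnle : ¬ riemannRochSpace (kapJ N) ≤
      riemannRochSpace (kapJ N - Finsupp.single (infN N) 1) := by
    intro hle
    haveI := H.fin (kapJ N - Finsupp.single (infN N) 1)
    have h1 := Submodule.finrank_mono hle
    have h2 := H.ell_canonical c
    have h3 := H.ell_canonical_sub_single c hg (infN N)
    unfold ell at h2 h3
    omega
  obtain ⟨f₀, hf₀mem, hf₀not, hf₀fix⟩ :=
    exists_fixed_notMem N H (kapJ_galInv N) _ hnle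
  have hf₀ : f₀ ≠ 0 := fun h => hf₀not (h ▸ Submodule.zero_mem _)
  have hpos : 0 ≤ divOf c f₀ + kapJ N := (mem_L_iff c hf₀).mp hf₀mem
  set K0 : PtN N →₀ ℕ := toEff (kapJ N + divOf c f₀) with hK0
  have hK0eq : (dofNat K0 : Divisor Ωq (FunN N)) = kapJ N + divOf c f₀ :=
    dofNat_toEff (by rw [add_comm]; exact hpos)
  have hK0inf : K0 (infN N) = 0 := by
    have h1 := (mem_L_sub_single_iff hf₀ hf₀mem (infN N)).not.mp hf₀not
    have h2 := Finsupp.le_def.mp hpos (infN N)
    rw [Finsupp.add_apply, divOf_apply] at h2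
    simp only [Finsupp.coe_zero, Pi.zero_apply] at h2
    have h3 : (K0 (infN N) : ℤ) = 0 := by
      rw [← dofNat_apply, hK0eq, Finsupp.add_apply, divOf_apply]
      omega
    exact_mod_cast h3
  have hspec := derDivisor_smul c (kapJ_spec N) hf₀
  rw [← hK0eq] at hspec
  -- Riemann–Roch for `K0`
  obtain ⟨g', H'⟩ := exists_rrHyp c (scaleDer f₀⁻¹ (derJ N)) (dofNat K0) hspec
  have hgg' : g' = g := by
    have h1 := H'.deg
    have h2 := H.deg
    rw [hK0eq, map_add, degree_divOf, add_zero] at h1
    omega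
  rw [hgg'] at H'
  have hK0inv : GalInv N (dofNat K0 : Divisor Ωq (FunN N)) := by
    rw [hK0eq]
    exact (kapJ_galInv N).add N (divOf_galInv N hf₀fix)
  -- a fixed basis of `L(K0)`
  haveI := H'.fin (dofNat K0)
  obtain ⟨n, b, hn, hbV, hbli, hbspan, hbfix⟩ :=
    exists_fixed_basis N (riemannRochSpace (dofNat K0 : Divisor Ωq (FunN N)))
      (fun σ f hf => hK0inv.smul_mem N σ hf)
  have hng : n = g := by
    rw [hn]
    exact H'.ell_canonical c
  subst hng
  have hf₀inv : ∀ σ : GQ, σ • f₀⁻¹ = f₀⁻¹ := by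
    intro σ
    rw [smul_inv'', hf₀fix σ]
  refine ⟨{ D₀ := scaleDer f₀⁻¹ (derJ N)
            D₀_smul := fun σ f => by
              show f₀⁻¹ * derJ N (σ • f) = σ • (f₀⁻¹ * derJ N f)
              rw [derJ_gal_smul, smul_mul', hf₀inv σ]
            K0 := K0
            K0_spec := fun Q τ hτ => by
              have := hspec Q τ hτ
              rw [dofNat_apply] at this
              exact this
            K0_inf := hK0inf
            gq := g
            φ := b
            φ_fix := hbfix
            φ_reg := fun k Q => by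
              have := mem_riemannRochSpace_iff.mp (hbV k) Q
              rw [dofNat_apply] at this
              exact this }, ⟨hbli, fun f hf => ?_⟩, rfl, H'⟩
  show f ∈ Submodule.span Ωq (Set.range b)
  rw [hbspan, mem_riemannRochSpace_iff]
  intro Q
  rw [dofNat_apply]
  exact hf Q

end Fermat.Agent.MW
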