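/-
MW (S17) [DIV] — helper1 — part 3: **the divisor class group of degree zero of a function field
with a Frobenius structure over `𝔽̄_ℓ` is a torsion group.**

Setting of `S35/FINPIC_helper6_*`: `k` algebraically closed, `κ / k(X)` finite separable,
`φ : κ ≃+* κ` inducing `σ` on `k`, fixing the coordinate `xF k κ` and a place `P₀`, every iterate
`σ^[i]` (`i ≥ 1`) having finitely many fixed points.  If moreover every element of `k` is
`σ`-periodic, every place is `φ`-periodic, every divisor is fixed by an iterate of `φ`, and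
helper6's finiteness of the Frobenius-fixed classes (for that iterate) gives
`exists_nsmul_isPrincipal_of_periodic : deg D = 0 → ∃ n > 0, n • D` principal.
-/
import Mathlib
import Fermat.Agent.S35.FINPIC_helper6_Fixed

set_option autoImplicit false
set_option linter.unusedSectionVars false
set_option linter.unusedVariables false
set_option linter.style.haveILetI false

namespace Fermat.Agent.MW

open Polynomial AlgebraicCurve
open Fermat.Agent.FF Fermat.Agent.FF.RR Fermat.Agent.S35

section Generic

/-- an injective self-map of a finite set has only periodic points. -/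
theorem exists_iterate_eq_of_mapsTo_finite {α : Type*} (T : α → α) (hT : Function.Injective T)
    (S : Set α) (hS : S.Finite) (hmap : Set.MapsTo T S S) {v : α} (hv : v ∈ S) :
    ∃ j : ℕ, 1 ≤ j ∧ T^[j] v = v := by
  haveI : Finite ↥S := hS.to_subtype
  let f : ℕ → ↥S := fun j => ⟨T^[j] v, Set.MapsTo.iterate hmap j hv⟩
  obtain ⟨a, b, hab, hfab⟩ := Finite.exists_ne_map_eq_of_infinite f
  have key : ∀ a b : ℕ, a < b → T^[a] v = T^[b] v → ∃ j : ℕ, 1 ≤ j ∧ T^[j] v = v := by
    intro a b hlt heq
    refine ⟨b - a, by omega, ?_⟩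
    have h1 : T^[b] v = T^[a] (T^[b - a] v) := by
      rw [← Function.iterate_add_apply]
      congr 1
      omega
    rw [h1] at heq
    exact ((hT.iterate a) heq).symm
  have hval : T^[a] v = T^[b] v := congrArg Subtype.val hfab
  rcases lt_or_gt_of_ne hab with hlt | hgt
  · exact key a b hlt hval
  · exact key b a hgt hval.symm

end Generic

section Iter

/-- the `i`-th iterate of a ring automorphism. -/
def iterEquiv {R : Type*} [Semiring R] (φ : R ≃+* R) : ℕ → (R ≃+* R)
  | 0 => RingEquiv.refl R
  | i + 1 => (iterEquiv φ i).trans φ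

theorem iterEquiv_apply {R : Type*} [Semiring R] (φ : R ≃+* R) (i : ℕ) (x : R) :
    iterEquiv φ i x = (⇑φ)^[i] x := by
  induction i with
  | zero => rfl
  | succ i ih =>
    rw [Function.iterate_succ_apply', ← ih]
    rfl

theorem coe_iterEquiv {R : Type*} [Semiring R] (φ : R ≃+* R) (i : ℕ) :
    ⇑(iterEquiv φ i) = (⇑φ)^[i] := funext (iterEquiv_apply φ i)

variable {k F : Type*} [Field k] [Field F] [Algebra k F]
variable (φ : F ≃+* F) (σ : k ≃+* k)
  (h : ∀ c : k, φ (algebraMap k F c) = algebraMap k F (σ c))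

include h in
theorem iterEquiv_algebraMap (i : ℕ) (c : k) :
    iterEquiv φ i (algebraMap k F c) = algebraMap k F (iterEquiv σ i c) := by
  induction i with
  | zero => rfl
  | succ i ih =>
    show φ (iterEquiv φ i (algebraMap k F c)) = algebraMap k F (σ (iterEquiv σ i c))
    rw [ih, h]

/-- the place map of the iterate is the iterate of the place map. -/
theorem semiMap_iterEquiv (i : ℕ) (v : Place k F) :
    semiMap (iterEquiv φ i) (iterEquiv σ i) (iterEquiv_algebraMap φ σ h i) v =
      (semiMap φ σ h)^[i] v := by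
  induction i with
  | zero =>
    apply Place.ext
    ext x
    rfl
  | succ i ih =>
    rw [Function.iterate_succ_apply', ← ih]
    apply Place.ext
    ext x
    rfl

end Iter

section Main

variable {k κ : Type*} [Field k] [IsAlgClosed k] [Field κ] [Algebra k κ] [Algebra k[X] κ]
  [Algebra (RatFunc k) κ] [IsScalarTower k[X] (RatFunc k) κ] [IsScalarTower k k[X] κ]
  [IsScalarTower k (RatFunc k) κ] [FiniteDimensional (RatFunc k) κ]
  [Algebra.IsSeparable (RatFunc k) κ]

variable (φ : κ ≃+* κ) (σ : k ≃+* k)
  (h : ∀ c : k, φ (algebraMap k κ c) = algebraMap k κ (σ c))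
  (hx : φ (xF k κ) = xF k κ)
  (hper : ∀ a : k, ∃ i : ℕ, 1 ≤ i ∧ (⇑σ)^[i] a = a)

include hx hper in
/-- **every place is periodic.** -/
theorem exists_iterate_semiMap_eq (v : Place k κ) :
    ∃ j : ℕ, 1 ≤ j ∧ (semiMap φ σ h)^[j] v = v := by
  by_cases hmem : xF k κ ∈ v.toValuationSubring
  · -- a finite place: `x(v) = a`
    obtain ⟨a, ha⟩ := exists_const_sub_ordGE_one v (finpic_deg_eq_one v) hmem
    have ha' : 0 < v.ord (xF k κ - algebraMap k κ a) := by
      have := ha.resolve_left (xF_sub_ne_zero a)
      omega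
    obtain ⟨i₀, hi₀, hi₀a⟩ := hper a
    set S : Set (Place k κ) := {w | 0 < w.ord (xF k κ - algebraMap k κ a)} with hS
    have hSfin : S.Finite := by
      refine (finite_support_ord (xF_sub_ne_zero (κ := κ) a)).subset ?_
      intro w hw
      rw [Function.mem_support]
      exact (ne_of_gt hw)
    have hmap : Set.MapsTo ((semiMap φ σ h)^[i₀]) S S := by
      intro w hw
      have h1 := ord_iterate_pos φ σ h hx a w hw i₀
      rw [hi₀a] at h1
      exact h1
    obtain ⟨j, hj, hjv⟩ := exists_iterate_eq_of_mapsTo_finite ((semiMap φ σ h)^[i₀])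
      ((semiMap_injective φ σ h).iterate i₀) S hSfin hmap (v := v) ha'
    refine ⟨i₀ * j, Nat.mul_pos hi₀ hj, ?_⟩
    rw [Function.iterate_mul]
    exact hjv
  · -- a place at infinity
    have hv : v.ord (xF k κ) < 0 := by
      by_contra hge
      rw [not_lt] at hge
      exact hmem ((PlaceAux.mem_iff_ord_nonneg' v xF_ne_zero).mpr hge)
    set S : Set (Place k κ) := {w | w.ord (xF k κ) < 0} with hS
    have hSfin : S.Finite := by
      refine (finite_support_ord (xF_ne_zero (K := k) (F := κ))).subset ?_
      intro w hw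
      rw [Function.mem_support]
      exact (ne_of_lt hw)
    have hmap : Set.MapsTo (semiMap φ σ h) S S := by
      intro w hw
      show (semiMap φ σ h w).ord (xF k κ) < 0
      have h1 := ord_semiMap φ σ h w (xF k κ)
      rw [hx] at h1
      rw [h1]
      exact hw
    exact exists_iterate_eq_of_mapsTo_finite (semiMap φ σ h) (semiMap_injective φ σ h) S hSfin
      hmap (v := v) hv

include hx hper in
/-- **every divisor is fixed by an iterate of `φ`.** -/
theorem exists_semiPush_iterEquiv_eq (D : Divisor k κ) :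
    ∃ j : ℕ, 1 ≤ j ∧
      semiPush (iterEquiv φ j) (iterEquiv σ j) (iterEquiv_algebraMap φ σ h j) D = D := by
  classical
  choose jv hjv1 hjv using exists_iterate_semiMap_eq φ σ h hx hper
  refine ⟨∏ v ∈ D.support, jv v, ?_, ?_⟩
  · exact Nat.one_le_iff_ne_zero.mpr (Finset.prod_ne_zero_iff.mpr fun v _ => by
      have := hjv1 v; omega)
  · have hfixed : ∀ v ∈ D.support,
        semiMap (iterEquiv φ (∏ v ∈ D.support, jv v)) (iterEquiv σ (∏ v ∈ D.support, jv v))
          (iterEquiv_algebraMap φ σ h _) v = id v := by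
      intro v hv
      rw [semiMap_iterEquiv, id]
      have h1 : Function.IsPeriodicPt (semiMap φ σ h) (jv v) v := hjv v
      exact h1.trans_dvd (Finset.dvd_prod_of_mem jv hv)
    show Finsupp.mapDomain _ D = D
    rw [Finsupp.mapDomain_congr hfixed, Finsupp.mapDomain_id]

variable (hfix : ∀ i : ℕ, 1 ≤ i → {a : k | (⇑σ)^[i] a = a}.Finite)
  (P₀ : Place k κ) (hP₀ : semiMap φ σ h P₀ = P₀)

include hx hper hfix hP₀ in
/-- **the degree-zero class group is a torsion group.** -/
theorem exists_nsmul_isPrincipal_of_periodic (D : Divisor k κ) (hD : Divisor.degree D = 0) :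
    ∃ n : ℕ, 0 < n ∧ Divisor.IsPrincipal (n • D) := by
  obtain ⟨j, hj1, hjD⟩ := exists_semiPush_iterEquiv_eq φ σ h hx hper D
  have hxj : iterEquiv φ j (xF k κ) = xF k κ := by
    rw [iterEquiv_apply]
    exact Function.iterate_fixed hx j
  have hfixj : ∀ i : ℕ, 1 ≤ i → {a : k | (⇑(iterEquiv σ j))^[i] a = a}.Finite := by
    intro i hi
    have h1 : (⇑(iterEquiv σ j))^[i] = (⇑σ)^[j * i] := by
      rw [coe_iterEquiv, Function.iterate_mul]
    rw [h1]
    exact hfix (j * i) (Nat.mul_pos hj1 hi)
  have hP₀j : semiMap (iterEquiv φ j) (iterEquiv σ j) (iterEquiv_algebraMap φ σ h j) P₀ = P₀ := by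
    rw [semiMap_iterEquiv]
    exact Function.iterate_fixed hP₀ j
  obtain ⟨n, hn, hnD⟩ := exists_nsmul_isPrincipal_of_frobFixed (iterEquiv φ j) (iterEquiv σ j)
    (iterEquiv_algebraMap φ σ h j) hxj hfixj P₀ hP₀j
  refine ⟨n, hn, hnD D hD ?_⟩
  rw [hjD, sub_self]
  exact (Divisor.principal (K := k) (F := κ)).zero_mem

end Main

end Fermat.Agent.MW
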