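/-
MW (S17) [DIV] — helper1 — part 4 (D2): **the reduction of a divisor class is a torsion class.**

For a good-reduction datum `X : FG.GoodRed Ω A 𝔽 𝔽b` and an automorphism `g` of the datum
(`X.IsAut g`) inducing the `ℓ`-th power map on the residue field `k` of `A` (`k` algebraically
closed of characteristic `ℓ`, algebraic over `𝔽_ℓ`), the reduced automorphism `FG.redAut g` is a
Frobenius structure on `𝔽b / k` fixing the reduced uniformizer `τb` and the reduced base point.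
Hence (`DIV_helper1_Frob`) `Pic⁰(𝔽b)` is a torsion group and

  `exists_nsmul_mem_kerRed : ∀ z : Pic0 Ω 𝔽, ∃ n > 0, n • z ∈ X.kerRed`.
-/
import Mathlib
import Fermat.Agent.MW.DIV_helper1_Frob
import Fermat.Agent.FG.ERED_helper1_Aut
import Fermat.Agent.FG.CURVE_helper5_Red
import Fermat.Agent.FG.OB_helper2_Gauss
import Fermat.Agent.JA.CONST_helper6
import Fermat.Agent.JA.BASE_helper1_Res

set_option autoImplicit false
set_option linter.unusedSectionVars false
set_option linter.unusedVariables false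
set_option linter.style.haveILetI false

namespace Fermat.Agent.MW

open Polynomial AlgebraicCurve IsLocalRing IntermediateField
open Fermat.Agent.FF Fermat.Agent.FF.RR Fermat.Agent.S35 Fermat.Agent.FG Fermat.Agent.JA

section FieldTheory

variable {k : Type*} [Field k] (σ : k ≃+* k) (q : ℕ) (hσ : ∀ c : k, σ c = c ^ q)

include hσ in
theorem frobLike_iterate (i : ℕ) (a : k) : (⇑σ)^[i] a = a ^ (q ^ i) := by
  induction i with
  | zero => simp
  | succ i ih =>
    rw [Function.iterate_succ_apply', ih, hσ, ← pow_mul, pow_succ]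

include hσ in
/-- the iterates of a Frobenius have finitely many fixed points. -/
theorem frobLike_fixed_finite (hq : 1 < q) (i : ℕ) (hi : 1 ≤ i) :
    {a : k | (⇑σ)^[i] a = a}.Finite := by
  have hqi : 1 < q ^ i := Nat.one_lt_pow (by omega) hq
  have hne : (X ^ (q ^ i) - X : k[X]) ≠ 0 := FiniteField.X_pow_card_sub_X_ne_zero k hqi
  refine (Polynomial.rootSet_finite (X ^ (q ^ i) - X : k[X]) k).subset ?_
  intro a ha
  rw [Set.mem_ofPred_eq, frobLike_iterate σ q hσ] at ha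
  rw [Polynomial.mem_rootSet]
  refine ⟨hne, ?_⟩
  simp [ha]

attribute [local instance] ZMod.algebra

/-- every element of an algebraic extension of `𝔽_ℓ` is periodic under the Frobenius. -/
theorem frobLike_periodic {ℓ : ℕ} [Fact ℓ.Prime] [CharP k ℓ]
    (halg : ∀ a : k, IsAlgebraic (ZMod ℓ) a) (σ : k ≃+* k) (hσ : ∀ c : k, σ c = c ^ ℓ) (a : k) :
    ∃ i : ℕ, 1 ≤ i ∧ (⇑σ)^[i] a = a := by
  rcases eq_or_ne a 0 with rfl | ha0
  · exact ⟨1, le_refl 1, by simp⟩
  obtain ⟨n, hn, hℓn, han⟩ := exists_pow_eq_one_of_isAlgebraic (ℓ := ℓ) (halg a) ha0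
  have hcop : Nat.Coprime ℓ n := (Nat.Prime.coprime_iff_not_dvd Fact.out).mpr hℓn
  have hmod : ℓ ^ Nat.totient n ≡ 1 [MOD n] := Nat.ModEq.pow_totient hcop
  have htot : 0 < Nat.totient n := Nat.totient_pos.mpr hn
  refine ⟨Nat.totient n, htot, ?_⟩
  rw [frobLike_iterate σ ℓ hσ]
  -- `ℓ ^ φ(n) = 1 + n m`
  have hge : 1 ≤ ℓ ^ Nat.totient n := Nat.one_le_pow _ _ (Fact.out : ℓ.Prime).pos
  have hdvd : n ∣ ℓ ^ Nat.totient n - 1 := (Nat.modEq_iff_dvd' hge).mp hmod.symm
  obtain ⟨m, hm⟩ := hdvd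
  have h1 : ℓ ^ Nat.totient n = 1 + n * m := by omega
  rw [h1, pow_add, pow_one, pow_mul, han, one_pow, mul_one]

end FieldTheory

section Coord

variable {k κ : Type*} [Field k] [IsAlgClosed k] [Field κ] [Algebra k κ]

/-- `exists_nsmul_isPrincipal_of_periodic` for a separating coordinate. -/
theorem exists_nsmul_isPrincipal_of_coord (c : Coord k κ)
    (hsep : Algebra.IsSeparable k⟮c.x⟯ κ)
    (φ : κ ≃+* κ) (σ : k ≃+* k)
    (h : ∀ a : k, φ (algebraMap k κ a) = algebraMap k κ (σ a))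
    (hx : φ c.x = c.x)
    (hper : ∀ a : k, ∃ i : ℕ, 1 ≤ i ∧ (⇑σ)^[i] a = a)
    (hfix : ∀ i : ℕ, 1 ≤ i → {a : k | (⇑σ)^[i] a = a}.Finite)
    (P₀ : Place k κ) (hP₀ : semiMap φ σ h P₀ = P₀)
    (D : Divisor k κ) (hD : Divisor.degree D = 0) :
    ∃ n : ℕ, 0 < n ∧ Divisor.IsPrincipal (n • D) := by
  obtain ⟨i1, i2, i3, i4, i5, i6, i7, hxF⟩ := exists_typeclass_setting_of_isSeparable c hsep
  exact exists_nsmul_isPrincipal_of_periodic φ σ h (by rw [hxF]; exact hx) hper hfix P₀ hP₀ D hD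

end Coord

section GoodRed

variable {Ω : Type*} [Field Ω] {A : ValuationSubring Ω} {𝔽 : Type*} [Field 𝔽] [Algebra Ω 𝔽]
  {𝔽b : Type*} [Field 𝔽b] [Algebra (ResidueField ↥A) 𝔽b] (X : GoodRed Ω A 𝔽 𝔽b)

/-- an automorphism of the datum preserves `A` and the Gauss ring. -/
theorem preservesGauss_of_isAut {g : SemilinearAut Ω 𝔽} (hg : X.IsAut g) :
    PreservesGauss A X.W g := ⟨hg.base_mem, hg.smul_mem⟩

/-- **the reduced automorphism** of an automorphism of the datum. -/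
noncomputable def redAutOf {g : SemilinearAut Ω 𝔽} (hg : X.IsAut g) :
    SemilinearAut (ResidueField ↥A) 𝔽b :=
  redAut X.ρ_surjective X.ρ_algebraMap (fun a ha => (X.algebraMap_mem_iff a).mpr ha)
    (preservesGauss_of_isAut X hg)

theorem redAutOf_smul {g : SemilinearAut Ω 𝔽} (hg : X.IsAut g) (f : ↥X.W) :
    redAutOf X hg • X.ρ f = X.ρ ⟨g • (f : 𝔽), (hg.smul_mem _).mpr f.2⟩ :=
  redAut_smul _ _ _ _ f

/-- the reduced automorphism fixes the reduced uniformizer. -/
theorem redAutOf_smul_τb {g : SemilinearAut Ω 𝔽} (hg : X.IsAut g) :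
    redAutOf X hg • X.τb = X.τb := by
  rw [GoodRed.τb, redAutOf_smul]
  congr 1
  exact Subtype.ext hg.smul_τ

/-- the base automorphism of the reduced automorphism. -/
theorem baseAut_redAutOf_residue {g : SemilinearAut Ω 𝔽} (hg : X.IsAut g) (a : ↥A) :
    SemilinearAut.baseAut (redAutOf X hg) (residue ↥A a) =
      residue ↥A ⟨SemilinearAut.baseAut g (a : Ω), (hg.base_mem _).mpr a.2⟩ := by
  show ResidueField.mapEquiv (baseValAut (preservesGauss_of_isAut X hg)) (residue ↥A a) = _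
  rw [ResidueField.mapEquiv_apply, ResidueField.map_residue]
  rfl

/-- **the reduced automorphism fixes the reduced base point** (in the language of
`S35/FINPIC_helper6_Frob`). -/
theorem semiMap_redAutOf_cuspb {g : SemilinearAut Ω 𝔽} (hg : X.IsAut g) :
    semiMap (SemilinearAut.toRingAut (redAutOf X hg)) (SemilinearAut.baseAut (redAutOf X hg))
      (SemilinearAut.commutes (redAutOf X hg)) X.cuspb = X.cuspb := by
  apply Place.ext
  ext y
  rw [mem_semiMap_iff]
  obtain ⟨f, hf⟩ := X.ρ_surjective ((SemilinearAut.toRingAut (redAutOf X hg)).symm y)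
  have hy : y = X.ρ ⟨g • (f : 𝔽), (hg.smul_mem _).mpr f.2⟩ := by
    rw [← redAutOf_smul X hg f, hf, SemilinearAut.smul_def, RingEquiv.apply_symm_apply]
  rw [← hf]
  have h1 := hg.r_smul X.cusp f ((hg.smul_mem _).mpr f.2)
  rw [hg.smul_cusp] at h1
  rw [hy]
  exact h1.symm

variable [IsAlgClosed (ResidueField ↥A)]

attribute [local instance] ZMod.algebra

/-- **(D2), abstract form: `Pic⁰` of the special fibre is a torsion group**, if the datum has an
automorphism inducing the Frobenius on the residue field `k = 𝔽̄_ℓ`. -/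
theorem exists_nsmul_eq_zero_pic0_red {ℓ : ℕ} [Fact ℓ.Prime] [CharP (ResidueField ↥A) ℓ]
    (halg : ∀ a : ResidueField ↥A, IsAlgebraic (ZMod ℓ) a)
    {g : SemilinearAut Ω 𝔽} (hg : X.IsAut g)
    (hfrob : ∀ a : ↥A, residue ↥A ⟨SemilinearAut.baseAut g (a : Ω), (hg.base_mem _).mpr a.2⟩ =
      residue ↥A a ^ ℓ)
    (zb : Pic0 (ResidueField ↥A) 𝔽b) : ∃ n : ℕ, 0 < n ∧ n • zb = 0 := by
  obtain ⟨D, rfl⟩ := Pic0.mk_surjective zb
  set φ := SemilinearAut.toRingAut (redAutOf X hg) with hφ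
  set σ := SemilinearAut.baseAut (redAutOf X hg) with hσ
  have hσℓ : ∀ c : ResidueField ↥A, σ c = c ^ ℓ := by
    intro c
    obtain ⟨a, rfl⟩ := residue_surjective c
    rw [hσ, baseAut_redAutOf_residue, hfrob]
  have hx : φ X.τb = X.τb := redAutOf_smul_τb X hg
  obtain ⟨n, hn, hnD⟩ := exists_nsmul_isPrincipal_of_coord
    (⟨X.τb, X.transcendental_τb, X.τ_finite_red⟩ : Coord (ResidueField ↥A) 𝔽b)
    X.τ_separable_red φ σ (SemilinearAut.commutes (redAutOf X hg)) hx
    (frobLike_periodic halg σ hσℓ)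
    (frobLike_fixed_finite σ ℓ hσℓ (Fact.out : ℓ.Prime).one_lt)
    X.cuspb (semiMap_redAutOf_cuspb X hg) (D : Divisor (ResidueField ↥A) 𝔽b) D.2
  refine ⟨n, hn, ?_⟩
  have h1 : n • Pic0.mk D = Pic0.mk (n • D) := rfl
  rw [h1, Pic0.mk, QuotientAddGroup.eq_zero_iff, AddSubgroup.mem_addSubgroupOf]
  exact hnD

/-- **(D2): a multiple of every class lies in the kernel of reduction.** -/
theorem exists_nsmul_mem_kerRed {ℓ : ℕ} [Fact ℓ.Prime] [CharP (ResidueField ↥A) ℓ]
    (halg : ∀ a : ResidueField ↥A, IsAlgebraic (ZMod ℓ) a)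
    {g : SemilinearAut Ω 𝔽} (hg : X.IsAut g)
    (hfrob : ∀ a : ↥A, residue ↥A ⟨SemilinearAut.baseAut g (a : Ω), (hg.base_mem _).mpr a.2⟩ =
      residue ↥A a ^ ℓ)
    (z : Pic0 Ω 𝔽) : ∃ n : ℕ, 0 < n ∧ n • z ∈ X.kerRed := by
  obtain ⟨n, hn, hnz⟩ := exists_nsmul_eq_zero_pic0_red X halg hg hfrob (X.redPic0 z)
  refine ⟨n, hn, ?_⟩
  rw [GoodRed.mem_kerRed, map_nsmul]
  exact hnz

end GoodRed

end Fermat.Agent.MW
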