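/-
MW (S17) [DIV] — helper1 — part 5: **the Legendre host.**

* `coprime_five_finrank_of_sextic` (Mathlib only): a finite extension `E = F(t)` with `t` a root of
  a polynomial of degree `≤ 6` which contains a quadratic subextension has degree `2`, `4` or `6`;
* `legPush N : Pic0 Ω (legE Ω N) →+ JZero N`, `legPush_legPull : legPush (legPull x) = legDeg N • x`,
  `legDeg_coprime_five`;
* `exists_nsmul_mem_kerRed_leg` : (D2) for `legGoodRed hA N hℓN hℓ2` (Frobenius element at `A`).
-/
import Mathlib
import Fermat.Agent.MW.DIV_helper1_Push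
import Fermat.Agent.MW.DIV_helper1_Red
import Fermat.Agent.FG.EGAL_helper6_PullLeg
import Fermat.Agent.FG.INST_helper5_Leg
import Fermat.Agent.JA.BASE_helper1_Cyclo
import Fermat.Agent.TW.Kill_helper1_Frob

set_option autoImplicit false
set_option linter.unusedSectionVars false
set_option linter.unusedVariables false
set_option linter.style.haveILetI false

namespace Fermat.Agent.MW

open Polynomial AlgebraicCurve ModularCurve IsLocalRing IntermediateField
open Fermat.Agent.FF Fermat.Agent.FG Fermat.Agent.JA Fermat.Agent.SS Fermat.Agent.GR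
open scoped Fermat.Agent.JA.Host

section Degree

variable {F E : Type*} [Field F] [Field E] [Algebra F E] [FiniteDimensional F E]

/-- the degree of a quadratic subextension. -/
theorem finrank_adjoin_of_sq_mem {δ : E} (hδ : δ ∉ Set.range (algebraMap F E)) {c : F}
    (hc : δ ^ 2 = algebraMap F E c) : Module.finrank F ↥F⟮δ⟯ = 2 := by
  have hint : IsIntegral F δ := Algebra.IsIntegral.isIntegral δ
  rw [IntermediateField.adjoin.finrank hint]
  have hle : (minpoly F δ).natDegree ≤ 2 := by
    have hmon : (X ^ 2 - C c : F[X]).Monic := monic_X_pow_sub_C c (by norm_num)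
    have hroot : aeval δ (X ^ 2 - C c : F[X]) = 0 := by
      rw [map_sub, map_pow, aeval_X, aeval_C, hc, sub_self]
    have h1 := natDegree_le_natDegree (minpoly.min F δ hmon hroot)
    rwa [natDegree_X_pow_sub_C] at h1
  have hpos : 0 < (minpoly F δ).natDegree := minpoly.natDegree_pos hint
  have hne1 : (minpoly F δ).natDegree ≠ 1 := by
    intro h1
    apply hδ
    have := (minpoly.natDegree_eq_one_iff (A := F) (x := δ)).mp h1
    exact this
  omega

/-- **a finite extension generated by a root of a sextic and containing a quadratic subextension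
has degree prime to `5`.** -/
theorem coprime_five_finrank_of_sextic {t : E} (ht : F⟮t⟯ = ⊤) {p : F[X]} (hp0 : p ≠ 0)
    (hpt : aeval t p = 0) (hp6 : p.natDegree ≤ 6) {δ : E}
    (hδ : δ ∉ Set.range (algebraMap F E)) {c : F} (hc : δ ^ 2 = algebraMap F E c) :
    Nat.Coprime (Module.finrank F E) 5 := by
  have hint : IsIntegral F t := Algebra.IsIntegral.isIntegral t
  have h1 : Module.finrank F E ≤ 6 := by
    have h2 : Module.finrank F E = (minpoly F t).natDegree := by
      rw [← IntermediateField.adjoin.finrank hint, ht, IntermediateField.finrank_top']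
    rw [h2]
    exact (natDegree_le_of_dvd (minpoly.dvd F t hpt) hp0).trans hp6
  have h3 : 2 ∣ Module.finrank F E := by
    rw [← Module.finrank_mul_finrank F ↥F⟮δ⟯ E, finrank_adjoin_of_sq_mem hδ hc]
    exact dvd_mul_right 2 _
  have hpos : 0 < Module.finrank F E := Module.finrank_pos
  obtain ⟨e, he⟩ := h3
  rw [he] at h1 hpos ⊢
  have he3 : e ≤ 3 := by omega
  have he0 : 0 < e := by omega
  interval_cases e <;> decide

end Degree

local notation "Ω" => AlgebraicClosure ℚ
local notation "GQ" => (AlgebraicClosure ℚ ≃ₐ[ℚ] AlgebraicClosure ℚ)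

section Push

variable (N : ℕ) [NeZero N]

/-- the degree of the Legendre cover `legE Ω N / F̄(X₀(N))`. -/
noncomputable def legDeg : ℕ := finrankAlong Ω (fullToLegE Ω N)

theorem legSextic_natDegree_le : (legSextic N).natDegree ≤ 6 := by
  unfold legSextic
  compute_degree

/-- **the degree of the Legendre cover is prime to `5`.** -/
theorem legDeg_coprime_five : Nat.Coprime (legDeg N) 5 := by
  letI := algebraAlong (fullToLegE Ω N)
  haveI : FiniteDimensional ↥(keyFq Ω N) ↥(legE Ω N) := finiteAlong_fullToLegE N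
  have ht : IntermediateField.adjoin ↥(keyFq Ω N) {legTE Ω N} = ⊤ := adjoin_legTE_eq_top N
  have hpt : aeval (legTE Ω N) (legSextic N) = 0 := by
    rw [aeval_def, eval₂_eq_eval_map]
    exact legSextic_eval N
  have h64 : (64 : ↥(legE Ω N)) ≠ 0 := by norm_num
  have hc : legDE N ^ 2 =
      algebraMap ↥(keyFq Ω N) ↥(legE Ω N) ((egalJ N - 1728) / 64) := by
    have h1 : algebraMap ↥(keyFq Ω N) ↥(legE Ω N) ((egalJ N - 1728) / 64) =
        (legJE Ω N - 1728) / 64 := by
      rw [map_div₀, map_sub, map_ofNat, map_ofNat]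
      congr 2
    rw [h1, ← legDE_sq N, mul_div_cancel_left₀ _ h64]
  exact coprime_five_finrank_of_sextic ht (legSextic_ne_zero N) hpt (legSextic_natDegree_le N)
    (legDE_not_mem_range N) hc

theorem legFun_deg_eq_one (v : Place Ω ↥(modularFunctionFieldBar N)) : v.deg = 1 :=
  (Fermat.Agent.X0N.jCoordBar N).deg_eq_one v

theorem normFormulaAlong_fullToLegE :
    haveI : HasPrincipalDivisors Ω ↥(legE Ω N) := legE_principal_gen N
    NormFormulaAlong Ω (fullToLegE Ω N) (finiteAlong_fullToLegE N) :=
  haveI : HasPrincipalDivisors Ω ↥(legE Ω N) := legE_principal_gen N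
  normFormulaAlong_of_deg_eq_one (fullToLegE Ω N) (finiteAlong_fullToLegE N)
    (legFun_deg_eq_one N) (legE_deg_gen N)

/-- **`π_* : Pic⁰(legE Ω N) → J₀(N)`**. -/
noncomputable def legPush : Pic0 Ω ↥(legE Ω N) →+ JZero N :=
  haveI : HasPrincipalDivisors Ω ↥(legE Ω N) := legE_principal_gen N
  pic0Push (fullToLegE Ω N) (isIntegral_fullToLegE_bar N) (finiteAlong_fullToLegE N)
    (normFormulaAlong_fullToLegE N)

/-- **`π_* ∘ π^* = deg π`**. -/
theorem legPush_legPull (x : JZero N) : legPush N (legPull N x) = legDeg N • x := by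
  haveI : HasPrincipalDivisors Ω ↥(legE Ω N) := legE_principal_gen N
  exact pic0Push_pic0Pull (fullToLegE Ω N) (isIntegral_fullToLegE_bar N)
    (finiteAlong_fullToLegE N) (normFormulaAlong_fullToLegE N)
    (fundamentalIdentityAlong_fullToLegE N) (legFun_deg_eq_one N) (legE_deg_gen N) x

end Push

section Red

variable {ℓ : ℕ} [Fact ℓ.Prime] {A : ValuationSubring Ω} (hA : A.LiesOverPrime ℓ)
  (N : ℕ) [NeZero N] (hℓN : ¬ ℓ ∣ N) (hℓ2 : ℓ ≠ 2)

attribute [local instance] ZMod.algebra

/-- **(D2) for the Legendre host**: a multiple of every class of `Pic⁰(legE Ω N)` lies in the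
kernel of reduction. -/
theorem exists_nsmul_mem_kerRed_leg (z : Pic0 Ω ↥(legE Ω N)) :
    ∃ n : ℕ, 0 < n ∧ n • z ∈ (legGoodRed hA N hℓN hℓ2).kerRed := by
  obtain ⟨σ₀, hσ₀⟩ := Fermat.Agent.TW.Kill.exists_isFrobeniusAt A (Fact.out : ℓ.Prime) hA
  have hdec : σ₀ ∈ A.decompositionSubgroup ℚ := hσ₀.mem_decompositionSubgroup
  haveI : CharP (ResidueField ↥A) ℓ := charP_residueField hA
  haveI : IsAlgClosed (ResidueField ↥A) := isAlgClosed_residueField A
  have halg : ∀ c : ResidueField ↥A, IsAlgebraic (ZMod ℓ) c := by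
    intro c
    obtain ⟨a, rfl⟩ := residue_surjective c
    exact isAlgebraic_residue a
  refine exists_nsmul_mem_kerRed (legGoodRed hA N hℓN hℓ2) halg
    (legGoodRed_isAut hA N hℓN hℓ2 hdec) ?_ z
  intro a
  have h := hσ₀.smul_residue_eq (residue ↥A a)
  rw [← IsLocalRing.ResidueField.residue_smul] at h
  rw [← h]
  rfl

end Red

end Fermat.Agent.MW
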