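/-
MW (S17) — helper2 — [DIV] (D1), part 1: generic lemmas on the linear-coefficient functional `lin`
for the coefficients of products and powers of polynomials over `MvPolynomial V R`.
-/
import Mathlib
import Fermat.Agent.FG.REFL_helper5_Lin

set_option autoImplicit false
set_option linter.unusedSectionVars false
set_option linter.style.haveILetI false

noncomputable section

namespace Fermat.Agent.MW

open Fermat.Agent.FG MvPolynomial

section LinP

variable {R : Type*} [CommRing R] {V : Type*}

/-- the polynomial of the linear coefficients (with respect to the variable `l`) of the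
coefficients of `P`. -/
def linP (l : V) (P : Polynomial (MvPolynomial V R)) : Polynomial R :=
  ∑ b ∈ P.support, Polynomial.monomial b (lin l (P.coeff b))

theorem coeff_linP (l : V) (P : Polynomial (MvPolynomial V R)) (b : ℕ) :
    (linP l P).coeff b = lin l (P.coeff b) := by
  classical
  unfold linP
  rw [Polynomial.finsetSum_coeff]
  by_cases hb : b ∈ P.support
  · rw [Finset.sum_eq_single b]
    · rw [Polynomial.coeff_monomial, if_pos rfl]
    · intro c _ hc
      rw [Polynomial.coeff_monomial, if_neg hc]
    · intro h
      exact absurd hb h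
  · rw [Finset.sum_eq_zero]
    · rw [Polynomial.notMem_support_iff.mp hb, lin_zero]
    · intro c hc
      rw [Polynomial.coeff_monomial, if_neg]
      rintro rfl
      exact hb hc

/-- the constant-coefficient polynomial. -/
def ccP (P : Polynomial (MvPolynomial V R)) : Polynomial R :=
  P.map (constantCoeff (R := R) (σ := V))

theorem coeff_ccP (P : Polynomial (MvPolynomial V R)) (b : ℕ) :
    (ccP P).coeff b = constantCoeff (P.coeff b) := by
  unfold ccP
  rw [Polynomial.coeff_map]

theorem ccP_mul (P Q : Polynomial (MvPolynomial V R)) : ccP (P * Q) = ccP P * ccP Q :=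
  Polynomial.map_mul _

theorem ccP_pow (P : Polynomial (MvPolynomial V R)) (k : ℕ) : ccP (P ^ k) = ccP P ^ k :=
  Polynomial.map_pow _ _

theorem linP_one (l : V) : linP l (1 : Polynomial (MvPolynomial V R)) = 0 := by
  ext b
  rw [coeff_linP, Polynomial.coeff_zero, Polynomial.coeff_one]
  split_ifs
  · exact lin_one l
  · exact lin_zero l

/-- **Leibniz rule.** -/
theorem linP_mul (l : V) (P Q : Polynomial (MvPolynomial V R)) :
    linP l (P * Q) = linP l P * ccP Q + ccP P * linP l Q := by
  ext b
  rw [coeff_linP, Polynomial.coeff_mul, lin_sum, Polynomial.coeff_add, Polynomial.coeff_mul,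
    Polynomial.coeff_mul, ← Finset.sum_add_distrib]
  refine Finset.sum_congr rfl fun x _ => ?_
  rw [lin_mul, coeff_linP, coeff_linP, coeff_ccP, coeff_ccP]

/-- **power rule.** -/
theorem linP_pow_succ (l : V) (P : Polynomial (MvPolynomial V R)) (k : ℕ) :
    linP l (P ^ (k + 1)) = (k + 1 : ℕ) • (ccP P ^ k * linP l P) := by
  induction k with
  | zero => rw [zero_add, pow_one, pow_zero, one_mul, one_smul]
  | succ k ih =>
    rw [pow_succ, linP_mul, ih, ccP_pow, pow_succ (ccP P) k]
    simp only [nsmul_eq_mul]
    push_cast
    ring

/-- constants have no linear part. -/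
theorem linP_map_C (l : V) (p : Polynomial R) :
    linP l (p.map (C : R →+* MvPolynomial V R)) = 0 := by
  ext b
  rw [coeff_linP, Polynomial.coeff_map, Polynomial.coeff_zero, lin_C]

theorem ccP_map_C (p : Polynomial R) :
    ccP (p.map (C : R →+* MvPolynomial V R)) = p := by
  unfold ccP
  rw [Polynomial.map_map]
  have : (constantCoeff (R := R) (σ := V)).comp (C : R →+* MvPolynomial V R) = RingHom.id R := by
    ext a
    simp
  rw [this, Polynomial.map_id]

end LinP

end Fermat.Agent.MW
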