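/-
MW (S17) — helper2 — [DIV] (D1), part 2: **the division system.**

For `w ∈ 𝔪^{n+1}` the reflection system `Σ(N₁)` (`N₁ = k n + n`) with
`W = D_{y'}^k · D_w`, where `y'` is the gap part of the unknown `u` itself: a solution `u` gives
`polyOf(E_u) = D_{y'}^{k+1} · D_w`, i.e. `(k+1)·[E_{y'} - n∞] + [E_w - n∞] = 0`.
The Jacobian at the origin is the Jacobian of the reflection system with constant
`W₀ = T^{k n} D_w` minus `k` times the projection on the gap coordinates (modulo `𝔪`), hence is
invertible over `A` as soon as `k + 1` is a unit.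
-/
import Mathlib
import Fermat.Agent.FG.REFL_helper5_Chart
import Fermat.Agent.MW.DIV_helper2_Lin

set_option autoImplicit false
set_option linter.unusedSectionVars false
set_option linter.style.haveILetI false

noncomputable section

namespace Fermat.Agent.FG

open AlgebraicCurve IsLocalRing IntermediateField Fermat.Agent.FF Fermat.Agent.JA Fermat.Agent.MW
open scoped Classical

theorem isDist_X_pow {Ω : Type*} [Field Ω] (A : ValuationSubring Ω) (d : ℕ) :
    IsDist A (Polynomial.X ^ d : Polynomial Ω) := by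
  refine ⟨Polynomial.monic_X_pow d, fun j hj => ?_⟩
  rw [Polynomial.natDegree_X_pow] at hj
  rw [Polynomial.coeff_X_pow, if_neg (by omega)]
  exact zero_mem_nonunits

namespace GoodRed

variable {Ω : Type*} [Field Ω] {A : ValuationSubring Ω} {𝔽 : Type*} [Field 𝔽] [Algebra Ω 𝔽]
  {𝔽b : Type*} [Field 𝔽b] [Algebra (ResidueField ↥A) 𝔽b] (X : GoodRed Ω A 𝔽 𝔽b)

variable (n k : ℕ) (w : Fin (n + 1) → Ω)

/-- the generic `D_{y'}`, `y'` = the gap part of the unknowns. -/
def divD : Polynomial (MvPolynomial (Fin (k * n + n + n + 1)) Ω) :=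
  X.Dgen n (gpos (k * n + n) n)

/-- `D_w` with constant coefficients. -/
def divPw : Polynomial (MvPolynomial (Fin (k * n + n + n + 1)) Ω) :=
  (X.Dy n w).map (MvPolynomial.C : Ω →+* MvPolynomial (Fin (k * n + n + n + 1)) Ω)

/-- the coefficients of `W = D_{y'}^k · D_w`. -/
def divω : ℕ → MvPolynomial (Fin (k * n + n + n + 1)) Ω := fun a =>
  (X.divD n k ^ k * X.divPw n k w).coeff a

/-- the constant part `W₀ = T^{k n} · D_w` of `W`. -/
def divW₀ : Polynomial Ω := Polynomial.X ^ (k * n) * X.Dy n w

theorem ccP_divD : ccP (X.divD n k) = Polynomial.X ^ n :=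
  X.map_constantCoeff_Dgen n _

theorem ccP_divW : ccP (X.divD n k ^ k * X.divPw n k w) = X.divW₀ n k w := by
  rw [ccP_mul, ccP_pow, X.ccP_divD, divPw, ccP_map_C, divW₀, ← pow_mul, mul_comm n k]

theorem constantCoeff_divω (a : ℕ) :
    MvPolynomial.constantCoeff (X.divω n k w a) = (X.divW₀ n k w).coeff a := by
  rw [← X.ccP_divW n k w, coeff_ccP]
  rfl

variable {w}

theorem isDist_divW₀ (hw : ∀ γ, w γ ∈ A.nonunits) : IsDist A (X.divW₀ n k w) :=
  (isDist_X_pow A (k * n)).mul (X.isDist_Dy n hw)

theorem natDegree_divW₀ : (X.divW₀ n k w).natDegree = k * n + n := by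
  rw [divW₀, (Polynomial.monic_X_pow (k * n)).natDegree_mul (X.monic_Dy n w),
    Polynomial.natDegree_X_pow, X.natDegree_Dy]

theorem pow_coeff_mem_polyOver {R : Type*} [CommRing R] {V : Type*} (B : Subring R)
    {P : Polynomial (MvPolynomial V R)} (hP : ∀ b, P.coeff b ∈ polyOver B V) (j : ℕ) :
    ∀ b, (P ^ j).coeff b ∈ polyOver B V := by
  induction j with
  | zero =>
    intro b
    rw [pow_zero, Polynomial.coeff_one]
    split_ifs
    · exact Subring.one_mem _
    · exact Subring.zero_mem _
  | succ j ih =>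
    intro b
    rw [pow_succ]
    exact coeff_mul_mem_polyOver B ih hP b

theorem divω_mem_polyOver (hw : ∀ γ, w γ ∈ A.nonunits) (a : ℕ) :
    X.divω n k w a ∈ polyOver A.toSubring (Fin (k * n + n + n + 1)) := by
  unfold divω
  apply coeff_mul_mem_polyOver
  · exact pow_coeff_mem_polyOver A.toSubring (fun b => X.coeff_Dgen_mem_polyOver _ n _ b) k
  · intro b
    unfold divPw
    rw [Polynomial.coeff_map]
    exact C_mem_polyOver ((X.isDist_Dy n hw).coeff_mem b)

/-! ### linear coefficients of `ω` -/

theorem linP_divD (hn : 2 * X.g ≤ n) (i' : Fin (k * n + n + n + 1)) :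
    linP i' (X.divD n k) = if i' ∈ X.nongaps (k * n + n + n) then 0 else
      Polynomial.X ^ (n - (i' : ℕ)) := by
  ext b
  rw [coeff_linP, divD, X.coeff_Dgen, lin_add, lin_sum]
  have h1 : lin i' (if b = n then (1 : MvPolynomial (Fin (k * n + n + n + 1)) Ω) else 0) = 0 := by
    split_ifs
    · exact lin_one _
    · exact lin_zero _
  rw [h1, zero_add]
  by_cases hi' : i' ∈ X.nongaps (k * n + n + n)
  · rw [if_pos hi', Polynomial.coeff_zero]
    refine Finset.sum_eq_zero fun γ _ => ?_
    by_cases hγ : γ ∈ X.nongaps n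
    · rw [if_pos hγ, lin_zero]
    · rw [if_neg hγ]
      split_ifs
      · rw [lin_X, if_neg]
        intro h3
        apply hγ
        rw [X.mem_nongaps] at hi' ⊢
        rw [← h3] at hi'
        exact hi'
      · exact lin_zero _
  · rw [if_neg hi', Polynomial.coeff_X_pow]
    have hlt : (i' : ℕ) < 2 * X.g := X.lt_of_not_isNongapb (fun h => hi' (X.mem_nongaps.mpr h))
    let γ₀ : Fin (n + 1) := ⟨(i' : ℕ), by omega⟩
    have hγ₀ : gpos (k * n + n) n γ₀ = i' := Fin.ext rfl
    have hγ₀gap : γ₀ ∉ X.nongaps n := by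
      intro h
      apply hi'
      rw [X.mem_nongaps] at h ⊢
      exact h
    rw [Finset.sum_eq_single γ₀]
    · rw [if_neg hγ₀gap, hγ₀]
      by_cases hb : b = n - (i' : ℕ)
      · rw [if_pos hb, if_pos hb, lin_X, if_pos rfl]
      · rw [if_neg hb, if_neg hb, lin_zero]
    · intro γ _ hne
      by_cases hγ : γ ∈ X.nongaps n
      · rw [if_pos hγ, lin_zero]
      · rw [if_neg hγ]
        split_ifs
        · rw [lin_X, if_neg]
          intro h3
          apply hne
          apply Fin.ext
          have := congrArg Fin.val h3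
          simpa using this
        · exact lin_zero _
    · intro h
      exact absurd (Finset.mem_univ _) h

/-- the polynomial of the linear coefficients of `W` with respect to the unknown `i'`. -/
theorem linP_divW (i' : Fin (k * n + n + n + 1)) :
    linP i' (X.divD n k ^ k * X.divPw n k w) = linP i' (X.divD n k ^ k) * X.Dy n w := by
  rw [linP_mul, divPw, linP_map_C, ccP_map_C, mul_zero, add_zero]

theorem lin_divω (i' : Fin (k * n + n + n + 1)) (a : ℕ) :
    lin i' (X.divω n k w a) = (linP i' (X.divD n k ^ k) * X.Dy n w).coeff a := by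
  rw [← X.linP_divW n k, coeff_linP]
  rfl

/-- the correction term of the Jacobian. -/
def divE (i i' : Fin (k * n + n + n + 1)) : Ω :=
  zc (fun a => lin i' (X.divω n k w a)) (((k * n + n : ℕ) : ℤ) - i)

theorem divE_of_nongap (i : Fin (k * n + n + n + 1)) {i' : Fin (k * n + n + n + 1)}
    (hn : 2 * X.g ≤ n) (hi' : i' ∈ X.nongaps (k * n + n + n)) : X.divE n k (w := w) i i' = 0 := by
  unfold divE zc
  split_ifs
  · show lin i' (X.divω n k w _) = 0
    rw [X.lin_divω]
    cases k with
    | zero => rw [pow_zero, linP_one, zero_mul, Polynomial.coeff_zero]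
    | succ j =>
      rw [linP_pow_succ, X.linP_divD n (j + 1) hn, if_pos hi', mul_zero, smul_zero, zero_mul,
        Polynomial.coeff_zero]
  · rfl

/-- closed form of the correction term at a gap column. -/
theorem divE_of_gap (hn : 2 * X.g ≤ n) (i : Fin (k * n + n + n + 1))
    {i' : Fin (k * n + n + n + 1)} (hi' : i' ∉ X.nongaps (k * n + n + n)) :
    X.divE n k (w := w) i i' =
      if (i : ℕ) ≤ n + (i' : ℕ) then (k : Ω) * (X.Dy n w).coeff (n + (i' : ℕ) - (i : ℕ)) else 0 := by
  have hlt : (i' : ℕ) < 2 * X.g := X.lt_of_not_isNongapb (fun h => hi' (X.mem_nongaps.mpr h))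
  cases k with
  | zero =>
    have h0 : ∀ a, lin i' (X.divω n 0 w a) = 0 := by
      intro a
      rw [X.lin_divω, pow_zero, linP_one, zero_mul, Polynomial.coeff_zero]
    unfold divE zc
    simp only [h0, ite_self, Nat.cast_zero, zero_mul]
  | succ j =>
    have hlin : ∀ a, lin i' (X.divω n (j + 1) w a) =
        ((j + 1 : ℕ) : Ω) * (if n * j + (n - (i' : ℕ)) ≤ a then
          (X.Dy n w).coeff (a - (n * j + (n - (i' : ℕ)))) else 0) := by
      intro a
      rw [X.lin_divω, linP_pow_succ, X.linP_divD n (j + 1) hn, if_neg hi', X.ccP_divD, ← pow_mul,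
        ← pow_add, smul_mul_assoc, Polynomial.coeff_smul, nsmul_eq_mul,
        Polynomial.coeff_X_pow_mul']
    unfold divE zc
    by_cases h0 : (0 : ℤ) ≤ (((j + 1) * n + n : ℕ) : ℤ) - (i : ℕ)
    · rw [if_pos h0]
      show lin i' (X.divω n (j + 1) w _) = _
      rw [hlin]
      have ha : ((((j + 1) * n + n : ℕ) : ℤ) - (i : ℕ)).toNat = (j + 1) * n + n - (i : ℕ) := by
        omega
      rw [ha]
      by_cases h1 : (i : ℕ) ≤ n + (i' : ℕ)
      · rw [if_pos h1, if_pos]
        · congr 2
          have : (j + 1) * n = n * j + n := by ring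
          omega
        · have : (j + 1) * n = n * j + n := by ring
          omega
      · rw [if_neg h1, if_neg, mul_zero]
        have : (j + 1) * n = n * j + n := by ring
        omega
    · rw [if_neg h0, if_neg]
      push_cast at h0
      have : ((i : ℕ) : ℤ) ≤ (n : ℤ) + (i' : ℕ) → False := by
        intro h
        apply h0
        have h2 : ((i' : ℕ) : ℤ) ≤ (n : ℤ) := by exact_mod_cast (by omega : (i' : ℕ) ≤ n)
        have h3 : (n : ℤ) ≤ ((j : ℤ) + 1) * n := by
          have : (0 : ℤ) ≤ (j : ℤ) * n := by positivity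
          linarith
        linarith
      intro h
      exact this (by exact_mod_cast h)

variable (hw : ∀ γ, w γ ∈ A.nonunits)

include hw in
theorem divE_self (hn : 2 * X.g ≤ n) {i' : Fin (k * n + n + n + 1)}
    (hi' : i' ∉ X.nongaps (k * n + n + n)) : X.divE n k (w := w) i' i' = (k : Ω) := by
  rw [X.divE_of_gap n k hn i' hi', if_pos (by omega)]
  have : n + (i' : ℕ) - (i' : ℕ) = n := by omega
  rw [this]
  have h1 := (X.monic_Dy n w).coeff_natDegree
  rw [X.natDegree_Dy] at h1
  rw [h1, mul_one]

include hw in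
theorem divE_mem_nonunits (hn : 2 * X.g ≤ n) {i i' : Fin (k * n + n + n + 1)} (hii : i ≠ i') :
    X.divE n k (w := w) i i' ∈ A.nonunits := by
  by_cases hi' : i' ∈ X.nongaps (k * n + n + n)
  · rw [X.divE_of_nongap n k i hn hi']
    exact zero_mem_nonunits
  · rw [X.divE_of_gap n k hn i hi']
    split_ifs with h1
    · have hne : n + (i' : ℕ) - (i : ℕ) ≠ n := by
        intro h
        apply hii
        apply Fin.ext
        omega
      have hkA : (k : Ω) ∈ A := natCast_mem A k
      apply mul_mem_nonunits_right hkA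
      rcases lt_or_gt_of_ne hne with h | h
      · apply (X.isDist_Dy n hw).2
        rw [X.natDegree_Dy]
        exact h
      · rw [Polynomial.coeff_eq_zero_of_natDegree_lt (by rw [X.natDegree_Dy]; exact h)]
        exact zero_mem_nonunits
    · exact zero_mem_nonunits

include hw in
theorem divE_mem (hn : 2 * X.g ≤ n) (i i' : Fin (k * n + n + n + 1)) :
    X.divE n k (w := w) i i' ∈ A := by
  by_cases hii : i = i'
  · by_cases hi' : i' ∈ X.nongaps (k * n + n + n)
    · rw [X.divE_of_nongap n k i hn hi']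
      exact A.zero_mem
    · rw [hii, X.divE_self n k hw hn hi']
      exact natCast_mem A k
  · exact ValuationSubring.nonunits_le (X.divE_mem_nonunits n k hw hn hii)

/-! ### the Jacobian of the division system -/

variable {n k}
variable {hN : 2 * (X.g : ℤ) - 1 ≤ (k * n + n + n : ℕ)} (NP : X.NormPoly hN)

omit hw in
/-- the `SysHyp` of the constant part. -/
theorem divHyp (hw : ∀ γ, w γ ∈ A.nonunits) : SysHyp A (id : Fin (k * n + n + n + 1) → Fin (k * n + n + n + 1))
    (ωc (k * n + n) n (X.divW₀ n k w)) :=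
  sysHyp_const (X.isDist_divW₀ n k hw) (X.natDegree_divW₀ n k)

omit hw in
theorem constantCoeff_divω_eq :
    (fun a => MvPolynomial.constantCoeff (X.divω n k w a))
      = fun a => MvPolynomial.constantCoeff (ωc (k * n + n) n (X.divW₀ n k w) a) := by
  funext a
  rw [X.constantCoeff_divω]
  show _ = MvPolynomial.constantCoeff (MvPolynomial.C ((X.divW₀ n k w).coeff a))
  rw [MvPolynomial.constantCoeff_C]

omit hw in
/-- **the Jacobian of the division system** = Jacobian of the constant system − correction. -/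
theorem lin_sysG_div (hw : ∀ γ, w γ ∈ A.nonunits) (hn : 2 * X.g ≤ n) (i i' : Fin (k * n + n + n + 1)) (hi : i ≠ 0) :
    lin i' (X.sysG NP id (X.divω n k w) i)
      = ((X.jacA NP (X.divHyp hw) i i' : ↥A) : Ω) - X.divE n k (w := w) i i' := by
  have h0 := X.coe_jacA NP (X.divHyp (n := n) (k := k) hw) hn i i'
  rw [h0]
  show lin i' (X.sysG NP id (X.divω n k w) i)
    = lin i' (X.sysG NP id (ωc (k * n + n) n (X.divW₀ n k w)) i) - X.divE n k (w := w) i i'
  rw [X.lin_sysG NP id _ i' i hi, X.lin_sysG NP id _ i' i hi, X.lin_wd, X.lin_wd,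
    X.constantCoeff_divω_eq]
  have h1 : zc (fun a => lin i' (ωc (k * n + n) n (X.divW₀ n k w) a))
      (((k * n + n : ℕ) : ℤ) - i) = 0 := by
    unfold zc
    split_ifs
    · exact lin_C _ _
    · rfl
  rw [h1]
  unfold divE
  ring

omit hw in
/-- the Jacobian matrix of the division system at the origin, over `A`. -/
def divJacA (hw : ∀ γ, w γ ∈ A.nonunits) (hn : 2 * X.g ≤ n) :
    Matrix (Fin (k * n + n + n + 1)) (Fin (k * n + n + n + 1)) ↥A := fun i i' =>
  if i = 0 then (if i' = 0 then 1 else 0) else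
    X.jacA NP (X.divHyp hw) i i' - ⟨X.divE n k (w := w) i i', X.divE_mem n k hw hn i i'⟩

omit hw in
theorem coe_divJacA (hw : ∀ γ, w γ ∈ A.nonunits) (hn : 2 * X.g ≤ n)
    (i i' : Fin (k * n + n + n + 1)) :
    ((X.divJacA NP hw hn i i' : ↥A) : Ω) = lin i' (X.sysG NP id (X.divω n k w) i) := by
  unfold divJacA
  by_cases hi : i = 0
  · rw [if_pos hi, hi, X.lin_sysG_zero]
    by_cases hi' : i' = 0
    · rw [if_pos hi', if_pos (by rw [hi']; rfl)]
      rfl
    · rw [if_neg hi', if_neg]
      · rfl
      · intro h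
        exact hi' h.symm
  · rw [if_neg hi, X.lin_sysG_div NP hw hn i i' hi]
    rfl

omit hw in
theorem residue_divE_of_ne (hw : ∀ γ, w γ ∈ A.nonunits) (hn : 2 * X.g ≤ n)
    {i i' : Fin (k * n + n + n + 1)} (hii : i ≠ i') :
    residue ↥A ⟨X.divE n k (w := w) i i', X.divE_mem n k hw hn i i'⟩ = 0 := by
  rw [residue_eq_zero_iff, ← ValuationSubring.coe_mem_nonunits_iff]
  exact X.divE_mem_nonunits n k hw hn hii

omit hw in
/-- **the Jacobian of the division system is invertible over `A`** when `k + 1` is a unit. -/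
theorem isUnit_det_divJacA (hw : ∀ γ, w γ ∈ A.nonunits) (hn : 2 * X.g ≤ n)
    (hk : A.valuation (((k + 1 : ℕ) : ℕ) : Ω) = 1) : IsUnit (X.divJacA NP hw hn).det := by
  have hkres : residue ↥A ⟨((k + 1 : ℕ) : Ω), natCast_mem A (k + 1)⟩ ≠ 0 := by
    rw [Ne, residue_eq_zero_iff, ← ValuationSubring.coe_mem_nonunits_iff,
      ValuationSubring.mem_nonunits_iff, hk]
    exact lt_irrefl _
  apply isUnit_det_of_residue_upperTriangular
  · intro i j hji
    have hi : i ≠ 0 := by
      intro h
      rw [h] at hji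
      exact absurd hji (Fin.not_lt_zero j)
    unfold divJacA
    rw [if_neg hi, map_sub, X.residue_divE_of_ne hw hn (ne_of_gt hji), sub_zero,
      X.residue_jacA NP (X.divHyp hw) i j hi]
    have h2 : (if j ∈ X.nongaps (k * n + n + n) then (0 : ResidueField ↥A)
        else if i = j then 1 else 0) = 0 := by
      split_ifs with h3 h4
      · rfl
      · exact absurd h4 (ne_of_gt hji)
      · rfl
    rw [h2, sub_zero]
    by_cases h' : j ∈ X.nongaps (k * n + n + n) ∧ j ≠ 0
    · rw [dif_pos h']
      exact X.ppb_canonb_of_lt hN ⟨j, h'.1⟩ i hji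
    · rw [dif_neg h']
  · intro i
    unfold divJacA
    by_cases hi : i = 0
    · rw [if_pos hi, if_pos hi, map_one]
      exact one_ne_zero
    · rw [if_neg hi, map_sub, X.residue_jacA NP (X.divHyp hw) i i hi]
      by_cases h' : i ∈ X.nongaps (k * n + n + n)
      · rw [dif_pos ⟨h', hi⟩, if_pos h', sub_zero]
        have h1 := X.ppb_canonb hN ⟨i, h'⟩ ⟨i, h'⟩
        rw [if_pos rfl] at h1
        rw [h1]
        have h2 : (⟨X.divE n k (w := w) i i, X.divE_mem n k hw hn i i⟩ : ↥A) = 0 := by
          apply Subtype.ext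
          exact X.divE_of_nongap n k i hn h'
        rw [h2, map_zero, sub_zero]
        exact one_ne_zero
      · rw [dif_neg (fun h => h' h.1), if_neg h', if_pos rfl, zero_sub]
        have h2 : (⟨X.divE n k (w := w) i i, X.divE_mem n k hw hn i i⟩ : ↥A)
            = ⟨((k : ℕ) : Ω), natCast_mem A k⟩ := by
          apply Subtype.ext
          exact X.divE_self n k hw hn h'
        rw [h2]
        intro h3
        apply hkres
        have h4 : (⟨((k + 1 : ℕ) : Ω), natCast_mem A (k + 1)⟩ : ↥A)
            = ⟨((k : ℕ) : Ω), natCast_mem A k⟩ + 1 := by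
          apply Subtype.ext
          push_cast
          rfl
        rw [h4, map_add, map_one]
        have h5 : residue ↥A ⟨((k : ℕ) : Ω), natCast_mem A k⟩ = -1 := by
          have := h3
          rw [sub_eq_zero] at this
          exact this.symm
        rw [h5, neg_add_cancel]

end GoodRed

end Fermat.Agent.FG

end
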