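/-
MW (S17) — helper2 — [DIV] (D1), part 3: **the kernel of reduction is `m`-divisible** for every
`m` which is a unit of the valuation ring (Hensel on the division system of `DIV_helper2_Sys`).

Final literal: `Fermat.Agent.MW.kerRed_divisible`.
-/
import Mathlib
import Fermat.Agent.MW.DIV_helper2_Sys

set_option autoImplicit false
set_option linter.unusedSectionVars false
set_option linter.style.haveILetI false

noncomputable section

namespace Fermat.Agent.FG

open AlgebraicCurve IsLocalRing IntermediateField Fermat.Agent.FF Fermat.Agent.JA Fermat.Agent.MW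
open scoped Classical

namespace GoodRed

variable {Ω : Type*} [Field Ω] {A : ValuationSubring Ω} {𝔽 : Type*} [Field 𝔽] [Algebra Ω 𝔽]
  {𝔽b : Type*} [Field 𝔽b] [Algebra (ResidueField ↥A) 𝔽b] (X : GoodRed Ω A 𝔽 𝔽b)

/-! ### multiples of divisors in the disc -/

theorem inDisc_nsmul {E : Divisor Ω 𝔽} (h : X.InDisc E) (j : ℕ) : X.InDisc (j • E) := by
  induction j with
  | zero => rw [zero_smul]; exact X.inDisc_zero
  | succ j ih => rw [succ_nsmul]; exact InDisc.add X ih h

theorem polyOf_nsmul {E : Divisor Ω 𝔽} (h : X.InDisc E) (j : ℕ) :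
    X.polyOf (j • E) = X.polyOf E ^ j := by
  induction j with
  | zero => rw [zero_smul, pow_zero, X.polyOf_zero]
  | succ j ih => rw [succ_nsmul, X.polyOf_add (X.inDisc_nsmul h j) h, ih, pow_succ]

variable {n k : ℕ} {w : Fin (n + 1) → Ω}
variable {hN : 2 * (X.g : ℤ) - 1 ≤ (k * n + n + n : ℕ)} (NP : X.NormPoly hN)

/-! ### the division system over `A` -/

theorem exists_liftG_div (hw : ∀ γ, w γ ∈ A.nonunits) :
    ∃ GA : Fin (k * n + n + n + 1) → MvPolynomial (Fin (k * n + n + n + 1)) ↥A,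
      ∀ i, MvPolynomial.map A.subtype (GA i) = X.sysG NP id (X.divω n k w) i := by
  have h : ∀ i, X.sysG NP id (X.divω n k w) i
      ∈ polyOver A.toSubring (Fin (k * n + n + n + 1)) :=
    fun i => X.sysG_mem_polyOver NP id (X.divω n k w) A.toSubring (X.M_mem_polyOver NP)
      (X.divω_mem_polyOver n k hw) i
  choose GA hGA using h
  exact ⟨GA, hGA⟩

theorem jac_liftG_div (hw : ∀ γ, w γ ∈ A.nonunits) (hn : 2 * X.g ≤ n)
    (GA : Fin (k * n + n + n + 1) → MvPolynomial (Fin (k * n + n + n + 1)) ↥A)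
    (hGA : ∀ i, MvPolynomial.map A.subtype (GA i) = X.sysG NP id (X.divω n k w) i) :
    (Matrix.of fun i j => MvPolynomial.constantCoeff (MvPolynomial.pderiv j (GA i)))
      = X.divJacA NP hw hn := by
  ext i j
  rw [Matrix.of_apply, subtype_lin, hGA, X.coe_divJacA NP hw hn]

theorem constantCoeff_liftG_div (hw : ∀ γ, w γ ∈ A.nonunits)
    (GA : Fin (k * n + n + n + 1) → MvPolynomial (Fin (k * n + n + n + 1)) ↥A)
    (hGA : ∀ i, MvPolynomial.map A.subtype (GA i) = X.sysG NP id (X.divω n k w) i)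
    (i : Fin (k * n + n + n + 1)) : MvPolynomial.constantCoeff (GA i) ∈ maximalIdeal ↥A := by
  rw [← ValuationSubring.coe_mem_nonunits_iff]
  have h1 : ((MvPolynomial.constantCoeff (GA i) : ↥A) : Ω)
      = MvPolynomial.constantCoeff (X.sysG NP id (X.divω n k w) i) := by
    rw [← hGA, MvPolynomial.constantCoeff_map]
    rfl
  rw [h1]
  by_cases hi : i = 0
  · rw [hi, X.constantCoeff_sysG_zero]
    exact zero_mem_nonunits
  · rw [X.constantCoeff_sysG NP id _ i hi]
    apply neg_mem_nonunits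
    have hi0 : 0 < (i : ℕ) := Nat.pos_of_ne_zero fun h => hi (Fin.ext h)
    unfold zc
    split_ifs with h0
    · show MvPolynomial.constantCoeff (X.divω n k w _) ∈ A.nonunits
      rw [X.constantCoeff_divω]
      apply (X.isDist_divW₀ n k hw).2
      rw [X.natDegree_divW₀]
      omega
    · exact zero_mem_nonunits

include NP in
/-- **division in the disc**: for `w ∈ 𝔪` there is `y' ∈ 𝔪` (zero at the nongaps) with
`(k+1)·E_{y'} + E_w ~ (k n + n + n)·∞`, as soon as `k + 1` is a unit of `A`. -/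
theorem exists_div_sol [IsAlgClosed Ω] [CharZero Ω] (hens : IsMvHenselian A)
    (hn : 2 * X.g ≤ n) (hw : ∀ γ, w γ ∈ A.nonunits)
    (hk : A.valuation (((k + 1 : ℕ) : ℕ) : Ω) = 1) :
    ∃ y' : Fin (n + 1) → Ω, (∀ γ, y' γ ∈ A.nonunits) ∧ (∀ γ ∈ X.nongaps n, y' γ = 0) ∧
      Divisor.IsPrincipal ((k + 1) • X.Edy n y' + X.Edy n w
        - Finsupp.single X.cusp ((k * n + n + n : ℕ) : ℤ)) := by
  obtain ⟨GA, hGA⟩ := X.exists_liftG_div NP hw
  obtain ⟨x, hx, hxG⟩ := hens (k * n + n + n + 1) GA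
    (X.constantCoeff_liftG_div NP hw GA hGA) (by
      rw [X.jac_liftG_div NP hw hn GA hGA]
      exact X.isUnit_det_divJacA NP hw hn hk)
  set v : Fin (k * n + n + n + 1) → Ω := fun i => (x i : Ω) with hv
  have hvm : ∀ i, v i ∈ A.nonunits := fun i => ValuationSubring.coe_mem_nonunits_iff.mpr (hx i)
  have heval : ∀ i, MvPolynomial.eval v (X.sysG NP id (X.divω n k w) i) = 0 := by
    intro i
    rw [← hGA, ← subtype_eval, hxG]
    rfl
  set Dv : Polynomial Ω := X.Dy n (fun γ => v (gpos (k * n + n) n γ)) with hDv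
  set W : Polynomial Ω := Dv ^ k * X.Dy n w with hWdef
  have hWcoeff : ∀ a, W.coeff a = MvPolynomial.eval v (X.divω n k w a) := by
    intro a
    have hcomp : (MvPolynomial.eval v).comp
        (MvPolynomial.C : Ω →+* MvPolynomial (Fin (k * n + n + n + 1)) Ω) = RingHom.id Ω := by
      ext b
      simp
    unfold divω
    rw [← Polynomial.coeff_map, Polynomial.map_mul, Polynomial.map_pow, divD, X.map_eval_Dgen,
      divPw, Polynomial.map_map, hcomp, Polynomial.map_id]
  have hDvm : Dv.Monic := X.monic_Dy n _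
  have hWm : W.Monic := (hDvm.pow k).mul (X.monic_Dy n w)
  have hWd : W.natDegree = k * n + n := by
    rw [hWdef, (hDvm.pow k).natDegree_mul (X.monic_Dy n w), hDvm.natDegree_pow, hDv,
      X.natDegree_Dy, X.natDegree_Dy]
  have hpoly := X.polyOf_eq_of_eval_sysG NP id (X.divω n k w) v W hWcoeff hvm hWm hWd
    (fun i _ => heval i)
  -- the normal form of the quotient
  let y' : Fin (n + 1) → Ω := fun γ => if γ ∈ X.nongaps n then 0 else v (gpos (k * n + n) n γ)
  have hy' : ∀ γ, y' γ ∈ A.nonunits := by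
    intro γ
    show (if γ ∈ X.nongaps n then 0 else v (gpos (k * n + n) n γ)) ∈ A.nonunits
    split_ifs
    · exact zero_mem_nonunits
    · exact hvm _
  have hy'0 : ∀ γ ∈ X.nongaps n, y' γ = 0 := fun γ hγ => if_pos hγ
  have hDy : X.Dy n y' = Dv := X.Dy_congr n fun γ hγ => if_neg hγ
  refine ⟨y', hy', hy'0, ?_⟩
  have hE' := X.inDisc_Edy (𝔽 := 𝔽) n hy'
  have hEw := X.inDisc_Edy (𝔽 := 𝔽) n hw
  have hsum : X.InDisc ((k + 1) • X.Edy n y' + X.Edy n w) :=
    InDisc.add X (X.inDisc_nsmul hE' (k + 1)) hEw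
  have hpoly' : X.polyOf (X.Ediv hN v) = W * Dv := hpoly
  have hEc : X.Ediv hN v = (k + 1) • X.Edy n y' + X.Edy n w := by
    apply X.eq_of_polyOf_eq (X.inDisc_Ediv hN hvm) hsum
    rw [hpoly', X.polyOf_add (X.inDisc_nsmul hE' (k + 1)) hEw, X.polyOf_nsmul hE',
      X.polyOf_Edy n hy', X.polyOf_Edy n hw, hDy, hWdef]
    ring
  have hk0 : X.kfun hN v ≠ 0 := X.kfun_ne_zero hN hvm
  refine ⟨X.kfun hN v, hk0, fun P => ?_⟩
  rw [← hEc, Ediv, add_sub_cancel_right, X.divOf_apply hk0]

/-! ### divisibility of the kernel of reduction -/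

/-- the kernel of reduction is `(k+1)`-divisible when `k + 1` is a unit of `A`. -/
theorem kerRed_divisible_succ [IsAlgClosed Ω] [CharZero Ω] [IsAlgClosed (ResidueField ↥A)]
    (hens : IsMvHenselian A) (k : ℕ) (hk : A.valuation (((k + 1 : ℕ) : ℕ) : Ω) = 1)
    (z : Pic0 Ω 𝔽) (hz : z ∈ X.kerRed) : ∃ z' ∈ X.kerRed, (k + 1) • z' = z := by
  have hN : 2 * (X.g : ℤ) - 1 ≤ (k * X.chartN + X.chartN + X.chartN : ℕ) := by
    unfold chartN
    push_cast
    nlinarith [Nat.zero_le k, Nat.zero_le X.g,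
      mul_nonneg (Nat.cast_nonneg (α := ℤ) k) (Nat.cast_nonneg (α := ℤ) X.g)]
  obtain ⟨w, hwNF, -⟩ := X.existsUnique_isNF hens X.chartN_le (X.normPolyData X.chartN_two)
    (X.kerRed.neg_mem hz)
  obtain ⟨hw, -, hdegw, hclsw⟩ := hwNF
  obtain ⟨y', hy', -, hprin⟩ := X.exists_div_sol (X.normPolyData hN) hens X.chartN_le hw hk
  have hdeg' : Divisor.degree (X.Edy X.chartN y') = X.chartN := X.degree_Edy X.chartN hy'
  refine ⟨X.clsOf X.chartN (X.Edy X.chartN y') hdeg',
    X.clsOf_mem_kerRed X.chartN (X.inDisc_Edy X.chartN hy') hdeg', ?_⟩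
  have hsum : (k + 1) • X.clsOf X.chartN (X.Edy X.chartN y') hdeg' + (-z) = 0 := by
    rw [← hclsw, clsOf, clsOf]
    show Pic0.mk ((k + 1) • X.degZeroOf X.chartN (X.Edy X.chartN y') hdeg'
      + X.degZeroOf X.chartN (X.Edy X.chartN w) hdegw) = 0
    rw [mk_eq_zero_iff_isPrincipal]
    have e : (((k + 1) • X.degZeroOf X.chartN (X.Edy X.chartN y') hdeg'
        + X.degZeroOf X.chartN (X.Edy X.chartN w) hdegw : Divisor.degZero (K := Ω) (F := 𝔽)) :
        Divisor Ω 𝔽) = (k + 1) • X.Edy X.chartN y' + X.Edy X.chartN w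
          - Finsupp.single X.cusp ((k * X.chartN + X.chartN + X.chartN : ℕ) : ℤ) := by
      rw [AddSubgroup.coe_add, AddSubgroup.coe_nsmul, coe_degZeroOf, coe_degZeroOf, smul_sub,
        Finsupp.smul_single]
      have h2 : ((k * X.chartN + X.chartN + X.chartN : ℕ) : ℤ)
          = (k + 1) • (X.chartN : ℤ) + (X.chartN : ℤ) := by
        rw [nsmul_eq_mul]
        push_cast
        ring
      rw [h2, Finsupp.single_add]
      abel
    rw [e]
    exact hprin
  have := eq_neg_of_add_eq_zero_left hsum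
  rw [neg_neg] at this
  exact this

end GoodRed

end Fermat.Agent.FG

namespace Fermat.Agent.MW

open AlgebraicCurve

/-- **[DIV] (D1): the kernel of reduction of a good-reduction datum over a multivariable
Henselian valuation ring is `m`-divisible for every `m` which is a unit of the valuation ring.** -/
theorem kerRed_divisible {Ω : Type*} [Field Ω] [IsAlgClosed Ω] [CharZero Ω]
    {A : ValuationSubring Ω} [IsAlgClosed (IsLocalRing.ResidueField ↥A)]
    {𝔽 : Type*} [Field 𝔽] [Algebra Ω 𝔽]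
    {𝔽b : Type*} [Field 𝔽b] [Algebra (IsLocalRing.ResidueField ↥A) 𝔽b]
    (X : FG.GoodRed Ω A 𝔽 𝔽b) (hens : FG.IsMvHenselian A) (m : ℕ)
    (hm : A.valuation ((m : ℕ) : Ω) = 1) :
    ∀ z ∈ X.kerRed, ∃ z' ∈ X.kerRed, m • z' = z := by
  intro z hz
  rcases m with _ | k
  · exfalso
    rw [Nat.cast_zero, map_zero] at hm
    exact zero_ne_one hm
  · exact X.kerRed_divisible_succ hens k hm z hz

end Fermat.Agent.MW

end
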