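/-
MW / [ARCH] (helper9): factorisation of a meromorphic function on a closed disc and the formula for
the logarithm of the norm of its trailing coefficients (Mathlib only).
-/
import Mathlib

set_option autoImplicit false

namespace Fermat.Agent.MW

open Metric Filter Topology MeromorphicOn

/-- **Factorisation on a closed disc.** A function meromorphic near the closed disc `closedBall c R`,
nowhere locally zero, has finitely many zeros and poles there, and after dividing them out one is
left with an analytic function `G` without zeros on the disc; the log-norm of the trailing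
coefficient of `F` at EVERY point `z` of the disc (the value of `F` if `F` has order `0` at `z`) is
`log ‖G z‖ + ∑ ord_u F · log ‖z - u‖` (the term `u = z` vanishes since `Real.log 0 = 0`). -/
theorem exists_disc_factorisation {F : ℂ → ℂ} {c : ℂ} {R : ℝ} (hR : 0 < R)
    (hF : MeromorphicOn F (closedBall c R))
    (h2 : ∀ u ∈ closedBall c R, meromorphicOrderAt F u ≠ ⊤) :
    ∃ G : ℂ → ℂ, AnalyticOnNhd ℂ G (closedBall c R) ∧ (∀ z ∈ closedBall c R, G z ≠ 0) ∧
      ∃ Z : Finset ℂ, (∀ u ∈ Z, u ∈ closedBall c R) ∧
        (∀ u ∈ closedBall c R, u ∈ Z ↔ meromorphicOrderAt F u ≠ 0) ∧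
        ∀ z ∈ closedBall c R, Real.log ‖meromorphicTrailingCoeffAt F z‖ =
          Real.log ‖G z‖ +
            ∑ u ∈ Z, (((meromorphicOrderAt F u).untop₀ : ℤ) : ℝ) * Real.log ‖z - u‖ := by
  classical
  set U : Set ℂ := closedBall c R with hU
  have hfin : (divisor F U).support.Finite :=
    (divisor F U).finiteSupport (isCompact_closedBall c R)
  obtain ⟨G, hG, hG0, hFG⟩ := hF.extract_zeros_poles (fun u => h2 u.1 u.2) hfin
  refine ⟨G, hG, fun z hz => hG0 ⟨z, hz⟩, hfin.toFinset, ?_, ?_, ?_⟩
  · intro u hu
    rw [Set.Finite.mem_toFinset] at hu
    exact (divisor F U).supportWithinDomain hu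
  · intro u hu
    rw [Set.Finite.mem_toFinset, Function.mem_support, divisor_apply hF hu]
    constructor
    · intro h h0
      apply h
      rw [h0]
      rfl
    · intro h h0
      apply h
      have := h2 u hu
      lift meromorphicOrderAt F u to ℤ using this with n hn
      simp only [WithTop.untop₀_coe] at h0
      rw [h0]
      rfl
  · intro z hz
    have hacc : AccPt z (𝓟 U) := by
      have hperf : Perfect (closedBall c R) := by
        have := (isOpen_ball (x := c) (ε := R)).preperfect.perfect_closure
        rwa [closure_ball c hR.ne'] at this
      exact hperf.acc z hz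
    have key := MeromorphicOn.log_norm_meromorphicTrailingCoeffAt_extract_zeros_poles
      (x := z) (f := F) (g := G) (D := fun u => divisor F U u) (U := U)
      (by simpa [Function.HasFiniteSupport] using hfin) hz hacc (hF z hz) (hG z hz) (hG0 ⟨z, hz⟩)
      hFG
    rw [key, add_comm]
    congr 1
    rw [finsum_eq_sum_of_support_subset (s := hfin.toFinset)]
    · apply Finset.sum_congr rfl
      intro u hu
      rw [Set.Finite.mem_toFinset] at hu
      have huU : u ∈ U := (divisor F U).supportWithinDomain hu
      rw [divisor_apply hF huU]
    · intro u hu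
      rw [Function.mem_support] at hu
      rw [Set.Finite.coe_toFinset, Function.mem_support]
      intro h0
      apply hu
      rw [h0]
      simp

end Fermat.Agent.MW
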