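/-
MW / [ARCH] (helper9), package (P1): elements of `MerH = Frac (HolH)` as honest meromorphic functions
near points of `ℍ`: order = `MerH.ordAt`, trailing coefficient `tcAt` (the value when the order is
`0`), and the factorisation of the pull-back to an affine chart disc `z ↦ τ₀ + s z`.
-/
import Mathlib
import Fermat.Agent.X0N.Mer_helper6_Elliptic
import Fermat.Agent.MW.ARCH_helper9_DiscFactor

set_option autoImplicit false

namespace Fermat.Agent.MW

open Fermat.Agent.X0N UpperHalfPlane Filter Topology Metric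

/-- A holomorphic function on `ℍ` as a function on `ℂ` (junk outside `ℍ`). -/
noncomputable def holFn (a : HolH) : ℂ → ℂ := (a : ℍ → ℂ) ∘ ofComplex

theorem holFn_coe (a : HolH) (τ : ℍ) : holFn a (τ : ℂ) = (a : ℍ → ℂ) τ := by
  simp [holFn]

theorem holFn_analyticAt (a : HolH) (τ : ℍ) : AnalyticAt ℂ (holFn a) (τ : ℂ) :=
  HolH.analyticAt a τ

theorem holFn_mul (a b : HolH) : holFn (a * b) = holFn a * holFn b := rfl

theorem holFn_add (a b : HolH) : holFn (a + b) = holFn a + holFn b := rfl

theorem holFn_sub (a b : HolH) : holFn (a - b) = holFn a - holFn b := rfl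

theorem holFn_order {a : HolH} (ha : a ≠ 0) (τ : ℍ) :
    meromorphicOrderAt (holFn a) (τ : ℂ) = ((HolH.ord τ a : ℕ) : ℤ) :=
  HolH.meromorphicOrderAt_eq_ord ha τ

theorem holFn_eventually_ne {a : HolH} (ha : a ≠ 0) (τ : ℍ) :
    ∀ᶠ u in 𝓝[≠] (τ : ℂ), holFn a u ≠ 0 := by
  have h := (holFn_analyticAt a τ).meromorphicAt
  have h2 : meromorphicOrderAt (holFn a) (τ : ℂ) ≠ ⊤ := by
    rw [holFn_order ha]
    exact WithTop.coe_ne_top
  exact (meromorphicOrderAt_ne_top_iff_eventually_ne_zero h).mp h2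

/-- The meromorphic function on `ℂ` (junk outside `ℍ`) attached to `x : MerH`. -/
noncomputable def merFn (x : MerH) : ℂ → ℂ := fun w => holFn (MerH.num x) w / holFn (MerH.den x) w

theorem merFn_meromorphicAt (x : MerH) (τ : ℍ) : MeromorphicAt (merFn x) (τ : ℂ) :=
  (holFn_analyticAt _ τ).meromorphicAt.div (holFn_analyticAt _ τ).meromorphicAt

/-- Independence of the representation as a quotient. -/
theorem merFn_eventuallyEq (a : HolH) {b : HolH} (hb : b ≠ 0) (τ : ℍ) :
    merFn (MerH.ofHol a / MerH.ofHol b) =ᶠ[𝓝[≠] (τ : ℂ)] fun u => holFn a u / holFn b u := by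
  set x := MerH.ofHol a / MerH.ofHol b with hx
  have hd := MerH.den_ne_zero x
  have h1 := MerH.eq_num_div_den x
  rw [hx, div_eq_div_iff (MerH.ofHol_ne_zero hb) (MerH.ofHol_ne_zero hd), ← map_mul, ← map_mul]
    at h1
  have h2 : a * MerH.den x = MerH.num x * b := MerH.ofHol_injective h1
  have h3 : holFn a * holFn (MerH.den x) = holFn (MerH.num x) * holFn b := by
    rw [← holFn_mul, ← holFn_mul, h2]
  filter_upwards [holFn_eventually_ne hb τ, holFn_eventually_ne hd τ] with u hu1 hu2
  have h4 := congrFun h3 u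
  simp only [Pi.mul_apply] at h4
  simp only [merFn]
  rw [div_eq_div_iff hu2 hu1]
  linear_combination -h4

theorem merFn_order {x : MerH} (hx : x ≠ 0) (τ : ℍ) :
    meromorphicOrderAt (merFn x) (τ : ℂ) = ((MerH.ordAt τ x : ℤ) : WithTop ℤ) := by
  have hn := MerH.num_ne_zero hx
  have hd := MerH.den_ne_zero x
  have h1 : merFn x = holFn (MerH.num x) * (holFn (MerH.den x))⁻¹ := by
    ext w
    simp [merFn, div_eq_mul_inv]
  rw [h1, meromorphicOrderAt_mul (holFn_analyticAt _ τ).meromorphicAt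
    (holFn_analyticAt _ τ).meromorphicAt.inv, meromorphicOrderAt_inv, holFn_order hn,
    holFn_order hd, MerH.ordAt, if_neg hx]
  rfl

theorem merFn_order_ne_top {x : MerH} (hx : x ≠ 0) (τ : ℍ) :
    meromorphicOrderAt (merFn x) (τ : ℂ) ≠ ⊤ := by
  rw [merFn_order hx]
  exact WithTop.coe_ne_top

/-- The trailing coefficient of `x` at `τ` (in the coordinate `τ`): the value of `x` at `τ` when
`x` has order `0` there. -/
noncomputable def tcAt (τ : ℍ) (x : MerH) : ℂ := meromorphicTrailingCoeffAt (merFn x) (τ : ℂ)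

theorem tcAt_div_ofHol (a : HolH) {b : HolH} (hb : b ≠ 0) (τ : ℍ) :
    tcAt τ (MerH.ofHol a / MerH.ofHol b) = HolH.lc τ a / HolH.lc τ b := by
  rw [tcAt, meromorphicTrailingCoeffAt_congr_nhdsNE (merFn_eventuallyEq a hb τ)]
  have h1 : (fun u => holFn a u / holFn b u) = holFn a * (holFn b)⁻¹ := by
    ext w
    simp [div_eq_mul_inv]
  rw [h1, (holFn_analyticAt a τ).meromorphicAt.meromorphicTrailingCoeffAt_mul
    (holFn_analyticAt b τ).meromorphicAt.inv, meromorphicTrailingCoeffAt_inv, div_eq_mul_inv]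
  rfl

theorem tcAt_ofHol (a : HolH) (τ : ℍ) : tcAt τ (MerH.ofHol a) = HolH.lc τ a := by
  have h := tcAt_div_ofHol a (one_ne_zero) τ
  rw [map_one, div_one] at h
  rw [h]
  have : HolH.lc τ 1 = 1 := by
    have h1 : holFn (1 : HolH) = fun _ => (1 : ℂ) := by
      ext w
      simp [holFn]
    show meromorphicTrailingCoeffAt (holFn 1) (τ : ℂ) = 1
    rw [h1]
    exact (analyticAt_const).meromorphicTrailingCoeffAt_of_ne_zero one_ne_zero
  rw [this, div_one]

theorem lc_const {c : ℂ} (hc : c ≠ 0) (τ : ℍ) : HolH.lc τ (HolH.const c) = c := by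
  have h1 : holFn (HolH.const c) = fun _ => c := by
    ext w
    simp [holFn, HolH.const]
  show meromorphicTrailingCoeffAt (holFn (HolH.const c)) (τ : ℂ) = c
  rw [h1]
  exact (analyticAt_const).meromorphicTrailingCoeffAt_of_ne_zero hc

theorem tcAt_const {c : ℂ} (hc : c ≠ 0) (τ : ℍ) : tcAt τ (MerH.const c) = c := by
  show tcAt τ (MerH.ofHol (HolH.const c)) = c
  rw [tcAt_ofHol, lc_const hc]

theorem tcAt_mul (x y : MerH) (τ : ℍ) : tcAt τ (x * y) = tcAt τ x * tcAt τ y := by
  obtain ⟨a, b, hb, rfl⟩ := MerH.exists_div x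
  obtain ⟨c, d, hd, rfl⟩ := MerH.exists_div y
  rw [div_mul_div_comm, ← map_mul, ← map_mul, tcAt_div_ofHol _ (mul_ne_zero hb hd),
    tcAt_div_ofHol _ hb, tcAt_div_ofHol _ hd, HolH.lc_mul, HolH.lc_mul, div_mul_div_comm]

theorem tcAt_ne_zero {x : MerH} (hx : x ≠ 0) (τ : ℍ) : tcAt τ x ≠ 0 :=
  (merFn_meromorphicAt x τ).meromorphicTrailingCoeffAt_ne_zero (merFn_order_ne_top hx τ)

theorem tcAt_one (τ : ℍ) : tcAt τ 1 = 1 := by
  have h := tcAt_const (one_ne_zero) τ
  rwa [map_one] at h

theorem tcAt_inv (x : MerH) (τ : ℍ) : tcAt τ x⁻¹ = (tcAt τ x)⁻¹ := by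
  by_cases hx : x = 0
  · subst hx
    have h0 : tcAt τ (0 : MerH) = 0 := by
      have h := tcAt_div_ofHol 0 (one_ne_zero) τ
      rw [map_zero, zero_div] at h
      rw [h]
      have : HolH.lc τ 0 = 0 := by
        show meromorphicTrailingCoeffAt (holFn 0) (τ : ℂ) = 0
        apply MeromorphicAt.meromorphicTrailingCoeffAt_of_order_eq_top
        rw [meromorphicOrderAt_eq_top_iff]
        exact Eventually.of_forall fun u => by simp [holFn]
      rw [this, zero_div]
    rw [inv_zero, h0, inv_zero]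
  · have h := tcAt_mul x x⁻¹ τ
    rw [mul_inv_cancel₀ hx, tcAt_one] at h
    exact (eq_inv_of_mul_eq_one_right h.symm)

theorem tcAt_zpow (x : MerH) (n : ℤ) (τ : ℍ) : tcAt τ (x ^ n) = (tcAt τ x) ^ n := by
  induction n using Int.induction_on with
  | zero => simp [tcAt_one]
  | succ n ih =>
    by_cases hx : x = 0
    · subst hx
      have h0 : tcAt τ (0 : MerH) = 0 := by
        have := tcAt_inv 0 τ
        rw [inv_zero] at this
        by_contra hne
        have h2 := tcAt_mul 0 0 τ
        rw [mul_zero] at h2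
        have : tcAt τ (0 : MerH) = 1 := by
          have h3 : tcAt τ (0 : MerH) * tcAt τ 0 = tcAt τ 0 * 1 := by rw [mul_one]; exact h2.symm
          exact mul_left_cancel₀ hne h3
        rw [this] at *
        -- `tcAt τ 0 = 1` contradicts `tcAt τ 0 = (tcAt τ 0)⁻¹`-free information; use the definition
        have h4 : tcAt τ (0 : MerH) = 0 := by
          have h := tcAt_div_ofHol 0 (one_ne_zero) τ
          rw [map_zero, zero_div] at h
          rw [h]
          have : HolH.lc τ 0 = 0 := by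
            show meromorphicTrailingCoeffAt (holFn 0) (τ : ℂ) = 0
            apply MeromorphicAt.meromorphicTrailingCoeffAt_of_order_eq_top
            rw [meromorphicOrderAt_eq_top_iff]
            exact Eventually.of_forall fun u => by simp [holFn]
          rw [this, zero_div]
        exact hne h4
      have hn : (n : ℤ) + 1 ≠ 0 := by omega
      rw [zero_zpow _ hn, h0, zero_zpow _ hn]
    · rw [zpow_add_one₀ hx, tcAt_mul, ih, zpow_add_one₀ (tcAt_ne_zero hx τ)]
  | pred n ih =>
    by_cases hx : x = 0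
    · subst hx
      have h0 : tcAt τ (0 : MerH) = 0 := by
        have h := tcAt_div_ofHol 0 (one_ne_zero) τ
        rw [map_zero, zero_div] at h
        rw [h]
        have : HolH.lc τ 0 = 0 := by
          show meromorphicTrailingCoeffAt (holFn 0) (τ : ℂ) = 0
          apply MeromorphicAt.meromorphicTrailingCoeffAt_of_order_eq_top
          rw [meromorphicOrderAt_eq_top_iff]
          exact Eventually.of_forall fun u => by simp [holFn]
        rw [this, zero_div]
      have hn : -(n : ℤ) - 1 ≠ 0 := by omega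
      rw [zero_zpow _ hn, h0, zero_zpow _ hn]
    · rw [zpow_sub_one₀ hx, tcAt_mul, ih, tcAt_inv, zpow_sub_one₀ (tcAt_ne_zero hx τ)]

/-- **Value lemma**: if `x - c` vanishes at `τ` (`c ≠ 0`) then `x` has order `0` and trailing
coefficient (value) `c` at `τ`. -/
theorem ordAt_eq_zero_and_tcAt_eq {x : MerH} {c : ℂ} (hc : c ≠ 0) (τ : ℍ)
    (h : x = MerH.const c ∨ 0 < MerH.ordAt τ (x - MerH.const c)) :
    MerH.ordAt τ x = 0 ∧ tcAt τ x = c := by
  rcases h with rfl | h
  · exact ⟨MerH.ordAt_const hc τ, tcAt_const hc τ⟩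
  obtain ⟨a, b, hb, rfl⟩ := MerH.exists_div x
  have hcb : HolH.const c * b ≠ 0 := by
    apply mul_ne_zero _ hb
    intro h0
    exact hc (HolH.const_injective (by rw [h0, map_zero]))
  have hy : MerH.ofHol a / MerH.ofHol b - MerH.const c =
      MerH.ofHol (a - HolH.const c * b) / MerH.ofHol b := by
    rw [map_sub, map_mul, sub_div, mul_div_assoc, div_self (MerH.ofHol_ne_zero hb), mul_one]
    rfl
  rw [hy] at h
  have hne : a - HolH.const c * b ≠ 0 := by
    intro h0
    rw [h0, map_zero, zero_div, MerH.ordAt_zero] at h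
    exact lt_irrefl _ h
  rw [MerH.ordAt_div_ofHol hne hb] at h
  -- orders of the three holomorphic functions
  have ho1 : meromorphicOrderAt (holFn (HolH.const c * b)) (τ : ℂ) <
      meromorphicOrderAt (holFn (a - HolH.const c * b)) (τ : ℂ) := by
    rw [holFn_order hcb, holFn_order hne]
    have hcb' : HolH.ord τ (HolH.const c * b) = HolH.ord τ b := by
      have hc0 : HolH.const c ≠ 0 := by
        intro h0
        exact hc (HolH.const_injective (by rw [h0, map_zero]))
      rw [HolH.ord_mul hc0 hb, HolH.ord_const hc, zero_add]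
    rw [hcb']
    have : (HolH.ord τ b : ℤ) < (HolH.ord τ (a - HolH.const c * b) : ℤ) := by linarith
    exact_mod_cast this
  have hsum : holFn a = holFn (HolH.const c * b) + holFn (a - HolH.const c * b) := by
    rw [← holFn_add]
    congr 1
    ring
  have hm1 := (holFn_analyticAt (HolH.const c * b) τ).meromorphicAt
  have hm2 := (holFn_analyticAt (a - HolH.const c * b) τ).meromorphicAt
  have hord : meromorphicOrderAt (holFn a) (τ : ℂ) =
      meromorphicOrderAt (holFn (HolH.const c * b)) (τ : ℂ) := by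
    rw [hsum]
    exact meromorphicOrderAt_add_eq_left_of_lt hm2 ho1
  have htc : HolH.lc τ a = HolH.lc τ (HolH.const c * b) := by
    show meromorphicTrailingCoeffAt (holFn a) (τ : ℂ) = _
    rw [hsum]
    exact hm2.meromorphicTrailingCoeffAt_add_eq_left_of_lt ho1
  have ha : a ≠ 0 := by
    intro h0
    rw [h0] at hord
    have h1 : meromorphicOrderAt (holFn 0) (τ : ℂ) = ⊤ := by
      rw [meromorphicOrderAt_eq_top_iff]
      exact Eventually.of_forall fun u => by simp [holFn]
    rw [h1, holFn_order hcb] at hord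
    exact WithTop.coe_ne_top hord.symm
  have hc0 : HolH.const c ≠ 0 := by
    intro h0
    exact hc (HolH.const_injective (by rw [h0, map_zero]))
  constructor
  · rw [MerH.ordAt_div_ofHol ha hb]
    rw [holFn_order ha, holFn_order hcb, HolH.ord_mul hc0 hb, HolH.ord_const hc, zero_add] at hord
    have : ((HolH.ord τ a : ℕ) : ℤ) = ((HolH.ord τ b : ℕ) : ℤ) := by exact_mod_cast hord
    omega
  · rw [tcAt_div_ofHol a hb, htc, HolH.lc_mul, lc_const hc, mul_div_assoc,
      div_self (HolH.lc_ne_zero hb τ), mul_one]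


/-! ### Affine charts -/

/-- The affine chart `z ↦ τ₀ + s z` with values in `ℍ` (junk when the image leaves `ℍ`). -/
noncomputable def affPt (τ₀ : ℂ) (s : ℝ) (z : ℂ) : ℍ := ofComplex (τ₀ + s * z)

theorem affPt_im_pos {τ₀ : ℂ} {s R : ℝ} (hs : 0 < s) (hdisc : s * R < τ₀.im) {z : ℂ}
    (hz : z ∈ closedBall (0 : ℂ) R) : 0 < (τ₀ + s * z).im := by
  rw [mem_closedBall, dist_zero_right] at hz
  have h1 : |z.im| ≤ ‖z‖ := Complex.abs_im_le_norm z
  have h2 : -R ≤ z.im := by
    have := neg_abs_le z.im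
    linarith
  simp only [Complex.add_im, Complex.mul_im, Complex.ofReal_re, Complex.ofReal_im, zero_mul,
    add_zero]
  nlinarith

theorem affPt_coe {τ₀ : ℂ} {s : ℝ} {z : ℂ} (h : 0 < (τ₀ + s * z).im) :
    (affPt τ₀ s z : ℂ) = τ₀ + s * z := by
  rw [affPt, ofComplex_apply_of_im_pos h]

/-- **Factorisation of `x ∈ MerH` on an affine chart disc** contained in `ℍ`: after dividing out
the finitely many zeros and poles one is left with an analytic function without zeros; formula for
the log-norm of the trailing coefficient (value) at EVERY point of the disc. -/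
theorem merFn_affine_factorisation {x : MerH} (hx : x ≠ 0) (τ₀ : ℂ) {s R : ℝ} (hs : 0 < s)
    (hR : 0 < R) (hdisc : s * R < τ₀.im) :
    ∃ G : ℂ → ℂ, AnalyticOnNhd ℂ G (closedBall 0 R) ∧ (∀ z ∈ closedBall (0 : ℂ) R, G z ≠ 0) ∧
      ∃ Z : Finset ℂ, (∀ u ∈ Z, u ∈ closedBall (0 : ℂ) R) ∧
        (∀ u ∈ closedBall (0 : ℂ) R, (u ∈ Z ↔ MerH.ordAt (affPt τ₀ s u) x ≠ 0)) ∧
        ∀ z ∈ closedBall (0 : ℂ) R,
          Real.log ‖tcAt (affPt τ₀ s z) x‖ + (MerH.ordAt (affPt τ₀ s z) x : ℝ) * Real.log s =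
            Real.log ‖G z‖ +
              ∑ u ∈ Z, (MerH.ordAt (affPt τ₀ s u) x : ℝ) * Real.log ‖z - u‖ := by
  set g : ℂ → ℂ := fun z => τ₀ + s * z with hg
  have hgan : ∀ z, AnalyticAt ℂ g z := fun z => by
    rw [hg]
    fun_prop
  have hgd : ∀ z, deriv g z = s := fun z => by
    rw [hg]
    have h1 : HasDerivAt (fun z : ℂ => τ₀ + (s : ℂ) * z) ((s : ℂ) * 1) z :=
      ((hasDerivAt_id z).const_mul (s : ℂ)).const_add τ₀
    rw [h1.deriv, mul_one]
  have hs0 : (s : ℂ) ≠ 0 := by exact_mod_cast hs.ne'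
  have hgz : ∀ z ∈ closedBall (0 : ℂ) R, g z = (affPt τ₀ s z : ℂ) := fun z hz =>
    (affPt_coe (affPt_im_pos hs hdisc hz)).symm
  set F : ℂ → ℂ := merFn x ∘ g with hF
  have hmer : ∀ z ∈ closedBall (0 : ℂ) R, MeromorphicAt (merFn x) (g z) := fun z hz => by
    rw [hgz z hz]
    exact merFn_meromorphicAt x _
  have hord : ∀ z ∈ closedBall (0 : ℂ) R,
      meromorphicOrderAt F z = ((MerH.ordAt (affPt τ₀ s z) x : ℤ) : WithTop ℤ) := fun z hz => by
    rw [hF, meromorphicOrderAt_comp_of_deriv_ne_zero (hgan z) (by rw [hgd]; exact hs0), hgz z hz,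
      merFn_order hx]
  have hFmer : MeromorphicOn F (closedBall 0 R) := fun z hz =>
    (hmer z hz).comp_analyticAt (hgan z)
  obtain ⟨G, hG, hG0, Z, hZ1, hZ2, hZ3⟩ := exists_disc_factorisation (c := 0) hR hFmer
    (fun u hu => by rw [hord u hu]; exact WithTop.coe_ne_top)
  refine ⟨G, hG, hG0, Z, hZ1, ?_, ?_⟩
  · intro u hu
    rw [hZ2 u hu, hord u hu]
    constructor
    · intro h h0
      apply h
      rw [h0]
      rfl
    · intro h h0
      apply h
      exact_mod_cast h0
  · intro z hz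
    have hnc : ¬ EventuallyConst g (𝓝 z) :=
      not_eventuallyConst_of_deriv_ne_zero (by rw [hgd]; exact hs0)
    have htc := (hmer z hz).meromorphicTrailingCoeffAt_comp (hgan z) hnc
    rw [meromorphicTrailingCoeffAt_sub_self (hgan z) (by rw [hgd]; exact hs0), hgd, hgz z hz,
      merFn_order hx] at htc
    have htc' : meromorphicTrailingCoeffAt F z =
        (s : ℂ) ^ (MerH.ordAt (affPt τ₀ s z) x) * tcAt (affPt τ₀ s z) x := by
      rw [hF, htc]
      simp [tcAt]
    have key := hZ3 z hz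
    rw [htc', norm_mul, norm_zpow, Complex.norm_real, Real.norm_of_nonneg hs.le,
      Real.log_mul (zpow_ne_zero _ hs.ne') (norm_ne_zero_iff.mpr (tcAt_ne_zero hx _)),
      Real.log_zpow] at key
    rw [add_comm, key]
    congr 1
    apply Finset.sum_congr rfl
    intro u hu
    rw [hord u (hZ1 u hu)]
    rfl

end Fermat.Agent.MW
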