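/-
MW / [ARCH] (helper9), package (P3a): the dictionary between the places of the function field of
`X₀(N)` over an algebraically closed `k ⊆ ℂ` which are not poles of `j`, and the `Γ₀(N)`-orbits of
points `τ ∈ ℍ` with `j(τ) ∈ k`.
-/
import Mathlib
import Fermat.Agent.X0N.S24_helper7_Generic
import Fermat.Agent.JA.ES_helper4_Value
import Fermat.Agent.MW.ARCH_helper9_MerFn

set_option autoImplicit false
set_option linter.unusedSectionVars false

open AlgebraicCurve CongruenceSubgroup MatrixGroups ModularGroup ModularCurve UpperHalfPlane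

namespace Fermat.Agent.MW

open Fermat.Agent.FF Fermat.Agent.X0N

section Dict

variable {k : Type*} [Field k] [Algebra ℚ k] [Algebra k ℂ] [IsScalarTower ℚ k ℂ]
  [CharZero k] [IsAlgClosed k] (N : ℕ) [NeZero N]

/-- The `ℤ`-valued valuation "order at `τ` of the realisation" attached to a point `τ ∈ ℍ` with
`j(τ) ∈ k`. -/
noncomputable def hOrdFn (τ : ℍ) (a : k) (ha : jFun τ = algebraMap k ℂ a) :
    OrdFn k ↥(laurentBaseChange k (modularFunctionFieldFull N)) :=
  finOrdFn N (algebraMap k ℂ)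
    (((1 : SL(2, ℤ)) : SL(2, ℤ) ⧸ Gamma0 N).out • τ) a (by rw [jFun_smul]; exact ha)
    ((1 : SL(2, ℤ)) : SL(2, ℤ) ⧸ Gamma0 N)

variable {N}

theorem hOrdFn_ord (τ : ℍ) (a : k) (ha : jFun τ = algebraMap k ℂ a)
    (x : ↥(laurentBaseChange k (modularFunctionFieldFull N))) :
    (hOrdFn N τ a ha).ord x = MerH.ordAt τ (realN (algebraMap k ℂ) N x) := by
  rw [hOrdFn, finOrdFn_ord', inv_smul_smul]

/-- The valuation at `g • τ₀` is the valuation of the conjugate indexed by the coset of `g⁻¹`. -/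
theorem finOrdFn_ord_eq_hOrdFn_ord (τ₀ : ℍ) (a : k) (ha : jFun τ₀ = algebraMap k ℂ a)
    (g : SL(2, ℤ)) (x : ↥(laurentBaseChange k (modularFunctionFieldFull N))) :
    (finOrdFn N (algebraMap k ℂ) τ₀ a ha ((g⁻¹ : SL(2, ℤ)) : SL(2, ℤ) ⧸ Gamma0 N)).ord x =
      (hOrdFn N (g • τ₀) a (by rw [jFun_smul]; exact ha)).ord x := by
  rw [hOrdFn_ord, finOrdFn_ord, conjM_mk (isModFun_realN _ N x), inv_inv, MerH.ordAt_comp]

theorem hOrdFn_ord_smul_of_mem {γ : SL(2, ℤ)} (hγ : γ ∈ Gamma0 N) (τ : ℍ) (a : k)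
    (ha : jFun τ = algebraMap k ℂ a)
    (x : ↥(laurentBaseChange k (modularFunctionFieldFull N))) :
    (hOrdFn N (γ • τ) a (by rw [jFun_smul]; exact ha)).ord x = (hOrdFn N τ a ha).ord x := by
  rw [hOrdFn_ord, hOrdFn_ord, ← MerH.ordAt_comp, comp_realN_of_mem_Gamma0 _ N hγ]

theorem hOrdFn_ord_jGen_sub (τ : ℍ) (a : k) (ha : jFun τ = algebraMap k ℂ a) :
    (hOrdFn N τ a ha).ord (jGen k N - algebraMap k _ a) =
      if algebraMap k ℂ a = 0 then 3 else if algebraMap k ℂ a = 1728 then 2 else 1 :=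
  finOrdFn_ord_jGen_sub _ a _ _

/-- The place of the function field attached to `τ`. -/
noncomputable def hPlace (τ : ℍ) (a : k) (ha : jFun τ = algebraMap k ℂ a) :
    Place k ↥(laurentBaseChange k (modularFunctionFieldFull N)) :=
  (hOrdFn N τ a ha).toPlace

theorem hPlace_congr {τ τ' : ℍ} (h : τ = τ') (a : k) (ha : jFun τ = algebraMap k ℂ a) :
    hPlace (N := N) τ a ha = hPlace τ' a (h ▸ ha) := by
  subst h
  rfl

theorem hPlace_smul_of_mem {γ : SL(2, ℤ)} (hγ : γ ∈ Gamma0 N) (τ : ℍ) (a : k)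
    (ha : jFun τ = algebraMap k ℂ a) :
    hPlace (N := N) (γ • τ) a (by rw [jFun_smul]; exact ha) = hPlace τ a ha :=
  OrdFn.toPlace_eq_of_ord_eq _ _ fun f _ => hOrdFn_ord_smul_of_mem hγ τ a ha f

theorem finOrdFn_toPlace_eq_hPlace (τ₀ : ℍ) (a : k) (ha : jFun τ₀ = algebraMap k ℂ a)
    (g : SL(2, ℤ)) :
    (finOrdFn N (algebraMap k ℂ) τ₀ a ha ((g⁻¹ : SL(2, ℤ)) : SL(2, ℤ) ⧸ Gamma0 N)).toPlace =
      hPlace (g • τ₀) a (by rw [jFun_smul]; exact ha) :=
  OrdFn.toPlace_eq_of_ord_eq _ _ fun f _ => finOrdFn_ord_eq_hOrdFn_ord τ₀ a ha g f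

theorem hPlace_ord_jGen_sub_pos (τ : ℍ) (a : k) (ha : jFun τ = algebraMap k ℂ a) :
    0 < (hPlace (N := N) τ a ha).ord (jGen k N - algebraMap k _ a) := by
  have hne : jGen k N - algebraMap k _ a ≠ 0 := (jCoordK k N).x_sub_ne_zero a
  rw [hPlace, OrdFn.toPlace_ord_pos_iff _ hne, hOrdFn_ord_jGen_sub]
  split_ifs <;> norm_num

/-- the value of `j` at the place of `τ` determines `a`. -/
theorem eq_of_hPlace_eq {τ τ' : ℍ} {a a' : k} (ha : jFun τ = algebraMap k ℂ a)
    (ha' : jFun τ' = algebraMap k ℂ a') (h : hPlace (N := N) τ a ha = hPlace τ' a' ha') :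
    a = a' := by
  by_contra hne
  have h1 := hPlace_ord_jGen_sub_pos (N := N) τ a ha
  have h2 := hPlace_ord_jGen_sub_pos (N := N) τ' a' ha'
  rw [← h] at h2
  set v := hPlace (N := N) τ a ha
  have hsub : (jGen k N - algebraMap k _ a') - (jGen k N - algebraMap k _ a) =
      algebraMap k ↥(laurentBaseChange k (modularFunctionFieldFull N)) (a - a') := by
    rw [map_sub]
    ring
  have h0 : v.ord (algebraMap k ↥(laurentBaseChange k (modularFunctionFieldFull N)) (a - a')) = 0 :=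
    PlaceAux.ord_algebraMap v _
  have hne' : algebraMap k ↥(laurentBaseChange k (modularFunctionFieldFull N)) (a - a') ≠ 0 := by
    rw [Ne, map_eq_zero_iff _ (algebraMap k _).injective, sub_eq_zero]
    exact hne
  have h3 := PlaceAux.ord_add_ge v (f := jGen k N - algebraMap k _ a')
    (g := -(jGen k N - algebraMap k _ a)) (n := 1)
    (by rw [← sub_eq_add_neg, hsub]; exact hne') (Or.inr (by omega))
    (Or.inr (by rw [PlaceAux.ord_neg]; omega))
  rw [← sub_eq_add_neg, hsub, h0] at h3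
  omega


/-! ### Cover and injectivity, from the squeeze theorems -/

theorem hX_jCoordK : Nat.card (SL(2, ℤ) ⧸ Gamma0 N) = (jCoordK k N).degree := by
  rw [jCoordK_degree, card_cosets_eq_dedekindPsi]

theorem zpow_smul_eq_of_smul_eq {s : SL(2, ℤ)} {τ : ℍ} (hs : s • τ = τ) (n : ℤ) :
    (s ^ n) • τ = τ := by
  have : s ∈ MulAction.stabilizer SL(2, ℤ) τ := hs
  exact (MulAction.stabilizer SL(2, ℤ) τ).zpow_mem this n

/-- **Unified form of the three squeeze theorems**: over every `a ∈ k` there is a reference point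
`τ₀` with `j(τ₀) = a` such that the zeros of `j - a` are the places of the conjugates at `τ₀`, and
two conjugates give the same place only if the cosets differ by an element of the stabiliser of
`τ₀`. -/
theorem exists_ref_point (a : k) :
    ∃ (τ₀ : ℍ) (hτ₀ : jFun τ₀ = algebraMap k ℂ a),
      (∀ v ∈ (jCoordK k N).zeros a,
        ∃ q, (finOrdFn N (algebraMap k ℂ) τ₀ a hτ₀ q).toPlace = v) ∧
      (∀ q q', (finOrdFn N (algebraMap k ℂ) τ₀ a hτ₀ q).toPlace =
          (finOrdFn N (algebraMap k ℂ) τ₀ a hτ₀ q').toPlace →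
        ∃ s : SL(2, ℤ), s • τ₀ = τ₀ ∧ q = s • q') := by
  have hreal : realN (algebraMap k ℂ) N (jCoordK k N).x = jM :=
    realN_jGen_algebraMap_eq_jM
  by_cases h0 : a = 0
  · subst h0
    obtain ⟨-, -, h3, h4⟩ := fin_squeeze_zero (algebraMap k ℂ) (jCoordK k N) rfl hX_jCoordK
      (fun _f _ hf => isIntegral_localSubring_of_regular' N (jCoordK k N) hreal
        (jFun_rhoH_eq_map _) (fun q => hf q))
    refine ⟨rhoH, jFun_rhoH_eq_map _, h4, fun q q' h => ?_⟩
    have hr := h3 q q' h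
    rw [MulAction.orbitRel_apply] at hr
    obtain ⟨⟨g, hg⟩, rfl⟩ := hr
    obtain ⟨n, rfl⟩ := Subgroup.mem_zpowers_iff.mp hg
    exact ⟨(S * T) ^ n, zpow_smul_eq_of_smul_eq ST_smul_rhoH n, rfl⟩
  by_cases h1 : a = 1728
  · subst h1
    obtain ⟨-, -, h3, h4⟩ := fin_squeeze_1728 (algebraMap k ℂ) (jCoordK k N) rfl hX_jCoordK
      (fun _f _ hf => isIntegral_localSubring_of_regular' N (jCoordK k N) hreal
        (jFun_I_eq_map _) (fun q => hf q))
    refine ⟨UpperHalfPlane.I, jFun_I_eq_map _, h4, fun q q' h => ?_⟩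
    have hr := h3 q q' h
    rw [MulAction.orbitRel_apply] at hr
    obtain ⟨⟨g, hg⟩, rfl⟩ := hr
    obtain ⟨n, rfl⟩ := Subgroup.mem_zpowers_iff.mp hg
    exact ⟨S ^ n, zpow_smul_eq_of_smul_eq S_smul_I n, rfl⟩
  · obtain ⟨τ₀, hτ₀⟩ := exists_jFun_eq (algebraMap k ℂ a)
    obtain ⟨-, -, h3, h4⟩ := fin_squeeze_generic (algebraMap k ℂ) (jCoordK k N) rfl hX_jCoordK a
      h0 h1 τ₀ hτ₀
      (fun _f _ hf => isIntegral_localSubring_of_regular' N (jCoordK k N) hreal hτ₀
        (fun q => hf q))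
    refine ⟨τ₀, hτ₀, h4, fun q q' h => ⟨1, one_smul _ _, ?_⟩⟩
    rw [one_smul]
    exact h3 q q' h

/-- **Cover**: every place which is not a pole of `j` is the place of a point `τ ∈ ℍ` with
`j(τ) ∈ k`. -/
theorem exists_hPlace_eq (v : Place k ↥(laurentBaseChange k (modularFunctionFieldFull N)))
    (hv : 0 ≤ v.ord (jGen k N)) :
    ∃ (τ : ℍ) (a : k) (ha : jFun τ = algebraMap k ℂ a), hPlace τ a ha = v := by
  rcases (jCoordK k N).mem_poles_or_exists_mem_zeros v with hp | ⟨a, hz⟩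
  · rw [Coord.mem_poles] at hp
    exact absurd hp (not_lt.mpr hv)
  · obtain ⟨τ₀, hτ₀, h4, -⟩ := exists_ref_point (N := N) a
    obtain ⟨q, hq⟩ := h4 v hz
    refine ⟨(q.out)⁻¹ • τ₀, a, by rw [jFun_smul]; exact hτ₀, ?_⟩
    rw [← hq, ← finOrdFn_toPlace_eq_hPlace τ₀ a hτ₀ (q.out)⁻¹]
    congr 2
    rw [inv_inv]
    exact (QuotientGroup.out_eq' q)

/-- **Injectivity**: two points with the same place are in the same `Γ₀(N)`-orbit. -/
theorem exists_smul_eq_of_hPlace_eq {τ τ' : ℍ} {a a' : k} (ha : jFun τ = algebraMap k ℂ a)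
    (ha' : jFun τ' = algebraMap k ℂ a') (h : hPlace (N := N) τ a ha = hPlace τ' a' ha') :
    ∃ γ : SL(2, ℤ), γ ∈ Gamma0 N ∧ γ • τ = τ' := by
  have haa : a = a' := eq_of_hPlace_eq ha ha' h
  subst haa
  obtain ⟨τ₀, hτ₀, -, h3⟩ := exists_ref_point (N := N) a
  obtain ⟨g, hg⟩ := exists_smul_eq_of_jFun_eq (hτ₀.trans ha.symm)
  obtain ⟨g', hg'⟩ := exists_smul_eq_of_jFun_eq (hτ₀.trans ha'.symm)
  have e1 : hPlace (N := N) τ a ha = hPlace (g • τ₀) a (by rw [jFun_smul]; exact hτ₀) :=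
    hPlace_congr hg.symm a ha
  have e2 : hPlace (N := N) τ' a ha' = hPlace (g' • τ₀) a (by rw [jFun_smul]; exact hτ₀) :=
    hPlace_congr hg'.symm a ha'
  rw [e1, e2, ← finOrdFn_toPlace_eq_hPlace τ₀ a hτ₀ g, ← finOrdFn_toPlace_eq_hPlace τ₀ a hτ₀ g'] at h
  obtain ⟨s, hs, hq⟩ := h3 _ _ h
  rw [MulAction.Quotient.smul_mk, QuotientGroup.eq, inv_inv, smul_eq_mul] at hq
  refine ⟨(g * (s * g'⁻¹))⁻¹, (Gamma0 N).inv_mem hq, ?_⟩
  have hs' : s⁻¹ • τ₀ = τ₀ := by
    conv_lhs => rw [← hs]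
    rw [inv_smul_smul]
  rw [← hg, ← hg', mul_inv_rev, mul_inv_rev, inv_inv, mul_smul, mul_smul, inv_smul_smul, hs']


/-! ### Multiplicities, orders and values -/

/-- The ramification index of `ℍ → X₀(N)` at `τ` (abstractly: the ratio between the analytic order
at `τ` and the order at the place of `τ`). -/
noncomputable def hMult (τ : ℍ) (a : k) (ha : jFun τ = algebraMap k ℂ a) : ℤ :=
  Classical.choose (hOrdFn N τ a ha).exists_ord_eq_mul

theorem hMult_pos (τ : ℍ) (a : k) (ha : jFun τ = algebraMap k ℂ a) : 0 < hMult (N := N) τ a ha :=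
  (Classical.choose_spec (hOrdFn N τ a ha).exists_ord_eq_mul).1

/-- **Order dictionary**: the analytic order at `τ` of the realisation of `f` is the ramification
index times the order of `f` at the place of `τ`. -/
theorem ordAt_realN_eq (τ : ℍ) (a : k) (ha : jFun τ = algebraMap k ℂ a)
    {f : ↥(laurentBaseChange k (modularFunctionFieldFull N))} (hf : f ≠ 0) :
    MerH.ordAt τ (realN (algebraMap k ℂ) N f) =
      hMult (N := N) τ a ha * (hPlace (N := N) τ a ha).ord f := by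
  rw [← hOrdFn_ord τ a ha]
  exact (Classical.choose_spec (hOrdFn N τ a ha).exists_ord_eq_mul).2 f hf

theorem arch_exists_ord_eq_one (v : Place k ↥(laurentBaseChange k (modularFunctionFieldFull N))) :
    ∃ t : ↥(laurentBaseChange k (modularFunctionFieldFull N)), t ≠ 0 ∧ v.ord t = 1 := by
  obtain ⟨π, hπ⟩ := IsDiscreteValuationRing.exists_irreducible v.toValuationSubring
  have hπ1 : v.ord (π : ↥(laurentBaseChange k (modularFunctionFieldFull N))) = 1 :=
    v.ord_coe_irreducible hπ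
  refine ⟨π, ?_, hπ1⟩
  intro h0
  rw [h0, v.ord_zero] at hπ1
  exact absurd hπ1 (by norm_num)

theorem hMult_smul_of_mem {γ : SL(2, ℤ)} (hγ : γ ∈ Gamma0 N) (τ : ℍ) (a : k)
    (ha : jFun τ = algebraMap k ℂ a) :
    hMult (N := N) (γ • τ) a (by rw [jFun_smul]; exact ha) = hMult (N := N) τ a ha := by
  obtain ⟨t, ht0, ht1⟩ := arch_exists_ord_eq_one (hPlace (N := N) τ a ha)
  have h1 := ordAt_realN_eq (N := N) τ a ha ht0
  have h2 := ordAt_realN_eq (N := N) (γ • τ) a (by rw [jFun_smul]; exact ha) ht0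
  rw [hPlace_smul_of_mem hγ τ a ha, ht1, mul_one] at h2
  rw [ht1, mul_one] at h1
  rw [← h1, ← h2, ← MerH.ordAt_comp, comp_realN_of_mem_Gamma0 _ N hγ]

theorem hMult_dvd (τ : ℍ) (a : k) (ha : jFun τ = algebraMap k ℂ a) :
    hMult (N := N) τ a ha ∣
      (if algebraMap k ℂ a = 0 then 3 else if algebraMap k ℂ a = 1728 then 2 else 1 : ℤ) := by
  have hne : jGen k N - algebraMap k _ a ≠ 0 := (jCoordK k N).x_sub_ne_zero a
  have h := ordAt_realN_eq (N := N) τ a ha hne
  rw [← hOrdFn_ord τ a ha, hOrdFn_ord_jGen_sub] at h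
  exact ⟨_, h⟩

theorem hMult_le_three (τ : ℍ) (a : k) (ha : jFun τ = algebraMap k ℂ a) :
    hMult (N := N) τ a ha ≤ 3 := by
  have h := hMult_dvd (N := N) τ a ha
  have h2 : (if algebraMap k ℂ a = 0 then 3 else if algebraMap k ℂ a = 1728 then 2 else 1 : ℤ) ≤ 3
    := by split_ifs <;> norm_num
  have h3 : (0 : ℤ) <
      (if algebraMap k ℂ a = 0 then 3 else if algebraMap k ℂ a = 1728 then 2 else 1 : ℤ) := by
    split_ifs <;> norm_num
  exact (Int.le_of_dvd h3 h).trans h2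

theorem hMult_eq_one (τ : ℍ) (a : k) (ha : jFun τ = algebraMap k ℂ a)
    (h0 : algebraMap k ℂ a ≠ 0) (h1 : algebraMap k ℂ a ≠ 1728) : hMult (N := N) τ a ha = 1 := by
  have h := hMult_dvd (N := N) τ a ha
  rw [if_neg h0, if_neg h1] at h
  exact Int.eq_one_of_dvd_one (hMult_pos τ a ha).le h

open Fermat.Agent.JA in
/-- **Value dictionary**: if `f` takes the value `c ≠ 0` at the place of `τ`, then the realisation
of `f` has order `0` and value (trailing coefficient) `ι c` at `τ`. -/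
theorem tcAt_realN_of_hasValueAt (τ : ℍ) (a : k) (ha : jFun τ = algebraMap k ℂ a)
    {f : ↥(laurentBaseChange k (modularFunctionFieldFull N))} {c : k} (hc : c ≠ 0)
    (hv : HasValueAt (hPlace τ a ha) f c) :
    MerH.ordAt τ (realN (algebraMap k ℂ) N f) = 0 ∧
      tcAt τ (realN (algebraMap k ℂ) N f) = algebraMap k ℂ c := by
  have hιc : algebraMap k ℂ c ≠ 0 := by
    rwa [Ne, map_eq_zero_iff _ (algebraMap k ℂ).injective]
  apply ordAt_eq_zero_and_tcAt_eq hιc
  rcases HasValueAt.iff_ord.mp hv with h | h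
  · left
    rw [sub_eq_zero] at h
    rw [h, realN_algebraMap]
  · right
    have hne : f - algebraMap k _ c ≠ 0 := by
      intro h0
      rw [h0, Place.ord_zero] at h
      exact lt_irrefl _ h
    have h2 := ordAt_realN_eq (N := N) τ a ha hne
    rw [map_sub, realN_algebraMap] at h2
    rw [h2]
    exact mul_pos (hMult_pos τ a ha) h

/-- **Trailing coefficient dictionary**: `f = t^n · u` with `u` of value `c ≠ 0` at the place. -/
theorem tcAt_realN_eq (τ : ℍ) (a : k) (ha : jFun τ = algebraMap k ℂ a)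
    {f t u : ↥(laurentBaseChange k (modularFunctionFieldFull N))} {c : k} {n : ℤ} (hc : c ≠ 0)
    (hf : f = t ^ n * u) (hv : Fermat.Agent.JA.HasValueAt (hPlace τ a ha) u c) :
    tcAt τ (realN (algebraMap k ℂ) N f) =
      tcAt τ (realN (algebraMap k ℂ) N t) ^ n * algebraMap k ℂ c := by
  rw [hf, map_mul, map_zpow₀, tcAt_mul, tcAt_zpow, (tcAt_realN_of_hasValueAt τ a ha hc hv).2]

end Dict

end Fermat.Agent.MW
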