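/-
MW / [ARCH] (helper9): the dictionary at the cusp `∞`: the realisation `realN ι N f` of
`f ∈ k(j(q^d) : d ∣ N) ⊆ k((q))` is `1`-periodic, meromorphic at `i∞`, and its `q`-expansion is
`coeffMap ι f`.  Hence `ordInf 1 (realN f) = order f`, `lcInf 1 (realN f) = ι (leading coeff f)`.
Also: the "value lemma" at `i∞`.
-/
import Mathlib
import Fermat.Agent.X0N.Cusp_helper9_Val
import Fermat.Agent.JA.BC_helper9_Desc

set_option autoImplicit false
set_option linter.unusedSectionVars false

namespace Fermat.Agent.MW

open Fermat.Agent.X0N Fermat.Agent.RatStr UpperHalfPlane ModularCurve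

section Real

variable {k : Type*} [Field k] (ι : k →+* ℂ)

/-- the realisation of a series is `1`-periodic, meromorphic at `i∞`, with `q`-expansion the
series itself. -/
theorem real_isMerInf_laurentQ (x : merSeries ι) :
    IsMerInf 1 (merSeries.real ι x) ∧
      laurentQ 1 (merSeries.real ι x) = coeffMap ι (x : LaurentSeries k) := by
  by_cases hx : x = 0
  · subst hx
    rw [map_zero]
    refine ⟨isMerInf_zero, ?_⟩
    rw [laurentQ_zero]
    show (0 : LaurentSeries ℂ) = coeffMap ι (0 : LaurentSeries k)
    rw [map_zero]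
  obtain ⟨a, ha, b, hb, hab⟩ := (mem_merSeries ι).mp x.2
  have hb0 : b ≠ 0 := by
    rintro rfl
    rw [div_zero] at hab
    exact hx (Subtype.ext hab.symm)
  set a' : convSeries ι := ⟨a, ha⟩ with ha'
  set b' : convSeries ι := ⟨b, hb⟩ with hb'
  have hb'0 : b' ≠ 0 := fun h => hb0 (congrArg Subtype.val h)
  have hxab : x = algebraMap (convSeries ι) (merSeries ι) a' /
      algebraMap (convSeries ι) (merSeries ι) b' := by
    apply Subtype.ext
    rw [← hab]
    rfl
  have hB0 : convSeries.toHol ι b' ≠ 0 := fun h =>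
    hb'0 (convSeries.toHol_injective ι (by rw [h, map_zero]))
  have hreal : merSeries.real ι x =
      MerH.ofHol (convSeries.toHol ι a') / MerH.ofHol (convSeries.toHol ι b') := by
    rw [hxab, map_div₀, merSeries.real_algebraMap, merSeries.real_algebraMap]
  have hA : IsMeroInfty ((1 : ℕ) : ℝ) (convSeries.toHol ι a' : ℍ → ℂ) := by
    rw [Nat.cast_one]; exact convSeries.isMeroInfty_fn ι a'
  have hB : IsMeroInfty ((1 : ℕ) : ℝ) (convSeries.toHol ι b' : ℍ → ℂ) := by
    rw [Nat.cast_one]; exact convSeries.isMeroInfty_fn ι b'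
  refine ⟨hreal ▸ ⟨_, _, hA, hB, hB0, rfl⟩, ?_⟩
  rw [hreal, laurentQ_div hA hB hB0]
  simp only [Nat.cast_one, convSeries.coe_toHol]
  rw [convSeries.laurent_fn, convSeries.laurent_fn, ← map_div₀, ← hab]

end Real

section RealN

variable {k : Type*} [Field k] [Algebra ℚ k] (ι : k →+* ℂ) (N : ℕ) [NeZero N]

theorem isMerInf_one_realN (f : ↥(laurentBaseChange k (modularFunctionFieldFull N))) :
    IsMerInf 1 (realN ι N f) :=
  (real_isMerInf_laurentQ ι (inclN ι N f)).1

/-- **the `q`-expansion of the realisation.** -/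
theorem laurentQ_realN (f : ↥(laurentBaseChange k (modularFunctionFieldFull N))) :
    laurentQ 1 (realN ι N f) = coeffMap ι (f : LaurentSeries k) :=
  (real_isMerInf_laurentQ ι (inclN ι N f)).2

theorem ordInf_realN (f : ↥(laurentBaseChange k (modularFunctionFieldFull N))) :
    MerH.ordInf 1 (realN ι N f) = (f : LaurentSeries k).order := by
  rw [MerH.ordInf, laurentQ_realN, Fermat.Agent.JA.order_coeffMap_of_injective ι.injective]

theorem lcInf_realN (f : ↥(laurentBaseChange k (modularFunctionFieldFull N))) :
    MerH.lcInf 1 (realN ι N f) = ι (f : LaurentSeries k).leadingCoeff := by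
  rw [MerH.lcInf, laurentQ_realN,
    Fermat.Agent.JA.leadingCoeff_coeffMap_of_injective ι.injective]

end RealN

section Value

variable {h : ℕ} [NeZero h]

/-- **value lemma at `i∞`**: if `x - c` vanishes at `i∞` (`c ≠ 0`) then `x` has order `0` and
leading coefficient `c` at `i∞`. -/
theorem ordInf_eq_zero_and_lcInf_eq {x : MerH} (hx : IsMerInf h x) {c : ℂ} (hc : c ≠ 0)
    (hv : x = MerH.const c ∨ 0 < MerH.ordInf h (x - MerH.const c)) :
    MerH.ordInf h x = 0 ∧ MerH.lcInf h x = c := by
  have hC : IsMerInf h (MerH.const c) := isMerInf_const c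
  have hsub : IsMerInf h (x - MerH.const c) := by
    rw [sub_eq_add_neg]; exact hx.add hC.neg
  have hX : laurentQ h x = HahnSeries.C c + laurentQ h (x - MerH.const c) := by
    rw [← laurentQ_const (h := h) c, ← laurentQ_add hC hsub]
    congr 1
    ring
  have hCtop : (HahnSeries.C c : LaurentSeries ℂ).orderTop = 0 := by
    rw [HahnSeries.C_apply, HahnSeries.orderTop_single hc]
    rfl
  have hYtop : (HahnSeries.C c : LaurentSeries ℂ).orderTop <
      (laurentQ h (x - MerH.const c)).orderTop := by
    rw [hCtop]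
    by_cases hY : laurentQ h (x - MerH.const c) = 0
    · rw [hY, HahnSeries.orderTop_zero]
      exact WithTop.coe_lt_top 0
    · rw [HahnSeries.orderTop_of_ne_zero hY]
      rcases hv with hv | hv
      · exfalso
        apply hY
        rw [hv, sub_self, laurentQ_zero]
      · have : (laurentQ h (x - MerH.const c)).order =
            (laurentQ h (x - MerH.const c)).isWF_support.min
              (HahnSeries.support_nonempty_iff.2 hY) := HahnSeries.order_of_ne hY
        rw [MerH.ordInf, this] at hv
        exact_mod_cast hv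
  have h1 : (laurentQ h x).orderTop = 0 := by
    rw [hX, HahnSeries.orderTop_add_eq_left hYtop, hCtop]
  have h2 : (laurentQ h x).leadingCoeff = c := by
    rw [hX, HahnSeries.leadingCoeff_add_eq_left hYtop, HahnSeries.C_apply,
      HahnSeries.leadingCoeff_of_single]
  have hne : laurentQ h x ≠ 0 := by
    intro h0
    rw [h0, HahnSeries.orderTop_zero] at h1
    exact WithTop.top_ne_zero h1
  refine ⟨?_, h2⟩
  rw [MerH.ordInf]
  have := HahnSeries.order_eq_orderTop_of_ne_zero hne
  rw [h1] at this
  exact_mod_cast this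

end Value

end Fermat.Agent.MW
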