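/-
MW / [ARCH] (helper9): the concrete dictionary at the two cusps of `X₀(N)` for `Ω = ℚ̄ ⊆ ℂ`
(through `embC`): orders and values at `infN N` (cusp `∞`) and `zeroN N` (cusp `0`), in terms of the
realisation `realC N f` and of `realS N f = (realC N f) ∘ S`; every pole of `j` is one of the two
cusps when `N` is prime.
-/
import Mathlib
import Fermat.Agent.MW.DIFF_helper8_Defs
import Fermat.Agent.MW.ARCH_helper9_DictInf
import Fermat.Agent.MW.ARCH_helper9_DictH
import Fermat.Agent.X0N.Cusp_helper9_Int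
import Fermat.Agent.X0N.Cosets_helper9_Param

set_option autoImplicit false
set_option linter.unusedSectionVars false

open AlgebraicCurve CongruenceSubgroup MatrixGroups ModularGroup ModularCurve UpperHalfPlane

namespace Fermat.Agent.MW

open Fermat.Agent.FF Fermat.Agent.X0N Fermat.Agent.JA

/-- `Ω ⊆ ℂ` through the chosen embedding `embC`. -/
@[reducible] noncomputable def algOmC : Algebra (AlgebraicClosure ℚ) ℂ := embC.toRingHom.toAlgebra

attribute [local instance] algOmC

theorem isScalarTower_algOmC : IsScalarTower ℚ (AlgebraicClosure ℚ) ℂ :=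
  IsScalarTower.of_algebraMap_eq fun r => (embC.commutes r).symm

attribute [local instance] isScalarTower_algOmC

theorem algebraMap_algOmC (x : AlgebraicClosure ℚ) :
    algebraMap (AlgebraicClosure ℚ) ℂ x = embC x := rfl

theorem norm_algebraMap_algOmC (x : AlgebraicClosure ℚ) :
    ‖algebraMap (AlgebraicClosure ℚ) ℂ x‖ = absv none x := rfl

variable (N : ℕ) [NeZero N]

/-- the analytic realisation of the function field of `X₀(N)` over `Ω`. -/
noncomputable def realC : FunN N →+* MerH := realN (algebraMap (AlgebraicClosure ℚ) ℂ) N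

/-- the realisation composed with `S` (the expansion at the cusp `0`). -/
noncomputable def realS : FunN N →+* MerH :=
  ((MerH.comp S : MerH ≃+* MerH) : MerH →+* MerH).comp (realC N)

theorem realC_algebraMap (c : AlgebraicClosure ℚ) :
    realC N (algebraMap (AlgebraicClosure ℚ) (FunN N) c) =
      MerH.const (algebraMap (AlgebraicClosure ℚ) ℂ c) :=
  realN_algebraMap _ N c

theorem realS_algebraMap (c : AlgebraicClosure ℚ) :
    realS N (algebraMap (AlgebraicClosure ℚ) (FunN N) c) =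
      MerH.const (algebraMap (AlgebraicClosure ℚ) ℂ c) := by
  show MerH.comp S (realC N _) = _
  rw [realC_algebraMap, MerH.comp_const]

theorem realC_ne_zero {f : FunN N} (hf : f ≠ 0) : realC N f ≠ 0 := by
  rwa [Ne, map_eq_zero_iff _ (realC N).injective]

theorem realS_ne_zero {f : FunN N} (hf : f ≠ 0) : realS N f ≠ 0 := by
  rwa [Ne, map_eq_zero_iff _ (realS N).injective]

/-! ### the cusp `∞` -/

theorem isMerInf_realC (f : FunN N) : IsMerInf 1 (realC N f) := isMerInf_one_realN _ N f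

theorem infN_ord_eq {f : FunN N} (hf : f ≠ 0) :
    (infN N).ord f = MerH.ordInf 1 (realC N f) := by
  rw [infN_ord N hf, realC, ordInf_realN]

/-- **value dictionary at `∞`.** -/
theorem inf_value_dict {f : FunN N} {c : AlgebraicClosure ℚ} (hc : c ≠ 0)
    (hv : HasValueAt (infN N) f c) :
    MerH.ordInf 1 (realC N f) = 0 ∧
      MerH.lcInf 1 (realC N f) = algebraMap (AlgebraicClosure ℚ) ℂ c := by
  have hιc : algebraMap (AlgebraicClosure ℚ) ℂ c ≠ 0 := by
    rwa [Ne, map_eq_zero_iff _ (algebraMap (AlgebraicClosure ℚ) ℂ).injective]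
  apply ordInf_eq_zero_and_lcInf_eq (isMerInf_realC N f) hιc
  rcases HasValueAt.iff_ord.mp hv with h | h
  · left
    rw [sub_eq_zero] at h
    rw [h, realC_algebraMap]
  · right
    have hne : f - algebraMap (AlgebraicClosure ℚ) (FunN N) c ≠ 0 := by
      intro h0
      rw [h0, Place.ord_zero] at h
      exact lt_irrefl _ h
    rw [infN_ord_eq N hne, map_sub, realC_algebraMap] at h
    exact h

/-! ### the cusp `0` -/

/-- the coset of `S⁻¹`. -/
noncomputable def cosetSinv : SL(2, ℤ) ⧸ Gamma0 N := ((S⁻¹ : SL(2, ℤ)) : SL(2, ℤ) ⧸ Gamma0 N)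

/-- the cusp `0` of `X₀(N)`. -/
noncomputable def zeroN : PtN N :=
  (cuspOrdFn (algebraMap (AlgebraicClosure ℚ) ℂ) N (cosetSinv N)).toPlace

theorem cuspConj_cosetSinv (f : FunN N) :
    cuspConj (algebraMap (AlgebraicClosure ℚ) ℂ) N (cosetSinv N) f = realS N f := by
  rw [cuspConj_apply, cosetSinv, conjM_mk (isModFun_realN _ N f), inv_inv]
  rfl

theorem isMerInf_realS (f : FunN N) : IsMerInf N (realS N f) := by
  rw [← cuspConj_cosetSinv]
  exact isMerInf_cuspConj _ N _ f

theorem cuspOrdFn_cosetSinv_ord (f : FunN N) :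
    (cuspOrdFn (algebraMap (AlgebraicClosure ℚ) ℂ) N (cosetSinv N)).ord f =
      MerH.ordInf N (realS N f) := by
  show MerH.ordInf N (cuspConj _ N (cosetSinv N) f) = _
  rw [cuspConj_cosetSinv]

theorem T_pow_smul_cosetSinv {k : ℕ} (h : T ^ k • cosetSinv N = cosetSinv N) : N ∣ k := by
  rw [cosetSinv, MulAction.Quotient.smul_mk, QuotientGroup.eq, inv_mul_mem_Gamma0_iff] at h
  have hT : (T ^ k : SL(2, ℤ)) = T ^ (k : ℤ) := (zpow_natCast T k).symm
  have e1 : ((T ^ k • S⁻¹ : SL(2, ℤ))) 0 0 = -(k : ℤ) := by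
    rw [smul_eq_mul, hT, Matrix.SpecialLinearGroup.coe_mul, coe_T_zpow,
      Matrix.SpecialLinearGroup.SL2_inv_expl S]
    simp [S, Matrix.mul_apply, Fin.sum_univ_two]
  have e2 : ((T ^ k • S⁻¹ : SL(2, ℤ))) 1 0 = -1 := by
    rw [smul_eq_mul, hT, Matrix.SpecialLinearGroup.coe_mul, coe_T_zpow,
      Matrix.SpecialLinearGroup.SL2_inv_expl S]
    simp [S, Matrix.mul_apply, Fin.sum_univ_two]
  have e3 : (S⁻¹ : SL(2, ℤ)) 1 0 = -1 := by
    rw [Matrix.SpecialLinearGroup.SL2_inv_expl S]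
    simp [S]
  have e4 : (S⁻¹ : SL(2, ℤ)) 0 0 = 0 := by
    rw [Matrix.SpecialLinearGroup.SL2_inv_expl S]
    simp [S]
  rw [e1, e2, e3, e4] at h
  have : (N : ℤ) ∣ (k : ℤ) := by
    have e : -(k : ℤ) * -1 - -1 * 0 = (k : ℤ) := by ring
    rwa [e] at h
  exact_mod_cast this

theorem period_T_cosetSinv : MulAction.period T (cosetSinv N) = N :=
  Nat.dvd_antisymm (period_T_dvd N _)
    (T_pow_smul_cosetSinv N (MulAction.pow_period_smul T (cosetSinv N)))

theorem jBar_eq_jGen' : Fermat.Agent.X0N.jBar N = jGen (AlgebraicClosure ℚ) N := rfl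

/-- `j` has a pole of order `N` at the cusp `0`. -/
theorem zeroN_ord_jBar : (zeroN N).ord (Fermat.Agent.X0N.jBar N) = -(N : ℤ) := by
  have h := (poles_jB_squeeze N (jCoordK (AlgebraicClosure ℚ) N)
    (jB_eq_jK (k := AlgebraicClosure ℚ) N).symm
    (hX_jCoordK (k := AlgebraicClosure ℚ) (N := N)).symm).2.1 (cosetSinv N)
  rw [card_orbit_T_eq_period, period_T_cosetSinv] at h
  have h2 : (zeroN N).ord (Fermat.Agent.X0N.jBar N) =
      (cuspOrdFn (algebraMap (AlgebraicClosure ℚ) ℂ) N (cosetSinv N)).toPlace.ord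
        (jCoordK (AlgebraicClosure ℚ) N).x := rfl
  rw [h2]
  omega

/-- **order dictionary at the cusp `0`.** -/
theorem zeroN_ord_eq {f : FunN N} (hf : f ≠ 0) :
    (zeroN N).ord f = MerH.ordInf N (realS N f) := by
  obtain ⟨m, hm, hmul⟩ :=
    (cuspOrdFn (algebraMap (AlgebraicClosure ℚ) ℂ) N (cosetSinv N)).exists_ord_eq_mul
  have hj0 : Fermat.Agent.X0N.jBar N ≠ 0 := jBar_ne_zero N
  have h1 := hmul (Fermat.Agent.X0N.jBar N) hj0
  have h2 : (cuspOrdFn (algebraMap (AlgebraicClosure ℚ) ℂ) N (cosetSinv N)).ord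
      (Fermat.Agent.X0N.jBar N) = -(N : ℤ) :=
    cuspOrdFn_ord_jK (algebraMap (AlgebraicClosure ℚ) ℂ) N (cosetSinv N)
  have h3 : (cuspOrdFn (algebraMap (AlgebraicClosure ℚ) ℂ) N (cosetSinv N)).toPlace.ord
      (Fermat.Agent.X0N.jBar N) = -(N : ℤ) := zeroN_ord_jBar N
  rw [h2, h3] at h1
  have hN : (N : ℤ) ≠ 0 := by exact_mod_cast NeZero.ne N
  have hm1 : m = 1 := by
    have : (N : ℤ) * (m - 1) = 0 := by linarith
    rcases mul_eq_zero.mp this with h | h
    · exact absurd h hN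
    · linarith
  have h4 := hmul f hf
  rw [hm1, one_mul, cuspOrdFn_cosetSinv_ord] at h4
  exact h4.symm

/-- **value dictionary at the cusp `0`.** -/
theorem zero_value_dict {f : FunN N} {c : AlgebraicClosure ℚ} (hc : c ≠ 0)
    (hv : HasValueAt (zeroN N) f c) :
    MerH.ordInf N (realS N f) = 0 ∧
      MerH.lcInf N (realS N f) = algebraMap (AlgebraicClosure ℚ) ℂ c := by
  have hιc : algebraMap (AlgebraicClosure ℚ) ℂ c ≠ 0 := by
    rwa [Ne, map_eq_zero_iff _ (algebraMap (AlgebraicClosure ℚ) ℂ).injective]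
  apply ordInf_eq_zero_and_lcInf_eq (isMerInf_realS N f) hιc
  rcases HasValueAt.iff_ord.mp hv with h | h
  · left
    rw [sub_eq_zero] at h
    rw [h, realS_algebraMap]
  · right
    have hne : f - algebraMap (AlgebraicClosure ℚ) (FunN N) c ≠ 0 := by
      intro h0
      rw [h0, Place.ord_zero] at h
      exact lt_irrefl _ h
    rw [zeroN_ord_eq N hne, map_sub, realS_algebraMap] at h
    exact h

theorem infN_ord_jBar : (infN N).ord (Fermat.Agent.X0N.jBar N) = -1 := by
  rw [infN_ord N (jBar_ne_zero N), order_jBar]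

/-! ### the cusps of `Γ₀(N)`, `N` prime -/

/-- for `N` prime every coset of `Γ₀(N)` is the trivial one or in the `⟨T⟩`-orbit of `S⁻¹Γ₀(N)`. -/
theorem coset_cases (hN : N.Prime) (q : SL(2, ℤ) ⧸ Gamma0 N) :
    q = ((1 : SL(2, ℤ)) : SL(2, ℤ) ⧸ Gamma0 N) ∨ ∃ k : ℕ, q = T ^ k • cosetSinv N := by
  have : Fact N.Prime := ⟨hN⟩
  induction q using QuotientGroup.induction_on with
  | H g =>
    by_cases hc : (N : ℤ) ∣ g 1 0
    · left
      rw [QuotientGroup.eq, inv_mul_mem_Gamma0_iff]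
      have e : g 0 0 * (1 : SL(2, ℤ)) 1 0 - g 1 0 * (1 : SL(2, ℤ)) 0 0 = -(g 1 0) := by
        simp
      rw [e]
      exact (dvd_neg).mpr hc
    · right
      have hc' : ((g 1 0 : ℤ) : ZMod N) ≠ 0 := by
        rwa [Ne, ZMod.intCast_zmod_eq_zero_iff_dvd]
      set k : ℕ := (((g 0 0 : ℤ) : ZMod N) / ((g 1 0 : ℤ) : ZMod N)).val with hk
      refine ⟨k, ?_⟩
      rw [cosetSinv, MulAction.Quotient.smul_mk, eq_comm, QuotientGroup.eq,
        inv_mul_mem_Gamma0_iff]
      have hT : (T ^ k : SL(2, ℤ)) = T ^ (k : ℤ) := (zpow_natCast T k).symm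
      have e1 : ((T ^ k • S⁻¹ : SL(2, ℤ))) 0 0 = -(k : ℤ) := by
        rw [smul_eq_mul, hT, Matrix.SpecialLinearGroup.coe_mul, coe_T_zpow,
          Matrix.SpecialLinearGroup.SL2_inv_expl S]
        simp [S, Matrix.mul_apply, Fin.sum_univ_two]
      have e2 : ((T ^ k • S⁻¹ : SL(2, ℤ))) 1 0 = -1 := by
        rw [smul_eq_mul, hT, Matrix.SpecialLinearGroup.coe_mul, coe_T_zpow,
          Matrix.SpecialLinearGroup.SL2_inv_expl S]
        simp [S, Matrix.mul_apply, Fin.sum_univ_two]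
      rw [e1, e2, ← ZMod.intCast_zmod_eq_zero_iff_dvd]
      push_cast
      rw [hk, ZMod.natCast_zmod_val]
      have h3 : ((g 0 0 : ℤ) : ZMod N) / ((g 1 0 : ℤ) : ZMod N) * ((g 1 0 : ℤ) : ZMod N) =
          ((g 0 0 : ℤ) : ZMod N) := div_mul_cancel₀ _ hc'
      linear_combination -h3

/-- the cusp place only depends on the `⟨T⟩`-orbit. -/
theorem toPlace_T_pow_smul (k : ℕ) (q : SL(2, ℤ) ⧸ Gamma0 N) :
    (cuspOrdFn (algebraMap (AlgebraicClosure ℚ) ℂ) N (T ^ k • q)).toPlace =
      (cuspOrdFn (algebraMap (AlgebraicClosure ℚ) ℂ) N q).toPlace := by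
  apply OrdFn.toPlace_eq_of_ord_eq
  intro f _
  have := cuspOrdFn_ord_T_zpow_smul (algebraMap (AlgebraicClosure ℚ) ℂ) N (k : ℤ) q f
  rwa [zpow_natCast] at this

/-- **for `N` prime the poles of `j` are the two cusps `∞` and `0`.** -/
theorem pole_cases (hN : N.Prime) (P : PtN N) (hP : P.ord (Fermat.Agent.X0N.jBar N) < 0) :
    P = infN N ∨ P = zeroN N := by
  have hsq := (poles_jB_squeeze N (jCoordK (AlgebraicClosure ℚ) N)
    (jB_eq_jK (k := AlgebraicClosure ℚ) N).symm
    (hX_jCoordK (k := AlgebraicClosure ℚ) (N := N)).symm).2.2.2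
  have key : ∀ P : PtN N, P.ord (Fermat.Agent.X0N.jBar N) < 0 →
      P = (cuspOrdFn (algebraMap (AlgebraicClosure ℚ) ℂ) N
        ((1 : SL(2, ℤ)) : SL(2, ℤ) ⧸ Gamma0 N)).toPlace ∨ P = zeroN N := by
    intro P hP
    obtain ⟨q, hq⟩ := hsq P ((jCoordK (AlgebraicClosure ℚ) N).mem_poles.mpr hP)
    rcases coset_cases N hN q with h | ⟨k, h⟩
    · left
      rw [← hq, h]
    · right
      rw [← hq, h, toPlace_T_pow_smul]
      rfl
  have hinf : infN N = (cuspOrdFn (algebraMap (AlgebraicClosure ℚ) ℂ) N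
      ((1 : SL(2, ℤ)) : SL(2, ℤ) ⧸ Gamma0 N)).toPlace := by
    rcases key (infN N) (by rw [infN_ord_jBar]; norm_num) with h | h
    · exact h
    · exfalso
      have h1 := infN_ord_jBar N
      rw [h, zeroN_ord_jBar] at h1
      have h2 := hN.two_le
      have : (N : ℤ) = 1 := by linarith
      have : N = 1 := by exact_mod_cast this
      omega
  rcases key P hP with h | h
  · left
    rw [h, hinf]
  · right
    exact h

theorem infN_ne_zeroN (hN : N.Prime) : infN N ≠ zeroN N := by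
  intro h
  have h1 := infN_ord_jBar N
  rw [h, zeroN_ord_jBar] at h1
  have h2 := hN.two_le
  have : (N : ℤ) = 1 := by linarith
  have : N = 1 := by exact_mod_cast this
  omega

end Fermat.Agent.MW
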