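/-
PROJECT MW (S17) — package [ARCH] (helper9), layer 0: **Harnack's inequality on a disc** from
Mathlib's Poisson integral formula, and the one-disc lemma for `log ‖G‖` of a nonvanishing
holomorphic function.

* `harnack_le`, `harnack_ge`: for `h ≥ 0` harmonic near `closedBall c R` and `‖w - c‖ < R`:
  `(R - r)/(R + r) * h c ≤ h w ≤ (R + r)/(R - r) * h c`, `r = ‖w - c‖`.
* `harnack_two_points`: `h z ≤ ((R + r)/(R - r))^2 * h w` for `z, w ∈ closedBall c r`, `r < R`.
* `lognorm_lower_of_upper`: `G` analytic and nonvanishing near `closedBall c R`,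
  `log ‖G‖ ≤ M` there, `z, z₀ ∈ closedBall c r`:
  `M - log ‖G z‖ ≤ ((R + r)/(R - r))^2 * (M - log ‖G z₀‖)`.
-/
import Mathlib

set_option autoImplicit false

namespace Fermat.Agent.MW

open Metric Real InnerProductSpace Complex

/-- integrability on the circle of the kernel times a harmonic function. -/
theorem arch_circleIntegrable_kernel_smul {h : ℂ → ℝ} {c w : ℂ} {R : ℝ}
    (hh : HarmonicOnNhd h (closedBall c R)) (hw : w ∈ ball c R) :
    CircleIntegrable ((re ∘ herglotzRieszKernel c w) • h) c R := by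
  have hR : 0 < R := pos_of_mem_ball hw
  apply ContinuousOn.circleIntegrable'
  rw [abs_of_pos hR]
  apply ContinuousOn.smul
  · apply Complex.continuous_re.comp_continuousOn
    have := continuousOn_herglotzRieszKernel_sphere (c := c) hw
    rwa [abs_of_pos hR] at this
  · exact hh.continuousOn.mono sphere_subset_closedBall

/-- **Harnack, upper bound.** -/
theorem harnack_le {h : ℂ → ℝ} {c w : ℂ} {R : ℝ}
    (hh : HarmonicOnNhd h (closedBall c R)) (hpos : ∀ z ∈ sphere c R, 0 ≤ h z)
    (hw : w ∈ ball c R) :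
    h w ≤ (R + ‖w - c‖) / (R - ‖w - c‖) * h c := by
  have hR : 0 < R := pos_of_mem_ball hw
  have hP := hh.circleAverage_re_herglotzRieszKernel_smul hw
  have hmean : Real.circleAverage h c R = h c := by
    apply InnerProductSpace.HarmonicOnNhd.circleAverage_eq
    rwa [abs_of_pos hR]
  have hint : CircleIntegrable h c R := by
    apply ContinuousOn.circleIntegrable'
    rw [abs_of_pos hR]
    exact hh.continuousOn.mono sphere_subset_closedBall
  rw [← hP, ← hmean, ← smul_eq_mul, ← Real.circleAverage_smul]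
  apply Real.circleAverage_mono (arch_circleIntegrable_kernel_smul hh hw) hint.const_smul
  intro z hz
  rw [abs_of_pos hR] at hz
  simp only [Pi.smul_apply', Function.comp_apply, smul_eq_mul, Pi.smul_apply]
  apply mul_le_mul_of_nonneg_right _ (hpos z hz)
  rw [herglotzRieszKernel_def]
  exact re_herglotzRieszKernel_le hz hw

/-- **Harnack, lower bound.** -/
theorem harnack_ge {h : ℂ → ℝ} {c w : ℂ} {R : ℝ}
    (hh : HarmonicOnNhd h (closedBall c R)) (hpos : ∀ z ∈ sphere c R, 0 ≤ h z)
    (hw : w ∈ ball c R) :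
    (R - ‖w - c‖) / (R + ‖w - c‖) * h c ≤ h w := by
  have hR : 0 < R := pos_of_mem_ball hw
  have hP := hh.circleAverage_re_herglotzRieszKernel_smul hw
  have hmean : Real.circleAverage h c R = h c := by
    apply InnerProductSpace.HarmonicOnNhd.circleAverage_eq
    rwa [abs_of_pos hR]
  have hint : CircleIntegrable h c R := by
    apply ContinuousOn.circleIntegrable'
    rw [abs_of_pos hR]
    exact hh.continuousOn.mono sphere_subset_closedBall
  rw [← hP, ← hmean, ← smul_eq_mul, ← Real.circleAverage_smul]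
  apply Real.circleAverage_mono hint.const_smul (arch_circleIntegrable_kernel_smul hh hw)
  intro z hz
  rw [abs_of_pos hR] at hz
  simp only [Pi.smul_apply', Function.comp_apply, smul_eq_mul, Pi.smul_apply]
  apply mul_le_mul_of_nonneg_right _ (hpos z hz)
  rw [herglotzRieszKernel_def]
  exact le_re_herglotzRieszKernel hz hw

/-- the Harnack constant is monotone in the radius of the inner disc. -/
theorem arch_harnackConst_mono {R r s : ℝ} (hs : 0 ≤ s) (hsr : s ≤ r) (hrR : r < R) :
    (R + s) / (R - s) ≤ (R + r) / (R - r) := by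
  have h1 : 0 < R - r := by linarith
  have h2 : 0 < R - s := by linarith
  rw [div_le_div_iff₀ h2 h1]
  nlinarith

/-- **Harnack for two points** of a smaller concentric disc. -/
theorem harnack_two_points {h : ℂ → ℝ} {c z w : ℂ} {R r : ℝ}
    (hh : HarmonicOnNhd h (closedBall c R)) (hpos : ∀ z ∈ closedBall c R, 0 ≤ h z)
    (hrR : r < R) (hz : z ∈ closedBall c r) (hw : w ∈ closedBall c r) :
    h z ≤ ((R + r) / (R - r)) ^ 2 * h w := by
  have hr0 : 0 ≤ r := le_trans dist_nonneg (mem_closedBall.mp hz)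
  have hR : 0 < R := lt_of_le_of_lt hr0 hrR
  have hzn : ‖z - c‖ ≤ r := by simpa [dist_eq_norm] using mem_closedBall.mp hz
  have hwn : ‖w - c‖ ≤ r := by simpa [dist_eq_norm] using mem_closedBall.mp hw
  have hzb : z ∈ ball c R := mem_ball.mpr (lt_of_le_of_lt (mem_closedBall.mp hz) hrR)
  have hwb : w ∈ ball c R := mem_ball.mpr (lt_of_le_of_lt (mem_closedBall.mp hw) hrR)
  have hsph : ∀ z ∈ sphere c R, 0 ≤ h z := fun z hz => hpos z (sphere_subset_closedBall hz)
  have hc0 : 0 ≤ h c := hpos c (mem_closedBall_self hR.le)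
  have hw0 : 0 ≤ h w := hpos w (ball_subset_closedBall hwb)
  have hK : 0 < (R + r) / (R - r) := div_pos (by linarith) (by linarith)
  have h1 : h z ≤ (R + r) / (R - r) * h c :=
    (harnack_le hh hsph hzb).trans
      (mul_le_mul_of_nonneg_right (arch_harnackConst_mono (norm_nonneg _) hzn hrR) hc0)
  have h2 : h c ≤ (R + r) / (R - r) * h w := by
    have h3 := harnack_ge hh hsph hwb
    have h4 : 0 < R - ‖w - c‖ := by linarith
    have h5 : 0 < R + ‖w - c‖ := by linarith [norm_nonneg (w - c)]
    have h6 : h c ≤ (R + ‖w - c‖) / (R - ‖w - c‖) * h w := by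
      rw [div_mul_eq_mul_div, le_div_iff₀ h4]
      rw [div_mul_eq_mul_div, div_le_iff₀ h5] at h3
      linarith
    exact h6.trans
      (mul_le_mul_of_nonneg_right (arch_harnackConst_mono (norm_nonneg _) hwn hrR) hw0)
  calc h z ≤ (R + r) / (R - r) * h c := h1
    _ ≤ (R + r) / (R - r) * ((R + r) / (R - r) * h w) :=
        mul_le_mul_of_nonneg_left h2 hK.le
    _ = ((R + r) / (R - r)) ^ 2 * h w := by ring

/-- **The one-disc lemma**: if `G` is analytic without zeros near `closedBall c R` and
`log ‖G‖ ≤ M` there, then on `closedBall c r`, `r < R`, the defect `M - log ‖G‖` at one point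
controls the defect at every other point. -/
theorem lognorm_lower_of_upper {G : ℂ → ℂ} {c z z₀ : ℂ} {R r M : ℝ}
    (hG : AnalyticOnNhd ℂ G (closedBall c R)) (hG0 : ∀ z ∈ closedBall c R, G z ≠ 0)
    (hM : ∀ z ∈ closedBall c R, Real.log ‖G z‖ ≤ M)
    (hrR : r < R) (hz : z ∈ closedBall c r) (hz₀ : z₀ ∈ closedBall c r) :
    M - Real.log ‖G z‖ ≤ ((R + r) / (R - r)) ^ 2 * (M - Real.log ‖G z₀‖) := by
  have hh : HarmonicOnNhd (fun z => M - Real.log ‖G z‖) (closedBall c R) := by
    intro x hx
    have h1 : HarmonicAt (fun z => Real.log ‖G z‖) x := (hG x hx).harmonicAt_log_norm (hG0 x hx)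
    have h2 : HarmonicAt (fun _ : ℂ => M) x := harmonicAt_const M
    exact h2.sub h1
  exact harnack_two_points hh (fun z hz => sub_nonneg.mpr (hM z hz)) hrR hz hz₀

end Fermat.Agent.MW
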