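/-
PROJECT MW (S17) — package [ARCH] (helper9), layer 1: **the abstract Harnack-chain theorem**
(uniform archimedean Weil decomposition `U(d)_∞` for a finite atlas of discs).

Data: points `X`, "functions" `Φ` with finitely supported orders `ord P f` and logarithmic absolute
values `lognorm f Q` (meaningful when `ord Q f = 0`); finitely many charts `α : I`, each a
(possibly multivalued, "orbifold") parametrisation `pt α : ℂ → X` on a parameter set `A α`, with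
multiplicities `e α z`; radii `r₀ < r₁ < r₂`.  `locSum α P z = Σ_{z' over P, ‖z'‖ ≤ r₂} e(z') log ‖z - z'‖`.
Hypotheses: every `f` is, on every chart, `‖G‖ · Π ‖z - z'‖^{e·ord}` with `G` analytic nonvanishing
near the `r₁`-disc; a distance function `γ` which is `- locSum` up to `L` on the `r₁`-disc of every
chart; the `r₀`-discs cover `X`; the nerve graph is connected with infinite overlaps; parameters are
dense.  Conclusion (`arch_uniform_weil`): for every `d` there is `C` with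
`|lognorm f Q + Σ_P ord P f · γ P Q - c(f)| ≤ C` for all `f` with `Σ |ord| ≤ d`, all `Q ∉ supp f`.
-/
import Mathlib
import Fermat.Agent.MW.ARCH_helper9_Harnack

set_option autoImplicit false

namespace Fermat.Agent.MW

open Metric Set

/-- a finite orbifold atlas of discs on a set of points `X`. -/
structure ArchAtlas (X : Type*) (I : Type*) where
  /-- admissible parameters of the chart -/
  A : I → Set ℂ
  /-- the point with a given parameter -/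
  pt : I → ℂ → X
  /-- multiplicity (order of the stabiliser) of a parameter -/
  e : I → ℂ → ℕ
  r₀ : ℝ
  r₁ : ℝ
  r₂ : ℝ
  hr₀ : 0 < r₀
  hr₀₁ : r₀ < r₁
  hr₁₂ : r₁ < r₂
  fib_finite : ∀ α P, {z | z ∈ A α ∧ pt α z = P ∧ ‖z‖ ≤ r₂}.Finite
  dense : ∀ α (T : Set ℂ), T.Finite → closedBall (0 : ℂ) r₁ ⊆ closure ((A α ∩ closedBall 0 r₁) \ T)
  cover : ∀ Q, ∃ α, ∃ z ∈ A α, ‖z‖ ≤ r₀ ∧ pt α z = Q
  adj : SimpleGraph I
  conn : adj.Connected
  overlap : ∀ α β, adj.Adj α β →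
    {Q | (∃ z ∈ A α, ‖z‖ ≤ r₀ ∧ pt α z = Q) ∧ (∃ z ∈ A β, ‖z‖ ≤ r₀ ∧ pt β z = Q)}.Infinite

namespace ArchAtlas

variable {X I : Type*} (𝔄 : ArchAtlas X I)

/-- the parameters over `P` in the `r₂`-disc of the chart `α`. -/
noncomputable def fib (α : I) (P : X) : Finset ℂ := (𝔄.fib_finite α P).toFinset

theorem mem_fib {α : I} {P : X} {z : ℂ} :
    z ∈ 𝔄.fib α P ↔ z ∈ 𝔄.A α ∧ 𝔄.pt α z = P ∧ ‖z‖ ≤ 𝔄.r₂ := by
  unfold fib
  rw [Set.Finite.mem_toFinset]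
  exact Iff.rfl

/-- the local logarithmic distance sum. -/
noncomputable def locSum (α : I) (P : X) (z : ℂ) : ℝ :=
  ∑ z' ∈ 𝔄.fib α P, (𝔄.e α z' : ℝ) * Real.log ‖z - z'‖

end ArchAtlas

/-- the analytic function system on an atlas. -/
structure ArchSystem {X I : Type*} (𝔄 : ArchAtlas X I) (Φ : Type*) where
  ord : X → Φ → ℤ
  supp_finite : ∀ f, {P | ord P f ≠ 0}.Finite
  lognorm : Φ → X → ℝ
  γ : X → X → ℝ
  L : ℝ
  hL : 0 ≤ L
  hγ : ∀ α, ∀ z ∈ 𝔄.A α, ‖z‖ ≤ 𝔄.r₁ → ∀ P, P ≠ 𝔄.pt α z →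
    |γ P (𝔄.pt α z) + 𝔄.locSum α P z| ≤ L
  rep : ∀ f α, ∃ G : ℂ → ℂ, AnalyticOnNhd ℂ G (closedBall 0 𝔄.r₁) ∧
    (∀ z ∈ closedBall (0 : ℂ) 𝔄.r₁, G z ≠ 0) ∧
    ∀ z ∈ 𝔄.A α, ‖z‖ ≤ 𝔄.r₁ → ord (𝔄.pt α z) f = 0 →
      lognorm f (𝔄.pt α z) = Real.log ‖G z‖ +
        ∑ P ∈ (supp_finite f).toFinset, (ord P f : ℝ) * 𝔄.locSum α P z

namespace ArchSystem

variable {X I Φ : Type*} {𝔄 : ArchAtlas X I} (𝔖 : ArchSystem 𝔄 Φ)

/-- the support of `f`. -/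
noncomputable def supp (f : Φ) : Finset X := (𝔖.supp_finite f).toFinset

theorem mem_supp {f : Φ} {P : X} : P ∈ 𝔖.supp f ↔ 𝔖.ord P f ≠ 0 := by simp [supp]

/-- the total degree `Σ |ord_P f|`. -/
noncomputable def tdeg (f : Φ) : ℝ := ∑ P ∈ 𝔖.supp f, |(𝔖.ord P f : ℝ)|

/-- the regularised function `u_f(Q) = log |f(Q)| + Σ_P ord_P(f) γ(P, Q)`. -/
noncomputable def u (f : Φ) (Q : X) : ℝ :=
  𝔖.lognorm f Q + ∑ P ∈ 𝔖.supp f, (𝔖.ord P f : ℝ) * 𝔖.γ P Q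

/-- **Step 1**: on the `r₁`-disc of a chart, `u_f` is `log ‖G‖` up to `tdeg f * L`. -/
theorem abs_u_sub_le {f : Φ} {α : I} {G : ℂ → ℂ}
    (hG : ∀ z ∈ 𝔄.A α, ‖z‖ ≤ 𝔄.r₁ → 𝔖.ord (𝔄.pt α z) f = 0 →
      𝔖.lognorm f (𝔄.pt α z) = Real.log ‖G z‖ +
        ∑ P ∈ (𝔖.supp_finite f).toFinset, (𝔖.ord P f : ℝ) * 𝔄.locSum α P z)
    {z : ℂ} (hz : z ∈ 𝔄.A α) (hz1 : ‖z‖ ≤ 𝔄.r₁) (h0 : 𝔖.ord (𝔄.pt α z) f = 0) :
    |𝔖.u f (𝔄.pt α z) - Real.log ‖G z‖| ≤ 𝔖.tdeg f * 𝔖.L := by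
  have h1 : 𝔖.u f (𝔄.pt α z) - Real.log ‖G z‖ =
      ∑ P ∈ 𝔖.supp f, (𝔖.ord P f : ℝ) * (𝔖.γ P (𝔄.pt α z) + 𝔄.locSum α P z) := by
    unfold u
    rw [hG z hz hz1 h0]
    have : (𝔖.supp_finite f).toFinset = 𝔖.supp f := rfl
    rw [this]
    simp only [mul_add, Finset.sum_add_distrib]
    ring
  rw [h1, tdeg, Finset.sum_mul]
  refine (Finset.abs_sum_le_sum_abs _ _).trans (Finset.sum_le_sum ?_)
  intro P hP
  rw [abs_mul]
  by_cases hPQ : P = 𝔄.pt α z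
  · have : 𝔖.ord P f = 0 := by rw [hPQ]; exact h0
    exact absurd this (𝔖.mem_supp.mp hP)
  · exact mul_le_mul_of_nonneg_left (𝔖.hγ α z hz hz1 P hPQ) (abs_nonneg _)

/-- the Harnack constant of the atlas. -/
noncomputable def K : ℝ := ((𝔄.r₁ + 𝔄.r₀) / (𝔄.r₁ - 𝔄.r₀)) ^ 2

omit 𝔖 in
theorem one_le_K : 1 ≤ K (𝔄 := 𝔄) := by
  have h0 := 𝔄.hr₀
  have h1 := 𝔄.hr₀₁
  have h2 : 0 < 𝔄.r₁ - 𝔄.r₀ := by linarith
  have h3 : 1 ≤ (𝔄.r₁ + 𝔄.r₀) / (𝔄.r₁ - 𝔄.r₀) := by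
    rw [one_le_div h2]; linarith
  unfold K
  nlinarith

/-- the propagation function of the chain argument. -/
noncomputable def prop (E a : ℝ) : ℝ := K (𝔄 := 𝔄) * (a + 4 * E)

omit 𝔖 in
theorem le_prop {E a : ℝ} (hE : 0 ≤ E) (ha : 0 ≤ a) : a ≤ prop (𝔄 := 𝔄) E a := by
  have hK := one_le_K (𝔄 := 𝔄)
  unfold prop
  nlinarith

omit 𝔖 in
theorem prop_mono {E a b : ℝ} (hab : a ≤ b) : prop (𝔄 := 𝔄) E a ≤ prop (𝔄 := 𝔄) E b := by
  have hK := one_le_K (𝔄 := 𝔄)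
  unfold prop
  nlinarith

omit 𝔖 in
theorem iterate_prop_nonneg {E a : ℝ} (hE : 0 ≤ E) (ha : 0 ≤ a) (n : ℕ) :
    0 ≤ (prop (𝔄 := 𝔄) E)^[n] a := by
  induction n generalizing a with
  | zero => simpa using ha
  | succ n ih =>
    rw [Function.iterate_succ_apply]
    exact ih (ha.trans (le_prop (𝔄 := 𝔄) hE ha))

omit 𝔖 in
theorem iterate_prop_le_succ {E a : ℝ} (hE : 0 ≤ E) (ha : 0 ≤ a) (n : ℕ) :
    (prop (𝔄 := 𝔄) E)^[n] a ≤ (prop (𝔄 := 𝔄) E)^[n + 1] a := by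
  rw [Function.iterate_succ_apply']
  exact le_prop (𝔄 := 𝔄) hE (iterate_prop_nonneg (𝔄 := 𝔄) hE ha n)

omit 𝔖 in
theorem iterate_prop_mono {E a : ℝ} (hE : 0 ≤ E) (ha : 0 ≤ a) {m n : ℕ} (hmn : m ≤ n) :
    (prop (𝔄 := 𝔄) E)^[m] a ≤ (prop (𝔄 := 𝔄) E)^[n] a := by
  induction n with
  | zero =>
    have : m = 0 := Nat.le_zero.mp hmn
    rw [this]
  | succ n ih =>
    rcases Nat.lt_or_ge m (n + 1) with h | h
    · exact (ih (Nat.lt_succ_iff.mp h)).trans (iterate_prop_le_succ (𝔄 := 𝔄) hE ha n)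
    · have : m = n + 1 := le_antisymm hmn h
      rw [this]

/-- **The abstract uniform Weil decomposition at an archimedean place.** -/
theorem arch_uniform_weil [Fintype I] [Nonempty I] (d : ℝ) :
    ∃ C : ℝ, ∀ f : Φ, 𝔖.tdeg f ≤ d → ∃ c : ℝ, ∀ Q : X, 𝔖.ord Q f = 0 →
      |𝔖.u f Q - c| ≤ C := by
  classical
  set E : ℝ := max d 0 * 𝔖.L with hEdef
  have hE : 0 ≤ E := mul_nonneg (le_max_right _ _) 𝔖.hL
  have hK1 := one_le_K (𝔄 := 𝔄)
  have hK0 : 0 ≤ K (𝔄 := 𝔄) := le_trans zero_le_one hK1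
  set a₀ : ℝ := 2 * K (𝔄 := 𝔄) * E with ha₀def
  have ha₀ : 0 ≤ a₀ := by positivity
  refine ⟨(prop (𝔄 := 𝔄) E)^[Fintype.card I] a₀ + E, fun f hf => ?_⟩
  have hr0 := 𝔄.hr₀
  have hr01 := 𝔄.hr₀₁
  have hr12 := 𝔄.hr₁₂
  -- the local representations
  choose G hGan hG0 hGrep using 𝔖.rep f
  set h : I → ℂ → ℝ := fun α z => Real.log ‖G α z‖ with hh
  have hcont : ∀ α, ContinuousOn (h α) (closedBall 0 𝔄.r₁) := fun α =>
    ContinuousOn.log ((hGan α).continuousOn.norm) (fun z hz => norm_ne_zero_iff.mpr (hG0 α z hz))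
  have hloc : ∀ α, ∀ z ∈ 𝔄.A α, ‖z‖ ≤ 𝔄.r₁ → 𝔖.ord (𝔄.pt α z) f = 0 →
      |𝔖.u f (𝔄.pt α z) - h α z| ≤ E := by
    intro α z hz hz1 h0
    refine (𝔖.abs_u_sub_le (hGrep α) hz hz1 h0).trans ?_
    exact mul_le_mul_of_nonneg_right (hf.trans (le_max_left _ _)) 𝔖.hL
  -- Step 2: the maximum over the `r₀`-discs
  have hmax : ∀ α, ∃ zα ∈ closedBall (0 : ℂ) 𝔄.r₀, ∀ z ∈ closedBall (0 : ℂ) 𝔄.r₀,
      h α z ≤ h α zα := by
    intro α
    have hne : (closedBall (0 : ℂ) 𝔄.r₀).Nonempty := ⟨0, mem_closedBall_self hr0.le⟩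
    obtain ⟨zα, hzα, hm⟩ := (isCompact_closedBall (0 : ℂ) 𝔄.r₀).exists_isMaxOn hne
      ((hcont α).mono (closedBall_subset_closedBall hr01.le))
    exact ⟨zα, hzα, fun z hz => hm hz⟩
  choose zmax hzmax hzmax' using hmax
  obtain ⟨αs, -, hαs⟩ := Finset.exists_max_image (Finset.univ : Finset I)
    (fun α => h α (zmax α)) Finset.univ_nonempty
  set S : ℝ := h αs (zmax αs) with hSdef
  have hS : ∀ α, ∀ z ∈ closedBall (0 : ℂ) 𝔄.r₀, h α z ≤ S := fun α z hz =>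
    (hzmax' α z hz).trans (hαs α (Finset.mem_univ α))
  -- Step 3
  have hupper : ∀ Q, 𝔖.ord Q f = 0 → 𝔖.u f Q ≤ S + E := by
    intro Q hQ
    obtain ⟨α, z, hz, hz0, rfl⟩ := 𝔄.cover Q
    have h1 := hloc α z hz (hz0.trans hr01.le) hQ
    have h2 := hS α z (by simpa [mem_closedBall, dist_eq_norm] using hz0)
    have := (abs_le.mp h1).2
    linarith
  -- Step 4
  have hbig : ∀ α, ∀ z ∈ closedBall (0 : ℂ) 𝔄.r₁, h α z ≤ S + 2 * E := by
    intro α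
    set T : Set ℂ := ⋃ P ∈ 𝔖.supp f, (𝔄.fib α P : Set ℂ) with hT
    have hTfin : T.Finite := by
      apply Set.Finite.biUnion (Finset.finite_toSet _)
      intro P _
      exact Finset.finite_toSet _
    have hsub := 𝔄.dense α T hTfin
    have hclosed : IsClosed (closedBall (0 : ℂ) 𝔄.r₁ ∩ h α ⁻¹' Set.Iic (S + 2 * E)) :=
      (hcont α).preimage_isClosed_of_isClosed isClosed_closedBall isClosed_Iic
    have hmem : (𝔄.A α ∩ closedBall 0 𝔄.r₁) \ T ⊆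
        closedBall (0 : ℂ) 𝔄.r₁ ∩ h α ⁻¹' Set.Iic (S + 2 * E) := by
      rintro z ⟨⟨hzA, hzb⟩, hzT⟩
      refine ⟨hzb, ?_⟩
      have hz1 : ‖z‖ ≤ 𝔄.r₁ := by simpa [mem_closedBall, dist_eq_norm] using hzb
      have h0 : 𝔖.ord (𝔄.pt α z) f = 0 := by
        by_contra hne
        apply hzT
        rw [hT]
        simp only [Set.mem_iUnion, Finset.mem_coe, exists_prop]
        exact ⟨𝔄.pt α z, 𝔖.mem_supp.mpr hne, 𝔄.mem_fib.mpr ⟨hzA, rfl, hz1.trans hr12.le⟩⟩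
      have h1 := (abs_le.mp (hloc α z hzA hz1 h0)).1
      have h2 := hupper _ h0
      show h α z ≤ S + 2 * E
      linarith
    intro z hz
    have := (closure_minimal hmem hclosed) (hsub hz)
    exact this.2
  -- Step 5: Harnack on every chart
  have hharn : ∀ α, ∀ z ∈ closedBall (0 : ℂ) 𝔄.r₀, ∀ z₀ ∈ closedBall (0 : ℂ) 𝔄.r₀,
      (S + 2 * E) - h α z ≤ K (𝔄 := 𝔄) * ((S + 2 * E) - h α z₀) := by
    intro α z hz z₀ hz₀
    exact lognorm_lower_of_upper (hGan α) (hG0 α) (hbig α) hr01 hz hz₀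
  -- Step 6: good charts
  set good : ℝ → I → Prop := fun a α => ∀ z ∈ closedBall (0 : ℂ) 𝔄.r₀, S - a ≤ h α z with hgood
  have hgood0 : good a₀ αs := by
    intro z hz
    have h1 := hharn αs z hz (zmax αs) (hzmax αs)
    have h2 : (S + 2 * E) - h αs (zmax αs) = 2 * E := by rw [← hSdef]; ring
    rw [h2] at h1
    have : K (𝔄 := 𝔄) * (2 * E) = a₀ := by rw [ha₀def]; ring
    rw [this] at h1
    linarith
  have hstep : ∀ a α β, 0 ≤ a → 𝔄.adj.Adj α β → good a α → good (prop (𝔄 := 𝔄) E a) β := by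
    intro a α β ha hadj hg
    -- a common point outside the support
    have hinf := 𝔄.overlap α β hadj
    obtain ⟨Q, hQ, hQs⟩ := hinf.exists_notMem_finset (𝔖.supp f)
    have hQ0 : 𝔖.ord Q f = 0 := by
      by_contra hne; exact hQs (𝔖.mem_supp.mpr hne)
    obtain ⟨⟨z, hzA, hz0, hzQ⟩, ⟨z', hz'A, hz'0, hz'Q⟩⟩ := hQ
    have hzb : z ∈ closedBall (0 : ℂ) 𝔄.r₀ := by simpa [mem_closedBall, dist_eq_norm] using hz0
    have hz'b : z' ∈ closedBall (0 : ℂ) 𝔄.r₀ := by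
      simpa [mem_closedBall, dist_eq_norm] using hz'0
    have h1 := (abs_le.mp (hloc α z hzA (hz0.trans hr01.le) (by rw [hzQ]; exact hQ0))).1
    have h2 := (abs_le.mp (hloc β z' hz'A (hz'0.trans hr01.le) (by rw [hz'Q]; exact hQ0))).2
    rw [hzQ] at h1
    rw [hz'Q] at h2
    have h3 := hg z hzb
    have h4 : S - a - 2 * E ≤ h β z' := by linarith
    intro w hw
    have h5 := hharn β w hw z' hz'b
    have h6 : (S + 2 * E) - h β z' ≤ a + 4 * E := by linarith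
    have h7 : K (𝔄 := 𝔄) * ((S + 2 * E) - h β z') ≤ K (𝔄 := 𝔄) * (a + 4 * E) :=
      mul_le_mul_of_nonneg_left h6 hK0
    unfold prop
    linarith
  have hwalk : ∀ (α β : I) (p : 𝔄.adj.Walk α β) (a : ℝ), 0 ≤ a → good a α →
      good ((prop (𝔄 := 𝔄) E)^[p.length] a) β := by
    intro α β p
    induction p with
    | nil => intro a _ hg; simpa using hg
    | cons hadj p ih =>
      intro a ha hg
      rw [SimpleGraph.Walk.length_cons, Function.iterate_succ_apply]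
      exact ih _ (ha.trans (le_prop (𝔄 := 𝔄) hE ha)) (hstep a _ _ ha hadj hg)
  have hall : ∀ β, good ((prop (𝔄 := 𝔄) E)^[Fintype.card I] a₀) β := by
    intro β
    obtain ⟨p, hp⟩ := 𝔄.conn.exists_isPath αs β
    have h1 := hwalk αs β p a₀ ha₀ hgood0
    have h2 := iterate_prop_mono (𝔄 := 𝔄) hE ha₀ (hp.length_lt).le
    intro z hz
    have := h1 z hz
    linarith
  -- Step 7
  refine ⟨S, fun Q hQ => ?_⟩
  rw [abs_le]
  constructor
  · obtain ⟨α, z, hz, hz0, rfl⟩ := 𝔄.cover Q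
    have h1 := (abs_le.mp (hloc α z hz (hz0.trans hr01.le) hQ)).1
    have h2 := hall α z (by simpa [mem_closedBall, dist_eq_norm] using hz0)
    linarith
  · have h1 := hupper Q hQ
    have h2 := iterate_prop_nonneg (𝔄 := 𝔄) hE ha₀ (Fintype.card I)
    linarith

end ArchSystem

end Fermat.Agent.MW
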