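/-
MW / [ARCH] (helper9): THE SHARED INTERFACE between the dictionary side (places of the function
field of `X₀(N)` ↔ points of `Γ₀(N)\ℍ*`, helper9) and the geometry side (atlas, Green function,
helper7).  Mathlib + the abstract atlas of `ARCH_helper9_Chain` only.

* `UnifData N X` : a set `X` of "points" uniformised by `ℍ` modulo `Γ₀(N)` plus two cusps.
* `ChartParams N` : numerical parameters of the three charts (one big Euclidean disc in `ℍ`, one
  `q`-disc at the cusp `∞`, one `q_N`-disc at the cusp `0`).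
* `chartLift`, `chartPt`, `chartA`, `chartE`, `chartDeriv` : the three charts.
* `stabMult N τ` : the order of the stabiliser of `τ` in `Γ₀(N)/±1`.
* `GeomPkg U P` : the contract the geometry side delivers.
-/
import Mathlib
import Fermat.Agent.MW.ARCH_helper9_Chain

set_option autoImplicit false

namespace Fermat.Agent.MW

open UpperHalfPlane CongruenceSubgroup ModularGroup Metric
open scoped MatrixGroups

/-- Points `X` uniformised by `Γ₀(N)\ℍ` (on the `SL(2,ℤ)`-stable dense set `adm` of admissible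
points) together with two cusps. -/
structure UnifData (N : ℕ) (X : Type*) where
  /-- admissible points of `ℍ` (those with algebraic `j`-invariant) -/
  adm : Set ℍ
  adm_smul : ∀ (g : SL(2, ℤ)) (τ : ℍ), τ ∈ adm → g • τ ∈ adm
  adm_dense : Dense adm
  /-- the point of `X` below `τ` (meaningful for `τ ∈ adm`) -/
  pt : ℍ → X
  pt_eq_iff : ∀ τ ∈ adm, ∀ τ' ∈ adm, (pt τ = pt τ' ↔ ∃ γ ∈ Gamma0 N, γ • τ = τ')
  /-- the cusp `∞` -/
  cInf : X
  /-- the cusp `0` -/
  cZero : X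
  cInf_ne_cZero : cInf ≠ cZero
  pt_ne_cInf : ∀ τ ∈ adm, pt τ ≠ cInf
  pt_ne_cZero : ∀ τ ∈ adm, pt τ ≠ cZero
  cover : ∀ Q : X, Q = cInf ∨ Q = cZero ∨ ∃ τ ∈ adm, pt τ = Q

/-- The order of the stabiliser of `τ` in `Γ₀(N)/±1`. -/
noncomputable def stabMult (N : ℕ) (τ : ℍ) : ℕ :=
  Nat.card (MulAction.stabilizer (Gamma0 N) τ) / 2

/-- The three charts. -/
inductive ChartIdx
  | H
  | inf
  | zero
  deriving DecidableEq

instance : Fintype ChartIdx :=
  ⟨{ChartIdx.H, ChartIdx.inf, ChartIdx.zero}, fun x => by cases x <;> simp⟩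

instance : Nonempty ChartIdx := ⟨ChartIdx.H⟩

/-- is `z` the centre of a cusp chart? -/
def ChartIdx.IsCusp : ChartIdx → ℂ → Prop
  | ChartIdx.H, _ => False
  | ChartIdx.inf, z => z = 0
  | ChartIdx.zero, z => z = 0

/-- Numerical parameters of the three charts: the `H`-chart is `z ↦ iY + sH·z`, the chart at `∞` is
`z ↦ τ` with `exp(2πiτ) = sInf·z`, the chart at `0` is `z ↦ S•τ'` with `exp(2πiτ'/N) = sZero·z`;
common radii `r₀ < r₁ < r₂`. -/
structure ChartParams (N : ℕ) where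
  Y : ℝ
  sH : ℝ
  sInf : ℝ
  sZero : ℝ
  r₀ : ℝ
  r₁ : ℝ
  r₂ : ℝ
  hr₀ : 0 < r₀
  hr₀₁ : r₀ < r₁
  hr₁₂ : r₁ < r₂
  hsH : 0 < sH
  hH : sH * r₂ < Y
  hsInf : 0 < sInf
  hInf : sInf * r₂ < Real.exp (-2 * Real.pi)
  hsZero : 0 < sZero
  hZero : sZero * r₂ < Real.exp (-2 * Real.pi / N)

namespace ChartParams

variable {N : ℕ} (P : ChartParams N)

/-- the lift `ℂ → ℍ` of a chart (junk outside the `r₂`-disc, and at `z = 0` for the cusp charts). -/
noncomputable def lift : ChartIdx → ℂ → ℍ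
  | ChartIdx.H, z => ofComplex ((P.Y : ℂ) * Complex.I + (P.sH : ℂ) * z)
  | ChartIdx.inf, z => ofComplex (Function.Periodic.invQParam 1 ((P.sInf : ℂ) * z))
  | ChartIdx.zero, z =>
      ModularGroup.S • ofComplex (Function.Periodic.invQParam (N : ℝ) ((P.sZero : ℂ) * z))

/-- the absolute value of the derivative `|dτ/dz|` of the lift. -/
noncomputable def deriv : ChartIdx → ℂ → ℝ
  | ChartIdx.H, _ => P.sH
  | ChartIdx.inf, z => 1 / (2 * Real.pi * ‖z‖)
  | ChartIdx.zero, z =>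
      (N : ℝ) / (2 * Real.pi * ‖z‖ *
        ‖Function.Periodic.invQParam (N : ℝ) ((P.sZero : ℂ) * z)‖ ^ 2)

end ChartParams

variable {N : ℕ} {X : Type*}

/-- the point map of a chart. -/
noncomputable def chartPt (U : UnifData N X) (P : ChartParams N) : ChartIdx → ℂ → X
  | ChartIdx.H, z => U.pt (P.lift ChartIdx.H z)
  | ChartIdx.inf, z => open Classical in if z = 0 then U.cInf else U.pt (P.lift ChartIdx.inf z)
  | ChartIdx.zero, z => open Classical in if z = 0 then U.cZero else U.pt (P.lift ChartIdx.zero z)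

/-- the admissible parameters of a chart. -/
def chartA (U : UnifData N X) (P : ChartParams N) : ChartIdx → Set ℂ
  | ChartIdx.H => {z | P.lift ChartIdx.H z ∈ U.adm}
  | ChartIdx.inf => {z | z = 0 ∨ P.lift ChartIdx.inf z ∈ U.adm}
  | ChartIdx.zero => {z | z = 0 ∨ P.lift ChartIdx.zero z ∈ U.adm}

/-- the multiplicities of a chart: the order of the stabiliser in `Γ₀(N)/±1` (`1` at a cusp). -/
noncomputable def chartE (P : ChartParams N) : ChartIdx → ℂ → ℕ
  | ChartIdx.H, z => stabMult N (P.lift ChartIdx.H z)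
  | ChartIdx.inf, z => open Classical in if z = 0 then 1 else stabMult N (P.lift ChartIdx.inf z)
  | ChartIdx.zero, z => open Classical in if z = 0 then 1 else stabMult N (P.lift ChartIdx.zero z)

/-- **The contract of the geometry side** for given uniformisation data and chart parameters. -/
structure GeomPkg (U : UnifData N X) (P : ChartParams N) where
  atlas : ArchAtlas X ChartIdx
  atlas_A : atlas.A = chartA U P
  atlas_pt : atlas.pt = chartPt U P
  atlas_e : atlas.e = chartE P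
  atlas_r₀ : atlas.r₀ = P.r₀
  atlas_r₁ : atlas.r₁ = P.r₁
  atlas_r₂ : atlas.r₂ = P.r₂
  /-- the logarithmic inverse distance (truncated Green function) -/
  γ : X → X → ℝ
  γ_symm : ∀ Q Q', γ Q Q' = γ Q' Q
  γ_nonneg : ∀ Q Q', 0 ≤ γ Q Q'
  L : ℝ
  hL : 0 ≤ L
  hγ : ∀ α, ∀ z ∈ atlas.A α, ‖z‖ ≤ atlas.r₁ → ∀ Q, Q ≠ atlas.pt α z →
    |γ Q (atlas.pt α z) + atlas.locSum α Q z| ≤ L
  /-- the logarithm of the dual metric on `ℍ` (regularised self-intersection) -/
  ϱ : ℍ → ℝ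
  ϱ_smul : ∀ g ∈ Gamma0 N, ∀ τ : ℍ, ϱ (g • τ) = ϱ τ - 2 * Real.log ‖denom g τ‖
  hϱ : ∀ α, ∀ z ∈ atlas.A α, ‖z‖ ≤ atlas.r₁ → ¬ α.IsCusp z → stabMult N (P.lift α z) = 1 →
    |ϱ (P.lift α z) - Real.log (P.deriv α z) + atlas.locSum α (atlas.pt α z) z| ≤ L
  /-- the elliptic parameters of the `H`-chart -/
  ell : Finset ℂ
  mem_ell : ∀ z, z ∈ ell ↔ ‖z‖ ≤ P.r₂ ∧ 1 < stabMult N (P.lift ChartIdx.H z)
  hell : ∀ z ∈ atlas.A ChartIdx.H, ‖z‖ ≤ atlas.r₁ → stabMult N (P.lift ChartIdx.H z) = 1 →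
    |(∑ u ∈ ell, ((stabMult N (P.lift ChartIdx.H u) : ℝ) - 1) * Real.log ‖z - u‖) -
      atlas.locSum ChartIdx.H (atlas.pt ChartIdx.H z) z| ≤ L
  /-- no elliptic points in the cusp charts -/
  stabMult_cusp : ∀ α, α ≠ ChartIdx.H → ∀ z : ℂ, z ≠ 0 → ‖z‖ ≤ P.r₂ →
    stabMult N (P.lift α z) = 1
  /-- in the cusp charts every point has at most one parameter -/
  inj_cusp : ∀ α, α ≠ ChartIdx.H → ∀ z ∈ atlas.A α, ∀ z' ∈ atlas.A α, ‖z‖ ≤ P.r₂ → ‖z'‖ ≤ P.r₂ →
    atlas.pt α z = atlas.pt α z' → z = z'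

end Fermat.Agent.MW
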