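/-
MW / [ARCH] (helper9), package (P3b): stabilisers in `SL(2, ℤ)` of points of `ℍ`, and the
identification of the ramification index `hMult` with the order `stabMult` of the stabiliser in
`Γ₀(N)/±1`.
-/
import Mathlib
import Fermat.Agent.MW.ARCH_helper9_DictH
import Fermat.Agent.MW.ARCH_helper9_Unif
import Fermat.Agent.X0N.Cosets_helper9_Orbits

set_option autoImplicit false
set_option linter.unusedSectionVars false

open AlgebraicCurve CongruenceSubgroup MatrixGroups ModularGroup ModularCurve UpperHalfPlane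

namespace Fermat.Agent.MW

open Fermat.Agent.FF Fermat.Agent.X0N

/-! ### stabilisers in `SL(2, ℤ)` -/

theorem sl2_ext {g g' : SL(2, ℤ)} (h00 : g 0 0 = g' 0 0) (h01 : g 0 1 = g' 0 1)
    (h10 : g 1 0 = g' 1 0) (h11 : g 1 1 = g' 1 1) : g = g' := by
  apply Subtype.ext
  ext i j
  fin_cases i <;> fin_cases j
  · exact h00
  · exact h01
  · exact h10
  · exact h11

theorem sl2_det (g : SL(2, ℤ)) : g 0 0 * g 1 1 - g 0 1 * g 1 0 = 1 := by
  have := g.det_coe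
  rw [Matrix.det_fin_two] at this
  exact this

/-- the fixed point equation: `g • τ = τ` iff `c τ² + (d - a) τ - b = 0`. -/
theorem smul_eq_self_iff (g : SL(2, ℤ)) (τ : ℍ) :
    g • τ = τ ↔ (g 1 0 : ℂ) * (τ : ℂ) ^ 2 + ((g 1 1 : ℂ) - (g 0 0 : ℂ)) * (τ : ℂ) - (g 0 1 : ℂ) = 0
    := by
  have hden : (g 1 0 : ℂ) * (τ : ℂ) + (g 1 1 : ℂ) ≠ 0 := by
    have := denom_ne_zero g τ
    rwa [ModularGroup.denom_apply] at this
  rw [UpperHalfPlane.ext_iff, coe_specialLinearGroup_apply]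
  simp only [algebraMap_int_eq, eq_intCast, Complex.ofReal_intCast]
  rw [div_eq_iff hden]
  constructor
  · intro h
    linear_combination -h
  · intro h
    linear_combination -h

/-- if `c τ² + m τ + n = 0` with real `c, m, n` and `τ ∈ ℍ`, then `m = -2 c Re τ` and
`n = c |τ|²`; in particular `c = 0` forces `m = n = 0`. -/
theorem real_quadratic_of_root {c m n : ℝ} (τ : ℍ)
    (h : (c : ℂ) * (τ : ℂ) ^ 2 + (m : ℂ) * (τ : ℂ) + (n : ℂ) = 0) :
    m = -2 * c * τ.re ∧ n = c * (τ.re ^ 2 + τ.im ^ 2) := by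
  have him := congrArg Complex.im h
  have hre := congrArg Complex.re h
  simp only [pow_two, Complex.add_im, Complex.mul_im, Complex.ofReal_re, Complex.ofReal_im,
    Complex.zero_im, Complex.add_re, Complex.mul_re, Complex.zero_re, zero_mul, sub_zero,
    add_zero, coe_re, coe_im] at him hre
  have hpos := τ.im_pos
  have h1 : m = -2 * c * τ.re := by
    have : τ.im * (c * (2 * τ.re) + m) = 0 := by nlinarith
    rcases mul_eq_zero.mp this with h0 | h0
    · exact absurd h0 hpos.ne'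
    · linarith
  refine ⟨h1, ?_⟩
  rw [h1] at hre
  nlinarith

/-- **generic points have trivial stabiliser** (`±1`). -/
theorem eq_one_or_neg_one_of_smul_eq {g : SL(2, ℤ)} {τ : ℍ} (hg : g • τ = τ) (h0 : jFun τ ≠ 0)
    (h1 : jFun τ ≠ 1728) : g = 1 ∨ g = -1 := by
  -- the multiplier is `1`
  set f : HolH := jHol - HolH.const (jFun τ) with hf
  have hord : HolH.ord τ f = 1 := ord_jHol_sub_const_of_ne h0 h1
  have hf0 : f ≠ 0 := by
    intro h
    rw [h, HolH.ord_zero] at hord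
    exact zero_ne_one hord
  have hcomp : HolH.comp g f = f := by
    ext z
    simp only [HolH.comp_apply, hf]
    show jFun (g • z) - jFun τ = jFun z - jFun τ
    rw [jFun_smul]
  have hx : MerH.comp g (MerH.ofHol f) = MerH.ofHol f := by
    show MerH.comp g (algebraMap HolH MerH f) = _
    rw [MerH.comp_algebraMap, hcomp]
  have hz := MerH.zpow_ordAt_eq_one_of_comp_eq hg hx
  rw [MerH.ordAt_ofHol hf0, hord] at hz
  simp only [Nat.cast_one, zpow_one] at hz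
  have hden0 : denom g τ ≠ 0 := denom_ne_zero g τ
  have hsq : (denom g τ) ^ 2 = 1 := by
    have := inv_eq_one.mp hz
    exact this
  rw [ModularGroup.denom_apply] at hsq
  -- `c = 0`
  have him := congrArg Complex.im hsq
  have hre := congrArg Complex.re hsq
  simp only [pow_two, Complex.add_im, Complex.mul_im, Complex.intCast_re, Complex.intCast_im,
    Complex.add_re, Complex.mul_re, Complex.one_im, Complex.one_re, zero_mul, sub_zero, add_zero,
    coe_re, coe_im] at him hre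
  have hpos := τ.im_pos
  have hc : (g 1 0 : ℝ) = 0 := by
    by_contra hc
    have h2 : (g 1 0 : ℝ) * τ.re + (g 1 1 : ℝ) = 0 := by
      have : ((g 1 0 : ℝ) * τ.im) * ((g 1 0 : ℝ) * τ.re + (g 1 1 : ℝ)) = 0 := by nlinarith
      rcases mul_eq_zero.mp this with h | h
      · exfalso
        rcases mul_eq_zero.mp h with h | h
        · exact hc h
        · exact hpos.ne' h
      · exact h
    have h3 : ((g 1 0 : ℝ) * τ.im) ^ 2 = -1 := by nlinarith
    nlinarith [sq_nonneg ((g 1 0 : ℝ) * τ.im)]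
  have hc' : g 1 0 = 0 := by exact_mod_cast hc
  have hd2 : (g 1 1 : ℝ) ^ 2 = 1 := by
    rw [hc] at hre
    nlinarith
  have hd2' : (g 1 1) ^ 2 = 1 := by exact_mod_cast hd2
  have hdet := sl2_det g
  rw [hc', mul_zero, sub_zero] at hdet
  have hfix := (smul_eq_self_iff g τ).mp hg
  rw [hc'] at hfix
  simp only [Int.cast_zero, zero_mul, zero_add] at hfix
  have hd : g 1 1 = 1 ∨ g 1 1 = -1 := by
    have : (g 1 1 - 1) * (g 1 1 + 1) = 0 := by linear_combination hd2'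
    rcases mul_eq_zero.mp this with h | h
    · left; linarith
    · right; linarith
  have ha : g 0 0 = g 1 1 := by
    rcases hd with h | h
    · rw [h] at hdet ⊢; linarith
    · rw [h] at hdet ⊢; linarith
  have hb : g 0 1 = 0 := by
    rw [ha, sub_self, zero_mul, zero_sub, neg_eq_zero] at hfix
    exact_mod_cast hfix
  rcases hd with h | h
  · left
    apply sl2_ext <;> simp [ha, hb, hc', h]
  · right
    apply sl2_ext <;> simp [ha, hb, hc', h]

theorem int_quadratic_of_root {c m n : ℤ} (τ : ℍ)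
    (h : (c : ℂ) * (τ : ℂ) ^ 2 + (m : ℂ) * (τ : ℂ) + (n : ℂ) = 0) :
    (m : ℝ) = -2 * c * τ.re ∧ (n : ℝ) = c * (τ.re ^ 2 + τ.im ^ 2) := by
  apply real_quadratic_of_root τ
  push_cast
  exact h

/-- the shape of an element fixing `τ`. -/
theorem shape_of_smul_eq {g : SL(2, ℤ)} {τ : ℍ} (hg : g • τ = τ) :
    ((g 1 1 - g 0 0 : ℤ) : ℝ) = -2 * (g 1 0 : ℤ) * τ.re ∧
      ((-(g 0 1) : ℤ) : ℝ) = (g 1 0 : ℤ) * (τ.re ^ 2 + τ.im ^ 2) := by
  apply int_quadratic_of_root τ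
  have := (smul_eq_self_iff g τ).mp hg
  push_cast
  linear_combination this

theorem I_re : (UpperHalfPlane.I).re = 0 := by simp [UpperHalfPlane.I]

theorem I_im : (UpperHalfPlane.I).im = 1 := by simp [UpperHalfPlane.I]

/-- **the stabiliser of `i` is `⟨S⟩`.** -/
theorem mem_zpowers_S_of_smul_I {g : SL(2, ℤ)} (hg : g • UpperHalfPlane.I = UpperHalfPlane.I) :
    g ∈ Subgroup.zpowers S := by
  obtain ⟨h1, h2⟩ := shape_of_smul_eq hg
  rw [I_re] at h1
  rw [I_re, I_im] at h2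
  have ha : g 1 1 = g 0 0 := by
    have : ((g 1 1 - g 0 0 : ℤ) : ℝ) = 0 := by rw [h1]; ring
    have : g 1 1 - g 0 0 = 0 := by exact_mod_cast this
    linarith
  have hb : g 0 1 = -(g 1 0) := by
    have : ((-(g 0 1) : ℤ) : ℝ) = ((g 1 0 : ℤ) : ℝ) := by rw [h2]; ring
    have : -(g 0 1) = g 1 0 := by exact_mod_cast this
    linarith
  have hdet := sl2_det g
  rw [ha, hb] at hdet
  have hsq : g 0 0 ^ 2 + g 1 0 ^ 2 = 1 := by linarith [hdet]
  have hab : -1 ≤ g 0 0 ∧ g 0 0 ≤ 1 := by constructor <;> nlinarith [sq_nonneg (g 1 0)]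
  have hcb : -1 ≤ g 1 0 ∧ g 1 0 ≤ 1 := by constructor <;> nlinarith [sq_nonneg (g 0 0)]
  obtain ⟨ha1, ha2⟩ := hab
  obtain ⟨hc1, hc2⟩ := hcb
  rw [Subgroup.mem_zpowers_iff]
  have hS2 : (S : SL(2, ℤ)) ^ 2 = -1 := S_sq
  interval_cases hA : g 0 0 <;> interval_cases hC : g 1 0 <;> simp at hsq
  · -- a = -1, c = 0
    refine ⟨2, ?_⟩
    rw [zpow_ofNat, hS2]
    apply sl2_ext <;> simp [hA, hC, ha, hb]
  · -- a = 0, c = -1
    refine ⟨3, ?_⟩
    have : (S : SL(2, ℤ)) ^ (3 : ℤ) = -S := by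
      rw [show (3 : ℤ) = ((3 : ℕ) : ℤ) from rfl, zpow_natCast, pow_succ, hS2]
      simp
    rw [this]
    apply sl2_ext <;> simp [hA, hC, ha, hb, S]
  · -- a = 0, c = 1
    refine ⟨1, ?_⟩
    rw [zpow_one]
    apply sl2_ext <;> simp [hA, hC, ha, hb, S]
  · -- a = 1, c = 0
    refine ⟨0, ?_⟩
    rw [zpow_zero]
    apply sl2_ext <;> simp [hA, hC, ha, hb]

theorem rhoH_re : rhoH.re = -1 / 2 := by simp [rhoH, UpperHalfPlane.re]

theorem rhoH_normSq : rhoH.re ^ 2 + rhoH.im ^ 2 = 1 := by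
  have h3 : Real.sqrt 3 * Real.sqrt 3 = 3 := Real.mul_self_sqrt (by norm_num)
  have h1 : rhoH.re = -1 / 2 := rhoH_re
  have h2 : rhoH.im = Real.sqrt 3 / 2 := by simp [rhoH, UpperHalfPlane.im]
  rw [h1, h2]
  nlinarith

/-- **the stabiliser of `ρ` is `⟨ST⟩`.** -/
theorem mem_zpowers_ST_of_smul_rhoH {g : SL(2, ℤ)} (hg : g • rhoH = rhoH) :
    g ∈ Subgroup.zpowers (S * T) := by
  obtain ⟨h1, h2⟩ := shape_of_smul_eq hg
  rw [rhoH_re] at h1
  rw [rhoH_normSq] at h2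
  have ha : g 0 0 = g 1 1 - g 1 0 := by
    have : ((g 1 1 - g 0 0 : ℤ) : ℝ) = ((g 1 0 : ℤ) : ℝ) := by rw [h1]; ring
    have : g 1 1 - g 0 0 = g 1 0 := by exact_mod_cast this
    linarith
  have hb : g 0 1 = -(g 1 0) := by
    have : ((-(g 0 1) : ℤ) : ℝ) = ((g 1 0 : ℤ) : ℝ) := by rw [h2]; ring
    have : -(g 0 1) = g 1 0 := by exact_mod_cast this
    linarith
  have hdet := sl2_det g
  rw [ha, hb] at hdet
  have hsq : g 1 1 ^ 2 - g 1 0 * g 1 1 + g 1 0 ^ 2 = 1 := by linarith [hdet]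
  have hcb : -1 ≤ g 1 0 ∧ g 1 0 ≤ 1 := by
    constructor <;> nlinarith [sq_nonneg (2 * g 1 1 - g 1 0)]
  have hdb : -1 ≤ g 1 1 ∧ g 1 1 ≤ 1 := by
    constructor <;> nlinarith [sq_nonneg (2 * g 1 0 - g 1 1)]
  obtain ⟨hc1, hc2⟩ := hcb
  obtain ⟨hd1, hd2⟩ := hdb
  rw [Subgroup.mem_zpowers_iff]
  have e1 : ((S * T : SL(2, ℤ)) ^ 2) = ⟨!![-1, -1; 1, 0], by decide⟩ := by decide
  have e3 : ((S * T : SL(2, ℤ)) ^ 3) = -1 := ST_cube
  interval_cases hC : g 1 0 <;> interval_cases hD : g 1 1 <;> simp at hsq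
  · -- c = -1, d = -1 : -(ST) = (ST)^4
    refine ⟨4, ?_⟩
    have : (S * T : SL(2, ℤ)) ^ (4 : ℤ) = -(S * T) := by
      rw [show (4 : ℤ) = ((4 : ℕ) : ℤ) from rfl, zpow_natCast, pow_succ, e3]
      simp
    rw [this]
    apply sl2_ext <;> simp [hC, hD, ha, hb, S, T]
  · -- c = -1, d = 0 : -(ST)^2 = (ST)^5
    refine ⟨5, ?_⟩
    have : (S * T : SL(2, ℤ)) ^ (5 : ℤ) = -((S * T) ^ 2) := by
      rw [show (5 : ℤ) = ((5 : ℕ) : ℤ) from rfl, zpow_natCast,
        show (5 : ℕ) = 3 + 2 from rfl, pow_add, e3]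
      simp
    rw [this, e1]
    apply sl2_ext <;> simp [hC, hD, ha, hb]
  · -- c = 0, d = -1 : -1 = (ST)^3
    refine ⟨3, ?_⟩
    rw [show (3 : ℤ) = ((3 : ℕ) : ℤ) from rfl, zpow_natCast, e3]
    apply sl2_ext <;> simp [hC, hD, ha, hb]
  · -- c = 0, d = 1 : 1
    refine ⟨0, ?_⟩
    rw [zpow_zero]
    apply sl2_ext <;> simp [hC, hD, ha, hb]
  · -- c = 1, d = 0 : (ST)^2
    refine ⟨2, ?_⟩
    rw [show (2 : ℤ) = ((2 : ℕ) : ℤ) from rfl, zpow_natCast, e1]
    apply sl2_ext <;> simp [hC, hD, ha, hb]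
  · -- c = 1, d = 1 : ST
    refine ⟨1, ?_⟩
    rw [zpow_one]
    apply sl2_ext <;> simp [hC, hD, ha, hb, S, T]

/-! ### orbit–stabiliser -/

section OrbitStab

variable {N : ℕ}

/-- conjugation identifies the stabiliser of the coset `g⁻¹Γ₀(N)` in `Stab(τ₀)` with the stabiliser
of `g • τ₀` in `Γ₀(N)`. -/
noncomputable def stabEquiv (s : SL(2, ℤ)) (τ₀ : ℍ)
    (hs : ∀ g : SL(2, ℤ), g • τ₀ = τ₀ ↔ g ∈ Subgroup.zpowers s) (g : SL(2, ℤ)) :
    MulAction.stabilizer (Subgroup.zpowers s) ((g⁻¹ : SL(2, ℤ)) : SL(2, ℤ) ⧸ Gamma0 N) ≃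
      MulAction.stabilizer (Gamma0 N) (g • τ₀) where
  toFun h := ⟨⟨g * (h : Subgroup.zpowers s) * g⁻¹, by
      have h0 := h.2
      rw [MulAction.mem_stabilizer_iff] at h0
      have h1 : (((h : Subgroup.zpowers s) : SL(2, ℤ))) •
          ((g⁻¹ : SL(2, ℤ)) : SL(2, ℤ) ⧸ Gamma0 N) = ((g⁻¹ : SL(2, ℤ)) : SL(2, ℤ) ⧸ Gamma0 N) := h0
      rw [MulAction.Quotient.smul_mk, QuotientGroup.eq] at h1
      have h2 := (Gamma0 N).inv_mem h1
      have e : (((h : Subgroup.zpowers s) : SL(2, ℤ)) • g⁻¹)⁻¹ * g⁻¹ =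
          (g * ((h : Subgroup.zpowers s) : SL(2, ℤ)) * g⁻¹)⁻¹ := by
        rw [smul_eq_mul]; group
      rw [e, inv_inv] at h2
      exact h2⟩, by
      rw [MulAction.mem_stabilizer_iff, Subgroup.smul_def]
      show (g * ((h : Subgroup.zpowers s) : SL(2, ℤ)) * g⁻¹) • g • τ₀ = g • τ₀
      rw [← mul_smul, inv_mul_cancel_right, mul_smul,
        (hs _).mpr (h : Subgroup.zpowers s).2]⟩
  invFun γ := ⟨⟨g⁻¹ * ((γ : Gamma0 N) : SL(2, ℤ)) * g, by
      rw [← hs]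
      have h1 := γ.2
      rw [MulAction.mem_stabilizer_iff, Subgroup.smul_def] at h1
      rw [mul_smul, mul_smul, h1, inv_smul_smul]⟩, by
      rw [MulAction.mem_stabilizer_iff]
      show (g⁻¹ * ((γ : Gamma0 N) : SL(2, ℤ)) * g) •
          ((g⁻¹ : SL(2, ℤ)) : SL(2, ℤ) ⧸ Gamma0 N) = ((g⁻¹ : SL(2, ℤ)) : SL(2, ℤ) ⧸ Gamma0 N)
      rw [MulAction.Quotient.smul_mk, QuotientGroup.eq]
      have e : ((g⁻¹ * ((γ : Gamma0 N) : SL(2, ℤ)) * g) • g⁻¹)⁻¹ * g⁻¹ =
          (((γ : Gamma0 N) : SL(2, ℤ)))⁻¹ := by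
        rw [smul_eq_mul]; group
      rw [e]
      exact (Gamma0 N).inv_mem (γ : Gamma0 N).2⟩
  left_inv h := by
    apply Subtype.ext
    apply Subtype.ext
    show g⁻¹ * (g * ((h : Subgroup.zpowers s) : SL(2, ℤ)) * g⁻¹) * g = _
    group
  right_inv γ := by
    apply Subtype.ext
    apply Subtype.ext
    show g * (g⁻¹ * ((γ : Gamma0 N) : SL(2, ℤ)) * g) * g⁻¹ = _
    group

/-- **orbit–stabiliser**: `|Stab_{Γ₀(N)}(g τ₀)| · |⟨s⟩-orbit of g⁻¹Γ₀(N)| = |⟨s⟩|`. -/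
theorem card_stabilizer_mul_card_orbit (s : SL(2, ℤ)) (τ₀ : ℍ)
    (hs : ∀ g : SL(2, ℤ), g • τ₀ = τ₀ ↔ g ∈ Subgroup.zpowers s) (g : SL(2, ℤ)) :
    Nat.card (MulAction.stabilizer (Gamma0 N) (g • τ₀)) *
      Nat.card {q' // MulAction.orbitRel (Subgroup.zpowers s) (SL(2, ℤ) ⧸ Gamma0 N) q'
        ((g⁻¹ : SL(2, ℤ)) : SL(2, ℤ) ⧸ Gamma0 N)} = Nat.card (Subgroup.zpowers s) := by
  set q : SL(2, ℤ) ⧸ Gamma0 N := ((g⁻¹ : SL(2, ℤ)) : SL(2, ℤ) ⧸ Gamma0 N) with hq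
  have e1 : Nat.card {q' // MulAction.orbitRel (Subgroup.zpowers s) (SL(2, ℤ) ⧸ Gamma0 N) q' q} =
      Nat.card (MulAction.orbit (Subgroup.zpowers s) q) :=
    Nat.card_congr (Equiv.subtypeEquivRight fun q' => MulAction.orbitRel_apply)
  have e2 : Nat.card (MulAction.stabilizer (Gamma0 N) (g • τ₀)) =
      Nat.card (MulAction.stabilizer (Subgroup.zpowers s) q) :=
    (Nat.card_congr (stabEquiv s τ₀ hs g)).symm
  rw [e1, e2, mul_comm, ← Nat.card_prod]
  exact Nat.card_congr (MulAction.orbitProdStabilizerEquivGroup (Subgroup.zpowers s) q)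

theorem neg_one_smul_H (τ : ℍ) : (-1 : SL(2, ℤ)) • τ = τ := by
  have := ModularGroup.SL_neg_smul (1 : SL(2, ℤ)) τ
  rwa [one_smul] at this

theorem orderOf_neg_one_SL : orderOf (-1 : SL(2, ℤ)) = 2 := by
  have h := orderOf_eq_prime_pow (x := (-1 : SL(2, ℤ))) (p := 2) (n := 0) (by decide) (by decide)
  simpa using h

/-- the orbit of a coset under `⟨-1⟩` is a point. -/
theorem card_orbit_neg_one (q : SL(2, ℤ) ⧸ Gamma0 N) :
    Nat.card {q' // MulAction.orbitRel (Subgroup.zpowers (-1 : SL(2, ℤ)))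
      (SL(2, ℤ) ⧸ Gamma0 N) q' q} = 1 := by
  have : ∀ q' : SL(2, ℤ) ⧸ Gamma0 N,
      MulAction.orbitRel (Subgroup.zpowers (-1 : SL(2, ℤ))) (SL(2, ℤ) ⧸ Gamma0 N) q' q ↔ q' = q := by
    intro q'
    rw [MulAction.orbitRel_apply]
    constructor
    · rintro ⟨⟨h, hh⟩, rfl⟩
      obtain ⟨n, rfl⟩ := Subgroup.mem_zpowers_iff.mp hh
      show ((-1 : SL(2, ℤ)) ^ n) • q = q
      have h1 : (-1 : SL(2, ℤ)) ∈ MulAction.stabilizer SL(2, ℤ) q := neg_one_smul_coset N q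
      exact (MulAction.stabilizer SL(2, ℤ) q).zpow_mem h1 n
    · rintro rfl
      exact MulAction.mem_orbit_self _
  rw [Nat.card_congr (Equiv.subtypeEquivRight this)]
  simp

/-- **generic points**: the stabiliser in `Γ₀(N)` is `±1`. -/
theorem card_stabilizer_generic {τ : ℍ} (h0 : jFun τ ≠ 0) (h1 : jFun τ ≠ 1728) :
    Nat.card (MulAction.stabilizer (Gamma0 N) τ) = 2 := by
  have hs : ∀ g : SL(2, ℤ), g • τ = τ ↔ g ∈ Subgroup.zpowers (-1 : SL(2, ℤ)) := by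
    intro g
    constructor
    · intro hg
      rcases eq_one_or_neg_one_of_smul_eq hg h0 h1 with rfl | rfl
      · exact Subgroup.one_mem _
      · exact Subgroup.mem_zpowers _
    · intro hg
      obtain ⟨n, rfl⟩ := Subgroup.mem_zpowers_iff.mp hg
      exact zpow_smul_eq_of_smul_eq (neg_one_smul_H τ) n
  have key := card_stabilizer_mul_card_orbit (N := N) (-1 : SL(2, ℤ)) τ hs 1
  rw [one_smul, card_orbit_neg_one, mul_one, Nat.card_zpowers, orderOf_neg_one_SL] at key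
  exact key

theorem stabMult_generic {τ : ℍ} (h0 : jFun τ ≠ 0) (h1 : jFun τ ≠ 1728) : stabMult N τ = 1 := by
  rw [stabMult, card_stabilizer_generic h0 h1]

end OrbitStab

/-! ### `hMult = stabMult` -/

theorem mult_aux {m : ℤ} {e c o : ℕ} (h1 : (e : ℤ) = m * o) (he : 0 < e) (h2 : c * o = 2 * e) :
    m = ((c / 2 : ℕ) : ℤ) := by
  have ho : o ≠ 0 := by
    rintro rfl
    simp at h1
    omega
  have h3 : (c : ℤ) * o = 2 * (m * o) := by
    rw [← h1]
    exact_mod_cast h2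
  have ho' : (o : ℤ) ≠ 0 := by exact_mod_cast ho
  have h4 : (c : ℤ) = 2 * m := by
    have : ((c : ℤ) - 2 * m) * o = 0 := by linear_combination h3
    rcases mul_eq_zero.mp this with h | h
    · linarith
    · exact absurd h ho'
  omega

section Main

variable {k : Type*} [Field k] [Algebra ℚ k] [Algebra k ℂ] [IsScalarTower ℚ k ℂ]
  [CharZero k] [IsAlgClosed k] {N : ℕ} [NeZero N]

theorem stab_I_iff (g : SL(2, ℤ)) :
    g • UpperHalfPlane.I = UpperHalfPlane.I ↔ g ∈ Subgroup.zpowers S := by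
  constructor
  · exact mem_zpowers_S_of_smul_I
  · intro hg
    obtain ⟨n, rfl⟩ := Subgroup.mem_zpowers_iff.mp hg
    exact zpow_smul_eq_of_smul_eq S_smul_I n

theorem stab_rhoH_iff (g : SL(2, ℤ)) : g • rhoH = rhoH ↔ g ∈ Subgroup.zpowers (S * T) := by
  constructor
  · exact mem_zpowers_ST_of_smul_rhoH
  · intro hg
    obtain ⟨n, rfl⟩ := Subgroup.mem_zpowers_iff.mp hg
    exact zpow_smul_eq_of_smul_eq ST_smul_rhoH n

/-- **the ramification index of `ℍ → X₀(N)` at `τ` is the order of the stabiliser of `τ` in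
`Γ₀(N)/±1`.** -/
theorem hMult_eq_stabMult (τ : ℍ) (a : k) (ha : jFun τ = algebraMap k ℂ a) :
    hMult (N := N) τ a ha = (stabMult N τ : ℤ) := by
  have hreal : realN (algebraMap k ℂ) N (jCoordK k N).x = jM := realN_jGen_algebraMap_eq_jM
  have hne : jGen k N - algebraMap k _ a ≠ 0 := (jCoordK k N).x_sub_ne_zero a
  have hord := ordAt_realN_eq (N := N) τ a ha hne
  rw [← hOrdFn_ord τ a ha, hOrdFn_ord_jGen_sub] at hord
  by_cases h0 : algebraMap k ℂ a = 0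
  · -- `j = 0`
    have ha0 : a = 0 := by
      rwa [map_eq_zero_iff _ (algebraMap k ℂ).injective] at h0
    subst ha0
    rw [if_pos h0] at hord
    obtain ⟨g₀, rfl⟩ := exists_smul_rhoH_of_jFun_eq (ha.trans h0)
    obtain ⟨-, h2, -, -⟩ := fin_squeeze_zero (algebraMap k ℂ) (jCoordK k N) rfl hX_jCoordK
      (fun _f _ hf => isIntegral_localSubring_of_regular' N (jCoordK k N) hreal
        (jFun_rhoH_eq_map _) (fun q => hf q))
    have h3 := h2 ((g₀⁻¹ : SL(2, ℤ)) : SL(2, ℤ) ⧸ Gamma0 N)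
    rw [finOrdFn_toPlace_eq_hPlace rhoH 0 (jFun_rhoH_eq_map _) g₀] at h3
    have h4 := card_stabilizer_mul_card_orbit (N := N) (S * T) rhoH stab_rhoH_iff g₀
    rw [Nat.card_zpowers, orderOf_ST] at h4
    have h5 : ((3 : ℕ) : ℤ) = hMult (N := N) (g₀ • rhoH) 0 ha *
        (Nat.card {q' // MulAction.orbitRel (Subgroup.zpowers (S * T))
          (SL(2, ℤ) ⧸ Gamma0 N) q' ((g₀⁻¹ : SL(2, ℤ)) : SL(2, ℤ) ⧸ Gamma0 N)} : ℕ) := by
      rw [← h3]
      exact_mod_cast hord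
    exact mult_aux h5 (by norm_num) h4
  by_cases h1 : algebraMap k ℂ a = 1728
  · -- `j = 1728`
    have ha1 : a = 1728 := by
      apply (algebraMap k ℂ).injective
      rw [h1, map_ofNat]
    subst ha1
    rw [if_neg h0, if_pos h1] at hord
    obtain ⟨g₀, rfl⟩ := exists_smul_I_of_jFun_eq (ha.trans h1)
    obtain ⟨-, h2, -, -⟩ := fin_squeeze_1728 (algebraMap k ℂ) (jCoordK k N) rfl hX_jCoordK
      (fun _f _ hf => isIntegral_localSubring_of_regular' N (jCoordK k N) hreal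
        (jFun_I_eq_map _) (fun q => hf q))
    have h3 := h2 ((g₀⁻¹ : SL(2, ℤ)) : SL(2, ℤ) ⧸ Gamma0 N)
    rw [finOrdFn_toPlace_eq_hPlace UpperHalfPlane.I 1728 (jFun_I_eq_map _) g₀] at h3
    have h4 := card_stabilizer_mul_card_orbit (N := N) S UpperHalfPlane.I stab_I_iff g₀
    rw [Nat.card_zpowers, orderOf_S] at h4
    have h5 : ((2 : ℕ) : ℤ) = hMult (N := N) (g₀ • UpperHalfPlane.I) 1728 ha *
        (Nat.card {q' // MulAction.orbitRel (Subgroup.zpowers S)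
          (SL(2, ℤ) ⧸ Gamma0 N) q' ((g₀⁻¹ : SL(2, ℤ)) : SL(2, ℤ) ⧸ Gamma0 N)} : ℕ) := by
      rw [← h3]
      exact_mod_cast hord
    exact mult_aux h5 (by norm_num) h4
  · rw [hMult_eq_one τ a ha h0 h1, stabMult_generic (by rwa [ha]) (by rwa [ha])]
    rfl

end Main

end Fermat.Agent.MW
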