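/-
MW (S17) — helper3 — [GOOD-P], part 19 ((A6), part 1): **almost all primes are good for a given
function.**

* `goodp_eventually_mem_padicPlace` : every `x ∈ Ω` is `p`-integral for almost all `p`;
  `goodp_eventually_absv_eq_one`, `goodp_eventually_lg_eq_zero`;
* `goodp_eventually_mem_W` : for a function field `E / Ω`, `τ ∈ E` with `E / Ω(τ)` algebraic and
  `g ∈ E`: for almost all `p`, `g` lies in the Gauss ring of EVERY good-reduction datum of `E` at
  `padicPlace p` whose uniformizer is `τ`;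
* `goodp_eventually_gaussNorm_eq_one` : for `g ≠ 0`, `‖g‖_p = 1` for almost all `p`.
-/
import Mathlib
import Fermat.Agent.MW.GOODP_helper3_Pkg
import Fermat.Agent.MW.GOODP_helper3_Int

set_option autoImplicit false
set_option linter.unusedSectionVars false
set_option linter.style.haveILetI false

noncomputable section

namespace Fermat.Agent.MW

open AlgebraicCurve ModularCurve IsLocalRing Fermat.Agent.FF Fermat.Agent.JA Fermat.Agent.FG
  IntermediateField Polynomial Filter
open scoped Classical NNReal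

local notation "Ω" => AlgebraicClosure ℚ

/-! ### constants -/

/-- almost no prime divides a nonzero integer. -/
theorem goodp_eventually_not_dvd {m : ℤ} (hm : m ≠ 0) :
    ∀ᶠ p : Nat.Primes in cofinite, ¬ ((p : ℕ) : ℤ) ∣ m := by
  rw [eventually_cofinite]
  have hfin : (m.natAbs.primeFactors : Set ℕ).Finite := Finset.finite_toSet _
  refine (hfin.preimage (f := fun p : Nat.Primes => (p : ℕ))
    (Subtype.val_injective.injOn)).subset ?_
  intro p hp
  simp only [Set.mem_ofPred_eq, not_not] at hp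
  simp only [Set.mem_preimage, Finset.mem_coe, Nat.mem_primeFactors]
  refine ⟨p.2, ?_, Int.natAbs_ne_zero.mpr hm⟩
  exact Int.natCast_dvd.mp hp

/-- a nonzero integer is a `p`-adic unit for almost all `p`. -/
theorem goodp_absv_intCast_eq_one {p : Nat.Primes} {m : ℤ} (h : ¬ ((p : ℕ) : ℤ) ∣ m) :
    absv (some p) ((m : ℤ) : Ω) = 1 := by
  have h1 : ((m : ℤ) : Ω) = algebraMap ℚ Ω (m : ℚ) := (map_intCast _ m).symm
  rw [h1, absv_some_rat]
  have := (padicNorm.int_eq_one_iff (p := (p : ℕ)) m).mpr h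
  exact_mod_cast this

/-- **(B0)** every element of `Ω` is `p`-integral for almost all `p`. -/
theorem goodp_eventually_mem_padicPlace (x : Ω) :
    ∀ᶠ p : Nat.Primes in cofinite, x ∈ padicPlace (p : ℕ) := by
  have halg : IsAlgebraic ℤ x :=
    (IsFractionRing.isAlgebraic_iff ℤ ℚ Ω).mpr (isAlgebraic_Om.isAlgebraic x)
  obtain ⟨y, hy0, hy⟩ := halg.exists_integral_multiple
  filter_upwards [goodp_eventually_not_dvd hy0] with p hp
  have hint : IsIntegral ↥(padicPlace (p : ℕ)) (y • x) := hy.tower_top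
  obtain ⟨a, ha⟩ := IsIntegrallyClosed.isIntegral_iff.mp hint
  have hmem : y • x ∈ padicPlace (p : ℕ) := by
    rw [← ha]; exact a.2
  rw [mem_padicPlace_iff_absv] at hmem ⊢
  have e : y • x = ((y : ℤ) : Ω) * x := by
    rw [zsmul_eq_mul]
  rw [e, absv_mul, goodp_absv_intCast_eq_one hp, one_mul] at hmem
  exact hmem

/-- finitely many elements of `Ω` are simultaneously `p`-integral for almost all `p`. -/
theorem goodp_eventually_forall_mem_padicPlace (S : Finset Ω) :
    ∀ᶠ p : Nat.Primes in cofinite, ∀ x ∈ S, x ∈ padicPlace (p : ℕ) :=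
  (eventually_all_finset S).mpr fun x _ => goodp_eventually_mem_padicPlace x

/-- the coefficients of a polynomial are `p`-integral for almost all `p`. -/
theorem goodp_eventually_coeff_mem (q : Polynomial Ω) :
    ∀ᶠ p : Nat.Primes in cofinite, ∀ j, q.coeff j ∈ padicPlace (p : ℕ) := by
  filter_upwards [goodp_eventually_forall_mem_padicPlace (q.support.image q.coeff)] with p hp j
  by_cases hj : q.coeff j = 0
  · rw [hj]; exact (padicPlace (p : ℕ)).zero_mem
  · exact hp _ (Finset.mem_image_of_mem _ (Polynomial.mem_support_iff.mpr hj))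

/-- **(B0)** a nonzero element of `Ω` is a `p`-adic unit for almost all `p`. -/
theorem goodp_eventually_absv_eq_one {x : Ω} (hx : x ≠ 0) :
    ∀ᶠ p : Nat.Primes in cofinite, absv (some p) x = 1 := by
  filter_upwards [goodp_eventually_mem_padicPlace x, goodp_eventually_mem_padicPlace x⁻¹]
    with p h1 h2
  rw [mem_padicPlace_iff_absv] at h1 h2
  rw [absv_inv] at h2
  have hpos : 0 < absv (some p) x := absv_pos hx
  apply le_antisymm h1
  rwa [inv_le_one₀ hpos] at h2

/-- `log |x|_p = 0` for almost all `p` (also for `x = 0`, by the junk value of `log`). -/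
theorem goodp_eventually_lg_eq_zero (x : Ω) :
    ∀ᶠ p : Nat.Primes in cofinite, lg (some p) x = 0 := by
  rcases eq_or_ne x 0 with rfl | hx
  · refine Eventually.of_forall fun p => ?_
    rw [lg, absv_zero, Real.log_zero]
  · filter_upwards [goodp_eventually_absv_eq_one hx] with p hp
    rw [lg, hp, Real.log_one]

/-! ### functions -/

section Fun

variable {E : Type} [Field E] [Algebra Ω E]

/-- elements of `Ω(τ)` are Gauss-integral for almost all `p`. -/
theorem goodp_eventually_mem_W_of_mem_adjoin {τ c : E} (hc : c ∈ Ω⟮τ⟯) :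
    ∀ᶠ p : Nat.Primes in cofinite, ∀ (Ft : Type) [Field Ft]
      [Algebra (ResidueField ↥(padicPlace (p : ℕ))) Ft]
      (X : GoodRed Ω (padicPlace (p : ℕ)) E Ft), X.τ = τ → c ∈ X.W := by
  obtain ⟨p₀, q₀, rfl⟩ := (mem_adjoin_simple_iff Ω c).1 hc
  by_cases hq0 : q₀ = 0
  · refine Eventually.of_forall fun p Ft _ _ X _ => ?_
    rw [hq0, map_zero, div_zero]
    exact X.W.zero_mem
  obtain ⟨j₁, hj₁⟩ : ∃ j, q₀.coeff j ≠ 0 := by
    by_contra hcon
    push Not at hcon
    exact hq0 (Polynomial.ext fun j => by rw [hcon j, coeff_zero])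
  set b := q₀.coeff j₁ with hb
  set p₁ : Polynomial Ω := C b⁻¹ * p₀ with hp₁
  set q₁ : Polynomial Ω := C b⁻¹ * q₀ with hq₁
  have hq1 : q₁.coeff j₁ = 1 := by
    rw [hq₁, coeff_C_mul, ← hb, inv_mul_cancel₀ hj₁]
  filter_upwards [goodp_eventually_coeff_mem p₁, goodp_eventually_coeff_mem q₁]
    with p hp hq Ft _ _ X hτ
  subst hτ
  have hu := isGaussCoord_τ X
  have h1 := hu.aeval_mem_of_coeff_mem hp
  obtain ⟨h0, h2⟩ := hu.inv_aeval_mem hq hq1
  have e : aeval X.τ p₀ / aeval X.τ q₀ = aeval X.τ p₁ * (aeval X.τ q₁)⁻¹ := by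
    have hb0 : algebraMap Ω E b⁻¹ ≠ 0 := by
      rw [Ne, map_eq_zero]; exact inv_ne_zero hj₁
    rw [hp₁, hq₁, map_mul, map_mul, aeval_C, ← div_eq_mul_inv, mul_div_mul_left _ _ hb0]
  rw [e]
  exact X.W.mul_mem _ _ h1 h2

/-- **(B1), integrality**: for `E / Ω(τ)` algebraic, every `g ∈ E` is Gauss-integral for almost
all `p` (for every good-reduction datum at `p` with uniformizer `τ`). -/
theorem goodp_eventually_mem_W {τ : E} (halg : Algebra.IsAlgebraic ↥Ω⟮τ⟯ E) (g : E) :
    ∀ᶠ p : Nat.Primes in cofinite, ∀ (Ft : Type) [Field Ft]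
      [Algebra (ResidueField ↥(padicPlace (p : ℕ))) Ft]
      (X : GoodRed Ω (padicPlace (p : ℕ)) E Ft), X.τ = τ → g ∈ X.W := by
  have hint : IsIntegral ↥Ω⟮τ⟯ g := (halg.isAlgebraic g).isIntegral
  set m := minpoly ↥Ω⟮τ⟯ g with hm
  have hmonic : m.Monic := minpoly.monic hint
  have hev : ∀ᶠ p : Nat.Primes in cofinite, ∀ i ∈ Finset.range (m.natDegree + 1),
      ∀ (Ft : Type) [Field Ft] [Algebra (ResidueField ↥(padicPlace (p : ℕ))) Ft]
      (X : GoodRed Ω (padicPlace (p : ℕ)) E Ft), X.τ = τ → ((m.coeff i : ↥Ω⟮τ⟯) : E) ∈ X.W :=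
    (eventually_all_finset _).mpr fun i _ =>
      goodp_eventually_mem_W_of_mem_adjoin (m.coeff i).2
  filter_upwards [hev] with p hp Ft _ _ X hτ
  -- `g` is integral over `W`
  set m' : Polynomial E := m.map (algebraMap ↥Ω⟮τ⟯ E) with hm'
  have hm'monic : m'.Monic := hmonic.map _
  have hcoeffs : (↑m'.coeffs : Set E) ⊆ X.W.toSubring := by
    intro c hc
    rw [Finset.mem_coe, Polynomial.mem_coeffs_iff] at hc
    obtain ⟨n, hn, rfl⟩ := hc
    rw [hm', coeff_map]
    by_cases hn' : n ∈ Finset.range (m.natDegree + 1)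
    · exact hp n hn' Ft X hτ
    · rw [Finset.mem_range, not_lt] at hn'
      rw [coeff_eq_zero_of_natDegree_lt (by omega), map_zero]
      exact X.W.zero_mem
  have hroot : aeval g m' = 0 := by
    rw [hm', aeval_map_algebraMap, hm, minpoly.aeval]
  have hintW : IsIntegral ↥X.W g := by
    refine ⟨m'.toSubring X.W.toSubring hcoeffs, ?_, ?_⟩
    · exact (Polynomial.monic_toSubring m' X.W.toSubring hcoeffs).mpr hm'monic
    · have h1 : (m'.toSubring X.W.toSubring hcoeffs).map X.W.toSubring.subtype = m' :=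
        Polynomial.map_toSubring m' X.W.toSubring hcoeffs
      rw [← Polynomial.eval_map]
      have h2 : (m'.toSubring X.W.toSubring hcoeffs).map (algebraMap ↥X.W E) = m' := h1
      rw [h2]
      rw [Polynomial.aeval_def, Polynomial.eval₂_eq_eval_map] at hroot
      simpa using hroot
  obtain ⟨a, ha⟩ := IsIntegrallyClosed.isIntegral_iff.mp hintW
  rw [← ha]
  exact a.2

/-- **(B1)** for `g ≠ 0`: `g` is a Gauss unit for almost all `p`. -/
theorem goodp_eventually_unit_W {τ : E} (halg : Algebra.IsAlgebraic ↥Ω⟮τ⟯ E) (g : E) :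
    ∀ᶠ p : Nat.Primes in cofinite, ∀ (Ft : Type) [Field Ft]
      [Algebra (ResidueField ↥(padicPlace (p : ℕ))) Ft]
      (X : GoodRed Ω (padicPlace (p : ℕ)) E Ft), X.τ = τ → g ∈ X.W ∧ g⁻¹ ∈ X.W := by
  filter_upwards [goodp_eventually_mem_W halg g, goodp_eventually_mem_W halg g⁻¹]
    with p h1 h2 Ft _ _ X hτ
  exact ⟨h1 Ft X hτ, h2 Ft X hτ⟩

/-- **(B1), Gauss norm**: `‖g‖_p = 1` for almost all `p` (`g ≠ 0`). -/
theorem goodp_eventually_gaussNorm_eq_one {τ : E} (halg : Algebra.IsAlgebraic ↥Ω⟮τ⟯ E) {g : E}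
    (hg : g ≠ 0) :
    ∀ᶠ p : Nat.Primes in cofinite, ∀ (Ft : Type) [Field Ft]
      [Algebra (ResidueField ↥(padicPlace (p : ℕ))) Ft]
      (X : GoodRed Ω (padicPlace (p : ℕ)) E Ft), X.τ = τ →
      gaussNorm X (padicVal (p : ℕ)) g = 1 := by
  filter_upwards [goodp_eventually_unit_W halg g] with p hp Ft _ _ X hτ
  obtain ⟨h1, h2⟩ := hp Ft X hτ
  exact gaussNorm_eq_one (padicVal_valuationSubring (p : ℕ)) hg h1 h2

end Fun

end Fermat.Agent.MW

end
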