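/-
MW (S17) — helper3 — [GOOD-P], part 20 ((A6), part 2): **separating functions.**

For a function field `F / k` (`k` of characteristic zero) with a coordinate `x` and two distinct
places `v ≠ w` at which `x` is regular, there is a function `f`, integral over `k[x]`, with
`ord_v f > 0` and `ord_w f = 0` (the places regular for `x` are the maximal ideals of the integral
closure of `k[x]`, a Dedekind domain).

* `goodp_exists_separating` : the statement, in polynomial form
  (`m ∈ k[X][Y]` monic with `m(x, f) = 0`);
* `goodp_coordInv` : the coordinate `x⁻¹`.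
-/
import Mathlib
import Fermat.Agent.FF.PlaceDict

set_option autoImplicit false
set_option linter.unusedSectionVars false
set_option linter.style.haveILetI false

noncomputable section

namespace Fermat.Agent.MW

open AlgebraicCurve IsDedekindDomain Fermat.Agent.FF IntermediateField Polynomial

section TC

open Fermat.Agent.FF.RR

variable (K F : Type*) [Field K] [Field F] [Algebra K F] [Algebra K[X] F] [Algebra (RatFunc K) F]
  [IsScalarTower K[X] (RatFunc K) F] [IsScalarTower K K[X] F] [IsScalarTower K (RatFunc K) F]
  [FiniteDimensional (RatFunc K) F] [Algebra.IsSeparable (RatFunc K) F]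

local notation "B" => FunctionField.ringOfIntegers K F

/-- separating functions in the typeclass setting. -/
theorem goodp_exists_separating_TC {v w : Place K F} (hvw : v ≠ w)
    (hv : xF K F ∈ v.toValuationSubring) (hw : xF K F ∈ w.toValuationSubring) :
    ∃ f : F, IsIntegral K[X] f ∧ 0 < v.ord f ∧ w.ord f = 0 := by
  obtain ⟨P, rfl⟩ := exists_placeOf_fin_eq v hv
  obtain ⟨Q, rfl⟩ := exists_placeOf_fin_eq w hw
  have hPQ : P ≠ Q := fun h => hvw (by rw [h])
  have hnle : ¬ P.asIdeal ≤ Q.asIdeal := by
    intro hle
    apply hPQ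
    apply HeightOneSpectrum.ext
    exact (P.isMaximal.eq_of_le Q.isPrime.ne_top hle)
  obtain ⟨b, hbP, hbQ⟩ := SetLike.not_le_iff_exists.mp hnle
  have hb0 : b ≠ 0 := by
    rintro rfl
    exact hbQ (Ideal.zero_mem _)
  refine ⟨algebraMap B F b, ?_, ?_, ?_⟩
  · exact b.2
  · exact (ord_placeOf_algebraMap_pos_iff (k := K) (F := F) P b hb0).mpr hbP
  · have h1 : ¬ 0 < (placeOf (k := K) (F := F) Q).ord (algebraMap B F b) := fun h =>
      hbQ ((ord_placeOf_algebraMap_pos_iff (k := K) (F := F) Q b hb0).mp h)
    have h2 : 0 ≤ (placeOf (k := K) (F := F) Q).ord (algebraMap B F b) :=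
      PlaceAux.ord_nonneg_of_mem _ (algebraMap_mem_placeOf Q b)
    omega

end TC

section Coord

variable {k F : Type*} [Field k] [Field F] [Algebra k F] [CharZero k]

/-- **separating functions**: for a coordinate `c` and two distinct places at which `c.x` is
regular, a function `f` integral over `k[c.x]` (`m` monic with `m(c.x, f) = 0`) vanishing at the
first place and a unit at the second. -/
theorem goodp_exists_separating (c : Coord k F) {v w : Place k F} (hvw : v ≠ w)
    (hv : c.x ∈ v.toValuationSubring) (hw : c.x ∈ w.toValuationSubring) :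
    ∃ (f : F) (m : Polynomial (Polynomial k)), m.Monic ∧
      eval₂ ((aeval c.x : k[X] →ₐ[k] F) : k[X] →+* F) f m = 0 ∧ 0 < v.ord f ∧ w.ord f = 0 := by
  obtain ⟨i1, i2, i3, i4, i5, i6, i7, hx⟩ := c.exists_typeclass_setting
  rw [← hx] at hv hw
  obtain ⟨f, ⟨m, hm, hm0⟩, h1, h2⟩ := goodp_exists_separating_TC k F hvw hv hw
  refine ⟨f, m, hm, ?_, h1, h2⟩
  have e : (algebraMap k[X] F) = ((aeval c.x : k[X] →ₐ[k] F) : k[X] →+* F) := by
    ext p
    · rw [← hx]
      simp [algebraMap_poly_eq_aeval_xF]
    · rw [← hx]
      simp [algebraMap_poly_eq_aeval_xF]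
  rw [← e]
  exact hm0

/-- the inverse of a coordinate is a coordinate. -/
def goodp_coordInv (c : Coord k F) : Coord k F where
  x := c.x⁻¹
  trans := by
    intro halg
    apply c.trans
    have := halg.inv
    rwa [inv_inv] at this
  fin := by
    have e : k⟮c.x⁻¹⟯ = k⟮c.x⟯ := by
      apply le_antisymm
      · rw [adjoin_simple_le_iff]
        exact inv_mem (mem_adjoin_simple_self k c.x)
      · rw [adjoin_simple_le_iff]
        have := inv_mem (mem_adjoin_simple_self k c.x⁻¹)
        rwa [inv_inv] at this
    rw [e]
    exact c.fin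

@[simp] theorem goodp_coordInv_x (c : Coord k F) : (goodp_coordInv c).x = c.x⁻¹ := rfl

end Coord

end Fermat.Agent.MW

end
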