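/-
MW (S17) — helper3 — [GOOD-P], part 21 ((A6), part 3): **two distinct points have distinct
reductions for almost all primes.**

`E / Ω` a function field with a coordinate `c` (all places of degree one), `P' ≠ Q'` places.
For almost all `p`: for every Gauss ring `W`, reduction `ρ` and places `R`, `R'` of the reduced
field which are intrinsic two-chart centres of `P'`, `Q'` (w.r.t. the coordinate `c.x` and the
test functions integral over `A_p[c.x]`, `A_p[c.x⁻¹]`), `R ≠ R'`.

* `goodp_eventually_mem_intSet` : a function integral over `Ω[t]` is integral over `A_p[t]` for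
  almost all `p`;
* `goodp_centre_ne_of_separating` : the separation argument on one chart;
* `goodp_eventually_centre_ne` : the statement.
-/
import Mathlib
import Fermat.Agent.MW.GOODP_helper3_FinA
import Fermat.Agent.MW.GOODP_helper3_FinB
import Fermat.Agent.FG.ERED_helper1_Two
import Fermat.Agent.FG.ERED_helper1_Int

set_option autoImplicit false
set_option linter.unusedSectionVars false
set_option linter.style.haveILetI false

noncomputable section

namespace Fermat.Agent.MW

open AlgebraicCurve ModularCurve IsLocalRing Fermat.Agent.FF Fermat.Agent.JA Fermat.Agent.FG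
  IntermediateField Polynomial Filter
open scoped Classical NNReal

local notation "Ω" => AlgebraicClosure ℚ

section Core

variable {E : Type} [Field E] [Algebra Ω E]

/-- a function integral over `Ω[t]` is integral over `A_p[t]` for almost all `p`. -/
theorem goodp_eventually_mem_intSet {t f : E} {m : Polynomial (Polynomial Ω)} (hm : m.Monic)
    (hroot : eval₂ ((aeval t : Polynomial Ω →ₐ[Ω] E) : Polynomial Ω →+* E) f m = 0) :
    ∀ᶠ p : Nat.Primes in cofinite, f ∈ intSet (padicPlace (p : ℕ)) t := by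
  have hev : ∀ᶠ p : Nat.Primes in cofinite, ∀ i ∈ Finset.range (m.natDegree + 1),
      ∀ j, (m.coeff i).coeff j ∈ padicPlace (p : ℕ) :=
    (eventually_all_finset _).mpr fun i _ => goodp_eventually_coeff_mem (m.coeff i)
  filter_upwards [hev] with p hp
  show IsIntegral ↥(intRing (padicPlace (p : ℕ)) t) f
  refine isIntegral_subring_iff.mpr
    ⟨m.map ((aeval t : Polynomial Ω →ₐ[Ω] E) : Polynomial Ω →+* E), hm.map _, fun n => ?_, ?_⟩
  · rw [coeff_map]
    have hc : ∀ j, (m.coeff n).coeff j ∈ padicPlace (p : ℕ) := by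
      intro j
      by_cases hn : n ∈ Finset.range (m.natDegree + 1)
      · exact hp n hn j
      · rw [Finset.mem_range, not_lt] at hn
        have h0 : m.coeff n = 0 := coeff_eq_zero_of_natDegree_lt (by omega)
        rw [h0, coeff_zero]
        exact (padicPlace (p : ℕ)).zero_mem
    show aeval t (m.coeff n) ∈ intRing (padicPlace (p : ℕ)) t
    rw [aeval_eq_sum_range]
    refine sum_mem fun j _ => ?_
    rw [Algebra.smul_def]
    exact mul_mem (algebraMap_mem_intRing (hc j)) (pow_mem self_mem_intRing j)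
  · rw [eval_map]
    exact hroot

variable {kk : Type*} [Field kk] {Ft : Type*} [Field Ft] [Algebra kk Ft]

/-- **the separation argument on one chart**: a test function vanishing at `P'` whose complement
`1 - f` is a test function vanishing at `Q'` separates the centres. -/
theorem goodp_centre_ne_of_separating (W : ValuationSubring E) (ρ : ↥W →+* Ft) (𝔅 : Set E)
    {P' Q' : Place Ω E} {f : E} (hf : f ∈ 𝔅) (hf' : 1 - f ∈ 𝔅) (hP : 0 < P'.ord f)
    (hQ : 0 < Q'.ord (1 - f)) {R R' : Place kk Ft} (hR : IsCentreIn W ρ 𝔅 P' R)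
    (hR' : IsCentreIn W ρ 𝔅 Q' R') : R ≠ R' := by
  rintro rfl
  obtain ⟨-, hW, hρR, himp⟩ := hR f hf
  obtain ⟨-, hW', -, himp'⟩ := hR' (1 - f) hf'
  have hf0 : f ≠ 0 := by
    rintro rfl
    rw [Place.ord_zero] at hP
    exact lt_irrefl _ hP
  have hf1 : 1 - f ≠ 0 := by
    intro h0
    rw [h0, Place.ord_zero] at hQ
    exact lt_irrefl _ hQ
  set y := ρ ⟨f, hW⟩ with hy
  have hy' : ρ ⟨1 - f, hW'⟩ = 1 - y := by
    have : (⟨1 - f, hW'⟩ : ↥W) = 1 - ⟨f, hW⟩ := Subtype.ext rfl
    rw [this, map_sub, map_one]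
  rw [hy'] at himp'
  have hnP : f⁻¹ ∉ P'.toValuationSubring := by
    rw [PlaceAux.mem_iff_ord_nonneg' P' (inv_ne_zero hf0), Place.ord_inv]
    omega
  have hnQ : (1 - f)⁻¹ ∉ Q'.toValuationSubring := by
    rw [PlaceAux.mem_iff_ord_nonneg' Q' (inv_ne_zero hf1), Place.ord_inv]
    omega
  by_cases hy0 : y = 0
  · apply hnQ
    apply himp'
    · rw [hy0, sub_zero]; exact one_ne_zero
    · rw [hy0, sub_zero, inv_one]; exact R.toValuationSubring.one_mem
  · have hyinv : y⁻¹ ∉ R.toValuationSubring := fun h => hnP (himp hy0 h)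
    have hordy : 0 < R.ord y := by
      rw [PlaceAux.mem_iff_ord_nonneg' R (inv_ne_zero hy0), Place.ord_inv] at hyinv
      omega
    have hny0 : -y ≠ 0 := neg_ne_zero.mpr hy0
    have hord1 : R.ord (1 - y) = 0 := by
      rw [sub_eq_add_neg, PlaceAux.ord_add_eq_of_lt R one_ne_zero hny0
        (by rw [Place.ord_one, PlaceAux.ord_neg]; exact hordy), Place.ord_one]
    have h1y : 1 - y ≠ 0 := by
      intro h0
      have : y = 1 := by rw [sub_eq_zero] at h0; exact h0.symm
      rw [this, Place.ord_one] at hordy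
      exact lt_irrefl _ hordy
    apply hnQ
    apply himp' h1y
    rw [PlaceAux.mem_iff_ord_nonneg' R (inv_ne_zero h1y), Place.ord_inv, hord1, neg_zero]

end Core

section Main

variable {E : Type} [Field E] [Algebra Ω E]

/-- one chart: both points regular for the coordinate `t = c.x`. -/
theorem goodp_eventually_centreIn_ne (c : Coord Ω E) (hdeg : ∀ P : Place Ω E, P.deg = 1)
    {P' Q' : Place Ω E} (hne : P' ≠ Q') (hP : c.x ∈ P'.toValuationSubring)
    (hQ : c.x ∈ Q'.toValuationSubring) :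
    ∀ᶠ p : Nat.Primes in cofinite, ∀ (Ft : Type) [Field Ft]
      [Algebra (ResidueField ↥(padicPlace (p : ℕ))) Ft] (W : ValuationSubring E)
      (ρ : ↥W →+* Ft) (R R' : Place (ResidueField ↥(padicPlace (p : ℕ))) Ft),
      IsCentreIn W ρ (intSet (padicPlace (p : ℕ)) c.x) P' R →
      IsCentreIn W ρ (intSet (padicPlace (p : ℕ)) c.x) Q' R' → R ≠ R' := by
  obtain ⟨f, m, hm, hroot, hfP, hfQ⟩ := goodp_exists_separating c hne hP hQ
  have hf0 : f ≠ 0 := by
    rintro rfl
    rw [Place.ord_zero] at hfP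
    exact lt_irrefl _ hfP
  have hfmem : f ∈ Q'.toValuationSubring := by
    rw [PlaceAux.mem_iff_ord_nonneg' Q' hf0, hfQ]
  obtain ⟨d, hd⟩ := HasValueAt.exists_of_mem (hdeg Q') hfmem
  have hd0 : d ≠ 0 := by
    rintro rfl
    rcases HasValueAt.zero_iff.mp hd with h | h
    · exact hf0 h
    · rw [hfQ] at h; exact lt_irrefl _ h
  filter_upwards [goodp_eventually_mem_intSet hm hroot, goodp_eventually_mem_padicPlace d⁻¹]
    with p hp hdp Ft _ _ W ρ R R' hR hR'
  set f₁ := algebraMap Ω E d⁻¹ * f with hf₁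
  have hd0' : algebraMap Ω E d⁻¹ ≠ 0 := by
    rw [Ne, map_eq_zero]; exact inv_ne_zero hd0
  have h1 : f₁ ∈ intSet (padicPlace (p : ℕ)) c.x :=
    IsIntegral.mul (algebraMap_mem_intSet hdp) hp
  have h2 : 1 - f₁ ∈ intSet (padicPlace (p : ℕ)) c.x := by
    have h1' : (1 : E) ∈ intSet (padicPlace (p : ℕ)) c.x := by
      have := algebraMap_mem_intSet (s := c.x) (EΩ := E) (padicPlace (p : ℕ)).one_mem
      rwa [map_one] at this
    exact sub_mem_intSet h1' h1
  have h3 : 0 < P'.ord f₁ := by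
    rw [hf₁, P'.ord_mul hd0' hf0, PlaceAux.ord_algebraMap, zero_add]
    exact hfP
  have h4 : 0 < Q'.ord (1 - f₁) := by
    have hv : HasValueAt Q' (1 - f₁) (1 - d⁻¹ * d) :=
      (HasValueAt.one' Q').sub ((HasValueAt.algebraMap' Q' d⁻¹).mul hd)
    rw [inv_mul_cancel₀ hd0, sub_self] at hv
    rcases HasValueAt.zero_iff.mp hv with h | h
    · exfalso
      -- `f₁ = 1` contradicts `ord_{P'} f₁ > 0`
      have : f₁ = 1 := by rw [sub_eq_zero] at h; exact h.symm
      rw [this, Place.ord_one] at h3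
      exact lt_irrefl _ h3
    · exact h
  exact goodp_centre_ne_of_separating W ρ _ h1 h2 h3 h4 hR hR'

/-- **(B2)** two distinct points have distinct two-chart centres for almost all `p`. -/
theorem goodp_eventually_centre_ne (c : Coord Ω E) (hdeg : ∀ P : Place Ω E, P.deg = 1)
    {P' Q' : Place Ω E} (hne : P' ≠ Q') :
    ∀ᶠ p : Nat.Primes in cofinite, ∀ (Ft : Type) [Field Ft]
      [Algebra (ResidueField ↥(padicPlace (p : ℕ))) Ft] (W : ValuationSubring E)
      (ρ : ↥W →+* Ft) (R R' : Place (ResidueField ↥(padicPlace (p : ℕ))) Ft),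
      IsTwoCentre W ρ (padicPlace (p : ℕ)) c.x (intSet (padicPlace (p : ℕ)) c.x)
        (intSet (padicPlace (p : ℕ)) c.x⁻¹) P' R →
      IsTwoCentre W ρ (padicPlace (p : ℕ)) c.x (intSet (padicPlace (p : ℕ)) c.x)
        (intSet (padicPlace (p : ℕ)) c.x⁻¹) Q' R' → R ≠ R' := by
  -- a point at which the coordinate has a pole never has an integral value
  have hnoint : ∀ {P : Place Ω E} (p : Nat.Primes), c.x ∉ P.toValuationSubring →
      ¬ HasIntValue (padicPlace (p : ℕ)) c.x P := by
    rintro P p hP ⟨a, -, ha⟩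
    exact hP ha.mem
  -- a point at which the coordinate is regular has an integral value for almost all `p`
  have hint : ∀ {P : Place Ω E}, c.x ∈ P.toValuationSubring →
      ∀ᶠ p : Nat.Primes in cofinite, HasIntValue (padicPlace (p : ℕ)) c.x P := by
    intro P hP
    obtain ⟨a, ha⟩ := HasValueAt.exists_of_mem (hdeg P) hP
    filter_upwards [goodp_eventually_mem_padicPlace a] with p hp
    exact ⟨a, hp, ha⟩
  have hinv : ∀ {P : Place Ω E}, c.x ∉ P.toValuationSubring → c.x⁻¹ ∈ P.toValuationSubring :=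
    fun {P} hP => (P.toValuationSubring.mem_or_inv_mem c.x).resolve_left hP
  -- the mixed case
  have hmixed : ∀ {P₁ P₂ : Place Ω E}, c.x ∈ P₁.toValuationSubring →
      c.x ∉ P₂.toValuationSubring →
      ∀ᶠ p : Nat.Primes in cofinite, ∀ (Ft : Type) [Field Ft]
      [Algebra (ResidueField ↥(padicPlace (p : ℕ))) Ft] (W : ValuationSubring E)
      (ρ : ↥W →+* Ft) (R R' : Place (ResidueField ↥(padicPlace (p : ℕ))) Ft),
      IsTwoCentre W ρ (padicPlace (p : ℕ)) c.x (intSet (padicPlace (p : ℕ)) c.x)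
        (intSet (padicPlace (p : ℕ)) c.x⁻¹) P₁ R →
      IsTwoCentre W ρ (padicPlace (p : ℕ)) c.x (intSet (padicPlace (p : ℕ)) c.x)
        (intSet (padicPlace (p : ℕ)) c.x⁻¹) P₂ R' → R ≠ R' := by
    intro P₁ P₂ h₁ h₂
    filter_upwards [hint h₁] with p hp Ft _ _ W ρ R R' hR hR'
    rintro rfl
    rcases hR with ⟨-, hc⟩ | ⟨hn, -⟩
    swap
    · exact hn hp
    rcases hR' with ⟨hi, -⟩ | ⟨-, hc'⟩
    · exact hnoint p h₂ hi
    obtain ⟨-, hW, hρ, -⟩ := hc c.x self_mem_intSet
    obtain ⟨-, hW', -, himp⟩ := hc' c.x⁻¹ self_mem_intSet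
    have hmul : ρ ⟨c.x, hW⟩ * ρ ⟨c.x⁻¹, hW'⟩ = 1 := by
      rw [← map_mul]
      have hx0 : c.x ≠ 0 := fun h0 => h₂ (by rw [h0]; exact P₂.toValuationSubring.zero_mem)
      have : (⟨c.x, hW⟩ : ↥W) * ⟨c.x⁻¹, hW'⟩ = 1 := Subtype.ext (mul_inv_cancel₀ hx0)
      rw [this, map_one]
    have hne0 : ρ ⟨c.x⁻¹, hW'⟩ ≠ 0 := right_ne_zero_of_mul_eq_one hmul
    have hinv' : (ρ ⟨c.x⁻¹, hW'⟩)⁻¹ = ρ ⟨c.x, hW⟩ := (eq_inv_of_mul_eq_one_left hmul).symm
    have := himp hne0 (by rw [hinv']; exact hρ)
    rw [inv_inv] at this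
    exact h₂ this
  by_cases hP : c.x ∈ P'.toValuationSubring
  · by_cases hQ : c.x ∈ Q'.toValuationSubring
    · -- both regular
      filter_upwards [goodp_eventually_centreIn_ne c hdeg hne hP hQ, hint hP, hint hQ]
        with p hp hiP hiQ Ft _ _ W ρ R R' hR hR'
      rcases hR with ⟨-, hc⟩ | ⟨hn, -⟩
      swap
      · exact absurd hiP hn
      rcases hR' with ⟨-, hc'⟩ | ⟨hn, -⟩
      swap
      · exact absurd hiQ hn
      exact hp Ft W ρ R R' hc hc'
    · exact hmixed hP hQ
  · by_cases hQ : c.x ∈ Q'.toValuationSubring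
    · filter_upwards [hmixed hQ hP] with p hp Ft _ _ W ρ R R' hR hR'
      exact (hp Ft W ρ R' R hR' hR).symm
    · -- both poles: the chart of `c.x⁻¹`
      filter_upwards [goodp_eventually_centreIn_ne (goodp_coordInv c) hdeg hne (hinv hP) (hinv hQ)]
        with p hp Ft _ _ W ρ R R' hR hR'
      rcases hR with ⟨hi, -⟩ | ⟨-, hc⟩
      · exact absurd hi (hnoint p hP)
      rcases hR' with ⟨hi, -⟩ | ⟨-, hc'⟩
      · exact absurd hi (hnoint p hQ)
      exact hp Ft W ρ R R' hc hc'

end Main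

end Fermat.Agent.MW

end
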