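/-
MW (S17) — helper3 — [GOOD-P], part 22 ((A6), part 4): **the finiteness statements (A6) for the
Legendre family** `legGoodPkg N 𝔡 p hpN hp2 Zp hZK hZ` (`p` odd, `p ∤ N`), as statements
"for almost all `p`" (`∀ᶠ p in cofinite`).

* `leg_eventually_gaussNorm_eq_one`, `leg_eventually_r_ne`, `leg_eventually_hostGreen_eq_zero`,
  `leg_eventually_descGreen_eq_zero`, `leg_eventually_descLead_eq_zero`,
  `leg_eventually_goodR_eq_zero`, `leg_eventually_derNorm_eq_one`, `leg_eventually_goodC7_eq_zero`;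
* `legGoodPkg_eventually_γ`, `legGoodPkg_eventually_r`, `legGoodPkg_eventually_cω`,
  `legGoodPkg_eventually_Cω`, `legGoodPkg_eventually_C7`, `legGoodPkg_eventually_weil`.
-/
import Mathlib
import Fermat.Agent.MW.GOODP_helper3_FinC
import Fermat.Agent.MW.GOODP_helper3_Leg
import Fermat.Agent.FG.ERED_helper1_Final

set_option autoImplicit false
set_option linter.unusedSectionVars false
set_option linter.style.haveILetI false

noncomputable section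

namespace Fermat.Agent.MW

open AlgebraicCurve ModularCurve IsLocalRing Fermat.Agent.FF Fermat.Agent.JA Fermat.Agent.FG
  Fermat.Agent.SS IntermediateField Polynomial Filter
open scoped Classical NNReal Pointwise

local notation "Ω" => AlgebraicClosure ℚ

section LegFin

variable (N : ℕ) [NeZero N]

/-- the good-reduction datum of the Legendre host at the chosen place over `p`. -/
abbrev goodp_legX (p : Nat.Primes) (hpN : ¬ (p : ℕ) ∣ N) (hp2 : (p : ℕ) ≠ 2) :=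
  legGoodRed (Fermat.Agent.TW.Kill.padicPlace_liesOverPrime (p : ℕ)) N hpN hp2

theorem goodp_legE_isAlgebraic : Algebra.IsAlgebraic ↥Ω⟮legTau Ω N⟯ ↥(legE Ω N) :=
  haveI := legTau_finite N
  Algebra.IsAlgebraic.of_finite _ _

/-- **(B1)** `‖g‖_p = 1` for almost all `p`. -/
theorem leg_eventually_gaussNorm_eq_one {g : ↥(legE Ω N)} (hg : g ≠ 0) :
    ∀ᶠ p : Nat.Primes in cofinite, ∀ (hpN : ¬ (p : ℕ) ∣ N) (hp2 : (p : ℕ) ≠ 2),
      gaussNorm (goodp_legX N p hpN hp2) (padicVal (p : ℕ)) g = 1 := by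
  filter_upwards [goodp_eventually_gaussNorm_eq_one (goodp_legE_isAlgebraic N) hg]
    with p hp hpN hp2
  exact hp _ (goodp_legX N p hpN hp2) rfl

/-- **(B2)** two distinct points have distinct reductions for almost all `p`. -/
theorem leg_eventually_r_ne {P' Q' : Place Ω ↥(legE Ω N)} (hne : P' ≠ Q') :
    ∀ᶠ p : Nat.Primes in cofinite, ∀ (hpN : ¬ (p : ℕ) ∣ N) (hp2 : (p : ℕ) ≠ 2),
      (goodp_legX N p hpN hp2).r P' ≠ (goodp_legX N p hpN hp2).r Q' := by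
  filter_upwards [goodp_eventually_centre_ne (legCoordBar N) (legE_deg_gen N) hne]
    with p hp hpN hp2
  have hA := Fermat.Agent.TW.Kill.padicPlace_liesOverPrime (p : ℕ)
  exact hp _ (legWE hA N hp2) (legρ hA N hp2) _ _
    (legR_isTwoCentre_final hA N hpN hp2 (legCuspb hA N hp2) P')
    (legR_isTwoCentre_final hA N hpN hp2 (legCuspb hA N hp2) Q')

/-- the host Green function of two points vanishes for almost all `p`. -/
theorem leg_eventually_hostGreen_eq_zero (P' Q' : Place Ω ↥(legE Ω N)) :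
    ∀ᶠ p : Nat.Primes in cofinite, ∀ (hpN : ¬ (p : ℕ) ∣ N) (hp2 : (p : ℕ) ≠ 2),
      hostGreen (goodp_legX N p hpN hp2) (padicVal (p : ℕ)) P' Q' = 0 := by
  by_cases h : P' = Q'
  · subst h
    exact Eventually.of_forall fun p hpN hp2 => hostGreen_self _
  · filter_upwards [leg_eventually_r_ne N h] with p hp hpN hp2
    exact hostGreen_of_ne (hp hpN hp2)

/-! ### the descended functions -/

local notation "φL" => fullToLegE Ω N
local notation "hφL" => isIntegral_fullToLegE_bar N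
local notation "nL" => finrankAlong Ω (fullToLegE Ω N)

instance goodp_legE_hasPrincipalDivisors : HasPrincipalDivisors Ω ↥(legE Ω N) :=
  legE_principal_gen N

/-- `γ_p(P, Q) = 0` for almost all `p` (also on the diagonal). -/
theorem leg_eventually_descGreen_eq_zero (P Q : PtN N) :
    ∀ᶠ p : Nat.Primes in cofinite, ∀ (hpN : ¬ (p : ℕ) ∣ N) (hp2 : (p : ℕ) ≠ 2),
      descGreen (goodp_legX N p hpN hp2) (padicVal (p : ℕ)) φL hφL nL P Q = 0 := by
  have hev : ∀ᶠ p : Nat.Primes in cofinite, ∀ Q' ∈ Place.fiberAlong φL hφL Q,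
      ∀ P' ∈ Place.fiberAlong φL hφL P, ∀ (hpN : ¬ (p : ℕ) ∣ N) (hp2 : (p : ℕ) ≠ 2),
      hostGreen (goodp_legX N p hpN hp2) (padicVal (p : ℕ)) P' Q' = 0 :=
    (eventually_all_finset _).mpr fun Q' _ => (eventually_all_finset _).mpr fun P' _ =>
      leg_eventually_hostGreen_eq_zero N P' Q'
  filter_upwards [hev] with p hp hpN hp2
  unfold descGreen fibSum
  rw [Finset.sum_eq_zero, mul_zero]
  intro Q' hQ'
  dsimp only
  rw [Finset.sum_eq_zero, mul_zero]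
  intro P' hP'
  rw [hp Q' hQ' P' hP' hpN hp2, mul_zero]

/-- the logarithm of the leading coefficient of a nonzero function at a point of the host vanishes
for almost all `p`. -/
theorem leg_eventually_log_locLead_eq_zero {g : ↥(legE Ω N)} (hg : g ≠ 0)
    (Q' : Place Ω ↥(legE Ω N)) :
    ∀ᶠ p : Nat.Primes in cofinite, ∀ (hpN : ¬ (p : ℕ) ∣ N) (hp2 : (p : ℕ) ≠ 2),
      Real.log ((locLead (goodp_legX N p hpN hp2) (padicVal (p : ℕ)) g Q' : ℝ≥0) : ℝ) = 0 := by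
  obtain ⟨D, hD, -⟩ := (legE_principal_gen N).exists_divisor g hg
  have hev : ∀ᶠ p : Nat.Primes in cofinite, ∀ P' ∈ D.support,
      ∀ (hpN : ¬ (p : ℕ) ∣ N) (hp2 : (p : ℕ) ≠ 2),
      hostGreen (goodp_legX N p hpN hp2) (padicVal (p : ℕ)) P' Q' = 0 :=
    (eventually_all_finset _).mpr fun P' _ => leg_eventually_hostGreen_eq_zero N P' Q'
  filter_upwards [hev, leg_eventually_gaussNorm_eq_one N hg] with p hp hnorm hpN hp2
  rw [log_locLead_eq (padicVal_valuationSubring (p : ℕ)) hg D hD Q', hnorm hpN hp2,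
    NNReal.coe_one, Real.log_one, zero_sub, neg_eq_zero]
  apply Finset.sum_eq_zero
  intro P' hP'
  rw [hp P' hP' hpN hp2, mul_zero]

/-- `Λ_p(τ, Q) = 0` for almost all `p`. -/
theorem leg_eventually_descLead_eq_zero {τ : FunN N} (hτ : τ ≠ 0) (Q : PtN N) :
    ∀ᶠ p : Nat.Primes in cofinite, ∀ (hpN : ¬ (p : ℕ) ∣ N) (hp2 : (p : ℕ) ≠ 2),
      descLead (goodp_legX N p hpN hp2) (padicVal (p : ℕ)) φL hφL nL τ Q = 0 := by
  have hφτ : φL τ ≠ 0 := (map_ne_zero φL).mpr hτ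
  have hev : ∀ᶠ p : Nat.Primes in cofinite, ∀ Q' ∈ Place.fiberAlong φL hφL Q,
      ∀ (hpN : ¬ (p : ℕ) ∣ N) (hp2 : (p : ℕ) ≠ 2),
      Real.log ((locLead (goodp_legX N p hpN hp2) (padicVal (p : ℕ)) (φL τ) Q' : ℝ≥0) : ℝ) = 0 :=
    (eventually_all_finset _).mpr fun Q' _ => leg_eventually_log_locLead_eq_zero N hφτ Q'
  filter_upwards [hev] with p hp hpN hp2
  unfold descLead fibSum
  rw [Finset.sum_eq_zero, mul_zero]
  intro Q' hQ'
  dsimp only
  rw [hp Q' hQ' hpN hp2, mul_zero]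

variable (𝔡 : DiffDatum N)

/-- `r_p(Q) = 0` for almost all `p`. -/
theorem leg_eventually_goodR_eq_zero (Q : PtN N) :
    ∀ᶠ p : Nat.Primes in cofinite, ∀ (hpN : ¬ (p : ℕ) ∣ N) (hp2 : (p : ℕ) ≠ 2),
      goodR 𝔡 p (goodp_legX N p hpN hp2) φL hφL nL Q = 0 := by
  filter_upwards [leg_eventually_descGreen_eq_zero N Q Q,
    leg_eventually_descLead_eq_zero N (unifAt_ne_zero N Q) Q,
    goodp_eventually_lg_eq_zero (valN N Q (𝔡.D₀ (unifAt N Q)))] with p h1 h2 h3 hpN hp2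
  rw [goodR, h1 hpN hp2, h2 hpN hp2, h3]
  ring

local notation "hfinL" => finiteAlong_fullToLegE N

theorem leg_hostDer_ne_zero : hostDer 𝔡 φL hfinL ≠ 0 := by
  intro h
  have h1 := hostDer_spec (𝔡 := 𝔡) (φ := φL) hfinL (unifAt N (infN N))
  rw [h, Derivation.coe_zero, Pi.zero_apply] at h1
  have h2 : 𝔡.D₀ (unifAt N (infN N)) = 0 := (map_eq_zero φL).mp h1.symm
  exact (𝔡.K0_spec (infN N) _ (ord_unifAt N (infN N))).1 h2

/-- `‖D_E‖_p = 1` for almost all `p`. -/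
theorem leg_eventually_derNorm_eq_one :
    ∀ᶠ p : Nat.Primes in cofinite, ∀ (hpN : ¬ (p : ℕ) ∣ N) (hp2 : (p : ℕ) ≠ 2),
      derNorm (goodp_legX N p hpN hp2) (padicVal (p : ℕ)) (hostDer 𝔡 φL hfinL) = 1 := by
  have hD : IsDerDatum (hostDer 𝔡 φL hfinL) (derCan (hostDer 𝔡 φL hfinL)) :=
    isDerDatum_derCan (legCoordBar N) (leg_hostDer_ne_zero N 𝔡)
  have hne : hostDer 𝔡 φL hfinL (legTau Ω N) ≠ 0 :=
    (hD.spec (legCusp Ω N) (legTau Ω N) (legCusp_ord_legTau Ω N)).1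
  filter_upwards [leg_eventually_gaussNorm_eq_one N hne] with p hp hpN hp2
  have h : IsDiscCoord (goodp_legX N p hpN hp2) (goodp_legX N p hpN hp2).cuspb
      (goodp_legX N p hpN hp2).τ :=
    ⟨(goodp_legX N p hpN hp2).τ_mem, (goodp_legX N p hpN hp2).τ_regularOn,
      (goodp_legX N p hpN hp2).ord_r_cusp_τ⟩
  rw [← derNorm_eq (padicVal_valuationSubring (p : ℕ)) hD h]
  exact hp hpN hp2

/-- the constant of (A7) vanishes for almost all `p`. -/
theorem leg_eventually_goodC7_eq_zero :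
    ∀ᶠ p : Nat.Primes in cofinite, ∀ (hpN : ¬ (p : ℕ) ∣ N) (hp2 : (p : ℕ) ≠ 2),
      goodC7 𝔡 p (goodp_legX N p hpN hp2) φL = 0 := by
  have hev : ∀ᶠ p : Nat.Primes in cofinite, ∀ k ∈ (Finset.univ : Finset (Fin 𝔡.gq)),
      ∀ (hpN : ¬ (p : ℕ) ∣ N) (hp2 : (p : ℕ) ≠ 2),
      Real.log ((gaussNorm (goodp_legX N p hpN hp2) (padicVal (p : ℕ)) (φL (𝔡.φ k)) : ℝ≥0) : ℝ)
        = 0 := by
    refine (eventually_all_finset _).mpr fun k _ => ?_
    by_cases h0 : φL (𝔡.φ k) = 0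
    · refine Eventually.of_forall fun p hpN hp2 => ?_
      rw [h0, gaussNorm_zero, NNReal.coe_zero, Real.log_zero]
    · filter_upwards [leg_eventually_gaussNorm_eq_one N h0] with p hp hpN hp2
      rw [hp hpN hp2, NNReal.coe_one, Real.log_one]
  filter_upwards [hev] with p hp hpN hp2
  unfold goodC7
  apply Finset.sum_eq_zero
  intro k hk
  rw [hp k hk hpN hp2, max_self]

/-! ### the package -/

variable (Zp : Finset (PtN N)) (hZK : ∀ P : PtN N, 𝔡.K0 P ≠ 0 → P ∈ Zp)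
  (hZ : ∀ P : PtN N, ArchBad N P → P ∈ Zp)

theorem legGoodPkg_γ (p : Nat.Primes) (hpN : ¬ (p : ℕ) ∣ N) (hp2 : (p : ℕ) ≠ 2) :
    (legGoodPkg N 𝔡 p hpN hp2 Zp hZK hZ).γ
      = descGreen (goodp_legX N p hpN hp2) (padicVal (p : ℕ)) φL hφL nL := rfl

theorem legGoodPkg_r (p : Nat.Primes) (hpN : ¬ (p : ℕ) ∣ N) (hp2 : (p : ℕ) ≠ 2) :
    (legGoodPkg N 𝔡 p hpN hp2 Zp hZK hZ).r
      = goodR 𝔡 p (goodp_legX N p hpN hp2) φL hφL nL := rfl

theorem legGoodPkg_cω (p : Nat.Primes) (hpN : ¬ (p : ℕ) ∣ N) (hp2 : (p : ℕ) ≠ 2) :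
    (legGoodPkg N 𝔡 p hpN hp2 Zp hZK hZ).cω
      = -Real.log ((derNorm (goodp_legX N p hpN hp2) (padicVal (p : ℕ))
          (hostDer 𝔡 φL hfinL) : ℝ≥0) : ℝ) := rfl

theorem legGoodPkg_Cω (p : Nat.Primes) (hpN : ¬ (p : ℕ) ∣ N) (hp2 : (p : ℕ) ≠ 2) :
    (legGoodPkg N 𝔡 p hpN hp2 Zp hZK hZ).Cω
      = |goodR 𝔡 p (goodp_legX N p hpN hp2) φL hφL nL (infN N)
        + (∑ Z ∈ 𝔡.K0.support, (𝔡.K0 Z : ℝ) *
            descGreen (goodp_legX N p hpN hp2) (padicVal (p : ℕ)) φL hφL nL Z (infN N))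
        - -Real.log ((derNorm (goodp_legX N p hpN hp2) (padicVal (p : ℕ))
            (hostDer 𝔡 φL hfinL) : ℝ≥0) : ℝ)| := rfl

theorem legGoodPkg_C7 (p : Nat.Primes) (hpN : ¬ (p : ℕ) ∣ N) (hp2 : (p : ℕ) ≠ 2) :
    (legGoodPkg N 𝔡 p hpN hp2 Zp hZK hZ).C7 = goodC7 𝔡 p (goodp_legX N p hpN hp2) φL := rfl

theorem legGoodPkg_Cγ (p : Nat.Primes) (hpN : ¬ (p : ℕ) ∣ N) (hp2 : (p : ℕ) ≠ 2) :
    (legGoodPkg N 𝔡 p hpN hp2 Zp hZK hZ).Cγ = 0 := rfl

theorem legGoodPkg_Cw (p : Nat.Primes) (hpN : ¬ (p : ℕ) ∣ N) (hp2 : (p : ℕ) ≠ 2) (d : ℕ) :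
    (legGoodPkg N 𝔡 p hpN hp2 Zp hZK hZ).Cw d = 0 := rfl

/-- **(A6)** `γ_p(P, Q) = 0` for almost all `p`. -/
theorem legGoodPkg_eventually_γ (P Q : PtN N) :
    ∀ᶠ p : Nat.Primes in cofinite, ∀ (hpN : ¬ (p : ℕ) ∣ N) (hp2 : (p : ℕ) ≠ 2),
      (legGoodPkg N 𝔡 p hpN hp2 Zp hZK hZ).γ P Q = 0 := by
  filter_upwards [leg_eventually_descGreen_eq_zero N P Q] with p hp hpN hp2
  rw [legGoodPkg_γ]
  exact hp hpN hp2

/-- **(A6)** `r_p(Q) = 0` for almost all `p`. -/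
theorem legGoodPkg_eventually_r (Q : PtN N) :
    ∀ᶠ p : Nat.Primes in cofinite, ∀ (hpN : ¬ (p : ℕ) ∣ N) (hp2 : (p : ℕ) ≠ 2),
      (legGoodPkg N 𝔡 p hpN hp2 Zp hZK hZ).r Q = 0 := by
  filter_upwards [leg_eventually_goodR_eq_zero N 𝔡 Q] with p hp hpN hp2
  rw [legGoodPkg_r]
  exact hp hpN hp2

/-- **(A6)** `cω_p = 0` for almost all `p`. -/
theorem legGoodPkg_eventually_cω :
    ∀ᶠ p : Nat.Primes in cofinite, ∀ (hpN : ¬ (p : ℕ) ∣ N) (hp2 : (p : ℕ) ≠ 2),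
      (legGoodPkg N 𝔡 p hpN hp2 Zp hZK hZ).cω = 0 := by
  filter_upwards [leg_eventually_derNorm_eq_one N 𝔡] with p hp hpN hp2
  rw [legGoodPkg_cω, hp hpN hp2, NNReal.coe_one, Real.log_one, neg_zero]

/-- **(A6)** `Cω_p = 0` for almost all `p`. -/
theorem legGoodPkg_eventually_Cω :
    ∀ᶠ p : Nat.Primes in cofinite, ∀ (hpN : ¬ (p : ℕ) ∣ N) (hp2 : (p : ℕ) ≠ 2),
      (legGoodPkg N 𝔡 p hpN hp2 Zp hZK hZ).Cω = 0 := by
  have hev : ∀ᶠ p : Nat.Primes in cofinite, ∀ Z ∈ 𝔡.K0.support,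
      ∀ (hpN : ¬ (p : ℕ) ∣ N) (hp2 : (p : ℕ) ≠ 2),
      descGreen (goodp_legX N p hpN hp2) (padicVal (p : ℕ)) φL hφL nL Z (infN N) = 0 :=
    (eventually_all_finset _).mpr fun Z _ => leg_eventually_descGreen_eq_zero N Z (infN N)
  filter_upwards [leg_eventually_derNorm_eq_one N 𝔡, leg_eventually_goodR_eq_zero N 𝔡 (infN N),
    hev] with p h1 h2 h3 hpN hp2
  rw [legGoodPkg_Cω, h1 hpN hp2, h2 hpN hp2, NNReal.coe_one, Real.log_one, neg_zero, sub_zero,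
    zero_add, abs_eq_zero]
  apply Finset.sum_eq_zero
  intro Z hZ'
  rw [h3 Z hZ' hpN hp2, mul_zero]

/-- **(A6)** `C7_p = 0` for almost all `p`. -/
theorem legGoodPkg_eventually_C7 :
    ∀ᶠ p : Nat.Primes in cofinite, ∀ (hpN : ¬ (p : ℕ) ∣ N) (hp2 : (p : ℕ) ≠ 2),
      (legGoodPkg N 𝔡 p hpN hp2 Zp hZK hZ).C7 = 0 := by
  filter_upwards [leg_eventually_goodC7_eq_zero N 𝔡] with p hp hpN hp2
  rw [legGoodPkg_C7]
  exact hp hpN hp2

theorem leg_sum_ramificationIndexAlong (Q : PtN N) :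
    ∑ W ∈ Place.fiberAlong φL hφL Q, (Place.ramificationIndexAlong φL W : ℝ) = nL :=
  goodp_sum_ramificationIndexAlong φL hφL (fundamentalIdentityAlong_fullToLegE N)
    (legE_deg_gen N) ptN_deg Q

theorem leg_finrankAlong_ne_zero : nL ≠ 0 := by
  letI := algebraAlong φL
  haveI : Module.Finite ↥(keyFq Ω N) ↥(legE Ω N) := finiteAlong_fullToLegE N
  exact (Module.finrank_pos (R := ↥(keyFq Ω N)) (M := ↥(legE Ω N))).ne'

/-- **(A6), `weil_global`**: for a nonzero function `f`, the Weil decomposition (A3) holds with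
the constant `c = 0` for almost all `p`. -/
theorem legGoodPkg_eventually_weil {f : FunN N} (hf : f ≠ 0) :
    ∀ᶠ p : Nat.Primes in cofinite, ∀ (hpN : ¬ (p : ℕ) ∣ N) (hp2 : (p : ℕ) ≠ 2)
      (D : PtN N →₀ ℤ), IsDivOf N f D → ∀ Q : PtN N, (D Q = 0 ∨ Q ∉ Zp) →
      (∑ P ∈ D.support, (D P : ℝ) *
          (if P = Q then (legGoodPkg N 𝔡 p hpN hp2 Zp hZK hZ).r Q
            else (legGoodPkg N 𝔡 p hpN hp2 Zp hZK hZ).γ P Q))
        + lg (some p) (𝔡.lcN f Q) = 0 := by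
  have hφf : φL f ≠ 0 := (map_ne_zero φL).mpr hf
  filter_upwards [leg_eventually_gaussNorm_eq_one N hφf] with p hp hpN hp2 D hD Q hQ
  have hQ' : D Q = 0 ∨ 𝔡.K0 Q = 0 := by
    rcases hQ with h | h
    · exact Or.inl h
    · right
      by_contra hne
      exact h (hZK Q hne)
  rw [legGoodPkg_r, legGoodPkg_γ,
    goodp_weil_exact (𝔡 := 𝔡) (p := p) (X := goodp_legX N p hpN hp2) (φ := φL) (hφ := hφL)
      (leg_sum_ramificationIndexAlong N) (leg_finrankAlong_ne_zero N) hf hD Q hQ',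
    hp hpN hp2, NNReal.coe_one, Real.log_one]

end LegFin

end Fermat.Agent.MW

end
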