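/-
MW (S17) — helper3 — [GOOD-P], part 18: **the Hesse host at a prime `p ∤ 3N`** (used at `p = 2`):
the deck group of `hesE Ω N / FunN N` is a group of deck automorphisms of `hesGoodRed` acting
faithfully on the reduced function field, it is the Galois group of the cover, the cover is
unramified off the archimedean-bad points, and the resulting local package `hesGoodPkg`.
-/
import Mathlib
import Fermat.Agent.MW.GOODP_helper3_Leg
import Fermat.Agent.MW.GOODP_helper3_Tetra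
import Fermat.Agent.FG.INST_helper6_Hes
import Fermat.Agent.TW.Kill_helper1_Cyc

set_option autoImplicit false
set_option linter.unusedSectionVars false
set_option linter.style.haveILetI false

noncomputable section

namespace Fermat.Agent.MW

open AlgebraicCurve ModularCurve IsLocalRing IntermediateField Fermat.Agent.FF Fermat.Agent.JA
  Fermat.Agent.FG Fermat.Agent.SS
open scoped Classical NNReal Pointwise

local notation "Ω" => AlgebraicClosure ℚ

section Hes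

variable (N : ℕ) [NeZero N] {ℓ : ℕ} [Fact ℓ.Prime] {A : ValuationSubring Ω}
  (hA : A.LiesOverPrime ℓ) (hℓN : ¬ ℓ ∣ N) (hℓ3 : ℓ ≠ 3)

include hA hℓ3 in
theorem goodp_three_inv_mem : (3 : Ω)⁻¹ ∈ A := by
  have hℓ : ℓ.Prime := Fact.out
  have h3 : ¬ ℓ ∣ 3 := fun h => hℓ3 ((Nat.prime_dvd_prime_iff_eq hℓ Nat.prime_three).mp h)
  have hv := Fermat.Agent.TW.Kill.valuation_natCast_eq_one hℓ h3 hA
  rw [← A.valuation_le_one_iff, map_inv₀]
  have : A.valuation (3 : Ω) = 1 := by exact_mod_cast hv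
  rw [this, inv_one]

/-- the Hesse coordinate is a Gauss coordinate of `hesGoodRed`. -/
theorem isGaussCoord_hesTE : IsGaussCoord (hesGoodRed hA N hℓN hℓ3) (hesTE Ω N) := by
  rw [hesTE_eq_hesCoordBar_x]
  exact ⟨hesCoordBar_x_mem_hesWE hA N hℓ3, (hesEt_facts hA N hℓN hℓ3).1⟩

theorem adjoin_hesTE_eq_adjoin_τ :
    Ω⟮hesTE Ω N⟯ = Ω⟮(hesGoodRed hA N hℓN hℓ3).τ⟯ := (adjoin_hesTau Ω N).symm

/-- the action of a deck transformation on the Hesse coordinate. -/
theorem isTetrahedral_hesTE {h : ↥(hesE Ω N) ≃ₐ[Ω] ↥(hesE Ω N)}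
    (hh : h ∈ fixingAlong (fullToHesE Ω N)) :
    IsTetrahedral Ω (hesTE Ω N) (h (hesTE Ω N)) := by
  obtain ⟨ω, hω⟩ := exists_omega_bar
  exact isTetrahedral_of_rel hω (hesE_conj_rel N hh)

/-- **the deck transformations of the Hesse cover are deck automorphisms of the good-reduction
datum.** -/
theorem isDeckAut_hes {g : SemilinearAut Ω ↥(hesE Ω N)} (hg : g ∈ deckGroup (fullToHesE Ω N)) :
    IsDeckAut (hesGoodRed hA N hℓN hℓ3) g := by
  have hu := isGaussCoord_hesTE N hA hℓN hℓ3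
  have h3 := goodp_three_inv_mem hA hℓ3
  have h30 : (3 : Ω) ≠ 0 := by norm_num
  have hginv : g⁻¹ ∈ deckGroup (fullToHesE Ω N) := inv_mem hg
  obtain ⟨h, hh, rfl⟩ := mem_deckGroup.mp hg
  obtain ⟨h', hh', hh'eq⟩ := mem_deckGroup.mp hginv
  refine isDeckAut_of_isGaussCoord (deckGroup_base hg) hu ?_ ?_
    (adjoin_hesTE_eq_adjoin_τ N hA hℓN hℓ3)
  · exact hu.tetrahedral h3 h30 (isTetrahedral_hesTE N hh)
  · rw [← hh'eq]
    exact hu.tetrahedral h3 h30 (isTetrahedral_hesTE N hh')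

/-- **the deck group of the Hesse cover is a deck group of the good-reduction datum.** -/
theorem isDeckGroup_hes :
    IsDeckGroup (hesGoodRed hA N hℓN hℓ3) (deckGroup (fullToHesE Ω N)) where
  deck g hg := isDeckAut_hes N hA hℓN hℓ3 hg
  faith g hg hg1 := by
    have hu := isGaussCoord_hesTE N hA hℓN hℓ3
    have h3 := goodp_three_inv_mem hA hℓ3
    have h30 : (3 : Ω) ≠ 0 := by norm_num
    have hginv : g⁻¹ ∈ deckGroup (fullToHesE Ω N) := inv_mem hg
    obtain ⟨h', hh', hh'eq⟩ := mem_deckGroup.mp hginv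
    have han : IsTetrahedral Ω (hesTE Ω N) (g⁻¹ • hesTE Ω N) := by
      rw [← hh'eq]
      exact isTetrahedral_hesTE N hh'
    have hmem := (hu.tetrahedral h3 h30 han).mem
    refine ⟨⟨hesTE Ω N, hu.mem⟩, hmem, hu.ρ_tetrahedral_ne h3 h30 han ?_ hmem⟩
    intro heq
    apply hg1
    have h1 : h' = 1 := hesE_eq_one_of_apply_hesTE N hh' (by rw [← hh'eq] at heq; exact heq)
    rw [h1, map_one] at hh'eq
    exact inv_eq_one.mp hh'eq.symm

end Hes

/-! ### the ramification of the Hesse cover -/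

section Ram

variable (N : ℕ) [NeZero N]

/-- **the stabilisers of the Hesse cover are trivial away from `j = 0, 1728, ∞`.** -/
theorem hes_stabilizer_trivial {Q' : Place Ω ↥(hesE Ω N)} {j₀ : Ω}
    (hj : HasValueAt Q' (hesJE Ω N) j₀) (hj0 : j₀ ≠ 0) (hj1728 : j₀ ≠ 1728)
    {g : SemilinearAut Ω ↥(hesE Ω N)} (hg : g ∈ deckGroup (fullToHesE Ω N))
    (hfix : g • Q' = Q') : g = 1 := by
  obtain ⟨h, hh, rfl⟩ := mem_deckGroup.mp hg
  set T := hesTE Ω N with hT
  have hT0 : T ≠ 0 := by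
    intro h0
    apply hesTE_transcendental N
    rw [← hT, h0]
    exact isAlgebraic_zero
  have hrel := hesTE_rel N
  have h27 : HasValueAt Q' (27 : ↥(hesE Ω N)) (27 : Ω) := HasValueAt.of_eq (map_ofNat _ 27).symm
  have h8 : HasValueAt Q' (8 : ↥(hesE Ω N)) (8 : Ω) := HasValueAt.of_eq (map_ofNat _ 8).symm
  have h2 : HasValueAt Q' (2 : ↥(hesE Ω N)) (2 : Ω) := HasValueAt.of_eq (map_ofNat _ 2).symm
  have hone : HasValueAt Q' (1 : ↥(hesE Ω N)) (1 : Ω) := HasValueAt.one' Q'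
  -- `T` is regular at `Q'`
  have hreg : T ∈ Q'.toValuationSubring := by
    by_contra hnot
    have hinv : T⁻¹ ∈ Q'.toValuationSubring :=
      (Q'.toValuationSubring.mem_or_inv_mem T).resolve_left hnot
    have hs0 : HasValueAt Q' T⁻¹ 0 := by
      rw [HasValueAt.zero_iff]
      right
      have h1 : 0 ≤ Q'.ord T⁻¹ := PlaceAux.ord_nonneg_of_mem Q' hinv
      have h2 : ¬ 0 ≤ Q'.ord T := fun h3 =>
        hnot ((PlaceAux.mem_iff_ord_nonneg' Q' hT0).mpr h3)
      rw [Q'.ord_inv] at h1 ⊢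
      omega
    have hrel' : hesJE Ω N * ((1 - T⁻¹ ^ 3) ^ 3 * T⁻¹ ^ 3) = 27 * (1 + 8 * T⁻¹ ^ 3) ^ 3 := by
      have e1 : (1 - T⁻¹ ^ 3) ^ 3 * T⁻¹ ^ 3 = (T ^ 3 - 1) ^ 3 * T⁻¹ ^ 12 := by
        field_simp
      have e2 : (1 + 8 * T⁻¹ ^ 3) ^ 3 = T ^ 3 * (T ^ 3 + 8) ^ 3 * T⁻¹ ^ 12 := by
        field_simp
      rw [e1, e2, ← mul_assoc, hrel]
      ring
    have hv1 : HasValueAt Q' (hesJE Ω N * ((1 - T⁻¹ ^ 3) ^ 3 * T⁻¹ ^ 3))
        (j₀ * ((1 - 0 ^ 3) ^ 3 * 0 ^ 3)) :=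
      hj.mul (((hone.sub (hs0.pow 3)).pow 3).mul (hs0.pow 3))
    have hv2 : HasValueAt Q' (27 * (1 + 8 * T⁻¹ ^ 3) ^ 3) (27 * (1 + 8 * 0 ^ 3) ^ 3) :=
      h27.mul ((hone.add (h8.mul (hs0.pow 3))).pow 3)
    rw [hrel'] at hv1
    have := hv1.unique hv2
    norm_num at this
  obtain ⟨t₀, ht₀⟩ := HasValueAt.exists_of_mem (hesE_deg_gen N Q') hreg
  have hv1 : HasValueAt Q' (hesJE Ω N * (T ^ 3 - 1) ^ 3) (j₀ * (t₀ ^ 3 - 1) ^ 3) :=
    hj.mul (((ht₀.pow 3).sub hone).pow 3)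
  have hv2 : HasValueAt Q' (27 * T ^ 3 * (T ^ 3 + 8) ^ 3) (27 * t₀ ^ 3 * (t₀ ^ 3 + 8) ^ 3) :=
    (h27.mul (ht₀.pow 3)).mul (((ht₀.pow 3).add h8).pow 3)
  rw [hrel] at hv1
  have hrel₀ : j₀ * (t₀ ^ 3 - 1) ^ 3 = 27 * t₀ ^ 3 * (t₀ ^ 3 + 8) ^ 3 := hv1.unique hv2
  have ht : t₀ ^ 3 - 1 ≠ 0 := by
    intro h0
    have h1 : t₀ ^ 3 = 1 := sub_eq_zero.mp h0
    rw [h0, h1] at hrel₀
    norm_num at hrel₀
  -- the value of `h T` at `Q'`
  have hval : HasValueAt Q' (h T) t₀ := by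
    have := ht₀.smul (SemilinearAut.ofAlgAut h)
    rwa [hfix] at this
  obtain ⟨ζ, ε, hζ, hε, hcase⟩ := isTetrahedral_hesTE N hh
  rw [← hT] at hcase
  have hζv : HasValueAt Q' (algebraMap Ω ↥(hesE Ω N) ζ) ζ := HasValueAt.algebraMap' Q' ζ
  have hεv : HasValueAt Q' (algebraMap Ω ↥(hesE Ω N) ε) ε := HasValueAt.algebraMap' Q' ε
  have hT_eq : h T = T := by
    rcases hcase with hc | hc
    · have hv : HasValueAt Q' T (ζ * t₀) := by
        rw [← hc]
        exact hζv.mul hval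
      have heq : ζ * t₀ = t₀ := hv.unique ht₀
      by_cases hζ1 : ζ = 1
      · rw [hζ1, map_one, one_mul] at hc
        exact hc
      · exfalso
        rcases goodp_hesse_fixed_point hrel₀ ht hζ hε (Or.inl ⟨heq, hζ1⟩) with h | h
        · exact hj0 h
        · exact hj1728 h
    · exfalso
      have hv : HasValueAt Q' (T + 2 * algebraMap Ω ↥(hesE Ω N) ε)
          (ζ * (ε ^ 2 * t₀ - 1) * t₀) := by
        rw [← hc]
        exact (hζv.mul (((hεv.pow 2).mul ht₀).sub hone)).mul hval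
      have hv' : HasValueAt Q' (T + 2 * algebraMap Ω ↥(hesE Ω N) ε) (t₀ + 2 * ε) :=
        ht₀.add (h2.mul hεv)
      rcases goodp_hesse_fixed_point hrel₀ ht hζ hε (Or.inr (hv.unique hv')) with h | h
      · exact hj0 h
      · exact hj1728 h
  rw [hesE_eq_one_of_apply_hesTE N hh hT_eq, map_one]

end Ram

/-! ### the package -/

section Pkg

variable (N : ℕ) [NeZero N]

instance deckGroup_hes_fintype : Fintype ↥(deckGroup (fullToHesE Ω N)) :=
  haveI := deckGroup_finite (fullToHesE Ω N) (isIntegral_fullToHesE_bar N) (finiteAlong_fullToHesE N)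
  Fintype.ofFinite _

theorem isGaloisCoverGroup_hes :
    haveI : HasPrincipalDivisors Ω ↥(hesE Ω N) := hesE_principal_gen N
    IsGaloisCoverGroup (fullToHesE Ω N) (isIntegral_fullToHesE_bar N)
      (deckGroup (fullToHesE Ω N)) :=
  haveI : HasPrincipalDivisors Ω ↥(hesE Ω N) := hesE_principal_gen N
  isGaloisCoverGroup_deckGroup (fullToHesE Ω N) (isIntegral_fullToHesE_bar N)
    (finiteAlong_fullToHesE N) (isGalois_fullToHesE N) (hesE_deg_gen N)

/-- **the Hesse cover is unramified over the points which are not archimedean-bad.** -/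
theorem hes_unramified_of_not_archBad {Q : PtN N} (hQ : ¬ ArchBad N Q) (hQinf : Q ≠ infN N) :
    haveI : HasPrincipalDivisors Ω ↥(hesE Ω N) := hesE_principal_gen N
    ∀ Q' ∈ Place.fiberAlong (fullToHesE Ω N) (isIntegral_fullToHesE_bar N) Q,
      Place.ramificationIndexAlong (fullToHesE Ω N) Q' = 1 := by
  haveI : HasPrincipalDivisors Ω ↥(hesE Ω N) := hesE_principal_gen N
  intro Q' hQ'
  obtain ⟨j₀, hj₀, hj0, hj1728⟩ := exists_value_jBar_of_not_archBad N hQ hQinf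
  have hQ'Q : Q'.restrictAlong (fullToHesE Ω N) (isIntegral_fullToHesE_bar N) = Q :=
    Place.mem_fiberAlong.mp hQ'
  have hv : HasValueAt Q' (hesJE Ω N) j₀ := by
    rw [← fullToHesE_egalJ, egalJ_eq_jBar, ← hasValueAt_restrictAlong_iff _
      (isIntegral_fullToHesE_bar N), hQ'Q]
    exact hj₀
  exact goodp_ramificationIndexAlong_eq_one (isGaloisCoverGroup_hes N)
    (fun g hg hfix => hes_stabilizer_trivial N hv hj0 hj1728 hg hfix)

variable (𝔡 : DiffDatum N) (p : Nat.Primes) (hpN : ¬ (p : ℕ) ∣ N) (hp3 : (p : ℕ) ≠ 3)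

/-- **THE LOCAL PACKAGE AT A PRIME `p ∤ 3N`** (Hesse host; used at `p = 2`). -/
def hesGoodPkg (Zp : Finset (PtN N)) (hZK : ∀ P : PtN N, 𝔡.K0 P ≠ 0 → P ∈ Zp)
    (hZ : ∀ P : PtN N, ArchBad N P → P ∈ Zp) : LocalPkgAt N 𝔡 Zp (some p) :=
  haveI : HasPrincipalDivisors Ω ↥(hesE Ω N) := hesE_principal_gen N
  goodPkg (X := hesGoodRed (Fermat.Agent.TW.Kill.padicPlace_liesOverPrime (p : ℕ)) N hpN hp3)
    (φ := fullToHesE Ω N) (hφ := isIntegral_fullToHesE_bar N)
    (n := finrankAlong Ω (fullToHesE Ω N))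
    (isDeckGroup_hes N (Fermat.Agent.TW.Kill.padicPlace_liesOverPrime (p : ℕ)) hpN hp3)
    (isGaloisCoverGroup_hes N)
    (fun Q => goodp_sum_ramificationIndexAlong (fullToHesE Ω N) (isIntegral_fullToHesE_bar N)
      (fundamentalIdentityAlong_fullToHesE N) (hesE_deg_gen N) ptN_deg Q)
    (by
      letI := algebraAlong (fullToHesE Ω N)
      haveI : Module.Finite ↥(keyFq Ω N) ↥(hesE Ω N) := finiteAlong_fullToHesE N
      exact (Module.finrank_pos (R := ↥(keyFq Ω N)) (M := ↥(hesE Ω N))).ne')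
    (hesCoordBar N) (finiteAlong_fullToHesE N) Zp hZK
    (fun Q hQ hQinf => hes_unramified_of_not_archBad N (fun h => hQ (hZ Q h)) hQinf)

end Pkg

end Fermat.Agent.MW

end
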