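/-
MW (S17) — helper3 — [GOOD-P], part 23 ((A6), part 5): **the local package at every prime
`p ∤ N` and its finiteness statements (A6)** in the form `∃ T : Finset Nat.Primes, ∀ p ∉ T, …`.

* `goodPkgAt N 𝔡 p hpN Zp hZK hZ : LocalPkgAt N 𝔡 Zp (some p)` : the Hesse package at `p = 2`,
  the Legendre package at odd `p`;
* `goodPkgAt_Cγ`, `goodPkgAt_Cw` : `Cγ = Cw d = 0` at every `p ∤ N`;
* `exists_finset_goodPkgAt_consts` : `cω = Cω = C7 = 0` outside a finite set of primes;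
* `exists_finset_goodPkgAt_γ`, `exists_finset_goodPkgAt_r` : `γ_p(P, Q) = 0`, `r_p(Q) = 0`
  outside a finite set of primes (every `P`, `Q`);
* `exists_finset_goodPkgAt_weil` : for `f ≠ 0`, (A3) holds EXACTLY with constant `0` outside a
  finite set of primes.
-/
import Mathlib
import Fermat.Agent.MW.GOODP_helper3_FinD
import Fermat.Agent.MW.GOODP_helper3_Hes

set_option autoImplicit false
set_option linter.unusedSectionVars false
set_option linter.style.haveILetI false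

noncomputable section

namespace Fermat.Agent.MW

open AlgebraicCurve ModularCurve IsLocalRing Fermat.Agent.FF Fermat.Agent.JA Fermat.Agent.FG
  Filter
open scoped Classical NNReal

local notation "Ω" => AlgebraicClosure ℚ

/-- from "for almost all primes" to an explicit finite exceptional set. -/
theorem goodp_exists_finset_of_eventually {P : Nat.Primes → Prop}
    (h : ∀ᶠ p : Nat.Primes in cofinite, P p) : ∃ T : Finset Nat.Primes, ∀ p ∉ T, P p := by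
  rw [eventually_cofinite] at h
  refine ⟨h.toFinset, fun p hp => ?_⟩
  rw [Set.Finite.mem_toFinset] at hp
  by_contra hcon
  exact hp hcon

theorem goodp_eventually_ne_two : ∀ᶠ p : Nat.Primes in cofinite, (p : ℕ) ≠ 2 := by
  rw [eventually_cofinite]
  refine (Set.finite_singleton (⟨2, Nat.prime_two⟩ : Nat.Primes)).subset ?_
  intro p hp
  simp only [not_not] at hp
  exact Subtype.ext hp

section Pkg

variable (N : ℕ) [NeZero N] (𝔡 : DiffDatum N)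

/-- **THE LOCAL PACKAGE AT A PRIME `p ∤ N`**: Hesse host at `p = 2`, Legendre host at odd `p`. -/
def goodPkgAt (p : Nat.Primes) (hpN : ¬ (p : ℕ) ∣ N) (Zp : Finset (PtN N))
    (hZK : ∀ P : PtN N, 𝔡.K0 P ≠ 0 → P ∈ Zp) (hZ : ∀ P : PtN N, ArchBad N P → P ∈ Zp) :
    LocalPkgAt N 𝔡 Zp (some p) :=
  if hp2 : (p : ℕ) = 2 then
    hesGoodPkg N 𝔡 p hpN (by rw [hp2]; norm_num) Zp hZK hZ
  else legGoodPkg N 𝔡 p hpN hp2 Zp hZK hZ

variable (Zp : Finset (PtN N)) (hZK : ∀ P : PtN N, 𝔡.K0 P ≠ 0 → P ∈ Zp)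
  (hZ : ∀ P : PtN N, ArchBad N P → P ∈ Zp)

theorem goodPkgAt_of_ne_two (p : Nat.Primes) (hpN : ¬ (p : ℕ) ∣ N) (hp2 : (p : ℕ) ≠ 2) :
    goodPkgAt N 𝔡 p hpN Zp hZK hZ = legGoodPkg N 𝔡 p hpN hp2 Zp hZK hZ := by
  rw [goodPkgAt, dif_neg hp2]

/-- (A1) holds with constant `0` at every `p ∤ N`. -/
theorem goodPkgAt_Cγ (p : Nat.Primes) (hpN : ¬ (p : ℕ) ∣ N) :
    (goodPkgAt N 𝔡 p hpN Zp hZK hZ).Cγ = 0 := by
  unfold goodPkgAt
  split_ifs <;> rfl

/-- (A3) holds with error `0` at every `p ∤ N`. -/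
theorem goodPkgAt_Cw (p : Nat.Primes) (hpN : ¬ (p : ℕ) ∣ N) (d : ℕ) :
    (goodPkgAt N 𝔡 p hpN Zp hZK hZ).Cw d = 0 := by
  unfold goodPkgAt
  split_ifs <;> rfl

/-- **(A6), constants**: `cω = Cω = C7 = 0` outside a finite set of primes. -/
theorem exists_finset_goodPkgAt_consts :
    ∃ T : Finset Nat.Primes, ∀ p ∉ T, ∀ hpN : ¬ (p : ℕ) ∣ N,
      (goodPkgAt N 𝔡 p hpN Zp hZK hZ).cω = 0 ∧ (goodPkgAt N 𝔡 p hpN Zp hZK hZ).Cω = 0 ∧
        (goodPkgAt N 𝔡 p hpN Zp hZK hZ).C7 = 0 := by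
  apply goodp_exists_finset_of_eventually
  filter_upwards [goodp_eventually_ne_two, legGoodPkg_eventually_cω N 𝔡 Zp hZK hZ,
    legGoodPkg_eventually_Cω N 𝔡 Zp hZK hZ, legGoodPkg_eventually_C7 N 𝔡 Zp hZK hZ]
    with p hp2 h1 h2 h3 hpN
  rw [goodPkgAt_of_ne_two N 𝔡 Zp hZK hZ p hpN hp2]
  exact ⟨h1 hpN hp2, h2 hpN hp2, h3 hpN hp2⟩

/-- **(A6), `γ`**: `γ_p(P, Q) = 0` outside a finite set of primes. -/
theorem exists_finset_goodPkgAt_γ (P Q : PtN N) :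
    ∃ T : Finset Nat.Primes, ∀ p ∉ T, ∀ hpN : ¬ (p : ℕ) ∣ N,
      (goodPkgAt N 𝔡 p hpN Zp hZK hZ).γ P Q = 0 := by
  apply goodp_exists_finset_of_eventually
  filter_upwards [goodp_eventually_ne_two, legGoodPkg_eventually_γ N 𝔡 Zp hZK hZ P Q]
    with p hp2 h1 hpN
  rw [goodPkgAt_of_ne_two N 𝔡 Zp hZK hZ p hpN hp2]
  exact h1 hpN hp2

/-- **(A6), `r`**: `r_p(Q) = 0` outside a finite set of primes. -/
theorem exists_finset_goodPkgAt_r (Q : PtN N) :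
    ∃ T : Finset Nat.Primes, ∀ p ∉ T, ∀ hpN : ¬ (p : ℕ) ∣ N,
      (goodPkgAt N 𝔡 p hpN Zp hZK hZ).r Q = 0 := by
  apply goodp_exists_finset_of_eventually
  filter_upwards [goodp_eventually_ne_two, legGoodPkg_eventually_r N 𝔡 Zp hZK hZ Q]
    with p hp2 h1 hpN
  rw [goodPkgAt_of_ne_two N 𝔡 Zp hZK hZ p hpN hp2]
  exact h1 hpN hp2

/-- **(A6), `weil_global`**: for `f ≠ 0`, (A3) holds exactly, with constant `0`, outside a finite
set of primes. -/
theorem exists_finset_goodPkgAt_weil {f : FunN N} (hf : f ≠ 0) :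
    ∃ T : Finset Nat.Primes, ∀ p ∉ T, ∀ (hpN : ¬ (p : ℕ) ∣ N) (D : PtN N →₀ ℤ),
      IsDivOf N f D → ∀ Q : PtN N, (D Q = 0 ∨ Q ∉ Zp) →
      (∑ P ∈ D.support, (D P : ℝ) *
          (if P = Q then (goodPkgAt N 𝔡 p hpN Zp hZK hZ).r Q
            else (goodPkgAt N 𝔡 p hpN Zp hZK hZ).γ P Q))
        + lg (some p) (𝔡.lcN f Q) = 0 := by
  apply goodp_exists_finset_of_eventually
  filter_upwards [goodp_eventually_ne_two, legGoodPkg_eventually_weil N 𝔡 Zp hZK hZ hf]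
    with p hp2 h1 hpN D hD Q hQ
  rw [goodPkgAt_of_ne_two N 𝔡 Zp hZK hZ p hpN hp2]
  exact h1 hpN hp2 D hD Q hQ

end Pkg

end Fermat.Agent.MW

end
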