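/-
MW (S17) — helper3 — [GOOD-P], part 24: **`GoodInput N` for a prime level `N`**: the family of local
packages at the primes `p ≠ N` (Hesse host at `p = 2`, Legendre host at odd `p`) with the
finiteness statements (A6), in the literal form consumed by `fg_of_nadic_good`.

* `goodFamily` : `GoodFamily N 𝔡 Zp` for `Zp ⊇ supp K0 ∪ {archimedean-bad points}`;
* `goodInput N hN : GoodInput N`.
-/
import Mathlib
import Fermat.Agent.MW.GOODP_helper3_FinE
import Fermat.Agent.MW.LFASM_helper8_Final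

set_option autoImplicit false
set_option linter.unusedSectionVars false
set_option linter.style.haveILetI false

noncomputable section

namespace Fermat.Agent.MW

open AlgebraicCurve ModularCurve

variable (N : ℕ) [NeZero N]

/-- a prime different from the prime `N` does not divide `N`. -/
theorem goodp_not_dvd_of_ne (hN : N.Prime) (p : Nat.Primes) (hp : (p : ℕ) ≠ N) :
    ¬ (p : ℕ) ∣ N := by
  intro h
  rcases (Nat.dvd_prime hN).mp h with h1 | h1
  · exact p.2.one_lt.ne' h1
  · exact hp h1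

/-- **the good family**: the packages at all `p ≠ N` with (A6). -/
theorem nonempty_goodFamily (𝔡 : DiffDatum N) (Zp : Finset (PtN N))
    (hZK : ∀ P : PtN N, 𝔡.K0 P ≠ 0 → P ∈ Zp) (hZ : ∀ P : PtN N, ArchBad N P → P ∈ Zp)
    (hN : N.Prime) : Nonempty (GoodFamily N 𝔡 Zp) := by
  obtain ⟨T, hT⟩ := exists_finset_goodPkgAt_consts N 𝔡 Zp hZK hZ
  refine ⟨{
    pkg := fun p hp => goodPkgAt N 𝔡 p (goodp_not_dvd_of_ne N hN p hp) Zp hZK hZ
    T := T
    Cγ_eq := fun p hp _ => goodPkgAt_Cγ N 𝔡 Zp hZK hZ p _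
    Cw_eq := fun p hp _ d => goodPkgAt_Cw N 𝔡 Zp hZK hZ p _ d
    cω_eq := fun p hp hpT => (hT p hpT _).1
    Cω_eq := fun p hp hpT => (hT p hpT _).2.1
    C7_eq := fun p hp hpT => (hT p hpT _).2.2
    γ_eq := fun P Q _ => by
      obtain ⟨T', hT'⟩ := exists_finset_goodPkgAt_γ N 𝔡 Zp hZK hZ P Q
      exact ⟨T', fun p hp hpT => hT' p hpT _⟩
    r_eq := fun Q _ => by
      obtain ⟨T', hT'⟩ := exists_finset_goodPkgAt_r N 𝔡 Zp hZK hZ Q
      exact ⟨T', fun p hp hpT => hT' p hpT _⟩
    weil_eq := fun d f D hf hD _ => by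
      obtain ⟨T', hT'⟩ := exists_finset_goodPkgAt_weil N 𝔡 Zp hZK hZ hf
      refine ⟨T', fun p hp hpT Q hQ => ?_⟩
      rw [hT' p hpT _ D hD Q hQ, abs_zero, goodPkgAt_Cw] }⟩

/-- **`GoodInput N`** for a prime level `N`. -/
theorem goodInput (hN : N.Prime) : GoodInput N := by
  intro 𝔡 _
  refine ⟨(archBad_finite N).toFinset, ?_, ?_⟩
  · rw [Set.Finite.mem_toFinset]
    exact not_archBad_infN
  · intro Zp _ _ hK hBad
    exact nonempty_goodFamily N 𝔡 Zp
      (fun P hP => hK P (Finsupp.mem_support_iff.mpr hP))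
      (fun P hP => hBad P ((archBad_finite N).mem_toFinset.mpr hP)) hN

end Fermat.Agent.MW

end
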