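/-
MW / [ARCH] (A7)-core (helper4, for helper9): a Blaschke-type maximum principle.  If `G` is analytic
near the closed `r₁`-disc and `‖G w‖ · ∏ ‖w - u‖ ^ m u ≤ C` on the circle `‖w‖ = r₁`, then
`‖G z‖ · (min 1 (r₁ - r₀)) ^ (Σ m u) ≤ C` on the `r₀`-disc.  Mathlib only.
-/
import Mathlib

set_option autoImplicit false

namespace Fermat.Agent.MW

open Metric

/-- the Blaschke-type factor attached to `u`: `(r₁² - conj u · w) / r₁` if `‖u‖ ≤ r₁`, else `w - u`. -/
noncomputable def blaschkeFactor (r₁ : ℝ) (u w : ℂ) : ℂ :=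
  open Classical in
  if ‖u‖ ≤ r₁ then ((r₁ : ℂ) ^ 2 - starRingEnd ℂ u * w) / (r₁ : ℂ) else w - u

theorem differentiable_blaschkeFactor (r₁ : ℝ) (u : ℂ) :
    Differentiable ℂ (blaschkeFactor r₁ u) := by
  unfold blaschkeFactor
  split_ifs
  · exact ((differentiable_const _).sub ((differentiable_const _).mul differentiable_id)).div_const _
  · exact differentiable_id.sub (differentiable_const _)

/-- on the circle the factor has the norm of `w - u`. -/
theorem norm_blaschkeFactor_sphere {r₁ : ℝ} (h1 : 0 < r₁) (u : ℂ) {w : ℂ} (hw : ‖w‖ = r₁) :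
    ‖blaschkeFactor r₁ u w‖ = ‖w - u‖ := by
  unfold blaschkeFactor
  split_ifs with h
  · have e : (r₁ : ℂ) ^ 2 = w * starRingEnd ℂ w := by
      rw [Complex.mul_conj, Complex.normSq_eq_norm_sq, hw]; push_cast; ring
    have e2 : (r₁ : ℂ) ^ 2 - starRingEnd ℂ u * w = w * starRingEnd ℂ (w - u) := by
      rw [e, map_sub]; ring
    rw [norm_div, e2, norm_mul, Complex.norm_conj, hw, Complex.norm_real, Real.norm_eq_abs,
      abs_of_pos h1, mul_div_assoc, mul_comm, div_mul_cancel₀ _ h1.ne']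
  · rfl

/-- in the `r₀`-disc the factor is bounded below by `r₁ - r₀`. -/
theorem le_norm_blaschkeFactor {r₀ r₁ : ℝ} (h0 : 0 < r₀) (h01 : r₀ < r₁) (u : ℂ) {z : ℂ}
    (hz : ‖z‖ ≤ r₀) : r₁ - r₀ ≤ ‖blaschkeFactor r₁ u z‖ := by
  have h1 : 0 < r₁ := h0.trans h01
  unfold blaschkeFactor
  split_ifs with h
  · rw [norm_div, Complex.norm_real, Real.norm_eq_abs, abs_of_pos h1, le_div_iff₀ h1]
    have e1 : ‖starRingEnd ℂ u * z‖ ≤ r₁ * r₀ := by
      rw [norm_mul, Complex.norm_conj]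
      exact mul_le_mul h hz (norm_nonneg _) h1.le
    have e2 : ‖((r₁ : ℂ) ^ 2)‖ = r₁ ^ 2 := by
      rw [norm_pow, Complex.norm_real, Real.norm_eq_abs, abs_of_pos h1]
    have e3 : ‖((r₁ : ℂ) ^ 2)‖ - ‖starRingEnd ℂ u * z‖ ≤
        ‖(r₁ : ℂ) ^ 2 - starRingEnd ℂ u * z‖ := norm_sub_norm_le _ _
    rw [e2] at e3
    nlinarith
  · rw [not_le] at h
    have e : ‖u‖ - ‖z‖ ≤ ‖z - u‖ := by
      have := norm_sub_norm_le u z
      rwa [norm_sub_rev] at this
    linarith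

/-- **Blaschke-type maximum principle.** -/
theorem blaschke_bound {r₀ r₁ C : ℝ} (h0 : 0 < r₀) (h01 : r₀ < r₁) {G : ℂ → ℂ}
    (hG : AnalyticOnNhd ℂ G (closedBall 0 r₁)) (U : Finset ℂ) (m : ℂ → ℕ)
    (hC : ∀ w, ‖w‖ = r₁ → ‖G w‖ * ∏ u ∈ U, ‖w - u‖ ^ m u ≤ C) :
    ∀ z, ‖z‖ ≤ r₀ → ‖G z‖ * (min 1 (r₁ - r₀)) ^ (∑ u ∈ U, m u) ≤ C := by
  have h1 : 0 < r₁ := h0.trans h01
  intro z hz
  set K : ℂ → ℂ := fun w => G w * ∏ u ∈ U, blaschkeFactor r₁ u w ^ m u with hK
  have hKd : DiffContOnCl ℂ K (ball 0 r₁) := by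
    apply DifferentiableOn.diffContOnCl
    rw [closure_ball (0 : ℂ) h1.ne']
    apply hG.differentiableOn.mul
    have : (fun w => ∏ u ∈ U, blaschkeFactor r₁ u w ^ m u) =
        ∏ u ∈ U, fun w => blaschkeFactor r₁ u w ^ m u := by
      funext w; rw [Finset.prod_apply]
    rw [this]
    apply DifferentiableOn.finsetProd
    intro u _
    exact ((differentiable_blaschkeFactor r₁ u).pow (m u)).differentiableOn
  have hKC : ∀ w ∈ frontier (ball (0 : ℂ) r₁), ‖K w‖ ≤ C := by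
    intro w hw
    rw [frontier_ball (0 : ℂ) h1.ne', mem_sphere_zero_iff_norm] at hw
    rw [hK]
    simp only
    rw [norm_mul, norm_prod]
    have : ∏ u ∈ U, ‖blaschkeFactor r₁ u w ^ m u‖ = ∏ u ∈ U, ‖w - u‖ ^ m u := by
      apply Finset.prod_congr rfl
      intro u _
      rw [norm_pow, norm_blaschkeFactor_sphere h1 u hw]
    rw [this]
    exact hC w hw
  have hzcl : z ∈ closure (ball (0 : ℂ) r₁) := by
    rw [closure_ball (0 : ℂ) h1.ne', mem_closedBall_zero_iff]; linarith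
  have hKz := Complex.norm_le_of_forall_mem_frontier_norm_le isBounded_ball hKd hKC hzcl
  rw [hK] at hKz
  simp only at hKz
  rw [norm_mul, norm_prod] at hKz
  refine le_trans ?_ hKz
  apply mul_le_mul_of_nonneg_left _ (norm_nonneg _)
  rw [← Finset.prod_pow_eq_pow_sum]
  apply Finset.prod_le_prod
  · intro u _
    have : 0 ≤ min 1 (r₁ - r₀) := le_min zero_le_one (by linarith)
    positivity
  · intro u _
    rw [norm_pow]
    have hmin : 0 ≤ min 1 (r₁ - r₀) := le_min zero_le_one (by linarith)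
    exact pow_le_pow_left₀ hmin
      ((min_le_right _ _).trans (le_norm_blaschkeFactor h0 h01 u hz)) _

end Fermat.Agent.MW
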