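/-
PROJECT MW (S17) — package [ARCH] (helper9): **the Harnack-chain theorem, core form.**

`chain_core`: for an atlas `𝔄` and an error `E ≥ 0` there is `C` such that every function
`u : X → ℝ` which, off a finite bad set `B`, is `log ‖G α‖ ± E` on the `r₁`-disc of every chart
(`G α` analytic and zero-free near the disc) is within `C` of a constant off `B`.
Same proof as `ArchSystem.arch_uniform_weil`, with the local representation as a hypothesis.
-/
import Mathlib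
import Fermat.Agent.MW.ARCH_helper9_Chain

set_option autoImplicit false

namespace Fermat.Agent.MW

open Metric Set

namespace ArchAtlas

variable {X I : Type*} (𝔄 : ArchAtlas X I)

/-- the constant of the chain theorem. -/
noncomputable def chainConst [Fintype I] (E : ℝ) : ℝ :=
  (ArchSystem.prop (𝔄 := 𝔄) E)^[Fintype.card I] (2 * ArchSystem.K (𝔄 := 𝔄) * E) + E

theorem chainConst_nonneg [Fintype I] {E : ℝ} (hE : 0 ≤ E) : 0 ≤ 𝔄.chainConst E := by
  have hK1 := ArchSystem.one_le_K (𝔄 := 𝔄)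
  have hK0 : 0 ≤ ArchSystem.K (𝔄 := 𝔄) := le_trans zero_le_one hK1
  have ha₀ : 0 ≤ 2 * ArchSystem.K (𝔄 := 𝔄) * E := by positivity
  have := ArchSystem.iterate_prop_nonneg (𝔄 := 𝔄) hE ha₀ (Fintype.card I)
  unfold chainConst
  linarith

/-- **The Harnack chain theorem, core form.** -/
theorem chain_core [Fintype I] [Nonempty I] {E : ℝ} (hE : 0 ≤ E) (u : X → ℝ) (B : Set X)
    (hB : B.Finite) (G : I → ℂ → ℂ)
    (hGan : ∀ α, AnalyticOnNhd ℂ (G α) (closedBall 0 𝔄.r₁))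
    (hG0 : ∀ α, ∀ z ∈ closedBall (0 : ℂ) 𝔄.r₁, G α z ≠ 0)
    (hloc : ∀ α, ∀ z ∈ 𝔄.A α, ‖z‖ ≤ 𝔄.r₁ → 𝔄.pt α z ∉ B →
      |u (𝔄.pt α z) - Real.log ‖G α z‖| ≤ E) :
    ∃ c : ℝ, ∀ Q : X, Q ∉ B → |u Q - c| ≤ 𝔄.chainConst E := by
  classical
  have hK1 := ArchSystem.one_le_K (𝔄 := 𝔄)
  have hK0 : 0 ≤ ArchSystem.K (𝔄 := 𝔄) := le_trans zero_le_one hK1
  set a₀ : ℝ := 2 * ArchSystem.K (𝔄 := 𝔄) * E with ha₀def
  have ha₀ : 0 ≤ a₀ := by positivity
  have hr0 := 𝔄.hr₀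
  have hr01 := 𝔄.hr₀₁
  have hr12 := 𝔄.hr₁₂
  set Bf : Finset X := hB.toFinset with hBf
  have hBmem : ∀ Q, Q ∈ Bf ↔ Q ∈ B := fun Q => by rw [hBf, Set.Finite.mem_toFinset]
  set h : I → ℂ → ℝ := fun α z => Real.log ‖G α z‖ with hh
  have hcont : ∀ α, ContinuousOn (h α) (closedBall 0 𝔄.r₁) := fun α =>
    ContinuousOn.log ((hGan α).continuousOn.norm) (fun z hz => norm_ne_zero_iff.mpr (hG0 α z hz))
  -- Step 2: the maximum over the `r₀`-discs
  have hmax : ∀ α, ∃ zα ∈ closedBall (0 : ℂ) 𝔄.r₀, ∀ z ∈ closedBall (0 : ℂ) 𝔄.r₀,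
      h α z ≤ h α zα := by
    intro α
    have hne : (closedBall (0 : ℂ) 𝔄.r₀).Nonempty := ⟨0, mem_closedBall_self hr0.le⟩
    obtain ⟨zα, hzα, hm⟩ := (isCompact_closedBall (0 : ℂ) 𝔄.r₀).exists_isMaxOn hne
      ((hcont α).mono (closedBall_subset_closedBall hr01.le))
    exact ⟨zα, hzα, fun z hz => hm hz⟩
  choose zmax hzmax hzmax' using hmax
  obtain ⟨αs, -, hαs⟩ := Finset.exists_max_image (Finset.univ : Finset I)
    (fun α => h α (zmax α)) Finset.univ_nonempty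
  set S : ℝ := h αs (zmax αs) with hSdef
  have hS : ∀ α, ∀ z ∈ closedBall (0 : ℂ) 𝔄.r₀, h α z ≤ S := fun α z hz =>
    (hzmax' α z hz).trans (hαs α (Finset.mem_univ α))
  -- Step 3
  have hupper : ∀ Q, Q ∉ B → u Q ≤ S + E := by
    intro Q hQ
    obtain ⟨α, z, hz, hz0, rfl⟩ := 𝔄.cover Q
    have h1 := hloc α z hz (hz0.trans hr01.le) hQ
    have h2 := hS α z (by simpa [mem_closedBall, dist_eq_norm] using hz0)
    have := (abs_le.mp h1).2
    linarith
  -- Step 4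
  have hbig : ∀ α, ∀ z ∈ closedBall (0 : ℂ) 𝔄.r₁, h α z ≤ S + 2 * E := by
    intro α
    set T : Set ℂ := ⋃ P ∈ Bf, (𝔄.fib α P : Set ℂ) with hT
    have hTfin : T.Finite := by
      apply Set.Finite.biUnion (Finset.finite_toSet _)
      intro P _
      exact Finset.finite_toSet _
    have hsub := 𝔄.dense α T hTfin
    have hclosed : IsClosed (closedBall (0 : ℂ) 𝔄.r₁ ∩ h α ⁻¹' Set.Iic (S + 2 * E)) :=
      (hcont α).preimage_isClosed_of_isClosed isClosed_closedBall isClosed_Iic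
    have hmem : (𝔄.A α ∩ closedBall 0 𝔄.r₁) \ T ⊆
        closedBall (0 : ℂ) 𝔄.r₁ ∩ h α ⁻¹' Set.Iic (S + 2 * E) := by
      rintro z ⟨⟨hzA, hzb⟩, hzT⟩
      refine ⟨hzb, ?_⟩
      have hz1 : ‖z‖ ≤ 𝔄.r₁ := by simpa [mem_closedBall, dist_eq_norm] using hzb
      have h0 : 𝔄.pt α z ∉ B := by
        intro hne
        apply hzT
        rw [hT]
        simp only [Set.mem_iUnion, Finset.mem_coe, exists_prop]
        exact ⟨𝔄.pt α z, (hBmem _).mpr hne, 𝔄.mem_fib.mpr ⟨hzA, rfl, hz1.trans hr12.le⟩⟩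
      have h1 := (abs_le.mp (hloc α z hzA hz1 h0)).1
      have h2 := hupper _ h0
      show h α z ≤ S + 2 * E
      linarith
    intro z hz
    have := (closure_minimal hmem hclosed) (hsub hz)
    exact this.2
  -- Step 5: Harnack on every chart
  have hharn : ∀ α, ∀ z ∈ closedBall (0 : ℂ) 𝔄.r₀, ∀ z₀ ∈ closedBall (0 : ℂ) 𝔄.r₀,
      (S + 2 * E) - h α z ≤ ArchSystem.K (𝔄 := 𝔄) * ((S + 2 * E) - h α z₀) := by
    intro α z hz z₀ hz₀
    exact lognorm_lower_of_upper (hGan α) (hG0 α) (hbig α) hr01 hz hz₀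
  -- Step 6: good charts
  set good : ℝ → I → Prop := fun a α => ∀ z ∈ closedBall (0 : ℂ) 𝔄.r₀, S - a ≤ h α z with hgood
  have hgood0 : good a₀ αs := by
    intro z hz
    have h1 := hharn αs z hz (zmax αs) (hzmax αs)
    have h2 : (S + 2 * E) - h αs (zmax αs) = 2 * E := by rw [← hSdef]; ring
    rw [h2] at h1
    have : ArchSystem.K (𝔄 := 𝔄) * (2 * E) = a₀ := by rw [ha₀def]; ring
    rw [this] at h1
    linarith
  have hstep : ∀ a α β, 0 ≤ a → 𝔄.adj.Adj α β → good a α →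
      good (ArchSystem.prop (𝔄 := 𝔄) E a) β := by
    intro a α β ha hadj hg
    have hinf := 𝔄.overlap α β hadj
    obtain ⟨Q, hQ, hQs⟩ := hinf.exists_notMem_finset Bf
    have hQ0 : Q ∉ B := fun hne => hQs ((hBmem _).mpr hne)
    obtain ⟨⟨z, hzA, hz0, hzQ⟩, ⟨z', hz'A, hz'0, hz'Q⟩⟩ := hQ
    have hzb : z ∈ closedBall (0 : ℂ) 𝔄.r₀ := by simpa [mem_closedBall, dist_eq_norm] using hz0
    have hz'b : z' ∈ closedBall (0 : ℂ) 𝔄.r₀ := by
      simpa [mem_closedBall, dist_eq_norm] using hz'0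
    have h1 := (abs_le.mp (hloc α z hzA (hz0.trans hr01.le) (by rw [hzQ]; exact hQ0))).1
    have h2 := (abs_le.mp (hloc β z' hz'A (hz'0.trans hr01.le) (by rw [hz'Q]; exact hQ0))).2
    rw [hzQ] at h1
    rw [hz'Q] at h2
    have h3 := hg z hzb
    have h4 : S - a - 2 * E ≤ h β z' := by linarith
    intro w hw
    have h5 := hharn β w hw z' hz'b
    have h6 : (S + 2 * E) - h β z' ≤ a + 4 * E := by linarith
    have h7 : ArchSystem.K (𝔄 := 𝔄) * ((S + 2 * E) - h β z') ≤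
        ArchSystem.K (𝔄 := 𝔄) * (a + 4 * E) :=
      mul_le_mul_of_nonneg_left h6 hK0
    unfold ArchSystem.prop
    linarith
  have hwalk : ∀ (α β : I) (p : 𝔄.adj.Walk α β) (a : ℝ), 0 ≤ a → good a α →
      good ((ArchSystem.prop (𝔄 := 𝔄) E)^[p.length] a) β := by
    intro α β p
    induction p with
    | nil => intro a _ hg; simpa using hg
    | cons hadj p ih =>
      intro a ha hg
      rw [SimpleGraph.Walk.length_cons, Function.iterate_succ_apply]
      exact ih _ (ha.trans (ArchSystem.le_prop (𝔄 := 𝔄) hE ha)) (hstep a _ _ ha hadj hg)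
  have hall : ∀ β, good ((ArchSystem.prop (𝔄 := 𝔄) E)^[Fintype.card I] a₀) β := by
    intro β
    obtain ⟨p, hp⟩ := 𝔄.conn.exists_isPath αs β
    have h1 := hwalk αs β p a₀ ha₀ hgood0
    have h2 := ArchSystem.iterate_prop_mono (𝔄 := 𝔄) hE ha₀ (hp.length_lt).le
    intro z hz
    have := h1 z hz
    linarith
  -- Step 7
  refine ⟨S, fun Q hQ => ?_⟩
  rw [abs_le]
  unfold chainConst
  constructor
  · obtain ⟨α, z, hz, hz0, rfl⟩ := 𝔄.cover Q
    have h1 := (abs_le.mp (hloc α z hz (hz0.trans hr01.le) hQ)).1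
    have h2 := hall α z (by simpa [mem_closedBall, dist_eq_norm] using hz0)
    linarith
  · have h1 := hupper Q hQ
    have h2 := ArchSystem.iterate_prop_nonneg (𝔄 := 𝔄) hE ha₀ (Fintype.card I)
    linarith

end ArchAtlas

end Fermat.Agent.MW
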