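/-
MW / [ARCH] (helper9), package (P2): the cusp function layer.

* `tc_comp_of_deriv_ne_zero` : the chain rule for trailing coefficients under a local biholomorphism;
* `cuspRatio h a b` : the function `q ↦ (a / b)(τ_q)` on the unit disc, for `a b : HolH`
  `h`-periodic and meromorphic at `i∞`: it is meromorphic on the open unit disc, its pull back under
  `q = exp(2πiτ/h)` is `a / b`, its order and trailing coefficient at `0` are those of the Laurent
  expansions.
-/
import Mathlib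
import Fermat.Agent.X0N.Cusp_helper9_MerInf
import Fermat.Agent.MW.ARCH_helper9_MerFn

set_option autoImplicit false

namespace Fermat.Agent.MW

open Fermat.Agent.X0N Fermat.Agent.RatStr UpperHalfPlane Filter Topology Function Metric

local notation "𝕢" => Periodic.qParam

/-! ### trailing coefficients and composition -/

theorem tc_sub_of_deriv_ne_zero {g : ℂ → ℂ} {x : ℂ} (hg : AnalyticAt ℂ g x)
    (hg' : deriv g x ≠ 0) :
    meromorphicTrailingCoeffAt (fun z => g z - g x) x = deriv g x := by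
  have h1 : analyticOrderAt (fun z => g z - g x) x = ((1 : ℕ) : ℕ∞) := by
    simpa using hg.analyticOrderAt_sub_eq_one_of_deriv_ne_zero hg'
  have hsub : AnalyticAt ℂ (fun z => g z - g x) x := hg.sub analyticAt_const
  obtain ⟨k, hk, hk0, hev⟩ := hsub.analyticOrderAt_eq_natCast.mp h1
  have hev' : (fun z => g z - g x) =ᶠ[𝓝[≠] x] fun z => (z - x) ^ (1 : ℤ) • k z := by
    filter_upwards [hev.filter_mono nhdsWithin_le_nhds] with z hz
    rw [hz, zpow_one, pow_one]
  rw [hk.meromorphicTrailingCoeffAt_of_ne_zero_of_eq_nhdsNE hk0 hev']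
  -- `deriv g x = k x`
  have h2 : g =ᶠ[𝓝 x] fun z => g x + (z - x) * k z := by
    filter_upwards [hev] with z hz
    rw [pow_one, smul_eq_mul] at hz
    rw [← hz]; ring
  have h3 : HasDerivAt (fun z => g x + (z - x) * k z) (0 + (1 * k x + (x - x) * deriv k x)) x := by
    apply HasDerivAt.add (hasDerivAt_const _ _)
    exact ((hasDerivAt_id x).sub_const x).mul hk.differentiableAt.hasDerivAt
  rw [h2.deriv_eq, h3.deriv]
  ring

/-- **chain rule for trailing coefficients** under a map with non-vanishing derivative. -/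
theorem tc_comp_of_deriv_ne_zero {F g : ℂ → ℂ} {x : ℂ} (hF : MeromorphicAt F (g x))
    (hg : AnalyticAt ℂ g x) (hg' : deriv g x ≠ 0) :
    meromorphicTrailingCoeffAt (F ∘ g) x =
      (deriv g x) ^ (meromorphicOrderAt F (g x)).untop₀ * meromorphicTrailingCoeffAt F (g x) := by
  have hgo : analyticOrderAt (fun z => g z - g x) x = 1 :=
    hg.analyticOrderAt_sub_eq_one_of_deriv_ne_zero hg'
  have hnc : ¬ EventuallyConst g (𝓝 x) := by
    rw [eventuallyConst_iff_analyticOrderAt_sub_eq_top, hgo]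
    exact ENat.one_ne_top
  rw [hF.meromorphicTrailingCoeffAt_comp hg hnc, tc_sub_of_deriv_ne_zero hg hg', smul_eq_mul]

theorem order_comp_of_deriv_ne_zero {F g : ℂ → ℂ} {x : ℂ}
    (hg : AnalyticAt ℂ g x) (hg' : deriv g x ≠ 0) :
    meromorphicOrderAt (F ∘ g) x = meromorphicOrderAt F (g x) :=
  meromorphicOrderAt_comp_of_deriv_ne_zero hg hg'

/-! ### limits, orders and trailing coefficients -/

/-- A meromorphic function `g` with `g(z) (z - x)^{-n} → c ≠ 0` has order `n` and trailing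
coefficient `c` at `x`. -/
theorem order_tc_of_tendsto {g : ℂ → ℂ} {x c : ℂ} {n : ℤ} (hg : MeromorphicAt g x) (hc : c ≠ 0)
    (hlim : Tendsto (fun z => g z * (z - x) ^ (-n)) (𝓝[≠] x) (𝓝 c)) :
    meromorphicOrderAt g x = n ∧ meromorphicTrailingCoeffAt g x = c := by
  have hp : MeromorphicAt (fun z => (z - x) ^ (-n)) x := by fun_prop
  have hm : MeromorphicAt (fun z => g z * (z - x) ^ (-n)) x := hg.mul hp
  have h0 : meromorphicOrderAt (fun z => g z * (z - x) ^ (-n)) x = 0 :=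
    (tendsto_ne_zero_iff_meromorphicOrderAt_eq_zero hm).mp ⟨c, hc, hlim⟩
  have hpo : meromorphicOrderAt (fun z => (z - x) ^ (-n)) x = ((-n : ℤ) : WithTop ℤ) := by
    have := meromorphicOrderAt_zpow (f := fun z : ℂ => z - x) (x := x) (n := -n) (by fun_prop)
    rw [show (fun z : ℂ => (z - x) ^ (-n)) = (fun z : ℂ => z - x) ^ (-n) from rfl, this,
      meromorphicOrderAt_id_sub_const]
    simp
  have hord : meromorphicOrderAt g x = n := by
    have hmul := meromorphicOrderAt_mul hg hp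
    rw [show (g * fun z => (z - x) ^ (-n)) = fun z => g z * (z - x) ^ (-n) from rfl, h0, hpo]
      at hmul
    cases hgo : meromorphicOrderAt g x with
    | top => rw [hgo] at hmul; simp at hmul
    | coe m =>
      rw [hgo] at hmul
      have : ((0 : ℤ) : WithTop ℤ) = ((m + -n : ℤ) : WithTop ℤ) := by
        rw [WithTop.coe_add]; exact_mod_cast hmul
      have h' : (0 : ℤ) = m + -n := WithTop.coe_injective this
      have : m = n := by omega
      rw [this]
  refine ⟨hord, ?_⟩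
  have htc := hg.tendsto_nhds_meromorphicTrailingCoeffAt
  rw [hord] at htc
  simp only [WithTop.untop₀_coe] at htc
  have : ((fun z : ℂ => z - x) ^ (-n) • g) = fun z => g z * (z - x) ^ (-n) := by
    ext z
    simp only [Pi.smul_apply', Pi.pow_apply, smul_eq_mul]
    rw [mul_comm]
  rw [this] at htc
  exact tendsto_nhds_unique htc hlim

/-! ### the cusp function of a ratio -/

variable {h : ℕ} [NeZero h]

/-- the function `q ↦ (a / b)(τ_q)`, `τ_q = (h / 2πi) log q`. -/
noncomputable def cuspRatio (h : ℕ) (a b : HolH) : ℂ → ℂ := fun q =>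
  holFn a (Periodic.invQParam h q) / holFn b (Periodic.invQParam h q)

theorem cusp_hpos (h : ℕ) [NeZero h] : (0 : ℝ) < (h : ℝ) := Nat.cast_pos.mpr (NeZero.pos h)

omit [NeZero h] in
theorem cuspFunction_eq_holFn {F : HolH} {q : ℂ} (hq : q ≠ 0) :
    cuspFunction (h : ℝ) (F : ℍ → ℂ) q = holFn F (Periodic.invQParam h q) := by
  rw [cuspFunction, Periodic.cuspFunction_eq_of_nonzero _ _ hq]
  rfl

theorem qf_invQParam {q : ℂ} (hq : q ≠ 0) (hq1 : ‖q‖ < 1) :
    qf (h : ℝ) (ofComplex (Periodic.invQParam h q)) = q := by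
  have him : 0 < (Periodic.invQParam (h : ℝ) q).im :=
    Periodic.im_invQParam_pos_of_norm_lt_one (cusp_hpos h) hq1 hq
  rw [qf_apply, ofComplex_apply_of_im_pos him]
  exact Periodic.qParam_right_inv (cusp_hpos h).ne' hq

/-- on the punctured disc the cusp ratio is `(A_m / B_k) q^{k - m}`. -/
theorem cuspRatio_eq {a b : HolH} {m k : ℕ} {q : ℂ} (hq : q ≠ 0) (hq1 : ‖q‖ < 1) :
    cuspRatio h a b q =
      cuspFunction (h : ℝ) ((a : ℍ → ℂ) * qf h ^ m) q /
        cuspFunction (h : ℝ) ((b : ℍ → ℂ) * qf h ^ k) q * q ^ ((k : ℤ) - m) := by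
  have hA : cuspFunction (h : ℝ) ((a : ℍ → ℂ) * qf h ^ m) q =
      holFn a (Periodic.invQParam h q) * q ^ m := by
    rw [cuspFunction, Periodic.cuspFunction_eq_of_nonzero _ _ hq]
    simp only [comp_apply, Pi.mul_apply, Pi.pow_apply]
    rw [qf_invQParam hq hq1]
    rfl
  have hB : cuspFunction (h : ℝ) ((b : ℍ → ℂ) * qf h ^ k) q =
      holFn b (Periodic.invQParam h q) * q ^ k := by
    rw [cuspFunction, Periodic.cuspFunction_eq_of_nonzero _ _ hq]
    simp only [comp_apply, Pi.mul_apply, Pi.pow_apply]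
    rw [qf_invQParam hq hq1]
    rfl
  rw [hA, hB, cuspRatio, zpow_sub₀ hq, zpow_natCast, zpow_natCast]
  have h1 : q ^ m ≠ 0 := pow_ne_zero _ hq
  have h2 : q ^ k ≠ 0 := pow_ne_zero _ hq
  by_cases hb0 : holFn b (Periodic.invQParam h q) = 0
  · rw [hb0]; simp
  field_simp

theorem analyticAt_cuspFunction_of_isHolBdd {F : ℍ → ℂ} (hF : IsHolBdd (h : ℝ) F) {q : ℂ}
    (hq1 : ‖q‖ < 1) : AnalyticAt ℂ (cuspFunction (h : ℝ) F) q :=
  DifferentiableOn.analyticAt
    (differentiableOn_cuspFunction_ball (cusp_hpos h) hF.per hF.hol hF.bdd)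
    (isOpen_ball.mem_nhds (by simpa using hq1))

/-- **the cusp ratio is meromorphic on the open unit disc.** -/
theorem cuspRatio_meromorphicAt {a b : HolH} (ha : IsMeroInfty (h : ℝ) (a : ℍ → ℂ))
    (hb : IsMeroInfty (h : ℝ) (b : ℍ → ℂ)) {q₀ : ℂ} (hq₀ : ‖q₀‖ < 1) :
    MeromorphicAt (cuspRatio h a b) q₀ := by
  obtain ⟨m, hm⟩ := ha
  obtain ⟨k, hk⟩ := hb
  have hA := (analyticAt_cuspFunction_of_isHolBdd hm hq₀).meromorphicAt
  have hB := (analyticAt_cuspFunction_of_isHolBdd hk hq₀).meromorphicAt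
  have hP : MeromorphicAt (fun q : ℂ => q ^ ((k : ℤ) - m)) q₀ := by fun_prop
  refine ((hA.div hB).mul hP).congr ?_
  have hball : ∀ᶠ q in 𝓝[≠] q₀, ‖q‖ < 1 ∧ q ≠ 0 := by
    have h1 : ∀ᶠ q in 𝓝 q₀, ‖q‖ < 1 :=
      (isOpen_lt continuous_norm continuous_const).mem_nhds hq₀
    have h2 : ∀ᶠ q in 𝓝[≠] q₀, q ≠ 0 := by
      by_cases h0 : q₀ = 0
      · rw [h0]; exact self_mem_nhdsWithin
      · exact (continuousAt_id.eventually_ne h0).filter_mono nhdsWithin_le_nhds
    exact (h1.filter_mono nhdsWithin_le_nhds).and h2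
  filter_upwards [hball] with q hq
  exact (cuspRatio_eq hq.2 hq.1).symm

/-- **pull-back**: `cuspRatio (q(τ)) = a(τ) / b(τ)`. -/
theorem cuspRatio_qParam {a b : HolH} (ha : IsMeroInfty (h : ℝ) (a : ℍ → ℂ))
    (hb : IsMeroInfty (h : ℝ) (b : ℍ → ℂ)) (w : ℂ) :
    cuspRatio h a b (𝕢 h w) = holFn a w / holFn b w := by
  have h1 := Periodic.eq_cuspFunction (cusp_hpos h).ne' ha.per w
  have h2 := Periodic.eq_cuspFunction (cusp_hpos h).ne' hb.per w
  have hq : 𝕢 (h : ℝ) w ≠ 0 := Periodic.qParam_ne_zero _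
  rw [Periodic.cuspFunction_eq_of_nonzero _ _ hq] at h1 h2
  rw [cuspRatio]
  show (((a : ℍ → ℂ) ∘ ofComplex) (Periodic.invQParam h (𝕢 h w))) /
      (((b : ℍ → ℂ) ∘ ofComplex) (Periodic.invQParam h (𝕢 h w))) = _
  rw [h1, h2]
  rfl

theorem tendsto_ofComplex_invQParam :
    Tendsto (fun q => ofComplex (Periodic.invQParam (h : ℝ) q)) (𝓝[≠] 0) atImInfty :=
  tendsto_comap_im_ofComplex.comp (Periodic.invQParam_tendsto (cusp_hpos h))

/-- the limit at `q = 0` of `a(τ_q) q^{-n}`, `n` the order of the Laurent expansion. -/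
theorem tendsto_holFn_invQParam {a : HolH} (ha : IsMeroInfty (h : ℝ) (a : ℍ → ℂ)) :
    Tendsto (fun q => holFn a (Periodic.invQParam h q) *
        q ^ (-(laurent (h : ℝ) (a : ℍ → ℂ)).order)) (𝓝[≠] 0)
      (𝓝 ((laurent (h : ℝ) (a : ℍ → ℂ)).coeff (laurent (h : ℝ) (a : ℍ → ℂ)).order)) := by
  have h1 := (Cusp.tendsto_mul_qz_order (cusp_hpos h) ha).comp (tendsto_ofComplex_invQParam (h := h))
  refine h1.congr' ?_
  have hball : ∀ᶠ q in 𝓝[≠] (0 : ℂ), ‖q‖ < 1 ∧ q ≠ 0 := by
    have h1 : ∀ᶠ q in 𝓝 (0 : ℂ), ‖q‖ < 1 :=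
      (isOpen_lt continuous_norm continuous_const).mem_nhds (by simp)
    exact (h1.filter_mono nhdsWithin_le_nhds).and self_mem_nhdsWithin
  filter_upwards [hball] with q hq
  simp only [comp_apply, Pi.mul_apply, Cusp.qz_apply]
  rw [qf_invQParam hq.2 hq.1]
  rfl

/-- **order and trailing coefficient of the cusp ratio at `q = 0`.** -/
theorem cuspRatio_order_tc_zero {a b : HolH} (ha : IsMeroInfty (h : ℝ) (a : ℍ → ℂ))
    (hb : IsMeroInfty (h : ℝ) (b : ℍ → ℂ)) (ha0 : a ≠ 0) (hb0 : b ≠ 0) :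
    meromorphicOrderAt (cuspRatio h a b) 0 =
        ((MerH.ordInf h (MerH.ofHol a / MerH.ofHol b) : ℤ) : WithTop ℤ) ∧
      meromorphicTrailingCoeffAt (cuspRatio h a b) 0 =
        MerH.lcInf h (MerH.ofHol a / MerH.ofHol b) := by
  have hA := isMerInf_ofHol ha
  have hB := isMerInf_ofHol hb
  have hA0 : MerH.ofHol a ≠ 0 := MerH.ofHol_ne_zero ha0
  have hB0 : MerH.ofHol b ≠ 0 := MerH.ofHol_ne_zero hb0
  have hlA := MerH.lcInf_ne_zero hA hA0
  have hlB := MerH.lcInf_ne_zero hB hB0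
  set na := (laurent (h : ℝ) (a : ℍ → ℂ)).order with hna
  set nb := (laurent (h : ℝ) (b : ℍ → ℂ)).order with hnb
  have hord : MerH.ordInf h (MerH.ofHol a / MerH.ofHol b) = na - nb := by
    rw [MerH.ordInf_div hA hB hA0 hB0, MerH.ordInf_ofHol ha, MerH.ordInf_ofHol hb]
  have hlc : MerH.lcInf h (MerH.ofHol a / MerH.ofHol b) =
      (laurent (h : ℝ) (a : ℍ → ℂ)).coeff na / (laurent (h : ℝ) (b : ℍ → ℂ)).coeff nb := by
    rw [MerH.lcInf_div_ofHol ha hb hb0, MerH.lcInf_ofHol ha, MerH.lcInf_ofHol hb]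
  have hcb : (laurent (h : ℝ) (b : ℍ → ℂ)).coeff nb ≠ 0 := by
    rw [← MerH.lcInf_ofHol hb]; exact hlB
  have hca : (laurent (h : ℝ) (a : ℍ → ℂ)).coeff na ≠ 0 := by
    rw [← MerH.lcInf_ofHol ha]; exact hlA
  have hlim : Tendsto (fun q => cuspRatio h a b q * (q - 0) ^ (-(na - nb))) (𝓝[≠] 0)
      (𝓝 ((laurent (h : ℝ) (a : ℍ → ℂ)).coeff na / (laurent (h : ℝ) (b : ℍ → ℂ)).coeff nb)) := by
    have h1 := (tendsto_holFn_invQParam ha).div (tendsto_holFn_invQParam hb) hcb
    refine h1.congr' ?_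
    filter_upwards [self_mem_nhdsWithin] with q hq
    have hq0 : q ≠ 0 := hq
    simp only [Pi.div_apply, sub_zero, cuspRatio]
    rw [neg_sub, zpow_sub₀ hq0, zpow_neg, zpow_neg]
    by_cases hb' : holFn b (Periodic.invQParam h q) = 0
    · rw [hb']; simp
    have h2 : q ^ na ≠ 0 := zpow_ne_zero _ hq0
    have h3 : q ^ nb ≠ 0 := zpow_ne_zero _ hq0
    field_simp
    rw [← hna, ← hnb]
    ring
  have hmer : MeromorphicAt (cuspRatio h a b) 0 := cuspRatio_meromorphicAt ha hb (by simp)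
  have := order_tc_of_tendsto hmer (div_ne_zero hca hcb) hlim
  rw [hord, hlc]
  exact this

end Fermat.Agent.MW
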