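/-
MW / [ARCH] (helper9), package (P2), continued: factorisation of `x ∈ MerH`, `h`-periodic and
meromorphic at `i∞`, on a cusp chart disc `z ↦ τ` with `exp(2πiτ/h) = s z`.
-/
import Mathlib
import Fermat.Agent.MW.ARCH_helper9_CuspFn

set_option autoImplicit false
set_option linter.unusedSectionVars false

namespace Fermat.Agent.MW

open Fermat.Agent.X0N Fermat.Agent.RatStr UpperHalfPlane Filter Topology Function Metric

local notation "𝕢" => Periodic.qParam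

variable {h : ℕ} [NeZero h]

/-- the lift of the cusp chart `z ↦ τ`, `exp(2πiτ/h) = s z` (junk at `z = 0`). -/
noncomputable def cuspPt (h : ℕ) (s : ℝ) (z : ℂ) : ℍ := ofComplex (Periodic.invQParam h (s * z))

/-- the order of `x` at the parameter `z` of the cusp chart. -/
noncomputable def cuspOrd (h : ℕ) (s : ℝ) (x : MerH) (z : ℂ) : ℤ :=
  if z = 0 then MerH.ordInf h x else MerH.ordAt (cuspPt h s z) x

theorem cuspOrd_zero (s : ℝ) (x : MerH) : cuspOrd h s x 0 = MerH.ordInf h x := if_pos rfl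

theorem cuspOrd_of_ne (s : ℝ) (x : MerH) {z : ℂ} (hz : z ≠ 0) :
    cuspOrd h s x z = MerH.ordAt (cuspPt h s z) x := if_neg hz

theorem hasDerivAt_qParam (w : ℂ) :
    HasDerivAt (𝕢 (h : ℝ)) (𝕢 (h : ℝ) w * (2 * Real.pi * Complex.I / h)) w := by
  have h1 : HasDerivAt (fun z : ℂ => 2 * Real.pi * Complex.I * z / h)
      (2 * Real.pi * Complex.I * 1 / h) w :=
    ((hasDerivAt_id w).const_mul _).div_const _
  have h2 := h1.cexp
  rw [mul_one] at h2
  exact h2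

theorem deriv_qParam_ne_zero (w : ℂ) : deriv (𝕢 (h : ℝ)) w ≠ 0 := by
  rw [(hasDerivAt_qParam w).deriv]
  refine mul_ne_zero (Periodic.qParam_ne_zero _) (div_ne_zero ?_ ?_)
  · exact Complex.two_pi_I_ne_zero
  · exact_mod_cast (cusp_hpos h).ne'

theorem norm_deriv_qParam (w : ℂ) :
    ‖deriv (𝕢 (h : ℝ)) w‖ = ‖𝕢 (h : ℝ) w‖ * (2 * Real.pi / h) := by
  rw [(hasDerivAt_qParam w).deriv, norm_mul, norm_div, norm_mul, norm_mul, Complex.norm_I,
    mul_one]
  congr 2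
  · simp [abs_of_pos Real.pi_pos]
  · simp

theorem cuspPt_coe {s : ℝ} {z : ℂ} (hs : 0 < s) (hz : z ≠ 0) (hz1 : ‖(s : ℂ) * z‖ < 1) :
    (cuspPt h s z : ℂ) = Periodic.invQParam h ((s : ℂ) * z) := by
  have hq : (s : ℂ) * z ≠ 0 := mul_ne_zero (by exact_mod_cast hs.ne') hz
  rw [cuspPt, ofComplex_apply_of_im_pos
    (Periodic.im_invQParam_pos_of_norm_lt_one (cusp_hpos h) hz1 hq)]

theorem qParam_cuspPt {s : ℝ} {z : ℂ} (hs : 0 < s) (hz : z ≠ 0) (hz1 : ‖(s : ℂ) * z‖ < 1) :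
    𝕢 (h : ℝ) (cuspPt h s z : ℂ) = (s : ℂ) * z := by
  have hq : (s : ℂ) * z ≠ 0 := mul_ne_zero (by exact_mod_cast hs.ne') hz
  rw [cuspPt_coe hs hz hz1]
  exact Periodic.qParam_right_inv (cusp_hpos h).ne' hq

/-- order and trailing coefficient of `x` at `τ` through the cusp ratio. -/
theorem order_tc_cuspRatio {a b : HolH} (ha : IsMeroInfty (h : ℝ) (a : ℍ → ℂ))
    (hb : IsMeroInfty (h : ℝ) (b : ℍ → ℂ)) (hb0 : b ≠ 0) (τ : ℍ) :
    meromorphicOrderAt (cuspRatio h a b) (𝕢 (h : ℝ) τ) =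
        meromorphicOrderAt (merFn (MerH.ofHol a / MerH.ofHol b)) (τ : ℂ) ∧
      tcAt τ (MerH.ofHol a / MerH.ofHol b) =
        (deriv (𝕢 (h : ℝ)) τ) ^
            (meromorphicOrderAt (cuspRatio h a b) (𝕢 (h : ℝ) τ)).untop₀ *
          meromorphicTrailingCoeffAt (cuspRatio h a b) (𝕢 (h : ℝ) τ) := by
  have hq1 : ‖𝕢 (h : ℝ) τ‖ < 1 := Periodic.norm_qParam_lt_one (cusp_hpos h) τ.im_pos
  have hev : merFn (MerH.ofHol a / MerH.ofHol b) =ᶠ[𝓝[≠] (τ : ℂ)]
      cuspRatio h a b ∘ 𝕢 (h : ℝ) := by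
    filter_upwards [merFn_eventuallyEq a hb0 τ] with u hu
    rw [hu, comp_apply, cuspRatio_qParam ha hb]
  have han : AnalyticAt ℂ (𝕢 (h : ℝ)) (τ : ℂ) :=
    (Periodic.differentiable_qParam (h := (h : ℝ))).analyticAt _
  have hd := deriv_qParam_ne_zero (h := h) (τ : ℂ)
  constructor
  · rw [meromorphicOrderAt_congr hev, order_comp_of_deriv_ne_zero han hd]
  · rw [tcAt, meromorphicTrailingCoeffAt_congr_nhdsNE hev,
      tc_comp_of_deriv_ne_zero (cuspRatio_meromorphicAt ha hb hq1) han hd]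

/-- **Factorisation of `x ∈ MerH` on a cusp chart disc.** -/
theorem merFn_cusp_factorisation {x : MerH} (hx : IsMerInf h x) (hx0 : x ≠ 0) {s R : ℝ}
    (hs : 0 < s) (hR : 0 < R) (hdisc : s * R < 1) :
    ∃ G : ℂ → ℂ, AnalyticOnNhd ℂ G (closedBall 0 R) ∧ (∀ z ∈ closedBall (0 : ℂ) R, G z ≠ 0) ∧
      ∃ Z : Finset ℂ, (∀ u ∈ Z, u ∈ closedBall (0 : ℂ) R) ∧
        (∀ u ∈ closedBall (0 : ℂ) R, (u ∈ Z ↔ cuspOrd h s x u ≠ 0)) ∧
        (∀ z ∈ closedBall (0 : ℂ) R, z ≠ 0 →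
          Real.log ‖tcAt (cuspPt h s z) x‖ -
              (MerH.ordAt (cuspPt h s z) x : ℝ) * Real.log (2 * Real.pi * ‖z‖ / h) =
            Real.log ‖G z‖ + ∑ u ∈ Z, (cuspOrd h s x u : ℝ) * Real.log ‖z - u‖) ∧
        (Real.log ‖MerH.lcInf h x‖ + (MerH.ordInf h x : ℝ) * Real.log s =
          Real.log ‖G 0‖ + ∑ u ∈ Z, (cuspOrd h s x u : ℝ) * Real.log ‖(0 : ℂ) - u‖) := by
  obtain ⟨a, b, ha, hb, hb0, rfl⟩ := hx
  have ha0 : a ≠ 0 := by
    rintro rfl
    apply hx0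
    rw [map_zero, zero_div]
  set x := MerH.ofHol a / MerH.ofHol b with hxdef
  set Φ := cuspRatio h a b with hΦ
  have hs0 : (s : ℂ) ≠ 0 := by exact_mod_cast hs.ne'
  set g : ℂ → ℂ := fun z => (s : ℂ) * z with hg
  have hgan : ∀ z, AnalyticAt ℂ g z := fun z => by rw [hg]; fun_prop
  have hgd : ∀ z, deriv g z = s := fun z => by
    rw [hg]
    have h1 : HasDerivAt (fun z : ℂ => (s : ℂ) * z) ((s : ℂ) * 1) z :=
      (hasDerivAt_id z).const_mul (s : ℂ)
    rw [h1.deriv, mul_one]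
  have hnorm : ∀ z ∈ closedBall (0 : ℂ) R, ‖g z‖ < 1 := fun z hz => by
    rw [mem_closedBall, dist_zero_right] at hz
    rw [hg]
    simp only [norm_mul, Complex.norm_real, Real.norm_of_nonneg hs.le]
    calc s * ‖z‖ ≤ s * R := mul_le_mul_of_nonneg_left hz hs.le
      _ < 1 := hdisc
  set F : ℂ → ℂ := Φ ∘ g with hF
  have hmer : ∀ z ∈ closedBall (0 : ℂ) R, MeromorphicAt Φ (g z) := fun z hz =>
    cuspRatio_meromorphicAt ha hb (hnorm z hz)
  have hFmer : MeromorphicOn F (closedBall 0 R) := fun z hz =>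
    (hmer z hz).comp_analyticAt (hgan z)
  have hordF : ∀ z, meromorphicOrderAt F z = meromorphicOrderAt Φ (g z) := fun z => by
    rw [hF, order_comp_of_deriv_ne_zero (hgan z) (by rw [hgd]; exact hs0)]
  obtain ⟨h0ord, h0tc⟩ := cuspRatio_order_tc_zero ha hb ha0 hb0
  have hord : ∀ z ∈ closedBall (0 : ℂ) R,
      meromorphicOrderAt F z = ((cuspOrd h s x z : ℤ) : WithTop ℤ) := by
    intro z hz
    rw [hordF]
    by_cases hz0 : z = 0
    · rw [hz0, cuspOrd_zero, hg]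
      simp only [mul_zero]
      exact h0ord
    · rw [cuspOrd_of_ne _ _ hz0, ← merFn_order hx0,
        ← (order_tc_cuspRatio ha hb hb0 (cuspPt h s z)).1, qParam_cuspPt hs hz0 (hnorm z hz)]
  obtain ⟨G, hG, hG0, Z, hZ1, hZ2, hZ3⟩ := exists_disc_factorisation (c := 0) hR hFmer
    (fun u hu => by rw [hord u hu]; exact WithTop.coe_ne_top)
  have hsum : ∀ z : ℂ, ∑ u ∈ Z, (((meromorphicOrderAt F u).untop₀ : ℤ) : ℝ) * Real.log ‖z - u‖ =
      ∑ u ∈ Z, (cuspOrd h s x u : ℝ) * Real.log ‖z - u‖ := by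
    intro z
    apply Finset.sum_congr rfl
    intro u hu
    rw [hord u (hZ1 u hu)]
    rfl
  have htcF : ∀ z, MeromorphicAt Φ (g z) → meromorphicTrailingCoeffAt F z =
      (s : ℂ) ^ (meromorphicOrderAt Φ (g z)).untop₀ * meromorphicTrailingCoeffAt Φ (g z) := by
    intro z hm
    rw [hF, tc_comp_of_deriv_ne_zero hm (hgan z) (by rw [hgd]; exact hs0), hgd]
  refine ⟨G, hG, hG0, Z, hZ1, ?_, ?_, ?_⟩
  · intro u hu
    rw [hZ2 u hu, hord u hu]
    constructor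
    · intro h1 h2
      apply h1
      rw [h2]
      rfl
    · intro h1 h2
      apply h1
      exact_mod_cast h2
  · intro z hz hz0
    have key := hZ3 z hz
    rw [hsum] at key
    rw [← key]
    set τ := cuspPt h s z with hτ
    have hq : 𝕢 (h : ℝ) (τ : ℂ) = g z := qParam_cuspPt hs hz0 (hnorm z hz)
    obtain ⟨ho, htc⟩ := order_tc_cuspRatio ha hb hb0 τ
    rw [hq] at ho htc
    have hn : (meromorphicOrderAt Φ (g z)).untop₀ = MerH.ordAt τ x := by
      rw [ho, merFn_order hx0]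
      rfl
    rw [hn] at htc
    rw [htcF z (hmer z hz), hn]
    have htcΦ : meromorphicTrailingCoeffAt Φ (g z) ≠ 0 := by
      intro h0
      rw [h0, mul_zero] at htc
      exact tcAt_ne_zero hx0 τ htc
    have hdn : ‖deriv (𝕢 (h : ℝ)) (τ : ℂ)‖ = s * ‖z‖ * (2 * Real.pi / h) := by
      rw [norm_deriv_qParam, hq, hg]
      simp only [norm_mul, Complex.norm_real, Real.norm_of_nonneg hs.le]
    have hd0 : deriv (𝕢 (h : ℝ)) (τ : ℂ) ≠ 0 := deriv_qParam_ne_zero _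
    have hz0' : 0 < ‖z‖ := norm_pos_iff.mpr hz0
    have hh := cusp_hpos h
    rw [htc, norm_mul, norm_zpow, norm_mul, norm_zpow, Complex.norm_real,
      Real.norm_of_nonneg hs.le,
      Real.log_mul (zpow_ne_zero _ (norm_ne_zero_iff.mpr hd0)) (norm_ne_zero_iff.mpr htcΦ),
      Real.log_mul (zpow_ne_zero _ hs.ne') (norm_ne_zero_iff.mpr htcΦ),
      Real.log_zpow, Real.log_zpow, hdn,
      Real.log_mul (mul_pos hs hz0').ne' (by positivity),
      Real.log_mul hs.ne' hz0'.ne',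
      show 2 * Real.pi * ‖z‖ / (h : ℝ) = ‖z‖ * (2 * Real.pi / h) by ring,
      Real.log_mul hz0'.ne' (by positivity)]
    ring
  · have hz : (0 : ℂ) ∈ closedBall (0 : ℂ) R := mem_closedBall_self hR.le
    have key := hZ3 0 hz
    rw [hsum] at key
    rw [← key, htcF 0 (hmer 0 hz)]
    have hg0 : g 0 = 0 := by rw [hg]; simp
    rw [hg0, h0ord, h0tc]
    simp only [WithTop.untop₀_coe]
    have hlc : MerH.lcInf h x ≠ 0 := MerH.lcInf_ne_zero ⟨a, b, ha, hb, hb0, rfl⟩ hx0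
    rw [norm_mul, norm_zpow, Complex.norm_real, Real.norm_of_nonneg hs.le,
      Real.log_mul (zpow_ne_zero _ hs.ne') (norm_ne_zero_iff.mpr hlc), Real.log_zpow]
    ring

end Fermat.Agent.MW
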