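/-
MW / [ARCH] (helper9): trailing coefficients of `MerH.comp γ x`, `γ ∈ SL(2, ℤ)` (chain rule for the
Möbius transformation).
-/
import Mathlib
import Fermat.Agent.MW.ARCH_helper9_CuspFn

set_option autoImplicit false

namespace Fermat.Agent.MW

open Fermat.Agent.X0N UpperHalfPlane Filter Topology Function Metric
open scoped MatrixGroups

/-- the Möbius transformation of `γ ∈ SL(2, ℤ)` as a function on `ℂ`. -/
noncomputable def mob (γ : SL(2, ℤ)) (w : ℂ) : ℂ :=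
  ((γ 0 0 : ℂ) * w + (γ 0 1 : ℂ)) / ((γ 1 0 : ℂ) * w + (γ 1 1 : ℂ))

/-- the denominator `c w + d`. -/
noncomputable def mobDen (γ : SL(2, ℤ)) (w : ℂ) : ℂ := (γ 1 0 : ℂ) * w + (γ 1 1 : ℂ)

theorem coe_smul_eq_mob (γ : SL(2, ℤ)) (τ : ℍ) : ((γ • τ : ℍ) : ℂ) = mob γ (τ : ℂ) := by
  rw [coe_specialLinearGroup_apply, mob]
  simp

theorem mobDen_ne_zero (γ : SL(2, ℤ)) {w : ℂ} (hw : 0 < w.im) : mobDen γ w ≠ 0 := by
  intro h0
  have hdet : γ 0 0 * γ 1 1 - γ 0 1 * γ 1 0 = 1 := by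
    have := γ.det_coe
    rw [Matrix.det_fin_two] at this
    exact this
  have him : (mobDen γ w).im = (γ 1 0 : ℝ) * w.im := by
    simp [mobDen]
  have hre : (mobDen γ w).re = (γ 1 0 : ℝ) * w.re + (γ 1 1 : ℝ) := by
    simp [mobDen]
  rw [h0, Complex.zero_im] at him
  rw [h0, Complex.zero_re] at hre
  have hc : (γ 1 0 : ℝ) = 0 := by
    rcases mul_eq_zero.mp him.symm with h | h
    · exact h
    · exact absurd h hw.ne'
  rw [hc, zero_mul, zero_add] at hre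
  have hc' : γ 1 0 = 0 := by exact_mod_cast hc
  have hd' : γ 1 1 = 0 := by exact_mod_cast hre.symm
  rw [hc', hd'] at hdet
  simp at hdet

theorem hasDerivAt_mob (γ : SL(2, ℤ)) {w : ℂ} (hw : mobDen γ w ≠ 0) :
    HasDerivAt (mob γ) (1 / (mobDen γ w) ^ 2) w := by
  have hdet : (γ 0 0 : ℂ) * (γ 1 1 : ℂ) - (γ 0 1 : ℂ) * (γ 1 0 : ℂ) = 1 := by
    have := γ.det_coe
    rw [Matrix.det_fin_two] at this
    exact_mod_cast this
  have h1 : HasDerivAt (fun w : ℂ => (γ 0 0 : ℂ) * w + (γ 0 1 : ℂ)) ((γ 0 0 : ℂ) * 1) w :=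
    ((hasDerivAt_id w).const_mul _).add_const _
  have h2 : HasDerivAt (fun w : ℂ => (γ 1 0 : ℂ) * w + (γ 1 1 : ℂ)) ((γ 1 0 : ℂ) * 1) w :=
    ((hasDerivAt_id w).const_mul _).add_const _
  have h3 := h1.div h2 hw
  have e : ((γ 0 0 : ℂ) * 1 * ((γ 1 0 : ℂ) * w + (γ 1 1 : ℂ)) -
      ((γ 0 0 : ℂ) * w + (γ 0 1 : ℂ)) * ((γ 1 0 : ℂ) * 1)) /
        ((γ 1 0 : ℂ) * w + (γ 1 1 : ℂ)) ^ 2 = 1 / (mobDen γ w) ^ 2 := by
    rw [mobDen]
    congr 1
    linear_combination hdet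
  rw [e] at h3
  exact h3

theorem analyticAt_mob (γ : SL(2, ℤ)) {w : ℂ} (hw : mobDen γ w ≠ 0) : AnalyticAt ℂ (mob γ) w := by
  unfold mob
  apply AnalyticAt.div
  · fun_prop
  · fun_prop
  · exact hw

theorem holFn_comp_eq (γ : SL(2, ℤ)) (a : HolH) {u : ℂ} (hu : 0 < u.im) :
    holFn (HolH.comp γ a) u = holFn a (mob γ u) := by
  have h1 : holFn (HolH.comp γ a) u = (a : ℍ → ℂ) (γ • (⟨u, hu⟩ : ℍ)) := by
    rw [holFn, comp_apply, ofComplex_apply_of_im_pos hu]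
    rfl
  have h2 : mob γ u = ((γ • (⟨u, hu⟩ : ℍ) : ℍ) : ℂ) := (coe_smul_eq_mob γ ⟨u, hu⟩).symm
  rw [h1, h2, holFn_coe]

/-- **chain rule**: the trailing coefficient of `x ∘ γ` at `τ`. -/
theorem tcAt_comp (γ : SL(2, ℤ)) {x : MerH} (hx : x ≠ 0) (τ : ℍ) :
    tcAt τ (MerH.comp γ x) =
      (1 / (mobDen γ (τ : ℂ)) ^ 2) ^ (MerH.ordAt (γ • τ) x) * tcAt (γ • τ) x := by
  obtain ⟨a, b, hb, rfl⟩ := MerH.exists_div x
  have hcb : HolH.comp γ b ≠ 0 := by simpa using hb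
  have hden := mobDen_ne_zero γ τ.im_pos
  have hd := hasDerivAt_mob γ hden
  have han := analyticAt_mob γ hden
  have hd0 : deriv (mob γ) (τ : ℂ) ≠ 0 := by
    rw [hd.deriv]
    exact one_div_ne_zero (pow_ne_zero _ hden)
  have hgo : analyticOrderAt (fun z => mob γ z - mob γ (τ : ℂ)) (τ : ℂ) = 1 :=
    han.analyticOrderAt_sub_eq_one_of_deriv_ne_zero hd0
  have hnc : ¬ EventuallyConst (mob γ) (𝓝 (τ : ℂ)) := by
    rw [eventuallyConst_iff_analyticOrderAt_sub_eq_top, hgo]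
    exact ENat.one_ne_top
  have hmobτ : mob γ (τ : ℂ) = ((γ • τ : ℍ) : ℂ) := (coe_smul_eq_mob γ τ).symm
  -- `merFn (x ∘ γ) = merFn x ∘ mob γ` near `τ`
  have hev1 := merFn_eventuallyEq (HolH.comp γ a) hcb τ
  have hev2 := merFn_eventuallyEq a hb (γ • τ)
  rw [← hmobτ] at hev2
  have hev3 := Filter.Tendsto.eventually (han.map_nhdsNE hnc) hev2
  have him0 : ∀ᶠ u in 𝓝 (τ : ℂ), 0 < u.im :=
    (Complex.continuous_im.isOpen_preimage _ isOpen_Ioi).mem_nhds τ.im_pos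
  have him : ∀ᶠ u in 𝓝[≠] (τ : ℂ), 0 < u.im := him0.filter_mono nhdsWithin_le_nhds
  have hev : merFn (MerH.comp γ (MerH.ofHol a / MerH.ofHol b)) =ᶠ[𝓝[≠] (τ : ℂ)]
      merFn (MerH.ofHol a / MerH.ofHol b) ∘ mob γ := by
    have e : MerH.comp γ (MerH.ofHol a / MerH.ofHol b) =
        MerH.ofHol (HolH.comp γ a) / MerH.ofHol (HolH.comp γ b) := by
      rw [map_div₀]
      congr 1 <;> exact MerH.comp_algebraMap γ _
    rw [e]
    filter_upwards [hev1, hev3, him] with u hu1 hu3 hu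
    rw [hu1, comp_apply, hu3, holFn_comp_eq γ a hu, holFn_comp_eq γ b hu]
  have hmer : MeromorphicAt (merFn (MerH.ofHol a / MerH.ofHol b)) (mob γ (τ : ℂ)) := by
    rw [hmobτ]
    exact merFn_meromorphicAt _ _
  rw [tcAt, meromorphicTrailingCoeffAt_congr_nhdsNE hev,
    tc_comp_of_deriv_ne_zero hmer han hd0, hd.deriv, hmobτ, merFn_order hx]
  rfl

theorem log_norm_tcAt_comp (γ : SL(2, ℤ)) {x : MerH} (hx : x ≠ 0) (τ : ℍ) :
    Real.log ‖tcAt τ (MerH.comp γ x)‖ =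
      Real.log ‖tcAt (γ • τ) x‖ -
        2 * (MerH.ordAt (γ • τ) x : ℝ) * Real.log ‖mobDen γ (τ : ℂ)‖ := by
  have hden := mobDen_ne_zero γ τ.im_pos
  have hn : ‖mobDen γ (τ : ℂ)‖ ≠ 0 := norm_ne_zero_iff.mpr hden
  rw [tcAt_comp γ hx, norm_mul, norm_zpow, norm_div, norm_one, norm_pow,
    Real.log_mul (zpow_ne_zero _ (one_div_ne_zero (pow_ne_zero _ hn)))
      (norm_ne_zero_iff.mpr (tcAt_ne_zero hx _)),
    Real.log_zpow, one_div, Real.log_inv, Real.log_pow]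
  push_cast
  ring

end Fermat.Agent.MW
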