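/-
MW / [ARCH] (helper9): the concrete uniformisation data `unifN N hN : UnifData N (PtN N)` of
`X₀(N)` over `Ω = ℚ̄ ⊆ ℂ` (`N` prime): admissible points of `ℍ` = those with `j(τ) ∈ ι(Ω)`, the point
map `ptH`, the two cusps `infN N`, `zeroN N`; and the finite `GQ`-stable set `ArchBad` of points
which the archimedean package wants to see inside the exceptional set `Zp`.
-/
import Mathlib
import Fermat.Agent.MW.ARCH_helper9_Unif
import Fermat.Agent.MW.ARCH_helper9_DictCusp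
import Fermat.Agent.MW.ARCH_helper9_Stab

set_option autoImplicit false
set_option linter.unusedSectionVars false

open AlgebraicCurve CongruenceSubgroup MatrixGroups ModularGroup ModularCurve UpperHalfPlane

namespace Fermat.Agent.MW

open Fermat.Agent.FF Fermat.Agent.X0N Fermat.Agent.JA

attribute [local instance] algOmC isScalarTower_algOmC

/-! ### density of `ι(Ω)` in `ℂ` -/

theorem exists_algOmC_eq_I : ∃ x : AlgebraicClosure ℚ,
    algebraMap (AlgebraicClosure ℚ) ℂ x = Complex.I := by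
  obtain ⟨x, hx⟩ := IsAlgClosed.exists_pow_nat_eq (-1 : AlgebraicClosure ℚ) (n := 2) (by norm_num)
  have h2 : (algebraMap (AlgebraicClosure ℚ) ℂ x) ^ 2 = -1 := by
    rw [← map_pow, hx, map_neg, map_one]
  have h3 : (algebraMap (AlgebraicClosure ℚ) ℂ x - Complex.I) *
      (algebraMap (AlgebraicClosure ℚ) ℂ x + Complex.I) = 0 := by
    have hI : Complex.I ^ 2 = -1 := Complex.I_sq
    linear_combination h2 - hI
  rcases mul_eq_zero.mp h3 with h | h
  · exact ⟨x, sub_eq_zero.mp h⟩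
  · refine ⟨-x, ?_⟩
    rw [map_neg]
    linear_combination -h

theorem denseRange_algOmC : DenseRange (algebraMap (AlgebraicClosure ℚ) ℂ) := by
  set S : Subring ℂ := (algebraMap (AlgebraicClosure ℚ) ℂ).range.topologicalClosure with hS
  have hmem : ∀ z : ℂ, z ∈ S ↔
      z ∈ closure (Set.range (algebraMap (AlgebraicClosure ℚ) ℂ)) := by
    intro z
    exact Iff.rfl
  have hreal : ∀ r : ℝ, (r : ℂ) ∈ S := by
    intro r
    rw [hmem]
    have h1 : r ∈ closure (Set.range ((↑) : ℚ → ℝ)) := Rat.denseRange_cast r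
    have h2 := map_mem_closure Complex.continuous_ofReal h1
      (t := Set.range (algebraMap (AlgebraicClosure ℚ) ℂ)) (by
        rintro _ ⟨q, rfl⟩
        refine ⟨(q : AlgebraicClosure ℚ), ?_⟩
        rw [map_ratCast]
        simp)
    exact h2
  have hI : Complex.I ∈ S := by
    obtain ⟨x, hx⟩ := exists_algOmC_eq_I
    rw [hmem]
    exact subset_closure ⟨x, hx⟩
  intro z
  rw [← hmem, ← Complex.re_add_im z]
  exact S.add_mem (hreal _) (S.mul_mem (hreal _) hI)

/-! ### admissible points -/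

/-- the points of `ℍ` with `j`-invariant in `ι(Ω)`. -/
def admH : Set ℍ := {τ | ∃ a : AlgebraicClosure ℚ, jFun τ = algebraMap (AlgebraicClosure ℚ) ℂ a}

theorem admH_smul (g : SL(2, ℤ)) (τ : ℍ) (h : τ ∈ admH) : g • τ ∈ admH := by
  obtain ⟨a, ha⟩ := h
  exact ⟨a, by rw [jFun_smul]; exact ha⟩

theorem admH_dense : Dense admH := by
  rw [dense_iff_inter_open]
  intro U hU hUne
  -- the image of `U` in `ℂ`
  have hV : IsOpen (((↑) : ℍ → ℂ) '' U) := UpperHalfPlane.isOpenEmbedding_coe.isOpenMap U hU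
  have hVsub : ((↑) : ℍ → ℂ) '' U ⊆ {z : ℂ | 0 < z.im} := by
    rintro _ ⟨τ, -, rfl⟩
    exact τ.im_pos
  have hpre : IsPreconnected {z : ℂ | 0 < z.im} := (convex_halfSpace_im_gt 0).isPreconnected
  have hopen : IsOpen ((jFun ∘ ofComplex) '' (((↑) : ℍ → ℂ) '' U)) := by
    rcases analyticOnNhd_jFun_comp_ofComplex.is_constant_or_isOpen hpre with ⟨w, hw⟩ | h
    · exfalso
      have h1 := hw (UpperHalfPlane.I : ℂ) UpperHalfPlane.I.im_pos
      have h2 := hw (rhoH : ℂ) rhoH.im_pos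
      simp only [Function.comp, ofComplex_apply] at h1 h2
      rw [jFun_I] at h1
      rw [jFun_rhoH] at h2
      rw [← h2] at h1
      norm_num at h1
    · exact h _ hVsub hV
  obtain ⟨τ₀, hτ₀⟩ := hUne
  have hne : ((jFun ∘ ofComplex) '' (((↑) : ℍ → ℂ) '' U)).Nonempty :=
    ⟨_, ⟨_, ⟨τ₀, hτ₀, rfl⟩, rfl⟩⟩
  obtain ⟨_, ⟨_, ⟨τ, hτU, rfl⟩, rfl⟩, ⟨a, ha⟩⟩ := denseRange_algOmC.inter_open_nonempty _ hopen hne
  refine ⟨τ, hτU, a, ?_⟩
  rw [ha]
  simp [Function.comp, ofComplex_apply]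

/-- the `j`-invariant of an admissible point, as an element of `Ω`. -/
noncomputable def admVal (τ : ℍ) (h : τ ∈ admH) : AlgebraicClosure ℚ := Classical.choose h

theorem admVal_spec (τ : ℍ) (h : τ ∈ admH) :
    jFun τ = algebraMap (AlgebraicClosure ℚ) ℂ (admVal τ h) := Classical.choose_spec h

theorem admVal_eq {τ : ℍ} (h : τ ∈ admH) {a : AlgebraicClosure ℚ}
    (ha : jFun τ = algebraMap (AlgebraicClosure ℚ) ℂ a) : admVal τ h = a :=
  (algebraMap (AlgebraicClosure ℚ) ℂ).injective ((admVal_spec τ h).symm.trans ha)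

variable (N : ℕ) [NeZero N]

/-- the point of `X₀(N)` below `τ ∈ ℍ` (junk for non-admissible `τ`). -/
noncomputable def ptH (τ : ℍ) : PtN N :=
  open Classical in
  if h : τ ∈ admH then hPlace (N := N) τ (admVal τ h) (admVal_spec τ h) else infN N

theorem ptH_eq {τ : ℍ} {a : AlgebraicClosure ℚ}
    (ha : jFun τ = algebraMap (AlgebraicClosure ℚ) ℂ a) :
    ptH N τ = hPlace (N := N) τ a ha := by
  have h : τ ∈ admH := ⟨a, ha⟩
  have e := admVal_eq h ha
  unfold ptH
  rw [dif_pos h]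
  subst e
  rfl

theorem ptH_smul {g : SL(2, ℤ)} (hg : g ∈ Gamma0 N) {τ : ℍ} (h : τ ∈ admH) :
    ptH N (g • τ) = ptH N τ := by
  obtain ⟨a, ha⟩ := h
  rw [ptH_eq N ha, ptH_eq N (τ := g • τ) (a := a) (by rw [jFun_smul]; exact ha)]
  exact hPlace_smul_of_mem hg τ a ha

theorem ptH_eq_iff {τ τ' : ℍ} (h : τ ∈ admH) (h' : τ' ∈ admH) :
    ptH N τ = ptH N τ' ↔ ∃ g ∈ Gamma0 N, g • τ = τ' := by
  constructor
  · intro e
    obtain ⟨a, ha⟩ := h
    obtain ⟨a', ha'⟩ := h'
    rw [ptH_eq N ha, ptH_eq N ha'] at e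
    exact exists_smul_eq_of_hPlace_eq ha ha' e
  · rintro ⟨g, hg, rfl⟩
    exact (ptH_smul N hg h).symm

theorem ptH_ord_jBar_nonneg {τ : ℍ} (h : τ ∈ admH) : 0 ≤ (ptH N τ).ord (X0N.jBar N) := by
  obtain ⟨a, ha⟩ := h
  rw [ptH_eq N ha]
  have h1 := hPlace_ord_jGen_sub_pos (N := N) τ a ha
  by_contra hlt
  rw [not_le] at hlt
  have hne : jGen (AlgebraicClosure ℚ) N - algebraMap (AlgebraicClosure ℚ) _ a ≠ 0 :=
    (jCoordK (AlgebraicClosure ℚ) N).x_sub_ne_zero a
  have h0 : (hPlace (N := N) τ a ha).ord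
      (algebraMap (AlgebraicClosure ℚ)
        ↥(laurentBaseChange (AlgebraicClosure ℚ) (modularFunctionFieldFull N)) a) = 0 :=
    PlaceAux.ord_algebraMap _ _
  have h3 := PlaceAux.ord_add_ge (hPlace (N := N) τ a ha)
    (f := jGen (AlgebraicClosure ℚ) N - algebraMap (AlgebraicClosure ℚ) _ a)
    (g := algebraMap (AlgebraicClosure ℚ) _ a) (n := 0)
    (by rw [sub_add_cancel]; exact jBar_ne_zero N) (Or.inr h1.le) (Or.inr h0.ge)
  rw [sub_add_cancel] at h3
  exact absurd hlt (not_lt.mpr h3)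

theorem ptH_ne_infN {τ : ℍ} (h : τ ∈ admH) : ptH N τ ≠ infN N := by
  intro e
  have h1 := ptH_ord_jBar_nonneg N h
  rw [e, infN_ord_jBar] at h1
  norm_num at h1

theorem ptH_ne_zeroN {τ : ℍ} (h : τ ∈ admH) : ptH N τ ≠ zeroN N := by
  intro e
  have h1 := ptH_ord_jBar_nonneg N h
  rw [e, zeroN_ord_jBar] at h1
  have : (0 : ℤ) < N := by exact_mod_cast Nat.pos_of_ne_zero (NeZero.ne N)
  omega

theorem ptN_cases (hN : N.Prime) (Q : PtN N) :
    Q = infN N ∨ Q = zeroN N ∨ ∃ τ ∈ admH, ptH N τ = Q := by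
  by_cases hQ : Q.ord (X0N.jBar N) < 0
  · rcases pole_cases N hN Q hQ with h | h
    · exact Or.inl h
    · exact Or.inr (Or.inl h)
  · rw [not_lt] at hQ
    obtain ⟨τ, a, ha, hv⟩ := exists_hPlace_eq (N := N) Q hQ
    exact Or.inr (Or.inr ⟨τ, ⟨a, ha⟩, by rw [ptH_eq N ha]; exact hv⟩)

/-- **the uniformisation data of `X₀(N)`, `N` prime.** -/
noncomputable def unifN (hN : N.Prime) : UnifData N (PtN N) where
  adm := admH
  adm_smul := admH_smul
  adm_dense := admH_dense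
  pt := ptH N
  pt_eq_iff := fun _ h _ h' => ptH_eq_iff N h h'
  cInf := infN N
  cZero := zeroN N
  cInf_ne_cZero := infN_ne_zeroN N hN
  pt_ne_cInf := fun _ h => ptH_ne_infN N h
  pt_ne_cZero := fun _ h => ptH_ne_zeroN N h
  cover := ptN_cases N hN

end Fermat.Agent.MW
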