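/-
MW / [ARCH] (helper9): zeros and poles of the realisation of a function on `X₀(N)` only occur at
admissible points of `ℍ`; the analytic orders in the three charts (`chartOrd`) and their
dictionary with the orders at the points of `X₀(N)`.
-/
import Mathlib
import Fermat.Agent.MW.ARCH_helper9_UnifInst
import Fermat.Agent.MW.ARCH_helper9_CuspFac
import Fermat.Agent.MW.ARCH_helper9_Mob

set_option autoImplicit false
set_option linter.unusedSectionVars false

open AlgebraicCurve CongruenceSubgroup MatrixGroups ModularGroup ModularCurve UpperHalfPlane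

namespace Fermat.Agent.MW

open Fermat.Agent.FF Fermat.Agent.X0N Fermat.Agent.JA

attribute [local instance] algOmC isScalarTower_algOmC

variable (N : ℕ) [NeZero N]

theorem realC_jBar : realC N (X0N.jBar N) = MerH.ofHol jHol :=
  realN_jGen N (algebraMap (AlgebraicClosure ℚ) ℂ)

theorem jHol_sub_const_ne_zero_arch (c : ℂ) : jHol - HolH.const c ≠ 0 := by
  intro h
  have h1 : jFun UpperHalfPlane.I - c = 0 :=
    congrFun (congrArg Subtype.val h) UpperHalfPlane.I
  have h2 : jFun rhoH - c = 0 := congrFun (congrArg Subtype.val h) rhoH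
  rw [jFun_I] at h1
  rw [jFun_rhoH] at h2
  have : (1728 : ℂ) = 0 := by linear_combination h1 - h2
  norm_num at this

theorem realC_jBar_sub (a : AlgebraicClosure ℚ) :
    realC N (X0N.jBar N - algebraMap (AlgebraicClosure ℚ) (FunN N) a) =
      MerH.ofHol (jHol - HolH.const (algebraMap (AlgebraicClosure ℚ) ℂ a)) := by
  rw [map_sub, realC_jBar, realC_algebraMap, map_sub]
  rfl

/-- **zeros and poles of realisations are admissible.** -/
theorem admH_of_ordAt_ne_zero {f : FunN N} (hf : f ≠ 0) {τ : ℍ}
    (h : MerH.ordAt τ (realC N f) ≠ 0) : τ ∈ admH := by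
  by_contra hτ
  let o : OrdFn (AlgebraicClosure ℚ) (FunN N) :=
    { ord := fun x => MerH.ordAt τ (realC N x)
      ord_mul := by
        intro x y hx hy
        rw [map_mul]
        exact MerH.ordAt_mul (realC_ne_zero N hx) (realC_ne_zero N hy) τ
      ord_add := by
        intro x y hx hy hxy
        rw [map_add]
        apply MerH.min_ordAt_le_ordAt_add (realC_ne_zero N hx) (realC_ne_zero N hy)
        rw [← map_add]
        exact realC_ne_zero N hxy
      ord_algebraMap := by
        intro c hc
        rw [realC_algebraMap]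
        exact MerH.ordAt_const
          ((map_ne_zero_iff _ (algebraMap (AlgebraicClosure ℚ) ℂ).injective).mpr hc) τ
      nontrivial := ⟨f, hf, h⟩ }
  have hord : ∀ x, o.ord x = MerH.ordAt τ (realC N x) := fun _ => rfl
  rcases (jCoordK (AlgebraicClosure ℚ) N).mem_poles_or_exists_mem_zeros o.toPlace with hp | ⟨a, hz⟩
  · rw [Coord.mem_poles] at hp
    have hp' : o.toPlace.ord (X0N.jBar N) < 0 := hp
    rw [OrdFn.toPlace_ord_neg_iff _ (jBar_ne_zero N), hord, realC_jBar] at hp'
    have hj0 : jHol ≠ 0 := by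
      have := jHol_sub_const_ne_zero_arch 0
      rwa [map_zero, sub_zero] at this
    rw [MerH.ordAt_ofHol hj0] at hp'
    omega
  · rw [Coord.mem_zeros] at hz
    have hne : X0N.jBar N - algebraMap (AlgebraicClosure ℚ) (FunN N) a ≠ 0 :=
      (jCoordK (AlgebraicClosure ℚ) N).x_sub_ne_zero a
    have hz' : 0 < o.toPlace.ord (X0N.jBar N - algebraMap (AlgebraicClosure ℚ) (FunN N) a) := hz
    rw [OrdFn.toPlace_ord_pos_iff _ hne, hord, realC_jBar_sub,
      MerH.ordAt_ofHol (jHol_sub_const_ne_zero_arch _)] at hz'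
    have h0 : HolH.ord τ (jHol - HolH.const (algebraMap (AlgebraicClosure ℚ) ℂ a)) = 0 := by
      rw [HolH.ord_eq_zero_iff]
      left
      show jFun τ - algebraMap (AlgebraicClosure ℚ) ℂ a ≠ 0
      intro h0
      exact hτ ⟨a, sub_eq_zero.mp h0⟩
    rw [h0] at hz'
    exact lt_irrefl _ hz'

/-- **order dictionary on `ℍ`** in terms of `ptH` and `stabMult`. -/
theorem ordAt_realC_eq {τ : ℍ} (hτ : τ ∈ admH) {f : FunN N} (hf : f ≠ 0) :
    MerH.ordAt τ (realC N f) = (stabMult N τ : ℤ) * (ptH N τ).ord f := by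
  obtain ⟨a, ha⟩ := hτ
  rw [ptH_eq N ha, ← hMult_eq_stabMult (N := N) τ a ha]
  exact ordAt_realN_eq (N := N) τ a ha hf

theorem ordAt_realC_eq_zero {τ : ℍ} (hτ : τ ∉ admH) (f : FunN N) :
    MerH.ordAt τ (realC N f) = 0 := by
  by_cases hf : f = 0
  · rw [hf, map_zero]
    simp [MerH.ordAt]
  · by_contra h
    exact hτ (admH_of_ordAt_ne_zero N hf h)

variable {N}

/-! ### the three charts -/

theorem lift_H_eq (P : ChartParams N) (z : ℂ) :
    P.lift ChartIdx.H z = affPt ((P.Y : ℂ) * Complex.I) P.sH z := rfl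

theorem lift_inf_eq (P : ChartParams N) (z : ℂ) :
    P.lift ChartIdx.inf z = cuspPt 1 P.sInf z := by
  unfold ChartParams.lift cuspPt
  rw [Nat.cast_one]

theorem lift_zero_eq (P : ChartParams N) (z : ℂ) :
    P.lift ChartIdx.zero z = S • cuspPt N P.sZero z := rfl

/-- the analytic order of the realisation of `f` at the parameter `z` of the chart `α`. -/
noncomputable def chartOrd (P : ChartParams N) : ChartIdx → ℂ → FunN N → ℤ
  | ChartIdx.H, z, f => MerH.ordAt (P.lift ChartIdx.H z) (realC N f)
  | ChartIdx.inf, z, f => cuspOrd 1 P.sInf (realC N f) z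
  | ChartIdx.zero, z, f => cuspOrd N P.sZero (realS N f) z

theorem realS_apply (f : FunN N) : realS N f = MerH.comp S (realC N f) := rfl

theorem chartOrd_of_not_isCusp (P : ChartParams N) {α : ChartIdx} {z : ℂ} (h : ¬ α.IsCusp z)
    (f : FunN N) : chartOrd P α z f = MerH.ordAt (P.lift α z) (realC N f) := by
  cases α with
  | H => rfl
  | inf =>
    have hz : z ≠ 0 := h
    show cuspOrd 1 P.sInf (realC N f) z = _
    rw [cuspOrd_of_ne _ _ hz, lift_inf_eq]
  | zero =>
    have hz : z ≠ 0 := h
    show cuspOrd N P.sZero (realS N f) z = _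
    rw [cuspOrd_of_ne _ _ hz, lift_zero_eq, realS_apply, MerH.ordAt_comp]

theorem chartOrd_inf_zero (P : ChartParams N) (f : FunN N) :
    chartOrd P ChartIdx.inf 0 f = MerH.ordInf 1 (realC N f) := cuspOrd_zero _ _

theorem chartOrd_zero_zero (P : ChartParams N) (f : FunN N) :
    chartOrd P ChartIdx.zero 0 f = MerH.ordInf N (realS N f) := cuspOrd_zero _ _

/-- **order dictionary in the charts.** -/
theorem chartOrd_eq (hN : N.Prime) (P : ChartParams N) {α : ChartIdx} {z : ℂ}
    (hz : z ∈ chartA (unifN N hN) P α) {f : FunN N} (hf : f ≠ 0) :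
    chartOrd P α z f = (chartE P α z : ℤ) * (chartPt (unifN N hN) P α z).ord f := by
  cases α with
  | H =>
    have hτ : P.lift ChartIdx.H z ∈ admH := hz
    show MerH.ordAt (P.lift ChartIdx.H z) (realC N f) = _
    rw [ordAt_realC_eq N hτ hf]
    rfl
  | inf =>
    by_cases h0 : z = 0
    · subst h0
      rw [chartOrd_inf_zero, ← infN_ord_eq N hf]
      simp [chartE, chartPt, unifN]
    · have hτ : P.lift ChartIdx.inf z ∈ admH := by
        rcases hz with h | h
        · exact absurd h h0
        · exact h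
      rw [chartOrd_of_not_isCusp P (α := ChartIdx.inf) (show ¬ ChartIdx.IsCusp ChartIdx.inf z from h0),
        ordAt_realC_eq N hτ hf]
      simp [chartE, chartPt, unifN, h0]
  | zero =>
    by_cases h0 : z = 0
    · subst h0
      rw [chartOrd_zero_zero, ← zeroN_ord_eq N hf]
      simp [chartE, chartPt, unifN]
    · have hτ : P.lift ChartIdx.zero z ∈ admH := by
        rcases hz with h | h
        · exact absurd h h0
        · exact h
      rw [chartOrd_of_not_isCusp P (α := ChartIdx.zero)
        (show ¬ ChartIdx.IsCusp ChartIdx.zero z from h0), ordAt_realC_eq N hτ hf]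
      simp [chartE, chartPt, unifN, h0]

/-- outside the admissible parameters all orders vanish. -/
theorem chartOrd_eq_zero (hN : N.Prime) (P : ChartParams N) {α : ChartIdx} {z : ℂ}
    (hz : z ∉ chartA (unifN N hN) P α) (f : FunN N) : chartOrd P α z f = 0 := by
  cases α with
  | H =>
    have hτ : P.lift ChartIdx.H z ∉ admH := hz
    exact ordAt_realC_eq_zero N hτ f
  | inf =>
    have h0 : z ≠ 0 := fun h => hz (Or.inl h)
    have hτ : P.lift ChartIdx.inf z ∉ admH := fun h => hz (Or.inr h)
    rw [chartOrd_of_not_isCusp P (α := ChartIdx.inf) (show ¬ ChartIdx.IsCusp ChartIdx.inf z from h0)]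
    exact ordAt_realC_eq_zero N hτ f
  | zero =>
    have h0 : z ≠ 0 := fun h => hz (Or.inl h)
    have hτ : P.lift ChartIdx.zero z ∉ admH := fun h => hz (Or.inr h)
    rw [chartOrd_of_not_isCusp P (α := ChartIdx.zero)
      (show ¬ ChartIdx.IsCusp ChartIdx.zero z from h0)]
    exact ordAt_realC_eq_zero N hτ f

end Fermat.Agent.MW
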