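/-
MW / [ARCH] (helper9): the representation of (the realisation of) a function on `X₀(N)` in the
three charts: `chartLgn P α z f` (normalised log-norm of the leading coefficient at the parameter
`z`), its factorisation `log‖G z‖ + Σ_u chartOrd u · log‖z - u‖` on the `r₂`-disc, the regrouping
of the sum over the fibres of the atlas, and the value dictionary.
-/
import Mathlib
import Fermat.Agent.MW.ARCH_helper9_ChartOrd
import Fermat.Agent.MW.NADIC_helper6_Lc

set_option autoImplicit false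
set_option linter.unusedSectionVars false

open AlgebraicCurve CongruenceSubgroup MatrixGroups ModularGroup ModularCurve UpperHalfPlane Metric

namespace Fermat.Agent.MW

open Fermat.Agent.FF Fermat.Agent.X0N Fermat.Agent.JA

attribute [local instance] algOmC isScalarTower_algOmC

/-! ### the cusp normalisation -/

/-- the normalised log-norm of the leading coefficient of `x` at the parameter `z` of a cusp
chart. -/
noncomputable def cuspLgn (h : ℕ) (s : ℝ) (x : MerH) (z : ℂ) : ℝ :=
  if z = 0 then Real.log ‖MerH.lcInf h x‖ + (MerH.ordInf h x : ℝ) * Real.log s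
  else Real.log ‖tcAt (cuspPt h s z) x‖ -
    (MerH.ordAt (cuspPt h s z) x : ℝ) * Real.log (2 * Real.pi * ‖z‖ / h)

theorem cuspLgn_zero (h : ℕ) (s : ℝ) (x : MerH) :
    cuspLgn h s x 0 = Real.log ‖MerH.lcInf h x‖ + (MerH.ordInf h x : ℝ) * Real.log s := if_pos rfl

theorem cuspLgn_of_ne (h : ℕ) (s : ℝ) (x : MerH) {z : ℂ} (hz : z ≠ 0) :
    cuspLgn h s x z = Real.log ‖tcAt (cuspPt h s z) x‖ -
      (MerH.ordAt (cuspPt h s z) x : ℝ) * Real.log (2 * Real.pi * ‖z‖ / h) := if_neg hz

theorem cusp_factorisation {h : ℕ} [NeZero h] {x : MerH} (hx : IsMerInf h x) (hx0 : x ≠ 0)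
    {s R : ℝ} (hs : 0 < s) (hR : 0 < R) (hdisc : s * R < 1) :
    ∃ G : ℂ → ℂ, AnalyticOnNhd ℂ G (closedBall 0 R) ∧ (∀ z ∈ closedBall (0 : ℂ) R, G z ≠ 0) ∧
      ∃ Z : Finset ℂ, (∀ u ∈ Z, u ∈ closedBall (0 : ℂ) R) ∧
        (∀ u ∈ closedBall (0 : ℂ) R, (u ∈ Z ↔ cuspOrd h s x u ≠ 0)) ∧
        ∀ z ∈ closedBall (0 : ℂ) R,
          cuspLgn h s x z = Real.log ‖G z‖ + ∑ u ∈ Z, (cuspOrd h s x u : ℝ) * Real.log ‖z - u‖ := by
  obtain ⟨G, hG, hG0, Z, hZ1, hZ2, hZ3, hZ4⟩ := merFn_cusp_factorisation hx hx0 hs hR hdisc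
  refine ⟨G, hG, hG0, Z, hZ1, hZ2, ?_⟩
  intro z hz
  by_cases h0 : z = 0
  · subst h0
    rw [cuspLgn_zero]
    exact hZ4
  · rw [cuspLgn_of_ne _ _ _ h0]
    exact hZ3 z hz h0

variable {N : ℕ} [NeZero N]

/-- the normalised log-norm of the leading coefficient of the realisation of `f` at the parameter
`z` of the chart `α`. -/
noncomputable def chartLgn (P : ChartParams N) : ChartIdx → ℂ → FunN N → ℝ
  | ChartIdx.H, z, f =>
      Real.log ‖tcAt (P.lift ChartIdx.H z) (realC N f)‖ +
        (MerH.ordAt (P.lift ChartIdx.H z) (realC N f) : ℝ) * Real.log P.sH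
  | ChartIdx.inf, z, f => cuspLgn 1 P.sInf (realC N f) z
  | ChartIdx.zero, z, f => cuspLgn N P.sZero (realS N f) z

theorem ChartParams.hr₂ (P : ChartParams N) : 0 < P.r₂ := P.hr₀.trans (P.hr₀₁.trans P.hr₁₂)

theorem ChartParams.hr₁ (P : ChartParams N) : 0 < P.r₁ := P.hr₀.trans P.hr₀₁

theorem ChartParams.hInf' (P : ChartParams N) : P.sInf * P.r₂ < 1 := by
  refine P.hInf.trans ?_
  rw [Real.exp_lt_one_iff]
  have := Real.pi_pos
  linarith

theorem ChartParams.hZero' (P : ChartParams N) : P.sZero * P.r₂ < 1 := by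
  refine P.hZero.trans ?_
  rw [Real.exp_lt_one_iff]
  have hN : (0 : ℝ) < N := Nat.cast_pos.mpr (NeZero.pos N)
  have := Real.pi_pos
  apply div_neg_of_neg_of_pos _ hN
  linarith

/-- **factorisation of a function in a chart.** -/
theorem chart_factorisation (P : ChartParams N) (α : ChartIdx) {f : FunN N} (hf : f ≠ 0) :
    ∃ G : ℂ → ℂ, AnalyticOnNhd ℂ G (closedBall 0 P.r₂) ∧
      (∀ z ∈ closedBall (0 : ℂ) P.r₂, G z ≠ 0) ∧
      ∃ Z : Finset ℂ, (∀ u ∈ Z, u ∈ closedBall (0 : ℂ) P.r₂) ∧
        (∀ u ∈ closedBall (0 : ℂ) P.r₂, (u ∈ Z ↔ chartOrd P α u f ≠ 0)) ∧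
        ∀ z ∈ closedBall (0 : ℂ) P.r₂,
          chartLgn P α z f =
            Real.log ‖G z‖ + ∑ u ∈ Z, (chartOrd P α u f : ℝ) * Real.log ‖z - u‖ := by
  cases α with
  | H =>
    have hdisc : P.sH * P.r₂ < ((P.Y : ℂ) * Complex.I).im := by
      simpa using P.hH
    exact merFn_affine_factorisation (realC_ne_zero N hf) ((P.Y : ℂ) * Complex.I) P.hsH P.hr₂ hdisc
  | inf =>
    exact cusp_factorisation (h := 1) (isMerInf_realC N f) (realC_ne_zero N hf) P.hsInf P.hr₂
      P.hInf'
  | zero =>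
    exact cusp_factorisation (h := N) (isMerInf_realS N f) (realS_ne_zero N hf) P.hsZero P.hr₂
      P.hZero'

/-! ### the uniform formula off the cusp centres -/

theorem mobDen_S (w : ℂ) : mobDen S w = w := by
  unfold mobDen
  simp [S]

theorem norm_sInf_mul_lt (P : ChartParams N) {z : ℂ} (hz : ‖z‖ ≤ P.r₂) :
    ‖(P.sInf : ℂ) * z‖ < 1 := by
  rw [norm_mul, Complex.norm_real, Real.norm_of_nonneg P.hsInf.le]
  exact (mul_le_mul_of_nonneg_left hz P.hsInf.le).trans_lt P.hInf'

theorem norm_sZero_mul_lt (P : ChartParams N) {z : ℂ} (hz : ‖z‖ ≤ P.r₂) :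
    ‖(P.sZero : ℂ) * z‖ < 1 := by
  rw [norm_mul, Complex.norm_real, Real.norm_of_nonneg P.hsZero.le]
  exact (mul_le_mul_of_nonneg_left hz P.hsZero.le).trans_lt P.hZero'

/-- off the cusp centres `chartLgn` is the log-norm of the trailing coefficient at the lift, plus
the order times the log of the derivative of the lift. -/
theorem chartLgn_of_not_isCusp (P : ChartParams N) {α : ChartIdx} {z : ℂ} (h : ¬ α.IsCusp z)
    (hz : ‖z‖ ≤ P.r₂) {f : FunN N} (hf : f ≠ 0) :
    chartLgn P α z f = Real.log ‖tcAt (P.lift α z) (realC N f)‖ +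
      (MerH.ordAt (P.lift α z) (realC N f) : ℝ) * Real.log (P.deriv α z) := by
  cases α with
  | H => rfl
  | inf =>
    have hz0 : z ≠ 0 := h
    show cuspLgn 1 P.sInf (realC N f) z = _
    rw [cuspLgn_of_ne _ _ _ hz0, lift_inf_eq]
    have hpos : 0 < 2 * Real.pi * ‖z‖ := by
      have := Real.pi_pos
      have := norm_pos_iff.mpr hz0
      positivity
    have e : Real.log (P.deriv ChartIdx.inf z) = -Real.log (2 * Real.pi * ‖z‖ / (1 : ℕ)) := by
      show Real.log (1 / (2 * Real.pi * ‖z‖)) = _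
      rw [Nat.cast_one, div_one, one_div, Real.log_inv]
    rw [e]
    ring
  | zero =>
    have hz0 : z ≠ 0 := h
    show cuspLgn N P.sZero (realS N f) z = _
    rw [cuspLgn_of_ne _ _ _ hz0, lift_zero_eq, realS_apply,
      log_norm_tcAt_comp S (realC_ne_zero N hf), MerH.ordAt_comp, mobDen_S,
      cuspPt_coe P.hsZero hz0 (norm_sZero_mul_lt P hz)]
    set τ' := Function.Periodic.invQParam (N : ℝ) ((P.sZero : ℂ) * z) with hτ'
    have hτ0 : ‖τ'‖ ≠ 0 := by
      rw [norm_ne_zero_iff]
      intro h0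
      have him := Function.Periodic.im_invQParam_pos_of_norm_lt_one
        (Nat.cast_pos.mpr (NeZero.pos N) : (0 : ℝ) < N) (norm_sZero_mul_lt P hz)
        (mul_ne_zero (by exact_mod_cast P.hsZero.ne') hz0)
      rw [← hτ', h0] at him
      simp at him
    have hN : (0 : ℝ) < N := Nat.cast_pos.mpr (NeZero.pos N)
    have hzn : 0 < ‖z‖ := norm_pos_iff.mpr hz0
    have hpi := Real.pi_pos
    have e : Real.log (P.deriv ChartIdx.zero z) =
        -Real.log (2 * Real.pi * ‖z‖ / N) - 2 * Real.log ‖τ'‖ := by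
      show Real.log ((N : ℝ) / (2 * Real.pi * ‖z‖ * ‖τ'‖ ^ 2)) = _
      rw [Real.log_div hN.ne' (by positivity), Real.log_mul (by positivity) (by positivity),
        Real.log_pow, Real.log_div (by positivity) hN.ne']
      push_cast
      ring
    rw [e]
    ring

/-! ### the value dictionary -/

/-- **value dictionary in the charts**: at a parameter over a point where `f` is a unit,
`chartLgn` is the log of the archimedean absolute value of the value of `f`. -/
theorem chartLgn_of_ord_eq_zero (hN : N.Prime) (P : ChartParams N) {α : ChartIdx} {z : ℂ}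
    (hz : z ∈ chartA (unifN N hN) P α) (hz2 : ‖z‖ ≤ P.r₂) {f : FunN N} (hf : f ≠ 0)
    (h0 : (chartPt (unifN N hN) P α z).ord f = 0) :
    chartLgn P α z f = lg none (valN N (chartPt (unifN N hN) P α z) f) := by
  set Q := chartPt (unifN N hN) P α z with hQ
  have hc : valN N Q f ≠ 0 := valN_ne_zero Q hf h0
  have hv : HasValueAt Q f (valN N Q f) := valN_spec Q (Or.inr h0.ge)
  have hlg : lg none (valN N Q f) =
      Real.log ‖algebraMap (AlgebraicClosure ℚ) ℂ (valN N Q f)‖ := rfl
  by_cases hcusp : α.IsCusp z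
  · cases α with
    | H => exact absurd hcusp (by simp [ChartIdx.IsCusp])
    | inf =>
      have hz0 : z = 0 := hcusp
      subst hz0
      have hQ' : Q = infN N := by simp [hQ, chartPt, unifN]
      rw [hQ'] at hv hc hlg ⊢
      obtain ⟨h1, h2⟩ := inf_value_dict N hc hv
      show cuspLgn 1 P.sInf (realC N f) 0 = _
      rw [cuspLgn_zero, h1, h2, hlg]
      simp
    | zero =>
      have hz0 : z = 0 := hcusp
      subst hz0
      have hQ' : Q = zeroN N := by simp [hQ, chartPt, unifN]
      rw [hQ'] at hv hc hlg ⊢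
      obtain ⟨h1, h2⟩ := zero_value_dict N hc hv
      show cuspLgn N P.sZero (realS N f) 0 = _
      rw [cuspLgn_zero, h1, h2, hlg]
      simp
  · rw [chartLgn_of_not_isCusp P hcusp hz2 hf]
    have hτ : P.lift α z ∈ admH := by
      cases α with
      | H => exact hz
      | inf =>
        rcases hz with h | h
        · exact absurd h hcusp
        · exact h
      | zero =>
        rcases hz with h | h
        · exact absurd h hcusp
        · exact h
    have hQ' : Q = ptH N (P.lift α z) := by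
      cases α with
      | H => rfl
      | inf =>
        have : z ≠ 0 := hcusp
        simp [hQ, chartPt, unifN, this]
      | zero =>
        have : z ≠ 0 := hcusp
        simp [hQ, chartPt, unifN, this]
    obtain ⟨a, ha⟩ := hτ
    rw [hQ', ptH_eq N ha] at hv hc hlg ⊢
    obtain ⟨h1, h2⟩ := tcAt_realN_of_hasValueAt (N := N) (P.lift α z) a ha hc hv
    have h1' : MerH.ordAt (P.lift α z) (realC N f) = 0 := h1
    have h2' : tcAt (P.lift α z) (realC N f) = _ := h2
    rw [h1', h2', hlg]
    simp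

/-! ### regrouping over the fibres of the atlas -/

theorem stabMult_pos_of_admH {τ : ℍ} (hτ : τ ∈ admH) : 0 < stabMult N τ := by
  obtain ⟨a, ha⟩ := hτ
  have h := hMult_pos (N := N) τ a ha
  rw [hMult_eq_stabMult (N := N) τ a ha] at h
  exact_mod_cast h

theorem chartE_pos (hN : N.Prime) (P : ChartParams N) {α : ChartIdx} {z : ℂ}
    (hz : z ∈ chartA (unifN N hN) P α) : 0 < chartE P α z := by
  cases α with
  | H => exact stabMult_pos_of_admH hz
  | inf =>
    by_cases h0 : z = 0
    · simp [chartE, h0]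
    · rcases hz with h | h
      · exact absurd h h0
      · simp only [chartE, h0, if_false]
        exact stabMult_pos_of_admH h
  | zero =>
    by_cases h0 : z = 0
    · simp [chartE, h0]
    · rcases hz with h | h
      · exact absurd h h0
      · simp only [chartE, h0, if_false]
        exact stabMult_pos_of_admH h

/-- **regrouping**: the sum over the zeros and poles in the chart disc is the sum over the points
of the divisor of the local distance sums of the atlas. -/
theorem sum_chartOrd_eq (hN : N.Prime) (P : ChartParams N) (𝔄 : ArchAtlas (PtN N) ChartIdx)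
    (hA : 𝔄.A = chartA (unifN N hN) P) (hpt : 𝔄.pt = chartPt (unifN N hN) P)
    (he : 𝔄.e = chartE P) (hr : 𝔄.r₂ = P.r₂) (α : ChartIdx) {f : FunN N} (hf : f ≠ 0)
    {D : PtN N →₀ ℤ} (hD : IsDivOf N f D) (Z : Finset ℂ)
    (hZ1 : ∀ u ∈ Z, u ∈ closedBall (0 : ℂ) P.r₂)
    (hZ2 : ∀ u ∈ closedBall (0 : ℂ) P.r₂, (u ∈ Z ↔ chartOrd P α u f ≠ 0)) (z : ℂ) :
    ∑ u ∈ Z, (chartOrd P α u f : ℝ) * Real.log ‖z - u‖ =
      ∑ Q ∈ D.support, (D Q : ℝ) * 𝔄.locSum α Q z := by
  classical
  have hZA : ∀ u ∈ Z, u ∈ chartA (unifN N hN) P α := by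
    intro u hu
    by_contra hnot
    exact (hZ2 u (hZ1 u hu)).mp hu (chartOrd_eq_zero hN P hnot f)
  have hord : ∀ u, u ∈ chartA (unifN N hN) P α →
      chartOrd P α u f = (chartE P α u : ℤ) * D (chartPt (unifN N hN) P α u) := by
    intro u hu
    rw [chartOrd_eq hN P hu hf, hD]
  have hmaps : ∀ u ∈ Z, chartPt (unifN N hN) P α u ∈ D.support := by
    intro u hu
    rw [Finsupp.mem_support_iff]
    intro h0
    have := (hZ2 u (hZ1 u hu)).mp hu
    rw [hord u (hZA u hu), h0, mul_zero] at this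
    exact this rfl
  rw [← Finset.sum_fiberwise_of_maps_to hmaps]
  refine Finset.sum_congr rfl fun Q hQ => ?_
  have hfib : Z.filter (fun u => chartPt (unifN N hN) P α u = Q) = 𝔄.fib α Q := by
    ext u
    rw [Finset.mem_filter, ArchAtlas.mem_fib, hA, hpt, hr]
    constructor
    · rintro ⟨hu, hQu⟩
      have := hZ1 u hu
      rw [mem_closedBall, dist_zero_right] at this
      exact ⟨hZA u hu, hQu, this⟩
    · rintro ⟨huA, hQu, hur⟩
      have hub : u ∈ closedBall (0 : ℂ) P.r₂ := by
        rw [mem_closedBall, dist_zero_right]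
        exact hur
      refine ⟨(hZ2 u hub).mpr ?_, hQu⟩
      rw [hord u huA, hQu]
      have h1 : (chartE P α u : ℤ) ≠ 0 := by
        exact_mod_cast (chartE_pos hN P huA).ne'
      exact mul_ne_zero h1 (Finsupp.mem_support_iff.mp hQ)
  rw [hfib, ArchAtlas.locSum, Finset.mul_sum]
  refine Finset.sum_congr rfl fun u hu => ?_
  rw [ArchAtlas.mem_fib, hA, hpt] at hu
  rw [hord u hu.1, hu.2.1, he]
  push_cast
  ring

end Fermat.Agent.MW
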