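/-
PROJECT MW (S17) — package [ARCH] (helper9): **the algebra of the abstract derivation `D₀`**
of a `DiffDatum`, from `K0_spec` alone.

* `OrdGE Q n f` : `f = 0 ∨ n ≤ ord_Q f`, with its calculus;
* `ordGE_D₀` : `D₀` maps the local ring at `Q` into `𝔪_Q^{-K0 Q}`;
* `ord_D₀_eq` : `ord_Q (D₀ f) = ord_Q f - 1 - K0 Q` when `ord_Q f ≠ 0`;
* `lcN_eq_of_unif_arch` : `lcN` may be computed with any uniformizer (when `K0 Q = 0`).
-/
import Mathlib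
import Fermat.Agent.MW.DIFF_helper8_Defs
import Fermat.Agent.FF.Squeeze

set_option autoImplicit false
set_option linter.unusedSectionVars false

namespace Fermat.Agent.MW

open AlgebraicCurve ModularCurve Fermat.Agent.FF Fermat.Agent.JA

variable {N : ℕ} [NeZero N]

theorem deg_eq_one_ptN (Q : PtN N) : Q.deg = 1 := (Fermat.Agent.X0N.jCoordBar N).deg_eq_one Q

/-- `f = 0` or `n ≤ ord_Q f`. -/
def OrdGE (Q : PtN N) (n : ℤ) (f : FunN N) : Prop := f = 0 ∨ n ≤ Q.ord f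

namespace OrdGE

variable {Q : PtN N} {m n : ℤ} {f g : FunN N}

theorem zero (Q : PtN N) (n : ℤ) : OrdGE Q n (0 : FunN N) := Or.inl rfl

theorem of_ord (Q : PtN N) (f : FunN N) : OrdGE Q (Q.ord f) f := Or.inr le_rfl

theorem of_le (h : n ≤ Q.ord f) : OrdGE Q n f := Or.inr h

theorem le_ord (h : OrdGE Q n f) (hf : f ≠ 0) : n ≤ Q.ord f := h.resolve_left hf

theorem mono (h : OrdGE Q n f) (hmn : m ≤ n) : OrdGE Q m f :=
  h.imp id fun h' => hmn.trans h'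

theorem add (hf : OrdGE Q n f) (hg : OrdGE Q n g) : OrdGE Q n (f + g) := by
  by_cases h0 : f + g = 0
  · exact Or.inl h0
  · exact Or.inr (PlaceAux.ord_add_ge Q h0 hf hg)

theorem neg (hf : OrdGE Q n f) : OrdGE Q n (-f) := by
  rcases hf with rfl | h
  · exact Or.inl neg_zero
  · exact Or.inr (by rwa [PlaceAux.ord_neg])

theorem sub (hf : OrdGE Q n f) (hg : OrdGE Q n g) : OrdGE Q n (f - g) := by
  rw [sub_eq_add_neg]
  exact hf.add hg.neg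

theorem mul (hf : OrdGE Q m f) (hg : OrdGE Q n g) : OrdGE Q (m + n) (f * g) := by
  rcases hf with rfl | h
  · exact Or.inl (zero_mul _)
  rcases hg with rfl | h'
  · exact Or.inl (mul_zero _)
  by_cases hf0 : f = 0
  · exact Or.inl (by rw [hf0, zero_mul])
  by_cases hg0 : g = 0
  · exact Or.inl (by rw [hg0, mul_zero])
  · exact Or.inr (by rw [Q.ord_mul hf0 hg0]; omega)

theorem mem_iff : OrdGE Q 0 f ↔ f ∈ Q.toValuationSubring :=
  (PlaceAux.mem_iff_ord_nonneg Q).symm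

theorem const (Q : PtN N) (c : AlgebraicClosure ℚ) :
    OrdGE Q 0 (algebraMap (AlgebraicClosure ℚ) (FunN N) c) :=
  Or.inr (by rw [PlaceAux.ord_algebraMap])

theorem zpow_unif {t : FunN N} (ht : Q.ord t = 1) (n : ℤ) : OrdGE Q n (t ^ n) :=
  Or.inr (by rw [Q.ord_zpow, ht, mul_one])

end OrdGE

theorem hasValueAt_zpow {Q : PtN N} {f : FunN N} {c : AlgebraicClosure ℚ}
    (h : HasValueAt Q f c) (hc : c ≠ 0) (n : ℤ) : HasValueAt Q (f ^ n) (c ^ n) := by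
  cases n with
  | ofNat k =>
    simp only [Int.ofNat_eq_natCast, zpow_natCast]
    exact h.pow k
  | negSucc k =>
    rw [zpow_negSucc, zpow_negSucc]
    exact (h.pow (k + 1)).inv (pow_ne_zero _ hc)

/-- a function of positive order (or zero) has value `0`. -/
theorem hasValueAt_zero_of_ordGE {Q : PtN N} {f : FunN N} (h : OrdGE Q 1 f) :
    HasValueAt Q f 0 := by
  rw [HasValueAt.zero_iff]
  rcases h with h | h
  · exact Or.inl h
  · exact Or.inr (by omega)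

theorem valN_of_ordGE_one {Q : PtN N} {f : FunN N} (h : OrdGE Q 1 f) : valN N Q f = 0 :=
  (hasValueAt_zero_of_ordGE h).valueAt_eq

theorem hasValueAt_valN_of_ordGE {Q : PtN N} {f : FunN N} (h : OrdGE Q 0 f) :
    HasValueAt Q f (valN N Q f) :=
  hasValueAt_valueAt_of_mem (deg_eq_one_ptN Q) (OrdGE.mem_iff.mp h)

/-- a function of order `0` has a nonzero value. -/
theorem valN_ne_zero_of_ord_eq_zero {Q : PtN N} {f : FunN N} (hf : f ≠ 0) (h : Q.ord f = 0) :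
    valN N Q f ≠ 0 := by
  intro h0
  have hv := hasValueAt_valN_of_ordGE (Q := Q) (f := f) (Or.inr h.ge)
  rw [h0, HasValueAt.zero_iff] at hv
  rcases hv with hv | hv
  · exact hf hv
  · omega

namespace DiffDatum

variable (𝔡 : DiffDatum N)

theorem D₀_const (c : AlgebraicClosure ℚ) :
    𝔡.D₀ (algebraMap (AlgebraicClosure ℚ) (FunN N) c) = 0 :=
  𝔡.D₀.map_algebraMap c

theorem D₀_mul (a b : FunN N) : 𝔡.D₀ (a * b) = a * 𝔡.D₀ b + b * 𝔡.D₀ a := by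
  rw [𝔡.D₀.leibniz]
  rfl

theorem ordGE_D₀_unif (Q : PtN N) {t : FunN N} (ht : Q.ord t = 1) :
    𝔡.D₀ t ≠ 0 ∧ Q.ord (𝔡.D₀ t) = -(𝔡.K0 Q : ℤ) := 𝔡.K0_spec Q t ht

/-- the weak bound, from the uniformizer `t + t²v`. -/
theorem ordGE_D₀_weak (Q : PtN N) {v : FunN N} (hv : OrdGE Q 0 v) :
    OrdGE Q (-(𝔡.K0 Q : ℤ) - 2) (𝔡.D₀ v) := by
  by_cases hv0 : v = 0
  · rw [hv0, map_zero]; exact OrdGE.zero _ _
  set t := unifAt N Q with htdef
  have ht : Q.ord t = 1 := ord_unifAt N Q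
  have ht0 : t ≠ 0 := unifAt_ne_zero N Q
  obtain ⟨hDt0, hDt⟩ := 𝔡.K0_spec Q t ht
  have hvord : 0 ≤ Q.ord v := hv.le_ord hv0
  have ht2v0 : t * t * v ≠ 0 := mul_ne_zero (mul_ne_zero ht0 ht0) hv0
  have hord2 : Q.ord (t * t * v) = 2 + Q.ord v := by
    rw [Q.ord_mul (mul_ne_zero ht0 ht0) hv0, Q.ord_mul ht0 ht0, ht]; ring
  have ht' : Q.ord (t + t * t * v) = 1 := by
    rw [PlaceAux.ord_add_eq_of_lt Q ht0 ht2v0 (by rw [ht, hord2]; omega), ht]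
  obtain ⟨hDt'0, hDt'⟩ := 𝔡.K0_spec Q (t + t * t * v) ht'
  -- `t² D₀ v = D₀ t' - D₀ t - v (t D₀ t + t D₀ t)`
  have hexp : t * t * 𝔡.D₀ v =
      𝔡.D₀ (t + t * t * v) - 𝔡.D₀ t - v * (t * 𝔡.D₀ t + t * 𝔡.D₀ t) := by
    rw [map_add, 𝔡.D₀_mul (t * t) v, 𝔡.D₀_mul t t]
    ring
  have h1 : OrdGE Q (-(𝔡.K0 Q : ℤ)) (𝔡.D₀ (t + t * t * v)) := Or.inr hDt'.ge
  have h2 : OrdGE Q (-(𝔡.K0 Q : ℤ)) (𝔡.D₀ t) := Or.inr hDt.ge
  have h3 : OrdGE Q (-(𝔡.K0 Q : ℤ)) (t * 𝔡.D₀ t) := by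
    have := (OrdGE.of_le (Q := Q) (f := t) (n := 0) (by omega)).mul h2
    rwa [zero_add] at this
  have h4 : OrdGE Q (-(𝔡.K0 Q : ℤ)) (v * (t * 𝔡.D₀ t + t * 𝔡.D₀ t)) := by
    have := hv.mul (h3.add h3)
    rwa [zero_add] at this
  have h5 : OrdGE Q (-(𝔡.K0 Q : ℤ)) (t * t * 𝔡.D₀ v) := by
    rw [hexp]
    exact (h1.sub h2).sub h4
  by_cases hD0 : 𝔡.D₀ v = 0
  · exact Or.inl hD0
  · right
    have h6 := h5.le_ord (mul_ne_zero (mul_ne_zero ht0 ht0) hD0)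
    rw [Q.ord_mul (mul_ne_zero ht0 ht0) hD0, Q.ord_mul ht0 ht0, ht] at h6
    omega

/-- the bootstrap step. -/
theorem ordGE_D₀_step (Q : PtN N) (k : ℤ) (hk : 0 ≤ k)
    (h : ∀ v : FunN N, OrdGE Q 0 v → OrdGE Q (-(𝔡.K0 Q : ℤ) - (k + 1)) (𝔡.D₀ v))
    {u : FunN N} (hu : OrdGE Q 0 u) : OrdGE Q (-(𝔡.K0 Q : ℤ) - k) (𝔡.D₀ u) := by
  set t := unifAt N Q with htdef
  have ht : Q.ord t = 1 := ord_unifAt N Q
  have ht0 : t ≠ 0 := unifAt_ne_zero N Q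
  obtain ⟨hDt0, hDt⟩ := 𝔡.K0_spec Q t ht
  set c := valN N Q u with hc
  have hval : HasValueAt Q u c := hasValueAt_valN_of_ordGE hu
  set w := u - algebraMap (AlgebraicClosure ℚ) (FunN N) c with hw
  have hDw : 𝔡.D₀ u = 𝔡.D₀ w := by
    rw [hw, map_sub, 𝔡.D₀_const, sub_zero]
  by_cases hw0 : w = 0
  · rw [hDw, hw0, map_zero]; exact OrdGE.zero _ _
  have hword : 0 < Q.ord w := (HasValueAt.iff_ord.mp hval).resolve_left hw0
  set v := w * t⁻¹ with hvdef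
  have hv0 : v ≠ 0 := mul_ne_zero hw0 (inv_ne_zero ht0)
  have hvord : Q.ord v = Q.ord w - 1 := by
    rw [hvdef, Q.ord_mul hw0 (inv_ne_zero ht0), Q.ord_inv, ht]; ring
  have hvge : OrdGE Q 0 v := Or.inr (by omega)
  have hwt : w = t * v := by
    rw [hvdef]; field_simp
  have hexp : 𝔡.D₀ w = t * 𝔡.D₀ v + v * 𝔡.D₀ t := by
    conv_lhs => rw [hwt]
    exact 𝔡.D₀_mul t v
  rw [hDw, hexp]
  apply OrdGE.add
  · have h1 := (OrdGE.of_le (Q := Q) (f := t) (n := 1) (by omega)).mul (h v hvge)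
    exact h1.mono (by omega)
  · have h1 := hvge.mul (OrdGE.of_le (Q := Q) (f := 𝔡.D₀ t) (n := -(𝔡.K0 Q : ℤ)) hDt.ge)
    exact h1.mono (by omega)

/-- **`D₀` maps the local ring at `Q` into `𝔪_Q^{-K0 Q}`.** -/
theorem ordGE_D₀ (Q : PtN N) {u : FunN N} (hu : OrdGE Q 0 u) :
    OrdGE Q (-(𝔡.K0 Q : ℤ)) (𝔡.D₀ u) := by
  have h2 : ∀ v : FunN N, OrdGE Q 0 v → OrdGE Q (-(𝔡.K0 Q : ℤ) - (1 + 1)) (𝔡.D₀ v) := by
    intro v hv
    have := 𝔡.ordGE_D₀_weak Q hv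
    exact this.mono (by omega)
  have h1 : ∀ v : FunN N, OrdGE Q 0 v → OrdGE Q (-(𝔡.K0 Q : ℤ) - (0 + 1)) (𝔡.D₀ v) := by
    intro v hv
    have := 𝔡.ordGE_D₀_step Q 1 (by norm_num) h2 hv
    exact this.mono (by omega)
  have h0 := 𝔡.ordGE_D₀_step Q 0 le_rfl h1 hu
  exact h0.mono (by omega)

/-- the factorisation `f = t^n · u` at a place. -/
theorem exists_unit_factor (Q : PtN N) {t f : FunN N} (ht : Q.ord t = 1) (hf : f ≠ 0) :
    f * t ^ (-(Q.ord f)) ≠ 0 ∧ Q.ord (f * t ^ (-(Q.ord f))) = 0 ∧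
      f = t ^ (Q.ord f) * (f * t ^ (-(Q.ord f))) := by
  have ht0 : t ≠ 0 := by
    intro h0; rw [h0, Place.ord_zero] at ht; exact zero_ne_one ht
  have hz : t ^ (-(Q.ord f)) ≠ 0 := zpow_ne_zero _ ht0
  refine ⟨mul_ne_zero hf hz, ?_, ?_⟩
  · rw [Q.ord_mul hf hz, Q.ord_zpow, ht]; ring
  · rw [mul_comm f, ← mul_assoc, ← zpow_add₀ ht0, add_neg_cancel, zpow_zero, one_mul]

/-- **the order of `D₀ f`** when `ord_Q f ≠ 0`. -/
theorem ord_D₀_eq (Q : PtN N) {f : FunN N} (hf : f ≠ 0) (hn : Q.ord f ≠ 0) :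
    𝔡.D₀ f ≠ 0 ∧ Q.ord (𝔡.D₀ f) = Q.ord f - 1 - (𝔡.K0 Q : ℤ) := by
  set t := unifAt N Q with htdef
  have ht : Q.ord t = 1 := ord_unifAt N Q
  have ht0 : t ≠ 0 := unifAt_ne_zero N Q
  obtain ⟨hDt0, hDt⟩ := 𝔡.K0_spec Q t ht
  set n := Q.ord f with hndef
  obtain ⟨hu0, hu, hfac⟩ := exists_unit_factor Q ht hf
  set u := f * t ^ (-n) with hudef
  have hDu : OrdGE Q (-(𝔡.K0 Q : ℤ)) (𝔡.D₀ u) := 𝔡.ordGE_D₀ Q (Or.inr hu.ge)
  have hnF : ((n : ℤ) : FunN N) ≠ 0 := by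
    have : ((n : ℤ) : FunN N) = algebraMap (AlgebraicClosure ℚ) (FunN N) (n : AlgebraicClosure ℚ) := by
      rw [map_intCast]
    rw [this, Ne, map_eq_zero_iff _ (algebraMap (AlgebraicClosure ℚ) (FunN N)).injective]
    exact_mod_cast hn
  have hnord : Q.ord ((n : ℤ) : FunN N) = 0 := by
    have : ((n : ℤ) : FunN N) = algebraMap (AlgebraicClosure ℚ) (FunN N) (n : AlgebraicClosure ℚ) := by
      rw [map_intCast]
    rw [this, PlaceAux.ord_algebraMap]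
  have hexp : 𝔡.D₀ f = u * ((n : FunN N) * t ^ (n - 1) * 𝔡.D₀ t) + t ^ n * 𝔡.D₀ u := by
    conv_lhs => rw [hfac]
    rw [𝔡.D₀_mul, 𝔡.D₀.leibniz_zpow]
    simp only [zsmul_eq_mul, smul_eq_mul]
    ring
  set A := u * ((n : FunN N) * t ^ (n - 1) * 𝔡.D₀ t) with hA
  have hA0 : A ≠ 0 :=
    mul_ne_zero hu0 (mul_ne_zero (mul_ne_zero hnF (zpow_ne_zero _ ht0)) hDt0)
  have hAord : Q.ord A = n - 1 - (𝔡.K0 Q : ℤ) := by
    rw [hA, Q.ord_mul hu0 (mul_ne_zero (mul_ne_zero hnF (zpow_ne_zero _ ht0)) hDt0),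
      Q.ord_mul (mul_ne_zero hnF (zpow_ne_zero _ ht0)) hDt0,
      Q.ord_mul hnF (zpow_ne_zero _ ht0), hu, hnord, Q.ord_zpow, ht, hDt]
    ring
  by_cases hB0 : t ^ n * 𝔡.D₀ u = 0
  · rw [hexp, hB0, add_zero]
    exact ⟨hA0, hAord⟩
  · have hDu0 : 𝔡.D₀ u ≠ 0 := fun h => hB0 (by rw [h, mul_zero])
    have hBord : n - (𝔡.K0 Q : ℤ) ≤ Q.ord (t ^ n * 𝔡.D₀ u) := by
      rw [Q.ord_mul (zpow_ne_zero _ ht0) hDu0, Q.ord_zpow, ht]
      have := hDu.le_ord hDu0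
      omega
    have hlt : Q.ord A < Q.ord (t ^ n * 𝔡.D₀ u) := by rw [hAord]; omega
    have hsum := PlaceAux.ord_add_eq_of_lt Q hA0 hB0 hlt
    refine ⟨?_, by rw [hexp, hsum, hAord]⟩
    intro h0
    rw [hexp] at h0
    have : Q.ord (A + t ^ n * 𝔡.D₀ u) = 0 := by rw [h0, Place.ord_zero]
    rw [hsum, hAord] at this
    -- then `ord (t^n D₀u) > 0 - ...`; use the valuation directly
    have h1 : A = -(t ^ n * 𝔡.D₀ u) := eq_neg_of_add_eq_zero_left h0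
    have h2 : Q.ord A = Q.ord (t ^ n * 𝔡.D₀ u) := by rw [h1, PlaceAux.ord_neg]
    omega

/-- **`lcN` may be computed with any uniformizer** (at a point where `ω₀` does not vanish). -/
theorem lcN_eq_of_unif_arch (Q : PtN N) (hK : 𝔡.K0 Q = 0) {t : FunN N} (ht : Q.ord t = 1)
    {f : FunN N} (hf : f ≠ 0) :
    𝔡.lcN f Q = valN N Q (f * t ^ (-(Q.ord f))) * (valN N Q (𝔡.D₀ t)) ^ (Q.ord f) := by
  unfold lcN
  by_cases hn : Q.ord f = 0
  · rw [if_pos hn, hn, neg_zero, zpow_zero, mul_one, zpow_zero, mul_one]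
  rw [if_neg hn, if_pos hK]
  set τ := unifAt N Q with hτdef
  have hτ : Q.ord τ = 1 := ord_unifAt N Q
  have hτ0 : τ ≠ 0 := unifAt_ne_zero N Q
  have ht0 : t ≠ 0 := by
    intro h0; rw [h0, Place.ord_zero] at ht; exact zero_ne_one ht
  set n := Q.ord f with hndef
  have hK' : (-(𝔡.K0 Q : ℤ)) = 0 := by rw [hK]; simp
  -- `t = τ w`
  set w := t * τ⁻¹ with hwdef
  have hw0 : w ≠ 0 := mul_ne_zero ht0 (inv_ne_zero hτ0)
  have hword : Q.ord w = 0 := by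
    rw [hwdef, Q.ord_mul ht0 (inv_ne_zero hτ0), Q.ord_inv, ht, hτ]; ring
  have htw : t = τ * w := by rw [hwdef]; field_simp
  have hwge : OrdGE Q 0 w := Or.inr hword.ge
  set c := valN N Q w with hcdef
  have hc0 : c ≠ 0 := valN_ne_zero_of_ord_eq_zero hw0 hword
  have hwval : HasValueAt Q w c := hasValueAt_valN_of_ordGE hwge
  -- the unit part
  obtain ⟨hu0, hu, -⟩ := exists_unit_factor Q hτ hf
  have huval : HasValueAt Q (f * τ ^ (-n)) (valN N Q (f * τ ^ (-n))) :=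
    hasValueAt_valN_of_ordGE (Or.inr hu.ge)
  have h1 : f * t ^ (-n) = (f * τ ^ (-n)) * w ^ (-n) := by
    rw [htw, mul_zpow]; ring
  have hv1 : valN N Q (f * t ^ (-n)) = valN N Q (f * τ ^ (-n)) * c ^ (-n) := by
    rw [h1]
    exact (huval.mul (hasValueAt_zpow hwval hc0 (-n))).valueAt_eq
  -- the derivative
  have hDτ : OrdGE Q 0 (𝔡.D₀ τ) := by
    have := (𝔡.K0_spec Q τ hτ).2
    exact Or.inr (by rw [this, hK'])
  have hDw : OrdGE Q 0 (𝔡.D₀ w) := by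
    have := 𝔡.ordGE_D₀ Q hwge
    rwa [hK'] at this
  have h2 : 𝔡.D₀ t = τ * 𝔡.D₀ w + w * 𝔡.D₀ τ := by
    conv_lhs => rw [htw]
    exact 𝔡.D₀_mul τ w
  have hv2 : valN N Q (𝔡.D₀ t) = c * valN N Q (𝔡.D₀ τ) := by
    rw [h2]
    have ha : HasValueAt Q (τ * 𝔡.D₀ w) 0 := by
      apply hasValueAt_zero_of_ordGE
      have := (OrdGE.of_le (Q := Q) (f := τ) (n := 1) hτ.ge).mul hDw
      simpa using this
    have hb : HasValueAt Q (w * 𝔡.D₀ τ) (c * valN N Q (𝔡.D₀ τ)) :=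
      hwval.mul (hasValueAt_valN_of_ordGE hDτ)
    have := (ha.add hb).valueAt_eq
    rw [zero_add] at this
    exact this
  rw [hv1, hv2, mul_zpow]
  have : c ^ (-n) * c ^ n = 1 := by rw [← zpow_add₀ hc0, neg_add_cancel, zpow_zero]
  calc valN N Q (f * τ ^ (-n)) * valN N Q (𝔡.D₀ τ) ^ n
      = valN N Q (f * τ ^ (-n)) * (c ^ (-n) * c ^ n) * valN N Q (𝔡.D₀ τ) ^ n := by
        rw [this, mul_one]
    _ = valN N Q (f * τ ^ (-n)) * c ^ (-n) * (c ^ n * valN N Q (𝔡.D₀ τ) ^ n) := by ring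

end DiffDatum

end Fermat.Agent.MW
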