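/-
MW / [ARCH] (helper9): the rational differential `ω₀` in the uniformising coordinate:
`W = ω₀/dτ = 2πi · jD / realC (D₀ j)` as an element of `MerH`, its orders at the points of `ℍ`
(`(e - 1) + e · K0`) and at the two cusps.
-/
import Mathlib
import Fermat.Agent.MW.ARCH_helper9_ChartRep
import Fermat.Agent.MW.ARCH_helper9_Diff
import Fermat.Agent.X0N.Dict_helper5_Cusp

set_option autoImplicit false
set_option linter.unusedSectionVars false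

open AlgebraicCurve CongruenceSubgroup MatrixGroups ModularGroup ModularCurve UpperHalfPlane Metric

namespace Fermat.Agent.MW

open Fermat.Agent.FF Fermat.Agent.X0N Fermat.Agent.JA

attribute [local instance] algOmC isScalarTower_algOmC

variable {N : ℕ} [NeZero N] (𝔡 : DiffDatum N)

namespace DiffDatum

/-- `δ = D₀ j = dj/ω₀`. -/
noncomputable def dj : FunN N := 𝔡.D₀ (X0N.jBar N)

theorem dj_spec_inf : 𝔡.dj ≠ 0 ∧ (infN N).ord 𝔡.dj = -2 := by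
  have h := 𝔡.ord_D₀_eq (infN N) (jBar_ne_zero N) (by rw [infN_ord_jBar]; norm_num)
  rw [infN_ord_jBar, 𝔡.K0_inf] at h
  refine ⟨h.1, ?_⟩
  rw [dj, h.2]
  norm_num

theorem dj_ne_zero : 𝔡.dj ≠ 0 := 𝔡.dj_spec_inf.1

theorem D₀_jBar_sub (a : AlgebraicClosure ℚ) :
    𝔡.D₀ (X0N.jBar N - algebraMap (AlgebraicClosure ℚ) (FunN N) a) = 𝔡.dj :=
  𝔡.D₀_sub_algebraMap _ a

/-- the order of `δ` at a point in terms of the order of `j - a`. -/
theorem ord_dj (Q : PtN N) (a : AlgebraicClosure ℚ)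
    (h : 0 < Q.ord (X0N.jBar N - algebraMap (AlgebraicClosure ℚ) (FunN N) a)) :
    Q.ord 𝔡.dj =
      Q.ord (X0N.jBar N - algebraMap (AlgebraicClosure ℚ) (FunN N) a) - 1 - (𝔡.K0 Q : ℤ) := by
  have hne : X0N.jBar N - algebraMap (AlgebraicClosure ℚ) (FunN N) a ≠ 0 := by
    intro h0
    rw [h0, Place.ord_zero] at h
    exact lt_irrefl _ h
  have := (𝔡.ord_D₀_eq Q hne h.ne').2
  rwa [D₀_jBar_sub] at this

theorem ord_dj_zeroN : (zeroN N).ord 𝔡.dj = -(N : ℤ) - 1 - (𝔡.K0 (zeroN N) : ℤ) := by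
  have hN : (N : ℤ) ≠ 0 := by exact_mod_cast NeZero.ne N
  have h := 𝔡.ord_D₀_eq (zeroN N) (jBar_ne_zero N) (by rw [zeroN_ord_jBar]; simpa using hN)
  rw [zeroN_ord_jBar] at h
  exact h.2

/-- `W = ω₀ / dτ`. -/
noncomputable def Wmer : MerH :=
  MerH.const (2 * Real.pi * Complex.I) * MerH.ofHol Dict.jDHol / realC N 𝔡.dj

/-- `W ∘ S` up to the automorphy factor: `2πi · jD / realS (D₀ j)`. -/
noncomputable def WmerS : MerH :=
  MerH.const (2 * Real.pi * Complex.I) * MerH.ofHol Dict.jDHol / realS N 𝔡.dj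

theorem two_pi_I_ne : (2 * Real.pi * Complex.I : ℂ) ≠ 0 := Complex.two_pi_I_ne_zero

theorem const_mul_jD_ne_zero :
    MerH.const (2 * Real.pi * Complex.I) * MerH.ofHol Dict.jDHol ≠ 0 := by
  refine mul_ne_zero ?_ (MerH.ofHol_ne_zero Dict.jDHol_ne_zero)
  intro h
  have := MerH.ordAt_const two_pi_I_ne UpperHalfPlane.I
  have h2 : MerH.const (2 * Real.pi * Complex.I) = MerH.ofHol (HolH.const (2 * Real.pi * Complex.I)) :=
    rfl
  rw [h2] at h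
  have h3 := MerH.ofHol_injective (h.trans (map_zero _).symm)
  exact two_pi_I_ne (HolH.const_injective (by rw [h3, map_zero]))

theorem Wmer_ne_zero : 𝔡.Wmer ≠ 0 :=
  div_ne_zero const_mul_jD_ne_zero (realC_ne_zero N 𝔡.dj_ne_zero)

theorem WmerS_ne_zero : 𝔡.WmerS ≠ 0 :=
  div_ne_zero const_mul_jD_ne_zero (realS_ne_zero N 𝔡.dj_ne_zero)

theorem ordAt_const_mul_jD (τ : ℍ) :
    MerH.ordAt τ (MerH.const (2 * Real.pi * Complex.I) * MerH.ofHol Dict.jDHol) =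
      (HolH.ord τ Dict.jDHol : ℤ) := by
  have hc : MerH.const (2 * Real.pi * Complex.I) ≠ 0 := left_ne_zero_of_mul const_mul_jD_ne_zero
  rw [MerH.ordAt_mul hc (MerH.ofHol_ne_zero Dict.jDHol_ne_zero), MerH.ordAt_const two_pi_I_ne,
    MerH.ordAt_ofHol Dict.jDHol_ne_zero, zero_add]

/-- **the order of `W` at an admissible point**: `(e - 1) + e · K0`. -/
theorem ordAt_Wmer {τ : ℍ} (hτ : τ ∈ admH) :
    MerH.ordAt τ 𝔡.Wmer =
      (stabMult N τ : ℤ) - 1 + (stabMult N τ : ℤ) * (𝔡.K0 (ptH N τ) : ℤ) := by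
  obtain ⟨a, ha⟩ := hτ
  have hτ' : τ ∈ admH := ⟨a, ha⟩
  set t : FunN N := X0N.jBar N - algebraMap (AlgebraicClosure ℚ) (FunN N) a with ht
  have hne : t ≠ 0 := (jCoordK (AlgebraicClosure ℚ) N).x_sub_ne_zero a
  have hpos : 0 < (ptH N τ).ord t := by
    rw [ptH_eq N ha]
    exact hPlace_ord_jGen_sub_pos (N := N) τ a ha
  have h1 := ordAt_realC_eq N hτ' hne
  rw [ht, realC_jBar_sub, MerH.ordAt_ofHol (jHol_sub_const_ne_zero_arch _), ← ha,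
    ← Dict.ord_jDHol_add_one] at h1
  have h2 := ordAt_realC_eq N hτ' 𝔡.dj_ne_zero
  rw [𝔡.ord_dj (ptH N τ) a hpos] at h2
  rw [Wmer, MerH.ordAt_div const_mul_jD_ne_zero (realC_ne_zero N 𝔡.dj_ne_zero), ordAt_const_mul_jD,
    h2]
  push_cast at h1
  rw [← ht] at h1 ⊢
  linear_combination h1

theorem ordAt_Wmer_of_not_admH {τ : ℍ} (hτ : τ ∉ admH) : MerH.ordAt τ 𝔡.Wmer = 0 := by
  rw [Wmer, MerH.ordAt_div const_mul_jD_ne_zero (realC_ne_zero N 𝔡.dj_ne_zero), ordAt_const_mul_jD,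
    ordAt_realC_eq_zero N hτ, sub_zero]
  have h0 : jFun τ ≠ 0 := by
    intro h
    exact hτ ⟨0, by rw [h, map_zero]⟩
  have h1 : jFun τ ≠ 1728 := by
    intro h
    exact hτ ⟨1728, by rw [h, map_ofNat]⟩
  have := Dict.ord_jDHol_add_one τ
  rw [ord_jHol_sub_const_of_ne h0 h1] at this
  have h2 : HolH.ord τ Dict.jDHol = 0 := by omega
  rw [h2]
  rfl

/-! ### the cusps -/

theorem isMerInf_const_mul_jD (h : ℕ) [NeZero h] :
    IsMerInf h (MerH.const (2 * Real.pi * Complex.I) * MerH.ofHol Dict.jDHol) :=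
  (isMerInf_const _).mul (Dict.isMerInf_jDHol h)

theorem ordInf_const_mul_jD (h : ℕ) [NeZero h] :
    MerH.ordInf h (MerH.const (2 * Real.pi * Complex.I) * MerH.ofHol Dict.jDHol) = -(h : ℤ) := by
  have hc : MerH.const (2 * Real.pi * Complex.I) ≠ 0 := left_ne_zero_of_mul const_mul_jD_ne_zero
  rw [MerH.ordInf_mul (isMerInf_const _) (Dict.isMerInf_jDHol h) hc
    (MerH.ofHol_ne_zero Dict.jDHol_ne_zero), MerH.ordInf_const two_pi_I_ne, Dict.ordInf_jDHol,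
    zero_add]

theorem isMerInf_Wmer : IsMerInf 1 𝔡.Wmer :=
  (isMerInf_const_mul_jD 1).mul (isMerInf_realC N 𝔡.dj).inv

theorem ordInf_Wmer : MerH.ordInf 1 𝔡.Wmer = 1 := by
  rw [Wmer, MerH.ordInf_div (isMerInf_const_mul_jD 1) (isMerInf_realC N 𝔡.dj) const_mul_jD_ne_zero
    (realC_ne_zero N 𝔡.dj_ne_zero), ordInf_const_mul_jD, ← infN_ord_eq N 𝔡.dj_ne_zero,
    𝔡.dj_spec_inf.2]
  norm_num

theorem isMerInf_WmerS : IsMerInf N 𝔡.WmerS :=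
  (isMerInf_const_mul_jD N).mul (isMerInf_realS N 𝔡.dj).inv

theorem ordInf_WmerS : MerH.ordInf N 𝔡.WmerS = 1 + (𝔡.K0 (zeroN N) : ℤ) := by
  rw [WmerS, MerH.ordInf_div (isMerInf_const_mul_jD N) (isMerInf_realS N 𝔡.dj)
    const_mul_jD_ne_zero (realS_ne_zero N 𝔡.dj_ne_zero), ordInf_const_mul_jD,
    ← zeroN_ord_eq N 𝔡.dj_ne_zero, 𝔡.ord_dj_zeroN]
  ring

/-! ### transformation behaviour -/

theorem comp_const_mul_jD (γ : SL(2, ℤ)) :
    MerH.comp γ (MerH.const (2 * Real.pi * Complex.I) * MerH.ofHol Dict.jDHol) =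
      MerH.ofHol (Dict.denomHol γ ^ 2) *
        (MerH.const (2 * Real.pi * Complex.I) * MerH.ofHol Dict.jDHol) := by
  have h2 : MerH.comp γ (MerH.ofHol Dict.jDHol) = MerH.ofHol (HolH.comp γ Dict.jDHol) :=
    MerH.comp_algebraMap γ Dict.jDHol
  have h3 : MerH.ofHol (Dict.denomHol γ ^ 2 * Dict.jDHol) =
      MerH.ofHol (Dict.denomHol γ ^ 2) * MerH.ofHol Dict.jDHol := map_mul _ _ _
  rw [map_mul, MerH.comp_const, h2, Dict.comp_jDHol, h3]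
  ring

theorem comp_Wmer {γ : SL(2, ℤ)} (hγ : γ ∈ Gamma0 N) :
    MerH.comp γ 𝔡.Wmer = MerH.ofHol (Dict.denomHol γ ^ 2) * 𝔡.Wmer := by
  rw [Wmer, map_div₀, comp_const_mul_jD]
  have : MerH.comp γ (realC N 𝔡.dj) = realC N 𝔡.dj := comp_realN_of_mem_Gamma0 _ N hγ _
  rw [this, mul_div_assoc]

theorem comp_S_Wmer : MerH.comp S 𝔡.Wmer = MerH.ofHol (Dict.denomHol S ^ 2) * 𝔡.WmerS := by
  rw [Wmer, map_div₀, comp_const_mul_jD, WmerS, realS_apply, mul_div_assoc]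

theorem denomHol_sq_ne_zero (γ : SL(2, ℤ)) : Dict.denomHol γ ^ 2 ≠ 0 :=
  pow_ne_zero _ (Dict.denomHol_ne_zero γ)

theorem ord_denomHol_sq (γ : SL(2, ℤ)) (τ : ℍ) : HolH.ord τ (Dict.denomHol γ ^ 2) = 0 := by
  rw [HolH.ord_eq_zero_iff]
  left
  show denom γ τ ^ 2 ≠ 0
  exact pow_ne_zero _ (denom_ne_zero γ τ)

theorem lc_of_apply_ne_zero {a : HolH} {τ : ℍ} (h : (a : ℍ → ℂ) τ ≠ 0) :
    HolH.lc τ a = (a : ℍ → ℂ) τ := by
  have h1 := (HolH.analyticAt a τ).meromorphicTrailingCoeffAt_of_ne_zero (by simpa using h)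
  rw [HolH.lc, h1]
  simp

theorem lc_denomHol_sq (γ : SL(2, ℤ)) (τ : ℍ) :
    HolH.lc τ (Dict.denomHol γ ^ 2) = denom γ τ ^ 2 :=
  lc_of_apply_ne_zero (a := Dict.denomHol γ ^ 2) (pow_ne_zero _ (denom_ne_zero γ τ))

/-- `log ‖W‖` (through the trailing coefficient). -/
noncomputable def logW (τ : ℍ) : ℝ := Real.log ‖tcAt τ 𝔡.Wmer‖

theorem ordAt_Wmer_smul {γ : SL(2, ℤ)} (hγ : γ ∈ Gamma0 N) (τ : ℍ) :
    MerH.ordAt (γ • τ) 𝔡.Wmer = MerH.ordAt τ 𝔡.Wmer := by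
  rw [← MerH.ordAt_comp, 𝔡.comp_Wmer hγ,
    MerH.ordAt_mul (MerH.ofHol_ne_zero (denomHol_sq_ne_zero γ)) 𝔡.Wmer_ne_zero,
    MerH.ordAt_ofHol (denomHol_sq_ne_zero γ), ord_denomHol_sq]
  simp

/-- **weight two transformation of `log ‖W‖`** at points where `W` has neither zero nor pole. -/
theorem logW_smul {γ : SL(2, ℤ)} (hγ : γ ∈ Gamma0 N) {τ : ℍ} (h0 : MerH.ordAt τ 𝔡.Wmer = 0) :
    𝔡.logW (γ • τ) = 𝔡.logW τ + 2 * Real.log ‖denom γ τ‖ := by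
  have h1 := log_norm_tcAt_comp γ 𝔡.Wmer_ne_zero τ
  rw [𝔡.ordAt_Wmer_smul hγ, h0, 𝔡.comp_Wmer hγ, tcAt_mul, tcAt_ofHol, lc_denomHol_sq, norm_mul,
    Real.log_mul (norm_ne_zero_iff.mpr (pow_ne_zero _ (denom_ne_zero γ τ)))
      (norm_ne_zero_iff.mpr (tcAt_ne_zero 𝔡.Wmer_ne_zero τ)), norm_pow, Real.log_pow] at h1
  unfold logW
  push_cast at h1
  linarith

theorem denom_S (τ : ℍ) : denom S τ = (τ : ℂ) := by
  simp [denom, S]

theorem ordAt_WmerS (τ' : ℍ) : MerH.ordAt τ' 𝔡.WmerS = MerH.ordAt (S • τ') 𝔡.Wmer := by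
  rw [← MerH.ordAt_comp, 𝔡.comp_S_Wmer,
    MerH.ordAt_mul (MerH.ofHol_ne_zero (denomHol_sq_ne_zero S)) 𝔡.WmerS_ne_zero,
    MerH.ordAt_ofHol (denomHol_sq_ne_zero S), ord_denomHol_sq]
  simp

/-- `log ‖W ∘ S‖ = log ‖W_S‖ + 2 log ‖τ'‖` at points where `W` has neither zero nor pole. -/
theorem logW_S_smul {τ' : ℍ} (h0 : MerH.ordAt (S • τ') 𝔡.Wmer = 0) :
    𝔡.logW (S • τ') = Real.log ‖tcAt τ' 𝔡.WmerS‖ + 2 * Real.log ‖(τ' : ℂ)‖ := by
  have h1 := log_norm_tcAt_comp S 𝔡.Wmer_ne_zero τ'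
  rw [h0, 𝔡.comp_S_Wmer, tcAt_mul, tcAt_ofHol, lc_denomHol_sq, denom_S, norm_mul,
    Real.log_mul (norm_ne_zero_iff.mpr (pow_ne_zero _ (ne_zero τ')))
      (norm_ne_zero_iff.mpr (tcAt_ne_zero 𝔡.WmerS_ne_zero τ')), norm_pow, Real.log_pow] at h1
  unfold logW
  push_cast at h1
  linarith

end DiffDatum

end Fermat.Agent.MW
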