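/-
MW / [ARCH] (helper9): the dictionary for the `ω₀`-normalised leading coefficient `lcN`:
at a generic finite point `Q = pt τ` (non-elliptic, not a zero of `ω₀`):
`lg (lcN f Q) = log ‖tcAt τ (realC f)‖ - ord_Q f · log ‖W τ‖`; at the cusp `∞`:
`lg (lcN f ∞) + ord_∞ f · rInf₀ = log ‖lcInf (realC f)‖`.
-/
import Mathlib
import Fermat.Agent.MW.ARCH_helper9_Omega

set_option autoImplicit false
set_option linter.unusedSectionVars false

open AlgebraicCurve CongruenceSubgroup MatrixGroups ModularGroup ModularCurve UpperHalfPlane Metric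

namespace Fermat.Agent.MW

open Fermat.Agent.FF Fermat.Agent.X0N Fermat.Agent.JA

attribute [local instance] algOmC isScalarTower_algOmC

variable {N : ℕ} [NeZero N] (𝔡 : DiffDatum N)

/-! ### the derivative of `j` at generic points -/

theorem jD_ne_zero_of_generic {τ : ℍ} (h0 : jFun τ ≠ 0) (h1 : jFun τ ≠ 1728) : Dict.jD τ ≠ 0 := by
  have h := Dict.ord_jDHol_add_one τ
  rw [ord_jHol_sub_const_of_ne h0 h1] at h
  have h2 : HolH.ord τ Dict.jDHol = 0 := by omega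
  rcases (HolH.ord_eq_zero_iff _ _).mp h2 with h3 | h3
  · exact h3
  · exact absurd h3 Dict.jDHol_ne_zero

theorem lc_jHol_sub {τ : ℍ} (h0 : jFun τ ≠ 0) (h1 : jFun τ ≠ 1728) :
    HolH.lc τ (jHol - HolH.const (jFun τ)) = 2 * Real.pi * Complex.I * Dict.jD τ := by
  have hg : AnalyticAt ℂ (jFun ∘ ofComplex) (τ : ℂ) := analyticAt_comp_ofComplex mdiff_jFun τ
  have hd : deriv (jFun ∘ ofComplex) (τ : ℂ) = 2 * Real.pi * Complex.I * Dict.jD τ := by
    rw [deriv_comp_ofComplex, Dict.jD_eq_D_jFun]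
  have hd0 : deriv (jFun ∘ ofComplex) (τ : ℂ) ≠ 0 := by
    rw [hd]
    exact mul_ne_zero Complex.two_pi_I_ne_zero (jD_ne_zero_of_generic h0 h1)
  have h := tc_sub_of_deriv_ne_zero hg hd0
  rw [hd] at h
  rw [← h, HolH.lc]
  congr 1
  ext w
  simp [jHol]

theorem lc_jDHol {τ : ℍ} (h0 : jFun τ ≠ 0) (h1 : jFun τ ≠ 1728) :
    HolH.lc τ Dict.jDHol = Dict.jD τ :=
  DiffDatum.lc_of_apply_ne_zero (a := Dict.jDHol) (jD_ne_zero_of_generic h0 h1)

/-- at a generic point, `W = (j - a)'/ (D₀ j)` in terms of trailing coefficients. -/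
theorem tcAt_Wmer_generic {τ : ℍ} {a : AlgebraicClosure ℚ}
    (ha : jFun τ = algebraMap (AlgebraicClosure ℚ) ℂ a) (h0 : jFun τ ≠ 0) (h1 : jFun τ ≠ 1728) :
    tcAt τ 𝔡.Wmer =
      tcAt τ (realC N (X0N.jBar N - algebraMap (AlgebraicClosure ℚ) (FunN N) a)) /
        tcAt τ (realC N 𝔡.dj) := by
  rw [DiffDatum.Wmer, div_eq_mul_inv, tcAt_mul, tcAt_inv, tcAt_mul, tcAt_const DiffDatum.two_pi_I_ne,
    tcAt_ofHol, lc_jDHol h0 h1, realC_jBar_sub, tcAt_ofHol, ← ha, lc_jHol_sub h0 h1, div_eq_mul_inv]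

/-! ### the dictionary at generic finite points -/

/-- **`lcN` at a generic finite point.** -/
theorem lg_lcN_generic {τ : ℍ} {a : AlgebraicClosure ℚ}
    (ha : jFun τ = algebraMap (AlgebraicClosure ℚ) ℂ a) (h0 : jFun τ ≠ 0) (h1 : jFun τ ≠ 1728)
    (hK : 𝔡.K0 (ptH N τ) = 0) {f : FunN N} (hf : f ≠ 0) :
    lg none (𝔡.lcN f (ptH N τ)) =
      Real.log ‖tcAt τ (realC N f)‖ - ((ptH N τ).ord f : ℝ) * 𝔡.logW τ := by
  set Q := ptH N τ with hQ
  have hτ : τ ∈ admH := ⟨a, ha⟩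
  set t : FunN N := X0N.jBar N - algebraMap (AlgebraicClosure ℚ) (FunN N) a with ht
  have htne : t ≠ 0 := (jCoordK (AlgebraicClosure ℚ) N).x_sub_ne_zero a
  have hstab : stabMult N τ = 1 := stabMult_generic h0 h1
  -- `t` is a uniformizer at `Q`
  have hordt : Q.ord t = 1 := by
    have h2 := ordAt_realC_eq N hτ htne
    rw [ht, realC_jBar_sub, MerH.ordAt_ofHol (jHol_sub_const_ne_zero_arch _), ← ha,
      ord_jHol_sub_const_of_ne h0 h1, hstab] at h2
    simpa using h2.symm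
  have hpos : 0 < Q.ord t := by rw [hordt]; norm_num
  -- the order and value of `δ`
  have horddj : Q.ord 𝔡.dj = 0 := by
    rw [𝔡.ord_dj Q a hpos, ← ht, hordt, hK]
    simp
  set n := Q.ord f with hn
  obtain ⟨hu0, hu, hfac⟩ := DiffDatum.exists_unit_factor Q hordt hf
  set u := f * t ^ (-n) with hudef
  set c := valN N Q u with hc
  have hc0 : c ≠ 0 := valN_ne_zero Q hu0 hu
  have hvu : HasValueAt Q u c := valN_spec Q (Or.inr hu.ge)
  set d := valN N Q 𝔡.dj with hd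
  have hd0 : d ≠ 0 := valN_ne_zero Q 𝔡.dj_ne_zero horddj
  have hvd : HasValueAt Q 𝔡.dj d := valN_spec Q (Or.inr horddj.ge)
  -- the algebraic side
  have hlc : 𝔡.lcN f Q = c * d ^ n := by
    rw [𝔡.lcN_eq_of_unif hK hordt hf, 𝔡.D₀_jBar_sub]
  -- the analytic side
  have hQ' : Q = hPlace (N := N) τ a ha := ptH_eq N ha
  rw [hQ'] at hvu hvd
  have h3 := tcAt_realN_eq (N := N) τ a ha hc0 hfac hvu
  have h4 := (tcAt_realN_of_hasValueAt (N := N) τ a ha hd0 hvd).2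
  have h3' : tcAt τ (realC N f) = tcAt τ (realC N t) ^ n * algebraMap (AlgebraicClosure ℚ) ℂ c := h3
  have h4' : tcAt τ (realC N 𝔡.dj) = algebraMap (AlgebraicClosure ℚ) ℂ d := h4
  have hlgc : lg none c = Real.log ‖algebraMap (AlgebraicClosure ℚ) ℂ c‖ := rfl
  have hlgd : lg none d = Real.log ‖algebraMap (AlgebraicClosure ℚ) ℂ d‖ := rfl
  have htc0 : tcAt τ (realC N t) ≠ 0 := tcAt_ne_zero (realC_ne_zero N htne) τ
  have hιc : algebraMap (AlgebraicClosure ℚ) ℂ c ≠ 0 := by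
    rwa [Ne, map_eq_zero_iff _ (algebraMap (AlgebraicClosure ℚ) ℂ).injective]
  have hιd : algebraMap (AlgebraicClosure ℚ) ℂ d ≠ 0 := by
    rwa [Ne, map_eq_zero_iff _ (algebraMap (AlgebraicClosure ℚ) ℂ).injective]
  rw [hlc, lg_mul none hc0 (zpow_ne_zero _ hd0), lg_zpow, DiffDatum.logW,
    tcAt_Wmer_generic 𝔡 ha h0 h1, ← ht, h3', h4', norm_mul, norm_zpow, norm_div,
    Real.log_mul (zpow_ne_zero _ (norm_ne_zero_iff.mpr htc0)) (norm_ne_zero_iff.mpr hιc),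
    Real.log_zpow, Real.log_div (norm_ne_zero_iff.mpr htc0) (norm_ne_zero_iff.mpr hιd),
    hlgc, hlgd]
  ring

/-! ### the dictionary at the cusp `∞` -/

section Inf

variable {h : ℕ} [NeZero h]

theorem lcInf_one : MerH.lcInf h (1 : MerH) = 1 := by
  have h1 := MerH.lcInf_mul (h := h) isMerInf_one isMerInf_one
  rw [mul_one] at h1
  have h2 : MerH.lcInf h (1 : MerH) ≠ 0 := MerH.lcInf_ne_zero isMerInf_one one_ne_zero
  field_simp at h1
  exact h1.symm

theorem lcInf_inv {x : MerH} (hx : IsMerInf h x) (hx0 : x ≠ 0) :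
    MerH.lcInf h x⁻¹ = (MerH.lcInf h x)⁻¹ := by
  have h1 := MerH.lcInf_mul hx hx.inv
  rw [mul_inv_cancel₀ hx0, lcInf_one] at h1
  exact eq_inv_of_mul_eq_one_right h1.symm

theorem isMerInf_zpow {x : MerH} (hx : IsMerInf h x) (hx0 : x ≠ 0) (n : ℤ) :
    IsMerInf h (x ^ n) := by
  induction n using Int.induction_on with
  | zero => simpa using isMerInf_one
  | succ n ih => rw [zpow_add_one₀ hx0]; exact ih.mul hx
  | pred n ih => rw [zpow_sub_one₀ hx0]; exact ih.mul hx.inv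

theorem lcInf_zpow {x : MerH} (hx : IsMerInf h x) (hx0 : x ≠ 0) (n : ℤ) :
    MerH.lcInf h (x ^ n) = MerH.lcInf h x ^ n := by
  have hl0 : MerH.lcInf h x ≠ 0 := MerH.lcInf_ne_zero hx hx0
  induction n using Int.induction_on with
  | zero => simpa using lcInf_one
  | succ n ih =>
    rw [zpow_add_one₀ hx0, MerH.lcInf_mul (isMerInf_zpow hx hx0 _) hx, ih, zpow_add_one₀ hl0]
  | pred n ih =>
    rw [zpow_sub_one₀ hx0, MerH.lcInf_mul (isMerInf_zpow hx hx0 _) hx.inv, ih, lcInf_inv hx hx0,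
      zpow_sub_one₀ hl0]

end Inf

theorem infN_ord_jBar_inv : (infN N).ord (X0N.jBar N)⁻¹ = 1 := by
  rw [Place.ord_inv, infN_ord_jBar]
  norm_num

namespace DiffDatum

/-- the normalisation constant of `lcN` at `∞`. -/
noncomputable def rInf₀ : ℝ :=
  Real.log ‖MerH.lcInf 1 (realC N (X0N.jBar N)⁻¹)‖ -
    lg none (valN N (infN N) (𝔡.D₀ (X0N.jBar N)⁻¹))

/-- **`lcN` at the cusp `∞`.** -/
theorem lg_lcN_inf {f : FunN N} (hf : f ≠ 0) :
    lg none (𝔡.lcN f (infN N)) + ((infN N).ord f : ℝ) * 𝔡.rInf₀ =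
      Real.log ‖MerH.lcInf 1 (realC N f)‖ := by
  set Q := infN N with hQ
  set t : FunN N := (X0N.jBar N)⁻¹ with ht
  have hordt : Q.ord t = 1 := infN_ord_jBar_inv
  have htne : t ≠ 0 := inv_ne_zero (jBar_ne_zero N)
  set n := Q.ord f with hn
  obtain ⟨hu0, hu, hfac⟩ := DiffDatum.exists_unit_factor Q hordt hf
  set u := f * t ^ (-n) with hudef
  set c := valN N Q u with hc
  have hc0 : c ≠ 0 := valN_ne_zero Q hu0 hu
  have hvu : HasValueAt Q u c := valN_spec Q (Or.inr hu.ge)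
  have hDt := 𝔡.K0_spec Q t hordt
  have hordD : Q.ord (𝔡.D₀ t) = 0 := by
    rw [hDt.2, 𝔡.K0_inf]
    simp
  set d := valN N Q (𝔡.D₀ t) with hd
  have hd0 : d ≠ 0 := valN_ne_zero Q hDt.1 hordD
  have hlc : 𝔡.lcN f Q = c * d ^ n := 𝔡.lcN_eq_of_unif 𝔡.K0_inf hordt hf
  obtain ⟨-, h2⟩ := inf_value_dict N hc0 hvu
  have hreal : realC N f = realC N t ^ n * realC N u := by
    conv_lhs => rw [hfac]
    rw [map_mul, map_zpow₀]
  have hlcf : MerH.lcInf 1 (realC N f) =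
      MerH.lcInf 1 (realC N t) ^ n * algebraMap (AlgebraicClosure ℚ) ℂ c := by
    rw [hreal, MerH.lcInf_mul (isMerInf_zpow (isMerInf_realC N t) (realC_ne_zero N htne) n)
      (isMerInf_realC N u), lcInf_zpow (isMerInf_realC N t) (realC_ne_zero N htne), h2]
  have hl0 : MerH.lcInf 1 (realC N t) ≠ 0 :=
    MerH.lcInf_ne_zero (isMerInf_realC N t) (realC_ne_zero N htne)
  have hιc : algebraMap (AlgebraicClosure ℚ) ℂ c ≠ 0 := by
    rwa [Ne, map_eq_zero_iff _ (algebraMap (AlgebraicClosure ℚ) ℂ).injective]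
  have hlgc : lg none c = Real.log ‖algebraMap (AlgebraicClosure ℚ) ℂ c‖ := rfl
  rw [hlc, lg_mul none hc0 (zpow_ne_zero _ hd0), lg_zpow, hlcf, norm_mul, norm_zpow,
    Real.log_mul (zpow_ne_zero _ (norm_ne_zero_iff.mpr hl0)) (norm_ne_zero_iff.mpr hιc),
    Real.log_zpow, rInf₀, hlgc]
  ring

end DiffDatum

end Fermat.Agent.MW
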