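/-
MW / [ARCH] (helper9): the archimedean regularisation `archR`, the regularised function
`archU f D Q = Σ_P D P · (γ or r) + lg (lcN f Q)`, its local representation in the charts
(`weil_local`), and (A3) through the chain theorem.
-/
import Mathlib
import Fermat.Agent.MW.ARCH_helper9_LcDict
import Fermat.Agent.MW.ARCH_helper9_Chain2
import Fermat.Agent.MW.ARCH_helper9_Bad

set_option autoImplicit false
set_option linter.unusedSectionVars false

open AlgebraicCurve CongruenceSubgroup MatrixGroups ModularGroup ModularCurve UpperHalfPlane Metric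

namespace Fermat.Agent.MW

open Fermat.Agent.FF Fermat.Agent.X0N Fermat.Agent.JA

attribute [local instance] algOmC isScalarTower_algOmC

/-! ### bookkeeping -/

theorem sum_ite_eq_mul {X : Type*} [DecidableEq X] (D : X →₀ ℤ) (Q : X) (c : ℝ) :
    (∑ P ∈ D.support, (if P = Q then (D P : ℝ) * c else 0)) = (D Q : ℝ) * c := by
  rw [Finset.sum_ite_eq']
  split_ifs with h
  · rfl
  · rw [Finsupp.notMem_support_iff.mp h]
    simp

theorem abs_weil_sum_le {X : Type*} [DecidableEq X] (D : X →₀ ℤ) (Q : X) (a b : X → ℝ)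
    (rQ lc logG corr L : ℝ)
    (h1 : (D Q : ℝ) * rQ + lc = logG + (∑ P ∈ D.support, (D P : ℝ) * b P) + (D Q : ℝ) * corr)
    (h2 : ∀ P, P ≠ Q → |a P + b P| ≤ L) (h3 : D Q ≠ 0 → |b Q + corr| ≤ L) :
    |(∑ P ∈ D.support, (D P : ℝ) * (if P = Q then rQ else a P)) + lc - logG| ≤
      (dnorm D : ℝ) * L := by
  have e1 : (∑ P ∈ D.support, (D P : ℝ) * (if P = Q then rQ else a P)) =
      (∑ P ∈ D.support, (D P : ℝ) * (if P = Q then 0 else a P)) + (D Q : ℝ) * rQ := by
    rw [← sum_ite_eq_mul D Q rQ, ← Finset.sum_add_distrib]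
    refine Finset.sum_congr rfl fun P _ => ?_
    split_ifs <;> ring
  have e2 : (∑ P ∈ D.support, (D P : ℝ) * (if P = Q then 0 else a P)) +
      (∑ P ∈ D.support, (D P : ℝ) * b P) + (D Q : ℝ) * corr =
      ∑ P ∈ D.support, (D P : ℝ) * (if P = Q then b Q + corr else a P + b P) := by
    rw [← sum_ite_eq_mul D Q corr, ← Finset.sum_add_distrib, ← Finset.sum_add_distrib]
    refine Finset.sum_congr rfl fun P _ => ?_
    split_ifs with h
    · rw [h]; ring
    · ring
  have e3 : (∑ P ∈ D.support, (D P : ℝ) * (if P = Q then rQ else a P)) + lc - logG =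
      ∑ P ∈ D.support, (D P : ℝ) * (if P = Q then b Q + corr else a P + b P) := by
    rw [← e2, e1]
    linarith
  rw [e3]
  have e4 : ((dnorm D : ℤ) : ℝ) * L = ∑ P ∈ D.support, |(D P : ℝ)| * L := by
    rw [dnorm, Finsupp.sum, ← Finset.sum_mul]
    push_cast
    rfl
  rw [e4]
  refine (Finset.abs_sum_le_sum_abs _ _).trans (Finset.sum_le_sum fun P hP => ?_)
  rw [abs_mul]
  refine mul_le_mul_of_nonneg_left ?_ (abs_nonneg _)
  split_ifs with h
  · apply h3
    rw [← h]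
    exact Finsupp.mem_support_iff.mp hP
  · exact h2 P h

/-! ### the exceptional set -/

variable {N : ℕ} [NeZero N]

/-- what the archimedean package needs from the exceptional set `Zp`. -/
structure ZpOK (𝔡 : DiffDatum N) (Zp : Finset (PtN N)) : Prop where
  inf : infN N ∉ Zp
  K0 : ∀ Q ∈ 𝔡.K0.support, Q ∈ Zp
  bad : ∀ Q, ArchBad N Q → Q ∈ Zp

variable {𝔡 : DiffDatum N} {Zp : Finset (PtN N)}

theorem ZpOK.K0_eq_zero (h : ZpOK 𝔡 Zp) {Q : PtN N} (hQ : Q ∉ Zp) : 𝔡.K0 Q = 0 := by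
  by_contra h0
  exact hQ (h.K0 Q (Finsupp.mem_support_iff.mpr h0))

theorem ZpOK.zeroN_mem (h : ZpOK 𝔡 Zp) (hN : N.Prime) : zeroN N ∈ Zp := by
  apply h.bad
  refine ⟨(infN_ne_zeroN N hN).symm, Or.inl ?_⟩
  rw [zeroN_ord_jBar]
  have : (0 : ℤ) < N := by exact_mod_cast Nat.pos_of_ne_zero (NeZero.ne N)
  omega

/-- **points outside `Zp` are generic.** -/
theorem ZpOK.generic (h : ZpOK 𝔡 Zp) {τ : ℍ} (hτ : τ ∈ admH) (hQ : ptH N τ ∉ Zp) :
    jFun τ ≠ 0 ∧ jFun τ ≠ 1728 ∧ 𝔡.K0 (ptH N τ) = 0 ∧ stabMult N τ = 1 ∧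
      MerH.ordAt τ 𝔡.Wmer = 0 := by
  obtain ⟨a, ha⟩ := hτ
  have hτ' : τ ∈ admH := ⟨a, ha⟩
  have hpos : 0 < (ptH N τ).ord (X0N.jBar N - algebraMap (AlgebraicClosure ℚ) (FunN N) a) := by
    rw [ptH_eq N ha]
    exact hPlace_ord_jGen_sub_pos (N := N) τ a ha
  have h0 : jFun τ ≠ 0 := by
    intro h0
    have ha0 : a = 0 := by
      apply (algebraMap (AlgebraicClosure ℚ) ℂ).injective
      rw [← ha, h0, map_zero]
    rw [ha0, map_zero, sub_zero] at hpos
    exact hQ (h.bad _ ⟨ptH_ne_infN N hτ', Or.inr (Or.inl hpos)⟩)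
  have h1 : jFun τ ≠ 1728 := by
    intro h1
    have ha1 : a = 1728 := by
      apply (algebraMap (AlgebraicClosure ℚ) ℂ).injective
      rw [← ha, h1, map_ofNat]
    rw [ha1, map_ofNat] at hpos
    exact hQ (h.bad _ ⟨ptH_ne_infN N hτ', Or.inr (Or.inr hpos)⟩)
  have hK := h.K0_eq_zero hQ
  have hs : stabMult N τ = 1 := stabMult_generic h0 h1
  refine ⟨h0, h1, hK, hs, ?_⟩
  rw [𝔡.ordAt_Wmer hτ', hs, hK]
  simp

/-! ### the regularisation `r` -/

/-- the archimedean regularisation: `log ‖ω₀/dτ‖ + ϱ` at the finite points, the normalisation of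
the chart at `∞`. -/
noncomputable def archR (𝔡 : DiffDatum N) (sInf : ℝ) (ϱ : ℍ → ℝ) (Q : PtN N) : ℝ :=
  open Classical in
  if Q = infN N then 𝔡.rInf₀ + Real.log sInf
  else if h : ∃ τ, τ ∈ admH ∧ ptH N τ = Q then
    𝔡.logW (Classical.choose h) + ϱ (Classical.choose h)
  else 0

theorem archR_inf (sInf : ℝ) (ϱ : ℍ → ℝ) :
    archR 𝔡 sInf ϱ (infN N) = 𝔡.rInf₀ + Real.log sInf := by
  unfold archR
  rw [if_pos rfl]

theorem archR_eq (sInf : ℝ) {ϱ : ℍ → ℝ}
    (hϱ : ∀ g ∈ Gamma0 N, ∀ τ : ℍ, ϱ (g • τ) = ϱ τ - 2 * Real.log ‖denom g τ‖)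
    {τ : ℍ} (hτ : τ ∈ admH) (h0 : MerH.ordAt τ 𝔡.Wmer = 0) :
    archR 𝔡 sInf ϱ (ptH N τ) = 𝔡.logW τ + ϱ τ := by
  have hex : ∃ τ', τ' ∈ admH ∧ ptH N τ' = ptH N τ := ⟨τ, hτ, rfl⟩
  unfold archR
  rw [if_neg (ptH_ne_infN N hτ), dif_pos hex]
  obtain ⟨hτ', he⟩ := Classical.choose_spec hex
  set τ' := Classical.choose hex with hτ'def
  obtain ⟨g, hg, hgτ⟩ := (ptH_eq_iff N hτ hτ').mp he.symm
  rw [← hgτ, 𝔡.logW_smul hg h0, hϱ g hg τ]
  ring

/-- the regularised function of (A3). -/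
noncomputable def archU (𝔡 : DiffDatum N) (γ : PtN N → PtN N → ℝ) (r : PtN N → ℝ) (f : FunN N)
    (D : PtN N →₀ ℤ) (Q : PtN N) : ℝ :=
  (∑ P ∈ D.support, (D P : ℝ) * (if P = Q then r Q else γ P Q)) + lg none (𝔡.lcN f Q)

/-! ### the local representation of `archU` -/

section Local

variable (hN : N.Prime) {P : ChartParams N} (G : GeomPkg (unifN N hN) P)

theorem GeomPkg.pt_eq (α : ChartIdx) (z : ℂ) :
    G.atlas.pt α z = chartPt (unifN N hN) P α z := congrFun (congrFun G.atlas_pt α) z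

theorem GeomPkg.mem_A_iff (α : ChartIdx) (z : ℂ) :
    z ∈ G.atlas.A α ↔ z ∈ chartA (unifN N hN) P α := by rw [G.atlas_A]

/-- the fibre of the chart at `∞` over the cusp `∞` is the centre. -/
theorem locSum_inf_inf : G.atlas.locSum ChartIdx.inf (infN N) 0 = 0 := by
  unfold ArchAtlas.locSum
  apply Finset.sum_eq_zero
  intro u hu
  rw [ArchAtlas.mem_fib, G.mem_A_iff, G.pt_eq] at hu
  have hu0 : u = 0 := by
    by_contra hne
    rcases hu.1 with h | h
    · exact hne h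
    · have : chartPt (unifN N hN) P ChartIdx.inf u = ptH N (P.lift ChartIdx.inf u) := by
        simp [chartPt, unifN, hne]
      rw [this] at hu
      exact ptH_ne_infN N h hu.2.1
  rw [hu0]
  simp

theorem chartPt_of_not_isCusp {α : ChartIdx} {z : ℂ} (hc : ¬ α.IsCusp z) :
    chartPt (unifN N hN) P α z = ptH N (P.lift α z) := by
  cases α with
  | H => rfl
  | inf =>
    have : z ≠ 0 := hc
    simp [chartPt, unifN, this]
  | zero =>
    have : z ≠ 0 := hc
    simp [chartPt, unifN, this]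

theorem lift_mem_admH {α : ChartIdx} {z : ℂ} (hc : ¬ α.IsCusp z)
    (hz : z ∈ chartA (unifN N hN) P α) : P.lift α z ∈ admH := by
  cases α with
  | H => exact hz
  | inf =>
    rcases hz with h | h
    · exact absurd h hc
    · exact h
  | zero =>
    rcases hz with h | h
    · exact absurd h hc
    · exact h

theorem chartPt_of_isCusp_inf : chartPt (unifN N hN) P ChartIdx.inf 0 = infN N := by
  simp [chartPt, unifN]

theorem chartPt_of_isCusp_zero : chartPt (unifN N hN) P ChartIdx.zero 0 = zeroN N := by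
  simp [chartPt, unifN]

/-- **the local representation of `archU`.** -/
theorem weil_local (h : ZpOK 𝔡 Zp) {f : FunN N} (hf : f ≠ 0) {D : PtN N →₀ ℤ}
    (hD : IsDivOf N f D) (α : ChartIdx) {Gα : ℂ → ℂ}
    (hrep : ∀ z ∈ closedBall (0 : ℂ) P.r₂, chartLgn P α z f =
      Real.log ‖Gα z‖ + ∑ Q ∈ D.support, (D Q : ℝ) * G.atlas.locSum α Q z)
    {z : ℂ} (hz : z ∈ G.atlas.A α) (hz1 : ‖z‖ ≤ G.atlas.r₁)
    (hQ : D (G.atlas.pt α z) = 0 ∨ G.atlas.pt α z ∉ Zp) :
    |archU 𝔡 G.γ (archR 𝔡 P.sInf G.ϱ) f D (G.atlas.pt α z) - Real.log ‖Gα z‖| ≤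
      (dnorm D : ℝ) * G.L := by
  classical
  set Q := G.atlas.pt α z with hQdef
  have hpt : Q = chartPt (unifN N hN) P α z := G.pt_eq hN α z
  have hzA : z ∈ chartA (unifN N hN) P α := (G.mem_A_iff hN α z).mp hz
  have hz1' : ‖z‖ ≤ P.r₁ := by rw [← G.atlas_r₁]; exact hz1
  have hz2 : ‖z‖ ≤ P.r₂ := hz1'.trans P.hr₁₂.le
  have hzb : z ∈ closedBall (0 : ℂ) P.r₂ := by rwa [mem_closedBall, dist_zero_right]
  set corr : ℝ := if D Q = 0 then 0 else
    (if α.IsCusp z then 0 else G.ϱ (P.lift α z) - Real.log (P.deriv α z)) with hcorr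
  unfold archU
  refine abs_weil_sum_le D Q (fun P' => G.γ P' Q) (fun P' => G.atlas.locSum α P' z) _ _ _ corr G.L
    ?_ ?_ ?_
  · -- the main identity
    rw [← hrep z hzb]
    by_cases hD0 : D Q = 0
    · have hord : Q.ord f = 0 := by rw [← hD Q]; exact hD0
      have hlc : 𝔡.lcN f Q = valN N Q f := by
        unfold DiffDatum.lcN
        rw [if_pos hord]
      rw [hcorr, if_pos hD0, hD0, hlc, hpt,
        chartLgn_of_ord_eq_zero hN P hzA hz2 hf (by rw [← hpt]; exact hord)]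
      simp
    · have hQZ : Q ∉ Zp := by
        rcases hQ with h0 | h0
        · exact absurd h0 hD0
        · exact h0
      rw [hcorr, if_neg hD0]
      by_cases hc : α.IsCusp z
      · rw [if_pos hc]
        cases α with
        | H => exact absurd hc (by simp [ChartIdx.IsCusp])
        | inf =>
          have hz0 : z = 0 := hc
          subst hz0
          have hQinf : Q = infN N := by rw [hpt, chartPt_of_isCusp_inf]
          rw [hQinf, archR_inf, hD (infN N)]
          have h1 := 𝔡.lg_lcN_inf hf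
          show _ = cuspLgn 1 P.sInf (realC N f) 0 + _
          rw [cuspLgn_zero, ← infN_ord_eq N hf]
          linarith
        | zero =>
          have hz0 : z = 0 := hc
          subst hz0
          have hQz : Q = zeroN N := by rw [hpt, chartPt_of_isCusp_zero]
          exact absurd (h.zeroN_mem hN) (by rw [← hQz]; exact hQZ)
      · rw [if_neg hc]
        have hτ : P.lift α z ∈ admH := lift_mem_admH hN hc hzA
        have hQτ : Q = ptH N (P.lift α z) := by rw [hpt, chartPt_of_not_isCusp hN hc]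
        obtain ⟨a, ha⟩ := hτ
        have hτ' : P.lift α z ∈ admH := ⟨a, ha⟩
        obtain ⟨g0, g1, gK, gs, gW⟩ := h.generic hτ' (by rw [← hQτ]; exact hQZ)
        rw [hQτ, archR_eq P.sInf G.ϱ_smul hτ' gW, lg_lcN_generic 𝔡 ha g0 g1 gK hf,
          chartLgn_of_not_isCusp P hc hz2 hf, ordAt_realC_eq N hτ' hf, gs, hD]
        push_cast
        ring
  · intro P' hP'
    exact G.hγ α z hz hz1 P' hP'
  · intro hD0
    have hQZ : Q ∉ Zp := by
      rcases hQ with h0 | h0
      · exact absurd h0 hD0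
      · exact h0
    rw [hcorr, if_neg hD0]
    by_cases hc : α.IsCusp z
    · rw [if_pos hc, add_zero]
      cases α with
      | H => exact absurd hc (by simp [ChartIdx.IsCusp])
      | inf =>
        have hz0 : z = 0 := hc
        subst hz0
        have hQinf : Q = infN N := by rw [hpt, chartPt_of_isCusp_inf]
        rw [hQinf, locSum_inf_inf hN G, abs_zero]
        exact G.hL
      | zero =>
        have hz0 : z = 0 := hc
        subst hz0
        have hQz : Q = zeroN N := by rw [hpt, chartPt_of_isCusp_zero]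
        exact absurd (h.zeroN_mem hN) (by rw [← hQz]; exact hQZ)
    · rw [if_neg hc]
      have hτ' : P.lift α z ∈ admH := lift_mem_admH hN hc hzA
      have hQτ : Q = ptH N (P.lift α z) := by rw [hpt, chartPt_of_not_isCusp hN hc]
      obtain ⟨g0, g1, gK, gs, gW⟩ := h.generic hτ' (by rw [← hQτ]; exact hQZ)
      have := G.hϱ α z hz hz1 hc gs
      rw [← hQdef] at this
      rw [show G.atlas.locSum α Q z + (G.ϱ (P.lift α z) - Real.log (P.deriv α z)) =
        G.ϱ (P.lift α z) - Real.log (P.deriv α z) + G.atlas.locSum α Q z by ring]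
      exact this

/-- the chart representation of a function, regrouped over its divisor. -/
theorem chartRep {f : FunN N} (hf : f ≠ 0) {D : PtN N →₀ ℤ} (hD : IsDivOf N f D) (α : ChartIdx) :
    ∃ Gα : ℂ → ℂ, AnalyticOnNhd ℂ Gα (closedBall 0 P.r₂) ∧
      (∀ z ∈ closedBall (0 : ℂ) P.r₂, Gα z ≠ 0) ∧
      ∀ z ∈ closedBall (0 : ℂ) P.r₂, chartLgn P α z f =
        Real.log ‖Gα z‖ + ∑ Q ∈ D.support, (D Q : ℝ) * G.atlas.locSum α Q z := by
  obtain ⟨Gα, hG, hG0, Z, hZ1, hZ2, hZ3⟩ := chart_factorisation P α hf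
  refine ⟨Gα, hG, hG0, fun z hz => ?_⟩
  rw [hZ3 z hz, sum_chartOrd_eq hN P G.atlas G.atlas_A G.atlas_pt G.atlas_e G.atlas_r₂ α hf hD Z
    hZ1 hZ2 z]

/-- **(A3), the uniform archimedean Weil decomposition including the diagonal case.** -/
theorem arch_weil (h : ZpOK 𝔡 Zp) (d : ℕ) {f : FunN N} (hf : f ≠ 0) {D : PtN N →₀ ℤ}
    (hD : IsDivOf N f D) (hd : dnorm D ≤ d) :
    ∃ c : ℝ, ∀ Q : PtN N, (D Q = 0 ∨ Q ∉ Zp) →
      |archU 𝔡 G.γ (archR 𝔡 P.sInf G.ϱ) f D Q - c| ≤ G.atlas.chainConst ((d : ℝ) * G.L) := by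
  classical
  choose Gfam hGan hG0 hrep using fun α => chartRep hN G hf hD α
  have hE : 0 ≤ (d : ℝ) * G.L := mul_nonneg (Nat.cast_nonneg d) G.hL
  set B : Set (PtN N) := {Q | D Q ≠ 0 ∧ Q ∈ Zp} with hB
  have hBfin : B.Finite := (Zp.finite_toSet).subset fun Q hQ => hQ.2
  have hr12 : G.atlas.r₁ ≤ P.r₂ := by
    rw [G.atlas_r₁]
    exact P.hr₁₂.le
  obtain ⟨c, hc⟩ := G.atlas.chain_core hE (archU 𝔡 G.γ (archR 𝔡 P.sInf G.ϱ) f D) B hBfin Gfam
    (fun α => (hGan α).mono (closedBall_subset_closedBall hr12))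
    (fun α z hz => hG0 α z (closedBall_subset_closedBall hr12 hz))
    (fun α z hz hz1 hQB => by
      have hQ : D (G.atlas.pt α z) = 0 ∨ G.atlas.pt α z ∉ Zp := by
        by_cases h0 : D (G.atlas.pt α z) = 0
        · exact Or.inl h0
        · exact Or.inr fun hmem => hQB ⟨h0, hmem⟩
      refine (weil_local hN G h hf hD α (hrep α) hz hz1 hQ).trans ?_
      have : ((dnorm D : ℤ) : ℝ) ≤ (d : ℝ) := by exact_mod_cast hd
      exact mul_le_mul_of_nonneg_right this G.hL)
  refine ⟨c, fun Q hQ => hc Q ?_⟩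
  rintro ⟨h1, h2⟩
  rcases hQ with h0 | h0
  · exact h1 h0
  · exact h0 h2

end Local

end Fermat.Agent.MW
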