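/-
MW / [ARCH] (A7) (helper4, for helper9): the one-sided sup bound `arch_sup` on the span of the
`φ k`, from the chart factorisations, the value dictionary, density of the admissible parameters
and the Blaschke-type maximum principle `blaschke_bound`.
-/
import Mathlib
import Fermat.Agent.MW.ARCH_helper9_Weil
import Fermat.Agent.MW.ARCH_helper4_Blaschke

set_option autoImplicit false
set_option linter.unusedSectionVars false

open AlgebraicCurve CongruenceSubgroup MatrixGroups ModularGroup ModularCurve UpperHalfPlane Metric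

namespace Fermat.Agent.MW

open Fermat.Agent.FF Fermat.Agent.X0N Fermat.Agent.JA

attribute [local instance] algOmC isScalarTower_algOmC

/-! ### generic lemmas -/

theorem exp_log_add_sum_zpow {ι : Type*} (Z : Finset ι) {g : ℝ} (hg : 0 < g) (d : ι → ℝ)
    (hd : ∀ u ∈ Z, 0 < d u) (a : ι → ℤ) :
    Real.exp (Real.log g + ∑ u ∈ Z, (a u : ℝ) * Real.log (d u)) = g * ∏ u ∈ Z, d u ^ a u := by
  rw [Real.exp_add, Real.exp_log hg, Real.exp_sum]
  congr 1
  refine Finset.prod_congr rfl fun u hu => ?_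
  rw [mul_comm, ← Real.rpow_def_of_pos (hd u hu), Real.rpow_intCast]

theorem sum_support_union_left {X : Type*} [DecidableEq X] (D : X →₀ ℤ) (K : X →₀ ℕ) :
    ∑ Q ∈ D.support ∪ K.support, D Q = ∑ Q ∈ D.support, D Q := by
  symm
  apply Finset.sum_subset Finset.subset_union_left
  intro Q _ hQ
  exact Finsupp.notMem_support_iff.mp hQ

theorem sum_support_union_right {X : Type*} [DecidableEq X] (D : X →₀ ℤ) (K : X →₀ ℕ) :
    ∑ Q ∈ D.support ∪ K.support, (K Q : ℤ) = (ndeg K : ℤ) := by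
  have : ∑ Q ∈ K.support, (K Q : ℤ) = ∑ Q ∈ D.support ∪ K.support, (K Q : ℤ) := by
    apply Finset.sum_subset Finset.subset_union_right
    intro Q _ hQ
    rw [Finsupp.notMem_support_iff.mp hQ]
    rfl
  rw [← this, ndeg, Finsupp.sum]
  push_cast
  rfl

/-- a divisor of degree `0` bounded below by `-K` has size at most `2 deg K`. -/
theorem dnorm_le_of_neg_le {X : Type*} [DecidableEq X] (D : X →₀ ℤ) (K : X →₀ ℕ)
    (hdeg : ∑ P ∈ D.support, D P = 0) (hge : ∀ P, -(K P : ℤ) ≤ D P) :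
    dnorm D ≤ 2 * (ndeg K : ℤ) := by
  have e1 : dnorm D = ∑ Q ∈ D.support ∪ K.support, |D Q| := by
    rw [dnorm, Finsupp.sum]
    apply Finset.sum_subset Finset.subset_union_left
    intro Q _ hQ
    rw [Finsupp.notMem_support_iff.mp hQ, abs_zero]
  have e2 : ∑ Q ∈ D.support ∪ K.support, |D Q| ≤
      ∑ Q ∈ D.support ∪ K.support, (D Q + 2 * (K Q : ℤ)) := by
    apply Finset.sum_le_sum
    intro Q _
    have := hge Q
    rw [abs_le]
    constructor <;> omega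
  rw [e1]
  refine e2.trans ?_
  rw [Finset.sum_add_distrib, ← Finset.mul_sum, sum_support_union_left, sum_support_union_right,
    hdeg, zero_add]

/-- the cleared multiplicities add up to `deg K`. -/
theorem sum_toNat_add_eq {X : Type*} [DecidableEq X] (D : X →₀ ℤ) (K : X →₀ ℕ)
    (hdeg : ∑ P ∈ D.support, D P = 0) (hge : ∀ P, -(K P : ℤ) ≤ D P) :
    ∑ Q ∈ D.support ∪ K.support, (D Q + (K Q : ℤ)).toNat = ndeg K := by
  have : ((∑ Q ∈ D.support ∪ K.support, (D Q + (K Q : ℤ)).toNat : ℕ) : ℤ) = (ndeg K : ℤ) := by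
    push_cast
    have e : ∀ Q ∈ D.support ∪ K.support, ((D Q + (K Q : ℤ)).toNat : ℤ) = D Q + (K Q : ℤ) := by
      intro Q _
      apply Int.toNat_of_nonneg
      have := hge Q
      omega
    rw [Finset.sum_congr rfl e, Finset.sum_add_distrib, sum_support_union_left,
      sum_support_union_right, hdeg, zero_add]
  exact_mod_cast this

theorem absv_sum_le {ι : Type*} (v : Pl) (s : Finset ι) (x : ι → AlgebraicClosure ℚ) :
    absv v (∑ k ∈ s, x k) ≤ ∑ k ∈ s, absv v (x k) :=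
  Finset.le_sum_of_subadditive (absv v) (absv_zero v).le (absv_add_le v) s x

variable {N : ℕ} [NeZero N]

/-- the span of the `φ k` lies in `L(K0)`. -/
theorem ordGE_sum_smul_φ (𝔡 : DiffDatum N) (c : Fin 𝔡.gq → AlgebraicClosure ℚ) (Q : PtN N) :
    OrdGE Q (-(𝔡.K0 Q : ℤ)) (∑ k, c k • 𝔡.φ k) := by
  apply Finset.sum_induction _ (OrdGE Q (-(𝔡.K0 Q : ℤ)))
  · intro a b ha hb
    exact ha.add hb
  · exact OrdGE.zero _ _
  · intro k _
    rw [Algebra.smul_def]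
    have h1 : OrdGE Q (-(𝔡.K0 Q : ℤ)) (𝔡.φ k) := 𝔡.φ_reg k Q
    have := (OrdGE.const Q (c k)).mul h1
    rwa [zero_add] at this

/-- values of linear combinations of regular functions. -/
theorem valN_sum_smul {ι : Type*} (Q : PtN N) (c : ι → AlgebraicClosure ℚ) (φ : ι → FunN N)
    (s : Finset ι) (h : ∀ k ∈ s, OrdGE Q 0 (φ k)) :
    OrdGE Q 0 (∑ k ∈ s, c k • φ k) ∧
      valN N Q (∑ k ∈ s, c k • φ k) = ∑ k ∈ s, c k * valN N Q (φ k) := by
  classical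
  induction s using Finset.induction_on with
  | empty =>
    refine ⟨OrdGE.zero _ _, ?_⟩
    simp only [Finset.sum_empty]
    exact valN_zero Q
  | insert a s ha ih =>
    obtain ⟨ih1, ih2⟩ := ih fun k hk => h k (Finset.mem_insert_of_mem hk)
    have hφa : OrdGE Q 0 (φ a) := h a (Finset.mem_insert_self a s)
    have h1 : OrdGE Q 0 (c a • φ a) := by
      rw [Algebra.smul_def]
      have := (OrdGE.const Q (c a)).mul hφa
      rwa [zero_add] at this
    have h2 : valN N Q (c a • φ a) = c a * valN N Q (φ a) := by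
      rw [Algebra.smul_def, valN_mul Q (OrdGE.const Q (c a)) hφa, valN_algebraMap]
    rw [Finset.sum_insert ha, Finset.sum_insert ha]
    exact ⟨h1.add ih1, by rw [valN_add Q h1 ih1, h2, ih2]⟩

theorem stabMult_le_three_of_admH {τ : ℍ} (hτ : τ ∈ admH) : stabMult N τ ≤ 3 := by
  obtain ⟨a, ha⟩ := hτ
  have h := hMult_le_three (N := N) τ a ha
  rw [hMult_eq_stabMult (N := N) τ a ha] at h
  exact_mod_cast h

theorem chartE_le_three (hN : N.Prime) (P : ChartParams N) {α : ChartIdx} {z : ℂ}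
    (hz : z ∈ chartA (unifN N hN) P α) : chartE P α z ≤ 3 := by
  cases α with
  | H => exact stabMult_le_three_of_admH hz
  | inf =>
    by_cases h0 : z = 0
    · simp [chartE, h0]
    · rcases hz with h | h
      · exact absurd h h0
      · simp only [chartE, h0, if_false]
        exact stabMult_le_three_of_admH h
  | zero =>
    by_cases h0 : z = 0
    · simp [chartE, h0]
    · rcases hz with h | h
      · exact absurd h h0
      · simp only [chartE, h0, if_false]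
        exact stabMult_le_three_of_admH h

/-! ### pole clearing in a chart -/

section Sup

variable (hN : N.Prime) {P : ChartParams N} (G : GeomPkg (unifN N hN) P)

/-- the parameters of the chart `α` (in the `r₂`-disc) over the zeros of `ω₀`. -/
noncomputable def supPoles (𝔡 : DiffDatum N) (α : ChartIdx) : Finset ℂ :=
  open Classical in 𝔡.K0.support.biUnion (G.atlas.fib α)

/-- the pole clearing exponent. -/
noncomputable def supClr (𝔡 : DiffDatum N) (P : ChartParams N) (α : ChartIdx) (u : ℂ) : ℕ :=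
  chartE P α u * 𝔡.K0 (chartPt (unifN N hN) P α u)

/-- the cleared exponent of `f` at the parameter `u`. -/
noncomputable def supExp (𝔡 : DiffDatum N) (P : ChartParams N) (α : ChartIdx) (f : FunN N)
    (u : ℂ) : ℕ :=
  (chartOrd P α u f + (supClr hN 𝔡 P α u : ℤ)).toNat

theorem mem_supPoles {𝔡 : DiffDatum N} {α : ChartIdx} {u : ℂ} :
    u ∈ supPoles hN G 𝔡 α ↔ u ∈ chartA (unifN N hN) P α ∧ ‖u‖ ≤ P.r₂ ∧
      𝔡.K0 (chartPt (unifN N hN) P α u) ≠ 0 := by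
  classical
  unfold supPoles
  rw [Finset.mem_biUnion]
  constructor
  · rintro ⟨Q, hQ, hu⟩
    rw [ArchAtlas.mem_fib, G.mem_A_iff, G.pt_eq, G.atlas_r₂] at hu
    refine ⟨hu.1, hu.2.2, ?_⟩
    rw [hu.2.1]
    exact Finsupp.mem_support_iff.mp hQ
  · rintro ⟨h1, h2, h3⟩
    refine ⟨chartPt (unifN N hN) P α u, Finsupp.mem_support_iff.mpr h3, ?_⟩
    rw [ArchAtlas.mem_fib, G.mem_A_iff, G.pt_eq, G.atlas_r₂]
    exact ⟨h1, rfl, h2⟩

theorem supExp_cast {𝔡 : DiffDatum N} (α : ChartIdx) {f : FunN N} (hf : f ≠ 0)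
    (hfK : ∀ Q : PtN N, -(𝔡.K0 Q : ℤ) ≤ Q.ord f) (u : ℂ) :
    ((supExp hN 𝔡 P α f u : ℕ) : ℤ) = chartOrd P α u f + (supClr hN 𝔡 P α u : ℤ) := by
  unfold supExp
  apply Int.toNat_of_nonneg
  by_cases hu : u ∈ chartA (unifN N hN) P α
  · rw [chartOrd_eq hN P hu hf]
    unfold supClr
    push_cast
    have h1 := hfK (chartPt (unifN N hN) P α u)
    have h2 : (0 : ℤ) ≤ (chartE P α u : ℤ) := Int.natCast_nonneg _
    nlinarith
  · rw [chartOrd_eq_zero hN P hu f, zero_add]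
    exact Int.natCast_nonneg _

/-- **the cleared value identity** at a good parameter. -/
theorem sup_value_identity {𝔡 : DiffDatum N} (α : ChartIdx) {f : FunN N} (hf : f ≠ 0)
    (hfK : ∀ Q : PtN N, -(𝔡.K0 Q : ℤ) ≤ Q.ord f) {Gf : ℂ → ℂ}
    (hG0 : ∀ z ∈ closedBall (0 : ℂ) P.r₂, Gf z ≠ 0) (Z : Finset ℂ)
    (hZ1 : ∀ u ∈ Z, u ∈ closedBall (0 : ℂ) P.r₂)
    (hZ2 : ∀ u ∈ closedBall (0 : ℂ) P.r₂, (u ∈ Z ↔ chartOrd P α u f ≠ 0))
    (hZ3 : ∀ z ∈ closedBall (0 : ℂ) P.r₂, chartLgn P α z f =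
      Real.log ‖Gf z‖ + ∑ u ∈ Z, (chartOrd P α u f : ℝ) * Real.log ‖z - u‖)
    {w : ℂ} (hwA : w ∈ chartA (unifN N hN) P α) (hw2 : ‖w‖ ≤ P.r₂) (hwZ : w ∉ Z)
    (hwS : w ∉ supPoles hN G 𝔡 α) :
    (chartPt (unifN N hN) P α w).ord f = 0 ∧
      ‖Gf w‖ * ∏ u ∈ Z ∪ supPoles hN G 𝔡 α, ‖w - u‖ ^ supExp hN 𝔡 P α f u =
        absv none (valN N (chartPt (unifN N hN) P α w) f) *
          ∏ u ∈ supPoles hN G 𝔡 α, ‖w - u‖ ^ supClr hN 𝔡 P α u := by
  classical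
  have hwb : w ∈ closedBall (0 : ℂ) P.r₂ := by rwa [mem_closedBall, dist_zero_right]
  have hco : chartOrd P α w f = 0 := by
    by_contra hne
    exact hwZ ((hZ2 w hwb).mpr hne)
  have hord : (chartPt (unifN N hN) P α w).ord f = 0 := by
    rw [chartOrd_eq hN P hwA hf] at hco
    have h1 : (chartE P α w : ℤ) ≠ 0 := by exact_mod_cast (chartE_pos hN P hwA).ne'
    exact (mul_eq_zero.mp hco).resolve_left h1
  refine ⟨hord, ?_⟩
  set Q := chartPt (unifN N hN) P α w with hQ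
  set S := supPoles hN G 𝔡 α with hS
  have hv0 : valN N Q f ≠ 0 := valN_ne_zero Q hf hord
  have habs : 0 < absv none (valN N Q f) := absv_pos hv0
  have hGpos : 0 < ‖Gf w‖ := norm_pos_iff.mpr (hG0 w hwb)
  have hdpos : ∀ u ∈ Z ∪ S, 0 < ‖w - u‖ := by
    intro u hu
    rw [norm_pos_iff, sub_ne_zero]
    rintro rfl
    rcases Finset.mem_union.mp hu with h | h
    · exact hwZ h
    · exact hwS h
  -- the exponential form of the factorisation
  have e1 : absv none (valN N Q f) = ‖Gf w‖ * ∏ u ∈ Z, ‖w - u‖ ^ chartOrd P α u f := by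
    have h1 := chartLgn_of_ord_eq_zero hN P hwA hw2 hf hord
    rw [hZ3 w hwb] at h1
    have h2 : Real.exp (lg none (valN N Q f)) = absv none (valN N Q f) := by
      unfold lg
      exact Real.exp_log habs
    rw [← h2, ← h1]
    exact exp_log_add_sum_zpow Z hGpos (fun u => ‖w - u‖)
      (fun u hu => hdpos u (Finset.mem_union_left _ hu)) _
  -- extend the product to `Z ∪ S`
  have e2 : ∏ u ∈ Z, ‖w - u‖ ^ chartOrd P α u f = ∏ u ∈ Z ∪ S, ‖w - u‖ ^ chartOrd P α u f := by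
    apply Finset.prod_subset Finset.subset_union_left
    intro u hu huZ
    have hub : u ∈ closedBall (0 : ℂ) P.r₂ := by
      rcases Finset.mem_union.mp hu with h | h
      · exact absurd h huZ
      · rw [mem_closedBall, dist_zero_right]
        exact ((mem_supPoles hN G).mp h).2.1
    have : chartOrd P α u f = 0 := by
      by_contra hne
      exact huZ ((hZ2 u hub).mpr hne)
    rw [this, zpow_zero]
  have e3 : ∏ u ∈ S, ‖w - u‖ ^ supClr hN 𝔡 P α u = ∏ u ∈ Z ∪ S, ‖w - u‖ ^ supClr hN 𝔡 P α u := by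
    apply Finset.prod_subset Finset.subset_union_right
    intro u hu huS
    have huZ : u ∈ Z := by
      rcases Finset.mem_union.mp hu with h | h
      · exact h
      · exact absurd h huS
    have hub := hZ1 u huZ
    have huA : u ∈ chartA (unifN N hN) P α := by
      by_contra hnot
      exact (hZ2 u hub).mp huZ (chartOrd_eq_zero hN P hnot f)
    have hK : 𝔡.K0 (chartPt (unifN N hN) P α u) = 0 := by
      by_contra hne
      apply huS
      rw [hS, mem_supPoles]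
      rw [mem_closedBall, dist_zero_right] at hub
      exact ⟨huA, hub, hne⟩
    have : supClr hN 𝔡 P α u = 0 := by
      unfold supClr
      rw [hK, mul_zero]
    rw [this, pow_zero]
  rw [e1, e2, e3, mul_assoc, ← Finset.prod_mul_distrib]
  congr 1
  refine Finset.prod_congr rfl fun u hu => ?_
  have hne : ‖w - u‖ ≠ 0 := (hdpos u hu).ne'
  rw [← zpow_natCast (‖w - u‖) (supExp hN 𝔡 P α f u), supExp_cast hN α hf hfK u,
    zpow_add₀ hne, zpow_natCast]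

/-- **counting the cleared multiplicities.** -/
theorem sum_supExp_le {𝔡 : DiffDatum N} (nfib : ℕ) (hfib : ∀ α Q, (G.atlas.fib α Q).card ≤ nfib)
    (α : ChartIdx) {f : FunN N} (hf : f ≠ 0) (hfK : ∀ Q : PtN N, -(𝔡.K0 Q : ℤ) ≤ Q.ord f)
    {D : PtN N →₀ ℤ} (hD : IsDivOf N f D) (Z : Finset ℂ)
    (hZ1 : ∀ u ∈ Z, u ∈ closedBall (0 : ℂ) P.r₂)
    (hZ2 : ∀ u ∈ closedBall (0 : ℂ) P.r₂, (u ∈ Z ↔ chartOrd P α u f ≠ 0)) :
    ∑ u ∈ Z ∪ supPoles hN G 𝔡 α, supExp hN 𝔡 P α f u ≤ 3 * nfib * ndeg 𝔡.K0 := by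
  classical
  set S := supPoles hN G 𝔡 α with hS
  set R : Finset (PtN N) := D.support ∪ 𝔡.K0.support with hR
  have hge : ∀ Q, -(𝔡.K0 Q : ℤ) ≤ D Q := fun Q => by rw [hD Q]; exact hfK Q
  have hUA : ∀ u ∈ Z ∪ S, u ∈ chartA (unifN N hN) P α ∧ ‖u‖ ≤ P.r₂ := by
    intro u hu
    rcases Finset.mem_union.mp hu with h | h
    · have hub := hZ1 u h
      refine ⟨?_, by rwa [mem_closedBall, dist_zero_right] at hub⟩
      by_contra hnot
      exact (hZ2 u hub).mp h (chartOrd_eq_zero hN P hnot f)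
    · have := (mem_supPoles hN G).mp h
      exact ⟨this.1, this.2.1⟩
  have hmaps : ∀ u ∈ Z ∪ S, chartPt (unifN N hN) P α u ∈ R := by
    intro u hu
    rw [hR, Finset.mem_union, Finsupp.mem_support_iff, Finsupp.mem_support_iff]
    rcases Finset.mem_union.mp hu with h | h
    · left
      have hub := hZ1 u h
      have h1 := (hZ2 u hub).mp h
      rw [chartOrd_eq hN P (hUA u hu).1 hf, ← hD] at h1
      exact right_ne_zero_of_mul h1
    · right
      exact ((mem_supPoles hN G).mp h).2.2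
  rw [← Finset.sum_fiberwise_of_maps_to hmaps]
  have hinner : ∀ Q ∈ R, ∑ u ∈ (Z ∪ S).filter (fun u => chartPt (unifN N hN) P α u = Q),
      supExp hN 𝔡 P α f u ≤ nfib * (3 * (D Q + (𝔡.K0 Q : ℤ)).toNat) := by
    intro Q _
    have hsub : (Z ∪ S).filter (fun u => chartPt (unifN N hN) P α u = Q) ⊆ G.atlas.fib α Q := by
      intro u hu
      rw [Finset.mem_filter] at hu
      rw [ArchAtlas.mem_fib, G.mem_A_iff, G.pt_eq, G.atlas_r₂]
      exact ⟨(hUA u hu.1).1, hu.2, (hUA u hu.1).2⟩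
    have hterm : ∀ u ∈ (Z ∪ S).filter (fun u => chartPt (unifN N hN) P α u = Q),
        supExp hN 𝔡 P α f u ≤ 3 * (D Q + (𝔡.K0 Q : ℤ)).toNat := by
      intro u hu
      rw [Finset.mem_filter] at hu
      have huA := (hUA u hu.1).1
      obtain ⟨n, hn⟩ := Int.eq_ofNat_of_zero_le (show 0 ≤ D Q + (𝔡.K0 Q : ℤ) by
        have := hge Q; omega)
      have h3 := chartE_le_three hN P huA
      have : supExp hN 𝔡 P α f u = chartE P α u * n := by
        unfold supExp supClr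
        rw [chartOrd_eq hN P huA hf, hu.2, ← hD Q]
        push_cast
        rw [← mul_add, hn]
        exact_mod_cast Int.toNat_natCast (chartE P α u * n)
      rw [this, hn, Int.toNat_natCast]
      exact Nat.mul_le_mul_right n h3
    calc ∑ u ∈ (Z ∪ S).filter (fun u => chartPt (unifN N hN) P α u = Q), supExp hN 𝔡 P α f u
        ≤ ∑ _u ∈ (Z ∪ S).filter (fun u => chartPt (unifN N hN) P α u = Q),
            3 * (D Q + (𝔡.K0 Q : ℤ)).toNat := Finset.sum_le_sum hterm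
      _ = ((Z ∪ S).filter (fun u => chartPt (unifN N hN) P α u = Q)).card *
            (3 * (D Q + (𝔡.K0 Q : ℤ)).toNat) := by rw [Finset.sum_const, smul_eq_mul]
      _ ≤ nfib * (3 * (D Q + (𝔡.K0 Q : ℤ)).toNat) :=
          Nat.mul_le_mul_right _ ((Finset.card_le_card hsub).trans (hfib α Q))
  refine (Finset.sum_le_sum hinner).trans ?_
  rw [← Finset.mul_sum, ← Finset.mul_sum, hR,
    sum_toNat_add_eq D 𝔡.K0 (sum_eq_zero_of_isDivOf hf hD) hge]
  exact le_of_eq (by ring)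

/-- **(A7) in one chart**: an upper bound for the analytic factor of `ψ = Σ c k • φ k` on the
`r₀`-disc, in terms of the size of the coefficients. -/
theorem arch_sup_chart {𝔡 : DiffDatum N} (nfib : ℕ)
    (hfib : ∀ α Q, (G.atlas.fib α Q).card ≤ nfib) (α : ChartIdx) :
    ∃ Cα : ℝ, 0 ≤ Cα ∧ ∀ (c : Fin 𝔡.gq → AlgebraicClosure ℚ) (M : ℝ) (D : PtN N →₀ ℤ), 0 < M →
      (∀ k, absv none (c k) ≤ M) → (∑ k, c k • 𝔡.φ k) ≠ 0 → IsDivOf N (∑ k, c k • 𝔡.φ k) D →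
      ∀ Gψ : ℂ → ℂ, AnalyticOnNhd ℂ Gψ (closedBall 0 P.r₂) →
      (∀ z ∈ closedBall (0 : ℂ) P.r₂, Gψ z ≠ 0) →
      ∀ Z : Finset ℂ, (∀ u ∈ Z, u ∈ closedBall (0 : ℂ) P.r₂) →
        (∀ u ∈ closedBall (0 : ℂ) P.r₂, (u ∈ Z ↔ chartOrd P α u (∑ k, c k • 𝔡.φ k) ≠ 0)) →
        (∀ z ∈ closedBall (0 : ℂ) P.r₂, chartLgn P α z (∑ k, c k • 𝔡.φ k) =
          Real.log ‖Gψ z‖ +
            ∑ u ∈ Z, (chartOrd P α u (∑ k, c k • 𝔡.φ k) : ℝ) * Real.log ‖z - u‖) →
        ∀ z : ℂ, ‖z‖ ≤ P.r₀ → Real.log ‖Gψ z‖ ≤ Real.log M + Cα := by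
  classical
  have hfac : ∀ k, 𝔡.φ k ≠ 0 → ∃ Gk : ℂ → ℂ, AnalyticOnNhd ℂ Gk (closedBall 0 P.r₂) ∧
      (∀ z ∈ closedBall (0 : ℂ) P.r₂, Gk z ≠ 0) ∧
      ∃ Zk : Finset ℂ, (∀ u ∈ Zk, u ∈ closedBall (0 : ℂ) P.r₂) ∧
        (∀ u ∈ closedBall (0 : ℂ) P.r₂, (u ∈ Zk ↔ chartOrd P α u (𝔡.φ k) ≠ 0)) ∧
        ∀ z ∈ closedBall (0 : ℂ) P.r₂, chartLgn P α z (𝔡.φ k) =
          Real.log ‖Gk z‖ + ∑ u ∈ Zk, (chartOrd P α u (𝔡.φ k) : ℝ) * Real.log ‖z - u‖ :=
    fun k hk => chart_factorisation P α hk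
  choose! Gk hGkan hGk0 Zk hZk1 hZk2 hZk3 using hfac
  set S := supPoles hN G 𝔡 α with hS
  -- the comparison function
  set F : ℂ → ℝ := fun w => ∑ k, if 𝔡.φ k = 0 then 0 else
    ‖Gk k w‖ * ∏ u ∈ Zk k ∪ S, ‖w - u‖ ^ supExp hN 𝔡 P α (𝔡.φ k) u with hF
  have hprodcont : ∀ (T : Finset ℂ) (m : ℂ → ℕ),
      Continuous fun w : ℂ => ∏ u ∈ T, ‖w - u‖ ^ m u := fun T m =>
    continuous_finsetProd _ fun u _ => ((continuous_id.sub continuous_const).norm.pow _)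
  have hFcont : ContinuousOn F (closedBall 0 P.r₂) := by
    rw [hF]
    apply continuousOn_finsetSum
    intro k _
    by_cases hk : 𝔡.φ k = 0
    · simp only [hk, if_true]
      exact continuousOn_const
    · simp only [hk, if_false]
      exact ((hGkan k hk).continuousOn.norm).mul (hprodcont _ _).continuousOn
  have hr12 : closedBall (0 : ℂ) P.r₁ ⊆ closedBall 0 P.r₂ := closedBall_subset_closedBall P.hr₁₂.le
  obtain ⟨B0, hB0⟩ := (isCompact_closedBall (0 : ℂ) P.r₁).exists_bound_of_continuousOn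
    (hFcont.mono hr12)
  set B : ℝ := max B0 1 with hB
  have hB1 : 1 ≤ B := le_max_right _ _
  have hBpos : 0 < B := lt_of_lt_of_le one_pos hB1
  have hFB : ∀ w ∈ closedBall (0 : ℂ) P.r₁, F w ≤ B := fun w hw =>
    (le_abs_self _).trans ((hB0 w hw).trans (le_max_left _ _))
  set κ₀ : ℝ := min 1 (P.r₁ - P.r₀) with hκ₀
  have hκpos : 0 < κ₀ := lt_min one_pos (sub_pos.mpr P.hr₀₁)
  have hκ1 : κ₀ ≤ 1 := min_le_left _ _
  set Nmax : ℕ := 3 * nfib * ndeg 𝔡.K0 with hNmax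
  refine ⟨Real.log B - Nmax * Real.log κ₀, ?_, ?_⟩
  · have h1 : 0 ≤ Real.log B := Real.log_nonneg hB1
    have h2 : Real.log κ₀ ≤ 0 := Real.log_nonpos hκpos.le hκ1
    have h3 : (0 : ℝ) ≤ Nmax := Nat.cast_nonneg _
    nlinarith
  intro c M D hM hc hψ hD Gψ hGan hG0 Z hZ1 hZ2 hZ3 z hz
  set ψ : FunN N := ∑ k, c k • 𝔡.φ k with hψdef
  have hψK : ∀ Q : PtN N, -(𝔡.K0 Q : ℤ) ≤ Q.ord ψ := fun Q =>
    (ordGE_sum_smul_φ 𝔡 c Q).le_ord hψ
  have hφK : ∀ k, 𝔡.φ k ≠ 0 → ∀ Q : PtN N, -(𝔡.K0 Q : ℤ) ≤ Q.ord (𝔡.φ k) := fun k hk Q =>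
    (𝔡.φ_reg k Q).resolve_left hk
  -- the inequality on the `r₁`-disc
  have hkey : ∀ w ∈ closedBall (0 : ℂ) P.r₁,
      ‖Gψ w‖ * ∏ u ∈ Z ∪ S, ‖w - u‖ ^ supExp hN 𝔡 P α ψ u ≤ M * F w := by
    set T : Finset ℂ := Z ∪ S ∪ Finset.univ.biUnion Zk with hT
    have hden := G.atlas.dense α (T : Set ℂ) (Finset.finite_toSet T)
    rw [G.atlas_r₁] at hden
    intro w hw
    have hcl : closure ((G.atlas.A α ∩ closedBall 0 P.r₁) \ (T : Set ℂ)) ⊆ closedBall 0 P.r₂ :=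
      (closure_minimal (fun x hx => hx.1.2) isClosed_closedBall).trans hr12
    have hLc : ContinuousOn (fun w => ‖Gψ w‖ * ∏ u ∈ Z ∪ S, ‖w - u‖ ^ supExp hN 𝔡 P α ψ u)
        (closedBall 0 P.r₂) := hGan.continuousOn.norm.mul (hprodcont _ _).continuousOn
    have hRc : ContinuousOn (fun w => M * F w) (closedBall 0 P.r₂) :=
      continuousOn_const.mul hFcont
    refine le_on_closure (f := fun w => ‖Gψ w‖ * ∏ u ∈ Z ∪ S, ‖w - u‖ ^ supExp hN 𝔡 P α ψ u)
      (g := fun w => M * F w) (s := (G.atlas.A α ∩ closedBall 0 P.r₁) \ (T : Set ℂ)) ?_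
      (hLc.mono hcl) (hRc.mono hcl) (hden hw)
    -- the good points
    rintro w' ⟨⟨hwA, hw1⟩, hwT⟩
    show ‖Gψ w'‖ * ∏ u ∈ Z ∪ S, ‖w' - u‖ ^ supExp hN 𝔡 P α ψ u ≤ M * F w'
    have hwA' : w' ∈ chartA (unifN N hN) P α := (G.mem_A_iff hN α w').mp hwA
    have hw2 : ‖w'‖ ≤ P.r₂ := by
      have := hr12 hw1
      rwa [mem_closedBall, dist_zero_right] at this
    have hwZ : w' ∉ Z := fun h => hwT (by
      rw [Finset.mem_coe, hT]
      exact Finset.mem_union_left _ (Finset.mem_union_left _ h))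
    have hwS : w' ∉ S := fun h => hwT (by
      rw [Finset.mem_coe, hT]
      exact Finset.mem_union_left _ (Finset.mem_union_right _ h))
    have hwZk : ∀ k, w' ∉ Zk k := fun k h => hwT (by
      rw [Finset.mem_coe, hT]
      exact Finset.mem_union_right _ (Finset.mem_biUnion.mpr ⟨k, Finset.mem_univ k, h⟩))
    set Q := chartPt (unifN N hN) P α w' with hQ
    set pS : ℝ := ∏ u ∈ S, ‖w' - u‖ ^ supClr hN 𝔡 P α u with hpS
    have hp0 : 0 ≤ pS := Finset.prod_nonneg fun u _ => pow_nonneg (norm_nonneg _) _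
    obtain ⟨-, hidψ⟩ := sup_value_identity hN G α hψ hψK hG0 Z hZ1 hZ2 hZ3 hwA' hw2 hwZ hwS
    have hidk : ∀ k, 𝔡.φ k ≠ 0 → Q.ord (𝔡.φ k) = 0 ∧
        ‖Gk k w'‖ * ∏ u ∈ Zk k ∪ S, ‖w' - u‖ ^ supExp hN 𝔡 P α (𝔡.φ k) u =
          absv none (valN N Q (𝔡.φ k)) * pS := fun k hk =>
      sup_value_identity hN G α hk (hφK k hk) (hGk0 k hk) (Zk k) (hZk1 k hk) (hZk2 k hk)
        (hZk3 k hk) hwA' hw2 (hwZk k) hwS
    have hreg : ∀ k ∈ (Finset.univ : Finset (Fin 𝔡.gq)), OrdGE Q 0 (𝔡.φ k) := by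
      intro k _
      by_cases hk : 𝔡.φ k = 0
      · exact Or.inl hk
      · exact Or.inr (hidk k hk).1.ge
    obtain ⟨-, hval⟩ := valN_sum_smul Q c 𝔡.φ Finset.univ hreg
    rw [hidψ]
    have h1 : absv none (valN N Q ψ) ≤
        M * ∑ k, if 𝔡.φ k = 0 then 0 else absv none (valN N Q (𝔡.φ k)) := by
      rw [hψdef, hval, Finset.mul_sum]
      refine (absv_sum_le none _ _).trans (Finset.sum_le_sum fun k _ => ?_)
      rw [absv_mul]
      by_cases hk : 𝔡.φ k = 0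
      · simp only [hk, if_true]
        rw [valN_zero, absv_zero, mul_zero, mul_zero]
      · simp only [hk, if_false]
        exact mul_le_mul_of_nonneg_right (hc k) (absv_nonneg _ _)
    have h2 : F w' = (∑ k, if 𝔡.φ k = 0 then 0 else absv none (valN N Q (𝔡.φ k))) * pS := by
      rw [hF, Finset.sum_mul]
      refine Finset.sum_congr rfl fun k _ => ?_
      by_cases hk : 𝔡.φ k = 0
      · simp only [hk, if_true, zero_mul]
      · simp only [hk, if_false]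
        exact (hidk k hk).2
    rw [h2, ← mul_assoc]
    exact mul_le_mul_of_nonneg_right h1 hp0
  -- the maximum principle
  have hC : ∀ w, ‖w‖ = P.r₁ →
      ‖Gψ w‖ * ∏ u ∈ Z ∪ S, ‖w - u‖ ^ supExp hN 𝔡 P α ψ u ≤ M * B := by
    intro w hw
    have hwb : w ∈ closedBall (0 : ℂ) P.r₁ := by
      rw [mem_closedBall, dist_zero_right, hw]
    exact (hkey w hwb).trans (mul_le_mul_of_nonneg_left (hFB w hwb) hM.le)
  have hbl := blaschke_bound P.hr₀ P.hr₀₁ (hGan.mono hr12) (Z ∪ S)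
    (supExp hN 𝔡 P α ψ) hC z hz
  rw [← hκ₀] at hbl
  have hcount := sum_supExp_le hN G nfib hfib α hψ hψK hD Z hZ1 hZ2
  rw [← hS, ← hNmax] at hcount
  have hzb : z ∈ closedBall (0 : ℂ) P.r₂ := by
    rw [mem_closedBall, dist_zero_right]
    exact hz.trans (P.hr₀₁.le.trans P.hr₁₂.le)
  have hGz : 0 < ‖Gψ z‖ := norm_pos_iff.mpr (hG0 z hzb)
  have hpow : κ₀ ^ Nmax ≤ κ₀ ^ (∑ u ∈ Z ∪ S, supExp hN 𝔡 P α ψ u) :=
    pow_le_pow_of_le_one hκpos.le hκ1 hcount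
  have hfin : ‖Gψ z‖ * κ₀ ^ Nmax ≤ M * B :=
    (mul_le_mul_of_nonneg_left hpow hGz.le).trans hbl
  have hκN : 0 < κ₀ ^ Nmax := pow_pos hκpos _
  have hlog : Real.log (‖Gψ z‖ * κ₀ ^ Nmax) ≤ Real.log (M * B) :=
    Real.log_le_log (mul_pos hGz hκN) hfin
  rw [Real.log_mul hGz.ne' hκN.ne', Real.log_mul hM.ne' hBpos.ne', Real.log_pow] at hlog
  linarith

end Sup

/-- **(A7), the one-sided sup bound at the archimedean place.** -/
theorem arch_sup {N : ℕ} [NeZero N] (hN : N.Prime) {𝔡 : DiffDatum N} {Zp : Finset (PtN N)}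
    {P : ChartParams N} (G : GeomPkg (unifN N hN) P) (nfib : ℕ)
    (hfib : ∀ α Q, (G.atlas.fib α Q).card ≤ nfib) (h : ZpOK 𝔡 Zp) :
    ∃ C7 : ℝ, 0 ≤ C7 ∧ ∀ (c : Fin 𝔡.gq → AlgebraicClosure ℚ) (M : ℝ) (D : PtN N →₀ ℤ), 0 < M →
      (∀ k, absv none (c k) ≤ M) → (∑ k, c k • 𝔡.φ k) ≠ 0 → IsDivOf N (∑ k, c k • 𝔡.φ k) D →
      ∀ Q : PtN N, Q ∉ Zp →
        archU 𝔡 G.γ (archR 𝔡 P.sInf G.ϱ) (∑ k, c k • 𝔡.φ k) D Q ≤ Real.log M + C7 := by
  classical
  choose Cα hCα0 hCα using fun α => arch_sup_chart hN G (𝔡 := 𝔡) nfib hfib α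
  have hκ0 : (0 : ℝ) ≤ (ndeg 𝔡.K0 : ℝ) := Nat.cast_nonneg _
  refine ⟨Cα ChartIdx.H + Cα ChartIdx.inf + Cα ChartIdx.zero + 2 * (ndeg 𝔡.K0 : ℝ) * G.L, ?_, ?_⟩
  · have := hCα0 ChartIdx.H
    have := hCα0 ChartIdx.inf
    have := hCα0 ChartIdx.zero
    have := G.hL
    positivity
  intro c M D hM hc hψ hD Q hQ
  obtain ⟨α, z, hzA, hz0, hpt⟩ := G.atlas.cover Q
  obtain ⟨Gψ, hGan, hG0, Z, hZ1, hZ2, hZ3⟩ := chart_factorisation P α hψ
  have hrep : ∀ z ∈ closedBall (0 : ℂ) P.r₂, chartLgn P α z (∑ k, c k • 𝔡.φ k) =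
      Real.log ‖Gψ z‖ + ∑ Q ∈ D.support, (D Q : ℝ) * G.atlas.locSum α Q z := by
    intro z hz
    rw [hZ3 z hz, sum_chartOrd_eq hN P G.atlas G.atlas_A G.atlas_pt G.atlas_e G.atlas_r₂ α hψ hD Z
      hZ1 hZ2 z]
  have hz1 : ‖z‖ ≤ G.atlas.r₁ := hz0.trans G.atlas.hr₀₁.le
  have hw := weil_local hN G h hψ hD α hrep hzA hz1 (Or.inr (by rw [hpt]; exact hQ))
  rw [hpt] at hw
  have hz0' : ‖z‖ ≤ P.r₀ := by rw [← G.atlas_r₀]; exact hz0
  have h1 := hCα α c M D hM hc hψ hD Gψ hGan hG0 Z hZ1 hZ2 hZ3 z hz0'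
  have hge : ∀ Q : PtN N, -(𝔡.K0 Q : ℤ) ≤ D Q := fun Q => by
    rw [hD Q]
    exact (ordGE_sum_smul_φ 𝔡 c Q).le_ord hψ
  have h2 : ((dnorm D : ℤ) : ℝ) ≤ 2 * (ndeg 𝔡.K0 : ℝ) := by
    have := dnorm_le_of_neg_le D 𝔡.K0 (sum_eq_zero_of_isDivOf hψ hD) hge
    exact_mod_cast this
  have h3 : ((dnorm D : ℤ) : ℝ) * G.L ≤ 2 * (ndeg 𝔡.K0 : ℝ) * G.L :=
    mul_le_mul_of_nonneg_right h2 G.hL
  have h4 := (abs_le.mp hw).2
  have hH := hCα0 ChartIdx.H
  have hI := hCα0 ChartIdx.inf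
  have hZ := hCα0 ChartIdx.zero
  have h5 : Cα α ≤ Cα ChartIdx.H + Cα ChartIdx.inf + Cα ChartIdx.zero := by
    cases α <;> linarith
  linarith

end Fermat.Agent.MW
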