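/-
MW / [ARCH] (helper9): the representation of the rational differential `ω₀` in the three charts:
orders `omegaOrd` (with respect to `dz`), factorisation of `log ‖ω₀/dz‖`, regrouping over the
fibres of the atlas.
-/
import Mathlib
import Fermat.Agent.MW.ARCH_helper9_Weil

set_option autoImplicit false
set_option linter.unusedSectionVars false

open AlgebraicCurve CongruenceSubgroup MatrixGroups ModularGroup ModularCurve UpperHalfPlane Metric

namespace Fermat.Agent.MW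

open Fermat.Agent.FF Fermat.Agent.X0N Fermat.Agent.JA

attribute [local instance] algOmC isScalarTower_algOmC

variable {N : ℕ} [NeZero N] (𝔡 : DiffDatum N) (P : ChartParams N)

/-- the order of `ω₀` at the parameter `u` of the chart `α` (with respect to `dz`). -/
noncomputable def omegaOrd : ChartIdx → ℂ → ℤ
  | ChartIdx.H, u => MerH.ordAt (P.lift ChartIdx.H u) 𝔡.Wmer
  | ChartIdx.inf, u => cuspOrd 1 P.sInf 𝔡.Wmer u - (if u = 0 then 1 else 0)
  | ChartIdx.zero, u => cuspOrd N P.sZero 𝔡.WmerS u - (if u = 0 then 1 else 0)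

theorem omegaOrd_of_not_isCusp {α : ChartIdx} {u : ℂ} (hc : ¬ α.IsCusp u) :
    omegaOrd 𝔡 P α u = MerH.ordAt (P.lift α u) 𝔡.Wmer := by
  cases α with
  | H => rfl
  | inf =>
    have hu : u ≠ 0 := hc
    show cuspOrd 1 P.sInf 𝔡.Wmer u - (if u = 0 then 1 else 0) = _
    rw [if_neg hu, sub_zero, cuspOrd_of_ne _ _ hu, lift_inf_eq]
  | zero =>
    have hu : u ≠ 0 := hc
    show cuspOrd N P.sZero 𝔡.WmerS u - (if u = 0 then 1 else 0) = _
    rw [if_neg hu, sub_zero, cuspOrd_of_ne _ _ hu, lift_zero_eq, 𝔡.ordAt_WmerS]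

/-- **the orders of `ω₀` in the charts**: `(e - 1) + e · K0`. -/
theorem omegaOrd_eq (hN : N.Prime) {α : ChartIdx} {u : ℂ}
    (hu : u ∈ chartA (unifN N hN) P α) :
    omegaOrd 𝔡 P α u = (chartE P α u : ℤ) - 1 +
      (chartE P α u : ℤ) * (𝔡.K0 (chartPt (unifN N hN) P α u) : ℤ) := by
  by_cases hc : α.IsCusp u
  · cases α with
    | H => exact absurd hc (by simp [ChartIdx.IsCusp])
    | inf =>
      have hu0 : u = 0 := hc
      subst hu0
      show cuspOrd 1 P.sInf 𝔡.Wmer 0 - (if (0 : ℂ) = 0 then 1 else 0) = _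
      rw [if_pos rfl, cuspOrd_zero, 𝔡.ordInf_Wmer, chartPt_of_isCusp_inf, 𝔡.K0_inf]
      simp [chartE]
    | zero =>
      have hu0 : u = 0 := hc
      subst hu0
      show cuspOrd N P.sZero 𝔡.WmerS 0 - (if (0 : ℂ) = 0 then 1 else 0) = _
      rw [if_pos rfl, cuspOrd_zero, 𝔡.ordInf_WmerS, chartPt_of_isCusp_zero]
      simp [chartE]
  · rw [omegaOrd_of_not_isCusp 𝔡 P hc, 𝔡.ordAt_Wmer (lift_mem_admH hN hc hu),
      chartPt_of_not_isCusp hN hc]
    have he : chartE P α u = stabMult N (P.lift α u) := by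
      cases α with
      | H => rfl
      | inf =>
        have : u ≠ 0 := hc
        simp [chartE, this]
      | zero =>
        have : u ≠ 0 := hc
        simp [chartE, this]
    rw [he]

theorem omegaOrd_eq_zero (hN : N.Prime) {α : ChartIdx} {u : ℂ}
    (hu : u ∉ chartA (unifN N hN) P α) : omegaOrd 𝔡 P α u = 0 := by
  have hc : ¬ α.IsCusp u := by
    intro hc
    apply hu
    cases α with
    | H => exact absurd hc (by simp [ChartIdx.IsCusp])
    | inf => exact Or.inl hc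
    | zero => exact Or.inl hc
  rw [omegaOrd_of_not_isCusp 𝔡 P hc]
  apply 𝔡.ordAt_Wmer_of_not_admH
  intro hτ
  apply hu
  cases α with
  | H => exact hτ
  | inf => exact Or.inr hτ
  | zero => exact Or.inr hτ

/-! ### factorisation of `log ‖ω₀/dz‖` in the charts -/

theorem sum_sub_ite_zero (Z : Finset ℂ) (h0 : (0 : ℂ) ∈ Z) (a : ℂ → ℤ) (z : ℂ) :
    ∑ u ∈ Z, ((a u - (if u = 0 then 1 else 0) : ℤ) : ℝ) * Real.log ‖z - u‖ =
      (∑ u ∈ Z, (a u : ℝ) * Real.log ‖z - u‖) - Real.log ‖z‖ := by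
  have e : ∀ u ∈ Z, ((a u - (if u = 0 then 1 else 0) : ℤ) : ℝ) * Real.log ‖z - u‖ =
      (a u : ℝ) * Real.log ‖z - u‖ - (if u = 0 then Real.log ‖z - u‖ else 0) := by
    intro u _
    split_ifs with h
    · push_cast; ring
    · push_cast; ring
  rw [Finset.sum_congr rfl e, Finset.sum_sub_distrib, Finset.sum_ite_eq' Z 0, if_pos h0, sub_zero]

/-- **factorisation of `ω₀/dz` in a chart**, at the parameters where `ω₀/dτ` has neither zero
nor pole. -/
theorem omega_factorisation (α : ChartIdx) :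
    ∃ Gω : ℂ → ℂ, AnalyticOnNhd ℂ Gω (closedBall 0 P.r₂) ∧
      (∀ z ∈ closedBall (0 : ℂ) P.r₂, Gω z ≠ 0) ∧
      ∃ Z : Finset ℂ, (∀ u ∈ Z, u ∈ closedBall (0 : ℂ) P.r₂) ∧
        (∀ u ∈ closedBall (0 : ℂ) P.r₂, omegaOrd 𝔡 P α u ≠ 0 → u ∈ Z) ∧
        ∀ z ∈ closedBall (0 : ℂ) P.r₂, ¬ α.IsCusp z → MerH.ordAt (P.lift α z) 𝔡.Wmer = 0 →
          𝔡.logW (P.lift α z) + Real.log (P.deriv α z) =
            Real.log ‖Gω z‖ + ∑ u ∈ Z, (omegaOrd 𝔡 P α u : ℝ) * Real.log ‖z - u‖ := by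
  have hpi := Real.pi_pos
  cases α with
  | H =>
    have hdisc : P.sH * P.r₂ < ((P.Y : ℂ) * Complex.I).im := by
      simpa using P.hH
    obtain ⟨G, hG, hG0, Z, hZ1, hZ2, hZ3⟩ :=
      merFn_affine_factorisation 𝔡.Wmer_ne_zero ((P.Y : ℂ) * Complex.I) P.hsH P.hr₂ hdisc
    have hs0 : (P.sH : ℂ) ≠ 0 := by exact_mod_cast P.hsH.ne'
    refine ⟨fun z => (P.sH : ℂ) * G z, ?_, fun z hz => mul_ne_zero hs0 (hG0 z hz), Z, hZ1,
      fun u hu h => (hZ2 u hu).mpr h, ?_⟩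
    · intro z hz
      exact analyticAt_const.mul (hG z hz)
    · intro z hz _ h0
      have h1 := hZ3 z hz
      rw [← lift_H_eq] at h1
      rw [h0] at h1
      simp only [Int.cast_zero, zero_mul, add_zero] at h1
      show Real.log ‖tcAt (P.lift ChartIdx.H z) 𝔡.Wmer‖ + Real.log P.sH = _
      rw [h1, norm_mul, Complex.norm_real, Real.norm_of_nonneg P.hsH.le,
        Real.log_mul P.hsH.ne' (norm_ne_zero_iff.mpr (hG0 z hz))]
      have : ∀ u, (omegaOrd 𝔡 P ChartIdx.H u : ℝ) =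
          (MerH.ordAt (affPt ((P.Y : ℂ) * Complex.I) P.sH u) 𝔡.Wmer : ℝ) := fun u => rfl
      simp only [this]
      ring
  | inf =>
    obtain ⟨G, hG, hG0, Z, hZ1, hZ2, hZ3⟩ :=
      cusp_factorisation (h := 1) 𝔡.isMerInf_Wmer 𝔡.Wmer_ne_zero P.hsInf P.hr₂ P.hInf'
    have h0Z : (0 : ℂ) ∈ Z := by
      refine (hZ2 0 (mem_closedBall_self P.hr₂.le)).mpr ?_
      rw [cuspOrd_zero, 𝔡.ordInf_Wmer]
      norm_num
    have hc0 : ((2 * Real.pi : ℝ) : ℂ)⁻¹ ≠ 0 := by
      apply inv_ne_zero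
      exact_mod_cast (by positivity : (2 * Real.pi : ℝ) ≠ 0)
    refine ⟨fun z => ((2 * Real.pi : ℝ) : ℂ)⁻¹ * G z, ?_, fun z hz => mul_ne_zero hc0 (hG0 z hz),
      Z, hZ1, ?_, ?_⟩
    · intro z hz
      exact analyticAt_const.mul (hG z hz)
    · intro u hu h
      refine (hZ2 u hu).mpr ?_
      intro h0
      apply h
      show cuspOrd 1 P.sInf 𝔡.Wmer u - (if u = 0 then 1 else 0) = 0
      by_cases hu0 : u = 0
      · subst hu0
        rw [cuspOrd_zero, 𝔡.ordInf_Wmer] at h0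
        norm_num at h0
      · rw [if_neg hu0, h0, sub_zero]
    · intro z hz hc h0
      have hz0 : z ≠ 0 := hc
      have h1 := hZ3 z hz
      rw [cuspLgn_of_ne _ _ _ hz0, ← lift_inf_eq, h0] at h1
      simp only [Int.cast_zero, zero_mul, sub_zero] at h1
      have hzn : 0 < ‖z‖ := norm_pos_iff.mpr hz0
      show Real.log ‖tcAt (P.lift ChartIdx.inf z) 𝔡.Wmer‖ + Real.log (1 / (2 * Real.pi * ‖z‖)) = _
      have e : ∀ u, omegaOrd 𝔡 P ChartIdx.inf u =
          cuspOrd 1 P.sInf 𝔡.Wmer u - (if u = 0 then 1 else 0) := fun u => rfl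
      simp only [e]
      rw [sum_sub_ite_zero Z h0Z, h1, norm_mul, norm_inv, Complex.norm_real,
        Real.norm_of_nonneg (by positivity : (0 : ℝ) ≤ 2 * Real.pi),
        Real.log_mul (by positivity) (norm_ne_zero_iff.mpr (hG0 z hz)), Real.log_inv,
        one_div, Real.log_inv, Real.log_mul (by positivity) hzn.ne']
      ring
  | zero =>
    obtain ⟨G, hG, hG0, Z, hZ1, hZ2, hZ3⟩ :=
      cusp_factorisation (h := N) 𝔡.isMerInf_WmerS 𝔡.WmerS_ne_zero P.hsZero P.hr₂ P.hZero'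
    have hNpos : (0 : ℝ) < N := Nat.cast_pos.mpr (NeZero.pos N)
    have h0Z : (0 : ℂ) ∈ Z := by
      refine (hZ2 0 (mem_closedBall_self P.hr₂.le)).mpr ?_
      rw [cuspOrd_zero, 𝔡.ordInf_WmerS]
      positivity
    have hc0 : (((N : ℝ) / (2 * Real.pi) : ℝ) : ℂ) ≠ 0 := by
      exact_mod_cast (by positivity : ((N : ℝ) / (2 * Real.pi) : ℝ) ≠ 0)
    refine ⟨fun z => (((N : ℝ) / (2 * Real.pi) : ℝ) : ℂ) * G z, ?_,
      fun z hz => mul_ne_zero hc0 (hG0 z hz), Z, hZ1, ?_, ?_⟩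
    · intro z hz
      exact analyticAt_const.mul (hG z hz)
    · intro u hu h
      refine (hZ2 u hu).mpr ?_
      intro h0
      apply h
      show cuspOrd N P.sZero 𝔡.WmerS u - (if u = 0 then 1 else 0) = 0
      by_cases hu0 : u = 0
      · subst hu0
        rw [cuspOrd_zero, 𝔡.ordInf_WmerS] at h0
        have : (0 : ℤ) ≤ (𝔡.K0 (zeroN N) : ℤ) := Int.natCast_nonneg _
        omega
      · rw [if_neg hu0, h0, sub_zero]
    · intro z hz hc h0
      have hz0 : z ≠ 0 := hc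
      have hz2 : ‖z‖ ≤ P.r₂ := by rwa [mem_closedBall, dist_zero_right] at hz
      have h1 := hZ3 z hz
      rw [lift_zero_eq] at h0
      rw [cuspLgn_of_ne _ _ _ hz0, 𝔡.ordAt_WmerS, h0] at h1
      simp only [Int.cast_zero, zero_mul, sub_zero] at h1
      have hzn : 0 < ‖z‖ := norm_pos_iff.mpr hz0
      have hlog := 𝔡.logW_S_smul h0
      rw [cuspPt_coe P.hsZero hz0 (norm_sZero_mul_lt P hz2)] at hlog
      set τ' := Function.Periodic.invQParam (N : ℝ) ((P.sZero : ℂ) * z) with hτ'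
      have hτ0 : ‖τ'‖ ≠ 0 := by
        rw [norm_ne_zero_iff]
        intro h00
        have him := Function.Periodic.im_invQParam_pos_of_norm_lt_one hNpos
          (norm_sZero_mul_lt P hz2) (mul_ne_zero (by exact_mod_cast P.hsZero.ne') hz0)
        rw [← hτ', h00] at him
        simp at him
      show 𝔡.logW (P.lift ChartIdx.zero z) +
        Real.log ((N : ℝ) / (2 * Real.pi * ‖z‖ * ‖τ'‖ ^ 2)) = _
      have e : ∀ u, omegaOrd 𝔡 P ChartIdx.zero u =
          cuspOrd N P.sZero 𝔡.WmerS u - (if u = 0 then 1 else 0) := fun u => rfl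
      simp only [e]
      rw [sum_sub_ite_zero Z h0Z, lift_zero_eq, hlog, h1, norm_mul, Complex.norm_real,
        Real.norm_of_nonneg (by positivity : (0 : ℝ) ≤ (N : ℝ) / (2 * Real.pi)),
        Real.log_mul (by positivity) (norm_ne_zero_iff.mpr (hG0 z hz)),
        Real.log_div hNpos.ne' (by positivity), Real.log_div hNpos.ne' (by positivity),
        Real.log_mul (by positivity) (by positivity), Real.log_mul (by positivity) hzn.ne',
        Real.log_pow]
      push_cast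
      ring

/-! ### regrouping -/

section Regroup

variable {P}
variable (hN : N.Prime) (𝔄 : ArchAtlas (PtN N) ChartIdx)
  (hA : 𝔄.A = chartA (unifN N hN) P) (hpt : 𝔄.pt = chartPt (unifN N hN) P)
  (he : 𝔄.e = chartE P) (hr : 𝔄.r₂ = P.r₂)

include hA hpt he hr in
theorem sum_fib_regroup (α : ChartIdx) (c : PtN N →₀ ℕ) (Z : Finset ℂ)
    (hZ1 : ∀ u ∈ Z, u ∈ closedBall (0 : ℂ) P.r₂)
    (hZ2 : ∀ u ∈ closedBall (0 : ℂ) P.r₂, u ∈ chartA (unifN N hN) P α →
      c (chartPt (unifN N hN) P α u) ≠ 0 → u ∈ Z) (z : ℂ) :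
    ∑ u ∈ Z, (open Classical in if u ∈ chartA (unifN N hN) P α then
        ((chartE P α u : ℝ) * (c (chartPt (unifN N hN) P α u) : ℝ)) else 0) * Real.log ‖z - u‖ =
      ∑ Q ∈ c.support, (c Q : ℝ) * 𝔄.locSum α Q z := by
  classical
  set g : ℂ → ℝ := fun u => (if u ∈ chartA (unifN N hN) P α then
    ((chartE P α u : ℝ) * (c (chartPt (unifN N hN) P α u) : ℝ)) else 0) * Real.log ‖z - u‖ with hg
  set Z' := Z.filter (fun u => u ∈ chartA (unifN N hN) P α ∧ c (chartPt (unifN N hN) P α u) ≠ 0)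
    with hZ'
  have h1 : ∑ u ∈ Z, g u = ∑ u ∈ Z', g u := by
    rw [hZ', Finset.sum_filter_of_ne]
    intro u _ hgu
    by_contra hnot
    apply hgu
    rw [hg]
    simp only
    by_cases huA : u ∈ chartA (unifN N hN) P α
    · have : c (chartPt (unifN N hN) P α u) = 0 := by
        by_contra h0
        exact hnot ⟨huA, h0⟩
      rw [if_pos huA, this]
      simp
    · rw [if_neg huA, zero_mul]
  have hmaps : ∀ u ∈ Z', chartPt (unifN N hN) P α u ∈ c.support := by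
    intro u hu
    rw [hZ', Finset.mem_filter] at hu
    exact Finsupp.mem_support_iff.mpr hu.2.2
  show ∑ u ∈ Z, g u = _
  rw [h1, ← Finset.sum_fiberwise_of_maps_to hmaps]
  refine Finset.sum_congr rfl fun Q hQ => ?_
  have hfib : Z'.filter (fun u => chartPt (unifN N hN) P α u = Q) = 𝔄.fib α Q := by
    ext u
    rw [Finset.mem_filter, hZ', Finset.mem_filter, ArchAtlas.mem_fib, hA, hpt, hr]
    constructor
    · rintro ⟨⟨hu, huA, -⟩, hQu⟩
      have := hZ1 u hu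
      rw [mem_closedBall, dist_zero_right] at this
      exact ⟨huA, hQu, this⟩
    · rintro ⟨huA, hQu, hur⟩
      have hub : u ∈ closedBall (0 : ℂ) P.r₂ := by
        rw [mem_closedBall, dist_zero_right]
        exact hur
      have hc0 : c (chartPt (unifN N hN) P α u) ≠ 0 := by
        rw [hQu]
        exact Finsupp.mem_support_iff.mp hQ
      exact ⟨⟨hZ2 u hub huA hc0, huA, hc0⟩, hQu⟩
  rw [hfib, ArchAtlas.locSum, Finset.mul_sum]
  refine Finset.sum_congr rfl fun u hu => ?_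
  rw [ArchAtlas.mem_fib, hA, hpt] at hu
  rw [hg]
  simp only
  rw [if_pos hu.1, hu.2.1, he]
  ring

theorem sum_ell_regroup (α : ChartIdx) (E Z : Finset ℂ)
    (hE : ∀ u, u ∈ E ↔ ‖u‖ ≤ P.r₂ ∧ u ∈ chartA (unifN N hN) P α ∧ 1 < chartE P α u)
    (hZE : ∀ u ∈ E, u ∈ Z) (hZ1 : ∀ u ∈ Z, u ∈ closedBall (0 : ℂ) P.r₂) (z : ℂ) :
    ∑ u ∈ Z, (open Classical in if u ∈ chartA (unifN N hN) P α then
        ((chartE P α u : ℝ) - 1) else 0) * Real.log ‖z - u‖ =
      ∑ u ∈ E, ((chartE P α u : ℝ) - 1) * Real.log ‖z - u‖ := by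
  classical
  have hfil : Z.filter (fun u => u ∈ chartA (unifN N hN) P α ∧ 1 < chartE P α u) = E := by
    ext u
    rw [Finset.mem_filter, hE]
    constructor
    · rintro ⟨hu, huA, hu1⟩
      have := hZ1 u hu
      rw [mem_closedBall, dist_zero_right] at this
      exact ⟨this, huA, hu1⟩
    · rintro ⟨hur, huA, hu1⟩
      exact ⟨hZE u ((hE u).mpr ⟨hur, huA, hu1⟩), huA, hu1⟩
  rw [← hfil, Finset.sum_filter]
  refine Finset.sum_congr rfl fun u _ => ?_
  by_cases huA : u ∈ chartA (unifN N hN) P α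
  · by_cases hu1 : 1 < chartE P α u
    · rw [if_pos huA, if_pos ⟨huA, hu1⟩]
    · have hpos := chartE_pos hN P huA
      have h1 : chartE P α u = 1 := by omega
      rw [if_pos huA, if_neg (fun h => hu1 h.2), h1]
      simp
  · rw [if_neg huA, if_neg (fun h => huA h.1), zero_mul]

include hA hpt he hr in
/-- **the representation of `ω₀` in a chart.** -/
theorem omega_rep (α : ChartIdx) (E : Finset ℂ)
    (hE : ∀ u, u ∈ E ↔ ‖u‖ ≤ P.r₂ ∧ u ∈ chartA (unifN N hN) P α ∧ 1 < chartE P α u) :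
    ∃ Gω : ℂ → ℂ, AnalyticOnNhd ℂ Gω (closedBall 0 P.r₂) ∧
      (∀ z ∈ closedBall (0 : ℂ) P.r₂, Gω z ≠ 0) ∧
      ∀ z ∈ closedBall (0 : ℂ) P.r₂, ¬ α.IsCusp z → MerH.ordAt (P.lift α z) 𝔡.Wmer = 0 →
        𝔡.logW (P.lift α z) + Real.log (P.deriv α z) =
          Real.log ‖Gω z‖ + (∑ u ∈ E, ((chartE P α u : ℝ) - 1) * Real.log ‖z - u‖) +
            ∑ Q ∈ 𝔡.K0.support, (𝔡.K0 Q : ℝ) * 𝔄.locSum α Q z := by
  classical
  obtain ⟨Gω, hG, hG0, Z, hZ1, hZ2, hZ3⟩ := omega_factorisation 𝔡 P α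
  refine ⟨Gω, hG, hG0, fun z hz hc h0 => ?_⟩
  rw [hZ3 z hz hc h0, add_assoc]
  congr 1
  have hsplit : ∀ u ∈ Z, (omegaOrd 𝔡 P α u : ℝ) * Real.log ‖z - u‖ =
      (if u ∈ chartA (unifN N hN) P α then ((chartE P α u : ℝ) - 1) else 0) * Real.log ‖z - u‖ +
      (if u ∈ chartA (unifN N hN) P α then
        ((chartE P α u : ℝ) * (𝔡.K0 (chartPt (unifN N hN) P α u) : ℝ)) else 0) *
          Real.log ‖z - u‖ := by
    intro u _
    by_cases huA : u ∈ chartA (unifN N hN) P α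
    · rw [if_pos huA, if_pos huA, omegaOrd_eq 𝔡 P hN huA]
      push_cast
      ring
    · rw [if_neg huA, if_neg huA, omegaOrd_eq_zero 𝔡 P hN huA]
      simp
  rw [Finset.sum_congr rfl hsplit, Finset.sum_add_distrib]
  congr 1
  · refine sum_ell_regroup hN α E Z hE (fun u hu => ?_) hZ1 z
    obtain ⟨hur, huA, hu1⟩ := (hE u).mp hu
    apply hZ2 u (by rwa [mem_closedBall, dist_zero_right])
    rw [omegaOrd_eq 𝔡 P hN huA]
    have h1 : (1 : ℤ) < (chartE P α u : ℤ) := by exact_mod_cast hu1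
    have h2 : (0 : ℤ) ≤ (chartE P α u : ℤ) * (𝔡.K0 (chartPt (unifN N hN) P α u) : ℤ) := by
      positivity
    omega
  · refine sum_fib_regroup hN 𝔄 hA hpt he hr α 𝔡.K0 Z hZ1 (fun u hu huA hK => ?_) z
    apply hZ2 u hu
    rw [omegaOrd_eq 𝔡 P hN huA]
    have h1 : (1 : ℤ) ≤ (chartE P α u : ℤ) := by exact_mod_cast chartE_pos hN P huA
    have h2 : (1 : ℤ) ≤ (𝔡.K0 (chartPt (unifN N hN) P α u) : ℤ) := by
      exact_mod_cast Nat.one_le_iff_ne_zero.mpr hK
    have h3 : (1 : ℤ) ≤ (chartE P α u : ℤ) * (𝔡.K0 (chartPt (unifN N hN) P α u) : ℤ) := by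
      nlinarith
    omega

end Regroup

end Fermat.Agent.MW
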