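/-
MW / [ARCH] (helper9): (A4) at the archimedean place: `r Q + Σ_Z K0 Z · γ Z Q` is constant up to a
bounded error outside `Zp`, through the chain theorem.
-/
import Mathlib
import Fermat.Agent.MW.ARCH_helper9_OmegaRep

set_option autoImplicit false
set_option linter.unusedSectionVars false

open AlgebraicCurve CongruenceSubgroup MatrixGroups ModularGroup ModularCurve UpperHalfPlane Metric

namespace Fermat.Agent.MW

open Fermat.Agent.FF Fermat.Agent.X0N Fermat.Agent.JA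

attribute [local instance] algOmC isScalarTower_algOmC

variable {N : ℕ} [NeZero N] {𝔡 : DiffDatum N} {Zp : Finset (PtN N)}

/-- the regularised function of (A4). -/
noncomputable def archOm (𝔡 : DiffDatum N) (γ : PtN N → PtN N → ℝ) (r : PtN N → ℝ) (Q : PtN N) : ℝ :=
  r Q + ∑ Z ∈ 𝔡.K0.support, (𝔡.K0 Z : ℝ) * γ Z Q

section A4

variable (hN : N.Prime) {P : ChartParams N} (G : GeomPkg (unifN N hN) P)

/-- the elliptic parameters of a chart. -/
noncomputable def chartEll : ChartIdx → Finset ℂ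
  | ChartIdx.H => G.ell
  | ChartIdx.inf => ∅
  | ChartIdx.zero => ∅

theorem admH_of_one_lt_stabMult {τ : ℍ} (h : 1 < stabMult N τ) : τ ∈ admH := by
  by_contra hτ
  have h0 : jFun τ ≠ 0 := fun h0 => hτ ⟨0, by rw [h0, map_zero]⟩
  have h1 : jFun τ ≠ 1728 := fun h1 => hτ ⟨1728, by rw [h1, map_ofNat]⟩
  rw [stabMult_generic h0 h1] at h
  exact lt_irrefl _ h

theorem chartEll_spec (α : ChartIdx) (u : ℂ) :
    u ∈ chartEll hN G α ↔
      ‖u‖ ≤ P.r₂ ∧ u ∈ chartA (unifN N hN) P α ∧ 1 < chartE P α u := by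
  cases α with
  | H =>
    show u ∈ G.ell ↔ _
    rw [G.mem_ell]
    constructor
    · rintro ⟨h1, h2⟩
      exact ⟨h1, admH_of_one_lt_stabMult h2, h2⟩
    · rintro ⟨h1, -, h2⟩
      exact ⟨h1, h2⟩
  | inf =>
    show u ∈ (∅ : Finset ℂ) ↔ _
    constructor
    · intro h
      exact absurd h (Finset.notMem_empty u)
    · rintro ⟨h1, -, h2⟩
      exfalso
      by_cases hu : u = 0
      · simp [chartE, hu] at h2
      · have := G.stabMult_cusp ChartIdx.inf (by simp) u hu h1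
        simp only [chartE, hu, if_false] at h2
        omega
  | zero =>
    show u ∈ (∅ : Finset ℂ) ↔ _
    constructor
    · intro h
      exact absurd h (Finset.notMem_empty u)
    · rintro ⟨h1, -, h2⟩
      exfalso
      by_cases hu : u = 0
      · simp [chartE, hu] at h2
      · have := G.stabMult_cusp ChartIdx.zero (by simp) u hu h1
        simp only [chartE, hu, if_false] at h2
        omega

/-- the elliptic sum is the diagonal local sum up to `L`. -/
theorem chartEll_bound (α : ChartIdx) {z : ℂ} (hz : z ∈ G.atlas.A α) (hz1 : ‖z‖ ≤ G.atlas.r₁)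
    (hs : stabMult N (P.lift α z) = 1) :
    |(∑ u ∈ chartEll hN G α, ((chartE P α u : ℝ) - 1) * Real.log ‖z - u‖) -
      G.atlas.locSum α (G.atlas.pt α z) z| ≤ G.L := by
  cases α with
  | H => exact G.hell z hz hz1 hs
  | inf =>
    have h0 : G.atlas.locSum ChartIdx.inf (G.atlas.pt ChartIdx.inf z) z = 0 := by
      unfold ArchAtlas.locSum
      apply Finset.sum_eq_zero
      intro u hu
      rw [ArchAtlas.mem_fib] at hu
      have hz2 : ‖z‖ ≤ P.r₂ := by
        rw [G.atlas_r₁] at hz1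
        exact hz1.trans P.hr₁₂.le
      have hu2 : ‖u‖ ≤ P.r₂ := by rw [← G.atlas_r₂]; exact hu.2.2
      have := G.inj_cusp ChartIdx.inf (by simp) u hu.1 z hz hu2 hz2 hu.2.1
      rw [this]
      simp
    show |(∑ u ∈ (∅ : Finset ℂ), _) - _| ≤ _
    rw [Finset.sum_empty, h0, sub_zero, abs_zero]
    exact G.hL
  | zero =>
    have h0 : G.atlas.locSum ChartIdx.zero (G.atlas.pt ChartIdx.zero z) z = 0 := by
      unfold ArchAtlas.locSum
      apply Finset.sum_eq_zero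
      intro u hu
      rw [ArchAtlas.mem_fib] at hu
      have hz2 : ‖z‖ ≤ P.r₂ := by
        rw [G.atlas_r₁] at hz1
        exact hz1.trans P.hr₁₂.le
      have hu2 : ‖u‖ ≤ P.r₂ := by rw [← G.atlas_r₂]; exact hu.2.2
      have := G.inj_cusp ChartIdx.zero (by simp) u hu.1 z hz hu2 hz2 hu.2.1
      rw [this]
      simp
    show |(∑ u ∈ (∅ : Finset ℂ), _) - _| ≤ _
    rw [Finset.sum_empty, h0, sub_zero, abs_zero]
    exact G.hL

/-- **the local representation of `archOm`.** -/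
theorem omega_local (h : ZpOK 𝔡 Zp) (α : ChartIdx) {Gω : ℂ → ℂ}
    (hrep : ∀ z ∈ closedBall (0 : ℂ) P.r₂, ¬ α.IsCusp z → MerH.ordAt (P.lift α z) 𝔡.Wmer = 0 →
      𝔡.logW (P.lift α z) + Real.log (P.deriv α z) =
        Real.log ‖Gω z‖ +
          (∑ u ∈ chartEll hN G α, ((chartE P α u : ℝ) - 1) * Real.log ‖z - u‖) +
          ∑ Q ∈ 𝔡.K0.support, (𝔡.K0 Q : ℝ) * G.atlas.locSum α Q z)
    {z : ℂ} (hz : z ∈ G.atlas.A α) (hz1 : ‖z‖ ≤ G.atlas.r₁) (hQ : G.atlas.pt α z ∉ Zp)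
    (hQinf : G.atlas.pt α z ≠ infN N) :
    |archOm 𝔡 G.γ (archR 𝔡 P.sInf G.ϱ) (G.atlas.pt α z) - Real.log ‖Gω z‖| ≤
      (2 + (ndeg 𝔡.K0 : ℝ)) * G.L := by
  set Q := G.atlas.pt α z with hQdef
  have hpt : Q = chartPt (unifN N hN) P α z := G.pt_eq hN α z
  have hzA : z ∈ chartA (unifN N hN) P α := (G.mem_A_iff hN α z).mp hz
  have hz1' : ‖z‖ ≤ P.r₁ := by rw [← G.atlas_r₁]; exact hz1
  have hz2 : ‖z‖ ≤ P.r₂ := hz1'.trans P.hr₁₂.le
  have hzb : z ∈ closedBall (0 : ℂ) P.r₂ := by rwa [mem_closedBall, dist_zero_right]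
  have hc : ¬ α.IsCusp z := by
    intro hc
    cases α with
    | H => exact absurd hc (by simp [ChartIdx.IsCusp])
    | inf =>
      have hz0 : z = 0 := hc
      subst hz0
      exact hQinf (by rw [hpt, chartPt_of_isCusp_inf])
    | zero =>
      have hz0 : z = 0 := hc
      subst hz0
      have hQz : Q = zeroN N := by rw [hpt, chartPt_of_isCusp_zero]
      exact hQ (by rw [hQz]; exact h.zeroN_mem hN)
  have hτ : P.lift α z ∈ admH := lift_mem_admH hN hc hzA
  have hQτ : Q = ptH N (P.lift α z) := by rw [hpt, chartPt_of_not_isCusp hN hc]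
  obtain ⟨g0, g1, gK, gs, gW⟩ := h.generic hτ (by rw [← hQτ]; exact hQ)
  have hr : archR 𝔡 P.sInf G.ϱ Q = 𝔡.logW (P.lift α z) + G.ϱ (P.lift α z) := by
    rw [hQτ, archR_eq P.sInf G.ϱ_smul hτ gW]
  have hW := hrep z hzb hc gW
  have hb1 := G.hϱ α z hz hz1 hc gs
  have hb2 := chartEll_bound hN G α hz hz1 gs
  rw [← hQdef] at hb1 hb2
  -- the third part
  have hb3 : |∑ Z ∈ 𝔡.K0.support, (𝔡.K0 Z : ℝ) * (G.γ Z Q + G.atlas.locSum α Z z)| ≤
      (ndeg 𝔡.K0 : ℝ) * G.L := by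
    have e : ((ndeg 𝔡.K0 : ℕ) : ℝ) * G.L = ∑ Z ∈ 𝔡.K0.support, (𝔡.K0 Z : ℝ) * G.L := by
      rw [ndeg, Finsupp.sum, ← Finset.sum_mul]
      push_cast
      rfl
    rw [e]
    refine (Finset.abs_sum_le_sum_abs _ _).trans (Finset.sum_le_sum fun Z hZ => ?_)
    rw [abs_mul, abs_of_nonneg (Nat.cast_nonneg _)]
    refine mul_le_mul_of_nonneg_left ?_ (Nat.cast_nonneg _)
    apply G.hγ α z hz hz1 Z
    intro hZQ
    apply hQ
    have : Q = Z := hZQ.symm
    rw [this]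
    exact h.K0 Z hZ
  have key : archOm 𝔡 G.γ (archR 𝔡 P.sInf G.ϱ) Q - Real.log ‖Gω z‖ =
      (G.ϱ (P.lift α z) - Real.log (P.deriv α z) + G.atlas.locSum α Q z) +
      ((∑ u ∈ chartEll hN G α, ((chartE P α u : ℝ) - 1) * Real.log ‖z - u‖) -
        G.atlas.locSum α Q z) +
      ∑ Z ∈ 𝔡.K0.support, (𝔡.K0 Z : ℝ) * (G.γ Z Q + G.atlas.locSum α Z z) := by
    unfold archOm
    rw [hr]
    simp only [mul_add, Finset.sum_add_distrib]
    linarith
  rw [key]
  have t1 := abs_add_le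
    ((G.ϱ (P.lift α z) - Real.log (P.deriv α z) + G.atlas.locSum α Q z) +
      ((∑ u ∈ chartEll hN G α, ((chartE P α u : ℝ) - 1) * Real.log ‖z - u‖) -
        G.atlas.locSum α Q z))
    (∑ Z ∈ 𝔡.K0.support, (𝔡.K0 Z : ℝ) * (G.γ Z Q + G.atlas.locSum α Z z))
  have t2 := abs_add_le (G.ϱ (P.lift α z) - Real.log (P.deriv α z) + G.atlas.locSum α Q z)
    ((∑ u ∈ chartEll hN G α, ((chartE P α u : ℝ) - 1) * Real.log ‖z - u‖) -
        G.atlas.locSum α Q z)
  linarith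

/-- **(A4) at the archimedean place.** -/
theorem arch_omega (h : ZpOK 𝔡 Zp) :
    ∃ c C : ℝ, 0 ≤ C ∧ ∀ Q : PtN N, Q ∉ Zp →
      |archOm 𝔡 G.γ (archR 𝔡 P.sInf G.ϱ) Q - c| ≤ C := by
  classical
  choose Gfam hGan hG0 hrep using fun α =>
    omega_rep 𝔡 hN G.atlas G.atlas_A G.atlas_pt G.atlas_e G.atlas_r₂ α (chartEll hN G α)
      (chartEll_spec hN G α)
  have hE : 0 ≤ (2 + (ndeg 𝔡.K0 : ℝ)) * G.L :=
    mul_nonneg (by positivity) G.hL
  set B : Set (PtN N) := (Zp : Set (PtN N)) ∪ {infN N} with hB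
  have hBfin : B.Finite := (Zp.finite_toSet).union (Set.finite_singleton _)
  have hr12 : G.atlas.r₁ ≤ P.r₂ := by
    rw [G.atlas_r₁]
    exact P.hr₁₂.le
  obtain ⟨c, hc⟩ := G.atlas.chain_core hE (archOm 𝔡 G.γ (archR 𝔡 P.sInf G.ϱ)) B hBfin Gfam
    (fun α => (hGan α).mono (closedBall_subset_closedBall hr12))
    (fun α z hz => hG0 α z (closedBall_subset_closedBall hr12 hz))
    (fun α z hz hz1 hQB => by
      have hQ : G.atlas.pt α z ∉ Zp := fun hm => hQB (Or.inl hm)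
      have hQinf : G.atlas.pt α z ≠ infN N := fun he => hQB (Or.inr he)
      exact omega_local hN G h α (hrep α) hz hz1 hQ hQinf)
  refine ⟨c, max (G.atlas.chainConst ((2 + (ndeg 𝔡.K0 : ℝ)) * G.L))
    |archOm 𝔡 G.γ (archR 𝔡 P.sInf G.ϱ) (infN N) - c|, le_max_of_le_right (abs_nonneg _), ?_⟩
  intro Q hQ
  by_cases hQinf : Q = infN N
  · rw [hQinf]
    exact le_max_right _ _
  · refine (hc Q ?_).trans (le_max_left _ _)
    rintro (hm | hm)
    · exact hQ hm
    · exact hQinf hm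

end A4

end Fermat.Agent.MW
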