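/-
MW / [ARCH] (helper9): assembly of the archimedean local package `LocalPkgAt N 𝔡 Zp none` from the
geometry package, (A3) `arch_weil`, (A4) `arch_omega` and the statement of (A7).
-/
import Mathlib
import Fermat.Agent.MW.ARCH_helper9_OmegaChain

set_option autoImplicit false
set_option linter.unusedSectionVars false

open AlgebraicCurve CongruenceSubgroup MatrixGroups ModularGroup ModularCurve UpperHalfPlane Metric

namespace Fermat.Agent.MW

open Fermat.Agent.FF Fermat.Agent.X0N Fermat.Agent.JA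

attribute [local instance] algOmC isScalarTower_algOmC

variable {N : ℕ} [NeZero N] {𝔡 : DiffDatum N} {Zp : Finset (PtN N)}

/-- the statement of (A7) at the archimedean place, in terms of `archU`. -/
def ArchSup (𝔡 : DiffDatum N) (Zp : Finset (PtN N)) (γ : PtN N → PtN N → ℝ) (r : PtN N → ℝ) : Prop :=
  ∃ C7 : ℝ, 0 ≤ C7 ∧ ∀ (c : Fin 𝔡.gq → AlgebraicClosure ℚ) (M : ℝ) (D : PtN N →₀ ℤ), 0 < M →
    (∀ k, absv none (c k) ≤ M) → (∑ k, c k • 𝔡.φ k) ≠ 0 → IsDivOf N (∑ k, c k • 𝔡.φ k) D →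
    ∀ Q : PtN N, Q ∉ Zp → archU 𝔡 γ r (∑ k, c k • 𝔡.φ k) D Q ≤ Real.log M + C7

/-- **the archimedean local package**, from the geometry package and (A7). -/
theorem nonempty_localPkgAt_of_geom (hN : N.Prime) {P : ChartParams N}
    (G : GeomPkg (unifN N hN) P) (h : ZpOK 𝔡 Zp)
    (hsup : ArchSup 𝔡 Zp G.γ (archR 𝔡 P.sInf G.ϱ)) :
    Nonempty (LocalPkgAt N 𝔡 Zp none) := by
  obtain ⟨cω, Cω, hCω, hom⟩ := arch_omega hN G h
  obtain ⟨C7, hC7, hs⟩ := hsup
  exact ⟨{
    γ := G.γ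
    r := archR 𝔡 P.sInf G.ϱ
    Cγ := 0
    Cw := fun d => G.atlas.chainConst ((d : ℝ) * G.L)
    cω := cω
    Cω := Cω
    C7 := C7
    Cγ_nonneg := le_refl _
    Cw_nonneg := fun d => G.atlas.chainConst_nonneg (mul_nonneg (Nat.cast_nonneg d) G.hL)
    Cω_nonneg := hCω
    C7_nonneg := hC7
    γ_symm := G.γ_symm
    γ_lower := fun P Q _ => by
      rw [neg_zero]
      exact G.γ_nonneg P Q
    weil := fun d f D hf hD hd => arch_weil hN G h d hf hD hd
    omega := fun Q hQ => hom Q hQ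
    sup := fun c M D hM hc hψ hD Q hQ => hs c M D hM hc hψ hD Q hQ }⟩

end Fermat.Agent.MW
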