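/-
MW / [ARCH]-GEOM (helper4), layer 1: elementary hyperbolic geometry of the action of `SL(2,ℤ)` on
`ℍ`: proper discontinuity, the pseudo-hyperbolic distance `pdist = tanh (d/2)`, the truncated
logarithmic kernel, heights of translates, fixed points.  Mathlib only.
-/
import Mathlib

set_option autoImplicit false

namespace Fermat.Agent.MW

open UpperHalfPlane ModularGroup Matrix
open scoped MatrixGroups

/-- proper discontinuity of `SL(2,ℤ)` on `ℍ`. -/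
theorem finite_setOf_smul_mem {K L : Set ℍ} (hK : IsCompact K) (hL : IsCompact L) :
    {g : SL(2, ℤ) | ∃ τ ∈ K, g • τ ∈ L}.Finite := by
  have h := properlyDiscontinuousSL2ZRange.finite_disjoint_inter_image hK hL
  let f : SL(2, ℤ) → ↥(SpecialLinearGroup.mapGL ℝ (n := Fin 2) (R := ℤ)).range :=
    fun g => ⟨SpecialLinearGroup.mapGL ℝ g, ⟨g, rfl⟩⟩
  have hf : Function.Injective f := by
    intro a b hab
    have := congrArg Subtype.val hab
    exact SpecialLinearGroup.mapGL_injective this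
  refine (h.preimage hf.injOn).subset ?_
  rintro g ⟨τ, hτK, hτL⟩
  exact ⟨g • τ, ⟨τ, hτK, rfl⟩, hτL⟩

/-- `SL(2,ℤ)` acts by hyperbolic isometries. -/
theorem dist_smul_smul_SL2Z (g : SL(2, ℤ)) (τ τ' : ℍ) : dist (g • τ) (g • τ') = dist τ τ' := by
  have h1 : ∀ z : ℍ, g • z = (SpecialLinearGroup.map (Int.castRingHom ℝ) g : SL(2, ℝ)) • z :=
    fun _ => rfl
  rw [h1, h1]
  exact dist_smul _ _ _

/-- the pseudo-hyperbolic distance `|τ - τ'| / |τ - conj τ'| = tanh (d(τ,τ')/2)`. -/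
noncomputable def pdist (τ τ' : ℍ) : ℝ :=
  dist (τ : ℂ) τ' / dist (τ : ℂ) (starRingEnd ℂ (τ' : ℂ))

theorem pdist_eq_tanh (τ τ' : ℍ) : pdist τ τ' = Real.tanh (dist τ τ' / 2) :=
  (tanh_half_dist τ τ').symm

theorem pdist_smul (g : SL(2, ℤ)) (τ τ' : ℍ) : pdist (g • τ) (g • τ') = pdist τ τ' := by
  rw [pdist_eq_tanh, pdist_eq_tanh, dist_smul_smul_SL2Z]

theorem pdist_comm (τ τ' : ℍ) : pdist τ τ' = pdist τ' τ := by
  rw [pdist_eq_tanh, pdist_eq_tanh, dist_comm]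

theorem pdist_nonneg (τ τ' : ℍ) : 0 ≤ pdist τ τ' := by
  unfold pdist; positivity

theorem pdist_lt_one (τ τ' : ℍ) : pdist τ τ' < 1 := by
  rw [pdist_eq_tanh]; exact Real.tanh_lt_one _

theorem pdist_self (τ : ℍ) : pdist τ τ = 0 := by
  unfold pdist; simp

/-- `Im τ + Im w ≤ |τ - conj w|`. -/
theorem im_add_im_le_dist_conj (τ w : ℍ) :
    τ.im + w.im ≤ dist (τ : ℂ) (starRingEnd ℂ (w : ℂ)) := by
  rw [Complex.dist_eq]
  have h := Complex.abs_im_le_norm ((τ : ℂ) - starRingEnd ℂ (w : ℂ))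
  have h2 : ((τ : ℂ) - starRingEnd ℂ (w : ℂ)).im = τ.im + w.im := by
    simp [Complex.sub_im, Complex.conj_im]
  rw [h2] at h
  exact (le_abs_self _).trans h

theorem dist_conj_pos (τ w : ℍ) : 0 < dist (τ : ℂ) (starRingEnd ℂ (w : ℂ)) :=
  lt_of_lt_of_le (add_pos τ.im_pos w.im_pos) (im_add_im_le_dist_conj τ w)

/-- `|τ - conj w| ≤ |τ - w| + 2 Im τ`. -/
theorem dist_conj_le (τ w : ℍ) :
    dist (τ : ℂ) (starRingEnd ℂ (w : ℂ)) ≤ dist (τ : ℂ) w + 2 * τ.im := by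
  have h1 : dist (τ : ℂ) (starRingEnd ℂ (w : ℂ)) = dist (starRingEnd ℂ (τ : ℂ)) (w : ℂ) := by
    rw [Complex.dist_eq, Complex.dist_eq, ← Complex.norm_conj ((τ : ℂ) - starRingEnd ℂ (w : ℂ))]
    simp
  have h2 : dist (starRingEnd ℂ (τ : ℂ)) (τ : ℂ) = 2 * τ.im := by
    rw [Complex.dist_eq]
    have : starRingEnd ℂ (τ : ℂ) - (τ : ℂ) = ((-(2 * τ.im) : ℝ) : ℂ) * Complex.I := by
      apply Complex.ext <;> simp [Complex.conj_re, Complex.conj_im]; ring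
    rw [this, norm_mul, Complex.norm_I, mul_one, Complex.norm_real, Real.norm_eq_abs, abs_neg,
      abs_of_pos (by have := τ.im_pos; linarith)]
  rw [h1]
  calc dist (starRingEnd ℂ (τ : ℂ)) (w : ℂ)
      ≤ dist (starRingEnd ℂ (τ : ℂ)) (τ : ℂ) + dist (τ : ℂ) (w : ℂ) := dist_triangle _ _ _
    _ = dist (τ : ℂ) w + 2 * τ.im := by rw [h2]; ring

theorem dist_eq_pdist_mul (τ w : ℍ) :
    dist (τ : ℂ) w = pdist τ w * dist (τ : ℂ) (starRingEnd ℂ (w : ℂ)) := by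
  unfold pdist
  rw [div_mul_cancel₀ _ (dist_conj_pos τ w).ne']

theorem pdist_eq_zero {τ w : ℍ} (h : pdist τ w = 0) : τ = w := by
  have h1 := dist_eq_pdist_mul τ w
  rw [h, zero_mul] at h1
  exact UpperHalfPlane.ext (dist_eq_zero.mp h1)

theorem pdist_pos {τ w : ℍ} (h : τ ≠ w) : 0 < pdist τ w :=
  lt_of_le_of_ne (pdist_nonneg τ w) (fun h0 => h (pdist_eq_zero h0.symm))

/-- a small pseudo-hyperbolic distance forces a small Euclidean distance. -/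
theorem dist_le_of_pdist_le {τ w : ℍ} {ρ : ℝ} (hρ : ρ ≤ 1 / 2) (h : pdist τ w ≤ ρ) :
    dist (τ : ℂ) w ≤ 4 * ρ * τ.im := by
  have h0 := pdist_nonneg τ w
  have h1 := dist_eq_pdist_mul τ w
  have h2 := dist_conj_le τ w
  have h3 : (0 : ℝ) ≤ dist (τ : ℂ) w := dist_nonneg
  have h4 := τ.im_pos
  have h5 : dist (τ : ℂ) w ≤ pdist τ w * (dist (τ : ℂ) w + 2 * τ.im) := by
    calc dist (τ : ℂ) w = pdist τ w * dist (τ : ℂ) (starRingEnd ℂ (w : ℂ)) := h1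
      _ ≤ pdist τ w * (dist (τ : ℂ) w + 2 * τ.im) := mul_le_mul_of_nonneg_left h2 h0
  have h6 : pdist τ w * (dist (τ : ℂ) w + 2 * τ.im) ≤ ρ * (dist (τ : ℂ) w + 2 * τ.im) :=
    mul_le_mul_of_nonneg_right h (by positivity)
  have hρ0 : 0 ≤ ρ := h0.trans h
  nlinarith

theorem pdist_le_dist_div {τ w : ℍ} : pdist τ w ≤ dist (τ : ℂ) w / (τ.im + w.im) := by
  unfold pdist
  exact div_le_div_of_nonneg_left dist_nonneg (add_pos τ.im_pos w.im_pos)
    (im_add_im_le_dist_conj τ w)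

/-- the truncated logarithmic kernel `max 0 (log (ρ / pdist))`. -/
noncomputable def kern (ρ : ℝ) (τ τ' : ℍ) : ℝ := max 0 (Real.log (ρ / pdist τ τ'))

theorem kern_nonneg (ρ : ℝ) (τ τ' : ℍ) : 0 ≤ kern ρ τ τ' := le_max_left _ _

theorem kern_smul (ρ : ℝ) (g : SL(2, ℤ)) (τ τ' : ℍ) : kern ρ (g • τ) (g • τ') = kern ρ τ τ' := by
  unfold kern; rw [pdist_smul]

theorem kern_comm (ρ : ℝ) (τ τ' : ℍ) : kern ρ τ τ' = kern ρ τ' τ := by
  unfold kern; rw [pdist_comm]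

theorem kern_self (ρ : ℝ) (τ : ℍ) : kern ρ τ τ = 0 := by
  unfold kern; rw [pdist_self]; simp

theorem kern_eq_zero_of_le {ρ : ℝ} (hρ : 0 < ρ) {τ τ' : ℍ} (h : ρ ≤ pdist τ τ') :
    kern ρ τ τ' = 0 := by
  unfold kern
  apply max_eq_left
  have hp : 0 < pdist τ τ' := lt_of_lt_of_le hρ h
  apply Real.log_nonpos (by positivity)
  rw [div_le_one hp]; exact h

theorem pdist_lt_of_kern_ne_zero {ρ : ℝ} (hρ : 0 < ρ) {τ τ' : ℍ} (h : kern ρ τ τ' ≠ 0) :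
    pdist τ τ' < ρ := by
  by_contra h1
  exact h (kern_eq_zero_of_le hρ (not_lt.mp h1))

theorem ne_of_kern_ne_zero {ρ : ℝ} {τ τ' : ℍ} (h : kern ρ τ τ' ≠ 0) : τ ≠ τ' := by
  rintro rfl; exact h (kern_self ρ τ)

theorem kern_of_lt {ρ : ℝ} {τ τ' : ℍ} (hne : τ ≠ τ') (h : pdist τ τ' ≤ ρ) :
    kern ρ τ τ' = Real.log ρ - Real.log (pdist τ τ') := by
  have hp := pdist_pos hne
  have hρ : 0 < ρ := lt_of_lt_of_le hp h
  unfold kern
  rw [max_eq_right, Real.log_div hρ.ne' hp.ne']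
  apply Real.log_nonneg
  rw [le_div_iff₀ hp]; linarith

/-! ### heights -/

theorem normSq_denom_eq (g : SL(2, ℤ)) (τ : ℍ) :
    Complex.normSq (denom g τ) = ((g 1 0 : ℤ) * τ.re + (g 1 1 : ℤ)) ^ 2 + ((g 1 0 : ℤ) * τ.im) ^ 2 := by
  rw [ModularGroup.denom_apply, Complex.normSq_apply]
  simp
  ring

theorem normSq_denom_pos (g : SL(2, ℤ)) (τ : ℍ) : 0 < Complex.normSq (denom g τ) :=
  Complex.normSq_pos.mpr (denom_ne_zero g τ)

theorem det_eq_one' (g : SL(2, ℤ)) : g 0 0 * g 1 1 - g 0 1 * g 1 0 = 1 := by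
  have := g.det_coe
  rw [Matrix.det_fin_two] at this
  exact this

theorem im_smul_eq_of_c_eq_zero {g : SL(2, ℤ)} (hc : g 1 0 = 0) (τ : ℍ) : (g • τ).im = τ.im := by
  rw [ModularGroup.im_smul_eq_div_normSq, normSq_denom_eq, hc]
  have h1 := det_eq_one' g
  rw [hc] at h1
  have h2 : g 1 1 * g 1 1 = 1 := by
    have : g 0 0 * g 1 1 = 1 := by linarith
    rcases Int.eq_one_or_neg_one_of_mul_eq_one' this with ⟨_, h⟩ | ⟨_, h⟩ <;> rw [h] <;> norm_num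
  have h3 : ((g 1 1 : ℤ) : ℝ) ^ 2 = 1 := by
    rw [sq]; exact_mod_cast h2
  simp [h3]

theorem im_smul_le_inv_of_c_ne_zero {g : SL(2, ℤ)} (hc : g 1 0 ≠ 0) (τ : ℍ) :
    (g • τ).im ≤ 1 / τ.im := by
  rw [ModularGroup.im_smul_eq_div_normSq, normSq_denom_eq]
  have h0 := τ.im_pos
  have h1 : (1 : ℝ) ≤ ((g 1 0 : ℤ) : ℝ) ^ 2 := by
    have : (1 : ℤ) ≤ (g 1 0) ^ 2 := by
      have := Int.one_le_abs hc
      calc (1 : ℤ) = 1 ^ 2 := by norm_num
        _ ≤ |g 1 0| ^ 2 := by gcongr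
        _ = (g 1 0) ^ 2 := sq_abs _
    exact_mod_cast this
  have h2 : τ.im ^ 2 ≤ ((g 1 0 : ℤ) * τ.re + (g 1 1 : ℤ)) ^ 2 + ((g 1 0 : ℤ) * τ.im) ^ 2 := by
    have : τ.im ^ 2 ≤ ((g 1 0 : ℤ) * τ.im) ^ 2 := by
      rw [mul_pow]; nlinarith [sq_nonneg τ.im]
    nlinarith [sq_nonneg (((g 1 0 : ℤ) : ℝ) * τ.re + (g 1 1 : ℤ))]
  rw [div_le_div_iff₀ (lt_of_lt_of_le (by positivity) h2) h0]
  nlinarith

theorem im_smul_le_max (g : SL(2, ℤ)) (τ : ℍ) : (g • τ).im ≤ max τ.im (1 / τ.im) := by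
  by_cases hc : g 1 0 = 0
  · rw [im_smul_eq_of_c_eq_zero hc]; exact le_max_left _ _
  · exact (im_smul_le_inv_of_c_ne_zero hc τ).trans (le_max_right _ _)

theorem c_eq_zero_of_one_lt_im {g : SL(2, ℤ)} {τ : ℍ} (h1 : 1 < τ.im) (h2 : 1 ≤ (g • τ).im) :
    g 1 0 = 0 := by
  by_contra hc
  have h3 := im_smul_le_inv_of_c_ne_zero hc τ
  have h4 : 1 / τ.im < 1 := by rw [div_lt_one (by linarith)]; exact h1
  linarith

theorem coe_smul_of_c_eq_zero {g : SL(2, ℤ)} (hc : g 1 0 = 0) :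
    ∃ n : ℤ, ∀ τ : ℍ, ((g • τ : ℍ) : ℂ) = τ + n := by
  obtain ⟨n, hn⟩ := exists_eq_T_zpow_of_c_eq_zero hc
  refine ⟨n, fun τ => ?_⟩
  rw [hn, modular_T_zpow_smul]
  simp [add_comm]

/-- the only elements of `SL(2,ℤ)` acting trivially on `ℍ` are `±1`; more precisely an element
fixing two distinct points is `±1`. -/
theorem eq_one_or_neg_one_of_fix_two {g : SL(2, ℤ)} {τ τ' : ℍ} (hne : τ ≠ τ')
    (h1 : g • τ = τ) (h2 : g • τ' = τ') : g = 1 ∨ g = -1 := by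
  have e1 : ((g • τ : ℍ) : ℂ) = τ := by rw [h1]
  have e2 : ((g • τ' : ℍ) : ℂ) = τ' := by rw [h2]
  rw [coe_specialLinearGroup_apply] at e1 e2
  have d1 : ((g 1 0 : ℤ) : ℂ) * τ + ((g 1 1 : ℤ) : ℂ) ≠ 0 := by
    have := denom_ne_zero g τ
    rwa [ModularGroup.denom_apply] at this
  have d2 : ((g 1 0 : ℤ) : ℂ) * τ' + ((g 1 1 : ℤ) : ℂ) ≠ 0 := by
    have := denom_ne_zero g τ'
    rwa [ModularGroup.denom_apply] at this
  simp only [algebraMap_int_eq, eq_intCast, Complex.ofReal_intCast] at e1 e2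
  rw [div_eq_iff d1] at e1
  rw [div_eq_iff d2] at e2
  -- c τ² + (d - a) τ - b = 0 for both
  have hne' : (τ : ℂ) ≠ τ' := fun h => hne (UpperHalfPlane.ext h)
  have q : ((g 1 0 : ℤ) : ℂ) * ((τ : ℂ) + τ') + (((g 1 1 : ℤ) : ℂ) - ((g 0 0 : ℤ) : ℂ)) = 0 := by
    have : ((τ : ℂ) - τ') * (((g 1 0 : ℤ) : ℂ) * ((τ : ℂ) + τ') +
        (((g 1 1 : ℤ) : ℂ) - ((g 0 0 : ℤ) : ℂ))) = 0 := by
      linear_combination e2 - e1
    rcases mul_eq_zero.mp this with h | h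
    · exact absurd (sub_eq_zero.mp h) hne'
    · exact h
  have hc : g 1 0 = 0 := by
    by_contra hc
    have := congrArg Complex.im q
    simp at this
    rcases this with h | h
    · exact hc h
    · have := τ.im_pos; have := τ'.im_pos; linarith
  have hda : g 1 1 = g 0 0 := by
    rw [hc] at q
    simp at q
    have : ((g 1 1 : ℤ) : ℂ) = ((g 0 0 : ℤ) : ℂ) := by linear_combination q
    exact_mod_cast this
  have hb : g 0 1 = 0 := by
    rw [hc, hda] at e1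
    simp at e1
    have : ((g 0 1 : ℤ) : ℂ) = 0 := by linear_combination e1
    exact_mod_cast this
  have hdet := det_eq_one' g
  rw [hc, hb, hda] at hdet
  have : g 0 0 * g 0 0 = 1 := by linarith
  rcases Int.eq_one_or_neg_one_of_mul_eq_one' this with ⟨ha, _⟩ | ⟨ha, _⟩
  · left
    ext i j
    fin_cases i <;> fin_cases j <;> simp [ha, hb, hc, hda]
  · right
    ext i j
    fin_cases i <;> fin_cases j <;> simp [ha, hb, hc, hda]

end Fermat.Agent.MW
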