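/-
MW / [ARCH]-GEOM (helper4), layer 2: group theory of `Γ₀(N)` acting on `ℍ`: cusp data (`∞` and `0`),
coset representatives for prime level, stabilisers and orbit counting.
-/
import Mathlib
import Fermat.Agent.MW.GEOM_helper4_Basic
import Fermat.Agent.MW.ARCH_helper9_Unif

set_option autoImplicit false

namespace Fermat.Agent.MW

open UpperHalfPlane ModularGroup Matrix CongruenceSubgroup
open scoped MatrixGroups

variable {N : ℕ}

theorem neg_one_mem_Gamma0 : (-1 : SL(2, ℤ)) ∈ Gamma0 N := by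
  rw [Gamma0_mem]; simp

theorem T_zpow_mem_Gamma0 (n : ℤ) : (T ^ n : SL(2, ℤ)) ∈ Gamma0 N := by
  rw [Gamma0_mem, coe_T_zpow]; simp

theorem S_T_zpow_S_mem_Gamma0 (n : ℤ) : S * T ^ (n * (N : ℤ)) * S⁻¹ ∈ Gamma0 N := by
  rw [Gamma0_mem]
  simp [coe_T_zpow, coe_S, Matrix.adjugate_fin_two, Matrix.mul_apply, Fin.sum_univ_two]

/-- a point of height `> 1` is fixed only by `±1`. -/
theorem eq_one_or_neg_one_of_fix {g : SL(2, ℤ)} {τ : ℍ} (h1 : 1 < τ.im) (hfix : g • τ = τ) :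
    g = 1 ∨ g = -1 := by
  have hc : g 1 0 = 0 := c_eq_zero_of_one_lt_im h1 (by rw [hfix]; exact h1.le)
  obtain ⟨n, hn⟩ := coe_smul_of_c_eq_zero hc
  have h0 : n = 0 := by
    have := hn τ
    rw [hfix] at this
    have h2 : ((n : ℤ) : ℂ) = 0 := by linear_combination -this
    exact_mod_cast h2
  subst h0
  let τ' : ℍ := ⟨(τ : ℂ) + 1, by simpa using τ.im_pos⟩
  have hne : τ ≠ τ' := by
    intro h
    have := congrArg (fun z : ℍ => (z : ℂ)) h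
    simp [τ'] at this
  refine eq_one_or_neg_one_of_fix_two hne hfix ?_
  apply UpperHalfPlane.ext
  rw [hn τ']; simp

/-- data of a cusp of `Γ₀(N)`: a scaling matrix `σ ∈ SL(2,ℤ)` and the width `h`. -/
structure CuspDatum (N : ℕ) where
  σ : SL(2, ℤ)
  h : ℕ
  hpos : 0 < h
  transl_mem : ∀ n : ℤ, σ * T ^ (n * (h : ℤ)) * σ⁻¹ ∈ Gamma0 N
  transl : ∀ g ∈ Gamma0 N, (σ⁻¹ * g * σ) 1 0 = 0 →
    ∃ n : ℤ, ∀ τ : ℍ, (((σ⁻¹ * g * σ) • τ : ℍ) : ℂ) = τ + n * h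

/-- the cusp `∞`. -/
noncomputable def cuspInf (N : ℕ) : CuspDatum N where
  σ := 1
  h := 1
  hpos := one_pos
  transl_mem n := by simpa using T_zpow_mem_Gamma0 (N := N) n
  transl g _ hc := by
    simp only [inv_one, one_mul, mul_one] at hc ⊢
    obtain ⟨n, hn⟩ := coe_smul_of_c_eq_zero hc
    exact ⟨n, fun τ => by rw [hn τ]; simp⟩

theorem S_inv_mul_mul_S (g : SL(2, ℤ)) :
    ((S⁻¹ * g * S : SL(2, ℤ)) : Matrix (Fin 2) (Fin 2) ℤ) = !![g 1 1, -g 1 0; -g 0 1, g 0 0] := by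
  ext i j
  fin_cases i <;> fin_cases j <;>
    simp [coe_S, Matrix.adjugate_fin_two, Matrix.mul_apply, Fin.sum_univ_two, Matrix.vecMul,
      dotProduct]

/-- the cusp `0`. -/
noncomputable def cuspZero (N : ℕ) [NeZero N] : CuspDatum N where
  σ := S
  h := N
  hpos := Nat.pos_of_ne_zero (NeZero.ne N)
  transl_mem n := S_T_zpow_S_mem_Gamma0 n
  transl g hg hc := by
    have hmat := S_inv_mul_mul_S g
    have hb : g 0 1 = 0 := by
      have : (S⁻¹ * g * S : SL(2, ℤ)) 1 0 = -g 0 1 := by rw [hmat]; rfl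
      rw [this] at hc; linarith
    rw [Gamma0_mem] at hg
    obtain ⟨k, hk⟩ := (ZMod.intCast_zmod_eq_zero_iff_dvd _ _).mp hg
    obtain ⟨n, hn⟩ := coe_smul_of_c_eq_zero hc
    -- identify `n` by evaluating the Möbius formula
    have hdet := det_eq_one' g
    rw [hb] at hdet
    have hda : g 0 0 * g 1 1 = 1 := by linarith
    refine ⟨-(g 1 1) * k, fun τ => ?_⟩
    rw [coe_specialLinearGroup_apply]
    simp only [algebraMap_int_eq, eq_intCast, Complex.ofReal_intCast]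
    have e00 : (S⁻¹ * g * S : SL(2, ℤ)) 0 0 = g 1 1 := by rw [hmat]; rfl
    have e01 : (S⁻¹ * g * S : SL(2, ℤ)) 0 1 = -g 1 0 := by rw [hmat]; rfl
    have e10 : (S⁻¹ * g * S : SL(2, ℤ)) 1 0 = 0 := hc
    have e11 : (S⁻¹ * g * S : SL(2, ℤ)) 1 1 = g 0 0 := by rw [hmat]; rfl
    rw [e00, e01, e10, e11, hk]
    have hd : ((g 1 1 : ℤ) : ℂ) * ((g 1 1 : ℤ) : ℂ) = 1 := by
      rcases Int.eq_one_or_neg_one_of_mul_eq_one' hda with ⟨_, h⟩ | ⟨_, h⟩ <;> rw [h] <;> norm_num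
    have ha : ((g 0 0 : ℤ) : ℂ) = ((g 1 1 : ℤ) : ℂ) := by
      rcases Int.eq_one_or_neg_one_of_mul_eq_one' hda with ⟨h', h⟩ | ⟨h', h⟩ <;> rw [h, h']
    have hne : ((g 1 1 : ℤ) : ℂ) ≠ 0 := by
      intro h0; rw [h0] at hd; simp at hd
    rw [ha]
    have hden : (((0 : ℤ) : ℂ) * (τ : ℂ) + ((g 1 1 : ℤ) : ℂ)) ≠ 0 := by
      simpa using hne
    rw [div_eq_iff hden]
    push_cast
    linear_combination ((k : ℂ) * (N : ℂ)) * hd

/-- the two cusps are inequivalent: no element of `S⁻¹Γ₀(N)` has vanishing lower left entry. -/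
theorem S_inv_mul_c_ne_zero (hN : 2 ≤ N) {g : SL(2, ℤ)} (hg : g ∈ Gamma0 N) :
    (S⁻¹ * g : SL(2, ℤ)) 1 0 ≠ 0 := by
  have h1 : (S⁻¹ * g : SL(2, ℤ)) 1 0 = -g 0 0 := by
    simp [coe_S, Matrix.adjugate_fin_two, Matrix.mul_apply, Fin.sum_univ_two]
  rw [h1]
  intro h0
  have ha : g 0 0 = 0 := by linarith
  rw [Gamma0_mem] at hg
  obtain ⟨k, hk⟩ := (ZMod.intCast_zmod_eq_zero_iff_dvd _ _).mp hg
  have hdet := det_eq_one' g
  rw [ha, hk] at hdet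
  have h2 : (N : ℤ) ∣ 1 := ⟨-(g 0 1 * k), by linarith⟩
  have h3 := Int.le_of_dvd one_pos h2
  omega

theorem mul_S_c_ne_zero (hN : 2 ≤ N) {g : SL(2, ℤ)} (hg : g ∈ Gamma0 N) :
    (g * S : SL(2, ℤ)) 1 0 ≠ 0 := by
  have h1 : (g * S : SL(2, ℤ)) 1 0 = g 1 1 := by
    simp [coe_S, Matrix.mul_apply, Fin.sum_univ_two]
  rw [h1]
  intro hd
  rw [Gamma0_mem] at hg
  obtain ⟨k, hk⟩ := (ZMod.intCast_zmod_eq_zero_iff_dvd _ _).mp hg
  have hdet := det_eq_one' g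
  rw [hd, hk] at hdet
  have h2 : (N : ℤ) ∣ 1 := ⟨-(g 0 1 * k), by linarith⟩
  have h3 := Int.le_of_dvd one_pos h2
  omega

theorem mul_T_zpow_S_inv_c (g : SL(2, ℤ)) (m : ℤ) :
    (g * (T ^ m * S⁻¹) : SL(2, ℤ)) 1 0 = -(g 1 0 * m) - g 1 1 := by
  simp [coe_T_zpow, coe_S, Matrix.adjugate_fin_two, Matrix.mul_apply, Fin.sum_univ_two]
  ring

/-- coset representatives of `Γ₀(N)` in `SL(2,ℤ)` for prime `N`: `1` and `S T^k`, `0 ≤ k < N`. -/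
theorem exists_coset_rep (hN : N.Prime) (g : SL(2, ℤ)) :
    g ∈ Gamma0 N ∨ ∃ k : ℕ, k < N ∧ g * (S * T ^ (k : ℤ))⁻¹ ∈ Gamma0 N := by
  have : Fact N.Prime := ⟨hN⟩
  by_cases hc : ((g 1 0 : ℤ) : ZMod N) = 0
  · left; rw [Gamma0_mem]; exact hc
  · right
    let k : ℕ := (((g 1 1 : ℤ) : ZMod N) * ((g 1 0 : ℤ) : ZMod N)⁻¹).val
    refine ⟨k, ZMod.val_lt _, ?_⟩
    rw [Gamma0_mem]
    have h1 : (g * (S * T ^ (k : ℤ))⁻¹ : SL(2, ℤ)) 1 0 = g 1 0 * k - g 1 1 := by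
      have e : (S * T ^ (k : ℤ))⁻¹ = T ^ (-(k : ℤ)) * S⁻¹ := by
        rw [_root_.mul_inv_rev, _root_.zpow_neg]
      rw [e, mul_T_zpow_S_inv_c]
      ring
    rw [h1]
    push_cast
    have h2 : ((k : ℕ) : ZMod N) = ((g 1 1 : ℤ) : ZMod N) * ((g 1 0 : ℤ) : ZMod N)⁻¹ := by
      simp [k]
    rw [h2]
    field_simp
    ring

end Fermat.Agent.MW
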