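/-
MW / [ARCH]-GEOM (helper4), layer 3: stabilisers in `Γ₀(N)` and orbit counting.
-/
import Mathlib
import Fermat.Agent.MW.GEOM_helper4_Gamma0

set_option autoImplicit false

namespace Fermat.Agent.MW

open UpperHalfPlane ModularGroup Matrix CongruenceSubgroup
open scoped MatrixGroups

variable (N : ℕ)

/-- proper discontinuity for the group `Γ₀(N)`. -/
theorem finite_setOf_smul_mem_Gamma0 {K L : Set ℍ} (hK : IsCompact K) (hL : IsCompact L) :
    {g : Gamma0 N | ∃ τ ∈ K, g • τ ∈ L}.Finite := by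
  have h := finite_setOf_smul_mem hK hL
  exact (h.preimage Subtype.val_injective.injOn).subset (fun g hg => hg)

instance stab_finite (τ : ℍ) : Finite (MulAction.stabilizer (Gamma0 N) τ) := by
  have h := finite_setOf_smul_mem_Gamma0 N (isCompact_singleton (x := τ))
    (isCompact_singleton (x := τ))
  have h2 : ((MulAction.stabilizer (Gamma0 N) τ : Subgroup (Gamma0 N)) : Set (Gamma0 N)).Finite := by
    refine h.subset ?_
    intro g hg
    exact ⟨τ, rfl, hg⟩
  exact h2.to_subtype

/-- `-1` as an element of `Γ₀(N)`. -/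
def negOne : Gamma0 N := ⟨-1, neg_one_mem_Gamma0⟩

theorem negOne_smul (τ : ℍ) : negOne N • τ = τ := by
  show (-1 : SL(2, ℤ)) • τ = τ
  rw [SL_neg_smul, one_smul]

theorem negOne_ne_one : negOne N ≠ 1 := by
  intro h
  have h1 := congrArg (fun g : Gamma0 N => (g : SL(2, ℤ)) 0 0) h
  simp [negOne] at h1

theorem negOne_mul_self : negOne N * negOne N = 1 := by
  apply Subtype.ext
  simp [negOne]

theorem two_dvd_natCard_stab (τ : ℍ) : 2 ∣ Nat.card (MulAction.stabilizer (Gamma0 N) τ) := by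
  let x : MulAction.stabilizer (Gamma0 N) τ := ⟨negOne N, negOne_smul N τ⟩
  have h1 : x ^ 2 = 1 := by
    apply Subtype.ext
    simp [x, sq, negOne_mul_self]
  have h2 : x ≠ 1 := by
    intro h
    exact negOne_ne_one N (congrArg Subtype.val h)
  have := Nat.fact_prime_two
  have h3 : orderOf x = 2 := orderOf_eq_prime h1 h2
  have h4 := orderOf_dvd_natCard x
  rwa [h3] at h4

theorem two_mul_stabMult (τ : ℍ) :
    2 * stabMult N τ = Nat.card (MulAction.stabilizer (Gamma0 N) τ) :=
  Nat.mul_div_cancel' (two_dvd_natCard_stab N τ)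

theorem stabMult_pos (τ : ℍ) : 1 ≤ stabMult N τ := by
  have h1 := two_mul_stabMult N τ
  have h2 : 0 < Nat.card (MulAction.stabilizer (Gamma0 N) τ) := Nat.card_pos
  omega

theorem stabMult_smul (g : Gamma0 N) (τ : ℍ) : stabMult N (g • τ) = stabMult N τ := by
  unfold stabMult
  have h : MulAction.orbitRel (Gamma0 N) ℍ (g • τ) τ := ⟨g, rfl⟩
  rw [Nat.card_congr (MulAction.stabilizerEquivStabilizerOfOrbitRel h).toEquiv]

theorem stabMult_eq_one {τ : ℍ}
    (h : ∀ g : Gamma0 N, g • τ = τ → g = 1 ∨ g = negOne N) : stabMult N τ = 1 := by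
  have h1 := two_mul_stabMult N τ
  have h2 : Nat.card (MulAction.stabilizer (Gamma0 N) τ) = 2 := by
    rw [Nat.card_eq_two_iff]
    refine ⟨1, ⟨negOne N, negOne_smul N τ⟩, ?_, ?_⟩
    · intro h3
      exact negOne_ne_one N (congrArg Subtype.val h3).symm
    · ext x
      simp only [Set.mem_insert_iff, Set.mem_singleton_iff, Set.mem_univ, iff_true]
      rcases h x.1 x.2 with h3 | h3
      · left; exact Subtype.ext h3
      · right; exact Subtype.ext h3
  omega

/-- points `σ • τ'` with `Im τ' > 1` have trivial stabiliser. -/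
theorem stabMult_smul_of_one_lt_im (σ : SL(2, ℤ)) {τ' : ℍ} (h : 1 < τ'.im) :
    stabMult N (σ • τ') = 1 := by
  apply stabMult_eq_one
  intro g hg
  have h1 : (σ⁻¹ * (g : SL(2, ℤ)) * σ) • τ' = τ' := by
    rw [mul_smul, mul_smul]
    have : (g : SL(2, ℤ)) • σ • τ' = σ • τ' := hg
    rw [this, inv_smul_smul]
  rcases eq_one_or_neg_one_of_fix h h1 with h2 | h2
  · left
    apply Subtype.ext
    have : (g : SL(2, ℤ)) = σ * (σ⁻¹ * (g : SL(2, ℤ)) * σ) * σ⁻¹ := by group
    rw [this, h2]; simp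
  · right
    apply Subtype.ext
    have : (g : SL(2, ℤ)) = σ * (σ⁻¹ * (g : SL(2, ℤ)) * σ) * σ⁻¹ := by group
    rw [this, h2]; simp [negOne]

/-- the elements of `Γ₀(N)` moving `τ'` to a given point `w` of its orbit are in bijection with
the stabiliser of `w`. -/
theorem natCard_smul_eq {τ' w : ℍ} (g₀ : Gamma0 N) (h0 : g₀ • τ' = w) :
    Nat.card {g : Gamma0 N // g • τ' = w} = Nat.card (MulAction.stabilizer (Gamma0 N) w) := by
  refine Nat.card_congr ⟨fun g => ⟨g.1 * g₀⁻¹, ?_⟩, fun s => ⟨s.1 * g₀, ?_⟩, ?_, ?_⟩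
  · rw [MulAction.mem_stabilizer_iff, mul_smul]
    have e1 : g₀⁻¹ • w = τ' := by rw [← h0, inv_smul_smul]
    rw [e1]; exact g.2
  · rw [mul_smul, h0]; exact s.2
  · intro g; simp
  · intro s; simp

/-- **orbit counting**: a sum over the group elements moving `τ'` into a region is a sum over the
orbit points in the region, weighted by the order of the stabiliser. -/
theorem sum_smul_eq_sum_image [DecidableEq ℍ] (τ' : ℍ) (R : Set ℍ) (Sf : Finset (Gamma0 N))
    (hS : ∀ g : Gamma0 N, g ∈ Sf ↔ g • τ' ∈ R) (f : ℍ → ℝ) :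
    ∑ g ∈ Sf, f (g • τ') =
      ∑ w ∈ Sf.image (fun g : Gamma0 N => g • τ'), (2 * (stabMult N w : ℝ)) * f w := by
  rw [Finset.sum_comp f (fun g : Gamma0 N => g • τ')]
  refine Finset.sum_congr rfl ?_
  intro w hw
  obtain ⟨g₀, hg₀, h0⟩ := Finset.mem_image.mp hw
  have h1 : Nat.card {g : Gamma0 N // g • τ' = w} = (Sf.filter (fun a => a • τ' = w)).card := by
    apply Nat.subtype_card
    intro x
    rw [Finset.mem_filter]
    constructor
    · intro h; exact h.2
    · intro h
      refine ⟨?_, h⟩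
      rw [hS, h, ← h0, ← hS]; exact hg₀
  rw [nsmul_eq_mul, ← h1, natCard_smul_eq N g₀ h0, ← two_mul_stabMult]
  push_cast
  ring

end Fermat.Agent.MW
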