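/-
MW / [ARCH]-GEOM (helper4), layer 4a: the `H`-chart (a Euclidean disc in `ℍ`): coordinates,
compactness, the finite set of elements of `Γ₀(N)` moving the disc to itself, the fibre formula.
-/
import Mathlib
import Fermat.Agent.MW.GEOM_helper4_Stab

set_option autoImplicit false

namespace Fermat.Agent.MW

open UpperHalfPlane ModularGroup Matrix CongruenceSubgroup Metric
open scoped MatrixGroups

variable {N : ℕ} (P : ChartParams N)

/-- the inverse of the `H`-chart. -/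
noncomputable def psiH (τ : ℍ) : ℂ := ((τ : ℂ) - (P.Y : ℂ) * Complex.I) / (P.sH : ℂ)

theorem sH_ne_zero : (P.sH : ℂ) ≠ 0 := by
  exact_mod_cast P.hsH.ne'

theorem lift_psiH (τ : ℍ) : P.lift ChartIdx.H (psiH P τ) = τ := by
  unfold ChartParams.lift psiH
  have h : (P.Y : ℂ) * Complex.I + (P.sH : ℂ) * (((τ : ℂ) - (P.Y : ℂ) * Complex.I) / (P.sH : ℂ)) =
      (τ : ℂ) := by
    field_simp [sH_ne_zero P]; ring
  simp only [h]
  exact ofComplex_apply τ

theorem im_argH_pos {z : ℂ} (hz : ‖z‖ ≤ P.r₂) :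
    0 < ((P.Y : ℂ) * Complex.I + (P.sH : ℂ) * z).im := by
  have h1 : ((P.Y : ℂ) * Complex.I + (P.sH : ℂ) * z).im = P.Y + P.sH * z.im := by simp
  rw [h1]
  have h2 : |z.im| ≤ ‖z‖ := Complex.abs_im_le_norm z
  have h3 : -P.r₂ ≤ z.im := by
    have := neg_abs_le z.im; linarith
  have h4 := P.hH
  have h5 := P.hsH
  nlinarith

theorem coe_liftH {z : ℂ} (hz : ‖z‖ ≤ P.r₂) :
    ((P.lift ChartIdx.H z : ℍ) : ℂ) = (P.Y : ℂ) * Complex.I + (P.sH : ℂ) * z := by
  unfold ChartParams.lift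
  simp only
  rw [ofComplex_apply_of_im_pos (im_argH_pos P hz)]

theorem psiH_liftH {z : ℂ} (hz : ‖z‖ ≤ P.r₂) : psiH P (P.lift ChartIdx.H z) = z := by
  unfold psiH
  rw [coe_liftH P hz]
  field_simp [sH_ne_zero P]; ring

theorem im_liftH {z : ℂ} (hz : ‖z‖ ≤ P.r₂) :
    (P.lift ChartIdx.H z).im = P.Y + P.sH * z.im := by
  have := congrArg Complex.im (coe_liftH P hz)
  simpa using this

/-- the closed disc of radius `r` of the `H`-chart, as a subset of `ℍ`. -/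
def DH (r : ℝ) : Set ℍ := {τ | ‖psiH P τ‖ ≤ r}

theorem norm_psiH (τ : ℍ) : ‖psiH P τ‖ = ‖(τ : ℂ) - (P.Y : ℂ) * Complex.I‖ / P.sH := by
  unfold psiH
  rw [norm_div, Complex.norm_real, Real.norm_eq_abs, abs_of_pos P.hsH]

theorem mem_DH {r : ℝ} {τ : ℍ} :
    τ ∈ DH P r ↔ ‖(τ : ℂ) - (P.Y : ℂ) * Complex.I‖ ≤ P.sH * r := by
  show ‖psiH P τ‖ ≤ r ↔ _
  rw [norm_psiH, div_le_iff₀ P.hsH, mul_comm r]

theorem liftH_mem_DH {r : ℝ} {z : ℂ} (hr : r ≤ P.r₂) (hz : ‖z‖ ≤ r) :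
    P.lift ChartIdx.H z ∈ DH P r := by
  show ‖psiH P (P.lift ChartIdx.H z)‖ ≤ r
  rw [psiH_liftH P (hz.trans hr)]
  exact hz

theorem DH_mono {r r' : ℝ} (h : r ≤ r') : DH P r ⊆ DH P r' := fun _ hτ => le_trans hτ h

theorem im_bounds_of_mem_DH {r : ℝ} (hr : r ≤ P.r₂) {τ : ℍ} (hτ : τ ∈ DH P r) :
    P.Y - P.sH * P.r₂ ≤ τ.im ∧ τ.im ≤ P.Y + P.sH * P.r₂ := by
  rw [mem_DH] at hτ
  have h1 : |((τ : ℂ) - (P.Y : ℂ) * Complex.I).im| ≤ ‖(τ : ℂ) - (P.Y : ℂ) * Complex.I‖ :=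
    Complex.abs_im_le_norm _
  have h2 : ((τ : ℂ) - (P.Y : ℂ) * Complex.I).im = τ.im - P.Y := by simp
  rw [h2] at h1
  have h3 : P.sH * r ≤ P.sH * P.r₂ := mul_le_mul_of_nonneg_left hr P.hsH.le
  have h4 := abs_le.mp (h1.trans (hτ.trans h3))
  constructor <;> linarith [h4.1, h4.2]

theorem isCompact_DH {r : ℝ} (hr : r ≤ P.r₂) : IsCompact (DH P r) := by
  rw [isEmbedding_coe.isCompact_iff]
  have h : ((↑) : ℍ → ℂ) '' DH P r = closedBall ((P.Y : ℂ) * Complex.I) (P.sH * r) := by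
    ext w
    constructor
    · rintro ⟨τ, hτ, rfl⟩
      rw [mem_closedBall, Complex.dist_eq]
      exact (mem_DH P).mp hτ
    · intro hw
      rw [mem_closedBall, Complex.dist_eq] at hw
      have h1 : |(w - (P.Y : ℂ) * Complex.I).im| ≤ ‖w - (P.Y : ℂ) * Complex.I‖ :=
        Complex.abs_im_le_norm _
      have h2 : (w - (P.Y : ℂ) * Complex.I).im = w.im - P.Y := by simp
      rw [h2] at h1
      have h3 : P.sH * r ≤ P.sH * P.r₂ := mul_le_mul_of_nonneg_left hr P.hsH.le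
      have h4 := abs_le.mp (h1.trans (hw.trans h3))
      have h5 : 0 < w.im := by linarith [h4.1, P.hH]
      exact ⟨⟨w, h5⟩, (mem_DH P).mpr hw, rfl⟩
  rw [h]
  exact isCompact_closedBall _ _

theorem Y_pos : 0 < P.Y := by
  have h1 := P.hH
  have h2 : 0 < P.sH * P.r₂ := mul_pos P.hsH (P.hr₀.trans (P.hr₀₁.trans P.hr₁₂))
  linarith

/-- the elements of `Γ₀(N)` moving some point of the `r₂`-disc into the `r₂`-disc. -/
theorem finite_movers : {g : Gamma0 N | ∃ τ ∈ DH P P.r₂, g • τ ∈ DH P P.r₂}.Finite :=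
  finite_setOf_smul_mem_Gamma0 N (isCompact_DH P le_rfl) (isCompact_DH P le_rfl)

/-- the finite set of movers. -/
noncomputable def movers : Finset (Gamma0 N) := (finite_movers P).toFinset

theorem mem_movers {g : Gamma0 N} : g ∈ movers P ↔ ∃ τ ∈ DH P P.r₂, g • τ ∈ DH P P.r₂ := by
  unfold movers
  rw [Set.Finite.mem_toFinset]; rfl

/-- the group elements moving a given point into the `r₂`-disc. -/
theorem finite_into (τ' : ℍ) : {g : Gamma0 N | g • τ' ∈ DH P P.r₂}.Finite := by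
  refine (finite_setOf_smul_mem_Gamma0 N (isCompact_singleton (x := τ'))
    (isCompact_DH P le_rfl)).subset ?_
  intro g hg
  exact ⟨τ', rfl, hg⟩

noncomputable def into (τ' : ℍ) : Finset (Gamma0 N) := (finite_into P τ').toFinset

theorem mem_into {τ' : ℍ} {g : Gamma0 N} : g ∈ into P τ' ↔ g • τ' ∈ DH P P.r₂ := by
  unfold into
  rw [Set.Finite.mem_toFinset]; rfl

/-- uniform bound on the number of group elements moving a point into the disc. -/
theorem card_into_le (τ' : ℍ) : (into P τ').card ≤ (movers P).card := by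
  by_cases h : (into P τ').Nonempty
  · obtain ⟨g₀, hg₀⟩ := h
    refine Finset.card_le_card_of_injOn (fun g => g * g₀⁻¹) ?_ ?_
    · intro g hg
      rw [Finset.mem_coe, mem_into] at hg
      rw [mem_into] at hg₀
      rw [Finset.mem_coe, mem_movers]
      refine ⟨g₀ • τ', hg₀, ?_⟩
      rw [mul_smul, inv_smul_smul]; exact hg
    · intro a _ b _ hab
      exact mul_right_cancel hab
  · rw [Finset.not_nonempty_iff_eq_empty] at h
    rw [h]; simp

theorem pt_smul_eq {X : Type*} (U : UnifData N X) {τ : ℍ} (hτ : τ ∈ U.adm) (g : Gamma0 N) :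
    U.pt (g • τ) = U.pt τ := by
  have h1 : g • τ ∈ U.adm := U.adm_smul g.1 τ hτ
  rw [U.pt_eq_iff _ h1 _ hτ]
  exact ⟨g⁻¹.1, g⁻¹.2, by
    show (g⁻¹ : Gamma0 N) • (g • τ) = τ
    rw [inv_smul_smul]⟩

theorem exists_smul_eq_of_pt_eq {X : Type*} (U : UnifData N X) {τ τ' : ℍ} (hτ : τ ∈ U.adm)
    (hτ' : τ' ∈ U.adm) (h : U.pt τ = U.pt τ') : ∃ g : Gamma0 N, g • τ = τ' := by
  obtain ⟨γ, hγ, h1⟩ := (U.pt_eq_iff _ hτ _ hτ').mp h
  exact ⟨⟨γ, hγ⟩, h1⟩

/-- **the fibre formula for the `H`-chart**: a sum over the parameters in the `r₂`-disc over the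
point `pt τ'`, weighted by the multiplicities, is half the sum over the group elements moving `τ'`
into the disc. -/
theorem sum_fibH_eq {X : Type*} (U : UnifData N X) {τ' : ℍ} (hτ' : τ' ∈ U.adm) (F : Finset ℂ)
    (hF : ∀ z, z ∈ F ↔ (P.lift ChartIdx.H z ∈ U.adm ∧ U.pt (P.lift ChartIdx.H z) = U.pt τ' ∧
      ‖z‖ ≤ P.r₂)) (f : ℂ → ℝ) :
    ∑ z ∈ F, (stabMult N (P.lift ChartIdx.H z) : ℝ) * f z =
      (1 / 2) * ∑ g ∈ into P τ', f (psiH P (g • τ')) := by
  classical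
  rw [sum_smul_eq_sum_image N τ' (DH P P.r₂) (into P τ') (fun g => mem_into P)
    (fun w => f (psiH P w)), Finset.mul_sum]
  refine Finset.sum_nbij' (fun z => P.lift ChartIdx.H z) (fun w => psiH P w) ?_ ?_ ?_ ?_ ?_
  · intro z hz
    obtain ⟨h1, h2, h3⟩ := (hF z).mp hz
    obtain ⟨g, hg⟩ := exists_smul_eq_of_pt_eq U hτ' h1 h2.symm
    rw [Finset.mem_image]
    refine ⟨g, ?_, hg⟩
    rw [mem_into, hg]
    exact liftH_mem_DH P le_rfl h3
  · intro w hw
    obtain ⟨g, hg, rfl⟩ := Finset.mem_image.mp hw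
    rw [mem_into] at hg
    rw [hF, lift_psiH]
    exact ⟨U.adm_smul g.1 τ' hτ', pt_smul_eq U hτ' g, hg⟩
  · intro z hz
    exact psiH_liftH P ((hF z).mp hz).2.2
  · intro w _
    exact lift_psiH P w
  · intro z hz
    rw [psiH_liftH P ((hF z).mp hz).2.2]
    ring

end Fermat.Agent.MW
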