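/-
MW / [ARCH]-GEOM (helper4), layer 4b: generic cusp charts (`q`-discs), heights of orbits.
-/
import Mathlib
import Fermat.Agent.MW.GEOM_helper4_Stab

set_option autoImplicit false

namespace Fermat.Agent.MW

open UpperHalfPlane ModularGroup Matrix CongruenceSubgroup Metric Function.Periodic
open scoped MatrixGroups

variable {N : ℕ}

/-- numerical data of a cusp chart: a cusp datum, a scale `s` and a radius `r₂` such that the
`r₂`-disc lies above height `1`. -/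
structure CuspChart (N : ℕ) where
  c : CuspDatum N
  s : ℝ
  hs : 0 < s
  r₂ : ℝ
  hr₂ : 0 < r₂
  hsr : s * r₂ < Real.exp (-2 * Real.pi / c.h)

namespace CuspChart

variable (C : CuspChart N)

theorem h_pos : (0 : ℝ) < C.c.h := by exact_mod_cast C.c.hpos

theorem h_ne : (C.c.h : ℝ) ≠ 0 := C.h_pos.ne'

theorem s_ne : (C.s : ℂ) ≠ 0 := by exact_mod_cast C.hs.ne'

/-- the point of height `> 1` with parameter `z`. -/
noncomputable def tau (z : ℂ) : ℍ := ofComplex (invQParam (C.c.h : ℝ) ((C.s : ℂ) * z))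

/-- the lift of the chart. -/
noncomputable def lift (z : ℂ) : ℍ := C.c.σ • C.tau z

/-- the inverse chart. -/
noncomputable def param (τ' : ℍ) : ℂ := qParam (C.c.h : ℝ) (τ' : ℂ) / (C.s : ℂ)

theorem norm_smul_z (z : ℂ) : ‖(C.s : ℂ) * z‖ = C.s * ‖z‖ := by
  rw [norm_mul, Complex.norm_real, Real.norm_eq_abs, abs_of_pos C.hs]

theorem im_arg {z : ℂ} :
    (invQParam (C.c.h : ℝ) ((C.s : ℂ) * z)).im = -(C.c.h : ℝ) / (2 * Real.pi) * Real.log (C.s * ‖z‖) := by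
  rw [im_invQParam, C.norm_smul_z]

theorem one_lt_im_arg {z : ℂ} (hz : z ≠ 0) (hz2 : ‖z‖ ≤ C.r₂) :
    1 < (invQParam (C.c.h : ℝ) ((C.s : ℂ) * z)).im := by
  rw [C.im_arg]
  have h1 : 0 < C.s * ‖z‖ := mul_pos C.hs (norm_pos_iff.mpr hz)
  have h2 : C.s * ‖z‖ < Real.exp (-2 * Real.pi / C.c.h) :=
    lt_of_le_of_lt (mul_le_mul_of_nonneg_left hz2 C.hs.le) C.hsr
  have h3 : Real.log (C.s * ‖z‖) < -2 * Real.pi / C.c.h := by
    rw [Real.log_lt_iff_lt_exp h1]; exact h2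
  have h4 := C.h_pos
  have h5 := Real.pi_pos
  have h6 : -(C.c.h : ℝ) / (2 * Real.pi) < 0 := by
    apply div_neg_of_neg_of_pos <;> linarith
  have h7 : -(C.c.h : ℝ) / (2 * Real.pi) * (-2 * Real.pi / C.c.h) = 1 := by
    field_simp
  nlinarith

theorem coe_tau {z : ℂ} (hz : z ≠ 0) (hz2 : ‖z‖ ≤ C.r₂) :
    (C.tau z : ℂ) = invQParam (C.c.h : ℝ) ((C.s : ℂ) * z) := by
  unfold tau
  rw [ofComplex_apply_of_im_pos (lt_trans one_pos (C.one_lt_im_arg hz hz2))]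

theorem im_tau {z : ℂ} (hz : z ≠ 0) (hz2 : ‖z‖ ≤ C.r₂) :
    (C.tau z).im = -(C.c.h : ℝ) / (2 * Real.pi) * Real.log (C.s * ‖z‖) := by
  have := congrArg Complex.im (C.coe_tau hz hz2)
  rw [C.im_arg] at this
  exact this

theorem one_lt_im_tau {z : ℂ} (hz : z ≠ 0) (hz2 : ‖z‖ ≤ C.r₂) : 1 < (C.tau z).im := by
  have := C.one_lt_im_arg hz hz2
  rw [← C.coe_tau hz hz2] at this
  exact this

theorem qParam_tau {z : ℂ} (hz : z ≠ 0) (hz2 : ‖z‖ ≤ C.r₂) :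
    qParam (C.c.h : ℝ) (C.tau z : ℂ) = (C.s : ℂ) * z := by
  rw [C.coe_tau hz hz2, qParam_right_inv C.h_ne (mul_ne_zero C.s_ne hz)]

theorem param_tau {z : ℂ} (hz : z ≠ 0) (hz2 : ‖z‖ ≤ C.r₂) : C.param (C.tau z) = z := by
  unfold param
  rw [C.qParam_tau hz hz2, mul_div_cancel_left₀ _ C.s_ne]

theorem norm_param (τ' : ℍ) :
    ‖C.param τ'‖ = Real.exp (-2 * Real.pi * τ'.im / C.c.h) / C.s := by
  unfold param
  rw [norm_div, norm_qParam, Complex.norm_real, Real.norm_eq_abs, abs_of_pos C.hs]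
  rfl

theorem param_ne_zero (τ' : ℍ) : C.param τ' ≠ 0 := by
  rw [← norm_pos_iff, C.norm_param]
  exact div_pos (Real.exp_pos _) C.hs

theorem qParam_eq_of_eq_add {w w' : ℂ} (m : ℤ) (h : w' = w + m * (C.c.h : ℝ)) :
    qParam (C.c.h : ℝ) w' = qParam (C.c.h : ℝ) w := by
  unfold qParam
  rw [Complex.exp_eq_exp_iff_exists_int]
  refine ⟨m, ?_⟩
  rw [h]
  have := C.h_ne
  have h2 : ((C.c.h : ℝ) : ℂ) ≠ 0 := by exact_mod_cast this
  field_simp

theorem param_eq_of_eq_add {τ' τ'' : ℍ} (m : ℤ) (h : (τ'' : ℂ) = τ' + m * (C.c.h : ℝ)) :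
    C.param τ'' = C.param τ' := by
  unfold param
  rw [C.qParam_eq_of_eq_add m h]

/-- `tau (param τ')` is a translate of `τ'`. -/
theorem tau_param {τ' : ℍ} (h : ‖C.param τ'‖ ≤ C.r₂) :
    ∃ m : ℤ, (C.tau (C.param τ') : ℂ) = τ' + m * (C.c.h : ℝ) := by
  rw [C.coe_tau (C.param_ne_zero τ') h]
  unfold param
  rw [mul_div_cancel₀ _ C.s_ne]
  exact qParam_left_inv_mod_period C.h_ne _

/-- the relation between the radius and the height. -/
theorem norm_param_le_iff (τ' : ℍ) (r : ℝ) (hr : 0 < r) :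
    ‖C.param τ'‖ ≤ r ↔ -(C.c.h : ℝ) / (2 * Real.pi) * Real.log (C.s * r) ≤ τ'.im := by
  rw [C.norm_param, div_le_iff₀ C.hs, mul_comm r,
    ← Real.log_le_log_iff (Real.exp_pos _) (mul_pos C.hs hr), Real.log_exp]
  have h4 := C.h_pos
  have h5 := Real.pi_pos
  constructor
  · intro h
    have : Real.log (C.s * r) * (-(C.c.h : ℝ) / (2 * Real.pi)) ≤
        (-2 * Real.pi * τ'.im / C.c.h) * (-(C.c.h : ℝ) / (2 * Real.pi)) :=
      mul_le_mul_of_nonpos_right h (by apply div_nonpos_of_nonpos_of_nonneg <;> linarith)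
    have e : (-2 * Real.pi * τ'.im / C.c.h) * (-(C.c.h : ℝ) / (2 * Real.pi)) = τ'.im := by
      field_simp
    linarith
  · intro h
    have : (-2 * Real.pi / C.c.h) * τ'.im ≤
        (-2 * Real.pi / C.c.h) * (-(C.c.h : ℝ) / (2 * Real.pi) * Real.log (C.s * r)) :=
      mul_le_mul_of_nonpos_left h (by apply div_nonpos_of_nonpos_of_nonneg <;> linarith)
    have e : (-2 * Real.pi / C.c.h) * (-(C.c.h : ℝ) / (2 * Real.pi) * Real.log (C.s * r)) =
        Real.log (C.s * r) := by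
      field_simp
    have e2 : -2 * Real.pi * τ'.im / C.c.h = (-2 * Real.pi / C.c.h) * τ'.im := by ring
    linarith

/-- two points of height `> 1` whose images under `σ` are `Γ₀(N)`-equivalent differ by a
translation by a multiple of the width. -/
theorem eq_add_of_smul_eq {g : Gamma0 N} {τ' τ'' : ℍ} (h1 : 1 < τ'.im) (h2 : 1 ≤ τ''.im)
    (h : g • (C.c.σ • τ') = C.c.σ • τ'') : ∃ n : ℤ, (τ'' : ℂ) = τ' + n * (C.c.h : ℝ) := by
  have h3 : (C.c.σ⁻¹ * (g : SL(2, ℤ)) * C.c.σ) • τ' = τ'' := by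
    rw [mul_smul, mul_smul]
    have : (g : SL(2, ℤ)) • C.c.σ • τ' = C.c.σ • τ'' := h
    rw [this, inv_smul_smul]
  have hc : (C.c.σ⁻¹ * (g : SL(2, ℤ)) * C.c.σ) 1 0 = 0 :=
    c_eq_zero_of_one_lt_im h1 (by rw [h3]; exact h2)
  obtain ⟨n, hn⟩ := C.c.transl g.1 g.2 hc
  refine ⟨n, ?_⟩
  rw [← h3, hn τ']
  push_cast
  ring

/-- the element of `Γ₀(N)` realising a translation by a multiple of the width. -/
noncomputable def translElt (n : ℤ) : Gamma0 N :=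
  ⟨C.c.σ * T ^ (n * (C.c.h : ℤ)) * C.c.σ⁻¹, C.c.transl_mem n⟩

theorem translElt_smul (n : ℤ) {τ' τ'' : ℍ} (h : (τ'' : ℂ) = τ' + n * (C.c.h : ℝ)) :
    C.translElt n • (C.c.σ • τ') = C.c.σ • τ'' := by
  show (C.c.σ * T ^ (n * (C.c.h : ℤ)) * C.c.σ⁻¹) • (C.c.σ • τ') = C.c.σ • τ''
  rw [mul_smul, mul_smul, inv_smul_smul]
  congr 1
  apply UpperHalfPlane.ext
  rw [coe_T_zpow_smul_eq, h]
  push_cast
  ring

theorem lift_param {τ' : ℍ} (h : ‖C.param τ'‖ ≤ C.r₂) :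
    ∃ g : Gamma0 N, g • (C.c.σ • τ') = C.lift (C.param τ') := by
  obtain ⟨m, hm⟩ := C.tau_param h
  exact ⟨C.translElt m, C.translElt_smul m hm⟩

theorem stabMult_lift {z : ℂ} (hz : z ≠ 0) (hz2 : ‖z‖ ≤ C.r₂) : stabMult N (C.lift z) = 1 :=
  stabMult_smul_of_one_lt_im N C.c.σ (C.one_lt_im_tau hz hz2)

/-- parameters of `Γ₀(N)`-equivalent lifts coincide. -/
theorem eq_of_smul_lift_eq {g : Gamma0 N} {z z' : ℂ} (hz : z ≠ 0) (hz2 : ‖z‖ ≤ C.r₂)
    (hz' : z' ≠ 0) (hz2' : ‖z'‖ ≤ C.r₂) (h : g • C.lift z = C.lift z') : z = z' := by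
  obtain ⟨n, hn⟩ := C.eq_add_of_smul_eq (C.one_lt_im_tau hz hz2) (C.one_lt_im_tau hz' hz2').le h
  rw [← C.param_tau hz hz2, ← C.param_tau hz' hz2', C.param_eq_of_eq_add n hn]

end CuspChart

/-! ### heights of orbits -/

/-- the height of the `Γ₀(N)`-orbit of `τ` at the cusp with scaling matrix `σ`. -/
noncomputable def cuspHt (N : ℕ) (σ : SL(2, ℤ)) (τ : ℍ) : ℝ :=
  sSup (Set.range fun g : Gamma0 N => (σ⁻¹ • ((g : SL(2, ℤ)) • τ)).im)

theorem cuspHt_bddAbove (σ : SL(2, ℤ)) (τ : ℍ) :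
    BddAbove (Set.range fun g : Gamma0 N => (σ⁻¹ • ((g : SL(2, ℤ)) • τ)).im) := by
  refine ⟨max τ.im (1 / τ.im), ?_⟩
  rintro _ ⟨g, rfl⟩
  simp only
  rw [← mul_smul]
  exact im_smul_le_max _ τ

theorem cuspHt_le_max (σ : SL(2, ℤ)) (τ : ℍ) : cuspHt N σ τ ≤ max τ.im (1 / τ.im) := by
  apply csSup_le (Set.range_nonempty _)
  rintro _ ⟨g, rfl⟩
  simp only
  rw [← mul_smul]
  exact im_smul_le_max _ τ

theorem le_cuspHt (σ : SL(2, ℤ)) (τ : ℍ) (g : Gamma0 N) :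
    (σ⁻¹ • ((g : SL(2, ℤ)) • τ)).im ≤ cuspHt N σ τ :=
  le_csSup (cuspHt_bddAbove σ τ) ⟨g, rfl⟩

theorem cuspHt_smul (σ : SL(2, ℤ)) (g : Gamma0 N) (τ : ℍ) :
    cuspHt N σ (g • τ) = cuspHt N σ τ := by
  unfold cuspHt
  congr 1
  ext x
  constructor
  · rintro ⟨g', rfl⟩
    refine ⟨g' * g, ?_⟩
    simp only
    rw [Subgroup.coe_mul, mul_smul]; rfl
  · rintro ⟨g', rfl⟩
    refine ⟨g' * g⁻¹, ?_⟩
    simp only
    rw [Subgroup.coe_mul, mul_smul]
    have : ((g⁻¹ : Gamma0 N) : SL(2, ℤ)) • (g • τ) = τ := by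
      show (g⁻¹ : Gamma0 N) • (g • τ) = τ
      rw [inv_smul_smul]
    rw [this]

/-- the height of `σ • τ'` for `Im τ' > 1` is `Im τ'`. -/
theorem cuspHt_smul_of_one_lt (σ : SL(2, ℤ)) {τ' : ℍ} (h : 1 < τ'.im) :
    cuspHt N σ (σ • τ') = τ'.im := by
  apply le_antisymm
  · apply csSup_le (Set.range_nonempty _)
    rintro _ ⟨g, rfl⟩
    simp only
    rw [← mul_smul, ← mul_smul]
    by_cases hc : (σ⁻¹ * (g : SL(2, ℤ)) * σ) 1 0 = 0
    · rw [im_smul_eq_of_c_eq_zero hc]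
    · have h1 := im_smul_le_inv_of_c_ne_zero hc τ'
      have h2 : 1 / τ'.im < 1 := by rw [div_lt_one (by linarith)]; exact h
      linarith
  · have := le_cuspHt (N := N) σ (σ • τ') 1
    simpa using this

/-- if no conjugate `σ'⁻¹ g σ` has vanishing lower left entry, the `σ'`-height of `σ • τ'` is at most
`1` for `Im τ' > 1` (the cusps are inequivalent). -/
theorem cuspHt_other_le (σ σ' : SL(2, ℤ))
    (hne : ∀ g : Gamma0 N, (σ'⁻¹ * (g : SL(2, ℤ)) * σ) 1 0 ≠ 0) {τ' : ℍ} (h : 1 < τ'.im) :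
    cuspHt N σ' (σ • τ') ≤ 1 := by
  apply csSup_le (Set.range_nonempty _)
  rintro _ ⟨g, rfl⟩
  simp only
  rw [← mul_smul, ← mul_smul]
  have h1 := im_smul_le_inv_of_c_ne_zero (hne g) τ'
  have h2 : 1 / τ'.im < 1 := by rw [div_lt_one (by linarith)]; exact h
  linarith

end Fermat.Agent.MW
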