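/-
MW / [ARCH]-GEOM (helper4), layer 5: the automorphic truncated Green function on `ℍ`
`greenH ρ τ τ' = (1/2) Σ_{g ∈ Γ₀(N)} max 0 (log (ρ / pdist τ (g τ')))`, its invariance, and its
comparison with Euclidean logarithms in the `H`-chart.
-/
import Mathlib
import Fermat.Agent.MW.GEOM_helper4_ChartH
import Fermat.Agent.MW.GEOM_helper4_Cusp

set_option autoImplicit false

namespace Fermat.Agent.MW

open UpperHalfPlane ModularGroup Matrix CongruenceSubgroup Metric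
open scoped MatrixGroups

variable (N : ℕ)

/-- the automorphic truncated Green function. -/
noncomputable def greenH (ρ : ℝ) (τ τ' : ℍ) : ℝ :=
  (1 / 2) * ∑ᶠ g : Gamma0 N, kern ρ τ (g • τ')

theorem greenH_nonneg (ρ : ℝ) (τ τ' : ℍ) : 0 ≤ greenH N ρ τ τ' := by
  unfold greenH
  have : 0 ≤ ∑ᶠ g : Gamma0 N, kern ρ τ (g • τ') := finsum_nonneg (fun g => kern_nonneg _ _ _)
  linarith

theorem kern_smul_Gamma0 (ρ : ℝ) (g : Gamma0 N) (τ τ' : ℍ) :
    kern ρ (g • τ) (g • τ') = kern ρ τ τ' := kern_smul ρ g.1 τ τ'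

theorem greenH_symm (ρ : ℝ) (τ τ' : ℍ) : greenH N ρ τ τ' = greenH N ρ τ' τ := by
  unfold greenH
  congr 1
  have := finsum_comp_equiv (Equiv.inv (Gamma0 N)) (f := fun g : Gamma0 N => kern ρ τ' (g • τ))
  rw [← this]
  apply finsum_congr
  intro g
  rw [Equiv.inv_apply, kern_comm, ← kern_smul_Gamma0 N ρ g⁻¹ (g • τ') τ, inv_smul_smul]

theorem greenH_smul_right (ρ : ℝ) (h : Gamma0 N) (τ τ' : ℍ) :
    greenH N ρ τ (h • τ') = greenH N ρ τ τ' := by
  unfold greenH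
  congr 1
  have := finsum_comp_equiv (Equiv.mulRight h) (f := fun g : Gamma0 N => kern ρ τ (g • τ'))
  rw [← this]
  apply finsum_congr
  intro g
  rw [Equiv.coe_mulRight, mul_smul]

theorem greenH_smul_left (ρ : ℝ) (h : Gamma0 N) (τ τ' : ℍ) :
    greenH N ρ (h • τ) τ' = greenH N ρ τ τ' := by
  rw [greenH_symm, greenH_smul_right, greenH_symm]

/-- the Green function as a finite sum. -/
theorem greenH_eq_sum {ρ : ℝ} (hρ : 0 < ρ) {τ τ' : ℍ} (Sf : Finset (Gamma0 N))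
    (hS : ∀ g : Gamma0 N, pdist τ (g • τ') < ρ → g ∈ Sf) :
    greenH N ρ τ τ' = (1 / 2) * ∑ g ∈ Sf, kern ρ τ (g • τ') := by
  unfold greenH
  congr 1
  apply finsum_eq_sum_of_support_subset
  intro g hg
  rw [Function.mem_support] at hg
  exact hS g (pdist_lt_of_kern_ne_zero hρ hg)

theorem greenH_eq_zero {ρ : ℝ} (hρ : 0 < ρ) {τ τ' : ℍ}
    (h : ∀ g : Gamma0 N, ρ ≤ pdist τ (g • τ')) : greenH N ρ τ τ' = 0 := by
  rw [greenH_eq_sum N hρ ∅ (fun g hg => absurd hg (not_lt.mpr (h g)))]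
  simp

variable {N}
variable (P : ChartParams N)

/-- (ρ1): a point pseudo-hyperbolically close to the `r₁`-disc lies in the `r₂`-disc. -/
theorem mem_DH_of_pdist_lt {ρ : ℝ} (hρ : ρ ≤ 1 / 2)
    (hρ1 : 4 * ρ * (P.Y + P.sH * P.r₂) ≤ P.sH * (P.r₂ - P.r₁)) {τ w : ℍ}
    (hτ : τ ∈ DH P P.r₁) (h : pdist τ w ≤ ρ) : w ∈ DH P P.r₂ := by
  have h1 := dist_le_of_pdist_le hρ h
  have h2 := (im_bounds_of_mem_DH P P.hr₁₂.le hτ).2
  have hρ0 : 0 ≤ ρ := (pdist_nonneg τ w).trans h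
  have h3 : dist (τ : ℂ) w ≤ P.sH * (P.r₂ - P.r₁) := by
    calc dist (τ : ℂ) w ≤ 4 * ρ * τ.im := h1
      _ ≤ 4 * ρ * (P.Y + P.sH * P.r₂) := by
        apply mul_le_mul_of_nonneg_left h2; linarith
      _ ≤ _ := hρ1
  rw [mem_DH] at hτ ⊢
  have h4 : ‖(w : ℂ) - (P.Y : ℂ) * Complex.I‖ ≤
      ‖(w : ℂ) - τ‖ + ‖(τ : ℂ) - (P.Y : ℂ) * Complex.I‖ := by
    have : (w : ℂ) - (P.Y : ℂ) * Complex.I = ((w : ℂ) - τ) + ((τ : ℂ) - (P.Y : ℂ) * Complex.I) := by
      ring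
    rw [this]; exact norm_add_le _ _
  have h5 : ‖(w : ℂ) - τ‖ = dist (τ : ℂ) w := by rw [dist_comm, Complex.dist_eq]
  rw [h5] at h4
  nlinarith

/-- the basic two-sided estimate of `kern + log (Euclidean distance in the chart)`. -/
noncomputable def cHH (ρ : ℝ) : ℝ :=
  |Real.log (2 * ρ * (P.Y - P.sH * P.r₂) / P.sH)| + |Real.log (6 * ρ * P.Y / P.sH)|

theorem cHH_nonneg (ρ : ℝ) : 0 ≤ cHH P ρ := by unfold cHH; positivity

theorem norm_psiH_sub (τ w : ℍ) : ‖psiH P τ - psiH P w‖ = dist (τ : ℂ) w / P.sH := by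
  unfold psiH
  rw [← sub_div, norm_div, Complex.norm_real, Real.norm_eq_abs, abs_of_pos P.hsH, Complex.dist_eq]
  congr 1
  congr 1
  ring

theorem abs_kern_add_log_le {ρ : ℝ} (hρ : 0 < ρ) (hr₂ : P.r₂ ≤ 1 / 2) {τ w : ℍ}
    (hτ : τ ∈ DH P P.r₂) (hw : w ∈ DH P P.r₂) :
    |kern ρ τ w + Real.log ‖psiH P τ - psiH P w‖| ≤ cHH P ρ := by
  by_cases hne : τ = w
  · subst hne
    rw [kern_self, sub_self, norm_zero, Real.log_zero, add_zero, abs_zero]
    exact cHH_nonneg P ρ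
  have hsH := P.hsH
  have hY := Y_pos P
  have hm₂ : 0 < P.Y - P.sH * P.r₂ := by linarith [P.hH]
  have b1 := im_bounds_of_mem_DH P le_rfl hτ
  have b2 := im_bounds_of_mem_DH P le_rfl hw
  have hd : 0 < dist (τ : ℂ) w := by
    rw [dist_pos]; intro h; exact hne (UpperHalfPlane.ext h)
  have hp := pdist_pos hne
  have hconj := dist_conj_pos τ w
  -- the distance in the chart is at most `2 r₂ ≤ 1`
  have hle1 : ‖psiH P τ - psiH P w‖ ≤ 1 := by
    calc ‖psiH P τ - psiH P w‖ ≤ ‖psiH P τ‖ + ‖psiH P w‖ := norm_sub_le _ _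
      _ ≤ P.r₂ + P.r₂ := add_le_add hτ hw
      _ ≤ 1 := by linarith
  have hpos : 0 < ‖psiH P τ - psiH P w‖ := by
    rw [norm_psiH_sub]; positivity
  have hlog0 : Real.log ‖psiH P τ - psiH P w‖ ≤ 0 := Real.log_nonpos hpos.le hle1
  -- bounds for `|τ - conj w|`
  have hc1 : 2 * (P.Y - P.sH * P.r₂) ≤ dist (τ : ℂ) (starRingEnd ℂ (w : ℂ)) := by
    have := im_add_im_le_dist_conj τ w; linarith [b1.1, b2.1]
  have hdle : dist (τ : ℂ) w ≤ P.sH * 1 := by
    have := norm_psiH_sub P τ w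
    rw [this, div_le_iff₀ hsH] at hle1
    linarith
  have hc2 : dist (τ : ℂ) (starRingEnd ℂ (w : ℂ)) ≤ 6 * P.Y := by
    have := dist_conj_le τ w
    have h3 := P.hH
    have h5 : dist (τ : ℂ) w ≤ 2 * (P.sH * P.r₂) := by
      have e := norm_psiH_sub P τ w
      have : ‖psiH P τ - psiH P w‖ ≤ 2 * P.r₂ := by
        calc ‖psiH P τ - psiH P w‖ ≤ ‖psiH P τ‖ + ‖psiH P w‖ := norm_sub_le _ _
          _ ≤ P.r₂ + P.r₂ := add_le_add hτ hw
          _ = 2 * P.r₂ := by ring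
      rw [e, div_le_iff₀ hsH] at this
      linarith
    linarith [b1.2]
  -- the value of the kernel term
  have key : kern ρ τ w + Real.log ‖psiH P τ - psiH P w‖ =
      max (Real.log ‖psiH P τ - psiH P w‖)
        (Real.log (ρ * dist (τ : ℂ) (starRingEnd ℂ (w : ℂ)) / P.sH)) := by
    unfold kern
    rw [← max_add_add_right, zero_add]
    congr 1
    rw [norm_psiH_sub, ← Real.log_mul (by positivity) (by positivity)]
    congr 1
    unfold pdist
    field_simp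
  rw [key, abs_le]
  have hlow : Real.log (2 * ρ * (P.Y - P.sH * P.r₂) / P.sH) ≤
      Real.log (ρ * dist (τ : ℂ) (starRingEnd ℂ (w : ℂ)) / P.sH) := by
    apply Real.log_le_log (by positivity)
    apply div_le_div_of_nonneg_right _ hsH.le
    nlinarith
  have hup : Real.log (ρ * dist (τ : ℂ) (starRingEnd ℂ (w : ℂ)) / P.sH) ≤
      Real.log (6 * ρ * P.Y / P.sH) := by
    apply Real.log_le_log (by positivity)
    apply div_le_div_of_nonneg_right _ hsH.le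
    nlinarith
  have a1 := neg_abs_le (Real.log (2 * ρ * (P.Y - P.sH * P.r₂) / P.sH))
  have a2 := le_abs_self (Real.log (6 * ρ * P.Y / P.sH))
  have a3 := abs_nonneg (Real.log (2 * ρ * (P.Y - P.sH * P.r₂) / P.sH))
  have a4 := abs_nonneg (Real.log (6 * ρ * P.Y / P.sH))
  unfold cHH
  constructor
  · exact le_trans (by linarith) (le_trans hlow (le_max_right _ _))
  · apply max_le <;> linarith

/-- **(HH)**: the Green function against a point of the `r₁`-disc is minus the chart sum of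
logarithms, up to a uniform constant. -/
theorem abs_greenH_add_le {ρ : ℝ} (hρ : 0 < ρ) (hρ' : ρ ≤ 1 / 2) (hr₂ : P.r₂ ≤ 1 / 2)
    (hρ1 : 4 * ρ * (P.Y + P.sH * P.r₂) ≤ P.sH * (P.r₂ - P.r₁)) {τ : ℍ} (hτ : τ ∈ DH P P.r₁)
    (τ' : ℍ) :
    |greenH N ρ τ τ' + (1 / 2) * ∑ g ∈ into P τ', Real.log ‖psiH P τ - psiH P (g • τ')‖| ≤
      (1 / 2) * ((movers P).card * cHH P ρ) := by
  rw [greenH_eq_sum N hρ (into P τ') (fun g hg =>
    (mem_into P).mpr (mem_DH_of_pdist_lt P hρ' hρ1 hτ hg.le)), ← mul_add, ← Finset.sum_add_distrib,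
    abs_mul, abs_of_pos (by norm_num : (0 : ℝ) < 1 / 2)]
  apply mul_le_mul_of_nonneg_left _ (by norm_num)
  calc |∑ g ∈ into P τ', (kern ρ τ (g • τ') + Real.log ‖psiH P τ - psiH P (g • τ')‖)|
      ≤ ∑ g ∈ into P τ', |kern ρ τ (g • τ') + Real.log ‖psiH P τ - psiH P (g • τ')‖| :=
        Finset.abs_sum_le_sum_abs _ _
    _ ≤ ∑ _g ∈ into P τ', cHH P ρ := by
        apply Finset.sum_le_sum
        intro g hg
        exact abs_kern_add_log_le P hρ hr₂ (DH_mono P P.hr₁₂.le hτ) ((mem_into P).mp hg)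
    _ = (into P τ').card * cHH P ρ := by rw [Finset.sum_const, nsmul_eq_mul]
    _ ≤ (movers P).card * cHH P ρ := by
        apply mul_le_mul_of_nonneg_right _ (cHH_nonneg P ρ)
        exact_mod_cast card_into_le P τ'

end Fermat.Agent.MW
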