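/-
MW / [ARCH]-GEOM (helper4), layer 6: the structure of orbits near a point of a cusp chart, and the
resulting estimates for the Green function in the cusp charts.
-/
import Mathlib
import Fermat.Agent.MW.GEOM_helper4_Green

set_option autoImplicit false

namespace Fermat.Agent.MW

open UpperHalfPlane ModularGroup Matrix CongruenceSubgroup Metric Function.Periodic
open scoped MatrixGroups

variable {N : ℕ}

theorem eq_one_or_negOne_of_fix_smul (σ : SL(2, ℤ)) {τ' : ℍ} (h : 1 < τ'.im) (g : Gamma0 N)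
    (hg : g • (σ • τ') = σ • τ') : g = 1 ∨ g = negOne N := by
  have h1 : (σ⁻¹ * (g : SL(2, ℤ)) * σ) • τ' = τ' := by
    rw [mul_smul, mul_smul]
    have : (g : SL(2, ℤ)) • σ • τ' = σ • τ' := hg
    rw [this, inv_smul_smul]
  rcases eq_one_or_neg_one_of_fix h h1 with h2 | h2
  · left
    apply Subtype.ext
    have : (g : SL(2, ℤ)) = σ * (σ⁻¹ * (g : SL(2, ℤ)) * σ) * σ⁻¹ := by group
    rw [this, h2]; simp
  · right
    apply Subtype.ext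
    have : (g : SL(2, ℤ)) = σ * (σ⁻¹ * (g : SL(2, ℤ)) * σ) * σ⁻¹ := by group
    rw [this, h2]; simp [negOne]

theorem abs_im_sub_le_dist (a b : ℍ) : |a.im - b.im| ≤ dist (a : ℂ) b := by
  rw [Complex.dist_eq]
  have := Complex.abs_im_le_norm ((a : ℂ) - b)
  simpa using this

namespace CuspChart

variable (C : CuspChart N)

theorem one_lt_im_of_norm_param_le {τ' : ℍ} (h : ‖C.param τ'‖ ≤ C.r₂) : 1 < τ'.im := by
  rw [C.norm_param, div_le_iff₀ C.hs] at h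
  have h1 : Real.exp (-2 * Real.pi * τ'.im / C.c.h) < Real.exp (-2 * Real.pi / C.c.h) := by
    have := C.hsr
    linarith [mul_comm C.r₂ C.s]
  rw [Real.exp_lt_exp] at h1
  have h4 := C.h_pos
  have h5 := Real.pi_pos
  rw [div_lt_div_iff_of_pos_right h4] at h1
  nlinarith

theorem lift_eq (z : ℂ) : C.lift z = C.c.σ • C.tau z := rfl

theorem pdist_lift (z : ℂ) (w : ℍ) : pdist (C.lift z) w = pdist (C.tau z) (C.c.σ⁻¹ • w) := by
  rw [← pdist_smul C.c.σ (C.tau z) (C.c.σ⁻¹ • w), smul_inv_smul]; rfl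

theorem im_tau_ge {r₁ : ℝ} (hr₁ : 0 < r₁) (hr₁₂ : r₁ ≤ C.r₂) {z : ℂ} (hz : z ≠ 0)
    (hz1 : ‖z‖ ≤ r₁) : -(C.c.h : ℝ) / (2 * Real.pi) * Real.log (C.s * r₁) ≤ (C.tau z).im := by
  have h := (C.norm_param_le_iff (C.tau z) r₁ hr₁).mp
  rw [C.param_tau hz (hz1.trans hr₁₂)] at h
  exact h hz1

/-- **Claim A**: points pseudo-hyperbolically close to a point of the `r₁`-disc of bounded height
are Euclidean-close (after `σ⁻¹`) and lie in the `r₂`-disc. -/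
theorem near_cusp {r₁ ρ T₂ : ℝ} (hr₁ : 0 < r₁) (hr₁₂ : r₁ < C.r₂) (hρ : ρ ≤ 1 / 2)
    (hδ3 : 4 * ρ * T₂ ≤ 1 / (2 * Real.pi) * Real.log (C.r₂ / r₁))
    {z : ℂ} (hz : z ≠ 0) (hz1 : ‖z‖ ≤ r₁) (hT : (C.tau z).im ≤ T₂) {w : ℍ}
    (hw : pdist (C.lift z) w ≤ ρ) :
    dist (C.tau z : ℂ) ((C.c.σ⁻¹ • w : ℍ) : ℂ) ≤ 4 * ρ * T₂ ∧ ‖C.param (C.c.σ⁻¹ • w)‖ ≤ C.r₂ := by
  rw [C.pdist_lift] at hw
  have hρ0 : 0 ≤ ρ := (pdist_nonneg _ _).trans hw
  have h1 : dist (C.tau z : ℂ) ((C.c.σ⁻¹ • w : ℍ) : ℂ) ≤ 4 * ρ * T₂ := by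
    calc dist (C.tau z : ℂ) ((C.c.σ⁻¹ • w : ℍ) : ℂ) ≤ 4 * ρ * (C.tau z).im :=
          dist_le_of_pdist_le hρ hw
      _ ≤ 4 * ρ * T₂ := by apply mul_le_mul_of_nonneg_left hT; linarith
  refine ⟨h1, ?_⟩
  rw [C.norm_param_le_iff _ _ C.hr₂]
  have h2 := C.im_tau_ge hr₁ hr₁₂.le hz hz1
  have h3 := abs_le.mp ((abs_im_sub_le_dist (C.tau z) (C.c.σ⁻¹ • w)).trans h1)
  have h4 := C.h_pos
  have h5 := Real.pi_pos
  have h6 : Real.log (C.s * C.r₂) = Real.log (C.s * r₁) + Real.log (C.r₂ / r₁) := by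
    rw [← Real.log_mul (mul_pos C.hs hr₁).ne' (div_pos C.hr₂ hr₁).ne']
    congr 1; field_simp
  have h7 : 0 ≤ Real.log (C.r₂ / r₁) := by
    apply Real.log_nonneg; rw [le_div_iff₀ hr₁]; linarith
  have h8 : (1 : ℝ) ≤ C.c.h := by exact_mod_cast C.c.hpos
  have h9 : 1 / (2 * Real.pi) * Real.log (C.r₂ / r₁) ≤
      (C.c.h : ℝ) / (2 * Real.pi) * Real.log (C.r₂ / r₁) := by
    apply mul_le_mul_of_nonneg_right _ h7
    apply div_le_div_of_nonneg_right h8; positivity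
  have h10 : -(C.c.h : ℝ) / (2 * Real.pi) * Real.log (C.s * C.r₂) =
      -(C.c.h : ℝ) / (2 * Real.pi) * Real.log (C.s * r₁) -
        (C.c.h : ℝ) / (2 * Real.pi) * Real.log (C.r₂ / r₁) := by
    rw [h6]; ring
  rw [h10]
  linarith [h3.2]

/-- **Claim B**: at most one orbit point (up to `±1`) is close to a point of the `r₁`-disc of
bounded height. -/
theorem near_unique {r₁ ρ T₂ : ℝ} (hr₁ : 0 < r₁) (hr₁₂ : r₁ < C.r₂) (hρ : ρ ≤ 1 / 2)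
    (hδ2 : 4 * ρ * T₂ ≤ 1 / 8)
    (hδ3 : 4 * ρ * T₂ ≤ 1 / (2 * Real.pi) * Real.log (C.r₂ / r₁))
    {z : ℂ} (hz : z ≠ 0) (hz1 : ‖z‖ ≤ r₁) (hT : (C.tau z).im ≤ T₂) {τQ : ℍ} {g₁ g₂ : Gamma0 N}
    (h1 : pdist (C.lift z) (g₁ • τQ) ≤ ρ) (h2 : pdist (C.lift z) (g₂ • τQ) ≤ ρ) :
    g₂ = g₁ ∨ g₂ = negOne N * g₁ := by
  obtain ⟨d1, p1⟩ := C.near_cusp hr₁ hr₁₂ hρ hδ3 hz hz1 hT h1
  obtain ⟨d2, p2⟩ := C.near_cusp hr₁ hr₁₂ hρ hδ3 hz hz1 hT h2
  have i1 := C.one_lt_im_of_norm_param_le p1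
  have i2 := C.one_lt_im_of_norm_param_le p2
  have e : (g₂ * g₁⁻¹) • (C.c.σ • (C.c.σ⁻¹ • (g₁ • τQ))) = C.c.σ • (C.c.σ⁻¹ • (g₂ • τQ)) := by
    rw [smul_inv_smul, smul_inv_smul, mul_smul, inv_smul_smul]
  obtain ⟨n, hn⟩ := C.eq_add_of_smul_eq i1 i2.le e
  have hn0 : n = 0 := by
    have h3 : dist ((C.c.σ⁻¹ • (g₁ • τQ) : ℍ) : ℂ) ((C.c.σ⁻¹ • (g₂ • τQ) : ℍ) : ℂ) ≤ 1 / 4 := by
      calc dist ((C.c.σ⁻¹ • (g₁ • τQ) : ℍ) : ℂ) ((C.c.σ⁻¹ • (g₂ • τQ) : ℍ) : ℂ)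
          ≤ dist ((C.c.σ⁻¹ • (g₁ • τQ) : ℍ) : ℂ) (C.tau z : ℂ) +
            dist (C.tau z : ℂ) ((C.c.σ⁻¹ • (g₂ • τQ) : ℍ) : ℂ) := dist_triangle _ _ _
        _ ≤ 1 / 8 + 1 / 8 := by
            rw [dist_comm] ; exact add_le_add (d1.trans hδ2) (d2.trans hδ2)
        _ = 1 / 4 := by norm_num
    rw [Complex.dist_eq, hn] at h3
    have h4 : ‖((C.c.σ⁻¹ • (g₁ • τQ) : ℍ) : ℂ) -
        (((C.c.σ⁻¹ • (g₁ • τQ) : ℍ) : ℂ) + (n : ℂ) * ((C.c.h : ℝ) : ℂ))‖ = |(n : ℝ)| * C.c.h := by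
      have : ((C.c.σ⁻¹ • (g₁ • τQ) : ℍ) : ℂ) -
        (((C.c.σ⁻¹ • (g₁ • τQ) : ℍ) : ℂ) + (n : ℂ) * ((C.c.h : ℝ) : ℂ)) =
          ((-(n : ℝ) * (C.c.h : ℝ) : ℝ) : ℂ) := by push_cast; ring
      rw [this, Complex.norm_real, Real.norm_eq_abs, abs_mul, abs_neg,
        abs_of_pos C.h_pos]
    rw [h4] at h3
    have h8 : (1 : ℝ) ≤ C.c.h := by exact_mod_cast C.c.hpos
    have h5 : |(n : ℝ)| < 1 := by
      have := abs_nonneg (n : ℝ)
      nlinarith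
    rw [← Int.abs_lt_one_iff]
    have : ((|n| : ℤ) : ℝ) < 1 := by rw [Int.cast_abs]; exact h5
    exact_mod_cast this
  subst hn0
  have e2 : C.c.σ⁻¹ • (g₂ • τQ) = C.c.σ⁻¹ • (g₁ • τQ) := by
    apply UpperHalfPlane.ext
    rw [hn]; simp
  rw [e2] at e
  rcases eq_one_or_negOne_of_fix_smul C.c.σ i1 _ e with h3 | h3
  · left
    exact mul_inv_eq_one.mp h3
  · right
    exact mul_inv_eq_iff_eq_mul.mp h3

/-- **Claim C**: the Green function against a point of the `r₁`-disc of bounded height is at most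
one kernel term. -/
theorem greenH_le_kern {r₁ ρ T₂ : ℝ} (hr₁ : 0 < r₁) (hr₁₂ : r₁ < C.r₂) (hρ0 : 0 < ρ)
    (hρ : ρ ≤ 1 / 2) (hδ2 : 4 * ρ * T₂ ≤ 1 / 8)
    (hδ3 : 4 * ρ * T₂ ≤ 1 / (2 * Real.pi) * Real.log (C.r₂ / r₁))
    {z : ℂ} (hz : z ≠ 0) (hz1 : ‖z‖ ≤ r₁) (hT : (C.tau z).im ≤ T₂) {τQ : ℍ} {g₁ : Gamma0 N}
    (h1 : pdist (C.lift z) (g₁ • τQ) ≤ ρ) :
    greenH N ρ (C.lift z) τQ ≤ kern ρ (C.lift z) (g₁ • τQ) := by
  classical
  rw [greenH_eq_sum N hρ0 {g₁, negOne N * g₁} (fun g hg => by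
    rcases C.near_unique hr₁ hr₁₂ hρ hδ2 hδ3 hz hz1 hT h1 hg.le with h | h
    · rw [h]; exact Finset.mem_insert_self _ _
    · rw [h]; exact Finset.mem_insert_of_mem (Finset.mem_singleton_self _))]
  have h2 : ∑ g ∈ ({g₁, negOne N * g₁} : Finset (Gamma0 N)), kern ρ (C.lift z) (g • τQ) ≤
      ({g₁, negOne N * g₁} : Finset (Gamma0 N)).card • kern ρ (C.lift z) (g₁ • τQ) := by
    apply Finset.sum_le_card_nsmul
    intro g hg
    rw [Finset.mem_insert, Finset.mem_singleton] at hg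
    rcases hg with rfl | rfl
    · exact le_rfl
    · rw [mul_smul, negOne_smul]
  have h3 : (({g₁, negOne N * g₁} : Finset (Gamma0 N)).card : ℝ) ≤ 2 := by
    exact_mod_cast Finset.card_le_two
  rw [nsmul_eq_mul] at h2
  have h4 := kern_nonneg ρ (C.lift z) (g₁ • τQ)
  nlinarith

/-- the self-term vanishes at points of the `r₁`-disc of bounded height. -/
theorem greenH_self_eq_zero {r₁ ρ T₂ : ℝ} (hr₁ : 0 < r₁) (hr₁₂ : r₁ < C.r₂) (hρ0 : 0 < ρ)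
    (hρ : ρ ≤ 1 / 2) (hδ2 : 4 * ρ * T₂ ≤ 1 / 8)
    (hδ3 : 4 * ρ * T₂ ≤ 1 / (2 * Real.pi) * Real.log (C.r₂ / r₁))
    {z : ℂ} (hz : z ≠ 0) (hz1 : ‖z‖ ≤ r₁) (hT : (C.tau z).im ≤ T₂) :
    greenH N ρ (C.lift z) (C.lift z) = 0 := by
  unfold greenH
  rw [finsum_eq_zero_of_forall_eq_zero, mul_zero]
  intro g
  by_cases h : pdist (C.lift z) (g • C.lift z) < ρ
  · have h1 : pdist (C.lift z) ((1 : Gamma0 N) • C.lift z) ≤ ρ := by
      rw [one_smul, pdist_self]; exact hρ0.le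
    rcases C.near_unique hr₁ hr₁₂ hρ hδ2 hδ3 hz hz1 hT h1 h.le with h2 | h2
    · rw [h2, one_smul, kern_self]
    · rw [h2, mul_one, negOne_smul, kern_self]
  · exact kern_eq_zero_of_le hρ0 (not_lt.mp h)

theorem norm_qParam_le_one (τ' : ℍ) : ‖qParam (C.c.h : ℝ) (τ' : ℂ)‖ ≤ 1 := by
  rw [norm_qParam]
  apply Real.exp_le_one_iff.mpr
  have h4 := C.h_pos
  have h5 := Real.pi_pos
  have h6 := τ'.im_pos
  apply div_nonpos_of_nonpos_of_nonneg _ h4.le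
  have : (0 : ℝ) ≤ 2 * Real.pi * τ'.im := by positivity
  show -2 * Real.pi * (τ' : ℂ).im ≤ 0
  have e : (τ' : ℂ).im = τ'.im := rfl
  rw [e]; linarith

/-- Lipschitz bound for the parameter on Euclidean-close points. -/
theorem norm_param_sub_le {τ' w' : ℍ} (hd : dist (τ' : ℂ) w' ≤ 1 / 8) :
    ‖C.param τ' - C.param w'‖ ≤ 4 * Real.pi / C.s * dist (τ' : ℂ) w' := by
  unfold param
  rw [← sub_div, norm_div, Complex.norm_real, Real.norm_eq_abs, abs_of_pos C.hs]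
  have h4 := C.h_pos
  have h5 := Real.pi_pos
  have h8 : (1 : ℝ) ≤ C.c.h := by exact_mod_cast C.c.hpos
  have hh : ((C.c.h : ℝ) : ℂ) ≠ 0 := by exact_mod_cast C.h_ne
  set u : ℂ := 2 * Real.pi * Complex.I * ((w' : ℂ) - τ') / (C.c.h : ℝ) with hu
  have e1 : qParam (C.c.h : ℝ) (w' : ℂ) = qParam (C.c.h : ℝ) (τ' : ℂ) * Complex.exp u := by
    unfold qParam
    rw [← Complex.exp_add]
    congr 1
    rw [hu]; field_simp; ring
  have hun : ‖u‖ = 2 * Real.pi * dist (τ' : ℂ) w' / C.c.h := by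
    rw [hu, norm_div, norm_mul, norm_mul, Complex.norm_I, Complex.norm_real, Real.norm_eq_abs,
      abs_of_pos h4, mul_one]
    congr 1
    rw [Complex.dist_eq, ← norm_neg ((τ' : ℂ) - w'), neg_sub]
    simp [abs_of_pos h5]
  have hu1 : ‖u‖ ≤ 1 := by
    rw [hun, div_le_one h4]
    have : 2 * Real.pi * dist (τ' : ℂ) w' ≤ 2 * Real.pi * (1 / 8) :=
      mul_le_mul_of_nonneg_left hd (by positivity)
    have := Real.pi_lt_four
    nlinarith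
  have e2 : qParam (C.c.h : ℝ) (τ' : ℂ) - qParam (C.c.h : ℝ) (w' : ℂ) =
      -(qParam (C.c.h : ℝ) (τ' : ℂ) * (Complex.exp u - 1)) := by
    rw [e1]; ring
  rw [e2, norm_neg, norm_mul]
  have h9 := Complex.norm_exp_sub_one_le hu1
  have h10 := C.norm_qParam_le_one τ'
  have h11 : ‖qParam (C.c.h : ℝ) (τ' : ℂ)‖ * ‖Complex.exp u - 1‖ ≤ 1 * (2 * ‖u‖) :=
    mul_le_mul h10 h9 (norm_nonneg _) (by norm_num)
  rw [div_le_iff₀ C.hs]
  have h12 : 2 * ‖u‖ ≤ 4 * Real.pi * dist (τ' : ℂ) w' := by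
    rw [hun]
    have : 2 * Real.pi * dist (τ' : ℂ) w' / C.c.h ≤ 2 * Real.pi * dist (τ' : ℂ) w' := by
      apply div_le_self (by positivity) h8
    linarith
  have e3 : 4 * Real.pi / C.s * dist (τ' : ℂ) w' * C.s = 4 * Real.pi * dist (τ' : ℂ) w' := by
    field_simp [C.hs.ne']
  rw [e3]
  linarith

/-- equal parameters and Euclidean closeness force equality. -/
theorem eq_of_param_eq {τ' w' : ℍ} (h1 : ‖C.param τ'‖ ≤ C.r₂) (hd : dist (τ' : ℂ) w' ≤ 1 / 8)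
    (h : C.param τ' = C.param w') : τ' = w' := by
  obtain ⟨m, hm⟩ := C.tau_param h1
  obtain ⟨m', hm'⟩ := C.tau_param (h ▸ h1)
  rw [h, hm'] at hm
  have e : (w' : ℂ) - τ' = ((m - m' : ℤ) : ℂ) * ((C.c.h : ℝ) : ℂ) := by
    push_cast; linear_combination hm
  have h2 : ‖(w' : ℂ) - τ'‖ ≤ 1 / 8 := by
    rw [← Complex.dist_eq, dist_comm]; exact hd
  rw [e, norm_mul, Complex.norm_real, Real.norm_eq_abs, abs_of_pos C.h_pos, Complex.norm_intCast]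
    at h2
  have h8 : (1 : ℝ) ≤ C.c.h := by exact_mod_cast C.c.hpos
  have h5 : |((m - m' : ℤ) : ℝ)| < 1 := by
    have := abs_nonneg ((m - m' : ℤ) : ℝ)
    nlinarith
  have h6 : m - m' = 0 := by
    rw [← Int.abs_lt_one_iff]
    have : ((|m - m'| : ℤ) : ℝ) < 1 := by rw [Int.cast_abs]; exact h5
    exact_mod_cast this
  rw [h6] at e
  apply UpperHalfPlane.ext
  have : (w' : ℂ) - τ' = 0 := by rw [e]; simp
  linear_combination -this

/-- the constant of the `(cH)` estimate. -/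
noncomputable def cCH (ρ T₂ : ℝ) : ℝ := |Real.log (ρ * (4 * Real.pi / C.s * (2 * T₂ + 1)))|

/-- **Claim C'**: kernel term plus the logarithm of the parameter distance is bounded above. -/
theorem kern_add_log_param_le {r₁ ρ T₂ : ℝ} (hr₁ : 0 < r₁) (hr₁₂ : r₁ < C.r₂) (hρ0 : 0 < ρ)
    (hρ : ρ ≤ 1 / 2) (hδ2 : 4 * ρ * T₂ ≤ 1 / 8)
    (hδ3 : 4 * ρ * T₂ ≤ 1 / (2 * Real.pi) * Real.log (C.r₂ / r₁))
    {z : ℂ} (hz : z ≠ 0) (hz1 : ‖z‖ ≤ r₁) (hT : (C.tau z).im ≤ T₂) {w : ℍ}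
    (hw : pdist (C.lift z) w ≤ ρ) :
    kern ρ (C.lift z) w + Real.log ‖z - C.param (C.c.σ⁻¹ • w)‖ ≤ C.cCH ρ T₂ := by
  obtain ⟨d1, p1⟩ := C.near_cusp hr₁ hr₁₂ hρ hδ3 hz hz1 hT hw
  have hz2 : ‖z‖ ≤ C.r₂ := hz1.trans hr₁₂.le
  by_cases hne : C.lift z = w
  · subst hne
    rw [kern_self, C.lift_eq, inv_smul_smul, C.param_tau hz hz2, sub_self, norm_zero,
      Real.log_zero, add_zero]
    exact abs_nonneg _
  have hne' : C.tau z ≠ C.c.σ⁻¹ • w := by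
    intro h
    apply hne
    rw [C.lift_eq, h, smul_inv_smul]
  have hpd := C.pdist_lift z w
  have hp : 0 < pdist (C.tau z) (C.c.σ⁻¹ • w) := pdist_pos hne'
  rw [kern_of_lt hne hw, hpd]
  have hzp : z = C.param (C.tau z) := (C.param_tau hz hz2).symm
  have hd8 : dist (C.tau z : ℂ) ((C.c.σ⁻¹ • w : ℍ) : ℂ) ≤ 1 / 8 := d1.trans hδ2
  have hpos : 0 < ‖z - C.param (C.c.σ⁻¹ • w)‖ := by
    rw [norm_pos_iff, sub_ne_zero]
    intro h
    apply hne'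
    apply C.eq_of_param_eq _ hd8
    · rw [← hzp]; exact h
    · rw [← hzp]; exact hz2
  have hle : ‖z - C.param (C.c.σ⁻¹ • w)‖ ≤
      4 * Real.pi / C.s * (2 * T₂ + 1) * pdist (C.tau z) (C.c.σ⁻¹ • w) := by
    have h1 : ‖z - C.param (C.c.σ⁻¹ • w)‖ ≤
        4 * Real.pi / C.s * dist (C.tau z : ℂ) ((C.c.σ⁻¹ • w : ℍ) : ℂ) := by
      conv_lhs => rw [hzp]
      exact C.norm_param_sub_le hd8
    have h2 : dist (C.tau z : ℂ) ((C.c.σ⁻¹ • w : ℍ) : ℂ) ≤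
        pdist (C.tau z) (C.c.σ⁻¹ • w) * (2 * T₂ + 1) := by
      rw [dist_eq_pdist_mul (C.tau z) (C.c.σ⁻¹ • w)]
      apply mul_le_mul_of_nonneg_left _ hp.le
      have := dist_conj_le (C.tau z) (C.c.σ⁻¹ • w)
      linarith
    have h3 : 0 ≤ 4 * Real.pi / C.s := by
      have := C.hs; have := Real.pi_pos; positivity
    calc ‖z - C.param (C.c.σ⁻¹ • w)‖
        ≤ 4 * Real.pi / C.s * dist (C.tau z : ℂ) ((C.c.σ⁻¹ • w : ℍ) : ℂ) := h1
      _ ≤ 4 * Real.pi / C.s * (pdist (C.tau z) (C.c.σ⁻¹ • w) * (2 * T₂ + 1)) :=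
          mul_le_mul_of_nonneg_left h2 h3
      _ = _ := by ring
  have hT0 : 0 < 2 * T₂ + 1 := by
    have := (C.tau z).im_pos; linarith
  have hK : 0 < 4 * Real.pi / C.s * (2 * T₂ + 1) := by
    have := C.hs; have := Real.pi_pos; positivity
  have h4 : Real.log ‖z - C.param (C.c.σ⁻¹ • w)‖ ≤
      Real.log (4 * Real.pi / C.s * (2 * T₂ + 1)) + Real.log (pdist (C.tau z) (C.c.σ⁻¹ • w)) := by
    rw [← Real.log_mul hK.ne' hp.ne']
    exact Real.log_le_log hpos hle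
  have h5 : Real.log (ρ * (4 * Real.pi / C.s * (2 * T₂ + 1))) =
      Real.log ρ + Real.log (4 * Real.pi / C.s * (2 * T₂ + 1)) :=
    Real.log_mul hρ0.ne' hK.ne'
  unfold cCH
  have := le_abs_self (Real.log (ρ * (4 * Real.pi / C.s * (2 * T₂ + 1))))
  linarith

/-- **the exponential lemma**: parameters which are relatively close come from points which are
Euclidean-close up to a translation by a multiple of the width. -/
theorem exists_int_of_param_close {τa τb : ℍ}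
    (hclose : ‖C.param τb - C.param τa‖ ≤ ‖C.param τa‖ / 2) :
    ∃ n : ℤ, ‖(τb : ℂ) - τa - n * (C.c.h : ℝ)‖ ≤
      (C.c.h : ℝ) / 4 * (‖C.param τb - C.param τa‖ / ‖C.param τa‖) := by
  have ha0 := C.param_ne_zero τa
  have hna : 0 < ‖C.param τa‖ := norm_pos_iff.mpr ha0
  set u : ℂ := C.param τb / C.param τa - 1 with hu
  have hun : ‖u‖ = ‖C.param τb - C.param τa‖ / ‖C.param τa‖ := by
    rw [hu, ← norm_div]
    congr 1
    field_simp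
  have hu2 : ‖u‖ ≤ 1 / 2 := by
    rw [hun, div_le_iff₀ hna]; linarith
  have h4 := C.h_pos
  have h5 := Real.pi_pos
  have hh : ((C.c.h : ℝ) : ℂ) ≠ 0 := by exact_mod_cast C.h_ne
  set v : ℂ := 2 * Real.pi * Complex.I * ((τb : ℂ) - τa) / (C.c.h : ℝ) with hv
  have e1 : Complex.exp v = 1 + u := by
    rw [hu]
    unfold param qParam
    rw [div_div_div_cancel_right₀ C.s_ne, ← Complex.exp_sub]
    have : v = 2 * Real.pi * Complex.I * (τb : ℂ) / (C.c.h : ℝ) -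
        2 * Real.pi * Complex.I * (τa : ℂ) / (C.c.h : ℝ) := by
      rw [hv]; field_simp
    rw [this]; ring
  have hne : (1 + u) ≠ 0 := by
    rw [← e1]; exact Complex.exp_ne_zero _
  have e2 : Complex.exp v = Complex.exp (Complex.log (1 + u)) := by
    rw [Complex.exp_log hne, e1]
  obtain ⟨n, hn⟩ := Complex.exp_eq_exp_iff_exists_int.mp e2
  refine ⟨n, ?_⟩
  have hlog := Complex.norm_log_one_add_half_le_self hu2
  have hpi : (Real.pi : ℂ) ≠ 0 := by exact_mod_cast h5.ne'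
  have e3 : (τb : ℂ) - τa - n * (C.c.h : ℝ) =
      Complex.log (1 + u) * ((C.c.h : ℝ) : ℂ) / (2 * Real.pi * Complex.I) := by
    have hI : (2 * (Real.pi : ℂ) * Complex.I) ≠ 0 := by
      simp [hpi]
    rw [eq_div_iff hI]
    have : v * ((C.c.h : ℝ) : ℂ) = 2 * Real.pi * Complex.I * ((τb : ℂ) - τa) := by
      rw [hv]; field_simp
    rw [hn] at this
    linear_combination -this
  rw [e3, norm_div, norm_mul, Complex.norm_real, Real.norm_eq_abs, abs_of_pos h4]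
  have e4 : ‖(2 * (Real.pi : ℂ) * Complex.I)‖ = 2 * Real.pi := by
    simp [abs_of_pos h5]
  rw [e4, div_le_iff₀ (by positivity), ← hun]
  have h3 := Real.pi_gt_three
  have h6 := norm_nonneg u
  have h7 : ‖Complex.log (1 + u)‖ * (C.c.h : ℝ) ≤ 3 / 2 * ‖u‖ * (C.c.h : ℝ) :=
    mul_le_mul_of_nonneg_right hlog h4.le
  have h8 := mul_nonneg (mul_nonneg h6 h4.le) (sub_nonneg.mpr h3.le)
  nlinarith

end CuspChart

end Fermat.Agent.MW
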