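/-
MW / [ARCH]-GEOM (helper4), layer 7: cusp charts on the abstract set of points `X`: injectivity,
the parameter of a point, the cusp Green function; lifting of automorphic kernels to `X`.
-/
import Mathlib
import Fermat.Agent.MW.GEOM_helper4_Near

set_option autoImplicit false

namespace Fermat.Agent.MW

open UpperHalfPlane ModularGroup Matrix CongruenceSubgroup Metric Function.Periodic
open scoped MatrixGroups

variable {N : ℕ} {X : Type*}

/-- lifting a `Γ₀(N) × Γ₀(N)`-invariant kernel on `ℍ` to the non-cuspidal points of `X`. -/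
noncomputable def UnifData.lift2 (U : UnifData N X) (F : ℍ → ℍ → ℝ) (Q Q' : X) : ℝ :=
  open Classical in
  if h : (∃ τ ∈ U.adm, U.pt τ = Q) ∧ (∃ τ' ∈ U.adm, U.pt τ' = Q') then
    F (Classical.choose h.1) (Classical.choose h.2) else 0

theorem UnifData.lift2_pt (U : UnifData N X) (F : ℍ → ℍ → ℝ)
    (hF : ∀ (g g' : Gamma0 N) (τ τ' : ℍ), F (g • τ) (g' • τ') = F τ τ') {τ τ' : ℍ}
    (hτ : τ ∈ U.adm) (hτ' : τ' ∈ U.adm) : U.lift2 F (U.pt τ) (U.pt τ') = F τ τ' := by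
  unfold UnifData.lift2
  have h : (∃ σ ∈ U.adm, U.pt σ = U.pt τ) ∧ (∃ σ' ∈ U.adm, U.pt σ' = U.pt τ') :=
    ⟨⟨τ, hτ, rfl⟩, ⟨τ', hτ', rfl⟩⟩
  rw [dif_pos h]
  obtain ⟨h1, h2⟩ := Classical.choose_spec h.1
  obtain ⟨h3, h4⟩ := Classical.choose_spec h.2
  obtain ⟨g, hg⟩ := exists_smul_eq_of_pt_eq U hτ h1 h2.symm
  obtain ⟨g', hg'⟩ := exists_smul_eq_of_pt_eq U hτ' h3 h4.symm
  rw [← hg, ← hg', hF]

theorem UnifData.lift2_of_not_left (U : UnifData N X) (F : ℍ → ℍ → ℝ) {Q Q' : X}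
    (h : ¬ ∃ τ ∈ U.adm, U.pt τ = Q) : U.lift2 F Q Q' = 0 := by
  unfold UnifData.lift2
  rw [dif_neg (fun h' => h h'.1)]

theorem UnifData.lift2_of_not_right (U : UnifData N X) (F : ℍ → ℍ → ℝ) {Q Q' : X}
    (h : ¬ ∃ τ ∈ U.adm, U.pt τ = Q') : U.lift2 F Q Q' = 0 := by
  unfold UnifData.lift2
  rw [dif_neg (fun h' => h h'.2)]

theorem UnifData.lift2_symm (U : UnifData N X) (F : ℍ → ℍ → ℝ)
    (hF : ∀ τ τ' : ℍ, F τ τ' = F τ' τ) (Q Q' : X) : U.lift2 F Q Q' = U.lift2 F Q' Q := by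
  unfold UnifData.lift2
  by_cases h : (∃ τ ∈ U.adm, U.pt τ = Q) ∧ (∃ τ' ∈ U.adm, U.pt τ' = Q')
  · rw [dif_pos h, dif_pos ⟨h.2, h.1⟩, hF]
  · rw [dif_neg h, dif_neg (fun h' => h ⟨h'.2, h'.1⟩)]

theorem UnifData.lift2_nonneg (U : UnifData N X) (F : ℍ → ℍ → ℝ)
    (hF : ∀ τ τ' : ℍ, 0 ≤ F τ τ') (Q Q' : X) : 0 ≤ U.lift2 F Q Q' := by
  unfold UnifData.lift2
  split_ifs
  · exact hF _ _
  · exact le_rfl

/-- a cusp chart together with its cusp point. -/
structure XCusp (U : UnifData N X) extends CuspChart N where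
  x : X
  hx : ∀ τ ∈ U.adm, U.pt τ ≠ x

namespace XCusp

variable {U : UnifData N X} (K : XCusp U)

/-- the point map of the chart. -/
noncomputable def pt (z : ℂ) : X :=
  open Classical in if z = 0 then K.x else U.pt (K.toCuspChart.lift z)

/-- the admissible parameters. -/
def A : Set ℂ := {z | z = 0 ∨ K.toCuspChart.lift z ∈ U.adm}

theorem pt_zero : K.pt 0 = K.x := by unfold pt; simp

theorem pt_of_ne {z : ℂ} (hz : z ≠ 0) : K.pt z = U.pt (K.toCuspChart.lift z) := by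
  unfold pt; simp [hz]

theorem lift_mem_adm {z : ℂ} (hz : z ∈ K.A) (h0 : z ≠ 0) : K.toCuspChart.lift z ∈ U.adm := by
  rcases hz with h | h
  · exact absurd h h0
  · exact h

theorem zero_mem_A : (0 : ℂ) ∈ K.A := Or.inl rfl

/-- in a cusp chart every point has at most one parameter. -/
theorem inj {z z' : ℂ} (hz : z ∈ K.A) (hz' : z' ∈ K.A) (h2 : ‖z‖ ≤ K.r₂) (h2' : ‖z'‖ ≤ K.r₂)
    (h : K.pt z = K.pt z') : z = z' := by
  by_cases h0 : z = 0
  · by_cases h0' : z' = 0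
    · rw [h0, h0']
    · rw [h0, K.pt_zero, K.pt_of_ne h0'] at h
      exact absurd h.symm (K.hx _ (K.lift_mem_adm hz' h0'))
  · by_cases h0' : z' = 0
    · rw [h0', K.pt_zero, K.pt_of_ne h0] at h
      exact absurd h (K.hx _ (K.lift_mem_adm hz h0))
    · rw [K.pt_of_ne h0, K.pt_of_ne h0'] at h
      obtain ⟨g, hg⟩ := exists_smul_eq_of_pt_eq U (K.lift_mem_adm hz h0)
        (K.lift_mem_adm hz' h0') h
      exact K.toCuspChart.eq_of_smul_lift_eq h0 h2 h0' h2' hg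

/-- the parameter of a point in the `r₂`-disc of the chart, if any. -/
noncomputable def paramAt (Q : X) : Option ℂ :=
  open Classical in
  if h : ∃ z, z ∈ K.A ∧ ‖z‖ ≤ K.r₂ ∧ K.pt z = Q then some (Classical.choose h) else none

theorem paramAt_eq_some {Q : X} {a : ℂ} (h : K.paramAt Q = some a) :
    a ∈ K.A ∧ ‖a‖ ≤ K.r₂ ∧ K.pt a = Q := by
  unfold paramAt at h
  split_ifs at h with h'
  have := Classical.choose_spec h'
  rw [Option.some.injEq] at h
  rw [← h]; exact this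

theorem paramAt_eq_none {Q : X} (h : K.paramAt Q = none) :
    ∀ z ∈ K.A, ‖z‖ ≤ K.r₂ → K.pt z ≠ Q := by
  unfold paramAt at h
  split_ifs at h with h'
  intro z hz h2 hQ
  exact h' ⟨z, hz, h2, hQ⟩

theorem paramAt_pt {z : ℂ} (hz : z ∈ K.A) (h2 : ‖z‖ ≤ K.r₂) : K.paramAt (K.pt z) = some z := by
  have h' : ∃ z', z' ∈ K.A ∧ ‖z'‖ ≤ K.r₂ ∧ K.pt z' = K.pt z := ⟨z, hz, h2, rfl⟩
  unfold paramAt
  rw [dif_pos h']
  obtain ⟨h1, h3, h4⟩ := Classical.choose_spec h'
  rw [K.inj h1 hz h3 h2 h4]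

/-- the cusp Green function `max 0 (log (1/|z_Q - z_Q'|))` on the `r₂`-disc. -/
noncomputable def gam (Q Q' : X) : ℝ :=
  match K.paramAt Q, K.paramAt Q' with
  | some a, some b => max 0 (Real.log (1 / ‖a - b‖))
  | _, _ => 0

theorem gam_nonneg (Q Q' : X) : 0 ≤ K.gam Q Q' := by
  unfold gam
  split
  · exact le_max_left _ _
  · exact le_rfl

theorem gam_symm (Q Q' : X) : K.gam Q Q' = K.gam Q' Q := by
  unfold gam
  cases h1 : K.paramAt Q <;> cases h2 : K.paramAt Q' <;> simp [norm_sub_rev]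

/-- the chart sum of a cusp chart. -/
noncomputable def cuspSum (Q : X) (z : ℂ) : ℝ :=
  match K.paramAt Q with
  | some a => Real.log ‖z - a‖
  | none => 0

/-- the fibre sum of a cusp chart equals `cuspSum`. -/
theorem sum_fib_eq (Q : X) (z : ℂ) (F : Finset ℂ)
    (hF : ∀ z', z' ∈ F ↔ z' ∈ K.A ∧ K.pt z' = Q ∧ ‖z'‖ ≤ K.r₂) (e : ℂ → ℕ)
    (he : ∀ z', ‖z'‖ ≤ K.r₂ → e z' = 1) :
    ∑ z' ∈ F, (e z' : ℝ) * Real.log ‖z - z'‖ = K.cuspSum Q z := by
  unfold cuspSum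
  cases h : K.paramAt Q with
  | none =>
    have hF0 : F = ∅ := by
      rw [Finset.eq_empty_iff_forall_notMem]
      intro z' hz'
      obtain ⟨h1, h2, h3⟩ := (hF z').mp hz'
      exact K.paramAt_eq_none h z' h1 h3 h2
    rw [hF0]; simp
  | some a =>
    obtain ⟨h1, h2, h3⟩ := K.paramAt_eq_some h
    have hFa : F = {a} := by
      ext z'
      rw [Finset.mem_singleton, hF]
      constructor
      · rintro ⟨k1, k2, k3⟩
        exact K.inj k1 h1 k3 h2 (k2.trans h3.symm)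
      · rintro rfl
        exact ⟨h1, h3, h2⟩
    rw [hFa, Finset.sum_singleton, he a h2]
    simp

/-- **(cc)**: in its own chart, the cusp Green function is exactly minus the chart sum. -/
theorem gam_add_cuspSum (hr₂ : K.r₂ ≤ 1 / 2) (Q : X) {z : ℂ} (hz : z ∈ K.A) (h2 : ‖z‖ ≤ K.r₂) :
    K.gam Q (K.pt z) + K.cuspSum Q z = 0 := by
  unfold gam cuspSum
  rw [K.paramAt_pt hz h2]
  cases h : K.paramAt Q with
  | none => simp
  | some a =>
    obtain ⟨h1, h3, h4⟩ := K.paramAt_eq_some h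
    simp only
    by_cases hza : z = a
    · rw [hza]; simp
    · have hpos : 0 < ‖a - z‖ := by
        rw [norm_pos_iff, sub_ne_zero]; exact fun h => hza h.symm
      have hle : ‖a - z‖ ≤ 1 := by
        calc ‖a - z‖ ≤ ‖a‖ + ‖z‖ := norm_sub_le _ _
          _ ≤ 1 := by linarith
      rw [norm_sub_rev z a, one_div, Real.log_inv, max_eq_right]
      · ring
      · have := Real.log_nonpos hpos.le hle; linarith

theorem cuspSum_nonpos (hr₂ : K.r₂ ≤ 1 / 2) (Q : X) {z : ℂ} (h2 : ‖z‖ ≤ K.r₂) :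
    K.cuspSum Q z ≤ 0 := by
  unfold cuspSum
  cases h : K.paramAt Q with
  | none => exact le_rfl
  | some a =>
    obtain ⟨h1, h3, h4⟩ := K.paramAt_eq_some h
    simp only
    apply Real.log_nonpos (norm_nonneg _)
    calc ‖z - a‖ ≤ ‖z‖ + ‖a‖ := norm_sub_le _ _
      _ ≤ 1 := by linarith

/-- **(cc')**: a point of the chart `K` has no parameter in an inequivalent chart `K'`. -/
theorem paramAt_other (K' : XCusp U) (hxx : K.x ≠ K'.x)
    (hne : ∀ g : Gamma0 N, (K'.c.σ⁻¹ * (g : SL(2, ℤ)) * K.c.σ) 1 0 ≠ 0)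
    {z : ℂ} (hz : z ∈ K.A) (h2 : ‖z‖ ≤ K.r₂) : K'.paramAt (K.pt z) = none := by
  cases h : K'.paramAt (K.pt z) with
  | none => rfl
  | some a =>
    exfalso
    obtain ⟨h1, h3, h4⟩ := K'.paramAt_eq_some h
    by_cases h0 : z = 0
    · by_cases h0' : a = 0
      · rw [h0, h0', K.pt_zero, K'.pt_zero] at h4
        exact hxx h4.symm
      · rw [h0, K.pt_zero, K'.pt_of_ne h0'] at h4
        exact K.hx _ (K'.lift_mem_adm h1 h0') h4
    · by_cases h0' : a = 0
      · rw [h0', K'.pt_zero, K.pt_of_ne h0] at h4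
        exact K'.hx _ (K.lift_mem_adm hz h0) h4.symm
      · rw [K'.pt_of_ne h0', K.pt_of_ne h0] at h4
        obtain ⟨g, hg⟩ := exists_smul_eq_of_pt_eq U (K.lift_mem_adm hz h0)
          (K'.lift_mem_adm h1 h0') h4.symm
        have e : (K'.c.σ⁻¹ * (g : SL(2, ℤ)) * K.c.σ) • K.toCuspChart.tau z =
            K'.toCuspChart.tau a := by
          rw [mul_smul, mul_smul]
          have : (g : SL(2, ℤ)) • K.c.σ • K.toCuspChart.tau z = K'.c.σ • K'.toCuspChart.tau a := hg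
          rw [this, inv_smul_smul]
        have i1 := K.toCuspChart.one_lt_im_tau h0 h2
        have i2 := K'.toCuspChart.one_lt_im_tau h0' h3
        exact hne g (c_eq_zero_of_one_lt_im i1 (by rw [e]; exact i2.le))

end XCusp

end Fermat.Agent.MW
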