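/-
MW / [ARCH]-GEOM (helper4), layer 8: the cut Green function on `X` and its estimate in the cusp
charts (`(cH)`).
-/
import Mathlib
import Fermat.Agent.MW.GEOM_helper4_XCusp

set_option autoImplicit false

namespace Fermat.Agent.MW

open UpperHalfPlane ModularGroup Matrix CongruenceSubgroup Metric Function.Periodic
open scoped MatrixGroups

variable {N : ℕ} {X : Type*}

/-- a point is cut when its orbit is high at one of the two cusps. -/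
def Cut (N : ℕ) (T₂ : ℝ) (τ : ℍ) : Prop := T₂ < cuspHt N 1 τ ∨ T₂ < cuspHt N S τ

theorem cut_smul (T₂ : ℝ) (g : Gamma0 N) (τ : ℍ) : Cut N T₂ (g • τ) ↔ Cut N T₂ τ := by
  unfold Cut
  rw [cuspHt_smul, cuspHt_smul]

/-- the cut Green function on `ℍ`. -/
noncomputable def greenCut (N : ℕ) (ρ T₂ : ℝ) (τ τ' : ℍ) : ℝ :=
  open Classical in if Cut N T₂ τ ∨ Cut N T₂ τ' then 0 else greenH N ρ τ τ'

theorem greenCut_smul (ρ T₂ : ℝ) (g g' : Gamma0 N) (τ τ' : ℍ) :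
    greenCut N ρ T₂ (g • τ) (g' • τ') = greenCut N ρ T₂ τ τ' := by
  classical
  unfold greenCut
  rw [greenH_smul_left, greenH_smul_right]
  exact if_congr (by rw [cut_smul, cut_smul]) rfl rfl

theorem greenCut_symm (ρ T₂ : ℝ) (τ τ' : ℍ) :
    greenCut N ρ T₂ τ τ' = greenCut N ρ T₂ τ' τ := by
  classical
  unfold greenCut
  rw [greenH_symm]
  exact if_congr or_comm rfl rfl

theorem greenCut_nonneg (ρ T₂ : ℝ) (τ τ' : ℍ) : 0 ≤ greenCut N ρ T₂ τ τ' := by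
  unfold greenCut
  split_ifs
  · exact le_rfl
  · exact greenH_nonneg N ρ τ τ'

theorem greenCut_of_not_cut {ρ T₂ : ℝ} {τ τ' : ℍ} (h : ¬ Cut N T₂ τ) (h' : ¬ Cut N T₂ τ') :
    greenCut N ρ T₂ τ τ' = greenH N ρ τ τ' := by
  unfold greenCut
  rw [if_neg (not_or.mpr ⟨h, h'⟩)]

theorem greenCut_le (ρ T₂ : ℝ) (τ τ' : ℍ) : greenCut N ρ T₂ τ τ' ≤ greenH N ρ τ τ' := by
  unfold greenCut
  split_ifs
  · exact greenH_nonneg N ρ τ τ'
  · exact le_rfl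

/-- the cut Green function on `X`. -/
noncomputable def gamH (U : UnifData N X) (ρ T₂ : ℝ) : X → X → ℝ := U.lift2 (greenCut N ρ T₂)

theorem gamH_symm (U : UnifData N X) (ρ T₂ : ℝ) (Q Q' : X) :
    gamH U ρ T₂ Q Q' = gamH U ρ T₂ Q' Q :=
  U.lift2_symm _ (greenCut_symm ρ T₂) Q Q'

theorem gamH_nonneg (U : UnifData N X) (ρ T₂ : ℝ) (Q Q' : X) : 0 ≤ gamH U ρ T₂ Q Q' :=
  U.lift2_nonneg _ (greenCut_nonneg ρ T₂) Q Q'

theorem gamH_pt (U : UnifData N X) (ρ T₂ : ℝ) {τ τ' : ℍ} (hτ : τ ∈ U.adm) (hτ' : τ' ∈ U.adm) :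
    gamH U ρ T₂ (U.pt τ) (U.pt τ') = greenCut N ρ T₂ τ τ' :=
  U.lift2_pt _ (greenCut_smul ρ T₂) hτ hτ'

namespace XCusp

variable {U : UnifData N X} (K : XCusp U)

/-- **(cH)**: in a cusp chart the cut Green function is bounded above by minus the chart sum. -/
theorem gamH_add_cuspSum_le {r₁ ρ T₂ : ℝ} (hσ : K.c.σ = 1 ∨ K.c.σ = S) (hr₂ : K.r₂ ≤ 1 / 2)
    (hr₁ : 0 < r₁) (hr₁₂ : r₁ < K.r₂) (hρ0 : 0 < ρ) (hρ : ρ ≤ 1 / 2) (hδ2 : 4 * ρ * T₂ ≤ 1 / 8)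
    (hδ3 : 4 * ρ * T₂ ≤ 1 / (2 * Real.pi) * Real.log (K.r₂ / r₁))
    {z : ℂ} (hz : z ∈ K.A) (hz1 : ‖z‖ ≤ r₁) (Q : X) :
    gamH U ρ T₂ Q (K.pt z) + K.cuspSum Q z ≤ K.toCuspChart.cCH ρ T₂ := by
  have hz2 : ‖z‖ ≤ K.r₂ := hz1.trans hr₁₂.le
  have hsum := K.cuspSum_nonpos hr₂ Q hz2
  have hc0 : 0 ≤ K.toCuspChart.cCH ρ T₂ := abs_nonneg _
  by_cases h0 : z = 0
  · rw [h0, K.pt_zero]
    have : gamH U ρ T₂ Q K.x = 0 := by
      apply U.lift2_of_not_right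
      rintro ⟨τ, hτ, h⟩
      exact K.hx τ hτ h
    rw [this]; rw [h0] at hsum; linarith
  have hadm := K.lift_mem_adm hz h0
  rw [K.pt_of_ne h0]
  by_cases hQ : ∃ τQ ∈ U.adm, U.pt τQ = Q
  swap
  · rw [show gamH U ρ T₂ Q _ = 0 from U.lift2_of_not_left _ hQ]; linarith
  obtain ⟨τQ, hτQ, rfl⟩ := hQ
  rw [gamH_pt U ρ T₂ hτQ hadm]
  by_cases hcut : Cut N T₂ τQ ∨ Cut N T₂ (K.toCuspChart.lift z)
  · unfold greenCut; rw [if_pos hcut]; linarith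
  rw [not_or] at hcut
  rw [greenCut_of_not_cut hcut.1 hcut.2, greenH_symm]
  have hT : (K.toCuspChart.tau z).im ≤ T₂ := by
    have h1 : cuspHt N K.c.σ (K.toCuspChart.lift z) = (K.toCuspChart.tau z).im :=
      cuspHt_smul_of_one_lt (N := N) K.c.σ (K.toCuspChart.one_lt_im_tau h0 hz2)
    have h2 := hcut.2
    unfold Cut at h2
    rw [not_or, not_lt, not_lt] at h2
    rcases hσ with h | h
    · rw [h] at h1; rw [← h1]; exact h2.1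
    · rw [h] at h1; rw [← h1]; exact h2.2
  by_cases hnear : ∀ g : Gamma0 N, ρ ≤ pdist (K.toCuspChart.lift z) (g • τQ)
  · rw [greenH_eq_zero N hρ0 hnear]; linarith
  rw [not_forall] at hnear
  obtain ⟨g₁, hg₁⟩ := hnear
  rw [not_le] at hg₁
  have h1 := K.toCuspChart.greenH_le_kern hr₁ hr₁₂ hρ0 hρ hδ2 hδ3 h0 hz1 hT hg₁.le
  have h2 := K.toCuspChart.kern_add_log_param_le hr₁ hr₁₂ hρ0 hρ hδ2 hδ3 h0 hz1 hT hg₁.le
  obtain ⟨-, p1⟩ := K.toCuspChart.near_cusp hr₁ hr₁₂ hρ hδ3 h0 hz1 hT hg₁.le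
  -- identify the chart sum
  set a : ℂ := K.toCuspChart.param (K.c.σ⁻¹ • (g₁ • τQ)) with ha
  have ha0 : a ≠ 0 := K.toCuspChart.param_ne_zero _
  obtain ⟨g, hg⟩ := K.toCuspChart.lift_param p1
  rw [smul_inv_smul] at hg
  have hwadm : g₁ • τQ ∈ U.adm := U.adm_smul g₁.1 τQ hτQ
  have haA : a ∈ K.A := Or.inr (by rw [ha, ← hg]; exact U.adm_smul g.1 _ hwadm)
  have hapt : K.pt a = U.pt τQ := by
    rw [K.pt_of_ne ha0, ha, ← hg, pt_smul_eq U hwadm, pt_smul_eq U hτQ]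
  have hpar : K.paramAt (U.pt τQ) = some a := by
    rw [← hapt]; exact K.paramAt_pt haA p1
  have hcs : K.cuspSum (U.pt τQ) z = Real.log ‖z - a‖ := by
    unfold cuspSum; rw [hpar]
  rw [hcs]
  linarith

end XCusp

end Fermat.Agent.MW
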