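/-
MW / [ARCH]-GEOM (helper4), layer 9: estimates in the `H`-chart: `(HH)` for the cut Green function
and `(Hc)` for the cusp Green functions.
-/
import Mathlib
import Fermat.Agent.MW.GEOM_helper4_EstC

set_option autoImplicit false

namespace Fermat.Agent.MW

open UpperHalfPlane ModularGroup Matrix CongruenceSubgroup Metric Function.Periodic
open scoped MatrixGroups

variable {N : ℕ} {X : Type*} (U : UnifData N X) (P : ChartParams N)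

theorem max_im_le_of_mem_DH {T₂ : ℝ} (hT₂a : P.Y + P.sH * P.r₂ ≤ T₂)
    (hT₂b : 1 / (P.Y - P.sH * P.r₂) ≤ T₂) {τ : ℍ} (hτ : τ ∈ DH P P.r₂) :
    max τ.im (1 / τ.im) ≤ T₂ := by
  have b := im_bounds_of_mem_DH P le_rfl hτ
  have hm₂ : 0 < P.Y - P.sH * P.r₂ := by linarith [P.hH]
  apply max_le
  · linarith [b.2]
  · refine le_trans ?_ hT₂b
    exact one_div_le_one_div_of_le hm₂ b.1

theorem not_cut_of_mem_DH {T₂ : ℝ} (hT₂a : P.Y + P.sH * P.r₂ ≤ T₂)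
    (hT₂b : 1 / (P.Y - P.sH * P.r₂) ≤ T₂) {τ : ℍ} (hτ : τ ∈ DH P P.r₂) : ¬ Cut N T₂ τ := by
  have h := max_im_le_of_mem_DH P hT₂a hT₂b hτ
  unfold Cut
  rw [not_or, not_lt, not_lt]
  exact ⟨(cuspHt_le_max 1 τ).trans h, (cuspHt_le_max S τ).trans h⟩

/-- a fibre of the `H`-chart. -/
def IsFibH (Q : X) (F : Finset ℂ) : Prop :=
  ∀ z', z' ∈ F ↔ (P.lift ChartIdx.H z' ∈ U.adm ∧ U.pt (P.lift ChartIdx.H z') = Q ∧ ‖z'‖ ≤ P.r₂)

/-- the chart sum of the `H`-chart. -/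
noncomputable def sumH (F : Finset ℂ) (z : ℂ) : ℝ :=
  ∑ z' ∈ F, (stabMult N (P.lift ChartIdx.H z') : ℝ) * Real.log ‖z - z'‖

theorem sumH_term_nonpos (hr₂ : P.r₂ ≤ 1 / 2) {z z' : ℂ} (hz : ‖z‖ ≤ P.r₂) (hz' : ‖z'‖ ≤ P.r₂) :
    (stabMult N (P.lift ChartIdx.H z') : ℝ) * Real.log ‖z - z'‖ ≤ 0 := by
  apply mul_nonpos_of_nonneg_of_nonpos (Nat.cast_nonneg _)
  apply Real.log_nonpos (norm_nonneg _)
  calc ‖z - z'‖ ≤ ‖z‖ + ‖z'‖ := norm_sub_le _ _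
    _ ≤ 1 := by linarith

theorem sumH_nonpos (hr₂ : P.r₂ ≤ 1 / 2) {Q : X} {F : Finset ℂ} (hF : IsFibH U P Q F) {z : ℂ}
    (hz : ‖z‖ ≤ P.r₂) : sumH P F z ≤ 0 := by
  unfold sumH
  apply Finset.sum_nonpos
  intro z' hz'
  exact sumH_term_nonpos P hr₂ hz ((hF z').mp hz').2.2

theorem sumH_le_log (hr₂ : P.r₂ ≤ 1 / 2) {Q : X} {F : Finset ℂ} (hF : IsFibH U P Q F) {z : ℂ}
    (hz : ‖z‖ ≤ P.r₂) {z₀ : ℂ} (hz₀ : z₀ ∈ F) : sumH P F z ≤ Real.log ‖z - z₀‖ := by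
  unfold sumH
  have h1 : ∑ z' ∈ F, (stabMult N (P.lift ChartIdx.H z') : ℝ) * Real.log ‖z - z'‖ ≤
      (stabMult N (P.lift ChartIdx.H z₀) : ℝ) * Real.log ‖z - z₀‖ := by
    rw [← Finset.add_sum_erase F _ hz₀]
    have : ∑ z' ∈ F.erase z₀, (stabMult N (P.lift ChartIdx.H z') : ℝ) * Real.log ‖z - z'‖ ≤ 0 := by
      apply Finset.sum_nonpos
      intro z' hz'
      exact sumH_term_nonpos P hr₂ hz ((hF z').mp (Finset.mem_of_mem_erase hz')).2.2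
    linarith
  have h2 : Real.log ‖z - z₀‖ ≤ 0 := by
    apply Real.log_nonpos (norm_nonneg _)
    calc ‖z - z₀‖ ≤ ‖z‖ + ‖z₀‖ := norm_sub_le _ _
      _ ≤ 1 := by linarith [((hF z₀).mp hz₀).2.2]
  have h3 : (1 : ℝ) ≤ (stabMult N (P.lift ChartIdx.H z₀) : ℝ) := by
    exact_mod_cast stabMult_pos N _
  nlinarith

/-- **(HH)** on `X`. -/
theorem abs_gamH_add_sumH_le {ρ T₂ : ℝ} (hρ : 0 < ρ) (hρ' : ρ ≤ 1 / 2) (hr₂ : P.r₂ ≤ 1 / 2)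
    (hρ1 : 4 * ρ * (P.Y + P.sH * P.r₂) ≤ P.sH * (P.r₂ - P.r₁))
    (hT₂a : P.Y + P.sH * P.r₂ ≤ T₂) (hT₂b : 1 / (P.Y - P.sH * P.r₂) ≤ T₂)
    {z : ℂ} (hz : P.lift ChartIdx.H z ∈ U.adm) (hz1 : ‖z‖ ≤ P.r₁) (Q : X) {F : Finset ℂ}
    (hF : IsFibH U P Q F) :
    |gamH U ρ T₂ Q (U.pt (P.lift ChartIdx.H z)) + sumH P F z| ≤
      (1 / 2) * ((movers P).card * cHH P ρ) := by
  have hc : 0 ≤ (1 / 2) * ((movers P).card * cHH P ρ) := by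
    have := cHH_nonneg P ρ; positivity
  have hτ1 : P.lift ChartIdx.H z ∈ DH P P.r₁ := liftH_mem_DH P P.hr₁₂.le hz1
  have hτ2 : P.lift ChartIdx.H z ∈ DH P P.r₂ := DH_mono P P.hr₁₂.le hτ1
  by_cases hQ : ∃ τQ ∈ U.adm, U.pt τQ = Q
  swap
  · rw [show gamH U ρ T₂ Q _ = 0 from U.lift2_of_not_left _ hQ]
    have : F = ∅ := by
      rw [Finset.eq_empty_iff_forall_notMem]
      intro z' hz'
      obtain ⟨h1, h2, -⟩ := (hF z').mp hz'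
      exact hQ ⟨_, h1, h2⟩
    rw [this]; unfold sumH; simpa using hc
  obtain ⟨τQ, hτQ, rfl⟩ := hQ
  rw [gamH_pt U ρ T₂ hτQ hz]
  have hnc := not_cut_of_mem_DH (N := N) P hT₂a hT₂b hτ2
  have hg : greenCut N ρ T₂ τQ (P.lift ChartIdx.H z) = greenH N ρ (P.lift ChartIdx.H z) τQ := by
    by_cases hcq : Cut N T₂ τQ
    · unfold greenCut
      rw [if_pos (Or.inl hcq)]
      symm
      apply greenH_eq_zero N hρ
      intro g
      by_contra hlt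
      rw [not_le] at hlt
      have h1 := mem_DH_of_pdist_lt P hρ' hρ1 hτ1 hlt.le
      exact not_cut_of_mem_DH (N := N) P hT₂a hT₂b h1 ((cut_smul T₂ g τQ).mpr hcq)
    · rw [greenCut_of_not_cut hcq hnc, greenH_symm]
  rw [hg]
  have e : sumH P F z =
      (1 / 2) * ∑ g ∈ into P τQ, Real.log ‖psiH P (P.lift ChartIdx.H z) - psiH P (g • τQ)‖ := by
    unfold sumH
    rw [sum_fibH_eq P U hτQ F hF (fun z' => Real.log ‖z - z'‖), psiH_liftH P (hz1.trans P.hr₁₂.le)]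
  rw [e]
  exact abs_greenH_add_le P hρ hρ' hr₂ hρ1 hτ1 τQ

end Fermat.Agent.MW
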