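/-
MW / [ARCH]-GEOM (helper4), layer 10: the estimate `(Hc)`: in the `H`-chart, a cusp Green function
is bounded above by minus the chart sum.
-/
import Mathlib
import Fermat.Agent.MW.GEOM_helper4_EstH

set_option autoImplicit false

namespace Fermat.Agent.MW

open UpperHalfPlane ModularGroup Matrix CongruenceSubgroup Metric Function.Periodic
open scoped MatrixGroups

variable {N : ℕ} {X : Type*} {U : UnifData N X} (P : ChartParams N)

namespace XCusp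

variable (K : XCusp U)

/-- lower bound for the norm of the cusp parameter of a point of bounded height. -/
noncomputable def amin (T₂ : ℝ) : ℝ := Real.exp (-2 * Real.pi * T₂) / K.s

theorem amin_pos (T₂ : ℝ) : 0 < K.amin T₂ := div_pos (Real.exp_pos _) K.hs

/-- the constant of `(Hc)`. -/
noncomputable def cHC (ρ T₂ : ℝ) : ℝ :=
  |Real.log (K.amin T₂ / 2)| + |Real.log (8 * ρ * K.amin T₂ / K.c.h)| +
    |Real.log (K.c.h * T₂ / (2 * K.amin T₂ * P.sH))|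

theorem cHC_nonneg (ρ T₂ : ℝ) : 0 ≤ K.cHC P ρ T₂ := by unfold cHC; positivity

theorem amin_le_norm {T₂ : ℝ} {a : ℂ} (ha0 : a ≠ 0) (ha2 : ‖a‖ ≤ K.r₂)
    (hT : (K.toCuspChart.tau a).im ≤ T₂) : K.amin T₂ ≤ ‖a‖ := by
  have e : ‖a‖ = ‖K.toCuspChart.param (K.toCuspChart.tau a)‖ := by
    rw [K.toCuspChart.param_tau ha0 ha2]
  rw [e, K.toCuspChart.norm_param]
  unfold amin
  apply div_le_div_of_nonneg_right _ K.hs.le
  apply Real.exp_le_exp.mpr
  have h4 := K.toCuspChart.h_pos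
  have h8 : (1 : ℝ) ≤ K.c.h := by exact_mod_cast K.c.hpos
  have h5 := Real.pi_pos
  have h6 := (K.toCuspChart.tau a).im_pos
  rw [le_div_iff₀ h4]
  have : (K.toCuspChart.tau a).im ≤ T₂ * K.c.h := by nlinarith
  nlinarith

/-- **(Hc)**. -/
theorem gam_add_sumH_le {ρ T₂ : ℝ} (hρ : 0 < ρ) (hρ' : ρ ≤ 1 / 2) (hr₂ : P.r₂ ≤ 1 / 2)
    (hKr₂ : K.r₂ ≤ 1 / 2)
    (hρ1 : 4 * ρ * (P.Y + P.sH * P.r₂) ≤ P.sH * (P.r₂ - P.r₁))
    (hT₂a : P.Y + P.sH * P.r₂ ≤ T₂) (hT₂b : 1 / (P.Y - P.sH * P.r₂) ≤ T₂)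
    {z : ℂ} (hz : P.lift ChartIdx.H z ∈ U.adm) (hz1 : ‖z‖ ≤ P.r₁) (Q : X)
    (hQ : Q ≠ U.pt (P.lift ChartIdx.H z)) {F : Finset ℂ} (hF : IsFibH U P Q F) :
    K.gam Q (U.pt (P.lift ChartIdx.H z)) + sumH P F z ≤ K.cHC P ρ T₂ := by
  have hz2 : ‖z‖ ≤ P.r₂ := hz1.trans P.hr₁₂.le
  have hs := sumH_nonpos U P hr₂ hF hz2
  have hc0 := K.cHC_nonneg P ρ T₂
  have hτ1 : P.lift ChartIdx.H z ∈ DH P P.r₁ := liftH_mem_DH P P.hr₁₂.le hz1
  have hτ2 : P.lift ChartIdx.H z ∈ DH P P.r₂ := DH_mono P P.hr₁₂.le hτ1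
  unfold gam
  cases hb : K.paramAt Q with
  | none => simp only; linarith
  | some b =>
  cases ha : K.paramAt (U.pt (P.lift ChartIdx.H z)) with
  | none => simp only; linarith
  | some a =>
  simp only
  obtain ⟨a1, a2, a3⟩ := K.paramAt_eq_some ha
  obtain ⟨b1, b2, b3⟩ := K.paramAt_eq_some hb
  have ha0 : a ≠ 0 := by
    intro h
    rw [h, K.pt_zero] at a3
    exact K.hx _ hz a3.symm
  have haadm := K.lift_mem_adm a1 ha0
  rw [K.pt_of_ne ha0] at a3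
  obtain ⟨g₁, hg₁⟩ := exists_smul_eq_of_pt_eq U haadm hz a3
  have hia := K.toCuspChart.one_lt_im_tau ha0 a2
  have hmax := max_im_le_of_mem_DH P hT₂a hT₂b hτ2
  have hTa : (K.toCuspChart.tau a).im ≤ T₂ := by
    have h1 : cuspHt N K.c.σ (K.toCuspChart.lift a) = (K.toCuspChart.tau a).im :=
      cuspHt_smul_of_one_lt (N := N) K.c.σ hia
    rw [← h1, ← cuspHt_smul K.c.σ g₁, hg₁]
    exact (cuspHt_le_max _ _).trans hmax
  have hamin := K.amin_le_norm ha0 a2 hTa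
  have hamin0 := K.amin_pos T₂
  have hba : b ≠ a := by
    intro h
    apply hQ
    rw [← b3, h, K.pt_of_ne ha0, a3]
  have hd : 0 < ‖b - a‖ := by rw [norm_pos_iff, sub_ne_zero]; exact hba
  have hd1 : ‖b - a‖ ≤ 1 := by
    calc ‖b - a‖ ≤ ‖b‖ + ‖a‖ := norm_sub_le _ _
      _ ≤ 1 := by linarith
  have hlogd : Real.log ‖b - a‖ ≤ 0 := Real.log_nonpos hd.le hd1
  have hgam : max 0 (Real.log (1 / ‖b - a‖)) = -Real.log ‖b - a‖ := by
    rw [one_div, Real.log_inv, max_eq_right]; linarith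
  rw [hgam]
  have h4 := K.toCuspChart.h_pos
  have h8 : (1 : ℝ) ≤ K.c.h := by exact_mod_cast K.c.hpos
  have t1 := abs_nonneg (Real.log (K.amin T₂ / 2))
  have t2 := abs_nonneg (Real.log (8 * ρ * K.amin T₂ / K.c.h))
  have t3 := abs_nonneg (Real.log (K.c.h * T₂ / (2 * K.amin T₂ * P.sH)))
  -- Case A
  by_cases hA : ‖a‖ / 2 < ‖b - a‖
  · have h1 : Real.log (K.amin T₂ / 2) ≤ Real.log ‖b - a‖ := by
      apply Real.log_le_log (by positivity); linarith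
    have := neg_abs_le (Real.log (K.amin T₂ / 2))
    unfold cHC; linarith
  rw [not_lt] at hA
  have hb0 : b ≠ 0 := by
    intro h
    rw [h, zero_sub, norm_neg] at hA
    have := norm_pos_iff.mpr ha0
    linarith
  have hbadm := K.lift_mem_adm b1 hb0
  rw [K.pt_of_ne hb0] at b3
  have hib := K.toCuspChart.one_lt_im_tau hb0 b2
  have hclose : ‖K.toCuspChart.param (K.toCuspChart.tau b) -
      K.toCuspChart.param (K.toCuspChart.tau a)‖ ≤
      ‖K.toCuspChart.param (K.toCuspChart.tau a)‖ / 2 := by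
    rw [K.toCuspChart.param_tau ha0 a2, K.toCuspChart.param_tau hb0 b2]; exact hA
  obtain ⟨n, hn⟩ := K.toCuspChart.exists_int_of_param_close hclose
  rw [K.toCuspChart.param_tau ha0 a2, K.toCuspChart.param_tau hb0 b2] at hn
  -- the translated point
  let w' : ℍ := ⟨(K.toCuspChart.tau b : ℂ) - n * (K.c.h : ℝ), by
    have : ((K.toCuspChart.tau b : ℂ) - n * (K.c.h : ℝ)).im = (K.toCuspChart.tau b).im := by simp
    rw [this]; exact (K.toCuspChart.tau b).im_pos⟩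
  have hw'c : (w' : ℂ) = (K.toCuspChart.tau b : ℂ) + ((-n : ℤ) : ℂ) * (K.c.h : ℝ) := by
    show (K.toCuspChart.tau b : ℂ) - n * (K.c.h : ℝ) = _
    push_cast; ring
  have hw'im : w'.im = (K.toCuspChart.tau b).im := by
    show ((K.toCuspChart.tau b : ℂ) - n * (K.c.h : ℝ)).im = _
    simp
  have hdist : dist (K.toCuspChart.tau a : ℂ) (w' : ℂ) ≤
      (K.c.h : ℝ) / 4 * (‖b - a‖ / ‖a‖) := by
    rw [Complex.dist_eq, ← norm_neg]
    have : -((K.toCuspChart.tau a : ℂ) - (w' : ℂ)) =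
        (K.toCuspChart.tau b : ℂ) - K.toCuspChart.tau a - n * (K.c.h : ℝ) := by
      show -((K.toCuspChart.tau a : ℂ) - ((K.toCuspChart.tau b : ℂ) - n * (K.c.h : ℝ))) = _
      ring
    rw [this]; exact hn
  have hE : (K.c.h : ℝ) / 4 * (‖b - a‖ / ‖a‖) ≤ (K.c.h : ℝ) / 4 * (‖b - a‖ / K.amin T₂) := by
    apply mul_le_mul_of_nonneg_left _ (by positivity)
    exact div_le_div_of_nonneg_left hd.le hamin0 hamin
  have hp : pdist (K.toCuspChart.tau a) w' ≤ (K.c.h : ℝ) / 8 * (‖b - a‖ / K.amin T₂) := by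
    have h1 := pdist_le_dist_div (τ := K.toCuspChart.tau a) (w := w')
    have h2 : dist (K.toCuspChart.tau a : ℂ) (w' : ℂ) / ((K.toCuspChart.tau a).im + w'.im) ≤
        dist (K.toCuspChart.tau a : ℂ) (w' : ℂ) / 2 := by
      apply div_le_div_of_nonneg_left dist_nonneg (by norm_num)
      rw [hw'im]; linarith
    linarith
  set w₀ : ℍ := g₁ • (K.c.σ • w') with hw₀
  have hpd : pdist (P.lift ChartIdx.H z) w₀ = pdist (K.toCuspChart.tau a) w' := by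
    rw [← hg₁, hw₀, K.toCuspChart.lift_eq]
    rw [show g₁ • (K.c.σ • K.toCuspChart.tau a) = (g₁ : SL(2, ℤ)) • (K.c.σ • K.toCuspChart.tau a)
      from rfl, show g₁ • (K.c.σ • w') = (g₁ : SL(2, ℤ)) • (K.c.σ • w') from rfl, pdist_smul,
      pdist_smul]
  -- Case B1
  by_cases hB : ρ < pdist (P.lift ChartIdx.H z) w₀
  · rw [hpd] at hB
    have h1 : 8 * ρ * K.amin T₂ / K.c.h < ‖b - a‖ := by
      rw [div_lt_iff₀ h4]
      have : ρ < (K.c.h : ℝ) / 8 * (‖b - a‖ / K.amin T₂) := lt_of_lt_of_le hB hp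
      have e : (K.c.h : ℝ) / 8 * (‖b - a‖ / K.amin T₂) * (8 * K.amin T₂) = ‖b - a‖ * K.c.h := by
        field_simp
      nlinarith
    have h2 : Real.log (8 * ρ * K.amin T₂ / K.c.h) ≤ Real.log ‖b - a‖ :=
      Real.log_le_log (by positivity) h1.le
    have := neg_abs_le (Real.log (8 * ρ * K.amin T₂ / K.c.h))
    unfold cHC; linarith
  rw [not_lt] at hB
  -- Case B2
  have hw₀D : w₀ ∈ DH P P.r₂ := mem_DH_of_pdist_lt P hρ' hρ1 hτ1 hB
  have hσw' : K.toCuspChart.translElt (-n) • (K.c.σ • K.toCuspChart.tau b) = K.c.σ • w' :=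
    K.toCuspChart.translElt_smul (-n) hw'c
  have hw'adm : K.c.σ • w' ∈ U.adm := by
    rw [← hσw']; exact U.adm_smul _ _ hbadm
  have hw₀adm : w₀ ∈ U.adm := U.adm_smul g₁.1 _ hw'adm
  have hw₀pt : U.pt w₀ = Q := by
    rw [hw₀, pt_smul_eq U hw'adm, ← hσw']
    exact (pt_smul_eq U hbadm (K.toCuspChart.translElt (-n))).trans b3
  have hz₀F : psiH P w₀ ∈ F := by
    rw [hF, lift_psiH]; exact ⟨hw₀adm, hw₀pt, hw₀D⟩
  have h1 := sumH_le_log U P hr₂ hF hz2 hz₀F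
  have hne : P.lift ChartIdx.H z ≠ w₀ := by
    intro h; apply hQ; rw [h, hw₀pt]
  have e1 : ‖z - psiH P w₀‖ = dist ((P.lift ChartIdx.H z : ℍ) : ℂ) w₀ / P.sH := by
    rw [← norm_psiH_sub, psiH_liftH P hz2]
  have hdpos : 0 < dist ((P.lift ChartIdx.H z : ℍ) : ℂ) w₀ := by
    rw [dist_pos]; intro h; exact hne (UpperHalfPlane.ext h)
  have hp0 : 0 ≤ pdist (P.lift ChartIdx.H z) w₀ := pdist_nonneg _ _
  have h2 : dist ((P.lift ChartIdx.H z : ℍ) : ℂ) w₀ ≤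
      4 * pdist (P.lift ChartIdx.H z) w₀ * (P.lift ChartIdx.H z).im :=
    dist_le_of_pdist_le (hB.trans hρ') le_rfl
  have him : (P.lift ChartIdx.H z).im ≤ T₂ := (le_max_left _ _).trans hmax
  have hT₂0 : 0 < T₂ := lt_of_lt_of_le (P.lift ChartIdx.H z).im_pos him
  have h3 : dist ((P.lift ChartIdx.H z : ℍ) : ℂ) w₀ ≤
      4 * ((K.c.h : ℝ) / 8 * (‖b - a‖ / K.amin T₂)) * T₂ := by
    rw [hpd] at h2 hp0
    calc dist ((P.lift ChartIdx.H z : ℍ) : ℂ) w₀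
        ≤ 4 * pdist (K.toCuspChart.tau a) w' * (P.lift ChartIdx.H z).im := h2
      _ ≤ 4 * pdist (K.toCuspChart.tau a) w' * T₂ :=
          mul_le_mul_of_nonneg_left him (by positivity)
      _ ≤ 4 * ((K.c.h : ℝ) / 8 * (‖b - a‖ / K.amin T₂)) * T₂ := by
          apply mul_le_mul_of_nonneg_right _ hT₂0.le
          linarith
  have hsH := P.hsH
  have h5 : ‖z - psiH P w₀‖ ≤ (K.c.h * T₂ / (2 * K.amin T₂ * P.sH)) * ‖b - a‖ := by
    rw [e1, div_le_iff₀ hsH]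
    have e : (K.c.h * T₂ / (2 * K.amin T₂ * P.sH)) * ‖b - a‖ * P.sH =
        4 * ((K.c.h : ℝ) / 8 * (‖b - a‖ / K.amin T₂)) * T₂ := by
      field_simp; ring
    rw [e]; exact h3
  have hpos : 0 < ‖z - psiH P w₀‖ := by rw [e1]; positivity
  have hK₃ : 0 < (K.c.h : ℝ) * T₂ / (2 * K.amin T₂ * P.sH) := by positivity
  have h6 : Real.log ‖z - psiH P w₀‖ ≤
      Real.log (K.c.h * T₂ / (2 * K.amin T₂ * P.sH)) + Real.log ‖b - a‖ := by
    rw [← Real.log_mul hK₃.ne' hd.ne']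
    exact Real.log_le_log hpos h5
  have := le_abs_self (Real.log (K.c.h * T₂ / (2 * K.amin T₂ * P.sH)))
  unfold cHC; linarith

end XCusp

end Fermat.Agent.MW
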