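/-
MW / [ARCH]-GEOM (helper4), layer 11: the logarithm of the dual metric `ϱ` on `ℍ` and its
estimates in the charts.
-/
import Mathlib
import Fermat.Agent.MW.GEOM_helper4_EstHC

set_option autoImplicit false

namespace Fermat.Agent.MW

open UpperHalfPlane ModularGroup Matrix CongruenceSubgroup Metric Function.Periodic
open scoped MatrixGroups

variable {N : ℕ} {X : Type*}

/-- the `Γ₀(N)`-invariant part of `ϱ`. -/
noncomputable def sigmaFn (N : ℕ) (ρ T₂ : ℝ) (τ : ℍ) : ℝ :=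
  open Classical in
  if T₂ < cuspHt N 1 τ then 2 * Real.pi * cuspHt N 1 τ - Real.log (cuspHt N 1 τ)
  else if T₂ < cuspHt N S τ then
    2 * Real.pi / N * cuspHt N S τ - Real.log (cuspHt N S τ)
  else greenH N ρ τ τ

/-- the logarithm of the dual metric. -/
noncomputable def rhoFn (N : ℕ) (ρ T₂ : ℝ) (τ : ℍ) : ℝ := Real.log τ.im + sigmaFn N ρ T₂ τ

theorem sigmaFn_smul (ρ T₂ : ℝ) (g : Gamma0 N) (τ : ℍ) :
    sigmaFn N ρ T₂ (g • τ) = sigmaFn N ρ T₂ τ := by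
  unfold sigmaFn
  rw [cuspHt_smul, cuspHt_smul, greenH_smul_left, greenH_smul_right]

theorem rhoFn_smul (ρ T₂ : ℝ) (g : SL(2, ℤ)) (hg : g ∈ Gamma0 N) (τ : ℍ) :
    rhoFn N ρ T₂ (g • τ) = rhoFn N ρ T₂ τ - 2 * Real.log ‖denom g τ‖ := by
  unfold rhoFn
  have h1 : sigmaFn N ρ T₂ (g • τ) = sigmaFn N ρ T₂ τ := sigmaFn_smul ρ T₂ ⟨g, hg⟩ τ
  rw [h1, ModularGroup.im_smul_eq_div_normSq,
    Real.log_div τ.im_pos.ne' (normSq_denom_pos g τ).ne', Complex.normSq_eq_norm_sq,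
    Real.log_pow]
  push_cast
  ring

theorem sigmaFn_of_not_cut {ρ T₂ : ℝ} {τ : ℍ} (h : ¬ Cut N T₂ τ) :
    sigmaFn N ρ T₂ τ = greenH N ρ τ τ := by
  unfold Cut at h
  rw [not_or] at h
  unfold sigmaFn
  rw [if_neg h.1, if_neg h.2]

/-- `sigmaFn` at the cusp `∞`. -/
theorem sigmaFn_inf {ρ T₂ : ℝ} (hN : 2 ≤ N) {τ' : ℍ} (h : 1 < τ'.im) :
    sigmaFn N ρ T₂ ((1 : SL(2, ℤ)) • τ') =
      if T₂ < τ'.im then 2 * Real.pi / (1 : ℕ) * τ'.im - Real.log τ'.im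
      else greenH N ρ ((1 : SL(2, ℤ)) • τ') ((1 : SL(2, ℤ)) • τ') := by
  have h1 : cuspHt N 1 ((1 : SL(2, ℤ)) • τ') = τ'.im := cuspHt_smul_of_one_lt 1 h
  have h2 : cuspHt N S ((1 : SL(2, ℤ)) • τ') ≤ 1 := by
    apply cuspHt_other_le 1 S _ h
    intro g
    rw [mul_one]
    exact S_inv_mul_c_ne_zero hN g.2
  unfold sigmaFn
  rw [h1]
  split_ifs with h3 h4
  · simp
  · linarith
  · rfl

/-- `sigmaFn` at the cusp `0`. -/
theorem sigmaFn_zero {ρ T₂ : ℝ} (hN : 2 ≤ N) (hT₂ : 1 ≤ T₂) {τ' : ℍ} (h : 1 < τ'.im) :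
    sigmaFn N ρ T₂ (S • τ') =
      if T₂ < τ'.im then 2 * Real.pi / N * τ'.im - Real.log τ'.im
      else greenH N ρ (S • τ') (S • τ') := by
  have h1 : cuspHt N S (S • τ') = τ'.im := cuspHt_smul_of_one_lt S h
  have h2 : cuspHt N 1 (S • τ') ≤ 1 := by
    apply cuspHt_other_le S 1 _ h
    intro g
    rw [inv_one, one_mul]
    exact mul_S_c_ne_zero hN g.2
  unfold sigmaFn
  rw [h1]
  have h3 : ¬ T₂ < cuspHt N 1 (S • τ') := by rw [not_lt]; linarith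
  rw [if_neg h3]

namespace CuspChart

variable (C : CuspChart N)

/-- the constant of the cusp estimate for `ϱ`. -/
noncomputable def cRho (T₂ : ℝ) : ℝ :=
  |Real.log (2 * Real.pi) - Real.log C.c.h - Real.log C.s| + Real.log T₂ + 2 * Real.pi * T₂

theorem log_norm_eq {z : ℂ} (hz : z ≠ 0) (hz2 : ‖z‖ ≤ C.r₂) :
    Real.log ‖z‖ = -2 * Real.pi * (C.tau z).im / C.c.h - Real.log C.s := by
  have e : ‖z‖ = ‖C.param (C.tau z)‖ := by rw [C.param_tau hz hz2]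
  rw [e, C.norm_param, Real.log_div (Real.exp_pos _).ne' C.hs.ne', Real.log_exp]

/-- **the cusp estimate for `ϱ`** in generic form. -/
theorem abs_rho_cusp_le {r₁ ρ T₂ : ℝ} (hT₂ : 1 ≤ T₂) (hr₁ : 0 < r₁) (hr₁₂ : r₁ < C.r₂)
    (hρ0 : 0 < ρ) (hρ : ρ ≤ 1 / 2) (hδ2 : 4 * ρ * T₂ ≤ 1 / 8)
    (hδ3 : 4 * ρ * T₂ ≤ 1 / (2 * Real.pi) * Real.log (C.r₂ / r₁))
    (hsig : ∀ τ' : ℍ, 1 < τ'.im → sigmaFn N ρ T₂ (C.c.σ • τ') =
      if T₂ < τ'.im then 2 * Real.pi / C.c.h * τ'.im - Real.log τ'.im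
      else greenH N ρ (C.c.σ • τ') (C.c.σ • τ'))
    {z : ℂ} (hz : z ≠ 0) (hz1 : ‖z‖ ≤ r₁) :
    |Real.log (C.tau z).im + sigmaFn N ρ T₂ (C.lift z) -
      Real.log ((C.c.h : ℝ) / (2 * Real.pi * ‖z‖))| ≤ C.cRho T₂ := by
  have hz2 : ‖z‖ ≤ C.r₂ := hz1.trans hr₁₂.le
  have hi := C.one_lt_im_tau hz hz2
  have h4 := C.h_pos
  have h5 := Real.pi_pos
  have hzpos : 0 < ‖z‖ := norm_pos_iff.mpr hz
  have e1 : Real.log ((C.c.h : ℝ) / (2 * Real.pi * ‖z‖)) =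
      Real.log C.c.h - Real.log (2 * Real.pi) - Real.log ‖z‖ := by
    rw [Real.log_div h4.ne' (by positivity), Real.log_mul (by positivity) hzpos.ne']
    ring
  rw [e1, C.log_norm_eq hz hz2, C.lift_eq, hsig _ hi]
  have a1 := le_abs_self (Real.log (2 * Real.pi) - Real.log C.c.h - Real.log C.s)
  have a2 := neg_abs_le (Real.log (2 * Real.pi) - Real.log C.c.h - Real.log C.s)
  have hlogT : 0 ≤ Real.log T₂ := Real.log_nonneg hT₂
  unfold cRho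
  split_ifs with hT
  · rw [abs_le]
    have e : -2 * Real.pi * (C.tau z).im / C.c.h = -(2 * Real.pi / C.c.h * (C.tau z).im) := by ring
    rw [e]
    constructor <;> nlinarith
  · rw [not_lt] at hT
    have hg : greenH N ρ (C.c.σ • C.tau z) (C.c.σ • C.tau z) = 0 :=
      C.greenH_self_eq_zero hr₁ hr₁₂ hρ0 hρ hδ2 hδ3 hz hz1 hT
    rw [hg]
    have l1 : 0 ≤ Real.log (C.tau z).im := Real.log_nonneg hi.le
    have l2 : Real.log (C.tau z).im ≤ Real.log T₂ := Real.log_le_log (by linarith) hT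
    have e : -2 * Real.pi * (C.tau z).im / C.c.h = -(2 * Real.pi * (C.tau z).im / C.c.h) := by ring
    have l3 : 0 ≤ 2 * Real.pi * (C.tau z).im / C.c.h := by
      have := (C.tau z).im_pos; positivity
    have l4 : 2 * Real.pi * (C.tau z).im / C.c.h ≤ 2 * Real.pi * T₂ := by
      rw [div_le_iff₀ h4]
      have h8 : (1 : ℝ) ≤ C.c.h := by exact_mod_cast C.c.hpos
      have : (C.tau z).im ≤ T₂ * C.c.h := by nlinarith [(C.tau z).im_pos]
      nlinarith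
    rw [e, abs_le]
    constructor <;> linarith

end CuspChart

/-- **the `H`-chart estimate for `ϱ`**. -/
theorem abs_rho_H_le (U : UnifData N X) (P : ChartParams N) {ρ T₂ : ℝ} (hρ : 0 < ρ)
    (hρ' : ρ ≤ 1 / 2) (hr₂ : P.r₂ ≤ 1 / 2)
    (hρ1 : 4 * ρ * (P.Y + P.sH * P.r₂) ≤ P.sH * (P.r₂ - P.r₁))
    (hT₂a : P.Y + P.sH * P.r₂ ≤ T₂) (hT₂b : 1 / (P.Y - P.sH * P.r₂) ≤ T₂)
    {z : ℂ} (hz : P.lift ChartIdx.H z ∈ U.adm) (hz1 : ‖z‖ ≤ P.r₁) {F : Finset ℂ}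
    (hF : IsFibH U P (U.pt (P.lift ChartIdx.H z)) F) :
    |rhoFn N ρ T₂ (P.lift ChartIdx.H z) - Real.log P.sH + sumH P F z| ≤
      |Real.log (P.Y - P.sH * P.r₂)| + |Real.log T₂| + |Real.log P.sH| +
        (1 / 2) * ((movers P).card * cHH P ρ) := by
  have hτ1 : P.lift ChartIdx.H z ∈ DH P P.r₁ := liftH_mem_DH P P.hr₁₂.le hz1
  have hτ2 : P.lift ChartIdx.H z ∈ DH P P.r₂ := DH_mono P P.hr₁₂.le hτ1
  have hnc := not_cut_of_mem_DH (N := N) P hT₂a hT₂b hτ2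
  have b := im_bounds_of_mem_DH P le_rfl hτ2
  have hm₂ : 0 < P.Y - P.sH * P.r₂ := by linarith [P.hH]
  unfold rhoFn
  rw [sigmaFn_of_not_cut hnc]
  have e : sumH P F z = (1 / 2) * ∑ g ∈ into P (P.lift ChartIdx.H z),
      Real.log ‖psiH P (P.lift ChartIdx.H z) - psiH P (g • P.lift ChartIdx.H z)‖ := by
    unfold sumH
    rw [sum_fibH_eq P U hz F hF (fun z' => Real.log ‖z - z'‖), psiH_liftH P (hz1.trans P.hr₁₂.le)]
  have h1 := abs_greenH_add_le P hρ hρ' hr₂ hρ1 hτ1 (P.lift ChartIdx.H z)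
  rw [← e] at h1
  have l1 : Real.log (P.Y - P.sH * P.r₂) ≤ Real.log (P.lift ChartIdx.H z).im :=
    Real.log_le_log hm₂ b.1
  have l2 : Real.log (P.lift ChartIdx.H z).im ≤ Real.log T₂ :=
    Real.log_le_log (P.lift ChartIdx.H z).im_pos (b.2.trans hT₂a)
  have a1 := neg_abs_le (Real.log (P.Y - P.sH * P.r₂))
  have a2 := le_abs_self (Real.log T₂)
  have a3 := neg_abs_le (Real.log P.sH)
  have a4 := le_abs_self (Real.log P.sH)
  have h2 := abs_le.mp h1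
  have a5 := abs_nonneg (Real.log T₂)
  have a6 := abs_nonneg (Real.log (P.Y - P.sH * P.r₂))
  rw [abs_le]
  constructor <;> linarith [h2.1, h2.2]

end Fermat.Agent.MW
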