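/-
MW / [ARCH]-GEOM (helper4), layer 12: the numerical setup (`GeomSetup`), the two cusp charts as
`XCusp`s, density of admissible parameters, finiteness of fibres.
-/
import Mathlib
import Fermat.Agent.MW.GEOM_helper4_Rho

set_option autoImplicit false

namespace Fermat.Agent.MW

open UpperHalfPlane ModularGroup Matrix CongruenceSubgroup Metric Function.Periodic
open scoped MatrixGroups

variable {N : ℕ} {X : Type*}

/-- chart parameters together with the auxiliary constants of the construction and the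
inequalities between them. -/
structure GeomSetup (N : ℕ) extends ChartParams N where
  hr₂ : r₂ ≤ 1 / 2
  T : ℝ
  hT : 1 ≤ T
  hsInfT : sInf * r₀ = Real.exp (-2 * Real.pi * T)
  hsZeroT : sZero * r₀ = Real.exp (-2 * Real.pi * T / N)
  m : ℝ
  hm : 0 < m
  hm' : m * (2 * ((N : ℝ) ^ 2 + (T + 1) ^ 2)) ≤ 1
  hcore : ∀ x y : ℝ, |x| ≤ 2 → m ≤ y → y ≤ T + 1 → x ^ 2 + (y - Y) ^ 2 ≤ (sH * r₀) ^ 2
  T₂ : ℝ
  hT₂ : 1 ≤ T₂
  hT₂a : Y + sH * r₂ ≤ T₂
  hT₂b : 1 / (Y - sH * r₂) ≤ T₂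
  ρ : ℝ
  hρ : 0 < ρ
  hρ' : ρ ≤ 1 / 2
  hρ1 : 4 * ρ * (Y + sH * r₂) ≤ sH * (r₂ - r₁)
  hδ2 : 4 * ρ * T₂ ≤ 1 / 8
  hδ3 : 4 * ρ * T₂ ≤ 1 / (2 * Real.pi) * Real.log (r₂ / r₁)

namespace GeomSetup

variable (G : GeomSetup N)

theorem hr₁ : 0 < G.r₁ := G.hr₀.trans G.hr₀₁

theorem hr₂pos : 0 < G.r₂ := G.hr₁.trans G.hr₁₂

/-- the core region lies in the `r₀`-disc of the `H`-chart. -/
theorem mem_DH_core {τ : ℍ} (h1 : |τ.re| ≤ 2) (h2 : G.m ≤ τ.im) (h3 : τ.im ≤ G.T + 1) :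
    τ ∈ DH G.toChartParams G.r₀ := by
  rw [mem_DH]
  have h := G.hcore τ.re τ.im h1 h2 h3
  have h0 : 0 ≤ G.sH * G.r₀ := by have := G.hsH; have := G.hr₀; positivity
  rw [← abs_of_nonneg h0, ← abs_of_nonneg (norm_nonneg ((τ : ℂ) - (G.Y : ℂ) * Complex.I))]
  apply sq_le_sq.mp
  have e : ‖(τ : ℂ) - (G.Y : ℂ) * Complex.I‖ ^ 2 = τ.re ^ 2 + (τ.im - G.Y) ^ 2 := by
    rw [← Complex.normSq_eq_norm_sq, Complex.normSq_apply]
    simp
    ring
  rw [e]; exact h

/-- the cusp chart at `∞`. -/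
noncomputable def infC : CuspChart N where
  c := cuspInf N
  s := G.sInf
  hs := G.hsInf
  r₂ := G.r₂
  hr₂ := G.hr₂pos
  hsr := by
    have := G.hInf
    show G.sInf * G.r₂ < Real.exp (-2 * Real.pi / ((1 : ℕ) : ℝ))
    rw [Nat.cast_one, div_one]; exact this

/-- the cusp chart at `0`. -/
noncomputable def zeroC [NeZero N] : CuspChart N where
  c := cuspZero N
  s := G.sZero
  hs := G.hsZero
  r₂ := G.r₂
  hr₂ := G.hr₂pos
  hsr := G.hZero

theorem infC_lift (z : ℂ) : G.infC.lift z = G.toChartParams.lift ChartIdx.inf z := by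
  unfold CuspChart.lift CuspChart.tau ChartParams.lift
  show (1 : SL(2, ℤ)) • ofComplex (invQParam ((1 : ℕ) : ℝ) ((G.sInf : ℂ) * z)) = _
  rw [one_smul, Nat.cast_one]

theorem zeroC_lift [NeZero N] (z : ℂ) :
    G.zeroC.lift z = G.toChartParams.lift ChartIdx.zero z := rfl

/-- the radius `r₀` corresponds to the height `T`. -/
theorem infC_norm_param_le_r₀ {τ' : ℍ} (h : G.T ≤ τ'.im) : ‖G.infC.param τ'‖ ≤ G.r₀ := by
  rw [G.infC.norm_param, div_le_iff₀ G.infC.hs]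
  show Real.exp (-2 * Real.pi * τ'.im / ((1 : ℕ) : ℝ)) ≤ G.r₀ * G.sInf
  rw [mul_comm G.r₀, G.hsInfT, Nat.cast_one, div_one, Real.exp_le_exp]
  have := Real.pi_pos
  nlinarith

theorem zeroC_norm_param_le_r₀ [NeZero N] {τ' : ℍ} (h : G.T ≤ τ'.im) :
    ‖G.zeroC.param τ'‖ ≤ G.r₀ := by
  rw [G.zeroC.norm_param, div_le_iff₀ G.zeroC.hs]
  show Real.exp (-2 * Real.pi * τ'.im / (N : ℝ)) ≤ G.r₀ * G.sZero
  rw [mul_comm G.r₀, G.hsZeroT, Real.exp_le_exp]
  have := Real.pi_pos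
  have hN : (0 : ℝ) < N := by exact_mod_cast Nat.pos_of_ne_zero (NeZero.ne N)
  apply div_le_div_of_nonneg_right _ hN.le
  nlinarith

end GeomSetup

/-- the `X`-chart at `∞`. -/
noncomputable def infX (U : UnifData N X) (G : GeomSetup N) : XCusp U :=
  { G.infC with x := U.cInf, hx := U.pt_ne_cInf }

/-- the `X`-chart at `0`. -/
noncomputable def zeroX [NeZero N] (U : UnifData N X) (G : GeomSetup N) : XCusp U :=
  { G.zeroC with x := U.cZero, hx := U.pt_ne_cZero }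

theorem infX_pt (U : UnifData N X) (G : GeomSetup N) :
    chartPt U G.toChartParams ChartIdx.inf = (infX U G).pt := by
  funext z
  unfold chartPt XCusp.pt
  show (if z = 0 then U.cInf else U.pt (G.toChartParams.lift ChartIdx.inf z)) =
    if z = 0 then U.cInf else U.pt (G.infC.lift z)
  rw [G.infC_lift]

theorem zeroX_pt [NeZero N] (U : UnifData N X) (G : GeomSetup N) :
    chartPt U G.toChartParams ChartIdx.zero = (zeroX U G).pt := rfl

theorem infX_A (U : UnifData N X) (G : GeomSetup N) :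
    chartA U G.toChartParams ChartIdx.inf = (infX U G).A := by
  ext z
  unfold chartA XCusp.A
  show (z = 0 ∨ G.toChartParams.lift ChartIdx.inf z ∈ U.adm) ↔ (z = 0 ∨ G.infC.lift z ∈ U.adm)
  rw [G.infC_lift]

theorem zeroX_A [NeZero N] (U : UnifData N X) (G : GeomSetup N) :
    chartA U G.toChartParams ChartIdx.zero = (zeroX U G).A := rfl

/-! ### density -/

/-- the generic density lemma: admissible parameters are dense in an open set `O` covered by a
continuous inverse chart. -/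
theorem dense_chart {A : Set ℂ} {adm : Set ℍ} (hadm : Dense adm) (ψ : ℍ → ℂ) (hψ : Continuous ψ)
    (O : Set ℂ) (hO : IsOpen O) (hsurj : ∀ z ∈ O, ∃ τ, ψ τ = z)
    (hA : ∀ τ ∈ adm, ψ τ ∈ O → ψ τ ∈ A) (T : Set ℂ) (hT : T.Finite) :
    O ⊆ closure ((A ∩ O) \ T) := by
  intro z₁ hz₁
  rw [_root_.mem_closure_iff]
  intro W hW hzW
  have hWO : IsOpen (W ∩ O) := hW.inter hO
  have hinf : (W ∩ O).Infinite := infinite_of_mem_nhds z₁ (hWO.mem_nhds ⟨hzW, hz₁⟩)
  obtain ⟨z₂, hz₂, hz₂T⟩ := (hinf.sdiff hT).nonempty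
  obtain ⟨τ₂, hτ₂⟩ := hsurj z₂ hz₂.2
  have hV : IsOpen (ψ ⁻¹' ((W ∩ O) \ T)) := (hWO.sdiff hT.isClosed).preimage hψ
  obtain ⟨τ, hτadm, hτV⟩ := hadm.exists_mem_open hV ⟨τ₂, by
    rw [Set.mem_preimage, hτ₂]; exact ⟨hz₂, hz₂T⟩⟩
  exact ⟨ψ τ, hτV.1.1, ⟨hA τ hτadm hτV.1.2, hτV.1.2⟩, hτV.2⟩

theorem closedBall_subset_closure_ball_diff {r : ℝ} (hr : 0 < r) :
    closedBall (0 : ℂ) r ⊆ closure (ball (0 : ℂ) r \ {0}) := by
  rw [← closure_ball (0 : ℂ) hr.ne']
  apply closure_minimal _ isClosed_closure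
  have := (dense_compl_singleton (0 : ℂ)).open_subset_closure_inter (isOpen_ball (x := (0 : ℂ)) (ε := r))
  exact this

/-- density of admissible parameters in the `H`-chart. -/
theorem dense_H (U : UnifData N X) (P : ChartParams N) (T : Set ℂ) (hT : T.Finite) :
    closedBall (0 : ℂ) P.r₁ ⊆ closure ((chartA U P ChartIdx.H ∩ closedBall 0 P.r₁) \ T) := by
  have hr₁ : 0 < P.r₁ := P.hr₀.trans P.hr₀₁
  have hψ : Continuous (psiH P) := by
    unfold psiH
    exact (UpperHalfPlane.continuous_coe.sub continuous_const).div_const _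
  have h1 := dense_chart (A := chartA U P ChartIdx.H) U.adm_dense (psiH P) hψ (ball 0 P.r₁)
    isOpen_ball (fun z hz => ⟨P.lift ChartIdx.H z, psiH_liftH P (by
      rw [mem_ball_zero_iff] at hz; linarith [P.hr₁₂])⟩)
    (fun τ hτ _ => by
      show P.lift ChartIdx.H (psiH P τ) ∈ U.adm
      rw [lift_psiH]; exact hτ) T hT
  have h0 : closedBall (0 : ℂ) P.r₁ ⊆ closure (ball (0 : ℂ) P.r₁) :=
    (closure_ball (0 : ℂ) hr₁.ne').ge
  refine h0.trans (closure_minimal (h1.trans (closure_mono ?_)) isClosed_closure)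
  intro z hz
  exact ⟨⟨hz.1.1, ball_subset_closedBall hz.1.2⟩, hz.2⟩

theorem continuous_smul_SL2Z (g : SL(2, ℤ)) : Continuous (fun τ : ℍ => g • τ) :=
  (Isometry.of_dist_eq (fun a b => dist_smul_smul_SL2Z g a b)).continuous

/-- density of admissible parameters in a cusp chart. -/
theorem XCusp.dense {U : UnifData N X} (K : XCusp U) {r₁ : ℝ} (hr₁ : 0 < r₁) (hr₁₂ : r₁ ≤ K.r₂)
    (T : Set ℂ) (hT : T.Finite) :
    closedBall (0 : ℂ) r₁ ⊆ closure ((K.A ∩ closedBall 0 r₁) \ T) := by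
  have hψ : Continuous (fun τ : ℍ => K.toCuspChart.param (K.c.σ⁻¹ • τ)) := by
    unfold CuspChart.param
    exact ((continuous_qParam.comp (UpperHalfPlane.continuous_coe.comp
      (continuous_smul_SL2Z K.c.σ⁻¹)))).div_const _
  have hO : IsOpen (ball (0 : ℂ) r₁ \ {0}) := isOpen_ball.sdiff isClosed_singleton
  have h1 := dense_chart (A := K.A) U.adm_dense _ hψ (ball 0 r₁ \ {0}) hO
    (fun z hz => ⟨K.toCuspChart.lift z, by
      have h2 : ‖z‖ ≤ K.r₂ := by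
        have := hz.1; rw [mem_ball_zero_iff] at this; linarith
      show K.toCuspChart.param (K.c.σ⁻¹ • (K.c.σ • K.toCuspChart.tau z)) = z
      rw [inv_smul_smul, K.toCuspChart.param_tau hz.2 h2]⟩)
    (fun τ hτ hmem => by
      right
      have h2 : ‖K.toCuspChart.param (K.c.σ⁻¹ • τ)‖ ≤ K.r₂ := by
        have := hmem.1; rw [mem_ball_zero_iff] at this; linarith
      obtain ⟨g, hg⟩ := K.toCuspChart.lift_param h2
      rw [smul_inv_smul] at hg
      rw [← hg]; exact U.adm_smul g.1 τ hτ) T hT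
  refine (closedBall_subset_closure_ball_diff hr₁).trans ?_
  apply closure_minimal _ isClosed_closure
  refine h1.trans (closure_mono ?_)
  intro z hz
  exact ⟨⟨hz.1.1, ball_subset_closedBall hz.1.2.1⟩, hz.2⟩

/-! ### finiteness of fibres -/

theorem fibH_finite (U : UnifData N X) (P : ChartParams N) (Q : X) :
    {z | z ∈ chartA U P ChartIdx.H ∧ chartPt U P ChartIdx.H z = Q ∧ ‖z‖ ≤ P.r₂}.Finite := by
  by_cases hQ : ∃ τQ ∈ U.adm, U.pt τQ = Q
  · obtain ⟨τQ, hτQ, rfl⟩ := hQ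
    refine ((into P τQ).finite_toSet.image (fun g : Gamma0 N => psiH P (g • τQ))).subset ?_
    rintro z ⟨h1, h2, h3⟩
    obtain ⟨g, hg⟩ := exists_smul_eq_of_pt_eq U hτQ h1 h2.symm
    refine ⟨g, ?_, ?_⟩
    · rw [Finset.mem_coe, mem_into, hg]; exact liftH_mem_DH P le_rfl h3
    · show psiH P (g • τQ) = z
      rw [hg, psiH_liftH P h3]
  · convert Set.finite_empty
    rw [Set.eq_empty_iff_forall_notMem]
    rintro z ⟨h1, h2, -⟩
    exact hQ ⟨_, h1, h2⟩

theorem XCusp.fib_finite {U : UnifData N X} (K : XCusp U) (Q : X) :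
    {z | z ∈ K.A ∧ K.pt z = Q ∧ ‖z‖ ≤ K.r₂}.Finite := by
  apply Set.Subsingleton.finite
  rintro z ⟨h1, h2, h3⟩ z' ⟨h1', h2', h3'⟩
  exact K.inj h1 h1' h3 h3' (h2.trans h2'.symm)

end Fermat.Agent.MW
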