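/-
MW / [ARCH]-GEOM (helper4), layer 13: the `r₀`-discs of the three charts cover `X`, and the
`H`-chart overlaps each cusp chart in infinitely many points.
-/
import Mathlib
import Fermat.Agent.MW.GEOM_helper4_Setup

set_option autoImplicit false

namespace Fermat.Agent.MW

open UpperHalfPlane ModularGroup Matrix CongruenceSubgroup Metric Function.Periodic
open scoped MatrixGroups

variable {N : ℕ} {X : Type*}

theorem fd_bounds {w : ℍ} (hw : w ∈ ModularGroup.fd) : |w.re| ≤ 1 / 2 ∧ 1 / 2 ≤ w.im := by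
  obtain ⟨h1, h2⟩ := hw
  refine ⟨h2, ?_⟩
  rw [Complex.normSq_apply] at h1
  have h3 : (w : ℂ).re = w.re := rfl
  have h4 : (w : ℂ).im = w.im := rfl
  rw [h3, h4] at h1
  have h5 : w.re * w.re ≤ 1 / 4 := by
    have := abs_le.mp h2
    nlinarith [this.1, this.2]
  have h6 := w.im_pos
  by_contra h
  rw [not_le] at h
  nlinarith

theorem coe_S_smul (τ' : ℍ) : ((S • τ' : ℍ) : ℂ) = (-(τ' : ℂ))⁻¹ := by
  rw [modular_S_smul]

theorem S_smul_re (τ' : ℍ) : (S • τ').re = -τ'.re / (τ'.re ^ 2 + τ'.im ^ 2) := by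
  have h := congrArg Complex.re (coe_S_smul τ')
  rw [Complex.inv_re, Complex.normSq_neg, Complex.normSq_apply] at h
  have h3 : (τ' : ℂ).re = τ'.re := rfl
  have h4 : (τ' : ℂ).im = τ'.im := rfl
  rw [Complex.neg_re, h3, h4] at h
  have h5 : ((S • τ' : ℍ) : ℂ).re = (S • τ').re := rfl
  rw [h5] at h
  rw [h]; ring

theorem S_smul_im (τ' : ℍ) : (S • τ').im = τ'.im / (τ'.re ^ 2 + τ'.im ^ 2) := by
  have h := congrArg Complex.im (coe_S_smul τ')
  rw [Complex.inv_im, Complex.normSq_neg, Complex.normSq_apply] at h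
  have h3 : (τ' : ℂ).re = τ'.re := rfl
  have h4 : (τ' : ℂ).im = τ'.im := rfl
  rw [Complex.neg_im, h3, h4] at h
  have h5 : ((S • τ' : ℍ) : ℂ).im = (S • τ').im := rfl
  rw [h5] at h
  rw [h]; ring

theorem S_smul_bounds {τ' : ℍ} {B L : ℝ} (h1 : |τ'.re| ≤ B) (h2 : 1 / 2 ≤ τ'.im)
    (h3 : τ'.im ≤ L) :
    |(S • τ').re| ≤ 2 ∧ 1 / (2 * (B ^ 2 + L ^ 2)) ≤ (S • τ').im ∧ (S • τ').im ≤ 2 := by
  have hn : 0 < τ'.re ^ 2 + τ'.im ^ 2 := by
    have := τ'.im_pos; positivity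
  have hB : τ'.re ^ 2 ≤ B ^ 2 := by
    rw [← sq_abs τ'.re]
    exact pow_le_pow_left₀ (abs_nonneg _) h1 2
  have hL : τ'.im ^ 2 ≤ L ^ 2 := pow_le_pow_left₀ (by linarith) h3 2
  refine ⟨?_, ?_, ?_⟩
  · rw [S_smul_re, abs_div, abs_neg, abs_of_pos hn, div_le_iff₀ hn]
    have him2 : 1 / 4 ≤ τ'.im ^ 2 := by nlinarith
    have : |τ'.re| ≤ 2 * (τ'.re ^ 2 + τ'.im ^ 2) := by
      rcases abs_cases τ'.re with ⟨h, _⟩ | ⟨h, _⟩ <;> rw [h] <;>
        nlinarith [sq_nonneg (τ'.re - 1 / 4), sq_nonneg (τ'.re + 1 / 4)]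
    linarith
  · have hL0 : 0 < L := by linarith
    have hpos : 0 < 2 * (B ^ 2 + L ^ 2) := by positivity
    rw [S_smul_im, div_le_div_iff₀ hpos hn]
    nlinarith
  · rw [S_smul_im, div_le_iff₀ hn]
    nlinarith

variable (U : UnifData N X) (G : GeomSetup N)

theorem GeomSetup.m_le_half : G.m ≤ 1 / 2 := by
  have h1 := G.hm'
  have h2 := G.hm
  have h3 := G.hT
  have h4 : (0 : ℝ) ≤ (N : ℝ) ^ 2 := by positivity
  nlinarith

/-- a point `τ ∈ adm` whose `Γ₀(N)`-orbit meets the core is in the `r₀`-disc of the `H`-chart. -/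
theorem cover_H {τ w : ℍ} (hw : w ∈ U.adm) (hpt : U.pt w = U.pt τ)
    (h1 : |w.re| ≤ 2) (h2 : G.m ≤ w.im) (h3 : w.im ≤ G.T + 1) :
    ∃ z ∈ chartA U G.toChartParams ChartIdx.H, ‖z‖ ≤ G.r₀ ∧
      chartPt U G.toChartParams ChartIdx.H z = U.pt τ := by
  refine ⟨psiH G.toChartParams w, ?_, G.mem_DH_core h1 h2 h3, ?_⟩
  · show G.toChartParams.lift ChartIdx.H (psiH G.toChartParams w) ∈ U.adm
    rw [lift_psiH]; exact hw
  · show U.pt (G.toChartParams.lift ChartIdx.H (psiH G.toChartParams w)) = U.pt τ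
    rw [lift_psiH]; exact hpt

/-- a point equivalent to `σ • τ'` with `τ'` high is in the `r₀`-disc of the cusp chart. -/
theorem XCusp.cover {U : UnifData N X} (K : XCusp U) {r₀ : ℝ} (hr₀ : r₀ ≤ K.r₂) {τ' : ℍ}
    (hadm : K.c.σ • τ' ∈ U.adm) (h : ‖K.toCuspChart.param τ'‖ ≤ r₀) :
    ∃ z ∈ K.A, ‖z‖ ≤ r₀ ∧ K.pt z = U.pt (K.c.σ • τ') := by
  obtain ⟨g, hg⟩ := K.toCuspChart.lift_param (h.trans hr₀)
  refine ⟨K.toCuspChart.param τ', Or.inr ?_, h, ?_⟩
  · rw [← hg]; exact U.adm_smul g.1 _ hadm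
  · rw [K.pt_of_ne (K.toCuspChart.param_ne_zero τ'), ← hg, pt_smul_eq U hadm]

theorem cover_all [NeZero N] (hN : N.Prime) (Q : X) :
    ∃ α, ∃ z ∈ chartA U G.toChartParams α, ‖z‖ ≤ G.r₀ ∧ chartPt U G.toChartParams α z = Q := by
  rcases U.cover Q with rfl | rfl | ⟨τ, hτ, rfl⟩
  · refine ⟨ChartIdx.inf, 0, Or.inl rfl, by rw [norm_zero]; exact G.hr₀.le, ?_⟩
    unfold chartPt; simp
  · refine ⟨ChartIdx.zero, 0, Or.inl rfl, by rw [norm_zero]; exact G.hr₀.le, ?_⟩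
    unfold chartPt; simp
  obtain ⟨g, hg⟩ := exists_smul_mem_fd τ
  obtain ⟨hre, him⟩ := fd_bounds hg
  set w : ℍ := g • τ with hw
  have hwadm : w ∈ U.adm := U.adm_smul g τ hτ
  have hτw : τ = g⁻¹ • w := by rw [hw, inv_smul_smul]
  have hr₀₂ : G.r₀ ≤ G.r₂ := (G.hr₀₁.trans G.hr₁₂).le
  rcases exists_coset_rep hN g⁻¹ with hmem | ⟨k, hk, hmem⟩
  · -- `τ` is `Γ₀(N)`-equivalent to `w`
    have hpt : U.pt w = U.pt τ := by
      rw [hτw]; exact (pt_smul_eq U hwadm ⟨g⁻¹, hmem⟩).symm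
    by_cases hT : G.T ≤ w.im
    · refine ⟨ChartIdx.inf, ?_⟩
      rw [infX_A, infX_pt]
      have h1 : (infX U G).c.σ • w = w := one_smul _ w
      obtain ⟨z, hzA, hz0, hzpt⟩ := (infX U G).cover hr₀₂ (τ' := w) (by rw [h1]; exact hwadm)
        (G.infC_norm_param_le_r₀ hT)
      exact ⟨z, hzA, hz0, by rw [hzpt, h1, hpt]⟩
    · rw [not_le] at hT
      exact ⟨ChartIdx.H, cover_H U G hwadm hpt (by linarith) (G.m_le_half.trans him)
        (by linarith)⟩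
  · -- `τ` is `Γ₀(N)`-equivalent to `S • (w + k)`
    set τ' : ℍ := (T ^ (k : ℤ)) • w with hτ'
    have hτ'im : τ'.im = w.im := by
      rw [hτ', modular_T_zpow_smul]; simp
    have hτ're : τ'.re = w.re + k := by
      rw [hτ', modular_T_zpow_smul]; simp [add_comm]
    have hSadm : S • τ' ∈ U.adm := U.adm_smul S _ (U.adm_smul _ _ hwadm)
    have hpt : U.pt (S • τ') = U.pt τ := by
      have e : τ = (⟨g⁻¹ * (S * T ^ (k : ℤ))⁻¹, hmem⟩ : Gamma0 N) • (S • τ') := by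
        show τ = (g⁻¹ * (S * T ^ (k : ℤ))⁻¹) • (S • τ')
        rw [hτ', ← mul_smul S, ← mul_smul, inv_mul_cancel_right, ← hτw]
      rw [e]; exact (pt_smul_eq U hSadm _).symm
    by_cases hT : G.T ≤ w.im
    · refine ⟨ChartIdx.zero, ?_⟩
      rw [zeroX_A, zeroX_pt]
      obtain ⟨z, hzA, hz0, hzpt⟩ := (zeroX U G).cover hr₀₂ (τ' := τ') hSadm
        (G.zeroC_norm_param_le_r₀ (by rw [hτ'im]; exact hT))
      exact ⟨z, hzA, hz0, by rw [hzpt]; exact hpt⟩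
    · rw [not_le] at hT
      have hB : |τ'.re| ≤ (N : ℝ) := by
        rw [hτ're]
        have h1 := abs_le.mp hre
        have h2 : (k : ℝ) ≤ (N : ℝ) - 1 := by
          have : k + 1 ≤ N := hk
          have : ((k + 1 : ℕ) : ℝ) ≤ (N : ℝ) := by exact_mod_cast this
          push_cast at this; linarith
        have h3 : (0 : ℝ) ≤ k := Nat.cast_nonneg k
        rw [abs_le]; constructor <;> linarith [h1.1, h1.2]
      obtain ⟨b1, b2, b3⟩ := S_smul_bounds hB (by rw [hτ'im]; exact him)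
        (show τ'.im ≤ G.T + 1 by rw [hτ'im]; linarith)
      have hm : G.m ≤ (S • τ').im := by
        refine le_trans ?_ b2
        have h1 := G.hm'
        have hpos : 0 < 2 * ((N : ℝ) ^ 2 + (G.T + 1) ^ 2) := by
          have := G.hT; positivity
        rw [le_div_iff₀ hpos]; exact h1
      exact ⟨ChartIdx.H, cover_H U G hSadm hpt b1 hm (by linarith [G.hT])⟩

/-- the `H`-chart and a cusp chart have infinitely many common points in their `r₀`-discs. -/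
theorem XCusp.overlap_infinite {U : UnifData N X} (K : XCusp U) (P : ChartParams N) {r₀ T : ℝ}
    (hr₀ : r₀ ≤ K.r₂) (hT : 1 ≤ T)
    (hK : ∀ τ' : ℍ, T ≤ τ'.im → ‖K.toCuspChart.param τ'‖ ≤ r₀)
    (hH : ∀ τ' : ℍ, |τ'.re| ≤ 1 / 2 → T ≤ τ'.im → τ'.im ≤ T + 1 → K.c.σ • τ' ∈ DH P P.r₀) :
    {Q | (∃ z ∈ chartA U P ChartIdx.H, ‖z‖ ≤ P.r₀ ∧ chartPt U P ChartIdx.H z = Q) ∧
      (∃ z ∈ K.A, ‖z‖ ≤ r₀ ∧ K.pt z = Q)}.Infinite := by
  have hstrip : ∀ n : ℕ, ∃ τ' ∈ U.adm, |τ'.re| < 1 / 2 ∧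
      T + 1 / ((n : ℝ) + 2) < τ'.im ∧ τ'.im < T + 1 / ((n : ℝ) + 1) := by
    intro n
    have hopen : IsOpen {τ' : ℍ | |τ'.re| < 1 / 2 ∧
        T + 1 / ((n : ℝ) + 2) < τ'.im ∧ τ'.im < T + 1 / ((n : ℝ) + 1)} := by
      have c1 : Continuous fun τ' : ℍ => |τ'.re| := UpperHalfPlane.continuous_re.abs
      have c2 : Continuous fun τ' : ℍ => τ'.im := UpperHalfPlane.continuous_im
      exact (isOpen_lt c1 continuous_const).inter
        ((isOpen_lt continuous_const c2).inter (isOpen_lt c2 continuous_const))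
    have hn1 : (0 : ℝ) < (n : ℝ) + 1 := by positivity
    have hn2 : (0 : ℝ) < (n : ℝ) + 2 := by positivity
    have hlt : 1 / ((n : ℝ) + 2) < 1 / ((n : ℝ) + 1) :=
      one_div_lt_one_div_of_lt hn1 (by linarith)
    have hpos : 0 < 1 / ((n : ℝ) + 2) := by positivity
    have hy : 0 < T + (1 / ((n : ℝ) + 2) + 1 / ((n : ℝ) + 1)) / 2 := by linarith
    let τ₀ : ℍ := ⟨⟨0, T + (1 / ((n : ℝ) + 2) + 1 / ((n : ℝ) + 1)) / 2⟩, hy⟩
    have hne : {τ' : ℍ | |τ'.re| < 1 / 2 ∧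
        T + 1 / ((n : ℝ) + 2) < τ'.im ∧ τ'.im < T + 1 / ((n : ℝ) + 1)}.Nonempty := by
      refine ⟨τ₀, ?_, ?_, ?_⟩
      · show |(0 : ℝ)| < 1 / 2
        norm_num
      · show T + 1 / ((n : ℝ) + 2) < T + (1 / ((n : ℝ) + 2) + 1 / ((n : ℝ) + 1)) / 2
        linarith
      · show T + (1 / ((n : ℝ) + 2) + 1 / ((n : ℝ) + 1)) / 2 < T + 1 / ((n : ℝ) + 1)
        linarith
    obtain ⟨τ', h1, h2⟩ := U.adm_dense.exists_mem_open hopen hne
    exact ⟨τ', h1, h2⟩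
  choose τs hadm hre him1 him2 using hstrip
  have hsadm : ∀ n, K.c.σ • τs n ∈ U.adm := fun n => U.adm_smul _ _ (hadm n)
  have hpos : ∀ n : ℕ, (0 : ℝ) < 1 / ((n : ℝ) + 2) := fun n => by positivity
  have hle1 : ∀ n : ℕ, 1 / ((n : ℝ) + 1) ≤ 1 := fun n => by
    rw [div_le_one (by positivity)]
    have : (0 : ℝ) ≤ n := Nat.cast_nonneg n
    linarith
  have hgt : ∀ n, 1 < (τs n).im := fun n => by linarith [him1 n, hpos n]
  -- distinct indices give distinct heights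
  have hanti : ∀ n m : ℕ, n < m → (τs m).im < (τs n).im := by
    intro n m hnm
    have h1 : (n : ℝ) + 2 ≤ (m : ℝ) + 1 := by
      have : n + 1 ≤ m := hnm
      have : ((n + 1 : ℕ) : ℝ) ≤ (m : ℝ) := by exact_mod_cast this
      push_cast at this; linarith
    have h2 : 1 / ((m : ℝ) + 1) ≤ 1 / ((n : ℝ) + 2) :=
      one_div_le_one_div_of_le (by positivity) h1
    linarith [him2 m, him1 n]
  have himeq : ∀ n m : ℕ, U.pt (K.c.σ • τs n) = U.pt (K.c.σ • τs m) → (τs m).im = (τs n).im := by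
    intro n m h
    obtain ⟨g, hg⟩ := exists_smul_eq_of_pt_eq U (hsadm n) (hsadm m) h
    obtain ⟨k, hk⟩ := K.toCuspChart.eq_add_of_smul_eq (hgt n) (hgt m).le hg
    have := congrArg Complex.im hk
    simpa using this
  apply Set.infinite_of_injective_forall_mem (f := fun n : ℕ => U.pt (K.c.σ • τs n))
  · intro n m h
    have h1 := himeq n m h
    rcases lt_trichotomy n m with hlt | heq | hgt'
    · have := hanti n m hlt; linarith
    · exact heq
    · have := hanti m n hgt'; linarith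
  · intro n
    constructor
    · refine ⟨psiH P (K.c.σ • τs n), ?_, ?_, ?_⟩
      · show P.lift ChartIdx.H (psiH P (K.c.σ • τs n)) ∈ U.adm
        rw [lift_psiH]; exact hsadm n
      · exact hH (τs n) (hre n).le (by linarith [him1 n, hpos n])
          (by linarith [him2 n, hle1 n])
      · show U.pt (P.lift ChartIdx.H (psiH P (K.c.σ • τs n))) = _
        rw [lift_psiH]
    · exact K.cover hr₀ (hsadm n) (hK _ (by linarith [him1 n, hpos n]))

end Fermat.Agent.MW
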