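/-
MW / [ARCH]-GEOM (helper4), layer 15: elliptic points of the `H`-chart: finiteness, and the
comparison of the self chart sum with the logarithmic distances to the elliptic parameters.
-/
import Mathlib
import Fermat.Agent.MW.GEOM_helper4_EstH

set_option autoImplicit false

namespace Fermat.Agent.MW

open UpperHalfPlane ModularGroup Matrix CongruenceSubgroup Metric
open scoped MatrixGroups

variable {N : ℕ}

/-- a non-scalar element of `Γ₀(N)` has at most one fixed point. -/
theorem fix_unique {g : Gamma0 N} (h1 : g ≠ 1) (h2 : g ≠ negOne N) {τ τ' : ℍ}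
    (hτ : g • τ = τ) (hτ' : g • τ' = τ') : τ = τ' := by
  by_contra hne
  rcases eq_one_or_neg_one_of_fix_two (g := (g : SL(2, ℤ))) hne hτ hτ' with h | h
  · exact h1 (Subtype.ext h)
  · exact h2 (Subtype.ext h)

theorem one_lt_stabMult_iff (τ : ℍ) :
    1 < stabMult N τ ↔ ∃ g : Gamma0 N, g ≠ 1 ∧ g ≠ negOne N ∧ g • τ = τ := by
  constructor
  · intro h
    by_contra hno
    have : stabMult N τ = 1 := by
      apply stabMult_eq_one
      intro g hg
      by_contra h3
      rw [not_or] at h3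
      exact hno ⟨g, h3.1, h3.2, hg⟩
    omega
  · rintro ⟨g, h1, h2, hg⟩
    have hpos := stabMult_pos N τ
    by_contra hle
    have h1' : stabMult N τ = 1 := by omega
    have hcard : Nat.card (MulAction.stabilizer (Gamma0 N) τ) = 2 := by
      rw [← two_mul_stabMult, h1']
    obtain ⟨x, y, -, hxy⟩ := Nat.card_eq_two_iff.mp hcard
    have m1 : (1 : MulAction.stabilizer (Gamma0 N) τ) ∈ ({x, y} : Set _) := by rw [hxy]; trivial
    have m2 : (⟨negOne N, negOne_smul N τ⟩ : MulAction.stabilizer (Gamma0 N) τ) ∈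
        ({x, y} : Set _) := by rw [hxy]; trivial
    have m3 : (⟨g, hg⟩ : MulAction.stabilizer (Gamma0 N) τ) ∈ ({x, y} : Set _) := by
      rw [hxy]; trivial
    have e12 : (1 : MulAction.stabilizer (Gamma0 N) τ) ≠ ⟨negOne N, negOne_smul N τ⟩ := by
      intro h; exact negOne_ne_one N (congrArg Subtype.val h).symm
    have e13 : (1 : MulAction.stabilizer (Gamma0 N) τ) ≠ ⟨g, hg⟩ := by
      intro h; exact h1 (congrArg Subtype.val h).symm
    have e23 : (⟨negOne N, negOne_smul N τ⟩ : MulAction.stabilizer (Gamma0 N) τ) ≠ ⟨g, hg⟩ := by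
      intro h; exact h2 (congrArg Subtype.val h).symm
    simp only [Set.mem_insert_iff, Set.mem_singleton_iff] at m1 m2 m3
    rcases m1 with a | a <;> rcases m2 with b | b <;> rcases m3 with c | c <;>
      simp_all

variable (P : ChartParams N)

/-- the elliptic parameters of the `H`-chart. -/
def ellSet : Set ℂ := {z | ‖z‖ ≤ P.r₂ ∧ 1 < stabMult N (P.lift ChartIdx.H z)}

theorem ellSet_finite : (ellSet P).Finite := by
  classical
  have h : ellSet P ⊆ ⋃ g ∈ ((movers P).filter (fun g => g ≠ 1 ∧ g ≠ negOne N) : Finset (Gamma0 N)),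
      {z | ‖z‖ ≤ P.r₂ ∧ g • P.lift ChartIdx.H z = P.lift ChartIdx.H z} := by
    rintro z ⟨hz, hs⟩
    obtain ⟨g, h1, h2, hg⟩ := (one_lt_stabMult_iff _).mp hs
    rw [Set.mem_iUnion₂]
    refine ⟨g, ?_, hz, hg⟩
    rw [Finset.mem_filter, mem_movers]
    exact ⟨⟨_, liftH_mem_DH P le_rfl hz, by rw [hg]; exact liftH_mem_DH P le_rfl hz⟩, h1, h2⟩
  refine (Set.Finite.biUnion (Finset.finite_toSet _) ?_).subset h
  intro g hg
  rw [Finset.mem_coe, Finset.mem_filter] at hg
  apply Set.Subsingleton.finite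
  rintro z ⟨hz, hfz⟩ z' ⟨hz', hfz'⟩
  have := fix_unique hg.2.1 hg.2.2 hfz hfz'
  rw [← psiH_liftH P hz, ← psiH_liftH P hz', this]

/-- the finset of elliptic parameters. -/
noncomputable def ellFin : Finset ℂ := (ellSet_finite P).toFinset

theorem mem_ellFin {z : ℂ} :
    z ∈ ellFin P ↔ ‖z‖ ≤ P.r₂ ∧ 1 < stabMult N (P.lift ChartIdx.H z) := by
  unfold ellFin
  rw [Set.Finite.mem_toFinset]; rfl

/-- the non-scalar movers. -/
noncomputable def movers' : Finset (Gamma0 N) :=
  open Classical in (movers P).filter (fun g => g ≠ 1 ∧ g ≠ negOne N)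

theorem mem_movers' {g : Gamma0 N} : g ∈ movers' P ↔ g ∈ movers P ∧ g ≠ 1 ∧ g ≠ negOne N := by
  unfold movers'
  rw [Finset.mem_filter]

theorem mem_movers_of_fix {υ : ℍ} (hυ : υ ∈ DH P P.r₂) {g : Gamma0 N} (hg : g • υ = υ) :
    g ∈ movers P := by
  rw [mem_movers]; exact ⟨υ, hυ, by rw [hg]; exact hυ⟩

open Classical in
/-- the number of non-scalar elements fixing a point of the disc. -/
theorem card_filter_fix {υ : ℍ} (hυ : υ ∈ DH P P.r₂) :
    ((movers' P).filter (fun g => g • υ = υ)).card + 2 = 2 * stabMult N υ := by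
  set Sf : Finset (Gamma0 N) := (movers P).filter (fun g => g • υ = υ) with hSf
  have h1 : Nat.card (MulAction.stabilizer (Gamma0 N) υ) = Sf.card := by
    apply Nat.subtype_card
    intro g
    rw [hSf, Finset.mem_filter, MulAction.mem_stabilizer_iff]
    exact ⟨fun h => h.2, fun h => ⟨mem_movers_of_fix P hυ h, h⟩⟩
  have m1 : (1 : Gamma0 N) ∈ Sf := by
    rw [hSf, Finset.mem_filter]
    exact ⟨mem_movers_of_fix P hυ (one_smul _ υ), one_smul _ υ⟩
  have m2 : negOne N ∈ Sf.erase 1 := by
    rw [Finset.mem_erase, hSf, Finset.mem_filter]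
    exact ⟨negOne_ne_one N, mem_movers_of_fix P hυ (negOne_smul N υ), negOne_smul N υ⟩
  have e : (movers' P).filter (fun g => g • υ = υ) = (Sf.erase 1).erase (negOne N) := by
    ext g
    rw [Finset.mem_filter, mem_movers', Finset.mem_erase, Finset.mem_erase, hSf, Finset.mem_filter]
    tauto
  rw [e, Finset.card_erase_of_mem m2, Finset.card_erase_of_mem m1, two_mul_stabMult, h1]
  have : 2 ≤ Sf.card := by
    have := Finset.card_pos.mpr ⟨_, m2⟩
    rw [Finset.card_erase_of_mem m1] at this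
    omega
  omega

open Classical in
/-- **identity (II)**: the elliptic sum as a sum over the non-scalar movers. -/
theorem ell_sum_eq (L : ℂ → ℝ) :
    ∑ u ∈ ellFin P, ((stabMult N (P.lift ChartIdx.H u) : ℝ) - 1) * L u =
      (1 / 2) * ∑ g ∈ movers' P,
        ∑ u ∈ (ellFin P).filter (fun u => g • P.lift ChartIdx.H u = P.lift ChartIdx.H u), L u := by
  have h1 : ∀ g ∈ movers' P,
      ∑ u ∈ (ellFin P).filter (fun u => g • P.lift ChartIdx.H u = P.lift ChartIdx.H u), L u =
      ∑ u ∈ ellFin P, if g • P.lift ChartIdx.H u = P.lift ChartIdx.H u then L u else 0 := by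
    intro g _
    rw [Finset.sum_filter]
  rw [Finset.sum_congr rfl h1, Finset.sum_comm, Finset.mul_sum]
  refine Finset.sum_congr rfl ?_
  intro u hu
  rw [← Finset.sum_filter, Finset.sum_const, nsmul_eq_mul]
  have hυ : P.lift ChartIdx.H u ∈ DH P P.r₂ := liftH_mem_DH P le_rfl ((mem_ellFin P).mp hu).1
  have h2 := card_filter_fix P hυ
  have h3 : (((movers' P).filter
      (fun g => g • P.lift ChartIdx.H u = P.lift ChartIdx.H u)).card : ℝ) + 2 =
      2 * (stabMult N (P.lift ChartIdx.H u) : ℝ) := by exact_mod_cast h2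
  linear_combination (-(1 / 2) * L u) * h3

open Classical in
/-- **identity (I)**: the self chart sum as a sum over the non-scalar movers. -/
theorem sumH_self_eq {X : Type*} (U : UnifData N X) {z : ℂ} (hz : P.lift ChartIdx.H z ∈ U.adm)
    (hz2 : ‖z‖ ≤ P.r₂) {F : Finset ℂ} (hF : IsFibH U P (U.pt (P.lift ChartIdx.H z)) F) :
    sumH P F z = (1 / 2) * ∑ g ∈ movers' P,
      if g • P.lift ChartIdx.H z ∈ DH P P.r₂ then
        Real.log ‖z - psiH P (g • P.lift ChartIdx.H z)‖ else 0 := by
  have hτ : P.lift ChartIdx.H z ∈ DH P P.r₂ := liftH_mem_DH P le_rfl hz2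
  unfold sumH
  rw [sum_fibH_eq P U hz F hF (fun z' => Real.log ‖z - z'‖)]
  congr 1
  have e1 : into P (P.lift ChartIdx.H z) =
      (movers P).filter (fun g => g • P.lift ChartIdx.H z ∈ DH P P.r₂) := by
    ext g
    rw [mem_into, Finset.mem_filter, mem_movers]
    exact ⟨fun h => ⟨⟨_, hτ, h⟩, h⟩, fun h => h.2⟩
  rw [e1, Finset.sum_filter]
  rw [← Finset.sum_filter_add_sum_filter_not (movers P) (fun g => g ≠ 1 ∧ g ≠ negOne N)]
  have e2 : ∑ g ∈ (movers P).filter (fun g => ¬ (g ≠ 1 ∧ g ≠ negOne N)),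
      (if g • P.lift ChartIdx.H z ∈ DH P P.r₂ then
        Real.log ‖z - psiH P (g • P.lift ChartIdx.H z)‖ else 0) = 0 := by
    apply Finset.sum_eq_zero
    intro g hg
    rw [Finset.mem_filter] at hg
    have hfix : g • P.lift ChartIdx.H z = P.lift ChartIdx.H z := by
      have h := hg.2
      rw [not_and_or, not_not, not_not] at h
      rcases h with h | h
      · rw [h, one_smul]
      · rw [h, negOne_smul]
    rw [hfix, psiH_liftH P hz2, sub_self, norm_zero, Real.log_zero]
    simp
  rw [e2, add_zero]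
  rfl

end Fermat.Agent.MW
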