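/-
MW / [ARCH]-GEOM (helper4), layer 16: bounds for the individual non-scalar movers (fixed point
factorisation `τ - gτ = (τ - υ) φ(τ)`, compactness) and the resulting elliptic estimate `hell`.
-/
import Mathlib
import Fermat.Agent.MW.GEOM_helper4_Ell

set_option autoImplicit false

namespace Fermat.Agent.MW

open UpperHalfPlane ModularGroup Matrix CongruenceSubgroup Metric
open scoped MatrixGroups

variable {N : ℕ}


theorem coe_smul_eq_div (g : SL(2, ℤ)) (τ : ℍ) :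
    ((g • τ : ℍ) : ℂ) = (((g 0 0 : ℤ) : ℂ) * τ + ((g 0 1 : ℤ) : ℂ)) /
      (((g 1 0 : ℤ) : ℂ) * τ + ((g 1 1 : ℤ) : ℂ)) := by
  rw [coe_specialLinearGroup_apply]
  simp only [algebraMap_int_eq, eq_intCast, Complex.ofReal_intCast]

theorem cden_ne_zero (g : SL(2, ℤ)) (τ : ℍ) : ((g 1 0 : ℤ) : ℂ) * τ + ((g 1 1 : ℤ) : ℂ) ≠ 0 := by
  have := denom_ne_zero g τ
  rwa [ModularGroup.denom_apply] at this

/-- the factor relating `τ - gτ` to `τ - υ` for a fixed point `υ` of `g`. -/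
noncomputable def phiFix (g : SL(2, ℤ)) (υ τ : ℍ) : ℂ :=
  1 - 1 / ((((g 1 0 : ℤ) : ℂ) * τ + ((g 1 1 : ℤ) : ℂ)) * (((g 1 0 : ℤ) : ℂ) * υ + ((g 1 1 : ℤ) : ℂ)))

theorem sub_smul_eq_mul_phiFix (g : SL(2, ℤ)) {υ : ℍ} (hυ : g • υ = υ) (τ : ℍ) :
    (τ : ℂ) - ((g • τ : ℍ) : ℂ) = ((τ : ℂ) - υ) * phiFix g υ τ := by
  have h1 := coe_smul_eq_div g υ
  rw [hυ] at h1
  have d1 := cden_ne_zero g τ
  have d2 := cden_ne_zero g υ
  rw [eq_div_iff d2] at h1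
  have hdet : ((g 0 0 : ℤ) : ℂ) * ((g 1 1 : ℤ) : ℂ) - ((g 0 1 : ℤ) : ℂ) * ((g 1 0 : ℤ) : ℂ) = 1 := by
    have := det_eq_one' g
    exact_mod_cast this
  rw [coe_smul_eq_div g τ]
  unfold phiFix
  set Dτ : ℂ := ((g 1 0 : ℤ) : ℂ) * τ + ((g 1 1 : ℤ) : ℂ) with hDτ
  set Dυ : ℂ := ((g 1 0 : ℤ) : ℂ) * υ + ((g 1 1 : ℤ) : ℂ) with hDυ
  have key : ((τ : ℂ) * Dτ - (((g 0 0 : ℤ) : ℂ) * τ + ((g 0 1 : ℤ) : ℂ))) * Dυ =
      ((τ : ℂ) - υ) * (Dτ * Dυ - 1) := by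
    rw [hDτ, hDυ] at *
    linear_combination (-((τ : ℂ) - υ)) * hdet + (((g 1 0 : ℤ) : ℂ) * τ + ((g 1 1 : ℤ) : ℂ)) * h1
  have e1 : (τ : ℂ) - (((g 0 0 : ℤ) : ℂ) * τ + ((g 0 1 : ℤ) : ℂ)) / Dτ =
      (((τ : ℂ) * Dτ - (((g 0 0 : ℤ) : ℂ) * τ + ((g 0 1 : ℤ) : ℂ))) * Dυ) / (Dτ * Dυ) := by
    field_simp
  rw [e1, key]
  field_simp


theorem continuous_phiFix (g : SL(2, ℤ)) (υ : ℍ) : Continuous (phiFix g υ) := by
  unfold phiFix
  apply continuous_const.sub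
  apply continuous_const.div
  · exact ((continuous_const.mul UpperHalfPlane.continuous_coe).add continuous_const).mul
      continuous_const
  · intro τ
    exact mul_ne_zero (cden_ne_zero g τ) (cden_ne_zero g υ)

theorem phiFix_ne_zero {g : SL(2, ℤ)} (h1 : g ≠ 1) (h2 : g ≠ -1) {υ : ℍ} (hυ : g • υ = υ)
    (τ : ℍ) : phiFix g υ τ ≠ 0 := by
  intro h0
  by_cases hne : τ = υ
  · subst hne
    unfold phiFix at h0
    have d := cden_ne_zero g τ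
    have h3 : (((g 1 0 : ℤ) : ℂ) * τ + ((g 1 1 : ℤ) : ℂ)) *
        (((g 1 0 : ℤ) : ℂ) * τ + ((g 1 1 : ℤ) : ℂ)) = 1 := by
      have := sub_eq_zero.mp h0
      field_simp at this
      rw [← sq]; exact this
    have h4 : (((g 1 0 : ℤ) : ℂ) * τ + ((g 1 1 : ℤ) : ℂ)).im = (g 1 0 : ℤ) * τ.im := by
      simp
    have h5 : (((g 1 0 : ℤ) : ℂ) * τ + ((g 1 1 : ℤ) : ℂ)).im = 0 := by
      rcases mul_self_eq_one_iff.mp h3 with h | h <;> rw [h] <;> simp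
    rw [h4] at h5
    have hc : g 1 0 = 0 := by
      rcases mul_eq_zero.mp h5 with h | h
      · exact_mod_cast h
      · exact absurd h τ.im_pos.ne'
    obtain ⟨n, hn⟩ := coe_smul_of_c_eq_zero hc
    have hn0 : n = 0 := by
      have := hn τ
      rw [hυ] at this
      have h6 : ((n : ℤ) : ℂ) = 0 := by linear_combination -this
      exact_mod_cast h6
    subst hn0
    let τ' : ℍ := ⟨(τ : ℂ) + 1, by simpa using τ.im_pos⟩
    have hne' : τ ≠ τ' := by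
      intro h
      have := congrArg (fun z : ℍ => (z : ℂ)) h
      simp [τ'] at this
    have hfix' : g • τ' = τ' := by
      apply UpperHalfPlane.ext; rw [hn τ']; simp
    rcases eq_one_or_neg_one_of_fix_two hne' hυ hfix' with h | h
    · exact h1 h
    · exact h2 h
  · have e := sub_smul_eq_mul_phiFix g hυ τ
    rw [h0, mul_zero, sub_eq_zero] at e
    have hfix : g • τ = τ := (UpperHalfPlane.ext e).symm
    rcases eq_one_or_neg_one_of_fix_two hne hfix hυ with h | h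
    · exact h1 h
    · exact h2 h

variable (P : ChartParams N)

theorem DH_nonempty (r : ℝ) (hr : 0 ≤ r) (hr₂ : r ≤ P.r₂) : (DH P r).Nonempty :=
  ⟨P.lift ChartIdx.H 0, liftH_mem_DH P hr₂ (by rw [norm_zero]; exact hr)⟩

/-- two-sided bounds for `φ` on the `r₂`-disc. -/
theorem exists_phiFix_bounds {g : SL(2, ℤ)} (h1 : g ≠ 1) (h2 : g ≠ -1) {υ : ℍ} (hυ : g • υ = υ) :
    ∃ c C : ℝ, 0 < c ∧ 0 < C ∧ ∀ τ ∈ DH P P.r₂, c ≤ ‖phiFix g υ τ‖ ∧ ‖phiFix g υ τ‖ ≤ C := by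
  have hr₂0 : 0 ≤ P.r₂ := (P.hr₀.trans (P.hr₀₁.trans P.hr₁₂)).le
  have hc : ContinuousOn (fun τ : ℍ => ‖phiFix g υ τ‖) (DH P P.r₂) :=
    (continuous_phiFix g υ).norm.continuousOn
  obtain ⟨τ₁, hτ₁, hmin⟩ := (isCompact_DH P le_rfl).exists_isMinOn (DH_nonempty P _ hr₂0 le_rfl) hc
  obtain ⟨τ₂, hτ₂, hmax⟩ := (isCompact_DH P le_rfl).exists_isMaxOn (DH_nonempty P _ hr₂0 le_rfl) hc
  have hpos₁ : 0 < ‖phiFix g υ τ₁‖ := norm_pos_iff.mpr (phiFix_ne_zero h1 h2 hυ τ₁)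
  have hpos₂ : 0 < ‖phiFix g υ τ₂‖ := norm_pos_iff.mpr (phiFix_ne_zero h1 h2 hυ τ₂)
  exact ⟨_, _, hpos₁, hpos₂, fun τ hτ => ⟨hmin hτ, hmax hτ⟩⟩

theorem continuous_dist_smul (g : SL(2, ℤ)) :
    Continuous fun τ : ℍ => dist (τ : ℂ) ((g • τ : ℍ) : ℂ) :=
  UpperHalfPlane.continuous_coe.dist
    (UpperHalfPlane.continuous_coe.comp
      (Isometry.of_dist_eq (fun a b => dist_smul_smul_SL2Z g a b)).continuous)

theorem exists_pos_le_dist_smul (g : SL(2, ℤ)) (hno : ∀ τ ∈ DH P P.r₂, g • τ ≠ τ) :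
    ∃ c : ℝ, 0 < c ∧ ∀ τ ∈ DH P P.r₂, c ≤ dist (τ : ℂ) ((g • τ : ℍ) : ℂ) := by
  have hr₂0 : 0 ≤ P.r₂ := (P.hr₀.trans (P.hr₀₁.trans P.hr₁₂)).le
  obtain ⟨τ₁, hτ₁, hmin⟩ := (isCompact_DH P le_rfl).exists_isMinOn (DH_nonempty P _ hr₂0 le_rfl)
    (continuous_dist_smul g).continuousOn
  refine ⟨_, ?_, fun τ hτ => hmin hτ⟩
  rw [dist_pos]
  intro h
  exact hno τ₁ hτ₁ (UpperHalfPlane.ext h).symm

theorem ne_one_coe {g : Gamma0 N} (h : g ≠ 1) : (g : SL(2, ℤ)) ≠ 1 := fun h' => h (Subtype.ext h')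

theorem ne_negOne_coe {g : Gamma0 N} (h : g ≠ negOne N) : (g : SL(2, ℤ)) ≠ -1 :=
  fun h' => h (Subtype.ext h')

open Classical in
/-- **the bound for a single non-scalar mover**. -/
theorem exists_bound_mover (hr₂ : P.r₂ ≤ 1 / 2) {g : Gamma0 N} (hg1 : g ≠ 1)
    (hg2 : g ≠ negOne N) :
    ∃ C : ℝ, 0 ≤ C ∧ ∀ z : ℂ, ‖z‖ ≤ P.r₁ → g • P.lift ChartIdx.H z ≠ P.lift ChartIdx.H z →
      |(∑ u ∈ (ellFin P).filter (fun u => g • P.lift ChartIdx.H u = P.lift ChartIdx.H u),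
          Real.log ‖z - u‖) -
        (if g • P.lift ChartIdx.H z ∈ DH P P.r₂ then
          Real.log ‖z - psiH P (g • P.lift ChartIdx.H z)‖ else 0)| ≤ C := by
  have hsH := P.hsH
  have hr12 : 0 < P.r₂ - P.r₁ := by linarith [P.hr₁₂]
  by_cases hfix : ∃ υ ∈ DH P P.r₂, g • υ = υ
  · -- Case A: `g` has a fixed point `υ` in the disc
    obtain ⟨υ, hυD, hυ⟩ := hfix
    have hυ' : (g : SL(2, ℤ)) • υ = υ := hυ
    set u₀ : ℂ := psiH P υ with hu₀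
    have hu₀n : ‖u₀‖ ≤ P.r₂ := hυD
    have hlu₀ : P.lift ChartIdx.H u₀ = υ := lift_psiH P υ
    have hu₀ell : u₀ ∈ ellFin P := by
      rw [mem_ellFin, hlu₀]
      exact ⟨hu₀n, (one_lt_stabMult_iff υ).mpr ⟨g, hg1, hg2, hυ⟩⟩
    have hfilter : (ellFin P).filter
        (fun u => g • P.lift ChartIdx.H u = P.lift ChartIdx.H u) = {u₀} := by
      ext u
      rw [Finset.mem_filter, Finset.mem_singleton]
      constructor
      · rintro ⟨hu, hfu⟩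
        have := fix_unique hg1 hg2 hfu hυ
        rw [← psiH_liftH P ((mem_ellFin P).mp hu).1, this]
      · rintro rfl
        exact ⟨hu₀ell, by rw [hlu₀]; exact hυ⟩
    obtain ⟨c, C, hc, hC, hb⟩ :=
      exists_phiFix_bounds P (ne_one_coe hg1) (ne_negOne_coe hg2) hυ'
    refine ⟨|Real.log c| + |Real.log C| + |Real.log ((P.r₂ - P.r₁) / C)|, by positivity, ?_⟩
    intro z hz hnf
    have hz2 : ‖z‖ ≤ P.r₂ := hz.trans P.hr₁₂.le
    set τ : ℍ := P.lift ChartIdx.H z with hτ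
    have hτD : τ ∈ DH P P.r₂ := liftH_mem_DH P le_rfl hz2
    have hψτ : psiH P τ = z := psiH_liftH P hz2
    have hτυ : τ ≠ υ := by
      intro h; apply hnf; rw [h]; exact hυ
    have hdυ : 0 < dist (τ : ℂ) υ := by
      rw [dist_pos]; intro h; exact hτυ (UpperHalfPlane.ext h)
    obtain ⟨hφ1, hφ2⟩ := hb τ hτD
    have hzu : ‖z - u₀‖ = dist (τ : ℂ) υ / P.sH := by
      rw [← hψτ, hu₀, norm_psiH_sub]
    have hzupos : 0 < ‖z - u₀‖ := by rw [hzu]; positivity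
    have hzule : ‖z - u₀‖ ≤ 1 := by
      calc ‖z - u₀‖ ≤ ‖z‖ + ‖u₀‖ := norm_sub_le _ _
        _ ≤ 1 := by linarith
    have hdist : dist (τ : ℂ) ((g • τ : ℍ) : ℂ) = dist (τ : ℂ) υ * ‖phiFix g υ τ‖ := by
      rw [Complex.dist_eq, Complex.dist_eq]
      have := sub_smul_eq_mul_phiFix (g : SL(2, ℤ)) hυ' τ
      rw [show ((g • τ : ℍ) : ℂ) = (((g : SL(2, ℤ)) • τ : ℍ) : ℂ) from rfl, this, norm_mul]
    rw [hfilter, Finset.sum_singleton]
    have a1 := le_abs_self (Real.log c)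
    have a2 := neg_abs_le (Real.log c)
    have a3 := le_abs_self (Real.log C)
    have a4 := neg_abs_le (Real.log C)
    have a5 := neg_abs_le (Real.log ((P.r₂ - P.r₁) / C))
    have a6 := abs_nonneg (Real.log ((P.r₂ - P.r₁) / C))
    have a7 := abs_nonneg (Real.log c)
    have a8 := abs_nonneg (Real.log C)
    have hφpos : 0 < ‖phiFix g υ τ‖ := lt_of_lt_of_le hc hφ1
    split_ifs with hin
    · -- `gτ` in the disc
      have e1 : ‖z - psiH P (g • τ)‖ = ‖z - u₀‖ * ‖phiFix g υ τ‖ := by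
        rw [← hψτ, norm_psiH_sub, hdist, hu₀, norm_psiH_sub]; ring
      rw [e1, Real.log_mul hzupos.ne' hφpos.ne']
      have l1 : Real.log c ≤ Real.log ‖phiFix g υ τ‖ := Real.log_le_log hc hφ1
      have l2 : Real.log ‖phiFix g υ τ‖ ≤ Real.log C := Real.log_le_log hφpos hφ2
      rw [abs_le]; constructor <;> linarith
    · -- `gτ` outside the disc
      have hfar : P.sH * (P.r₂ - P.r₁) ≤ dist (τ : ℂ) ((g • τ : ℍ) : ℂ) := by
        have h1 : P.r₂ < ‖psiH P (g • τ)‖ := not_le.mp hin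
        have h2 : ‖psiH P (g • τ)‖ ≤ ‖psiH P τ‖ + ‖psiH P τ - psiH P (g • τ)‖ := by
          have := norm_sub_le (psiH P τ) (psiH P τ - psiH P (g • τ))
          simpa using this
        rw [norm_psiH_sub, hψτ] at h2
        have h3 : P.r₂ - P.r₁ ≤ dist (τ : ℂ) ((g • τ : ℍ) : ℂ) / P.sH := by linarith
        rw [le_div_iff₀ hsH] at h3
        linarith
      have hlow : (P.r₂ - P.r₁) / C ≤ ‖z - u₀‖ := by
        rw [hzu, div_le_div_iff₀ hC hsH]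
        have : dist (τ : ℂ) υ * ‖phiFix g υ τ‖ ≤ dist (τ : ℂ) υ * C :=
          mul_le_mul_of_nonneg_left hφ2 hdυ.le
        rw [hdist] at hfar
        nlinarith
      have l1 : Real.log ((P.r₂ - P.r₁) / C) ≤ Real.log ‖z - u₀‖ :=
        Real.log_le_log (by positivity) hlow
      have l2 : Real.log ‖z - u₀‖ ≤ 0 := Real.log_nonpos hzupos.le hzule
      rw [sub_zero, abs_le]; constructor <;> linarith
  · -- Case B: no fixed point in the disc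
    have hno : ∀ τ ∈ DH P P.r₂, (g : SL(2, ℤ)) • τ ≠ τ := by
      intro τ hτ h; exact hfix ⟨τ, hτ, h⟩
    have hfilter : (ellFin P).filter
        (fun u => g • P.lift ChartIdx.H u = P.lift ChartIdx.H u) = ∅ := by
      rw [Finset.filter_eq_empty_iff]
      intro u hu hfu
      exact hfix ⟨_, liftH_mem_DH P le_rfl ((mem_ellFin P).mp hu).1, hfu⟩
    obtain ⟨c, hc, hb⟩ := exists_pos_le_dist_smul P (g : SL(2, ℤ)) hno
    refine ⟨|Real.log (c / P.sH)|, abs_nonneg _, ?_⟩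
    intro z hz _
    have hz2 : ‖z‖ ≤ P.r₂ := hz.trans P.hr₁₂.le
    set τ : ℍ := P.lift ChartIdx.H z with hτ
    have hτD : τ ∈ DH P P.r₂ := liftH_mem_DH P le_rfl hz2
    have hψτ : psiH P τ = z := psiH_liftH P hz2
    rw [hfilter, Finset.sum_empty, zero_sub, abs_neg]
    split_ifs with hin
    · have e1 : ‖z - psiH P (g • τ)‖ = dist (τ : ℂ) ((g • τ : ℍ) : ℂ) / P.sH := by
        rw [← hψτ, norm_psiH_sub]
      have h1 : c / P.sH ≤ ‖z - psiH P (g • τ)‖ := by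
        rw [e1]; exact div_le_div_of_nonneg_right (hb τ hτD) hsH.le
      have h2 : ‖z - psiH P (g • τ)‖ ≤ 1 := by
        calc ‖z - psiH P (g • τ)‖ ≤ ‖z‖ + ‖psiH P (g • τ)‖ := norm_sub_le _ _
          _ ≤ P.r₂ + P.r₂ := add_le_add hz2 hin
          _ ≤ 1 := by linarith
      have hpos : 0 < c / P.sH := by positivity
      have l1 : Real.log (c / P.sH) ≤ Real.log ‖z - psiH P (g • τ)‖ := Real.log_le_log hpos h1
      have l2 : Real.log ‖z - psiH P (g • τ)‖ ≤ 0 :=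
        Real.log_nonpos (norm_nonneg _) h2
      have a1 := neg_abs_le (Real.log (c / P.sH))
      have a2 := abs_nonneg (Real.log (c / P.sH))
      rw [abs_le]; constructor <;> linarith
    · rw [abs_zero]; exact abs_nonneg _

open Classical in
/-- **the elliptic estimate `hell`**. -/
theorem exists_ell_bound {X : Type*} (U : UnifData N X) (hr₂ : P.r₂ ≤ 1 / 2) :
    ∃ L : ℝ, 0 ≤ L ∧ ∀ z : ℂ, P.lift ChartIdx.H z ∈ U.adm → ‖z‖ ≤ P.r₁ →
      stabMult N (P.lift ChartIdx.H z) = 1 →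
      ∀ F : Finset ℂ, IsFibH U P (U.pt (P.lift ChartIdx.H z)) F →
      |(∑ u ∈ ellFin P, ((stabMult N (P.lift ChartIdx.H u) : ℝ) - 1) * Real.log ‖z - u‖) -
        sumH P F z| ≤ L := by
  have hex : ∀ g : Gamma0 N, ∃ C : ℝ, 0 ≤ C ∧ (g ≠ 1 → g ≠ negOne N → ∀ z : ℂ, ‖z‖ ≤ P.r₁ →
      g • P.lift ChartIdx.H z ≠ P.lift ChartIdx.H z →
      |(∑ u ∈ (ellFin P).filter (fun u => g • P.lift ChartIdx.H u = P.lift ChartIdx.H u),
          Real.log ‖z - u‖) -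
        (if g • P.lift ChartIdx.H z ∈ DH P P.r₂ then
          Real.log ‖z - psiH P (g • P.lift ChartIdx.H z)‖ else 0)| ≤ C) := by
    intro g
    by_cases h : g ≠ 1 ∧ g ≠ negOne N
    · obtain ⟨C, hC, hb⟩ := exists_bound_mover P hr₂ h.1 h.2
      exact ⟨C, hC, fun _ _ => hb⟩
    · exact ⟨0, le_rfl, fun h1 h2 => absurd ⟨h1, h2⟩ h⟩
  choose Cf hCf0 hCf using hex
  refine ⟨(1 / 2) * ∑ g ∈ movers' P, Cf g, ?_, ?_⟩
  · have : 0 ≤ ∑ g ∈ movers' P, Cf g := Finset.sum_nonneg (fun g _ => hCf0 g)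
    linarith
  intro z hz hz1 hst F hF
  have hz2 : ‖z‖ ≤ P.r₂ := hz1.trans P.hr₁₂.le
  rw [ell_sum_eq P (fun u => Real.log ‖z - u‖), sumH_self_eq P U hz hz2 hF, ← mul_sub,
    ← Finset.sum_sub_distrib, abs_mul, abs_of_pos (by norm_num : (0 : ℝ) < 1 / 2)]
  apply mul_le_mul_of_nonneg_left _ (by norm_num)
  refine (Finset.abs_sum_le_sum_abs _ _).trans (Finset.sum_le_sum ?_)
  intro g hg
  obtain ⟨-, h1, h2⟩ := (mem_movers' P).mp hg
  apply hCf g h1 h2 z hz1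
  intro hfix
  have : 1 < stabMult N (P.lift ChartIdx.H z) :=
    (one_lt_stabMult_iff _).mpr ⟨g, h1, h2, hfix⟩
  omega

end Fermat.Agent.MW
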