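/-
MW / [ARCH]-GEOM (helper4), layer 14: existence of the numerical setup.
-/
import Mathlib
import Fermat.Agent.MW.GEOM_helper4_Setup

set_option autoImplicit false

namespace Fermat.Agent.MW

open UpperHalfPlane ModularGroup Matrix CongruenceSubgroup Metric Function.Periodic
open scoped MatrixGroups

theorem exists_geomSetup (N : ℕ) (hN : 2 ≤ N) : Nonempty (GeomSetup N) := by
  have hNr : (2 : ℝ) ≤ (N : ℝ) := by exact_mod_cast hN
  have hpi := Real.pi_pos
  have hpi3 := Real.pi_gt_three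
  obtain ⟨T, hT⟩ : ∃ T : ℝ, T = (N : ℝ) + 1 := ⟨_, rfl⟩
  obtain ⟨D, hD⟩ : ∃ D : ℝ, D = 2 * ((N : ℝ) ^ 2 + (T + 1) ^ 2) := ⟨_, rfl⟩
  have hDpos : 0 < D := by rw [hD]; positivity
  have hD8 : 8 ≤ D := by rw [hD, hT]; nlinarith
  obtain ⟨m, hm⟩ : ∃ m : ℝ, m = 1 / D := ⟨_, rfl⟩
  have hmpos : 0 < m := by rw [hm]; positivity
  have hm8 : m ≤ 1 / 8 := by
    rw [hm]; exact one_div_le_one_div_of_le (by norm_num) hD8
  have hmD : m * D = 1 := by rw [hm]; field_simp
  obtain ⟨Y, hY⟩ : ∃ Y : ℝ, Y = 4 / m + T + 2 := ⟨_, rfl⟩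
  have h4m : 0 < 4 / m := by positivity
  have hYpos : 0 < Y := by rw [hY, hT]; linarith
  have hY3 : 3 ≤ Y := by rw [hY, hT]; linarith
  have hYm : 4 / m ≤ Y := by rw [hY, hT]; linarith
  have hYmm : 4 ≤ Y * m := by
    have : 4 / m * m = 4 := by field_simp
    nlinarith
  obtain ⟨ε, hε⟩ : ∃ ε : ℝ, ε = m / (8 * Y) := ⟨_, rfl⟩
  have hεpos : 0 < ε := by rw [hε]; positivity
  have hεY : 2 * ε * Y = m / 4 := by rw [hε]; field_simp; ring
  have hε2 : ε ≤ 1 / 2 := by
    rw [hε, div_le_iff₀ (by positivity)]; nlinarith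
  obtain ⟨sH, hsH⟩ : ∃ sH : ℝ, sH = 4 * (Y - m / 2) := ⟨_, rfl⟩
  have hsHpos : 0 < sH := by rw [hsH]; linarith
  have hsHr₂ : sH * ((1 + 2 * ε) / 4) = Y - m / 4 - ε * m := by
    rw [hsH]; linear_combination hεY
  have hlogpos : 0 < Real.log (((1 + 2 * ε) / 4) / ((1 + ε) / 4)) := by
    apply Real.log_pos
    rw [lt_div_iff₀ (by positivity)]; linarith
  have hexpN : (2 : ℝ) < Real.exp (2 * Real.pi) := by
    have := Real.add_one_lt_exp (x := 2 * Real.pi) (by positivity)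
    linarith
  obtain ⟨ρ, hρ⟩ : ∃ ρ : ℝ, ρ = min (min (1 / 2) (sH * ((1 + 2 * ε) / 4 - (1 + ε) / 4) / (8 * Y)))
    (min (1 / (32 * (2 * Y))) (Real.log (((1 + 2 * ε) / 4) / ((1 + ε) / 4)) /
      (8 * Real.pi * (2 * Y)))) := ⟨_, rfl⟩
  have hρ1 : ρ ≤ 1 / 2 := by rw [hρ]; exact (min_le_left _ _).trans (min_le_left _ _)
  have hρ2 : ρ ≤ sH * ((1 + 2 * ε) / 4 - (1 + ε) / 4) / (8 * Y) := by
    rw [hρ]; exact (min_le_left _ _).trans (min_le_right _ _)
  have hρ3 : ρ ≤ 1 / (32 * (2 * Y)) := by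
    rw [hρ]; exact (min_le_right _ _).trans (min_le_left _ _)
  have hρ4 : ρ ≤ Real.log (((1 + 2 * ε) / 4) / ((1 + ε) / 4)) / (8 * Real.pi * (2 * Y)) := by
    rw [hρ]; exact (min_le_right _ _).trans (min_le_right _ _)
  have hρpos : 0 < ρ := by
    rw [hρ]
    refine lt_min (lt_min (by norm_num) ?_) (lt_min (by positivity) (by positivity))
    apply div_pos _ (by positivity)
    apply mul_pos hsHpos
    linarith
  refine ⟨{
    Y := Y
    sH := sH
    sInf := 4 * Real.exp (-2 * Real.pi * T)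
    sZero := 4 * Real.exp (-2 * Real.pi * T / N)
    r₀ := 1 / 4
    r₁ := (1 + ε) / 4
    r₂ := (1 + 2 * ε) / 4
    hr₀ := by norm_num
    hr₀₁ := by linarith
    hr₁₂ := by linarith
    hsH := hsHpos
    hH := by rw [hsHr₂]; have := mul_pos hεpos hmpos; linarith
    hsInf := by positivity
    hInf := ?_
    hsZero := by positivity
    hZero := ?_
    hr₂ := by linarith
    T := T
    hT := by rw [hT]; linarith
    hsInfT := by ring
    hsZeroT := by ring
    m := m
    hm := hmpos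
    hm' := by rw [← hD, hmD]
    hcore := ?_
    T₂ := 2 * Y
    hT₂ := by linarith
    hT₂a := by rw [hsHr₂]; have := mul_pos hεpos hmpos; linarith
    hT₂b := ?_
    ρ := ρ
    hρ := hρpos
    hρ' := hρ1
    hρ1 := ?_
    hδ2 := ?_
    hδ3 := ?_ }⟩
  · -- hInf
    have e : 4 * Real.exp (-2 * Real.pi * T) * ((1 + 2 * ε) / 4) =
        Real.exp (-2 * Real.pi * T) * (1 + 2 * ε) := by ring
    rw [e]
    have h1 : Real.exp (-2 * Real.pi) = Real.exp (-2 * Real.pi * T) * Real.exp (2 * Real.pi * N) := by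
      rw [← Real.exp_add]; congr 1; rw [hT]; ring
    rw [h1]
    apply mul_lt_mul_of_pos_left _ (Real.exp_pos _)
    have h2 : Real.exp (2 * Real.pi) ≤ Real.exp (2 * Real.pi * N) := by
      apply Real.exp_le_exp.mpr
      have : 2 * Real.pi * 1 ≤ 2 * Real.pi * N := mul_le_mul_of_nonneg_left (by linarith) (by positivity)
      linarith
    linarith
  · -- hZero
    have hN0 : (0 : ℝ) < N := by linarith
    have e : 4 * Real.exp (-2 * Real.pi * T / N) * ((1 + 2 * ε) / 4) =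
        Real.exp (-2 * Real.pi * T / N) * (1 + 2 * ε) := by ring
    rw [e]
    have h1 : Real.exp (-2 * Real.pi / N) =
        Real.exp (-2 * Real.pi * T / N) * Real.exp (2 * Real.pi) := by
      rw [← Real.exp_add]; congr 1; rw [hT]; field_simp; ring
    rw [h1]
    apply mul_lt_mul_of_pos_left _ (Real.exp_pos _)
    linarith
  · -- hcore
    intro x y hx hy1 hy2
    have hx2 : x ^ 2 ≤ 4 := by
      have := abs_le.mp hx
      have h := sq_le_sq' this.1 this.2
      linarith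
    have hypos : 0 < y := lt_of_lt_of_le hmpos hy1
    have e : sH * (1 / 4) = Y - m / 2 := by rw [hsH]; ring
    rw [e]
    have h1 : y * Y ≥ 4 + y ^ 2 := by
      have h2 : y * Y = y * (4 / m) + y * (T + 2) := by rw [hY]; ring
      have h3 : 4 ≤ y * (4 / m) := by
        have : m * (4 / m) = 4 := by field_simp
        have : m * (4 / m) ≤ y * (4 / m) := mul_le_mul_of_nonneg_right hy1 h4m.le
        linarith
      have h4 : y ^ 2 ≤ y * (T + 2) := by
        rw [sq]; exact mul_le_mul_of_nonneg_left (by linarith) hypos.le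
      linarith
    have h5 : m * Y ≤ y * Y := mul_le_mul_of_nonneg_right hy1 hYpos.le
    have h6 : (Y - m / 2) ^ 2 - x ^ 2 - (y - Y) ^ 2 =
        2 * (y * Y) - m * Y + m ^ 2 / 4 - x ^ 2 - y ^ 2 := by ring
    have h7 := sq_nonneg m
    linarith
  · -- hT₂b
    rw [hsHr₂]
    have h1 : Y - (Y - m / 4 - ε * m) = m / 4 + ε * m := by ring
    rw [h1, div_le_iff₀ (by positivity)]
    have h2 : 0 < ε * m := mul_pos hεpos hmpos
    have h3 : 2 * Y * (m / 4) ≤ 2 * Y * (m / 4 + ε * m) :=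
      mul_le_mul_of_nonneg_left (by linarith) (by positivity)
    have h4 : 2 * Y * (m / 4) = Y * m / 2 := by ring
    linarith
  · -- hρ1
    rw [hsHr₂]
    have h1 : 4 * ρ * (Y + (Y - m / 4 - ε * m)) ≤ 4 * ρ * (2 * Y) := by
      apply mul_le_mul_of_nonneg_left _ (by positivity)
      have := mul_pos hεpos hmpos
      linarith
    have h2 : ρ * (8 * Y) ≤ sH * ((1 + 2 * ε) / 4 - (1 + ε) / 4) := by
      rw [← le_div_iff₀ (by positivity)]; exact hρ2
    linarith
  · -- hδ2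
    have h2 : ρ * (32 * (2 * Y)) ≤ 1 := by
      rw [← le_div_iff₀ (by positivity)]; exact hρ3
    linarith
  · -- hδ3
    have h2 : ρ * (8 * Real.pi * (2 * Y)) ≤
        Real.log (((1 + 2 * ε) / 4) / ((1 + ε) / 4)) := by
      rw [← le_div_iff₀ (by positivity)]; exact hρ4
    have e : 1 / (2 * Real.pi) * Real.log (((1 + 2 * ε) / 4) / ((1 + ε) / 4)) =
        Real.log (((1 + 2 * ε) / 4) / ((1 + ε) / 4)) / (2 * Real.pi) := by ring
    rw [e, le_div_iff₀ (by positivity)]
    linarith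

end Fermat.Agent.MW
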