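/-
MW / [ARCH]-GEOM (helper4), layer 17: the atlas of the three charts.
-/
import Mathlib
import Fermat.Agent.MW.GEOM_helper4_Cover
import Fermat.Agent.MW.GEOM_helper4_Params
import Fermat.Agent.MW.GEOM_helper4_EllB

set_option autoImplicit false

namespace Fermat.Agent.MW

open UpperHalfPlane ModularGroup Matrix CongruenceSubgroup Metric Function.Periodic
open scoped MatrixGroups

variable {N : ℕ} {X : Type*}

/-- the star graph on the three charts with centre `H`. -/
def chartGraph : SimpleGraph ChartIdx where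
  Adj α β := (α = ChartIdx.H ∧ β ≠ ChartIdx.H) ∨ (α ≠ ChartIdx.H ∧ β = ChartIdx.H)
  symm := ⟨by
    intro α β h
    rcases h with ⟨h1, h2⟩ | ⟨h1, h2⟩
    · exact Or.inr ⟨h2, h1⟩
    · exact Or.inl ⟨h2, h1⟩⟩
  loopless := ⟨by
    intro α h
    rcases h with ⟨h1, h2⟩ | ⟨h1, h2⟩
    · exact h2 h1
    · exact h1 h2⟩

theorem chartGraph_connected : chartGraph.Connected := by
  have hreach : ∀ α : ChartIdx, chartGraph.Reachable ChartIdx.H α := by
    intro α
    by_cases h : α = ChartIdx.H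
    · rw [h]
    · exact SimpleGraph.Adj.reachable (Or.inl ⟨rfl, h⟩)
  rw [SimpleGraph.connected_iff]
  exact ⟨fun α β => (hreach α).symm.trans (hreach β), ⟨ChartIdx.H⟩⟩

variable (U : UnifData N X) (G : GeomSetup N) [NeZero N]

theorem S_smul_mem_DH_core {τ' : ℍ} (h1 : |τ'.re| ≤ 1 / 2) (h2 : G.T ≤ τ'.im)
    (h3 : τ'.im ≤ G.T + 1) : S • τ' ∈ DH G.toChartParams G.r₀ := by
  have hT := G.hT
  have hN : (0 : ℝ) ≤ (N : ℝ) := Nat.cast_nonneg N
  have hN1 : (1 : ℝ) ≤ (N : ℝ) := by
    exact_mod_cast Nat.pos_of_ne_zero (NeZero.ne N)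
  obtain ⟨b1, b2, b3⟩ := S_smul_bounds (B := (N : ℝ)) (L := G.T + 1) (by linarith)
    (by linarith) h3
  apply G.mem_DH_core b1 _ (by linarith)
  refine le_trans ?_ b2
  have hpos : 0 < 2 * ((N : ℝ) ^ 2 + (G.T + 1) ^ 2) := by positivity
  rw [le_div_iff₀ hpos]; exact G.hm'

/-- the atlas. -/
noncomputable def geomAtlas (hN : N.Prime) : ArchAtlas X ChartIdx where
  A := chartA U G.toChartParams
  pt := chartPt U G.toChartParams
  e := chartE G.toChartParams
  r₀ := G.r₀
  r₁ := G.r₁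
  r₂ := G.r₂
  hr₀ := G.hr₀
  hr₀₁ := G.hr₀₁
  hr₁₂ := G.hr₁₂
  fib_finite := by
    intro α Q
    cases α
    · exact fibH_finite U G.toChartParams Q
    · rw [infX_A, infX_pt]; exact (infX U G).fib_finite Q
    · rw [zeroX_A, zeroX_pt]; exact (zeroX U G).fib_finite Q
  dense := by
    intro α T hT
    cases α
    · exact dense_H U G.toChartParams T hT
    · rw [infX_A]; exact (infX U G).dense G.hr₁ G.hr₁₂.le T hT
    · rw [zeroX_A]; exact (zeroX U G).dense G.hr₁ G.hr₁₂.le T hT
  cover := cover_all U G hN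
  adj := chartGraph
  conn := chartGraph_connected
  overlap := by
    have hr₀₂ : G.r₀ ≤ G.r₂ := (G.hr₀₁.trans G.hr₁₂).le
    have hinf := (infX U G).overlap_infinite G.toChartParams (r₀ := G.r₀) (T := G.T) hr₀₂ G.hT
      (fun τ' h => G.infC_norm_param_le_r₀ h)
      (fun τ' h1 h2 h3 => by
        show (1 : SL(2, ℤ)) • τ' ∈ _
        rw [one_smul]
        exact G.mem_DH_core (by linarith) (by linarith [G.m_le_half, G.hT]) h3)
    have hzero := (zeroX U G).overlap_infinite G.toChartParams (r₀ := G.r₀) (T := G.T) hr₀₂ G.hT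
      (fun τ' h => G.zeroC_norm_param_le_r₀ h)
      (fun τ' h1 h2 h3 => S_smul_mem_DH_core G h1 h2 h3)
    rw [← infX_A, ← infX_pt] at hinf
    rw [← zeroX_A, ← zeroX_pt] at hzero
    intro α β hadj
    rcases hadj with ⟨h1, h2⟩ | ⟨h1, h2⟩
    · subst h1
      cases β
      · exact absurd rfl h2
      · exact hinf
      · exact hzero
    · subst h2
      cases α
      · exact absurd rfl h1
      · refine hinf.mono ?_
        rintro Q ⟨a, b⟩; exact ⟨b, a⟩
      · refine hzero.mono ?_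
        rintro Q ⟨a, b⟩; exact ⟨b, a⟩

end Fermat.Agent.MW
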