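/-
MW / [ARCH]-GEOM (helper4), layer 18: the Green function `γ` on `X` and the estimate `hγ` in the
three charts.
-/
import Mathlib
import Fermat.Agent.MW.GEOM_helper4_Atlas

set_option autoImplicit false

namespace Fermat.Agent.MW

open UpperHalfPlane ModularGroup Matrix CongruenceSubgroup Metric Function.Periodic
open scoped MatrixGroups

variable {N : ℕ} {X : Type*} (U : UnifData N X) (G : GeomSetup N) [NeZero N]

/-- the Green function on `X`. -/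
noncomputable def geomGamma (Q Q' : X) : ℝ :=
  max (gamH U G.ρ G.T₂ Q Q') (max ((infX U G).gam Q Q') ((zeroX U G).gam Q Q'))

theorem geomGamma_symm (Q Q' : X) : geomGamma U G Q Q' = geomGamma U G Q' Q := by
  unfold geomGamma
  rw [gamH_symm, (infX U G).gam_symm, (zeroX U G).gam_symm]

theorem geomGamma_nonneg (Q Q' : X) : 0 ≤ geomGamma U G Q Q' :=
  le_max_of_le_left (gamH_nonneg U _ _ Q Q')

/-- the constant of `hγ`. -/
noncomputable def geomLγ : ℝ :=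
  (1 / 2) * ((movers G.toChartParams).card * cHH G.toChartParams G.ρ) +
    (infX U G).cHC G.toChartParams G.ρ G.T₂ + (zeroX U G).cHC G.toChartParams G.ρ G.T₂ +
    (infX U G).toCuspChart.cCH G.ρ G.T₂ + (zeroX U G).toCuspChart.cCH G.ρ G.T₂

theorem geomLγ_parts :
    0 ≤ (1 / 2) * (((movers G.toChartParams).card : ℝ) * cHH G.toChartParams G.ρ) ∧
    0 ≤ (infX U G).cHC G.toChartParams G.ρ G.T₂ ∧
    0 ≤ (zeroX U G).cHC G.toChartParams G.ρ G.T₂ ∧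
    0 ≤ (infX U G).toCuspChart.cCH G.ρ G.T₂ ∧ 0 ≤ (zeroX U G).toCuspChart.cCH G.ρ G.T₂ := by
  refine ⟨?_, XCusp.cHC_nonneg _ _ _ _, XCusp.cHC_nonneg _ _ _ _, abs_nonneg _, abs_nonneg _⟩
  have := cHH_nonneg G.toChartParams G.ρ
  positivity

theorem infX_ne (hN2 : 2 ≤ N) (g : Gamma0 N) :
    ((zeroX U G).c.σ⁻¹ * (g : SL(2, ℤ)) * (infX U G).c.σ) 1 0 ≠ 0 := by
  show (S⁻¹ * (g : SL(2, ℤ)) * 1) 1 0 ≠ 0
  rw [mul_one]
  exact S_inv_mul_c_ne_zero hN2 g.2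

theorem zeroX_ne (hN2 : 2 ≤ N) (g : Gamma0 N) :
    ((infX U G).c.σ⁻¹ * (g : SL(2, ℤ)) * (zeroX U G).c.σ) 1 0 ≠ 0 := by
  show ((1 : SL(2, ℤ))⁻¹ * (g : SL(2, ℤ)) * S) 1 0 ≠ 0
  rw [inv_one, one_mul]
  exact mul_S_c_ne_zero hN2 g.2

/-- `hγ` in the `H`-chart. -/
theorem geomGamma_H {z : ℂ} (hz : G.toChartParams.lift ChartIdx.H z ∈ U.adm) (hz1 : ‖z‖ ≤ G.r₁)
    (Q : X) (hQ : Q ≠ U.pt (G.toChartParams.lift ChartIdx.H z)) {F : Finset ℂ}
    (hF : IsFibH U G.toChartParams Q F) :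
    |geomGamma U G Q (U.pt (G.toChartParams.lift ChartIdx.H z)) + sumH G.toChartParams F z| ≤
      geomLγ U G := by
  obtain ⟨p1, p2, p3, p4, p5⟩ := geomLγ_parts U G
  have h1 := abs_gamH_add_sumH_le U G.toChartParams G.hρ G.hρ' G.hr₂ G.hρ1 G.hT₂a G.hT₂b hz hz1 Q hF
  have h2 := (infX U G).gam_add_sumH_le G.toChartParams G.hρ G.hρ' G.hr₂ G.hr₂ G.hρ1 G.hT₂a
    G.hT₂b hz hz1 Q hQ hF
  have h3 := (zeroX U G).gam_add_sumH_le G.toChartParams G.hρ G.hρ' G.hr₂ G.hr₂ G.hρ1 G.hT₂a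
    G.hT₂b hz hz1 Q hQ hF
  have h1' := abs_le.mp h1
  unfold geomGamma geomLγ
  rw [abs_le]
  constructor
  · have := le_max_left (gamH U G.ρ G.T₂ Q (U.pt (G.toChartParams.lift ChartIdx.H z)))
      (max ((infX U G).gam Q (U.pt (G.toChartParams.lift ChartIdx.H z)))
        ((zeroX U G).gam Q (U.pt (G.toChartParams.lift ChartIdx.H z))))
    linarith [h1'.1]
  · rw [← max_add_add_right, ← max_add_add_right]
    apply max_le
    · linarith [h1'.2]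
    · apply max_le <;> linarith

omit [NeZero N] in
/-- `hγ` in a cusp chart, in generic form. -/
theorem geomGamma_cusp_aux (K K' : XCusp U) (hσ : K.c.σ = 1 ∨ K.c.σ = S) (hr₂ : K.r₂ = G.r₂)
    (hxx : K.x ≠ K'.x)
    (hne : ∀ g : Gamma0 N, (K'.c.σ⁻¹ * (g : SL(2, ℤ)) * K.c.σ) 1 0 ≠ 0)
    {z : ℂ} (hz : z ∈ K.A) (hz1 : ‖z‖ ≤ G.r₁) (Q : X) :
    |max (gamH U G.ρ G.T₂ Q (K.pt z)) (max (K.gam Q (K.pt z)) (K'.gam Q (K.pt z))) +
      K.cuspSum Q z| ≤ K.toCuspChart.cCH G.ρ G.T₂ := by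
  have hKr₂ : K.r₂ ≤ 1 / 2 := by rw [hr₂]; exact G.hr₂
  have hz2 : ‖z‖ ≤ K.r₂ := by rw [hr₂]; exact hz1.trans G.hr₁₂.le
  have h1 := K.gamH_add_cuspSum_le (r₁ := G.r₁) (ρ := G.ρ) (T₂ := G.T₂) hσ hKr₂ G.hr₁
    (by rw [hr₂]; exact G.hr₁₂) G.hρ G.hρ' G.hδ2 (by rw [hr₂]; exact G.hδ3) hz hz1 Q
  have h2 := K.gam_add_cuspSum hKr₂ Q hz hz2
  have h3 : K'.gam Q (K.pt z) = 0 := by
    unfold XCusp.gam
    rw [K.paramAt_other K' hxx hne hz hz2]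
    cases K'.paramAt Q <;> rfl
  have h4 := K.cuspSum_nonpos hKr₂ Q hz2
  have h5 : 0 ≤ K.toCuspChart.cCH G.ρ G.T₂ := abs_nonneg _
  rw [h3, abs_le]
  constructor
  · have := le_max_right (gamH U G.ρ G.T₂ Q (K.pt z)) (max (K.gam Q (K.pt z)) 0)
    have := le_max_left (K.gam Q (K.pt z)) 0
    linarith
  · rw [← max_add_add_right, ← max_add_add_right]
    apply max_le
    · exact h1
    · apply max_le <;> linarith

end Fermat.Agent.MW
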