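/-
MW / [ARCH]-GEOM (helper4), final layer: **the geometry package** `exists_geomPkg`.
-/
import Mathlib
import Fermat.Agent.MW.GEOM_helper4_Gam

set_option autoImplicit false

namespace Fermat.Agent.MW

open UpperHalfPlane ModularGroup Matrix CongruenceSubgroup Metric Function.Periodic
open scoped MatrixGroups

variable {N : ℕ} {X : Type*} (U : UnifData N X) (G : GeomSetup N) [NeZero N]

omit [NeZero N] in
theorem chartE_inf_eq_one {z' : ℂ} (h : ‖z'‖ ≤ G.r₂) :
    chartE G.toChartParams ChartIdx.inf z' = 1 := by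
  unfold chartE
  by_cases h0 : z' = 0
  · simp [h0]
  · simp only [h0, if_false]
    rw [← G.infC_lift]
    exact G.infC.stabMult_lift h0 h

theorem chartE_zero_eq_one {z' : ℂ} (h : ‖z'‖ ≤ G.r₂) :
    chartE G.toChartParams ChartIdx.zero z' = 1 := by
  unfold chartE
  by_cases h0 : z' = 0
  · simp [h0]
  · simp only [h0, if_false]
    rw [← G.zeroC_lift]
    exact G.zeroC.stabMult_lift h0 h

variable (hN : N.Prime)

theorem isFibH_fib (Q : X) :
    IsFibH U G.toChartParams Q ((geomAtlas U G hN).fib ChartIdx.H Q) :=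
  fun _ => (geomAtlas U G hN).mem_fib

theorem locSum_H (Q : X) (z : ℂ) :
    (geomAtlas U G hN).locSum ChartIdx.H Q z =
      sumH G.toChartParams ((geomAtlas U G hN).fib ChartIdx.H Q) z := rfl

theorem locSum_inf (Q : X) (z : ℂ) :
    (geomAtlas U G hN).locSum ChartIdx.inf Q z = (infX U G).cuspSum Q z := by
  unfold ArchAtlas.locSum
  apply (infX U G).sum_fib_eq Q z _ _ _ (fun z' h => chartE_inf_eq_one G h)
  intro z'
  rw [(geomAtlas U G hN).mem_fib]
  show (z' ∈ chartA U G.toChartParams ChartIdx.inf ∧ chartPt U G.toChartParams ChartIdx.inf z' = Q ∧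
    ‖z'‖ ≤ G.r₂) ↔ _
  rw [infX_A, infX_pt]; rfl

theorem locSum_zero (Q : X) (z : ℂ) :
    (geomAtlas U G hN).locSum ChartIdx.zero Q z = (zeroX U G).cuspSum Q z := by
  unfold ArchAtlas.locSum
  apply (zeroX U G).sum_fib_eq Q z _ _ _ (fun z' h => chartE_zero_eq_one G h)
  intro z'
  rw [(geomAtlas U G hN).mem_fib]
  rfl

/-- `hγ` for the atlas. -/
theorem geom_hγ (α : ChartIdx) {z : ℂ} (hz : z ∈ (geomAtlas U G hN).A α)
    (hz1 : ‖z‖ ≤ (geomAtlas U G hN).r₁) (Q : X) (hQ : Q ≠ (geomAtlas U G hN).pt α z) :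
    |geomGamma U G Q ((geomAtlas U G hN).pt α z) + (geomAtlas U G hN).locSum α Q z| ≤
      geomLγ U G := by
  obtain ⟨p1, p2, p3, p4, p5⟩ := geomLγ_parts U G
  have hN2 : 2 ≤ N := hN.two_le
  cases α
  · rw [locSum_H]
    exact geomGamma_H U G hz hz1 Q hQ (isFibH_fib U G hN Q)
  · rw [locSum_inf]
    have hzA : z ∈ (infX U G).A := by rw [← infX_A]; exact hz
    have e : (geomAtlas U G hN).pt ChartIdx.inf z = (infX U G).pt z := by
      show chartPt U G.toChartParams ChartIdx.inf z = _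
      rw [infX_pt]
    rw [e]
    have h := geomGamma_cusp_aux U G (infX U G) (zeroX U G) (Or.inl rfl) rfl U.cInf_ne_cZero
      (infX_ne U G hN2) hzA hz1 Q
    unfold geomGamma geomLγ
    exact h.trans (by linarith)
  · rw [locSum_zero]
    have hzA : z ∈ (zeroX U G).A := hz
    have e : (geomAtlas U G hN).pt ChartIdx.zero z = (zeroX U G).pt z := rfl
    rw [e]
    have h := geomGamma_cusp_aux U G (zeroX U G) (infX U G) (Or.inr rfl) rfl U.cInf_ne_cZero.symm
      (zeroX_ne U G hN2) hzA hz1 Q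
    unfold geomGamma geomLγ
    rw [max_comm ((infX U G).gam Q ((zeroX U G).pt z))]
    exact h.trans (by linarith)

/-- the constant of `hϱ`. -/
noncomputable def geomLϱ : ℝ :=
  (|Real.log (G.Y - G.sH * G.r₂)| + |Real.log G.T₂| + |Real.log G.sH| +
      (1 / 2) * ((movers G.toChartParams).card * cHH G.toChartParams G.ρ)) +
    G.infC.cRho G.T₂ + G.zeroC.cRho G.T₂

omit [NeZero N] in
theorem cRho_nonneg (C : CuspChart N) {T₂ : ℝ} (hT₂ : 1 ≤ T₂) : 0 ≤ C.cRho T₂ := by
  unfold CuspChart.cRho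
  have := Real.log_nonneg hT₂
  have := Real.pi_pos
  positivity

theorem geomLϱ_parts :
    0 ≤ (|Real.log (G.Y - G.sH * G.r₂)| + |Real.log G.T₂| + |Real.log G.sH| +
      (1 / 2) * (((movers G.toChartParams).card : ℝ) * cHH G.toChartParams G.ρ)) ∧
    0 ≤ G.infC.cRho G.T₂ ∧ 0 ≤ G.zeroC.cRho G.T₂ := by
  refine ⟨?_, cRho_nonneg _ G.hT₂, cRho_nonneg _ G.hT₂⟩
  have := cHH_nonneg G.toChartParams G.ρ
  positivity

omit [NeZero N] in
theorem cuspSum_self {K : XCusp U} {z : ℂ} (hz : z ∈ K.A) (h2 : ‖z‖ ≤ K.r₂) :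
    K.cuspSum (K.pt z) z = 0 := by
  unfold XCusp.cuspSum
  rw [K.paramAt_pt hz h2]
  simp

/-- `hϱ` for the atlas. -/
theorem geom_hϱ (α : ChartIdx) {z : ℂ} (hz : z ∈ (geomAtlas U G hN).A α)
    (hz1 : ‖z‖ ≤ (geomAtlas U G hN).r₁) (hnc : ¬ α.IsCusp z) :
    |rhoFn N G.ρ G.T₂ (G.toChartParams.lift α z) - Real.log (G.toChartParams.deriv α z) +
      (geomAtlas U G hN).locSum α ((geomAtlas U G hN).pt α z) z| ≤ geomLϱ G := by
  obtain ⟨p1, p2, p3⟩ := geomLϱ_parts G
  have hN2 : 2 ≤ N := hN.two_le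
  have hz2 : ‖z‖ ≤ G.r₂ := hz1.trans G.hr₁₂.le
  cases α
  · rw [locSum_H]
    have h := abs_rho_H_le U G.toChartParams G.hρ G.hρ' G.hr₂ G.hρ1 G.hT₂a G.hT₂b hz hz1
      (isFibH_fib U G hN _)
    unfold geomLϱ
    exact h.trans (by linarith)
  · have hz0 : z ≠ 0 := hnc
    have hzA : z ∈ (infX U G).A := by rw [← infX_A]; exact hz
    have e : (geomAtlas U G hN).pt ChartIdx.inf z = (infX U G).pt z := by
      show chartPt U G.toChartParams ChartIdx.inf z = _
      rw [infX_pt]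
    rw [locSum_inf, e, cuspSum_self U hzA hz2, add_zero, ← G.infC_lift]
    have h := G.infC.abs_rho_cusp_le (r₁ := G.r₁) (ρ := G.ρ) (T₂ := G.T₂) G.hT₂ G.hr₁ G.hr₁₂ G.hρ
      G.hρ' G.hδ2 G.hδ3 (fun τ' hτ' => sigmaFn_inf hN2 hτ') hz0 hz1
    have e1 : (G.infC.lift z).im = (G.infC.tau z).im := by
      show ((1 : SL(2, ℤ)) • G.infC.tau z).im = _
      rw [one_smul]
    have e2 : G.toChartParams.deriv ChartIdx.inf z =
        ((G.infC.c.h : ℕ) : ℝ) / (2 * Real.pi * ‖z‖) := by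
      show 1 / (2 * Real.pi * ‖z‖) = (((1 : ℕ) : ℝ)) / (2 * Real.pi * ‖z‖)
      rw [Nat.cast_one]
    unfold rhoFn
    rw [e1, e2]
    unfold geomLϱ
    exact h.trans (by linarith)
  · have hz0 : z ≠ 0 := hnc
    have hzA : z ∈ (zeroX U G).A := hz
    have e : (geomAtlas U G hN).pt ChartIdx.zero z = (zeroX U G).pt z := rfl
    rw [locSum_zero, e, cuspSum_self U hzA hz2, add_zero, ← G.zeroC_lift]
    have h := G.zeroC.abs_rho_cusp_le (r₁ := G.r₁) (ρ := G.ρ) (T₂ := G.T₂) G.hT₂ G.hr₁ G.hr₁₂ G.hρ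
      G.hρ' G.hδ2 G.hδ3 (fun τ' hτ' => sigmaFn_zero hN2 G.hT₂ hτ') hz0 hz1
    set τ' : ℍ := G.zeroC.tau z with hτ'
    have hD : 0 < τ'.re ^ 2 + τ'.im ^ 2 := by
      have := τ'.im_pos; positivity
    have e1 : (G.zeroC.lift z).im = τ'.im / (τ'.re ^ 2 + τ'.im ^ 2) := by
      show (S • τ').im = _
      exact S_smul_im τ'
    have e3 : ‖invQParam (N : ℝ) ((G.sZero : ℂ) * z)‖ ^ 2 = τ'.re ^ 2 + τ'.im ^ 2 := by
      have := G.zeroC.coe_tau hz0 hz2
      have e4 : invQParam (N : ℝ) ((G.sZero : ℂ) * z) = (τ' : ℂ) := this.symm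
      rw [e4, ← Complex.normSq_eq_norm_sq, Complex.normSq_apply]
      show τ'.re * τ'.re + τ'.im * τ'.im = _
      ring
    have hzpos : 0 < ‖z‖ := norm_pos_iff.mpr hz0
    have hNpos : (0 : ℝ) < N := by exact_mod_cast Nat.pos_of_ne_zero (NeZero.ne N)
    have hpi := Real.pi_pos
    have e2 : Real.log (G.toChartParams.deriv ChartIdx.zero z) =
        Real.log (((G.zeroC.c.h : ℕ) : ℝ) / (2 * Real.pi * ‖z‖)) -
          Real.log (τ'.re ^ 2 + τ'.im ^ 2) := by
      show Real.log ((N : ℝ) / (2 * Real.pi * ‖z‖ *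
        ‖invQParam (N : ℝ) ((G.sZero : ℂ) * z)‖ ^ 2)) = Real.log ((N : ℝ) / (2 * Real.pi * ‖z‖)) - _
      rw [e3, ← Real.log_div (by positivity) hD.ne']
      congr 1
      field_simp
    unfold rhoFn
    rw [e1, e2, Real.log_div τ'.im_pos.ne' hD.ne']
    have e5 : Real.log τ'.im - Real.log (τ'.re ^ 2 + τ'.im ^ 2) +
        sigmaFn N G.ρ G.T₂ (G.zeroC.lift z) -
        (Real.log (((G.zeroC.c.h : ℕ) : ℝ) / (2 * Real.pi * ‖z‖)) -
          Real.log (τ'.re ^ 2 + τ'.im ^ 2)) =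
        Real.log τ'.im + sigmaFn N G.ρ G.T₂ (G.zeroC.lift z) -
          Real.log (((G.zeroC.c.h : ℕ) : ℝ) / (2 * Real.pi * ‖z‖)) := by ring
    rw [e5]
    unfold geomLϱ
    exact h.trans (by linarith)

/-- uniform bound for the fibres of the atlas. -/
theorem geom_card_fib_le (α : ChartIdx) (Q : X) :
    ((geomAtlas U G hN).fib α Q).card ≤ max (movers G.toChartParams).card 1 := by
  classical
  cases α
  · refine le_trans ?_ (le_max_left _ _)
    by_cases hQ : ∃ τQ ∈ U.adm, U.pt τQ = Q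
    · obtain ⟨τQ, hτQ, rfl⟩ := hQ
      have hsub : (geomAtlas U G hN).fib ChartIdx.H (U.pt τQ) ⊆
          (into G.toChartParams τQ).image (fun g : Gamma0 N => psiH G.toChartParams (g • τQ)) := by
        intro z hz
        obtain ⟨h1, h2, h3⟩ := (isFibH_fib U G hN _ z).mp hz
        obtain ⟨g, hg⟩ := exists_smul_eq_of_pt_eq U hτQ h1 h2.symm
        rw [Finset.mem_image]
        refine ⟨g, ?_, ?_⟩
        · rw [mem_into, hg]; exact liftH_mem_DH G.toChartParams le_rfl h3
        · show psiH G.toChartParams (g • τQ) = z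
          rw [hg, psiH_liftH G.toChartParams h3]
      exact (Finset.card_le_card hsub).trans (Finset.card_image_le.trans
        (card_into_le G.toChartParams τQ))
    · have : (geomAtlas U G hN).fib ChartIdx.H Q = ∅ := by
        rw [Finset.eq_empty_iff_forall_notMem]
        intro z hz
        obtain ⟨h1, h2, -⟩ := (isFibH_fib U G hN _ z).mp hz
        exact hQ ⟨_, h1, h2⟩
      rw [this]; simp
  · refine le_trans ?_ (le_max_right _ _)
    rw [Finset.card_le_one]
    intro a ha b hb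
    rw [(geomAtlas U G hN).mem_fib] at ha hb
    have hA : (geomAtlas U G hN).A ChartIdx.inf = (infX U G).A := infX_A U G
    have hpt : (geomAtlas U G hN).pt ChartIdx.inf = (infX U G).pt := infX_pt U G
    rw [hA, hpt] at ha hb
    exact (infX U G).inj ha.1 hb.1 ha.2.2 hb.2.2 (ha.2.1.trans hb.2.1.symm)
  · refine le_trans ?_ (le_max_right _ _)
    rw [Finset.card_le_one]
    intro a ha b hb
    rw [(geomAtlas U G hN).mem_fib] at ha hb
    exact (zeroX U G).inj ha.1 hb.1 ha.2.2 hb.2.2 (ha.2.1.trans hb.2.1.symm)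

omit [NeZero N] in
/-- **the geometry package**: chart parameters, a `GeomPkg` for them, and a uniform bound for the
fibres of the atlas. -/
theorem exists_geomPkg (N : ℕ) (hN : N.Prime) {X : Type*} (U : UnifData N X) :
    ∃ (P : ChartParams N) (G : GeomPkg U P) (n : ℕ), ∀ α Q, (G.atlas.fib α Q).card ≤ n := by
  have : NeZero N := ⟨hN.ne_zero⟩
  obtain ⟨G⟩ := exists_geomSetup N hN.two_le
  obtain ⟨Lell, hLell0, hLell⟩ := exists_ell_bound G.toChartParams U G.hr₂
  obtain ⟨p1, p2, p3, p4, p5⟩ := geomLγ_parts U G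
  obtain ⟨q1, q2, q3⟩ := geomLϱ_parts G
  have hLγ : 0 ≤ geomLγ U G := by unfold geomLγ; linarith
  have hLϱ : 0 ≤ geomLϱ G := by unfold geomLϱ; linarith
  refine ⟨G.toChartParams,
    { atlas := geomAtlas U G hN
      atlas_A := rfl
      atlas_pt := rfl
      atlas_e := rfl
      atlas_r₀ := rfl
      atlas_r₁ := rfl
      atlas_r₂ := rfl
      γ := geomGamma U G
      γ_symm := geomGamma_symm U G
      γ_nonneg := geomGamma_nonneg U G
      L := geomLγ U G + geomLϱ G + Lell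
      hL := by linarith
      hγ := fun α z hz hz1 Q hQ => (geom_hγ U G hN α hz hz1 Q hQ).trans (by linarith)
      ϱ := rhoFn N G.ρ G.T₂
      ϱ_smul := fun g hg τ => rhoFn_smul G.ρ G.T₂ g hg τ
      hϱ := fun α z hz hz1 hnc _ => (geom_hϱ U G hN α hz hz1 hnc).trans (by linarith)
      ell := ellFin G.toChartParams
      mem_ell := fun z => mem_ellFin G.toChartParams
      hell := ?_
      stabMult_cusp := ?_
      inj_cusp := ?_ }, max (movers G.toChartParams).card 1, geom_card_fib_le U G hN⟩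
  · intro z hz hz1 hst
    have h := hLell z hz hz1 hst _ (isFibH_fib U G hN _)
    rw [locSum_H]
    exact h.trans (by linarith)
  · intro α hα z hz0 hz2
    cases α
    · exact absurd rfl hα
    · rw [← G.infC_lift]; exact G.infC.stabMult_lift hz0 hz2
    · rw [← G.zeroC_lift]; exact G.zeroC.stabMult_lift hz0 hz2
  · intro α hα z hz z' hz' h2 h2' hpt
    cases α
    · exact absurd rfl hα
    · have hA : (geomAtlas U G hN).A ChartIdx.inf = (infX U G).A := infX_A U G
      have hp : (geomAtlas U G hN).pt ChartIdx.inf = (infX U G).pt := infX_pt U G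
      rw [hA] at hz hz'
      rw [hp] at hpt
      exact (infX U G).inj hz hz' h2 h2' hpt
    · exact (zeroX U G).inj hz hz' h2 h2' hpt

end Fermat.Agent.MW
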