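/-
MW / [ARCH] (helper9): the FINAL theorem of the archimedean package: for every differential datum
`𝔡` and every exceptional set `Zp` not containing the cusp `∞`, containing the support of `K0` and
the archimedean bad points, there is a local package `LocalPkgAt N 𝔡 Zp none`.
-/
import Mathlib
import Fermat.Agent.MW.ARCH_helper9_Pkg
import Fermat.Agent.MW.ARCH_helper4_Sup
import Fermat.Agent.MW.GEOM_helper4_Main

set_option autoImplicit false
set_option linter.unusedSectionVars false

open AlgebraicCurve CongruenceSubgroup MatrixGroups ModularGroup ModularCurve UpperHalfPlane Metric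

namespace Fermat.Agent.MW

open Fermat.Agent.FF Fermat.Agent.X0N Fermat.Agent.JA

attribute [local instance] algOmC isScalarTower_algOmC

variable {N : ℕ} [NeZero N]

/-- the cusp `∞` is not an archimedean bad point. -/
theorem not_archBad_infN : ¬ ArchBad N (infN N) := fun h => h.1 rfl

/-- **the archimedean local package exists.** -/
theorem nonempty_localPkgAt_none (hN : N.Prime) (𝔡 : DiffDatum N) (Zp : Finset (PtN N))
    (hinf : infN N ∉ Zp) (hK : ∀ P ∈ 𝔡.K0.support, P ∈ Zp)
    (hbad : ∀ P, ArchBad N P → P ∈ Zp) : Nonempty (LocalPkgAt N 𝔡 Zp none) := by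
  obtain ⟨P, G, n, hn⟩ := exists_geomPkg N hN (unifN N hN)
  have h : ZpOK 𝔡 Zp := ⟨hinf, hK, hbad⟩
  exact nonempty_localPkgAt_of_geom hN G h (arch_sup hN G n hn h)

end Fermat.Agent.MW
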