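import Mathlib
import Fermat.Agent.MW.DIFF_helper8_Defs

/-!
# Project MW — [LF-ASM] part 1: a `LocalFamily` from local packages with cofinitely vanishing
constants (helper8)
-/

set_option autoImplicit false
set_option linter.unusedSectionVars false

open scoped BigOperators

noncomputable section

namespace Fermat.Agent.MW

open AlgebraicCurve ModularCurve

variable {N : ℕ} [NeZero N] {𝔡 : DiffDatum N} {Zp : Finset (PtN N)}

theorem support_finite_of_forall_notMem {f : Pl → ℝ} (T : Finset Pl) (h : ∀ v ∉ T, f v = 0) :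
    (Function.support f).Finite := by
  refine T.finite_toSet.subset ?_
  intro v hv
  by_contra hvT
  exact hv (h v hvT)

open Classical in
/-- **assembly of a `LocalFamily`**: local packages at all places whose constants vanish outside a
finite set `T` of places, with `γ_v(P,Q) = 0`, `r_v(Q) = 0` for almost all `v`, and the exact local
decomposition (`c = 0`) for almost all `v`. -/
def LocalFamily.ofCofinite (pkg : ∀ v : Pl, LocalPkgAt N 𝔡 Zp v) (T : Finset Pl)
    (hCγ : ∀ v ∉ T, (pkg v).Cγ = 0) (hCw : ∀ v ∉ T, ∀ d, (pkg v).Cw d = 0)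
    (hcω : ∀ v ∉ T, (pkg v).cω = 0) (hCω : ∀ v ∉ T, (pkg v).Cω = 0)
    (hC7 : ∀ v ∉ T, (pkg v).C7 = 0)
    (hγ : ∀ P Q : PtN N, P ≠ Q → ∃ T' : Finset Pl, ∀ v ∉ T', (pkg v).γ P Q = 0)
    (hr : ∀ Q : PtN N, Q ∉ Zp → ∃ T' : Finset Pl, ∀ v ∉ T', (pkg v).r Q = 0)
    (hweil : ∀ (d : ℕ) (f : FunN N) (D : PtN N →₀ ℤ), f ≠ 0 → IsDivOf N f D → dnorm D ≤ d →
      ∃ T' : Finset Pl, ∀ v ∉ T', ∀ Q : PtN N, (D Q = 0 ∨ Q ∉ Zp) →
        |(∑ P ∈ D.support, (D P : ℝ) * (if P = Q then (pkg v).r Q else (pkg v).γ P Q))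
          + lg v (𝔡.lcN f Q)| ≤ (pkg v).Cw d) :
    LocalFamily N 𝔡 Zp where
  pkg := pkg
  Cγ_support := support_finite_of_forall_notMem T hCγ
  Cw_support := fun d => support_finite_of_forall_notMem T fun v hv => hCw v hv d
  cω_support := support_finite_of_forall_notMem T hcω
  Cω_support := support_finite_of_forall_notMem T hCω
  C7_support := support_finite_of_forall_notMem T hC7
  γ_support := fun P Q hPQ => by
    obtain ⟨T', hT'⟩ := hγ P Q hPQ
    exact support_finite_of_forall_notMem T' hT'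
  r_support := fun Q hQ => by
    obtain ⟨T', hT'⟩ := hr Q hQ
    exact support_finite_of_forall_notMem T' hT'
  weil_global := fun d f D hf hD hd => by
    obtain ⟨T', hT'⟩ := hweil d f D hf hD hd
    refine ⟨fun v => if v ∈ T' then ((pkg v).weil d f D hf hD hd).choose else 0,
      support_finite_of_forall_notMem T' fun v hv => if_neg hv, ?_⟩
    intro v Q hQ
    by_cases hv : v ∈ T'
    · simp only [if_pos hv]
      exact ((pkg v).weil d f D hf hD hd).choose_spec Q hQ
    · simp only [if_neg hv, sub_zero]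
      exact hT' v hv Q hQ

end Fermat.Agent.MW
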