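import Mathlib
import Fermat.Agent.MW.LFASM_helper8_Cofinite

/-!
# Project MW — [LF-ASM] part 2: `LocalFamily` from the three owners (helper8)

* `GoodFamily N 𝔡 Zp`: what the owner of the primes `p ≠ N` delivers (packages + (A6));
* `LocalFamily.ofParts`: the archimedean package, the `N`-adic package and a `GoodFamily` give a
  `LocalFamily`.
-/

set_option autoImplicit false
set_option linter.unusedSectionVars false

open scoped BigOperators

noncomputable section

namespace Fermat.Agent.MW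

open AlgebraicCurve ModularCurve

variable (N : ℕ) [NeZero N]

/-- **What the owner of the primes `p ≠ N` delivers**: a local package at every such prime, with
all constants vanishing outside a finite set `T` of primes, and the three pointwise finiteness
statements of (A6). -/
structure GoodFamily (𝔡 : DiffDatum N) (Zp : Finset (PtN N)) where
  pkg : ∀ p : Nat.Primes, (p : ℕ) ≠ N → LocalPkgAt N 𝔡 Zp (some p)
  T : Finset Nat.Primes
  Cγ_eq : ∀ (p : Nat.Primes) (hp : (p : ℕ) ≠ N), p ∉ T → (pkg p hp).Cγ = 0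
  Cw_eq : ∀ (p : Nat.Primes) (hp : (p : ℕ) ≠ N), p ∉ T → ∀ d, (pkg p hp).Cw d = 0
  cω_eq : ∀ (p : Nat.Primes) (hp : (p : ℕ) ≠ N), p ∉ T → (pkg p hp).cω = 0
  Cω_eq : ∀ (p : Nat.Primes) (hp : (p : ℕ) ≠ N), p ∉ T → (pkg p hp).Cω = 0
  C7_eq : ∀ (p : Nat.Primes) (hp : (p : ℕ) ≠ N), p ∉ T → (pkg p hp).C7 = 0
  γ_eq : ∀ P Q : PtN N, P ≠ Q → ∃ T' : Finset Nat.Primes,
    ∀ (p : Nat.Primes) (hp : (p : ℕ) ≠ N), p ∉ T' → (pkg p hp).γ P Q = 0
  r_eq : ∀ Q : PtN N, Q ∉ Zp → ∃ T' : Finset Nat.Primes,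
    ∀ (p : Nat.Primes) (hp : (p : ℕ) ≠ N), p ∉ T' → (pkg p hp).r Q = 0
  weil_eq : ∀ (d : ℕ) (f : FunN N) (D : PtN N →₀ ℤ), f ≠ 0 → IsDivOf N f D → dnorm D ≤ d →
    ∃ T' : Finset Nat.Primes, ∀ (p : Nat.Primes) (hp : (p : ℕ) ≠ N), p ∉ T' →
      ∀ Q : PtN N, (D Q = 0 ∨ Q ∉ Zp) →
        |(∑ P ∈ D.support, (D P : ℝ) * (if P = Q then (pkg p hp).r Q else (pkg p hp).γ P Q))
          + lg (some p) (𝔡.lcN f Q)| ≤ (pkg p hp).Cw d

variable {N}
variable {𝔡 : DiffDatum N} {Zp : Finset (PtN N)}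

/-- the packages at all places from the three owners. -/
def pkgOfParts (hN : N.Prime) (Lnone : LocalPkgAt N 𝔡 Zp none)
    (LN : LocalPkgAt N 𝔡 Zp (some ⟨N, hN⟩)) (GF : GoodFamily N 𝔡 Zp) :
    ∀ v : Pl, LocalPkgAt N 𝔡 Zp v
  | none => Lnone
  | some p => if h : (p : ℕ) = N then
      (show (⟨N, hN⟩ : Nat.Primes) = p from Subtype.ext h.symm) ▸ LN
    else GF.pkg p h

theorem pkgOfParts_good (hN : N.Prime) (Lnone : LocalPkgAt N 𝔡 Zp none)
    (LN : LocalPkgAt N 𝔡 Zp (some ⟨N, hN⟩)) (GF : GoodFamily N 𝔡 Zp) (p : Nat.Primes)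
    (hp : (p : ℕ) ≠ N) : pkgOfParts hN Lnone LN GF (some p) = GF.pkg p hp := by
  show (if h : (p : ℕ) = N then _ else GF.pkg p h) = _
  rw [dif_neg hp]

/-- the exceptional places of the assembled family. -/
def partsT (hN : N.Prime) (T : Finset Nat.Primes) : Finset Pl := by
  classical
  exact insert none (insert (some ⟨N, hN⟩) (T.image some))

theorem exists_of_notMem_partsT (hN : N.Prime) {T : Finset Nat.Primes} {v : Pl}
    (hv : v ∉ partsT hN T) : ∃ (p : Nat.Primes) (_ : (p : ℕ) ≠ N), p ∉ T ∧ v = some p := by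
  classical
  unfold partsT at hv
  rw [Finset.mem_insert, Finset.mem_insert, Finset.mem_image] at hv
  push Not at hv
  obtain ⟨h1, h2, h3⟩ := hv
  cases v with
  | none => exact absurd rfl h1
  | some p =>
    refine ⟨p, ?_, ?_, rfl⟩
    · intro h
      apply h2
      congr 1
      exact Subtype.ext h
    · intro hpT
      exact h3 p hpT rfl

/-- **[LF-ASM]**: the archimedean package, the `N`-adic package and a `GoodFamily` assemble to a
`LocalFamily`. -/
def LocalFamily.ofParts (hN : N.Prime) (Lnone : LocalPkgAt N 𝔡 Zp none)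
    (LN : LocalPkgAt N 𝔡 Zp (some ⟨N, hN⟩)) (GF : GoodFamily N 𝔡 Zp) : LocalFamily N 𝔡 Zp :=
  LocalFamily.ofCofinite (pkgOfParts hN Lnone LN GF) (partsT hN GF.T)
    (fun v hv => by
      obtain ⟨p, hp, hpT, rfl⟩ := exists_of_notMem_partsT hN hv
      rw [pkgOfParts_good hN Lnone LN GF p hp]
      exact GF.Cγ_eq p hp hpT)
    (fun v hv d => by
      obtain ⟨p, hp, hpT, rfl⟩ := exists_of_notMem_partsT hN hv
      rw [pkgOfParts_good hN Lnone LN GF p hp]
      exact GF.Cw_eq p hp hpT d)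
    (fun v hv => by
      obtain ⟨p, hp, hpT, rfl⟩ := exists_of_notMem_partsT hN hv
      rw [pkgOfParts_good hN Lnone LN GF p hp]
      exact GF.cω_eq p hp hpT)
    (fun v hv => by
      obtain ⟨p, hp, hpT, rfl⟩ := exists_of_notMem_partsT hN hv
      rw [pkgOfParts_good hN Lnone LN GF p hp]
      exact GF.Cω_eq p hp hpT)
    (fun v hv => by
      obtain ⟨p, hp, hpT, rfl⟩ := exists_of_notMem_partsT hN hv
      rw [pkgOfParts_good hN Lnone LN GF p hp]
      exact GF.C7_eq p hp hpT)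
    (fun P Q hPQ => by
      obtain ⟨T', hT'⟩ := GF.γ_eq P Q hPQ
      refine ⟨partsT hN T', fun v hv => ?_⟩
      obtain ⟨p, hp, hpT, rfl⟩ := exists_of_notMem_partsT hN hv
      rw [pkgOfParts_good hN Lnone LN GF p hp]
      exact hT' p hp hpT)
    (fun Q hQ => by
      obtain ⟨T', hT'⟩ := GF.r_eq Q hQ
      refine ⟨partsT hN T', fun v hv => ?_⟩
      obtain ⟨p, hp, hpT, rfl⟩ := exists_of_notMem_partsT hN hv
      rw [pkgOfParts_good hN Lnone LN GF p hp]
      exact hT' p hp hpT)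
    (fun d f D hf hD hd => by
      obtain ⟨T', hT'⟩ := GF.weil_eq d f D hf hD hd
      refine ⟨partsT hN T', fun v hv => ?_⟩
      obtain ⟨p, hp, hpT, rfl⟩ := exists_of_notMem_partsT hN hv
      rw [pkgOfParts_good hN Lnone LN GF p hp]
      exact hT' p hp hpT)

end Fermat.Agent.MW
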