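import Mathlib
import Fermat.Agent.MW.MUMFORD_helper8_Bil

/-!
# Project MW — [DETFORM] part 2a: the linear algebra of the local pairing used by the
determinant inequality (helper7)

* `detPot γ r D Q` : the potential `Σ_P D(P)·(if P = Q then r Q else γ P Q)` of a divisor at a point
  (`= locPair γ r D (single Q 1)`), additive in `D`;
* `detPhi γ r E` : the quantity bounded by the determinant inequality (A5);
  `detPhi_add_single` : `Φ(E' + P₀) = Φ(E') + 2·pot_{E'}(P₀) + 2·r(P₀)`;
* `detPot_lower` : if `D ≥ E' - K0` pointwise, `deg D = 0`, `D P₀ = E' P₀`, `K0 P₀ = 0` then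
  `pot_D(P₀) ≥ pot_{E'}(P₀) - pot_{K0}(P₀) - Cγ · deg K0`.
-/

set_option autoImplicit false
set_option linter.unusedSectionVars false

open scoped BigOperators

noncomputable section

namespace Fermat.Agent.MW

section Pot

variable {X : Type*} [DecidableEq X] (γ : X → X → ℝ) (r : X → ℝ)

/-- the potential of a divisor `D` at the point `Q`:
`Σ_P D(P) · (if P = Q then r Q else γ P Q)`. -/
def detPot (D : X →₀ ℤ) (Q : X) : ℝ :=
  ∑ P ∈ D.support, (D P : ℝ) * (if P = Q then r Q else γ P Q)

theorem detPot_eq_locPair (D : X →₀ ℤ) (Q : X) :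
    detPot γ r D Q = locPair γ r D (Finsupp.single Q 1) := by
  rw [locPair_eq_sum_right, Finsupp.support_single Q one_ne_zero, Finset.sum_singleton,
    Finsupp.single_eq_same]
  simp [detPot]

theorem detPot_add (D D' : X →₀ ℤ) (Q : X) :
    detPot γ r (D + D') Q = detPot γ r D Q + detPot γ r D' Q := by
  rw [detPot_eq_locPair, detPot_eq_locPair, detPot_eq_locPair, locPair_add_left]

theorem detPot_sub (D D' : X →₀ ℤ) (Q : X) :
    detPot γ r (D - D') Q = detPot γ r D Q - detPot γ r D' Q := by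
  rw [detPot_eq_locPair, detPot_eq_locPair, detPot_eq_locPair, locPair_sub_left]

theorem detPot_single_self (Q : X) : detPot γ r (Finsupp.single Q 1) Q = r Q := by
  unfold detPot
  rw [Finsupp.support_single Q one_ne_zero, Finset.sum_singleton, Finsupp.single_eq_same]
  simp

/-- the quantity bounded by the determinant inequality. -/
def detPhi (E : X →₀ ℕ) : ℝ :=
  (∑ P ∈ E.support, ∑ Q ∈ E.support, if P = Q then 0 else (E P : ℝ) * (E Q : ℝ) * γ P Q)
    + ∑ P ∈ E.support, ((E P : ℝ) ^ 2 + (E P : ℝ)) * r P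

theorem detform_support_dofNat (E : X →₀ ℕ) : (dofNat E).support = E.support := by
  unfold dofNat
  exact Finsupp.support_mapRange_of_injective rfl E Nat.cast_injective

theorem detform_dofNat_apply (E : X →₀ ℕ) (P : X) : dofNat E P = (E P : ℤ) := by
  unfold dofNat
  rw [Finsupp.mapRange_apply]

theorem detform_dofNat_add (E E' : X →₀ ℕ) : dofNat (E + E') = dofNat E + dofNat E' := by
  ext P
  rw [Finsupp.add_apply, detform_dofNat_apply, detform_dofNat_apply, detform_dofNat_apply,
    Finsupp.add_apply]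
  push_cast
  rfl

theorem detform_dofNat_single (P : X) :
    dofNat (Finsupp.single P 1) = Finsupp.single P 1 := by
  ext Q
  rw [detform_dofNat_apply]
  by_cases h : P = Q
  · subst h; simp
  · rw [Finsupp.single_eq_of_ne (Ne.symm h), Finsupp.single_eq_of_ne (Ne.symm h)]; rfl

theorem detform_ddeg_apply (D : X →₀ ℤ) : ddeg D = ∑ P ∈ D.support, D P := by
  unfold ddeg
  rw [Finsupp.liftAddHom_apply, Finsupp.sum]
  rfl

theorem detform_ddeg_dofNat (E : X →₀ ℕ) : ddeg (dofNat E) = (ndeg E : ℤ) := by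
  rw [detform_ddeg_apply, detform_support_dofNat]
  unfold ndeg
  rw [Finsupp.sum]
  push_cast
  exact Finset.sum_congr rfl fun P _ => detform_dofNat_apply E P

theorem detPhi_eq (E : X →₀ ℕ) :
    detPhi γ r E = locPair γ r (dofNat E) (dofNat E) + ∑ P ∈ E.support, (E P : ℝ) * r P := by
  unfold detPhi locPair
  rw [detform_support_dofNat]
  have : ∀ P ∈ E.support, (∑ Q ∈ E.support,
      ((dofNat E P : ℤ) : ℝ) * ((dofNat E Q : ℤ) : ℝ) * (if P = Q then r P else γ P Q))
      = (∑ Q ∈ E.support, if P = Q then 0 else (E P : ℝ) * (E Q : ℝ) * γ P Q)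
        + (E P : ℝ) ^ 2 * r P := by
    intro P hP
    have h1 : ∀ Q ∈ E.support, ((dofNat E P : ℤ) : ℝ) * ((dofNat E Q : ℤ) : ℝ) *
        (if P = Q then r P else γ P Q)
        = (if P = Q then 0 else (E P : ℝ) * (E Q : ℝ) * γ P Q)
          + (if P = Q then (E P : ℝ) ^ 2 * r P else 0) := by
      intro Q _
      rw [detform_dofNat_apply, detform_dofNat_apply]
      by_cases h : P = Q
      · subst h
        simp only [if_true, Int.cast_natCast]
        ring
      · simp only [if_neg h, Int.cast_natCast]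
        ring
    rw [Finset.sum_congr rfl h1, Finset.sum_add_distrib, Finset.sum_ite_eq, if_pos hP]
  have h2 : ∑ P ∈ E.support, ((E P : ℝ) ^ 2 + (E P : ℝ)) * r P
      = ∑ P ∈ E.support, (E P : ℝ) ^ 2 * r P + ∑ P ∈ E.support, (E P : ℝ) * r P := by
    rw [← Finset.sum_add_distrib]
    exact Finset.sum_congr rfl fun P _ => by ring
  rw [Finset.sum_congr rfl this, Finset.sum_add_distrib, h2, add_assoc]

theorem detLin_add (E E' : X →₀ ℕ) :
    (∑ P ∈ (E + E').support, ((E + E') P : ℝ) * r P)
      = (∑ P ∈ E.support, (E P : ℝ) * r P) + ∑ P ∈ E'.support, (E' P : ℝ) * r P := by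
  have h : (E + E').sum (fun (P : X) (n : ℕ) => (n : ℝ) * r P)
      = E.sum (fun (P : X) (n : ℕ) => (n : ℝ) * r P)
        + E'.sum (fun (P : X) (n : ℕ) => (n : ℝ) * r P) :=
    Finsupp.sum_add_index' (fun P => by simp) (fun P a b => by push_cast; ring)
  simpa only [Finsupp.sum] using h

/-- adding a point: `Φ(E' + P₀) = Φ(E') + 2 (pot_{E'}(P₀) + r(P₀))`. -/
theorem detPhi_add_single (hγ : ∀ P Q, γ P Q = γ Q P) (E' : X →₀ ℕ) (P₀ : X) :
    detPhi γ r (E' + Finsupp.single P₀ 1)
      = detPhi γ r E' + 2 * detPot γ r (dofNat E') P₀ + 2 * r P₀ := by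
  rw [detPhi_eq, detPhi_eq, detLin_add, detform_dofNat_add, detform_dofNat_single,
    locPair_add_left, locPair_add_right, locPair_add_right,
    locPair_symm γ r hγ (Finsupp.single P₀ 1) (dofNat E'),
    ← detPot_eq_locPair, ← detPot_eq_locPair, detPot_single_self,
    Finsupp.support_single P₀ one_ne_zero, Finset.sum_singleton, Finsupp.single_eq_same]
  push_cast
  ring

theorem detPhi_zero : detPhi γ r (0 : X →₀ ℕ) = 0 := by
  simp [detPhi]

/-- the potential of an effective divisor at a point off its support -/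
theorem detPot_dofNat_of_eq_zero (K0 : X →₀ ℕ) (Q : X) (hQ : K0 Q = 0) :
    detPot γ r (dofNat K0) Q = ∑ Z ∈ K0.support, (K0 Z : ℝ) * γ Z Q := by
  unfold detPot
  rw [detform_support_dofNat]
  refine Finset.sum_congr rfl fun Z hZ => ?_
  have hne : Z ≠ Q := by
    rintro rfl
    exact (Finsupp.mem_support_iff.mp hZ) hQ
  rw [if_neg hne, detform_dofNat_apply]
  push_cast
  rfl

/-- lower bound for the potential of a divisor of degree `0` which is `≥ E' - K0`. -/
theorem detPot_lower {Cγ : ℝ} (hCγ : 0 ≤ Cγ) (hγl : ∀ P Q, P ≠ Q → -Cγ ≤ γ P Q)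
    (D : X →₀ ℤ) (E' K0 : X →₀ ℕ) (P₀ : X) (hD0 : ∑ P ∈ D.support, D P = 0)
    (hP₀ : D P₀ = E' P₀) (hK₀ : K0 P₀ = 0) (hge : ∀ P, (E' P : ℤ) - K0 P ≤ D P) :
    detPot γ r (dofNat E') P₀ - detPot γ r (dofNat K0) P₀ - Cγ * ndeg K0
      ≤ detPot γ r D P₀ := by
  obtain ⟨R, hR⟩ : ∃ R : X →₀ ℤ, R = D - dofNat E' + dofNat K0 := ⟨_, rfl⟩
  have hRapp : ∀ P, R P = D P - E' P + K0 P := by
    intro P
    rw [hR, Finsupp.add_apply, Finsupp.sub_apply, detform_dofNat_apply, detform_dofNat_apply]
  have hRnn : ∀ P, 0 ≤ R P := by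
    intro P
    rw [hRapp]
    have := hge P
    omega
  have hR0 : R P₀ = 0 := by
    rw [hRapp, hP₀, hK₀]
    simp
  have hD : D = dofNat E' - dofNat K0 + R := by
    rw [hR]
    abel
  have hpot : detPot γ r D P₀
      = detPot γ r (dofNat E') P₀ - detPot γ r (dofNat K0) P₀ + detPot γ r R P₀ := by
    conv_lhs => rw [hD]
    rw [detPot_add, detPot_sub]
  have hRdeg : ddeg R = -(ndeg E' : ℤ) + ndeg K0 := by
    rw [hR, map_add, map_sub, detform_ddeg_dofNat, detform_ddeg_dofNat, detform_ddeg_apply, hD0]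
    ring
  have hRsum : (∑ P ∈ R.support, (R P : ℝ)) ≤ ndeg K0 := by
    have h1 : (∑ P ∈ R.support, (R P : ℝ)) = ((ddeg R : ℤ) : ℝ) := by
      rw [detform_ddeg_apply]
      push_cast
      rfl
    rw [h1, hRdeg]
    push_cast
    have : (0 : ℝ) ≤ ndeg E' := Nat.cast_nonneg _
    linarith
  have hRpot : -(Cγ * ndeg K0) ≤ detPot γ r R P₀ := by
    unfold detPot
    have h1 : ∀ P ∈ R.support,
        (R P : ℝ) * (-Cγ) ≤ (R P : ℝ) * (if P = P₀ then r P₀ else γ P P₀) := by
      intro P hP
      have hne : P ≠ P₀ := by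
        rintro rfl
        exact (Finsupp.mem_support_iff.mp hP) hR0
      rw [if_neg hne]
      exact mul_le_mul_of_nonneg_left (hγl P P₀ hne) (by exact_mod_cast hRnn P)
    have h2 := Finset.sum_le_sum h1
    rw [← Finset.sum_mul] at h2
    have h3 : -(Cγ * ndeg K0) ≤ (∑ P ∈ R.support, (R P : ℝ)) * (-Cγ) := by nlinarith
    linarith
  rw [hpot]
  linarith

end Pot

section Coef

variable {R : Type*} [CommRing R]

/-- Laplace expansion along the column `j₀`, in "replacement" form: the cofactors of the column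
`j₀` annihilate the other columns. -/
theorem detform_adjugate_mul_col {n : ℕ} (A : Matrix (Fin n) (Fin n) R) (j₀ j : Fin n) :
    ∑ i, A.adjugate j₀ i * A i j = if j = j₀ then A.det else 0 := by
  have h := congrFun (congrFun (Matrix.adjugate_mul A) j₀) j
  rw [Matrix.mul_apply, Matrix.smul_apply, Matrix.one_apply, smul_eq_mul] at h
  rw [h]
  by_cases hj : j = j₀
  · subst hj; simp
  · rw [if_neg hj, if_neg (Ne.symm hj), mul_zero]

/-- regrouping a linear combination along an index map -/
theorem detform_sum_regroup {ι κ M : Type*} [Fintype ι] [Fintype κ] [DecidableEq κ]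
    [AddCommGroup M] [Module R M] (f : ι → κ) (c : ι → R) (x : κ → M) :
    ∑ k, (∑ i, if f i = k then c i else 0) • x k = ∑ i, c i • x (f i) := by
  simp_rw [Finset.sum_smul]
  rw [Finset.sum_comm]
  refine Finset.sum_congr rfl fun i _ => ?_
  rw [Finset.sum_eq_single (f i)]
  · rw [if_pos rfl]
  · intro k _ hk
    rw [if_neg (Ne.symm hk), zero_smul]
  · intro h
    exact absurd (Finset.mem_univ _) h

/-- for an injective index map the regrouped coefficients are the old ones or zero -/
theorem detform_regroup_coef {ι κ : Type*} [Fintype ι] [DecidableEq κ] (f : ι → κ)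
    (hf : Function.Injective f) (c : ι → R) (k : κ) :
    (∑ i, if f i = k then c i else 0) = 0 ∨ ∃ i, (∑ i, if f i = k then c i else 0) = c i := by
  by_cases h : ∃ i₁, f i₁ = k
  · obtain ⟨i₁, hi₁⟩ := h
    right
    refine ⟨i₁, ?_⟩
    rw [Finset.sum_eq_single i₁]
    · rw [if_pos hi₁]
    · intro i _ hi
      rw [if_neg]
      intro h2
      exact hi (hf (h2.trans hi₁.symm))
    · intro h
      exact absurd (Finset.mem_univ _) h
  · left
    refine Finset.sum_eq_zero fun i _ => ?_
    rw [if_neg]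
    intro h2
    exact h ⟨i, h2⟩

end Coef

end Fermat.Agent.MW
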