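/-
PROJECT MW (S17), package [DETFORM] (helper7), part 1: Taylor lemmas for a derivation at a place
of degree one where it is "unramified" (`D τ` is a unit for every uniformizer `τ`).

`K` a field of characteristic zero, `F/K` a field, `P : Place K F` of degree one, `D` a
`K`-derivation of `F` such that `ord_P (D τ) = 0` for every uniformizer `τ` at `P`.  Then

* `taylor_der_mem` : `D` preserves the valuation ring of `P`;
* `taylor_hasValueAt_iterate` : if `f = u τⁿ` with `u(P) = a`, then `(Dⁱ f)(P) = 0` for `i < n` and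
  `(Dⁿ f)(P) = n! · a · (Dτ(P))ⁿ`;
* `taylor_ordGE_iff` : for `f` regular at `P`, `ord_P f ≥ s` iff the jets `(1/i!) Dⁱ f` vanish at `P`
  for all `i < s`;
* `taylor_valueAt_jet_of_ord` : if `ord_P f = s ≥ 0`, the `s`-th jet of `f` at `P` is
  `(f/τˢ)(P) · (Dτ(P))ˢ`;
* `taylor_lc_indep` : the "`D`-normalised leading coefficient" `(f/τⁿ)(P) · (Dτ(P))ⁿ`, `n = ord_P f`,
  does not depend on the uniformizer `τ`.
-/
import Mathlib
import Fermat.Agent.JA.ES_helper4_Value

set_option autoImplicit false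

open AlgebraicCurve

namespace Fermat.Agent.MW

open Fermat.Agent.JA Fermat.Agent.FF

section Taylor

variable {K F : Type*} [Field K] [Field F] [Algebra K F] (P : Place K F)
  (D : Derivation K F F)

/-- `D` is unramified at `P`: `D τ` is a unit at `P` for every uniformizer `τ` at `P`. -/
def DerUnramAt : Prop := ∀ τ : F, P.ord τ = 1 → D τ ≠ 0 ∧ P.ord (D τ) = 0

variable {P D}

theorem taylor_exists_unif : ∃ τ : F, P.ord τ = 1 := by
  obtain ⟨π, hπ⟩ := IsDiscreteValuationRing.exists_irreducible P.toValuationSubring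
  exact ⟨(π : F), P.ord_coe_irreducible hπ⟩

theorem taylor_ne_zero_of_ord {f : F} {n : ℤ} (hn : n ≠ 0) (h : P.ord f = n) : f ≠ 0 := by
  rintro rfl
  rw [Place.ord_zero] at h
  exact hn h.symm

/-- `D` preserves the valuation ring of `P`. -/
theorem taylor_der_mem (hdeg : P.deg = 1) (hD : DerUnramAt P D) {f : F}
    (hf : f ∈ P.toValuationSubring) : D f ∈ P.toValuationSubring := by
  obtain ⟨c, hc⟩ := HasValueAt.exists_of_mem hdeg hf
  obtain ⟨g, hg⟩ : ∃ g : F, g = f - algebraMap K F c := ⟨_, rfl⟩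
  have hDg : D f = D g := by
    rw [hg, map_sub, Derivation.map_algebraMap, sub_zero]
  rw [hDg]
  have hcases := HasValueAt.iff_ord.mp hc
  rw [← hg] at hcases
  rcases hcases with h0 | hpos
  · rw [h0, map_zero]
    exact zero_mem _
  · have hg0 : g ≠ 0 := by
      intro h0
      rw [h0, Place.ord_zero] at hpos
      exact lt_irrefl _ hpos
    by_cases h1 : P.ord g = 1
    · obtain ⟨hne, hord⟩ := hD g h1
      exact (PlaceAux.mem_iff_ord_nonneg' P hne).mpr (by rw [hord])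
    · obtain ⟨τ, hτ⟩ := taylor_exists_unif (P := P)
      have hτ0 : τ ≠ 0 := taylor_ne_zero_of_ord one_ne_zero hτ
      have hlt : P.ord τ < P.ord g := by rw [hτ]; omega
      have hsum : P.ord (τ + g) = 1 := by
        rw [PlaceAux.ord_add_eq_of_lt P hτ0 hg0 hlt, hτ]
      obtain ⟨hne1, hord1⟩ := hD (τ + g) hsum
      obtain ⟨hne2, hord2⟩ := hD τ hτ
      have e : D g = D (τ + g) - D τ := by rw [map_add]; ring
      rw [e]
      refine sub_mem ?_ ?_
      · exact (PlaceAux.mem_iff_ord_nonneg' P hne1).mpr (by rw [hord1])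
      · exact (PlaceAux.mem_iff_ord_nonneg' P hne2).mpr (by rw [hord2])

/-- the value at `P` of `D τ` for a uniformizer `τ` is non-zero. -/
theorem taylor_valueAt_der_unif_ne_zero (hdeg : P.deg = 1) (hD : DerUnramAt P D) {τ : F}
    (hτ : P.ord τ = 1) : HasValueAt P (D τ) (valueAt P (D τ)) ∧ valueAt P (D τ) ≠ 0 := by
  obtain ⟨hne, hord⟩ := hD τ hτ
  have hmem : D τ ∈ P.toValuationSubring :=
    (PlaceAux.mem_iff_ord_nonneg' P hne).mpr (by rw [hord])
  have hv := hasValueAt_valueAt_of_mem hdeg hmem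
  refine ⟨hv, fun h0 => ?_⟩
  rw [h0] at hv
  rcases HasValueAt.zero_iff.mp hv with h | h
  · exact hne h
  · rw [hord] at h
    exact lt_irrefl _ h

/-- a uniformizer takes the value `0`. -/
theorem taylor_hasValueAt_unif {τ : F} (hτ : P.ord τ = 1) : HasValueAt P τ 0 :=
  HasValueAt.zero_iff.mpr (Or.inr (by rw [hτ]; exact one_pos))

/-- one step: `D (u τ^{m+1}) / τ^m = τ · D u + (m+1) u · D τ` has the value `(m+1) a δ`. -/
theorem taylor_hasValueAt_der_step (hdeg : P.deg = 1) (hD : DerUnramAt P D) {τ : F}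
    (hτ : P.ord τ = 1) {δ : K} (hδ : HasValueAt P (D τ) δ) {u : F} {a : K}
    (hu : HasValueAt P u a) (m : ℕ) :
    ∃ w : F, D (u * τ ^ (m + 1)) = w * τ ^ m ∧ HasValueAt P w (((m + 1 : ℕ) : K) * a * δ) := by
  have hτ0 : τ ≠ 0 := taylor_ne_zero_of_ord one_ne_zero hτ
  refine ⟨τ * D u + ((m + 1 : ℕ) : F) * u * D τ, ?_, ?_⟩
  · rw [Derivation.leibniz, Derivation.leibniz_pow, smul_eq_mul, smul_eq_mul, smul_eq_mul,
      nsmul_eq_mul, Nat.add_sub_cancel, pow_succ]
    push_cast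
    ring
  · obtain ⟨b, hb⟩ := HasValueAt.exists_of_mem hdeg (taylor_der_mem hdeg hD hu.mem)
    have h1 : HasValueAt P (τ * D u) (0 * b) := (taylor_hasValueAt_unif hτ).mul hb
    have hm : HasValueAt P (((m + 1 : ℕ) : F)) ((m + 1 : ℕ) : K) := by
      have := HasValueAt.algebraMap' P (((m + 1 : ℕ) : K))
      rwa [map_natCast] at this
    have h2 : HasValueAt P (((m + 1 : ℕ) : F) * u * D τ) (((m + 1 : ℕ) : K) * a * δ) :=
      (hm.mul hu).mul hδ
    have := h1.add h2
    rwa [zero_mul, zero_add] at this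

/-- **Taylor**: if `f = u τⁿ` with `u(P) = a`, then for `i ≤ n`,
`Dⁱ f = wᵢ τ^{n-i}` with `wᵢ(P) = n (n-1) ⋯ (n-i+1) · a · δⁱ`, `δ = (D τ)(P)`. -/
theorem taylor_iterate (hdeg : P.deg = 1) (hD : DerUnramAt P D) {τ : F}
    (hτ : P.ord τ = 1) {δ : K} (hδ : HasValueAt P (D τ) δ) {u : F} {a : K}
    (hu : HasValueAt P u a) (n : ℕ) :
    ∀ i : ℕ, i ≤ n → ∃ w : F, (D^[i]) (u * τ ^ n) = w * τ ^ (n - i) ∧
      HasValueAt P w ((n.descFactorial i : K) * a * δ ^ i) := by
  intro i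
  induction i with
  | zero =>
    intro _
    refine ⟨u, by simp, ?_⟩
    simpa using hu
  | succ i ih =>
    intro hi
    obtain ⟨w, hw, hwv⟩ := ih (by omega)
    obtain ⟨m, hm⟩ : ∃ m : ℕ, n - i = m + 1 := ⟨n - i - 1, by omega⟩
    obtain ⟨w', hw', hwv'⟩ := taylor_hasValueAt_der_step hdeg hD hτ hδ hwv m
    refine ⟨w', ?_, ?_⟩
    · rw [Function.iterate_succ_apply', hw, hm, hw']
      congr 2
      omega
    · rw [Nat.descFactorial_succ]
      have e : (((n - i) * n.descFactorial i : ℕ) : K) * a * δ ^ (i + 1)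
          = ((m + 1 : ℕ) : K) * ((n.descFactorial i : K) * a * δ ^ i) * δ := by
        rw [hm]
        push_cast
        ring
      rw [e]
      exact hwv'

/-- **Taylor, values**: if `f = u τⁿ` with `u(P) = a`, then `(Dⁱ f)(P) = 0` for `i < n`. -/
theorem taylor_hasValueAt_iterate_lt (hdeg : P.deg = 1) (hD : DerUnramAt P D) {τ : F}
    (hτ : P.ord τ = 1) {u : F} {a : K} (hu : HasValueAt P u a) (n : ℕ) {i : ℕ} (hi : i < n) :
    HasValueAt P ((D^[i]) (u * τ ^ n)) 0 := by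
  obtain ⟨hδ, -⟩ := taylor_valueAt_der_unif_ne_zero hdeg hD hτ
  obtain ⟨w, hw, hwv⟩ := taylor_iterate hdeg hD hτ hδ hu n i hi.le
  rw [hw]
  have h1 : HasValueAt P (τ ^ (n - i)) ((0 : K) ^ (n - i)) := (taylor_hasValueAt_unif hτ).pow _
  rw [zero_pow (by omega)] at h1
  have := hwv.mul h1
  rwa [mul_zero] at this

/-- **Taylor, values**: if `f = u τⁿ` with `u(P) = a`, then `(Dⁿ f)(P) = n! · a · δⁿ`. -/
theorem taylor_hasValueAt_iterate_self (hdeg : P.deg = 1) (hD : DerUnramAt P D) {τ : F}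
    (hτ : P.ord τ = 1) {δ : K} (hδ : HasValueAt P (D τ) δ) {u : F} {a : K}
    (hu : HasValueAt P u a) (n : ℕ) :
    HasValueAt P ((D^[n]) (u * τ ^ n)) ((n.factorial : K) * a * δ ^ n) := by
  obtain ⟨w, hw, hwv⟩ := taylor_iterate hdeg hD hτ hδ hu n n le_rfl
  rw [hw, Nat.sub_self, pow_zero, mul_one]
  rwa [Nat.descFactorial_self] at hwv

/-- the `s`-th divided jet `(1/s!) Dˢ f`. -/
noncomputable def taylorJet (D : Derivation K F F) (s : ℕ) (f : F) : F :=
  ((s.factorial : K)⁻¹) • (D^[s]) f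

theorem taylor_hasValueAt_smul {f : F} {c : K} (k : K) (h : HasValueAt P f c) :
    HasValueAt P (k • f) (k * c) := by
  rw [Algebra.smul_def]
  exact (HasValueAt.algebraMap' P k).mul h

theorem taylor_hasValueAt_zpow {w : F} {w₀ : K} (h : HasValueAt P w w₀) (h0 : w₀ ≠ 0) (z : ℤ) :
    HasValueAt P (w ^ z) (w₀ ^ z) := by
  rcases z with n | n
  · simpa using h.pow n
  · rw [zpow_negSucc, zpow_negSucc]
    exact (h.pow (n + 1)).inv (pow_ne_zero _ h0)

/-- a function of order `0` has a non-zero value. -/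
theorem taylor_hasValueAt_of_ord_eq_zero (hdeg : P.deg = 1) {u : F} (hu0 : u ≠ 0)
    (hu : P.ord u = 0) : HasValueAt P u (valueAt P u) ∧ valueAt P u ≠ 0 := by
  have hmem : u ∈ P.toValuationSubring :=
    (PlaceAux.mem_iff_ord_nonneg' P hu0).mpr (by rw [hu])
  have hv := hasValueAt_valueAt_of_mem hdeg hmem
  refine ⟨hv, fun h0 => ?_⟩
  rw [h0] at hv
  rcases HasValueAt.zero_iff.mp hv with h | h
  · exact hu0 h
  · rw [hu] at h
    exact lt_irrefl _ h

variable [CharZero K]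

/-- **Taylor**: for `f` regular at `P`, `ord_P f ≥ s` iff all jets of order `< s` vanish at `P`. -/
theorem taylor_ordGE_iff (hdeg : P.deg = 1) (hD : DerUnramAt P D) {f : F}
    (hf : f ∈ P.toValuationSubring) (s : ℕ) :
    (f = 0 ∨ (s : ℤ) ≤ P.ord f) ↔ ∀ i : ℕ, i < s → HasValueAt P (taylorJet D i f) 0 := by
  obtain ⟨τ, hτ⟩ := taylor_exists_unif (P := P)
  have hτ0 : τ ≠ 0 := taylor_ne_zero_of_ord one_ne_zero hτ
  obtain ⟨hδ, hδ0⟩ := taylor_valueAt_der_unif_ne_zero hdeg hD hτ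
  constructor
  · rintro (rfl | hs) i hi
    · unfold taylorJet
      have : (D^[i]) (0 : F) = 0 := by
        induction i with
        | zero => rfl
        | succ i ih => rw [Function.iterate_succ_apply', ih (by omega), map_zero]
      rw [this, smul_zero]
      exact HasValueAt.zero' P
    · by_cases hf0 : f = 0
      · subst hf0
        unfold taylorJet
        have : (D^[i]) (0 : F) = 0 := by
          clear hi
          induction i with
          | zero => rfl
          | succ i ih => rw [Function.iterate_succ_apply', ih, map_zero]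
        rw [this, smul_zero]
        exact HasValueAt.zero' P
      · -- `f = u τ^s` with `u` regular
        have hτs : τ ^ s ≠ 0 := pow_ne_zero _ hτ0
        have hu0 : f / τ ^ s ≠ 0 := div_ne_zero hf0 hτs
        have hord : 0 ≤ P.ord (f / τ ^ s) := by
          rw [PlaceAux.ord_div P hf0 hτs, PlaceAux.ord_pow, hτ]
          omega
        have humem : f / τ ^ s ∈ P.toValuationSubring :=
          (PlaceAux.mem_iff_ord_nonneg' P hu0).mpr hord
        have hu := hasValueAt_valueAt_of_mem hdeg humem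
        have e : f = f / τ ^ s * τ ^ s := by field_simp
        have := taylor_hasValueAt_iterate_lt hdeg hD hτ hu s hi
        rw [← e] at this
        have h2 := taylor_hasValueAt_smul ((i.factorial : K)⁻¹) this
        rwa [mul_zero] at h2
  · intro h
    by_contra hcon
    rw [not_or, not_le] at hcon
    obtain ⟨hf0, hlt⟩ := hcon
    have hnn : 0 ≤ P.ord f := PlaceAux.ord_nonneg_of_mem P hf
    obtain ⟨n, hn⟩ := Int.eq_ofNat_of_zero_le hnn
    have hns : n < s := by rw [hn] at hlt; exact_mod_cast hlt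
    have hτn : τ ^ n ≠ 0 := pow_ne_zero _ hτ0
    have hu0 : f / τ ^ n ≠ 0 := div_ne_zero hf0 hτn
    have hord : P.ord (f / τ ^ n) = 0 := by
      rw [PlaceAux.ord_div P hf0 hτn, PlaceAux.ord_pow, hτ, hn]
      ring
    obtain ⟨hu, hua⟩ := taylor_hasValueAt_of_ord_eq_zero hdeg hu0 hord
    have e : f = f / τ ^ n * τ ^ n := by field_simp
    have h1 := taylor_hasValueAt_iterate_self hdeg hD hτ hδ hu n
    rw [← e] at h1
    have h2 := taylor_hasValueAt_smul ((n.factorial : K)⁻¹) h1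
    have h3 := (h n hns).unique h2
    have hfac : ((n.factorial : K)) ≠ 0 := Nat.cast_ne_zero.mpr (Nat.factorial_ne_zero n)
    have : (n.factorial : K)⁻¹ * ((n.factorial : K) * valueAt P (f / τ ^ n) *
        valueAt P (D τ) ^ n) ≠ 0 :=
      mul_ne_zero (inv_ne_zero hfac) (mul_ne_zero (mul_ne_zero hfac hua) (pow_ne_zero _ hδ0))
    exact this h3.symm

/-- **Taylor**: if `ord_P f = s ≥ 0`, the `s`-th jet of `f` at `P` is `(f/τˢ)(P) · (Dτ(P))ˢ`. -/
theorem taylor_hasValueAt_jet_of_ord (hdeg : P.deg = 1) (hD : DerUnramAt P D) {τ : F}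
    (hτ : P.ord τ = 1) {f : F} (hf0 : f ≠ 0) {s : ℕ} (hs : P.ord f = s) :
    HasValueAt P (taylorJet D s f) (valueAt P (f / τ ^ s) * valueAt P (D τ) ^ s) := by
  have hτ0 : τ ≠ 0 := taylor_ne_zero_of_ord one_ne_zero hτ
  obtain ⟨hδ, -⟩ := taylor_valueAt_der_unif_ne_zero hdeg hD hτ
  have hτs : τ ^ s ≠ 0 := pow_ne_zero _ hτ0
  have hu0 : f / τ ^ s ≠ 0 := div_ne_zero hf0 hτs
  have hord : P.ord (f / τ ^ s) = 0 := by
    rw [PlaceAux.ord_div P hf0 hτs, PlaceAux.ord_pow, hτ, hs]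
    ring
  obtain ⟨hu, -⟩ := taylor_hasValueAt_of_ord_eq_zero hdeg hu0 hord
  have e : f = f / τ ^ s * τ ^ s := by field_simp
  have h1 := taylor_hasValueAt_iterate_self hdeg hD hτ hδ hu s
  rw [← e] at h1
  have h2 := taylor_hasValueAt_smul ((s.factorial : K)⁻¹) h1
  have hfac : ((s.factorial : K)) ≠ 0 := Nat.cast_ne_zero.mpr (Nat.factorial_ne_zero s)
  have e2 : (s.factorial : K)⁻¹ * ((s.factorial : K) * valueAt P (f / τ ^ s) *
      valueAt P (D τ) ^ s) = valueAt P (f / τ ^ s) * valueAt P (D τ) ^ s := by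
    field_simp
  rw [e2] at h2
  exact h2

omit [CharZero K] in
/-- **independence of the uniformizer** of the `D`-normalised leading coefficient
`(f τ^{-n})(P) · (D τ (P))ⁿ`, `n = ord_P f`. -/
theorem taylor_lc_indep (hdeg : P.deg = 1) (hD : DerUnramAt P D) {τ τ' : F}
    (hτ : P.ord τ = 1) (hτ' : P.ord τ' = 1) {f : F} (hf0 : f ≠ 0) :
    valueAt P (f * τ ^ (-(P.ord f))) * valueAt P (D τ) ^ (P.ord f) =
      valueAt P (f * τ' ^ (-(P.ord f))) * valueAt P (D τ') ^ (P.ord f) := by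
  set n : ℤ := P.ord f with hn
  have hτ0 : τ ≠ 0 := taylor_ne_zero_of_ord one_ne_zero hτ
  have hτ'0 : τ' ≠ 0 := taylor_ne_zero_of_ord one_ne_zero hτ'
  obtain ⟨hδ, hδ0⟩ := taylor_valueAt_der_unif_ne_zero hdeg hD hτ
  -- `w = τ'/τ` is a unit at `P`
  have hw0 : τ' / τ ≠ 0 := div_ne_zero hτ'0 hτ0
  have hwo : P.ord (τ' / τ) = 0 := by
    rw [PlaceAux.ord_div P hτ'0 hτ0, hτ, hτ']; ring
  obtain ⟨hw, hwa⟩ := taylor_hasValueAt_of_ord_eq_zero hdeg hw0 hwo
  set w : F := τ' / τ with hwdef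
  set w₀ : K := valueAt P w with hw₀
  have hτ'eq : τ' = w * τ := by rw [hwdef]; field_simp
  -- `(D τ')(P) = w₀ δ`
  have hδ' : HasValueAt P (D τ') (w₀ * valueAt P (D τ)) := by
    rw [hτ'eq, Derivation.leibniz, smul_eq_mul, smul_eq_mul]
    obtain ⟨b, hb⟩ := HasValueAt.exists_of_mem hdeg (taylor_der_mem hdeg hD hw.mem)
    have h1 : HasValueAt P (τ * D w) (0 * b) := (taylor_hasValueAt_unif hτ).mul hb
    have := (hw.mul hδ).add h1
    rwa [zero_mul, add_zero] at this
  -- `u = f τ^{-n}` is a unit at `P`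
  have hu0 : f * τ ^ (-n) ≠ 0 := mul_ne_zero hf0 (zpow_ne_zero _ hτ0)
  have huo : P.ord (f * τ ^ (-n)) = 0 := by
    rw [P.ord_mul hf0 (zpow_ne_zero _ hτ0), P.ord_zpow, hτ]; ring
  obtain ⟨hu, -⟩ := taylor_hasValueAt_of_ord_eq_zero hdeg hu0 huo
  have hu' : HasValueAt P (f * τ' ^ (-n)) (valueAt P (f * τ ^ (-n)) * w₀ ^ (-n)) := by
    have e : f * τ' ^ (-n) = f * τ ^ (-n) * w ^ (-n) := by
      rw [hτ'eq, mul_zpow]; ring
    rw [e]
    exact hu.mul (taylor_hasValueAt_zpow hw hwa _)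
  rw [hu'.valueAt_eq, hδ'.valueAt_eq, mul_zpow]
  have hwn : w₀ ^ (-n) * w₀ ^ n = 1 := by
    rw [← zpow_add₀ hwa, neg_add_cancel, zpow_zero]
  calc valueAt P (f * τ ^ (-n)) * valueAt P (D τ) ^ n
      = valueAt P (f * τ ^ (-n)) * (w₀ ^ (-n) * w₀ ^ n) * valueAt P (D τ) ^ n := by
        rw [hwn, mul_one]
    _ = valueAt P (f * τ ^ (-n)) * w₀ ^ (-n) * (w₀ ^ n * valueAt P (D τ) ^ n) := by ring

end Taylor

end Fermat.Agent.MW
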