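import Mathlib
import Fermat.Agent.MW.DIFF_helper8_Defs
import Fermat.Agent.MW.MUMFORD_helper8_Bil
import Fermat.Agent.MW.NADIC_helper6_Lc
import Fermat.Agent.MW.DETFORM_helper7_Taylor
import Fermat.Agent.MW.DETFORM_helper7_Lin

/-!
# Project MW — [DETFORM] part 2b: the determinant inequality (A5) from (A1), (A4), (A7) (helper7)

**`LocalPkgAt.detIneq`** : for every local package `L : LocalPkgAt N 𝔡 Zp v` whose exceptional set
`Zp` contains the support of `K0 = div ω₀`, and `deg K0 ≤ 2·gq`, the determinant inequality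
`L.DetIneq` holds (constant `2·L.Cdet`).

Proof: induction on the size `n` of a generalised confluent minor `detformMat κ col`
(rows `φ (κ i)`, columns the jets `(P, s)`, `s < E P`, of an effective divisor `E` of degree `n`
off `Zp`), `detform_main`.  Step: Laplace expansion along a last jet column `(P₀, E P₀ - 1)`; the
cofactor combination `ψ = Σ cof_i φ_{κ i}` vanishes along `E - P₀` with
`lcN ψ P₀ = det` (`detform_step_alg`, Taylor lemmas of part 1); (A7) at `P₀` with
`M = max |cof_i|_v = |minor|_v`, the lower bound `detPot_lower` (uses (A1) and `deg div ψ = 0`) and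
(A4) give `lg|det| + pot_{E - P₀}(P₀) + r(P₀) ≤ lg|minor| + C7 + 2 gq Cγ + cω + Cω`; the induction
hypothesis applies to the minor.
-/

set_option autoImplicit false
set_option linter.unusedSectionVars false

open scoped BigOperators

noncomputable section

namespace Fermat.Agent.MW

open AlgebraicCurve ModularCurve Fermat.Agent.JA Fermat.Agent.FF

local notation "Ω" => AlgebraicClosure ℚ

section Local

variable {N : ℕ} [NeZero N] (𝔡 : DiffDatum N)

theorem detform_deg_eq_one (P : PtN N) : P.deg = 1 :=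
  (Fermat.Agent.X0N.jCoordBar N).deg_eq_one P

theorem detform_derUnramAt {Q : PtN N} (hQ : 𝔡.K0 Q = 0) : DerUnramAt Q 𝔡.D₀ := by
  intro τ hτ
  obtain ⟨h1, h2⟩ := 𝔡.K0_spec Q τ hτ
  refine ⟨h1, ?_⟩
  rw [h2, hQ]
  simp

theorem detform_jet_eq (s : ℕ) (f : FunN N) : 𝔡.jet s f = taylorJet 𝔡.D₀ s f := rfl

/-- iterates of `D₀` are linear -/
theorem detform_iterate_sum {ι : Type*} (s : ℕ) (t : Finset ι) (c : ι → Ω) (f : ι → FunN N) :
    (𝔡.D₀^[s]) (∑ i ∈ t, c i • f i) = ∑ i ∈ t, c i • (𝔡.D₀^[s]) (f i) := by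
  induction s with
  | zero => rfl
  | succ s ih =>
    rw [Function.iterate_succ_apply', ih, map_sum]
    refine Finset.sum_congr rfl fun i _ => ?_
    rw [Function.iterate_succ_apply', Derivation.map_smul]

theorem detform_jet_sum {ι : Type*} (s : ℕ) (t : Finset ι) (c : ι → Ω) (f : ι → FunN N) :
    𝔡.jet s (∑ i ∈ t, c i • f i) = ∑ i ∈ t, c i • 𝔡.jet s (f i) := by
  unfold DiffDatum.jet
  rw [detform_iterate_sum, Finset.smul_sum]
  refine Finset.sum_congr rfl fun i _ => ?_
  rw [smul_comm]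

/-- iterates of `D₀` preserve the local ring at a point off the divisor of `ω₀` -/
theorem detform_iterate_mem {Q : PtN N} (hQ : 𝔡.K0 Q = 0) {f : FunN N}
    (hf : f ∈ Q.toValuationSubring) (s : ℕ) : (𝔡.D₀^[s]) f ∈ Q.toValuationSubring := by
  induction s with
  | zero => exact hf
  | succ s ih =>
    rw [Function.iterate_succ_apply']
    exact taylor_der_mem (detform_deg_eq_one Q) (detform_derUnramAt 𝔡 hQ) ih

theorem detform_smul_mem {Q : PtN N} {f : FunN N} (hf : f ∈ Q.toValuationSubring) (a : Ω) :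
    a • f ∈ Q.toValuationSubring := by
  rw [Algebra.smul_def]
  exact mul_mem (Q.algebraMap_mem' a) hf

theorem detform_jet_mem {Q : PtN N} (hQ : 𝔡.K0 Q = 0) {f : FunN N}
    (hf : f ∈ Q.toValuationSubring) (s : ℕ) : 𝔡.jet s f ∈ Q.toValuationSubring :=
  detform_smul_mem (detform_iterate_mem 𝔡 hQ hf s) _

theorem detform_φ_mem {Q : PtN N} (hQ : 𝔡.K0 Q = 0) (k : Fin 𝔡.gq) :
    𝔡.φ k ∈ Q.toValuationSubring := by
  rw [PlaceAux.mem_iff_ord_nonneg]
  rcases 𝔡.φ_reg k Q with h | h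
  · exact Or.inl h
  · right
    rw [hQ] at h
    simpa using h

/-- values of jets are linear on the span of the `φ k` (at points off the divisor of `ω₀`) -/
theorem detform_hasValueAt_jet_sum {Q : PtN N} (hQ : 𝔡.K0 Q = 0) {ι : Type*} (t : Finset ι)
    (c : ι → Ω) (κ : ι → Fin 𝔡.gq) (s : ℕ) :
    HasValueAt Q (𝔡.jet s (∑ i ∈ t, c i • 𝔡.φ (κ i)))
      (∑ i ∈ t, c i * valN N Q (𝔡.jet s (𝔡.φ (κ i)))) := by
  rw [detform_jet_sum]
  refine HasValueAt.sum t _ _ fun i _ => ?_
  exact taylor_hasValueAt_smul (c i)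
    (hasValueAt_valueAt_of_mem (detform_deg_eq_one Q) (detform_jet_mem 𝔡 hQ (detform_φ_mem 𝔡 hQ _) s))

/-- at a point off the divisor of `ω₀`, the jet of order `ord_Q f` of `f` takes the value
`lcN f Q`. -/
theorem detform_hasValueAt_jet_lcN {Q : PtN N} (hQ : 𝔡.K0 Q = 0) {f : FunN N} (hf0 : f ≠ 0)
    {s : ℕ} (hs : Q.ord f = s) : HasValueAt Q (𝔡.jet s f) (𝔡.lcN f Q) := by
  unfold DiffDatum.lcN
  by_cases h0 : Q.ord f = 0
  · rw [if_pos h0]
    have hs0 : s = 0 := by rw [h0] at hs; exact_mod_cast hs.symm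
    subst hs0
    have hj : 𝔡.jet 0 f = f := by
      unfold DiffDatum.jet
      simp
    rw [hj]
    exact hasValueAt_valueAt_of_mem (detform_deg_eq_one Q)
      ((PlaceAux.mem_iff_ord_nonneg' Q hf0).mpr (by rw [h0]))
  · rw [if_neg h0, if_pos hQ]
    have h := taylor_hasValueAt_jet_of_ord (detform_deg_eq_one Q) (detform_derUnramAt 𝔡 hQ)
      (ord_unifAt N Q) hf0 hs
    have e1 : f * unifAt N Q ^ (-(Q.ord f)) = f / unifAt N Q ^ s := by
      rw [hs, zpow_neg, zpow_natCast, div_eq_mul_inv]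
    have e2 : valN N Q (𝔡.D₀ (unifAt N Q)) ^ (Q.ord f) = valueAt Q (𝔡.D₀ (unifAt N Q)) ^ s := by
      rw [hs, zpow_natCast]
    rw [e1, e2]
    exact h

theorem detform_ordGE_smul {Q : PtN N} {n : ℤ} {f : FunN N} (hf : OrdGE Q n f) (a : Ω) :
    OrdGE Q n (a • f) := by
  rw [Algebra.smul_def]
  have h0 : OrdGE Q 0 (algebraMap Ω (FunN N) a) := ordGE_zero_iff_mem.mpr (Q.algebraMap_mem' a)
  have := h0.mul hf
  rwa [zero_add] at this

theorem detform_ordGE_sum {Q : PtN N} {n : ℤ} {ι : Type*} (t : Finset ι) (f : ι → FunN N)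
    (hf : ∀ i ∈ t, OrdGE Q n (f i)) : OrdGE Q n (∑ i ∈ t, f i) := by
  classical
  induction t using Finset.induction_on with
  | empty => exact Or.inl Finset.sum_empty
  | insert a t ha ih =>
    rw [Finset.sum_insert ha]
    exact (hf a (Finset.mem_insert_self a t)).add
      (ih fun i hi => hf i (Finset.mem_insert_of_mem hi))

/-- elements of the span of the `φ k` have poles bounded by the divisor of `ω₀` -/
theorem detform_ordGE_span (Q : PtN N) {ι : Type*} (t : Finset ι) (c : ι → Ω)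
    (κ : ι → Fin 𝔡.gq) : OrdGE Q (-(𝔡.K0 Q : ℤ)) (∑ i ∈ t, c i • 𝔡.φ (κ i)) :=
  detform_ordGE_sum t _ fun i _ => detform_ordGE_smul (𝔡.φ_reg (κ i) Q) (c i)

end Local

theorem detform_absv_neg_one_pow_mul (v : Pl) (k : ℕ) (x : Ω) :
    absv v ((-1) ^ k * x) = absv v x := by
  rw [absv_mul, absv_pow, absv_neg, absv_one, one_pow, one_mul]

/-- the absolute value of a cofactor is that of the minor -/
theorem detform_absv_adjugate (v : Pl) {n : ℕ} (A : Matrix (Fin (n + 1)) (Fin (n + 1)) Ω)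
    (j₀ i : Fin (n + 1)) :
    absv v (A.adjugate j₀ i) = absv v (A.submatrix i.succAbove j₀.succAbove).det := by
  rw [Matrix.adjugate_fin_succ_eq_det_submatrix, detform_absv_neg_one_pow_mul]

section Step

variable {N : ℕ} [NeZero N] (𝔡 : DiffDatum N)

/-- the generalised confluent matrix: rows `φ (κ i)`, columns the jets `col j = (P, s)`. -/
def detformMat {n : ℕ} (κ : Fin n → Fin 𝔡.gq) (col : Fin n → PtN N × ℕ) :
    Matrix (Fin n) (Fin n) Ω :=
  fun i j => valN N (col j).1 (𝔡.jet (col j).2 (𝔡.φ (κ i)))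

/-- the linear combination of the `φ (κ i)` with coefficients `cof`. -/
def detformPsi {n : ℕ} (κ : Fin n → Fin 𝔡.gq) (cof : Fin n → Ω) : FunN N :=
  ∑ i, cof i • 𝔡.φ (κ i)

/-- **the algebraic step**: the cofactor combination `ψ` along the column `j₀ = (P₀, m)`,
`m + 1 = E P₀`, is nonzero, has order `m` at `P₀` with leading coefficient `det A`, and vanishes
along `E - P₀` up to the poles allowed by `K0`. -/
theorem detform_step_alg {n : ℕ} (κ : Fin (n + 1) → Fin 𝔡.gq)
    (col : Fin (n + 1) → PtN N × ℕ) (E : PtN N →₀ ℕ) (hcol : Function.Injective col)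
    (hE : ∀ P s, (∃ j, col j = (P, s)) ↔ s < E P)
    (hK0 : ∀ P ∈ E.support, 𝔡.K0 P = 0)
    (hdet : (detformMat 𝔡 κ col).det ≠ 0) (j₀ : Fin (n + 1)) (P₀ : PtN N) (m : ℕ)
    (hj₀ : col j₀ = (P₀, m)) (hm : E P₀ = m + 1) :
    detformPsi 𝔡 κ (fun i => (detformMat 𝔡 κ col).adjugate j₀ i) ≠ 0 ∧
    P₀.ord (detformPsi 𝔡 κ (fun i => (detformMat 𝔡 κ col).adjugate j₀ i)) = m ∧
    𝔡.lcN (detformPsi 𝔡 κ (fun i => (detformMat 𝔡 κ col).adjugate j₀ i)) P₀ = (detformMat 𝔡 κ col).det ∧
    ∀ P, (((E - Finsupp.single P₀ 1 : PtN N →₀ ℕ) P : ℕ) : ℤ) - 𝔡.K0 P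
      ≤ P.ord (detformPsi 𝔡 κ (fun i => (detformMat 𝔡 κ col).adjugate j₀ i)) := by
  obtain ⟨A, hA⟩ : ∃ A, A = detformMat 𝔡 κ col := ⟨_, rfl⟩
  obtain ⟨ψ, hψ⟩ : ∃ ψ, ψ = detformPsi 𝔡 κ (fun i => A.adjugate j₀ i) := ⟨_, rfl⟩
  rw [← hA, ← hψ]
  rw [← hA] at hdet
  have hP₀E : P₀ ∈ E.support := by
    rw [Finsupp.mem_support_iff, hm]
    exact Nat.succ_ne_zero m
  have hP₀K : 𝔡.K0 P₀ = 0 := hK0 P₀ hP₀E
  -- values of the jets of `ψ` along the columns
  have hval : ∀ P s, s < E P →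
      HasValueAt P (𝔡.jet s ψ) (if (P, s) = (P₀, m) then A.det else 0) := by
    intro P s hs
    obtain ⟨j, hj⟩ := (hE P s).mpr hs
    have hPK : 𝔡.K0 P = 0 := hK0 P (by rw [Finsupp.mem_support_iff]; omega)
    have h1 := detform_hasValueAt_jet_sum 𝔡 hPK Finset.univ (fun i => A.adjugate j₀ i) κ s
    have h4 : ∀ i, A i j = valN N P (𝔡.jet s (𝔡.φ (κ i))) := by
      intro i
      rw [hA]
      show valN N (col j).1 (𝔡.jet (col j).2 (𝔡.φ (κ i))) = _
      rw [hj]
    have h3 := detform_adjugate_mul_col A j₀ j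
    simp only [h4] at h3
    rw [h3] at h1
    rw [hψ]
    by_cases hjj : j = j₀
    · rw [if_pos hjj] at h1
      rw [if_pos (by rw [← hj, ← hj₀, hjj])]
      exact h1
    · rw [if_neg hjj] at h1
      rw [if_neg (by
        intro h
        apply hjj
        apply hcol
        rw [hj, hj₀, h])]
      exact h1
  have hψmem : ∀ P, 𝔡.K0 P = 0 → ψ ∈ P.toValuationSubring := by
    intro P hP
    have h := detform_ordGE_span 𝔡 P Finset.univ (fun i => A.adjugate j₀ i) κ
    rw [hP] at h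
    rw [hψ]
    unfold detformPsi
    exact ordGE_zero_iff_mem.mp (by simpa using h)
  have hm_val : HasValueAt P₀ (𝔡.jet m ψ) A.det := by
    have := hval P₀ m (by omega)
    rwa [if_pos rfl] at this
  have hdeg := detform_deg_eq_one P₀
  have hD := detform_derUnramAt 𝔡 hP₀K
  have h_lt : ¬ (ψ = 0 ∨ ((m + 1 : ℕ) : ℤ) ≤ P₀.ord ψ) := by
    intro h
    have := (taylor_ordGE_iff hdeg hD (hψmem P₀ hP₀K) (m + 1)).mp h m (Nat.lt_succ_self m)
    exact hdet (hm_val.unique this)
  have hψ0 : ψ ≠ 0 := fun h => h_lt (Or.inl h)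
  have h_ge : (m : ℤ) ≤ P₀.ord ψ := by
    have := (taylor_ordGE_iff hdeg hD (hψmem P₀ hP₀K) m).mpr (fun i hi => by
      have h := hval P₀ i (by omega)
      rwa [if_neg (by
        intro h2
        have := (Prod.mk.injEq _ _ _ _ ▸ h2 : P₀ = P₀ ∧ i = m).2
        omega)] at h)
    exact this.resolve_left hψ0
  have hord : P₀.ord ψ = m := by
    have : ¬ (((m + 1 : ℕ) : ℤ) ≤ P₀.ord ψ) := fun h => h_lt (Or.inr h)
    push_cast at this
    omega
  refine ⟨hψ0, hord, ?_, ?_⟩
  · exact (detform_hasValueAt_jet_lcN 𝔡 hP₀K hψ0 hord).unique hm_val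
  · intro P
    rw [Finsupp.tsub_apply]
    by_cases hPE : P ∈ E.support
    · have hPK : 𝔡.K0 P = 0 := hK0 P hPE
      by_cases hPP : P = P₀
      · subst hPP
        rw [hm, Finsupp.single_eq_same, hPK, hord]
        simp
      · rw [Finsupp.single_eq_of_ne hPP, hPK]
        have := (taylor_ordGE_iff (detform_deg_eq_one P) (detform_derUnramAt 𝔡 hPK)
          (hψmem P hPK) (E P)).mpr (fun i hi => by
            have h := hval P i hi
            rwa [if_neg (by
              intro h2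
              exact hPP (Prod.mk.injEq _ _ _ _ ▸ h2 : P = P₀ ∧ i = m).1)] at h)
        have h2 := this.resolve_left hψ0
        simpa using h2
    · have hEP : E P = 0 := Finsupp.notMem_support_iff.mp hPE
      rw [hEP]
      have h : OrdGE P (-(𝔡.K0 P : ℤ)) ψ := by
        rw [hψ]
        exact detform_ordGE_span 𝔡 P Finset.univ (fun i => A.adjugate j₀ i) κ
      have h2 := h.resolve_left hψ0
      simpa using h2

end Step

section Main

variable {N : ℕ} [NeZero N] {𝔡 : DiffDatum N} {Zp : Finset (PtN N)} {v : Pl}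

/-- the constant of one induction step -/
def LocalPkgAt.detCstep (L : LocalPkgAt N 𝔡 Zp v) : ℝ :=
  L.C7 + 2 * 𝔡.gq * L.Cγ + |L.cω| + L.Cω

/-- **the determinant inequality for generalised confluent minors**, by induction on the size:
Laplace expansion along a last jet column, (A7) for the cofactor combination, (A1) and (A4). -/
theorem detform_main (L : LocalPkgAt N 𝔡 Zp v)
    (hK : ∀ P ∈ 𝔡.K0.support, P ∈ Zp) (hdegK : ndeg 𝔡.K0 ≤ 2 * 𝔡.gq) :
    ∀ (n : ℕ) (E : PtN N →₀ ℕ) (κ : Fin n → Fin 𝔡.gq) (col : Fin n → PtN N × ℕ),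
      Function.Injective col → (∀ P s, (∃ j, col j = (P, s)) ↔ s < E P) →
      (∀ P ∈ E.support, P ∉ Zp) → (detformMat 𝔡 κ col).det ≠ 0 →
      2 * lg v (detformMat 𝔡 κ col).det + detPhi L.γ L.r E ≤ 2 * n * L.detCstep := by
  intro n
  induction n with
  | zero =>
    intro E κ col hcol hE hZ hdet
    have hE0 : E = 0 := by
      ext P
      by_contra h
      obtain ⟨j, _⟩ := (hE P 0).mpr (Nat.pos_of_ne_zero h)
      exact j.elim0
    subst hE0
    rw [Matrix.det_isEmpty, lg_one, detPhi_zero]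
    simp
  | succ n ih =>
    intro E κ col hcol hE hZ hdet
    -- κ is injective
    have hκ : Function.Injective κ := by
      intro i i' hii
      by_contra hne
      apply hdet
      apply Matrix.det_zero_of_row_eq hne
      funext j
      show valN N (col j).1 (𝔡.jet (col j).2 (𝔡.φ (κ i)))
        = valN N (col j).1 (𝔡.jet (col j).2 (𝔡.φ (κ i')))
      rw [hii]
    -- the point P₀ and the last jet column at P₀
    obtain ⟨P₀, hP₀⟩ : ∃ P₀, P₀ = (col 0).1 := ⟨_, rfl⟩
    have hEP₀ : 0 < E P₀ := by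
      have := (hE P₀ (col 0).2).mp ⟨0, by rw [hP₀]⟩
      omega
    obtain ⟨m, hm⟩ : ∃ m, E P₀ = m + 1 := ⟨E P₀ - 1, by omega⟩
    obtain ⟨j₀, hj₀⟩ := (hE P₀ m).mpr (by omega)
    have hP₀E : P₀ ∈ E.support := by
      rw [Finsupp.mem_support_iff]
      omega
    have hP₀Z : P₀ ∉ Zp := hZ P₀ hP₀E
    have hK0 : ∀ P ∈ E.support, 𝔡.K0 P = 0 := by
      intro P hP
      by_contra h
      exact hZ P hP (hK P (Finsupp.mem_support_iff.mpr h))
    have hP₀K : 𝔡.K0 P₀ = 0 := hK0 P₀ hP₀E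
    -- the cofactors
    obtain ⟨cof, hcof⟩ : ∃ cof : Fin (n + 1) → Ω,
        cof = fun i => (detformMat 𝔡 κ col).adjugate j₀ i := ⟨_, rfl⟩
    have hcofne : ∃ i, cof i ≠ 0 := by
      by_contra h
      rw [not_exists] at h
      have h : ∀ i, cof i = 0 := fun i => not_not.mp (h i)
      apply hdet
      have h1 := detform_adjugate_mul_col (detformMat 𝔡 κ col) j₀ j₀
      rw [if_pos rfl] at h1
      rw [← h1]
      refine Finset.sum_eq_zero fun i _ => ?_
      have h2 : (detformMat 𝔡 κ col).adjugate j₀ i = 0 := by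
        have h3 := h i
        rw [hcof] at h3
        exact h3
      rw [h2, zero_mul]
    obtain ⟨i₀, -, hi₀⟩ := Finset.exists_max_image Finset.univ (fun i => absv v (cof i))
      ⟨0, Finset.mem_univ _⟩
    have hMpos : 0 < absv v (cof i₀) := by
      obtain ⟨i, hi⟩ := hcofne
      exact lt_of_lt_of_le (absv_pos hi) (hi₀ i (Finset.mem_univ _))
    -- the minor
    have hminor : absv v (cof i₀)
        = absv v (detformMat 𝔡 (κ ∘ i₀.succAbove) (col ∘ j₀.succAbove)).det := by
      rw [hcof]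
      exact detform_absv_adjugate v (detformMat 𝔡 κ col) j₀ i₀
    have hdet' : (detformMat 𝔡 (κ ∘ i₀.succAbove) (col ∘ j₀.succAbove)).det ≠ 0 := by
      intro h
      rw [h, absv_zero] at hminor
      exact absurd hminor (ne_of_gt hMpos)
    -- the smaller divisor
    obtain ⟨E', hE'⟩ : ∃ E' : PtN N →₀ ℕ, E' = E - Finsupp.single P₀ 1 := ⟨_, rfl⟩
    have hE'app : ∀ P, E' P = E P - (Finsupp.single P₀ 1 : PtN N →₀ ℕ) P := by
      intro P
      rw [hE', Finsupp.tsub_apply]
    have hE'P₀ : E' P₀ = m := by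
      rw [hE'app, Finsupp.single_eq_same, hm]
      simp
    have hE'ne : ∀ P, P ≠ P₀ → E' P = E P := by
      intro P hP
      rw [hE'app, Finsupp.single_eq_of_ne hP]
      simp
    have hEeq : E = E' + Finsupp.single P₀ 1 := by
      ext P
      rw [Finsupp.add_apply]
      by_cases hP : P = P₀
      · subst hP
        rw [hE'P₀, Finsupp.single_eq_same, hm]
      · rw [hE'ne P hP, Finsupp.single_eq_of_ne hP, add_zero]
    have hcol' : Function.Injective (col ∘ j₀.succAbove) :=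
      hcol.comp Fin.succAbove_right_injective
    have hEcol' : ∀ P s, (∃ j, (col ∘ j₀.succAbove) j = (P, s)) ↔ s < E' P := by
      intro P s
      constructor
      · rintro ⟨j, hj⟩
        have h1 : s < E P := (hE P s).mp ⟨_, hj⟩
        by_cases hP : P = P₀
        · subst hP
          rw [hE'P₀]
          have : s ≠ m := by
            rintro rfl
            exact Fin.succAbove_ne j₀ j (hcol (hj.trans hj₀.symm))
          omega
        · rwa [hE'ne P hP]
      · intro hs
        have h1 : s < E P := by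
          by_cases hP : P = P₀
          · subst hP
            rw [hE'P₀] at hs
            omega
          · rwa [hE'ne P hP] at hs
        obtain ⟨j, hj⟩ := (hE P s).mpr h1
        have hjj : j ≠ j₀ := by
          rintro rfl
          rw [hj₀] at hj
          obtain ⟨h2, h3⟩ := Prod.mk.inj hj
          subst h2
          subst h3
          rw [hE'P₀] at hs
          omega
        obtain ⟨j', hj'⟩ := Fin.exists_succAbove_eq hjj
        exact ⟨j', by
          show col (j₀.succAbove j') = _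
          rw [hj', hj]⟩
    have hZ' : ∀ P ∈ E'.support, P ∉ Zp := by
      intro P hP
      apply hZ
      rw [Finsupp.mem_support_iff] at hP ⊢
      by_cases hPP : P = P₀
      · subst hPP
        omega
      · rwa [hE'ne P hPP] at hP
    have hIH := ih E' (κ ∘ i₀.succAbove) (col ∘ j₀.succAbove) hcol' hEcol' hZ' hdet'
    -- the function ψ
    obtain ⟨hψ0, hord, hlc, hge⟩ := detform_step_alg 𝔡 κ col E hcol hE hK0 hdet j₀ P₀ m hj₀ hm
    rw [← hcof] at hψ0 hord hlc hge
    obtain ⟨D, hD⟩ := exists_isDivOf hψ0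
    have hDdeg := sum_eq_zero_of_isDivOf hψ0 hD
    -- (A7)
    have hsum : ∑ k, (∑ i, if κ i = k then cof i else 0) • 𝔡.φ k = detformPsi 𝔡 κ cof :=
      detform_sum_regroup κ cof 𝔡.φ
    have hcM : ∀ k, absv v (∑ i, if κ i = k then cof i else 0) ≤ absv v (cof i₀) := by
      intro k
      rcases detform_regroup_coef κ hκ cof k with h | ⟨i, h⟩
      · rw [h, absv_zero]
        exact hMpos.le
      · rw [h]
        exact hi₀ i (Finset.mem_univ _)
    have hA7 := L.sup (fun k => ∑ i, if κ i = k then cof i else 0) (absv v (cof i₀)) D hMpos hcM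
      (by rw [hsum]; exact hψ0) (by rw [hsum]; exact hD) P₀ hP₀Z
    rw [hsum, hlc] at hA7
    have hA7' : detPot L.γ L.r D P₀ + lg v (detformMat 𝔡 κ col).det
        ≤ lg v (detformMat 𝔡 (κ ∘ i₀.succAbove) (col ∘ j₀.succAbove)).det + L.C7 := by
      unfold detPot
      unfold lg at hA7 ⊢
      rw [← hminor]
      exact hA7
    -- lower bound for the potential
    have hB := detPot_lower L.γ L.r L.Cγ_nonneg L.γ_lower D E' 𝔡.K0 P₀ hDdeg
      (by rw [hD P₀, hord, hE'P₀]) hP₀K (by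
        intro P
        rw [hD P, hE']
        exact hge P)
    rw [detPot_dofNat_of_eq_zero L.γ L.r 𝔡.K0 P₀ hP₀K] at hB
    have hA4 := L.omega P₀ hP₀Z
    rw [abs_le] at hA4
    -- combine
    rw [hEeq, detPhi_add_single L.γ L.r L.γ_symm]
    have h1 : L.Cγ * (ndeg 𝔡.K0 : ℝ) ≤ L.Cγ * (2 * 𝔡.gq) := by
      apply mul_le_mul_of_nonneg_left _ L.Cγ_nonneg
      exact_mod_cast hdegK
    have h2 := le_abs_self L.cω
    unfold LocalPkgAt.detCstep at hIH ⊢
    push_cast
    linarith [hA4.2]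

/-- **(A5), the determinant inequality**, from (A1), (A4), (A7). -/
theorem LocalPkgAt.detIneq (L : LocalPkgAt N 𝔡 Zp v) (hK : ∀ P ∈ 𝔡.K0.support, P ∈ Zp)
    (hdegK : ndeg 𝔡.K0 ≤ 2 * 𝔡.gq) : L.DetIneq := by
  intro E hEdeg hEZ hw
  have hcard : Fintype.card (DiffDatum.ColIdx E) = 𝔡.gq := by
    rw [← hEdeg]
    unfold ndeg
    rw [Fintype.card_sigma]
    simp only [Fintype.card_fin]
    rw [Finsupp.sum]
    exact Finset.sum_coe_sort E.support (fun P => E P)
  unfold DiffDatum.wdetN at hw ⊢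
  rw [dif_pos hcard] at hw ⊢
  obtain ⟨e, he⟩ : ∃ e : DiffDatum.ColIdx E ≃ Fin 𝔡.gq, e = Fintype.equivFinOfCardEq hcard := ⟨_, rfl⟩
  rw [← he] at hw ⊢
  obtain ⟨col, hcol⟩ : ∃ col : Fin 𝔡.gq → PtN N × ℕ,
      col = fun j => ((e.symm j).1.1, ((e.symm j).2 : ℕ)) := ⟨_, rfl⟩
  have hmat : (𝔡.wmat E).submatrix id e.symm = detformMat 𝔡 id col := by
    rw [hcol]
    rfl
  rw [hmat] at hw ⊢
  have hinj : Function.Injective col := by
    intro j j' h
    have h' : ((e.symm j).1.1, ((e.symm j).2 : ℕ)) = ((e.symm j').1.1, ((e.symm j').2 : ℕ)) := by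
      rw [hcol] at h
      exact h
    apply e.symm.injective
    rcases hc : e.symm j with ⟨⟨P, hP⟩, s⟩
    rcases hc' : e.symm j' with ⟨⟨P', hP'⟩, s'⟩
    rw [hc, hc'] at h'
    obtain ⟨h1, h2⟩ := Prod.mk.inj h'
    have h1' : P = P' := h1
    subst h1'
    have : s = s' := Fin.ext h2
    subst this
    rfl
  have hEcol : ∀ P s, (∃ j, col j = (P, s)) ↔ s < E P := by
    intro P s
    constructor
    · rintro ⟨j, hj⟩
      have hj' : ((e.symm j).1.1, ((e.symm j).2 : ℕ)) = (P, s) := by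
        rw [hcol] at hj
        exact hj
      obtain ⟨h1, h2⟩ := Prod.mk.inj hj'
      rw [← h1, ← h2]
      exact (e.symm j).2.2
    · intro hs
      have hP : P ∈ E.support := by
        rw [Finsupp.mem_support_iff]
        omega
      refine ⟨e ⟨⟨P, hP⟩, ⟨s, hs⟩⟩, ?_⟩
      rw [hcol]
      show ((e.symm (e ⟨⟨P, hP⟩, ⟨s, hs⟩⟩)).1.1, ((e.symm (e ⟨⟨P, hP⟩, ⟨s, hs⟩⟩)).2 : ℕ)) = (P, s)
      rw [Equiv.symm_apply_apply]
  have hmain := detform_main L hK hdegK 𝔡.gq E id col hinj hEcol (fun P hP => (hEZ P hP).1) hw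
  unfold detPhi at hmain
  unfold LocalPkgAt.Cdet
  unfold LocalPkgAt.detCstep at hmain
  linarith

end Main

end Fermat.Agent.MW
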