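/-
PROJECT MW (S17), package [D1] (helper9): the confluent determinant `wdetN E` of an effective
divisor `E` of degree `gq` off the zeros of `ω₀` is nonzero iff `L(K0 - E) = 0`.
-/
import Mathlib
import Fermat.Agent.MW.DETFORM_helper7_Main

set_option autoImplicit false
set_option linter.unusedSectionVars false

open scoped BigOperators

namespace Fermat.Agent.MW

open AlgebraicCurve ModularCurve Fermat.Agent.JA Fermat.Agent.FF

variable {N : ℕ} [NeZero N] (𝔡 : DiffDatum N)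

/-- the linear combination of the `φ k` with coefficients `v`. -/
noncomputable def d1Comb (v : Fin 𝔡.gq → AlgebraicClosure ℚ) : FunN N := ∑ k, v k • 𝔡.φ k

theorem d1Comb_mem {Q : PtN N} (hQ : 𝔡.K0 Q = 0) (v : Fin 𝔡.gq → AlgebraicClosure ℚ) :
    d1Comb 𝔡 v ∈ Q.toValuationSubring := by
  unfold d1Comb
  refine Subring.sum_mem _ fun k _ => ?_
  exact detform_smul_mem (detform_φ_mem 𝔡 hQ k) (v k)

/-- **the kernel of the confluent matrix**: `v` kills all columns of `wmat E` iff the combination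
`Σ v k • φ k` lies in `L(K0 - E)`. -/
theorem d1_vecMul_eq_zero_iff (E : PtN N →₀ ℕ) (hE : ∀ P ∈ E.support, 𝔡.K0 P = 0)
    (v : Fin 𝔡.gq → AlgebraicClosure ℚ) :
    (∀ c : DiffDatum.ColIdx E, ∑ k, v k * 𝔡.wmat E k c = 0) ↔
      ∀ Q : PtN N, d1Comb 𝔡 v = 0 ∨ (E Q : ℤ) - (𝔡.K0 Q : ℤ) ≤ Q.ord (d1Comb 𝔡 v) := by
  have hval : ∀ (P : PtN N) (hP : 𝔡.K0 P = 0) (s : ℕ),
      HasValueAt P (𝔡.jet s (d1Comb 𝔡 v)) (∑ k, v k * valN N P (𝔡.jet s (𝔡.φ k))) := fun P hP s =>
    detform_hasValueAt_jet_sum 𝔡 hP Finset.univ v id s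
  constructor
  · intro h Q
    by_cases hQ : Q ∈ E.support
    · have hK := hE Q hQ
      rw [hK]
      have hiff := taylor_ordGE_iff (detform_deg_eq_one Q) (detform_derUnramAt 𝔡 hK)
        (d1Comb_mem 𝔡 hK v) (E Q)
      have := hiff.mpr (fun i hi => by
        have hc := h ⟨⟨Q, hQ⟩, ⟨i, hi⟩⟩
        have hv := hval Q hK i
        have e : (∑ k, v k * valN N Q (𝔡.jet i (𝔡.φ k))) = 0 := hc
        rw [e] at hv
        exact hv)
      rcases this with h0 | h1
      · exact Or.inl h0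
      · right
        simpa using h1
    · have hE0 : E Q = 0 := Finsupp.notMem_support_iff.mp hQ
      rw [hE0]
      have hsp : OrdGE Q (-(𝔡.K0 Q : ℤ)) (d1Comb 𝔡 v) :=
        detform_ordGE_span 𝔡 Q Finset.univ v id
      rcases hsp with h0 | h1
      · exact Or.inl h0
      · right
        simpa using h1
  · rintro h ⟨⟨P, hP⟩, ⟨s, hs⟩⟩
    have hK := hE P hP
    have hiff := taylor_ordGE_iff (detform_deg_eq_one P) (detform_derUnramAt 𝔡 hK)
      (d1Comb_mem 𝔡 hK v) (E P)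
    have h1 : d1Comb 𝔡 v = 0 ∨ ((E P : ℕ) : ℤ) ≤ P.ord (d1Comb 𝔡 v) := by
      rcases h P with h0 | h1
      · exact Or.inl h0
      · right
        rw [hK] at h1
        simpa using h1
    have h2 : HasValueAt P (𝔡.jet s (d1Comb 𝔡 v)) 0 := hiff.mp h1 s hs
    have h3 := hval P hK s
    have : (∑ k, v k * valN N P (𝔡.jet s (𝔡.φ k))) = 0 := by
      rw [← h3.valueAt_eq, h2.valueAt_eq]
    exact this

/-- **[D1]**: `wdetN E ≠ 0` iff `L(K0 - E) = 0`. -/
theorem DiffDatum.wdetN_ne_zero_iff (hB : 𝔡.IsBasis) (E : PtN N →₀ ℕ) (hdeg : ndeg E = 𝔡.gq)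
    (hE : ∀ P ∈ E.support, 𝔡.K0 P = 0) :
    𝔡.wdetN E ≠ 0 ↔
      ∀ f : FunN N, (∀ Q : PtN N, f = 0 ∨ (E Q : ℤ) - (𝔡.K0 Q : ℤ) ≤ Q.ord f) → f = 0 := by
  classical
  have hcard : Fintype.card (DiffDatum.ColIdx E) = 𝔡.gq := by
    rw [← hdeg]
    unfold ndeg
    rw [Fintype.card_sigma]
    simp only [Fintype.card_fin]
    rw [Finsupp.sum]
    exact Finset.sum_coe_sort E.support (fun P => E P)
  unfold DiffDatum.wdetN
  rw [dif_pos hcard]
  obtain ⟨e, he⟩ : ∃ e : DiffDatum.ColIdx E ≃ Fin 𝔡.gq, e = Fintype.equivFinOfCardEq hcard :=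
    ⟨_, rfl⟩
  rw [← he]
  set M : Matrix (Fin 𝔡.gq) (Fin 𝔡.gq) (AlgebraicClosure ℚ) :=
    (𝔡.wmat E).submatrix id e.symm with hM
  -- the kernel of `M`
  have hker : ∀ v : Fin 𝔡.gq → AlgebraicClosure ℚ, Matrix.vecMul v M = 0 ↔
      ∀ Q : PtN N, d1Comb 𝔡 v = 0 ∨ (E Q : ℤ) - (𝔡.K0 Q : ℤ) ≤ Q.ord (d1Comb 𝔡 v) := by
    intro v
    rw [← d1_vecMul_eq_zero_iff 𝔡 E hE v]
    constructor
    · intro h c
      have := congrFun h (e c)
      simp only [Matrix.vecMul, dotProduct, hM, Matrix.submatrix_apply, id_eq,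
        Equiv.symm_apply_apply, Pi.zero_apply] at this
      exact this
    · intro h
      funext j
      simp only [Matrix.vecMul, dotProduct, hM, Matrix.submatrix_apply, id_eq, Pi.zero_apply]
      exact h (e.symm j)
  -- linear independence
  have hli : ∀ v : Fin 𝔡.gq → AlgebraicClosure ℚ, d1Comb 𝔡 v = 0 → v = 0 := by
    intro v hv
    have := Fintype.linearIndependent_iff.mp hB.1 v hv
    funext k
    exact this k
  constructor
  · intro hdet f hf
    have hfK : ∀ Q : PtN N, f = 0 ∨ -(𝔡.K0 Q : ℤ) ≤ Q.ord f := by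
      intro Q
      rcases hf Q with h0 | h1
      · exact Or.inl h0
      · right
        have : (0 : ℤ) ≤ (E Q : ℤ) := Int.natCast_nonneg _
        omega
    have hspan := hB.2 f hfK
    obtain ⟨v, hv⟩ := (Submodule.mem_span_range_iff_exists_fun _).mp hspan
    have hfv : f = d1Comb 𝔡 v := hv.symm
    rw [hfv] at hf ⊢
    have hv0 : Matrix.vecMul v M = 0 := (hker v).mpr hf
    have : v = 0 := by
      by_contra hne
      exact hdet (Matrix.exists_vecMul_eq_zero_iff.mp ⟨v, hne, hv0⟩)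
    rw [this]
    simp [d1Comb]
  · intro hL hdet
    obtain ⟨v, hne, hv0⟩ := Matrix.exists_vecMul_eq_zero_iff.mpr hdet
    have h1 := hL (d1Comb 𝔡 v) ((hker v).mp hv0)
    exact hne (hli v h1)

end Fermat.Agent.MW
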