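import Mathlib
import Fermat.Agent.MW.INST_helper8_Lc
import Fermat.Agent.MW.INST_helper8_Dv
import Fermat.Agent.MW.MUMFORD_helper8_MB1

/-!
# Project MW — [NC] part 2 (helper4, literal of helper8 msg 1665): the fibres of `Q ↦ lcN φ Q`

Off the exceptional set and the cusp `∞`, the leading coefficient of a function `φ` with
`div φ = Z_φ - n_φ ∞` (`Z_φ ≥ 0` supported in `Zp`, `n_φ ≥ 1`) is its value, and the fibres of the
value map of a non-constant function are finite.
-/

set_option autoImplicit false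
set_option linter.unusedSectionVars false

open scoped BigOperators

noncomputable section

namespace Fermat.Agent.MW

open AlgebraicCurve ModularCurve Fermat.Agent.JA Fermat.Agent.FF

/-- **the fibres of the leading coefficient of `φ` are finite.** -/
theorem DiffDatum.lcN_fibre_finite {N : ℕ} [NeZero N] (𝔡 : DiffDatum N) (Zp : Finset (PtN N))
    (hinf : infN N ∉ Zp) (φ : FnN N) (nφ : ℕ) (hn : 1 ≤ nφ) (Zφ : PtN N →₀ ℕ)
    (hZ : ∀ P ∈ Zφ.support, P ∈ Zp)
    (hdiv : dvN N φ = dofNat Zφ - Finsupp.single (infN N) (nφ : ℤ)) (z : AlgebraicClosure ℚ) :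
    {Q : PtN N | Q ∉ Zp ∧ Q ≠ infN N ∧ 𝔡.lcN φ.1 Q = z}.Finite := by
  classical
  -- the order of `φ` at `∞`
  have hZinf : Zφ (infN N) = 0 := by
    by_contra h
    exact hinf (hZ _ (Finsupp.mem_support_iff.mpr h))
  have hordinf : (infN N).ord φ.1 = -(nφ : ℤ) := by
    rw [← dvN_apply, hdiv, Finsupp.sub_apply, dofNat_apply, hZinf, Finsupp.single_eq_same]
    simp
  -- `φ - z ≠ 0`
  have hg : φ.1 - algebraMap (AlgebraicClosure ℚ) (FunN N) z ≠ 0 := by
    intro h0
    have : φ.1 = algebraMap (AlgebraicClosure ℚ) (FunN N) z := sub_eq_zero.mp h0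
    rw [this, PlaceAux.ord_algebraMap] at hordinf
    have : (1 : ℤ) ≤ nφ := by exact_mod_cast hn
    omega
  refine ((dvN N ⟨_, hg⟩).support.finite_toSet).subset ?_
  rintro Q ⟨hQZ, hQinf, hQz⟩
  have hZQ : Zφ Q = 0 := by
    by_contra h
    exact hQZ (hZ _ (Finsupp.mem_support_iff.mpr h))
  have hord : Q.ord φ.1 = 0 := by
    rw [← dvN_apply, hdiv, Finsupp.sub_apply, dofNat_apply, hZQ,
      Finsupp.single_eq_of_ne hQinf]
    simp
  have hlc : 𝔡.lcN φ.1 Q = valN N Q φ.1 := by
    unfold DiffDatum.lcN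
    rw [if_pos hord]
  have hval : HasValueAt Q φ.1 z := by
    rw [← hQz, hlc]
    exact valN_spec Q (Or.inr hord.ge)
  have hpos : 0 < Q.ord (φ.1 - algebraMap (AlgebraicClosure ℚ) (FunN N) z) :=
    (HasValueAt.iff_ord.mp hval).resolve_left hg
  rw [Finset.mem_coe, Finsupp.mem_support_iff, dvN_apply]
  exact hpos.ne'

end Fermat.Agent.MW
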