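import Mathlib
import Fermat.Agent.MW.MUMFORD_helper8_MB1

/-!
# Project MW — [NC] part 1 (helper4, literal of helper8 msg 1665): the abstract Northcott input

`HtSys.northcottInput_of` : the Northcott input (NC) of a height system follows from
(N1) Northcott finiteness in the field of values (bounded orbit, bounded height) and
(N2) finiteness of the fibres of `Q ↦ lc φ Q` off the exceptional set.
-/

set_option autoImplicit false

open scoped BigOperators

noncomputable section

namespace Fermat.Agent.MW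

attribute [local instance] Finsupp.comapSMul Finsupp.comapMulAction Finsupp.comapDistribMulAction

theorem nc_card_support_le_ndeg {X : Type*} (E : X →₀ ℕ) : E.support.card ≤ ndeg E := by
  unfold ndeg
  rw [Finsupp.sum, Finset.card_eq_sum_ones]
  refine Finset.sum_le_sum fun P hP => ?_
  exact Nat.one_le_iff_ne_zero.mpr (Finsupp.mem_support_iff.mp hP)

theorem nc_apply_le_ndeg {X : Type*} (E : X →₀ ℕ) (P : X) : E P ≤ ndeg E := by
  by_cases hP : P ∈ E.support
  · unfold ndeg
    rw [Finsupp.sum]
    exact Finset.single_le_sum (f := fun Q => E Q) (fun _ _ => Nat.zero_le _) hP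
  · rw [Finsupp.notMem_support_iff.mp hP]
    exact Nat.zero_le _

namespace HtSys

variable {G K X Fn V J : Type} [Group G] [Field K] [MulSemiringAction G K]
  [MulAction G X] [MulAction G Fn] [AddCommGroup J] [DistribMulAction G J] [DecidableEq X]
  (S : HtSys G K X Fn V J)

include S in
/-- the orbit of a class is finite. -/
theorem orbit_class_finite (a : J) : (MulAction.orbit G a).Finite := by
  classical
  obtain ⟨D, rfl⟩ := S.cls_surj a
  have hfin := orbit_finsupp_finite (G := G) D.1 S.orbX
  refine (hfin.image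
    (fun D' : X →₀ ℤ => if h : D' ∈ dZero X then S.cls ⟨D', h⟩ else 0)).subset ?_
  rintro _ ⟨σ, rfl⟩
  refine ⟨σ • D.1, ⟨σ, rfl⟩, ?_⟩
  have h : σ • D.1 ∈ dZero X := smul_mem_dZero σ D.2
  simp only [dif_pos h]
  exact S.cls_smul σ D h

/-- a generic non-special class is determined by its reduced divisor. -/
theorem eq_of_Ey_eq {y y' : J} (hy : S.NS y) (hy' : S.NS y') (h : S.Ey y = S.Ey y') : y = y' := by
  have h1 : dofNat (S.Ey y) - Finsupp.single S.inf (S.gq : ℤ) ∈ dZero X :=
    S.D1_mem_dZero (S.Ey_deg y hy)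
  have h2 : dofNat (S.Ey y') - Finsupp.single S.inf (S.gq : ℤ) ∈ dZero X :=
    S.D1_mem_dZero (S.Ey_deg y' hy')
  have key : ∀ (E E' : X →₀ ℕ) (_ : E = E')
      (k1 : dofNat E - Finsupp.single S.inf (S.gq : ℤ) ∈ dZero X)
      (k2 : dofNat E' - Finsupp.single S.inf (S.gq : ℤ) ∈ dZero X),
      S.cls ⟨_, k1⟩ = S.cls ⟨_, k2⟩ := by
    intro E E' hE k1 k2
    subst hE
    rfl
  rw [← S.Ey_cls y hy h1, ← S.Ey_cls y' hy' h2]
  exact key _ _ h h1 h2

/-- **the abstract Northcott input.** -/
theorem northcottInput_of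
    (hN1 : ∀ (d : ℕ) (B : ℝ), {a : K | (MulAction.orbit G a).ncard ≤ d ∧ S.habs a ≤ B}.Finite)
    (hN2 : ∀ z : K, {Q : X | Q ∉ S.Zp ∧ Q ≠ S.inf ∧ S.lc S.φ Q = z}.Finite) :
    S.NorthcottInput := by
  classical
  intro a _ B
  have hOa := S.orbit_class_finite a
  set d : ℕ := hOa.toFinset.card * S.gq with hd
  have hF := hN1 d B
  have hT : (⋃ z ∈ {a : K | (MulAction.orbit G a).ncard ≤ d ∧ S.habs a ≤ B},
      {Q : X | Q ∉ S.Zp ∧ Q ≠ S.inf ∧ S.lc S.φ Q = z}).Finite :=
    hF.biUnion fun z _ => hN2 z
  set 𝓔 : Finset (X →₀ ℕ) := hT.toFinset.finsupp (fun _ => Finset.range (S.gq + 1)) with h𝓔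
  refine Set.Finite.of_injOn (f := fun x => S.Ey (x + a)) (t := (𝓔 : Set (X →₀ ℕ))) ?_ ?_
    𝓔.finite_toSet
  · -- the reduced divisors lie in a finite set
    rintro x ⟨hfix, hNS, heta⟩
    set y := x + a with hy
    set E := S.Ey y with hE
    have hdeg : ndeg E = S.gq := S.Ey_deg y hNS
    have hxy : ∀ σ : G, x + σ • a = σ • y := fun σ => by rw [hy, smul_add, hfix σ]
    show E ∈ (𝓔 : Set (X →₀ ℕ))
    rw [Finset.mem_coe, h𝓔, Finset.mem_finsupp_iff]
    constructor
    · intro P hP
      rw [Set.Finite.mem_toFinset, Set.mem_iUnion₂]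
      refine ⟨S.lc S.φ P, ⟨?_, ?_⟩, (S.Ey_supp y hNS P hP).1, (S.Ey_supp y hNS P hP).2, rfl⟩
      · -- the orbit of the value
        set U : Finset K := hOa.toFinset.biUnion
          (fun a' => (S.Ey (x + a')).support.image (S.lc S.φ)) with hU
        have hsub : MulAction.orbit G (S.lc S.φ P) ⊆ (U : Set K) := by
          rintro _ ⟨σ, rfl⟩
          have e1 : σ • S.lc S.φ P = S.lc S.φ (σ • P) := by
            have := S.lc_smul σ S.φ P
            rw [S.φ_fix σ] at this
            exact this.symm
          show σ • S.lc S.φ P ∈ (U : Set K)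
          rw [e1, Finset.mem_coe, hU, Finset.mem_biUnion]
          refine ⟨σ • a, by rw [Set.Finite.mem_toFinset]; exact ⟨σ, rfl⟩, ?_⟩
          rw [Finset.mem_image]
          refine ⟨σ • P, ?_, rfl⟩
          rw [hxy σ, S.Ey_smul σ y hNS, Finsupp.mem_support_iff, gdivNat,
            Finsupp.mapDomain_apply (MulAction.injective σ)]
          exact Finsupp.mem_support_iff.mp hP
        have hcard : U.card ≤ d := by
          refine Finset.card_biUnion_le.trans ?_
          rw [hd, ← smul_eq_mul, ← Finset.sum_const]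
          refine Finset.sum_le_sum fun a' ha' => ?_
          rw [Set.Finite.mem_toFinset] at ha'
          obtain ⟨σ, rfl⟩ := ha'
          refine Finset.card_image_le.trans ?_
          show (S.Ey (x + σ • a)).support.card ≤ S.gq
          rw [hxy σ, ← S.Ey_deg (σ • y) (S.NS_smul σ y hNS)]
          exact nc_card_support_le_ndeg _
        refine (Set.ncard_le_ncard hsub U.finite_toSet).trans ?_
        rw [Set.ncard_coe_finset]
        exact hcard
      · -- the height of the value
        have hterm : (E P : ℝ) * S.habs (S.lc S.φ P) ≤ S.eta y := by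
          unfold eta
          exact Finset.single_le_sum (f := fun P => (S.Ey y P : ℝ) * S.habs (S.lc S.φ P))
            (fun Q _ => mul_nonneg (Nat.cast_nonneg _) (S.habs_nonneg _)) hP
        have h1 : (1 : ℝ) ≤ E P := by
          exact_mod_cast Nat.one_le_iff_ne_zero.mpr (Finsupp.mem_support_iff.mp hP)
        have h0 := S.habs_nonneg (S.lc S.φ P)
        nlinarith
    · intro P _
      rw [Finset.mem_range, Nat.lt_succ_iff, ← hdeg]
      exact nc_apply_le_ndeg E P
  · -- injectivity
    rintro x ⟨-, hNS, -⟩ x' ⟨-, hNS', -⟩ h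
    exact add_right_cancel (S.eq_of_Ey_eq hNS hNS' h)

end HtSys

end Fermat.Agent.MW
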