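import Mathlib
import Fermat.Agent.MW.PF_helper8_Main

/-!
# Project MW — [NORTH] part 1: the local `log⁺` on `Ω` (helper8)

`lp v x = max 0 (log |x|_v) = log (max 1 |x|_v)`; sub-multiplicativity, the (ultrametric) triangle
inequality, integral elements, finiteness of the support in `v`.
-/

set_option autoImplicit false
set_option linter.style.haveILetI false

open scoped BigOperators

noncomputable section

namespace Fermat.Agent.MW

local notation "Ωq" => AlgebraicClosure ℚ

/-- `log⁺ |x|_v`. -/
def lp (v : Pl) (x : Ωq) : ℝ := max 0 (lg v x)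

theorem lp_nonneg (v : Pl) (x : Ωq) : 0 ≤ lp v x := le_max_left _ _

theorem lg_le_lp (v : Pl) (x : Ωq) : lg v x ≤ lp v x := le_max_right _ _

theorem lp_eq_log_max (v : Pl) (x : Ωq) : lp v x = Real.log (max 1 (absv v x)) := by
  unfold lp lg
  rcases le_total (absv v x) 1 with h | h
  · rw [max_eq_left h, Real.log_one, max_eq_left]
    exact Real.log_nonpos (absv_nonneg v x) h
  · rw [max_eq_right h, max_eq_right]
    exact Real.log_nonneg h

@[simp] theorem lp_zero (v : Pl) : lp v 0 = 0 := by
  rw [lp_eq_log_max, absv_zero, max_eq_left zero_le_one, Real.log_one]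

@[simp] theorem lp_one (v : Pl) : lp v 1 = 0 := by
  rw [lp_eq_log_max, absv_one, max_self, Real.log_one]

theorem lp_neg (v : Pl) (x : Ωq) : lp v (-x) = lp v x := by
  unfold lp
  rw [lg_neg]

theorem lp_eq_zero_of_absv_le_one {v : Pl} {x : Ωq} (h : absv v x ≤ 1) : lp v x = 0 := by
  rw [lp_eq_log_max, max_eq_left h, Real.log_one]

theorem absv_le_one_of_lp_eq_zero {v : Pl} {x : Ωq} (h : lp v x = 0) : absv v x ≤ 1 := by
  by_contra hcon
  rw [not_le] at hcon
  rw [lp_eq_log_max, max_eq_right hcon.le] at h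
  have := Real.log_pos hcon
  linarith

theorem lp_mul_le (v : Pl) (x y : Ωq) : lp v (x * y) ≤ lp v x + lp v y := by
  by_cases hx : x = 0
  · rw [hx, zero_mul, lp_zero, zero_add]; exact lp_nonneg v y
  by_cases hy : y = 0
  · rw [hy, mul_zero, lp_zero, add_zero]; exact lp_nonneg v x
  unfold lp
  rw [lg_mul v hx hy]
  refine max_le ?_ ?_
  · exact add_nonneg (le_max_left _ _) (le_max_left _ _)
  · exact add_le_add (le_max_right _ _) (le_max_right _ _)

theorem lp_prod_le {ι : Type*} (v : Pl) (s : Finset ι) (f : ι → Ωq) :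
    lp v (∏ i ∈ s, f i) ≤ ∑ i ∈ s, lp v (f i) := by
  classical
  induction s using Finset.induction_on with
  | empty => simp
  | insert a s ha ih =>
    rw [Finset.prod_insert ha, Finset.sum_insert ha]
    exact (lp_mul_le v _ _).trans (by gcongr)

/-- the archimedean defect of the triangle inequality. -/
def archC (v : Pl) : ℝ := if v = none then Real.log 2 else 0

theorem archC_nonneg (v : Pl) : 0 ≤ archC v := by
  unfold archC
  split_ifs
  · exact Real.log_nonneg (by norm_num)
  · exact le_refl _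

theorem archC_support : (Function.support archC).Finite := by
  refine (Set.finite_singleton (none : Pl)).subset fun v hv => ?_
  rw [Function.mem_support] at hv
  by_contra hne
  apply hv
  unfold archC
  rw [if_neg (fun h => hne (Set.mem_singleton_iff.mpr h))]

theorem lp_add_le (v : Pl) (x y : Ωq) : lp v (x + y) ≤ lp v x + lp v y + archC v := by
  rw [lp_eq_log_max, lp_eq_log_max, lp_eq_log_max]
  have hx1 : (1 : ℝ) ≤ max 1 (absv v x) := le_max_left _ _
  have hy1 : (1 : ℝ) ≤ max 1 (absv v y) := le_max_left _ _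
  have hxa : absv v x ≤ max 1 (absv v x) := le_max_right _ _
  have hya : absv v y ≤ max 1 (absv v y) := le_max_right _ _
  have hx0 : (0 : ℝ) < max 1 (absv v x) := lt_of_lt_of_le one_pos hx1
  have hy0 : (0 : ℝ) < max 1 (absv v y) := lt_of_lt_of_le one_pos hy1
  have hprod1 : (1 : ℝ) ≤ max 1 (absv v x) * max 1 (absv v y) := one_le_mul_of_one_le_of_one_le hx1 hy1
  have hxle : absv v x ≤ max 1 (absv v x) * max 1 (absv v y) :=
    hxa.trans (le_mul_of_one_le_right hx0.le hy1)
  have hyle : absv v y ≤ max 1 (absv v x) * max 1 (absv v y) :=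
    hya.trans (le_mul_of_one_le_left hy0.le hx1)
  cases v with
  | none =>
    have hC : archC none = Real.log 2 := by unfold archC; rw [if_pos rfl]
    rw [hC, ← Real.log_mul hx0.ne' hy0.ne', ← Real.log_mul (mul_pos hx0 hy0).ne' (by norm_num)]
    refine Real.log_le_log (lt_of_lt_of_le one_pos (le_max_left _ _)) (max_le ?_ ?_)
    · linarith
    · have := absv_add_le none x y
      linarith
  | some p =>
    have hC : archC (some p) = 0 := by unfold archC; rw [if_neg (by simp)]
    rw [hC, add_zero, ← Real.log_mul hx0.ne' hy0.ne']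
    refine Real.log_le_log (lt_of_lt_of_le one_pos (le_max_left _ _)) (max_le hprod1 ?_)
    exact (absv_some_add_le_max p x y).trans (max_le hxle hyle)

theorem lp_sub_le (v : Pl) (x y : Ωq) : lp v (x - y) ≤ lp v x + lp v y + archC v := by
  rw [sub_eq_add_neg]
  have := lp_add_le v x (-y)
  rwa [lp_neg] at this

/-! ### natural numbers -/

theorem absv_some_natCast_le_one (p : Nat.Primes) (m : ℕ) : absv (some p) (m : Ωq) ≤ 1 := by
  have h : ((m : ℕ) : Ωq) = algebraMap ℚ Ωq (m : ℚ) := by rw [map_natCast]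
  rw [h, absv_some_rat]
  exact_mod_cast padicNorm.of_nat (p := (p : ℕ)) m

theorem absv_some_intCast_le_one (p : Nat.Primes) (m : ℤ) : absv (some p) (m : Ωq) ≤ 1 := by
  have h : ((m : ℤ) : Ωq) = algebraMap ℚ Ωq (m : ℚ) := by rw [map_intCast]
  rw [h, absv_some_rat]
  exact_mod_cast padicNorm.of_int (p := (p : ℕ)) m

theorem lp_some_natCast (p : Nat.Primes) (m : ℕ) : lp (some p) (m : Ωq) = 0 :=
  lp_eq_zero_of_absv_le_one (absv_some_natCast_le_one p m)

theorem absv_none_natCast (m : ℕ) : absv none (m : Ωq) = (m : ℝ) := by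
  have h : ((m : ℕ) : Ωq) = algebraMap ℚ Ωq (m : ℚ) := by rw [map_natCast]
  rw [h, absv_none_rat]
  push_cast
  exact abs_of_nonneg (Nat.cast_nonneg m)

theorem lp_none_natCast (m : ℕ) : lp none (m : Ωq) = Real.log (max 1 (m : ℝ)) := by
  rw [lp_eq_log_max, absv_none_natCast]

/-! ### integral elements -/

/-- an element integral over `ℤ` has `p`-adic absolute value `≤ 1`. -/
theorem absv_some_le_one_of_isIntegral (p : Nat.Primes) {x : Ωq} (hx : IsIntegral ℤ x) :
    absv (some p) x ≤ 1 := by
  rw [← mem_padicPlace_iff_absv]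
  have h1 : IsIntegral (padicPlace (p : ℕ)) x := hx.tower_top
  obtain ⟨y, hy⟩ := (IsIntegrallyClosed.isIntegral_iff (R := padicPlace (p : ℕ))).mp h1
  rw [← hy]
  exact y.2

/-- every element of `Ω` is `p`-integral for all but finitely many `p`. -/
theorem absv_some_le_one_finite (x : Ωq) :
    {p : Nat.Primes | ¬ absv (some p) x ≤ 1}.Finite := by
  have hint : IsIntegral ℚ x := (isAlgebraic_Om.isAlgebraic x).isIntegral
  obtain ⟨m, hm⟩ := IsIntegral.exists_multiple_integral_of_isLocalization
    (nonZeroDivisors ℤ) (Rₘ := ℚ) x hint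
  have hm0 : (m : ℤ) ≠ 0 := nonZeroDivisors.coe_ne_zero m
  have hmx : m • x = ((m : ℤ) : Ωq) * x := by
    rw [Submonoid.smul_def, zsmul_eq_mul]
  have hnat : (m : ℤ).natAbs ≠ 0 := Int.natAbs_ne_zero.mpr hm0
  have hfin : {p : Nat.Primes | (p : ℕ) ∣ (m : ℤ).natAbs}.Finite := by
    have : {p : Nat.Primes | (p : ℕ) ∣ (m : ℤ).natAbs} ⊆
        (fun p : Nat.Primes => (p : ℕ)) ⁻¹' ((m : ℤ).natAbs.divisors : Set ℕ) := by
      intro p hp
      simp only [Set.mem_preimage, Finset.mem_coe, Nat.mem_divisors]
      exact ⟨hp, hnat⟩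
    exact (Set.Finite.preimage (Subtype.val_injective.injOn)
      (m : ℤ).natAbs.divisors.finite_toSet).subset this
  refine hfin.subset fun p hp => ?_
  by_contra hdvd
  apply hp
  have h1 : absv (some p) (((m : ℤ) : Ωq) * x) ≤ 1 := by
    rw [← hmx]; exact absv_some_le_one_of_isIntegral p hm
  rw [absv_mul] at h1
  have h2 : absv (some p) ((m : ℤ) : Ωq) = 1 := by
    have h : (((m : ℤ) : ℤ) : Ωq) = algebraMap ℚ Ωq ((m : ℤ) : ℚ) := by rw [map_intCast]
    rw [h, absv_some_rat]
    have : padicNorm (p : ℕ) ((m : ℤ) : ℚ) = 1 := by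
      rw [padicNorm.int_eq_one_iff]
      intro hd
      exact hdvd (Int.natCast_dvd.mp hd)
    rw [this]
    norm_num
  rwa [h2, one_mul] at h1

/-- finiteness of the support of `v ↦ lp v x`. -/
theorem lp_support_finite (x : Ωq) : (Function.support fun v : Pl => lp v x).Finite := by
  have h := (absv_some_le_one_finite x).image (fun p : Nat.Primes => (some p : Pl))
  refine (h.insert (none : Pl)).subset fun v hv => ?_
  rw [Function.mem_support] at hv
  cases v with
  | none => exact Set.mem_insert _ _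
  | some p =>
    refine Set.mem_insert_of_mem _ ⟨p, ?_, rfl⟩
    intro hle
    exact hv (lp_eq_zero_of_absv_le_one hle)

end Fermat.Agent.MW
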