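import Mathlib
import Fermat.Agent.MW.NORTH_helper8_Lp

/-!
# Project MW — [NORTH] part 2: Northcott for rational numbers (helper8)

`hQ c = ∑ᶠ v, lp v c ≥ log max(|num c|, den c)`; hence `{c : ℚ | hQ c ≤ T}` is finite.
-/

set_option autoImplicit false
set_option linter.style.haveILetI false

open scoped BigOperators

noncomputable section

namespace Fermat.Agent.MW

local notation "Ωq" => AlgebraicClosure ℚ

/-- `log⁺ |c|_v` for a rational number. -/
def lpQ (v : Pl) (c : ℚ) : ℝ := lp v (algebraMap ℚ Ωq c)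

theorem lpQ_eq (v : Pl) (c : ℚ) : lpQ v c = max 0 (lgQ v c) := rfl

/-- the height of a rational number. -/
def hQ (c : ℚ) : ℝ := ∑ᶠ v : Pl, lpQ v c

theorem lpQ_nonneg (v : Pl) (c : ℚ) : 0 ≤ lpQ v c := lp_nonneg _ _

theorem lpQ_support_finite (c : ℚ) : (Function.support fun v : Pl => lpQ v c).Finite :=
  lp_support_finite _

/-- the key lower bound: `hQ c ≥ max (log den) (log |num|)`. -/
theorem hQ_ge {c : ℚ} (hc : c ≠ 0) :
    Real.log (c.den : ℝ) ≤ hQ c ∧ Real.log (c.num.natAbs : ℝ) ≤ hQ c := by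
  have hnum : c.num.natAbs ≠ 0 := Int.natAbs_ne_zero.mpr (Rat.num_ne_zero.mpr hc)
  have hden : c.den ≠ 0 := c.den_ne_zero
  have hdenQ : (c.den : ℚ) ≠ 0 := by exact_mod_cast hden
  -- `ψ v = lpQ v c + lgQ v den = max (lgQ v den) (lgQ v |num|)`
  have e : ∀ v : Pl, lgQ v c + lgQ v (c.den : ℚ) = lgQ v ((c.num.natAbs : ℕ) : ℚ) := by
    intro v
    rw [← lgQ_mul v hc hdenQ, Rat.mul_den_eq_num, lgQ_int_natAbs]
  have hψ : ∀ v : Pl, lpQ v c + lgQ v (c.den : ℚ)
      = max (lgQ v (c.den : ℚ)) (lgQ v ((c.num.natAbs : ℕ) : ℚ)) := by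
    intro v
    rw [lpQ_eq, ← e v, ← max_add_add_right, zero_add]
  have hψ0 : ∀ v : Pl, 0 ≤ lpQ v c + lgQ v (c.den : ℚ) := by
    intro v
    rw [hψ v]
    cases v with
    | none =>
      refine le_max_of_le_left ?_
      rw [lgQ_none]
      refine Real.log_nonneg ?_
      have : (1 : ℝ) ≤ (c.den : ℝ) := by exact_mod_cast Nat.one_le_iff_ne_zero.mpr hden
      push_cast
      rwa [abs_of_nonneg (Nat.cast_nonneg _)]
    | some p =>
      by_cases hp : (p : ℕ) ∣ c.den
      · refine le_max_of_le_right ?_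
        have hnp : ¬ (p : ℕ) ∣ c.num.natAbs := by
          intro h2
          have hcop : Nat.Coprime c.num.natAbs c.den := c.reduced
          have := Nat.eq_one_of_dvd_coprimes hcop h2 hp
          exact p.2.one_lt.ne' this
        rw [lgQ_some_nat_eq_zero p hnum hnp]
      · refine le_max_of_le_left ?_
        rw [lgQ_some_nat_eq_zero p hden hp]
  have hsum : ∑ᶠ v : Pl, (lpQ v c + lgQ v (c.den : ℚ)) = hQ c := by
    rw [finsum_add_distrib (lpQ_support_finite c) (lgQ_nat_support_finite hden),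
      finsum_lgQ_nat hden, add_zero]
    rfl
  have hfs : (Function.support fun v : Pl => lpQ v c + lgQ v (c.den : ℚ)).Finite :=
    ((lpQ_support_finite c).union (lgQ_nat_support_finite hden)).subset
      (Function.support_add _ _)
  have hsingle := single_le_finsum (none : Pl) hfs hψ0
  rw [hsum, hψ none, lgQ_none, lgQ_none] at hsingle
  have h1 : |(((c.den : ℕ) : ℚ) : ℝ)| = (c.den : ℝ) := by
    push_cast; exact abs_of_nonneg (Nat.cast_nonneg _)
  have h2 : |(((c.num.natAbs : ℕ) : ℚ) : ℝ)| = (c.num.natAbs : ℝ) := by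
    push_cast; exact abs_of_nonneg (Nat.cast_nonneg _)
  rw [h1, h2] at hsingle
  exact ⟨(le_max_left _ _).trans hsingle, (le_max_right _ _).trans hsingle⟩

/-- **Northcott for `ℚ`.** -/
theorem hQ_finite (T : ℝ) : {c : ℚ | hQ c ≤ T}.Finite := by
  obtain ⟨M, hM⟩ := exists_nat_ge (Real.exp T)
  have hfin : ((fun ab : ℤ × ℕ => (ab.1 : ℚ) / (ab.2 : ℚ)) ''
      ((Finset.Icc (-(M : ℤ)) M ×ˢ Finset.Icc 0 M : Finset (ℤ × ℕ)) : Set (ℤ × ℕ))).Finite :=
    (Finset.finite_toSet _).image _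
  refine (hfin.insert (0 : ℚ)).subset fun c hc => ?_
  by_cases hc0 : c = 0
  · exact hc0 ▸ Set.mem_insert _ _
  refine Set.mem_insert_of_mem _ ⟨(c.num, c.den), ?_, Rat.num_div_den c⟩
  obtain ⟨hd, hn⟩ := hQ_ge hc0
  have hnum : c.num.natAbs ≠ 0 := Int.natAbs_ne_zero.mpr (Rat.num_ne_zero.mpr hc0)
  have hden : c.den ≠ 0 := c.den_ne_zero
  have hd' : (c.den : ℝ) ≤ M := by
    have : (c.den : ℝ) ≤ Real.exp T :=
      (Real.log_le_iff_le_exp (by exact_mod_cast Nat.pos_of_ne_zero hden)).mp (hd.trans hc)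
    exact this.trans hM
  have hn' : (c.num.natAbs : ℝ) ≤ M := by
    have : (c.num.natAbs : ℝ) ≤ Real.exp T :=
      (Real.log_le_iff_le_exp (by exact_mod_cast Nat.pos_of_ne_zero hnum)).mp (hn.trans hc)
    exact this.trans hM
  have hd'' : c.den ≤ M := by exact_mod_cast hd'
  have hn'' : c.num.natAbs ≤ M := by exact_mod_cast hn'
  simp only [Finset.coe_product, Finset.coe_Icc, Set.mem_prod, Set.mem_Icc]
  refine ⟨⟨?_, ?_⟩, Nat.zero_le _, hd''⟩
  · omega
  · omega

end Fermat.Agent.MW
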