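import Mathlib
import Fermat.Agent.MW.NORTH_helper8_Rat
import Fermat.Agent.MW.MUMFORD_helper8_QI

/-!
# Project MW — [NORTH] part 3: Northcott's theorem on `Ω` (helper8)

`habsOm a = ∑ᶠ v, gavg GQ (fun b => max 0 (lg v b)) a` is the absolute logarithmic height of
`a ∈ Ω`; `northcott_Om d B : {a | |orbit a| ≤ d ∧ habsOm a ≤ B}` is finite.

Proof: the values `∏_{b ∈ orbit a} (m - b)` (`m = 0, …, d`) of `orbPoly a = ∏ (X - b)` are rational
numbers of bounded height, they determine `orbPoly a` (degree `≤ d`), whose roots are the orbit.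
-/

set_option autoImplicit false
set_option linter.style.haveILetI false

open scoped BigOperators

noncomputable section

namespace Fermat.Agent.MW

local notation "Ωq" => AlgebraicClosure ℚ
local notation "GQq" => (AlgebraicClosure ℚ ≃ₐ[ℚ] AlgebraicClosure ℚ)

/-- the orbit of `a` as a finset. -/
def Orb (a : Ωq) : Finset Ωq := (orbit_Om_finite a).toFinset

theorem mem_Orb {a b : Ωq} : b ∈ Orb a ↔ ∃ σ : GQq, σ a = b := by
  unfold Orb
  rw [Set.Finite.mem_toFinset]
  exact Iff.rfl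

theorem self_mem_Orb (a : Ωq) : a ∈ Orb a := mem_Orb.mpr ⟨1, rfl⟩

theorem Orb_card_pos (a : Ωq) : 0 < (Orb a).card := Finset.card_pos.mpr ⟨a, self_mem_Orb a⟩

theorem smul_mem_Orb {a b : Ωq} (σ : GQq) (hb : b ∈ Orb a) : σ b ∈ Orb a := by
  obtain ⟨τ, rfl⟩ := mem_Orb.mp hb
  exact mem_Orb.mpr ⟨σ * τ, rfl⟩

/-- the absolute logarithmic height on `Ω` (literally `HtSys.habs` for `lg`). -/
def habsOm (a : Ωq) : ℝ := ∑ᶠ v : Pl, gavg GQq (fun b => max 0 (lg v b)) a

/-- the un-normalised height `Σ_v Σ_{b ∈ orbit} log⁺|b|_v`. -/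
def hsumOm (a : Ωq) : ℝ := ∑ᶠ v : Pl, ∑ b ∈ Orb a, lp v b

theorem hsum_support_finite (a : Ωq) :
    (Function.support fun v : Pl => ∑ b ∈ Orb a, lp v b).Finite := by
  classical
  refine (Set.Finite.biUnion (Orb a).finite_toSet
    (fun b _ => lp_support_finite b)).subset fun v hv => ?_
  rw [Function.mem_support] at hv
  obtain ⟨b, hb, hne⟩ := Finset.exists_ne_zero_of_sum_ne_zero hv
  exact Set.mem_biUnion hb (Function.mem_support.mpr hne)

theorem habsOm_eq (a : Ωq) : habsOm a = hsumOm a / ((Orb a).card : ℝ) := by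
  unfold habsOm hsumOm
  have e : ∀ v : Pl, gavg GQq (fun b => max 0 (lg v b)) a
      = (∑ b ∈ Orb a, lp v b) * ((Orb a).card : ℝ)⁻¹ := by
    intro v
    rw [gavg_of_finite _ _ (orbit_Om_finite a), div_eq_mul_inv]
    rfl
  rw [finsum_congr e, ← finsum_mul, div_eq_mul_inv]

theorem hsumOm_nonneg (a : Ωq) : 0 ≤ hsumOm a :=
  finsum_nonneg fun v => Finset.sum_nonneg fun b _ => lp_nonneg v b

theorem habsOm_nonneg (a : Ωq) : 0 ≤ habsOm a := by
  rw [habsOm_eq]
  exact div_nonneg (hsumOm_nonneg a) (Nat.cast_nonneg _)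

theorem hsumOm_eq (a : Ωq) : hsumOm a = ((Orb a).card : ℝ) * habsOm a := by
  rw [habsOm_eq]
  have : ((Orb a).card : ℝ) ≠ 0 := by exact_mod_cast (Orb_card_pos a).ne'
  field_simp

/-! ### Galois-invariant products over the orbit -/

theorem prod_Orb_fixed (a : Ωq) (F : Ωq → Ωq) (hF : ∀ (σ : GQq) (b : Ωq), σ (F b) = F (σ b))
    (σ : GQq) : σ (∏ b ∈ Orb a, F b) = ∏ b ∈ Orb a, F b := by
  rw [map_prod]
  refine Finset.prod_bij' (fun b _ => σ b) (fun b _ => σ⁻¹ b) ?_ ?_ ?_ ?_ ?_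
  · intro b hb; exact smul_mem_Orb σ hb
  · intro b hb; exact smul_mem_Orb σ⁻¹ hb
  · intro b _
    show σ⁻¹ (σ b) = b
    rw [← AlgEquiv.mul_apply, inv_mul_cancel, AlgEquiv.one_apply]
  · intro b _
    show σ (σ⁻¹ b) = b
    rw [← AlgEquiv.mul_apply, mul_inv_cancel, AlgEquiv.one_apply]
  · intro b _; exact hF σ b

theorem exists_rat_prod_Orb (a : Ωq) (F : Ωq → Ωq)
    (hF : ∀ (σ : GQq) (b : Ωq), σ (F b) = F (σ b)) :
    ∃ r : ℚ, algebraMap ℚ Ωq r = ∏ b ∈ Orb a, F b := by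
  haveI := isGalois_Om
  exact (InfiniteGalois.mem_range_algebraMap_iff_fixed (k := ℚ) (K := Ωq) _).mpr
    (prod_Orb_fixed a F hF)

/-- the rational number `∏_{b ∈ orbit a} (m - b)`. -/
def orbVal (a : Ωq) (m : ℕ) : ℚ :=
  (exists_rat_prod_Orb a (fun b => (m : Ωq) - b)
    (fun σ b => by rw [map_sub, map_natCast])).choose

theorem orbVal_spec (a : Ωq) (m : ℕ) :
    algebraMap ℚ Ωq (orbVal a m) = ∏ b ∈ Orb a, ((m : Ωq) - b) :=
  (exists_rat_prod_Orb a (fun b => (m : Ωq) - b)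
    (fun σ b => by rw [map_sub, map_natCast])).choose_spec

/-- `∏_{b ∈ orbit a} (X - b)`. -/
def orbPoly (a : Ωq) : Polynomial Ωq := ∏ b ∈ Orb a, (Polynomial.X - Polynomial.C b)

theorem orbPoly_natDegree (a : Ωq) : (orbPoly a).natDegree = (Orb a).card :=
  Polynomial.natDegree_finsetProd_X_sub_C_eq_card _ _

theorem orbPoly_ne_zero (a : Ωq) : orbPoly a ≠ 0 :=
  Finset.prod_ne_zero_iff.mpr fun b _ => Polynomial.X_sub_C_ne_zero b

theorem orbPoly_eval (a : Ωq) (m : ℕ) :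
    (orbPoly a).eval (m : Ωq) = algebraMap ℚ Ωq (orbVal a m) := by
  rw [orbVal_spec, orbPoly, Polynomial.eval_prod]
  refine Finset.prod_congr rfl fun b _ => ?_
  simp

theorem orbPoly_root_iff (a x : Ωq) : (orbPoly a).eval x = 0 ↔ x ∈ Orb a := by
  rw [orbPoly, Polynomial.eval_prod, Finset.prod_eq_zero_iff]
  constructor
  · rintro ⟨b, hb, h0⟩
    have : x = b := by
      simpa [sub_eq_zero] using h0
    rw [this]; exact hb
  · intro hx
    exact ⟨x, hx, by simp⟩

/-! ### the height of the values -/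

theorem finsum_lp_natCast (m : ℕ) : ∑ᶠ v : Pl, lp v (m : Ωq) = Real.log (max 1 (m : ℝ)) := by
  rw [finsum_eq_single _ (none : Pl), lp_none_natCast]
  intro v hv
  cases v with
  | none => exact absurd rfl hv
  | some p => exact lp_some_natCast p m

theorem finsum_archC : ∑ᶠ v : Pl, archC v = Real.log 2 := by
  rw [finsum_eq_single _ (none : Pl)]
  · unfold archC; rw [if_pos rfl]
  · intro v hv
    unfold archC
    rw [if_neg hv]

theorem hQ_orbVal_le (a : Ωq) (m : ℕ) :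
    hQ (orbVal a m) ≤ ((Orb a).card : ℝ) * Real.log (max 1 (m : ℝ)) + hsumOm a
      + ((Orb a).card : ℝ) * Real.log 2 := by
  classical
  set n : ℝ := ((Orb a).card : ℝ) with hn
  have hpt : ∀ v : Pl, lpQ v (orbVal a m)
      ≤ n * lp v (m : Ωq) + (∑ b ∈ Orb a, lp v b) + n * archC v := by
    intro v
    unfold lpQ
    rw [orbVal_spec]
    refine (lp_prod_le v _ _).trans ?_
    have h1 : ∀ b ∈ Orb a, lp v ((m : Ωq) - b) ≤ lp v (m : Ωq) + lp v b + archC v :=
      fun b _ => lp_sub_le v _ _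
    refine (Finset.sum_le_sum h1).trans (le_of_eq ?_)
    rw [Finset.sum_add_distrib, Finset.sum_add_distrib, Finset.sum_const, Finset.sum_const,
      nsmul_eq_mul, nsmul_eq_mul]
  have hs1 : (Function.support fun v : Pl => n * lp v (m : Ωq)).Finite :=
    (lp_support_finite (m : Ωq)).subset (by
      intro v hv
      rw [Function.mem_support] at hv ⊢
      intro h0; apply hv; rw [h0, mul_zero])
  have hs2 := hsum_support_finite a
  have hs3 : (Function.support fun v : Pl => n * archC v).Finite :=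
    archC_support.subset (by
      intro v hv
      rw [Function.mem_support] at hv ⊢
      intro h0; apply hv; rw [h0, mul_zero])
  have hs12 : (Function.support fun v : Pl =>
      n * lp v (m : Ωq) + ∑ b ∈ Orb a, lp v b).Finite :=
    (hs1.union hs2).subset (Function.support_add _ _)
  have hs123 : (Function.support fun v : Pl =>
      n * lp v (m : Ωq) + (∑ b ∈ Orb a, lp v b) + n * archC v).Finite :=
    (hs12.union hs3).subset (Function.support_add _ _)
  unfold hQ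
  refine (finsum_le_finsum_of_le (lpQ_support_finite _) hs123 hpt).trans (le_of_eq ?_)
  rw [finsum_add_distrib hs12 hs3, finsum_add_distrib hs1 hs2, ← mul_finsum, ← mul_finsum,
    finsum_lp_natCast, finsum_archC]
  rfl

/-! ### Northcott -/

theorem orbPoly_eq_of_orbVal_eq {d : ℕ} {a a' : Ωq} (ha : (Orb a).card ≤ d)
    (ha' : (Orb a').card ≤ d) (h : ∀ m : ℕ, m ≤ d → orbVal a m = orbVal a' m) :
    orbPoly a = orbPoly a' := by
  classical
  set s : Finset Ωq := (Finset.range (d + 1)).image (fun m : ℕ => (m : Ωq)) with hs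
  have hcard : s.card = d + 1 := by
    rw [hs, Finset.card_image_of_injective _ Nat.cast_injective, Finset.card_range]
  have hdeg : ∀ b : Ωq, (Orb b).card ≤ d → (orbPoly b).degree < (s.card : WithBot ℕ) := by
    intro b hb
    rw [Polynomial.degree_eq_natDegree (orbPoly_ne_zero b), orbPoly_natDegree, hcard]
    exact_mod_cast Nat.lt_succ_of_le hb
  refine Polynomial.eq_of_degrees_lt_of_eval_finset_eq s (hdeg a ha) (hdeg a' ha') ?_
  intro x hx
  rw [hs, Finset.mem_image] at hx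
  obtain ⟨m, hm, rfl⟩ := hx
  rw [Finset.mem_range] at hm
  rw [orbPoly_eval, orbPoly_eval, h m (Nat.lt_succ_iff.mp hm)]

/-- **Northcott's theorem on `Ω`.** -/
theorem northcott_Om (d : ℕ) (B : ℝ) :
    {a : Ωq | (Orb a).card ≤ d ∧ habsOm a ≤ B}.Finite := by
  classical
  set S : Set Ωq := {a : Ωq | (Orb a).card ≤ d ∧ habsOm a ≤ B} with hS
  set T : ℝ := (d : ℝ) * Real.log (max 1 (d : ℝ)) + (d : ℝ) * max B 0 + (d : ℝ) * Real.log 2
    with hT
  let Φ : Ωq → (Fin (d + 1) → ℚ) := fun a i => orbVal a (i : ℕ)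
  refine Set.Finite.of_finite_fibers Φ ?_ ?_
  · -- the image is finite
    have hpi : (Set.univ.pi fun _ : Fin (d + 1) => {c : ℚ | hQ c ≤ T}).Finite :=
      Set.Finite.pi fun _ => hQ_finite T
    refine hpi.subset ?_
    rintro _ ⟨a, ⟨hcard, hB⟩, rfl⟩
    rw [Set.mem_univ_pi]
    intro i
    show hQ (orbVal a (i : ℕ)) ≤ T
    refine (hQ_orbVal_le a (i : ℕ)).trans ?_
    have hn : ((Orb a).card : ℝ) ≤ (d : ℝ) := by exact_mod_cast hcard
    have hn0 : (0 : ℝ) ≤ ((Orb a).card : ℝ) := Nat.cast_nonneg _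
    have hi : ((i : ℕ) : ℝ) ≤ (d : ℝ) := by exact_mod_cast Nat.lt_succ_iff.mp i.2
    have hlog : Real.log (max 1 ((i : ℕ) : ℝ)) ≤ Real.log (max 1 (d : ℝ)) :=
      Real.log_le_log (lt_of_lt_of_le one_pos (le_max_left _ _))
        (max_le_max (le_refl _) hi)
    have hlog0 : 0 ≤ Real.log (max 1 ((i : ℕ) : ℝ)) := Real.log_nonneg (le_max_left _ _)
    have hlog2 : 0 ≤ Real.log 2 := Real.log_nonneg (by norm_num)
    have hB' : habsOm a ≤ max B 0 := hB.trans (le_max_left _ _)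
    have hB0 : (0 : ℝ) ≤ max B 0 := le_max_right _ _
    rw [hsumOm_eq, hT]
    have t1 : ((Orb a).card : ℝ) * Real.log (max 1 ((i : ℕ) : ℝ))
        ≤ (d : ℝ) * Real.log (max 1 (d : ℝ)) :=
      mul_le_mul hn hlog hlog0 (hn0.trans hn)
    have t2 : ((Orb a).card : ℝ) * habsOm a ≤ (d : ℝ) * max B 0 :=
      mul_le_mul hn hB' (habsOm_nonneg a) (hn0.trans hn)
    have t3 : ((Orb a).card : ℝ) * Real.log 2 ≤ (d : ℝ) * Real.log 2 :=
      mul_le_mul_of_nonneg_right hn hlog2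
    linarith
  · -- the fibres are finite
    rintro _ ⟨a, ⟨hcard, _⟩, rfl⟩
    refine (Orb a).finite_toSet.subset ?_
    rintro a' ⟨⟨hcard', _⟩, hΦ⟩
    rw [Set.mem_preimage, Set.mem_singleton_iff] at hΦ
    have hval : ∀ m : ℕ, m ≤ d → orbVal a' m = orbVal a m := by
      intro m hm
      exact congrFun hΦ ⟨m, Nat.lt_succ_of_le hm⟩
    have hpoly := orbPoly_eq_of_orbVal_eq hcard' hcard hval
    have hroot : (orbPoly a').eval a' = 0 := (orbPoly_root_iff a' a').mpr (self_mem_Orb a')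
    rw [hpoly] at hroot
    exact (orbPoly_root_iff a a').mp hroot

theorem Orb_smul (σ : GQq) (a : Ωq) : Orb (σ a) = Orb a := by
  ext b
  rw [mem_Orb, mem_Orb]
  constructor
  · rintro ⟨τ, rfl⟩
    exact ⟨τ * σ, rfl⟩
  · rintro ⟨τ, rfl⟩
    refine ⟨τ * σ⁻¹, ?_⟩
    show τ (σ⁻¹ (σ a)) = τ a
    rw [← AlgEquiv.mul_apply σ⁻¹ σ, inv_mul_cancel, AlgEquiv.one_apply]

theorem habsOm_smul (σ : GQq) (a : Ωq) : habsOm (σ a) = habsOm a := by
  rw [habsOm_eq, habsOm_eq]
  unfold hsumOm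
  rw [Orb_smul]

/-- Northcott with `Set.ncard` of the orbit. -/
theorem northcott_Om_ncard (d : ℕ) (B : ℝ) :
    {a : Ωq | (MulAction.orbit GQq a).ncard ≤ d ∧ habsOm a ≤ B}.Finite := by
  refine (northcott_Om d B).subset ?_
  rintro a ⟨h1, h2⟩
  refine ⟨?_, h2⟩
  unfold Orb
  rwa [← Set.ncard_eq_toFinset_card _ (orbit_Om_finite a)]

end Fermat.Agent.MW
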