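import Mathlib
import Fermat.Agent.MW.INST_helper8_Wdet
import Fermat.Agent.MW.DETFORM_helper7_Main

/-!
# Project MW — [INST] part 5: the concrete height system on `X₀(N)` (helper8)

`htSysN` assembles `HtSys GQ Ω (PtN N) (FnN N) Pl (JZero N)` from
* a rational differential `𝔡 : DiffDatum N` (genus `≥ 1`),
* the exceptional set `Zp` (finite, `GQ`-stable, `∞ ∉ Zp`, `⊇ supp K0`),
* the local packages `LF : LocalFamily N 𝔡 Zp` ((A1), (A3), (A4), (A7), (A6)),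
* the Riemann–Roch inputs `R : RRInput N 𝔡 Zp` ((REP), (NS), (TR), `ψ`, `φ`).
-/

set_option autoImplicit false
set_option linter.unusedSectionVars false

open scoped BigOperators

noncomputable section

namespace Fermat.Agent.MW

open AlgebraicCurve ModularCurve

variable (N : ℕ) [NeZero N]

/-- **The Riemann–Roch inputs** of the global theory, in concrete terms (owner: [RR-APP]). -/
structure RRInput (𝔡 : DiffDatum N) (Zp : Finset (PtN N)) where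
  /-- (REP) -/
  rep : ∀ y : JZero N, ∃ D : dZero (PtN N), clsN N D = y ∧ dnorm D.1 ≤ 4 * 𝔡.gq ∧
    ∀ P ∈ D.1.support, P ∉ Zp ∧ P ≠ infN N
  /-- (NS) -/
  NS : JZero N → Prop
  Ey : JZero N → (PtN N →₀ ℕ)
  NS_smul : ∀ (σ : GQ) y, NS y → NS (σ • y)
  Ey_smul : ∀ (σ : GQ) y, NS y → Ey (σ • y) = gdivNat σ (Ey y)
  Ey_deg : ∀ y, NS y → ndeg (Ey y) = 𝔡.gq
  Ey_supp : ∀ y, NS y → ∀ P ∈ (Ey y).support, P ∉ Zp ∧ P ≠ infN N
  Ey_cls : ∀ y, NS y → ∀ h : dofNat (Ey y) - Finsupp.single (infN N) (𝔡.gq : ℤ) ∈ dZero (PtN N),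
    clsN N ⟨_, h⟩ = y
  Ey_wdet : ∀ y, NS y → 𝔡.wdetN (Ey y) ≠ 0
  /-- (TR) -/
  𝒜 : Finset (JZero N)
  translate : ∀ y : JZero N, ∃ a ∈ 𝒜, NS (y + a) ∧ NS (y - a)
  /-- `ψ` -/
  ψ : FnN N
  ψ_fix : ∀ σ : GQ, σ • ψ = ψ
  Eψ : PtN N →₀ ℕ
  Eψ_supp : ∀ P ∈ Eψ.support, P ∈ Zp
  ψ_div : dvN N ψ = dofNat Eψ - Finsupp.single (infN N) ((2 * 𝔡.gq * (2 * 𝔡.gq - 1) : ℕ) : ℤ)
    + ((2 * 𝔡.gq : ℕ) : ℤ) • dofNat 𝔡.K0
  /-- `φ` -/
  φ : FnN N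
  φ_fix : ∀ σ : GQ, σ • φ = φ
  nφ : ℕ
  nφ_pos : 1 ≤ nφ
  Zφ : PtN N →₀ ℕ
  Zφ_supp : ∀ P ∈ Zφ.support, P ∈ Zp
  φ_div : dvN N φ = dofNat Zφ - Finsupp.single (infN N) (nφ : ℤ)

variable {N}

theorem LocalFamily.Cdet_support {𝔡 : DiffDatum N} {Zp : Finset (PtN N)}
    (LF : LocalFamily N 𝔡 Zp) : (Function.support fun v => (LF.pkg v).Cdet).Finite := by
  refine (((LF.C7_support.union LF.Cγ_support).union LF.cω_support).union
    LF.Cω_support).subset ?_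
  intro v hv
  rw [Function.mem_support] at hv
  by_contra hcon
  apply hv
  simp only [Set.mem_union, Function.mem_support, not_or, not_not] at hcon
  obtain ⟨⟨⟨e1, e2⟩, e3⟩, e4⟩ := hcon
  unfold LocalPkgAt.Cdet
  rw [e1, e2, e3, e4]
  simp

theorem LocalPkgAt.Cdet_nonneg {𝔡 : DiffDatum N} {Zp : Finset (PtN N)} {v : Pl}
    (L : LocalPkgAt N 𝔡 Zp v) : 0 ≤ L.Cdet := by
  unfold LocalPkgAt.Cdet
  have h1 := L.C7_nonneg
  have h2 := L.Cγ_nonneg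
  have h3 := L.Cω_nonneg
  have h4 := abs_nonneg L.cω
  have h5 : (0 : ℝ) ≤ (𝔡.gq : ℝ) := Nat.cast_nonneg _
  positivity

/-- **The concrete height system on `X₀(N)`.** -/
def htSysN (𝔡 : DiffDatum N) (hg : 1 ≤ 𝔡.gq) (Zp : Finset (PtN N)) (hinf : infN N ∉ Zp)
    (hZp : ∀ (σ : GQ) P, P ∈ Zp → σ • P ∈ Zp) (hK : ∀ P ∈ 𝔡.K0.support, P ∈ Zp)
    (hdegK : ndeg 𝔡.K0 ≤ 2 * 𝔡.gq) (LF : LocalFamily N 𝔡 Zp) (R : RRInput N 𝔡 Zp) :
    HtSys GQ (AlgebraicClosure ℚ) (PtN N) (FnN N) Pl (JZero N) where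
  gq := 𝔡.gq
  gq_pos := hg
  orbK := orbit_Om_finite
  orbX := orbit_PtN_finite N
  lg := lg
  lg_mul := fun v a b ha hb => lg_mul v ha hb
  lg_neg := lg_neg
  pf_support := pf_support_Om
  pf := pf_Om
  dv := dvN N
  dv_deg := ddeg_dvN N
  dv_smul := dvN_smul N
  lc := fun f Q => 𝔡.lcN f.1 Q
  lc_ne := fun f Q => 𝔡.lcN_ne_zero f.2 Q
  lc_smul := fun σ f Q => 𝔡.lcN_gal_smul σ f.2 Q
  cls := clsN N
  cls_surj := clsN_surj N
  cls_eq_zero := clsN_eq_zero N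
  cls_smul := clsN_smul N
  inf := infN N
  inf_fix := gal_smul_infN N
  Zp := Zp
  inf_notMem := hinf
  Zp_smul := hZp
  γ := fun v => (LF.pkg v).γ
  r := fun v => (LF.pkg v).r
  Cγ := fun v => (LF.pkg v).Cγ
  Cw := fun v d => (LF.pkg v).Cw d
  cω := fun v => (LF.pkg v).cω
  Cω := fun v => (LF.pkg v).Cω
  Cdet := fun v => (LF.pkg v).Cdet
  K0 := 𝔡.K0
  K0_supp := hK
  γ_symm := fun v => (LF.pkg v).γ_symm
  γ_lower := fun v => (LF.pkg v).γ_lower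
  weil := fun d f hd => LF.weil_global d f.1 (dvN N f) f.2 (dvN_spec N f) hd
  omega := fun v => (LF.pkg v).omega
  wdet := 𝔡.wdetN
  wdet_smul := fun v σ E => 𝔡.lg_wdetN_gal_smul v σ E
  det := fun v => (LF.pkg v).detIneq hK hdegK
  Cγ_nonneg := fun v => (LF.pkg v).Cγ_nonneg
  Cw_nonneg := fun v => (LF.pkg v).Cw_nonneg
  Cω_nonneg := fun v => (LF.pkg v).Cω_nonneg
  Cdet_nonneg := fun v => (LF.pkg v).Cdet_nonneg
  Cγ_support := LF.Cγ_support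
  Cw_support := LF.Cw_support
  cω_support := LF.cω_support
  Cω_support := LF.Cω_support
  Cdet_support := LF.Cdet_support
  γ_support := LF.γ_support
  r_support := LF.r_support
  rep := R.rep
  NS := R.NS
  Ey := R.Ey
  NS_smul := R.NS_smul
  Ey_smul := R.Ey_smul
  Ey_deg := R.Ey_deg
  Ey_supp := R.Ey_supp
  Ey_cls := R.Ey_cls
  Ey_wdet := R.Ey_wdet
  𝒜 := R.𝒜
  translate := R.translate
  ψ := R.ψ
  ψ_fix := R.ψ_fix
  Eψ := R.Eψ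
  Eψ_supp := R.Eψ_supp
  ψ_div := R.ψ_div
  φ := R.φ
  φ_fix := R.φ_fix
  nφ := R.nφ
  nφ_pos := R.nφ_pos
  Zφ := R.Zφ
  Zφ_supp := R.Zφ_supp
  φ_div := R.φ_div

end Fermat.Agent.MW
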