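import Mathlib
import Fermat.Agent.MW.MUMFORD_helper8_MB1

/-!
# Project MW — [MUMFORD] layer M4, part 2: the pointwise Mumford inequality (helper8)
-/

set_option autoImplicit false

open scoped BigOperators

noncomputable section

namespace Fermat.Agent.MW

attribute [local instance] Finsupp.comapSMul Finsupp.comapMulAction Finsupp.comapDistribMulAction

section LocPairSmul

variable {X : Type*} [DecidableEq X] (γ : X → X → ℝ) (r : X → ℝ)

theorem locPair_zsmul_left (n : ℤ) (D E : X →₀ ℤ) :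
    locPair γ r (n • D) E = (n : ℝ) * locPair γ r D E := by
  rw [locPair_eq_sum, locPair_eq_sum, Finsupp.sum_smul_index' (by intro P; simp [Finsupp.sum])]
  simp only [Finsupp.sum, Finset.mul_sum, smul_eq_mul]
  refine Finset.sum_congr rfl fun P _ => Finset.sum_congr rfl fun Q _ => ?_
  push_cast
  ring

end LocPairSmul

namespace HtSys

variable {G K X Fn V J : Type} [Group G] [Field K] [MulSemiringAction G K]
  [MulAction G X] [MulAction G Fn] [AddCommGroup J] [DistribMulAction G J] [DecidableEq X]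
  (S : HtSys G K X Fn V J)

theorem pot_eq_Lam (v : V) (D : X →₀ ℤ) (Q : X) :
    S.pot v D Q = S.Lam v D (Finsupp.single Q 1) := by
  rw [Lam_single_right]; simp

theorem pot_add (v : V) (D D' : X →₀ ℤ) (Q : X) :
    S.pot v (D + D') Q = S.pot v D Q + S.pot v D' Q := by
  rw [pot_eq_Lam, pot_eq_Lam, pot_eq_Lam]; exact locPair_add_left _ _ _ _ _

theorem pot_sub (v : V) (D D' : X →₀ ℤ) (Q : X) :
    S.pot v (D - D') Q = S.pot v D Q - S.pot v D' Q := by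
  rw [pot_eq_Lam, pot_eq_Lam, pot_eq_Lam]; exact locPair_sub_left _ _ _ _ _

theorem pot_zsmul (v : V) (n : ℤ) (D : X →₀ ℤ) (Q : X) :
    S.pot v (n • D) Q = (n : ℝ) * S.pot v D Q := by
  rw [pot_eq_Lam, pot_eq_Lam]; exact locPair_zsmul_left _ _ _ _ _

/-- potential of an effective divisor supported in `𝒵'` at a point off `𝒵'`. -/
theorem pot_dofNat_of_supp (v : V) (A : X →₀ ℕ) (hA : ∀ Z ∈ A.support, Z ∈ S.Zp) {P : X}
    (hP : P ∉ S.Zp) : S.pot v (dofNat A) P = ∑ Z ∈ A.support, (A Z : ℝ) * S.γ v Z P := by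
  unfold pot
  rw [support_dofNat]
  refine Finset.sum_congr rfl fun Z hZ => ?_
  have hne : Z ≠ P := fun h => hP (h ▸ hA Z hZ)
  rw [if_neg hne, dofNat_apply]
  push_cast
  rfl

theorem pot_dofNat_ge (v : V) (A : X →₀ ℕ) (hA : ∀ Z ∈ A.support, Z ∈ S.Zp) {P : X}
    (hP : P ∉ S.Zp) : -((ndeg A : ℝ) * S.Cγ v) ≤ S.pot v (dofNat A) P := by
  rw [pot_dofNat_of_supp S v A hA hP]
  have h1 : (ndeg A : ℝ) = ∑ Z ∈ A.support, (A Z : ℝ) := by
    unfold ndeg; rw [Finsupp.sum]; push_cast; rfl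
  rw [h1, Finset.sum_mul, ← Finset.sum_neg_distrib]
  refine Finset.sum_le_sum fun Z hZ => ?_
  have hne : Z ≠ P := fun h => hP (h ▸ hA Z hZ)
  have h2 := S.γ_lower v Z P hne
  have h3 : (0 : ℝ) ≤ (A Z : ℝ) := Nat.cast_nonneg _
  nlinarith

theorem pot_single_inf (v : V) (m : ℤ) {P : X} (hP : P ≠ S.inf) :
    S.pot v (Finsupp.single S.inf m) P = (m : ℝ) * S.γ v S.inf P := by
  classical
  unfold pot
  by_cases hm : m = 0
  · subst hm; simp
  · rw [Finsupp.support_single _ hm, Finset.sum_singleton, if_neg (Ne.symm hP),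
      Finsupp.single_eq_same]

/-- the weight of the canonical divisor seen from `P`. -/
def potK (v : V) (P : X) : ℝ := ∑ Z ∈ S.K0.support, (S.K0 Z : ℝ) * S.γ v Z P

/-- total size of the divisor of `ψ`. -/
def dψ : ℕ := (dnorm (S.dv S.ψ)).toNat

theorem dnorm_dv_ψ_le : dnorm (S.dv S.ψ) ≤ (S.dψ : ℤ) := by
  unfold dψ
  rw [Int.toNat_of_nonneg (dnorm_nonneg _)]

/-- the Weil constants of `ψ`. -/
def cψ : V → ℝ := (S.weil S.dψ S.ψ S.dnorm_dv_ψ_le).choose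

theorem cψ_support : (Function.support S.cψ).Finite :=
  (S.weil S.dψ S.ψ S.dnorm_dv_ψ_le).choose_spec.1

theorem weil_ψ (v : V) (Q : X) (hQ : Q ∉ S.Zp) :
    |S.pot v (S.dv S.ψ) Q + S.lg v (S.lc S.ψ Q) - S.cψ v| ≤ S.Cw v S.dψ :=
  (S.weil S.dψ S.ψ S.dnorm_dv_ψ_le).choose_spec.2 v Q (Or.inr hQ)

/-- the `ψ`-bound: `2g · potK(P) ≤ cψ - lg ψ(P) + Cw + deg Eψ · Cγ + 2g(2g-1) γ(∞,P)`. -/
theorem gq_mul_potK_le (v : V) {P : X} (hP : P ∉ S.Zp) (hPinf : P ≠ S.inf) :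
    ((2 * S.gq : ℕ) : ℝ) * S.potK v P ≤ S.cψ v - S.lg v (S.lc S.ψ P) + S.Cw v S.dψ
      + (ndeg S.Eψ : ℝ) * S.Cγ v + ((2 * S.gq * (2 * S.gq - 1) : ℕ) : ℝ) * S.γ v S.inf P := by
  have h1 := (abs_le.mp (S.weil_ψ v P hP)).2
  have h2 : S.pot v (S.dv S.ψ) P = S.pot v (dofNat S.Eψ) P
      - ((2 * S.gq * (2 * S.gq - 1) : ℕ) : ℝ) * S.γ v S.inf P
      + ((2 * S.gq : ℕ) : ℝ) * S.potK v P := by
    rw [S.ψ_div, pot_add, pot_sub, pot_zsmul, pot_single_inf S v _ hPinf,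
      pot_dofNat_of_supp S v S.K0 S.K0_supp hP]
    unfold potK
    push_cast
    rfl
  have h3 := S.pot_dofNat_ge v S.Eψ S.Eψ_supp hP
  rw [h2] at h1
  linarith

/-- the constant of the pointwise Mumford inequality. -/
def Cmb (v : V) : ℝ :=
  2 * S.Cdet v + (1 / 2) * (S.cψ v + S.Cw v S.dψ + (ndeg S.Eψ : ℝ) * S.Cγ v)
    - (S.gq : ℝ) * (S.cω v - S.Cω v) + (S.gq : ℝ) ^ 2 * S.r v S.inf

theorem Lam_dofNat_self (v : V) (E : X →₀ ℕ) :
    S.Lam v (dofNat E) (dofNat E)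
      = (∑ P ∈ E.support, ∑ Q ∈ E.support,
          if P = Q then 0 else (E P : ℝ) * (E Q : ℝ) * S.γ v P Q)
        + ∑ P ∈ E.support, (E P : ℝ) ^ 2 * S.r v P := by
  unfold Lam locPair
  rw [support_dofNat]
  have : ∀ P ∈ E.support, ∑ Q ∈ E.support, ((dofNat E P : ℤ) : ℝ) * ((dofNat E Q : ℤ) : ℝ)
      * (if P = Q then S.r v P else S.γ v P Q)
      = (∑ Q ∈ E.support, if P = Q then 0 else (E P : ℝ) * (E Q : ℝ) * S.γ v P Q)
        + (E P : ℝ) ^ 2 * S.r v P := by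
    intro P hP
    have hsplit : ∀ Q ∈ E.support, ((dofNat E P : ℤ) : ℝ) * ((dofNat E Q : ℤ) : ℝ)
        * (if P = Q then S.r v P else S.γ v P Q)
        = (if P = Q then 0 else (E P : ℝ) * (E Q : ℝ) * S.γ v P Q)
          + (if P = Q then (E P : ℝ) ^ 2 * S.r v P else 0) := by
      intro Q _
      rw [dofNat_apply, dofNat_apply]
      by_cases h : P = Q
      · subst h; simp only [if_true]; push_cast; ring
      · simp only [if_neg h]; push_cast; ring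
    rw [Finset.sum_congr rfl hsplit, Finset.sum_add_distrib, Finset.sum_ite_eq E.support P,
      if_pos hP]
  rw [Finset.sum_congr rfl this, Finset.sum_add_distrib]

theorem sum_cast_eq_gq {E : X →₀ ℕ} (hE : ndeg E = S.gq) :
    ∑ P ∈ E.support, (E P : ℝ) = (S.gq : ℝ) := by
  rw [← hE]; unfold ndeg; rw [Finsupp.sum]; push_cast; rfl

/-- **the pointwise Mumford inequality.** -/
theorem Lam_D1_le (v : V) {E : X →₀ ℕ} (hE : S.GoodE E) :
    S.Lam v (S.D1 E) (S.D1 E) ≤ -S.hinf v E - 2 * S.lg v (S.wdet E)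
      - (1 / ((2 * S.gq : ℕ) : ℝ)) * (∑ P ∈ E.support, (E P : ℝ) * S.lg v (S.lc S.ψ P))
      + S.Cmb v := by
  have hg : (0 : ℝ) < S.gq := by exact_mod_cast S.gq_pos
  have hb : (0 : ℝ) < ((2 * S.gq : ℕ) : ℝ) := by push_cast; linarith
  have hdet := S.det v E hE.deg hE.supp hE.wdet
  rw [S.Lam_D1 v hE.supp, S.Lam_dofNat_self v E]
  -- (c) + (d) at each point
  have hpt : ∀ P ∈ E.support, -((E P : ℝ) * S.r v P) ≤
      (E P : ℝ) * ((1 / ((2 * S.gq : ℕ) : ℝ)) * (S.cψ v - S.lg v (S.lc S.ψ P) + S.Cw v S.dψ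
        + (ndeg S.Eψ : ℝ) * S.Cγ v
        + ((2 * S.gq * (2 * S.gq - 1) : ℕ) : ℝ) * S.γ v S.inf P)
        - (S.cω v - S.Cω v)) := by
    intro P hP
    obtain ⟨hPZ, hPinf⟩ := hE.supp P hP
    have h1 := (abs_le.mp (S.omega v P hPZ)).1
    have h2 := S.gq_mul_potK_le v hPZ hPinf
    have h3 : S.potK v P ≤ (1 / ((2 * S.gq : ℕ) : ℝ)) * (S.cψ v - S.lg v (S.lc S.ψ P)
        + S.Cw v S.dψ + (ndeg S.Eψ : ℝ) * S.Cγ v
        + ((2 * S.gq * (2 * S.gq - 1) : ℕ) : ℝ) * S.γ v S.inf P) := by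
      rw [one_div, ← div_eq_inv_mul, le_div_iff₀ hb]
      linarith
    have h4 : -S.r v P ≤ S.potK v P - (S.cω v - S.Cω v) := by
      unfold potK; linarith
    have h5 : (0 : ℝ) ≤ (E P : ℝ) := Nat.cast_nonneg _
    have h6 := mul_le_mul_of_nonneg_left (le_trans h4 (sub_le_sub_right h3 _)) h5
    linarith
  have hsum := Finset.sum_le_sum hpt
  rw [Finset.sum_neg_distrib] at hsum
  -- evaluate the right-hand side
  have hcast : ((2 * S.gq * (2 * S.gq - 1) : ℕ) : ℝ)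
      = ((2 * S.gq : ℕ) : ℝ) * (2 * (S.gq : ℝ) - 1) := by
    have h1 : 1 ≤ 2 * S.gq := by have := S.gq_pos; omega
    push_cast [Nat.cast_sub h1]
    ring
  have hR : ∑ P ∈ E.support, (E P : ℝ) * ((1 / ((2 * S.gq : ℕ) : ℝ)) * (S.cψ v
        - S.lg v (S.lc S.ψ P)
        + S.Cw v S.dψ + (ndeg S.Eψ : ℝ) * S.Cγ v
        + ((2 * S.gq * (2 * S.gq - 1) : ℕ) : ℝ) * S.γ v S.inf P) - (S.cω v - S.Cω v))
      = (1 / 2) * (S.cψ v + S.Cw v S.dψ + (ndeg S.Eψ : ℝ) * S.Cγ v)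
        - (1 / ((2 * S.gq : ℕ) : ℝ)) * (∑ P ∈ E.support, (E P : ℝ) * S.lg v (S.lc S.ψ P))
        + (2 * (S.gq : ℝ) - 1) * S.hinf v E - (S.gq : ℝ) * (S.cω v - S.Cω v) := by
    have e : ∀ P ∈ E.support, (E P : ℝ) * ((1 / ((2 * S.gq : ℕ) : ℝ)) * (S.cψ v
        - S.lg v (S.lc S.ψ P)
        + S.Cw v S.dψ + (ndeg S.Eψ : ℝ) * S.Cγ v
        + ((2 * S.gq * (2 * S.gq - 1) : ℕ) : ℝ) * S.γ v S.inf P) - (S.cω v - S.Cω v))
        = (E P : ℝ) * ((1 / ((2 * S.gq : ℕ) : ℝ))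
              * (S.cψ v + S.Cw v S.dψ + (ndeg S.Eψ : ℝ) * S.Cγ v)
            - (S.cω v - S.Cω v))
          - (1 / ((2 * S.gq : ℕ) : ℝ)) * ((E P : ℝ) * S.lg v (S.lc S.ψ P))
          + (2 * (S.gq : ℝ) - 1) * ((E P : ℝ) * S.γ v S.inf P) := by
      intro P _
      rw [hcast]
      field_simp
      ring
    rw [Finset.sum_congr rfl e, Finset.sum_add_distrib, Finset.sum_sub_distrib,
      ← Finset.sum_mul, S.sum_cast_eq_gq hE.deg, ← Finset.mul_sum, ← Finset.mul_sum]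
    unfold hinf
    push_cast
    field_simp
    ring
  rw [hR] at hsum
  unfold Cmb
  have hexp : ∑ P ∈ E.support, ((E P : ℝ) ^ 2 + (E P : ℝ)) * S.r v P
      = (∑ P ∈ E.support, (E P : ℝ) ^ 2 * S.r v P) + ∑ P ∈ E.support, (E P : ℝ) * S.r v P := by
    rw [← Finset.sum_add_distrib]
    exact Finset.sum_congr rfl fun P _ => by ring
  rw [hexp] at hdet
  linarith

end HtSys

end Fermat.Agent.MW
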