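import Mathlib
import Fermat.Agent.MW.MUMFORD_helper8_MB2

/-!
# Project MW — [MUMFORD] layer M4, part 3: the averaged Mumford inequality (helper8)

`bil (D₁ E) (D₁ E) ≥ Hinf E - Σ_v Cmb v` for `E = Ey y`, `y ∈ NS`, where
`Hinf E = Σ_v gavg (hinf v) E`.
-/

set_option autoImplicit false

open scoped BigOperators

noncomputable section

namespace Fermat.Agent.MW

attribute [local instance] Finsupp.comapSMul Finsupp.comapMulAction Finsupp.comapDistribMulAction

section Aux

variable {G : Type*} [Group G] {X : Type*} [MulAction G X]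

theorem dofNat_smul (σ : G) (E : X →₀ ℕ) : dofNat (σ • E) = σ • dofNat E := by
  unfold dofNat
  rw [Finsupp.comapSMul_def, Finsupp.comapSMul_def]
  exact (Finsupp.mapDomain_mapRange _ _ _ _ (fun x y => by push_cast; ring)).symm

theorem ndeg_smul (σ : G) (E : X →₀ ℕ) : ndeg (σ • E) = ndeg E := by
  unfold ndeg
  rw [sum_smul_index]

end Aux

namespace HtSys

variable {G K X Fn V J : Type} [Group G] [Field K] [MulSemiringAction G K]
  [MulAction G X] [MulAction G Fn] [AddCommGroup J] [DistribMulAction G J] [DecidableEq X]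
  (S : HtSys G K X Fn V J)

theorem D1_smul (σ : G) (E : X →₀ ℕ) : S.D1 (σ • E) = σ • S.D1 E := by
  unfold D1
  rw [smul_sub, dofNat_smul, Finsupp.comapSMul_single, S.inf_fix]

/-- the global height of `E` with respect to `∞`. -/
def Hinf (E : X →₀ ℕ) : ℝ := ∑ᶠ v, gavg G (S.hinf v) E

theorem goodE_Ey {y : J} (hy : S.NS y) : S.GoodE (S.Ey y) :=
  ⟨S.Ey_deg y hy, S.Ey_supp y hy, S.Ey_wdet y hy⟩

theorem goodE_smul_Ey {y : J} (hy : S.NS y) (σ : G) : S.GoodE (σ • S.Ey y) := by
  have h := S.goodE_Ey (S.NS_smul σ y hy)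
  rwa [S.Ey_smul σ y hy] at h

include S in
theorem orbit_nat_finite (E : X →₀ ℕ) : (MulAction.orbit G E).Finite :=
  orbit_finsupp_finite E S.orbX

/-- finiteness of the support of `v ↦ gavg (hinf v) E`. -/
theorem gavg_hinf_support_finite {E : X →₀ ℕ} (hE : ∀ P ∈ E.support, P ≠ S.inf) :
    (Function.support fun v => gavg G (S.hinf v) E).Finite := by
  classical
  have horb := S.orbit_nat_finite E
  have hfin : (⋃ E₁ ∈ horb.toFinset, ⋃ P ∈ E₁.support,
      Function.support fun v => S.γ v S.inf P).Finite := by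
    refine Set.Finite.biUnion horb.toFinset.finite_toSet fun E₁ hE₁ => ?_
    refine Set.Finite.biUnion E₁.support.finite_toSet fun P hP => ?_
    rw [Finset.mem_coe, Set.Finite.mem_toFinset] at hE₁
    obtain ⟨σ, rfl⟩ := hE₁
    refine S.γ_support S.inf P ?_
    intro h
    rw [Finset.mem_coe, mem_support_smul_iff] at hP
    apply hE _ hP
    rw [← h, S.inf_fix]
  refine hfin.subset ?_
  intro v hv
  rw [Function.mem_support] at hv
  by_contra hcon
  apply hv
  simp only [Set.mem_iUnion, Function.mem_support, not_exists, not_not] at hcon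
  rw [gavg_of_finite _ _ horb, Finset.sum_eq_zero, zero_div]
  intro E₁ hE₁
  unfold hinf
  exact Finset.sum_eq_zero fun P hP => by rw [hcon E₁ hE₁ P hP, mul_zero]

/-- change of variables: the `wdet` term. -/
theorem gavg_lg_wdet (v : V) (E : X →₀ ℕ) :
    gavg G (fun E₁ : X →₀ ℕ => S.lg v (S.wdet E₁)) E = gavg G (S.lg v) (S.wdet E) :=
  gavg_eq_of_joint _ _ E (S.wdet E) (S.orbit_nat_finite E) (S.orbK _)
    fun σ => S.wdet_smul v σ E

/-- change of variables: the term of a `G`-fixed function `h` (`= ψ` or `φ`) with any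
`F : ℝ → ℝ` (`= id` or `max 0`). -/
theorem gavg_sum_lc (v : V) (h : Fn) (hfix : ∀ σ : G, σ • h = h) (F : ℝ → ℝ) (E : X →₀ ℕ) :
    gavg G (fun E₁ : X →₀ ℕ => ∑ P ∈ E₁.support, (E₁ P : ℝ) * F (S.lg v (S.lc h P))) E
      = ∑ P ∈ E.support, (E P : ℝ) * gavg G (fun a => F (S.lg v a)) (S.lc h P) := by
  classical
  set a : E.support → K := fun Q => S.lc h Q.1 with ha
  have horb2 : (MulAction.orbit G a).Finite := orbit_pi_finite a fun Q => S.orbK _
  have h1 : gavg G (fun E₁ : X →₀ ℕ => ∑ P ∈ E₁.support, (E₁ P : ℝ) * F (S.lg v (S.lc h P))) E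
      = gavg G (fun a' : E.support → K => ∑ Q : E.support, (E Q.1 : ℝ) * F (S.lg v (a' Q))) a := by
    refine gavg_eq_of_joint _ _ E a (S.orbit_nat_finite E) horb2 fun σ => ?_
    have e : (∑ P ∈ (σ • E).support, ((σ • E) P : ℝ) * F (S.lg v (S.lc h P)))
        = (σ • E).sum fun P n => (n : ℝ) * F (S.lg v (S.lc h P)) := rfl
    rw [e, sum_smul_index, Finsupp.sum, ← Finset.sum_coe_sort]
    refine Finset.sum_congr rfl fun Q _ => ?_
    have : S.lc h (σ • Q.1) = σ • S.lc h Q.1 := by
      have := S.lc_smul σ h Q.1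
      rwa [hfix σ] at this
    rw [this]
    rfl
  rw [h1, gavg_finset_sum, ← Finset.sum_coe_sort E.support
    (fun P => (E P : ℝ) * gavg G (fun a => F (S.lg v a)) (S.lc h P))]
  refine Finset.sum_congr rfl fun Q _ => ?_
  rw [gavg_const_mul]
  congr 1
  exact gavg_comp_equivariant (G := G) (fun a' : E.support → K => a' Q) (fun _ _ => rfl)
    (fun b => F (S.lg v b)) a horb2

theorem Cmb_support : (Function.support S.Cmb).Finite := by
  have h1 := S.Cdet_support
  have h2 := S.cψ_support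
  have h3 := S.Cw_support S.dψ
  have h4 := S.Cγ_support
  have h5 := S.cω_support
  have h6 := S.Cω_support
  have h7 := S.r_support S.inf S.inf_notMem
  refine ((((((h1.union h2).union h3).union h4).union h5).union h6).union h7).subset ?_
  intro v hv
  rw [Function.mem_support] at hv
  by_contra hcon
  apply hv
  simp only [Set.mem_union, Function.mem_support, not_or, not_not] at hcon
  obtain ⟨⟨⟨⟨⟨⟨e1, e2⟩, e3⟩, e4⟩, e5⟩, e6⟩, e7⟩ := hcon
  unfold Cmb
  rw [e1, e2, e3, e4, e5, e6, e7]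
  ring

/-- **the averaged Mumford inequality.** -/
theorem bil_D1_ge {y : J} (hy : S.NS y) :
    S.Hinf (S.Ey y) - ∑ᶠ v, S.Cmb v ≤ S.bil (S.D1 (S.Ey y)) (S.D1 (S.Ey y)) := by
  classical
  set E := S.Ey y with hE
  have hgood := S.goodE_Ey hy
  have horbE := S.orbit_nat_finite E
  have hsuppD1 := S.D1_supp hgood.supp
  rw [bil_eq]
  set A : V → ℝ := fun v =>
    gavg G (fun DE : (X →₀ ℤ) × (X →₀ ℤ) => S.Lam v DE.1 DE.2) (S.D1 E, S.D1 E) with hA
  set H : V → ℝ := fun v => gavg G (S.hinf v) E with hH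
  set W : V → ℝ := fun v => gavg G (S.lg v) (S.wdet E) with hW
  set Ψ : V → ℝ := fun v => ∑ P ∈ E.support, (E P : ℝ) * gavg G (S.lg v) (S.lc S.ψ P) with hΨ
  have hAfin : (Function.support A).Finite :=
    S.gavg_Lam_support_finite (S.adm_of_right hsuppD1)
  have hHfin : (Function.support H).Finite :=
    S.gavg_hinf_support_finite fun P hP => (hgood.supp P hP).2
  have hWfin : (Function.support W).Finite := S.pf_support _ hgood.wdet
  have hΨfin : (Function.support Ψ).Finite := by
    refine (Set.Finite.biUnion E.support.finite_toSet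
      fun Q _ => S.pf_support (S.lc S.ψ Q) (S.lc_ne S.ψ Q)).subset ?_
    intro v hv
    rw [Function.mem_support] at hv
    by_contra hcon
    apply hv
    simp only [Set.mem_iUnion, Function.mem_support, not_exists, not_not] at hcon
    exact Finset.sum_eq_zero fun Q hQ => by rw [hcon Q hQ, mul_zero]
  have hW0 : ∑ᶠ v, W v = 0 := S.pf _ hgood.wdet
  have hΨ0 : ∑ᶠ v, Ψ v = 0 := by
    rw [hΨ, finsum_sum_comm]
    · refine Finset.sum_eq_zero fun Q _ => ?_
      rw [← mul_finsum, S.pf _ (S.lc_ne S.ψ Q), mul_zero]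
    · intro Q _
      refine (S.pf_support (S.lc S.ψ Q) (S.lc_ne S.ψ Q)).subset fun v hv => ?_
      rw [Function.mem_support] at hv ⊢
      intro h0
      apply hv
      rw [h0, mul_zero]
  -- the inequality at each place
  have hv : ∀ v, A v ≤ -H v - 2 * W v - (1 / ((2 * S.gq : ℕ) : ℝ)) * Ψ v + S.Cmb v := by
    intro v
    have h1 : A v = gavg G (fun E₁ : X →₀ ℕ => S.Lam v (S.D1 E₁) (S.D1 E₁)) E := by
      have := gavg_comp_equivariant (G := G) (fun E₁ : X →₀ ℕ => (S.D1 E₁, S.D1 E₁))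
        (fun σ E₁ => by
          show (S.D1 (σ • E₁), S.D1 (σ • E₁)) = (σ • S.D1 E₁, σ • S.D1 E₁)
          rw [S.D1_smul])
        (fun DE : (X →₀ ℤ) × (X →₀ ℤ) => S.Lam v DE.1 DE.2) E horbE
      exact this.symm
    have h2 : gavg G (fun E₁ : X →₀ ℕ => S.Lam v (S.D1 E₁) (S.D1 E₁)) E
        ≤ gavg G (fun E₁ : X →₀ ℕ => -S.hinf v E₁ - 2 * S.lg v (S.wdet E₁)
          - (1 / ((2 * S.gq : ℕ) : ℝ)) * (∑ P ∈ E₁.support, (E₁ P : ℝ) * S.lg v (S.lc S.ψ P))
          + S.Cmb v) E :=
      gavg_le_gavg E fun σ => S.Lam_D1_le v (S.goodE_smul_Ey hy σ)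
    have h3 : gavg G (fun E₁ : X →₀ ℕ => -S.hinf v E₁ - 2 * S.lg v (S.wdet E₁)
          - (1 / ((2 * S.gq : ℕ) : ℝ)) * (∑ P ∈ E₁.support, (E₁ P : ℝ) * S.lg v (S.lc S.ψ P))
          + S.Cmb v) E = -H v - 2 * W v - (1 / ((2 * S.gq : ℕ) : ℝ)) * Ψ v + S.Cmb v := by
      rw [gavg_add, gavg_sub, gavg_sub, gavg_neg, gavg_const_mul, gavg_const_mul,
        gavg_const _ _ horbE, S.gavg_lg_wdet v E]
      have := S.gavg_sum_lc v S.ψ S.ψ_fix id E
      simp only [id] at this
      rw [this]
    rw [h1]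
    exact le_trans h2 (le_of_eq h3)
  -- sum over the places
  have hsum : ∑ᶠ v, A v ≤ ∑ᶠ v, (-H v - 2 * W v - (1 / ((2 * S.gq : ℕ) : ℝ)) * Ψ v + S.Cmb v) := by
    refine finsum_le_finsum_of_le hAfin ?_ hv
    refine ((((hHfin.union hWfin).union hΨfin).union S.Cmb_support)).subset ?_
    intro v hv'
    rw [Function.mem_support] at hv'
    by_contra hcon
    apply hv'
    simp only [Set.mem_union, Function.mem_support, not_or, not_not] at hcon
    obtain ⟨⟨⟨e1, e2⟩, e3⟩, e4⟩ := hcon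
    rw [e1, e2, e3, e4]
    ring
  have hsplit : ∑ᶠ v, (-H v - 2 * W v - (1 / ((2 * S.gq : ℕ) : ℝ)) * Ψ v + S.Cmb v)
      = -∑ᶠ v, H v + ∑ᶠ v, S.Cmb v := by
    have e1 : (Function.support fun v => -H v).Finite :=
      hHfin.subset fun v hv => by
        rw [Function.mem_support] at hv ⊢
        intro h0; apply hv; rw [h0, neg_zero]
    have e2 : (Function.support fun v => 2 * W v).Finite :=
      hWfin.subset fun v hv => by
        rw [Function.mem_support] at hv ⊢
        intro h0; apply hv; rw [h0, mul_zero]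
    have e3 : (Function.support fun v => (1 / ((2 * S.gq : ℕ) : ℝ)) * Ψ v).Finite :=
      hΨfin.subset fun v hv => by
        rw [Function.mem_support] at hv ⊢
        intro h0; apply hv; rw [h0, mul_zero]
    have e12 : (Function.support fun v => -H v - 2 * W v).Finite :=
      (e1.union e2).subset (Function.support_sub _ _)
    have e123 : (Function.support fun v => -H v - 2 * W v - (1 / ((2 * S.gq : ℕ) : ℝ)) * Ψ v).Finite :=
      (e12.union e3).subset (Function.support_sub _ _)
    rw [finsum_add_distrib e123 S.Cmb_support, finsum_sub_distrib e12 e3,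
      finsum_sub_distrib e1 e2, finsum_neg_distrib, ← mul_finsum, ← mul_finsum, hW0, hΨ0]
    ring
  rw [hsplit] at hsum
  unfold Hinf
  linarith

end HtSys

end Fermat.Agent.MW
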