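import Mathlib
import Fermat.Agent.MW.RRAPP_helper8_Diff

/-!
# Project MW — [RR-APP] part 9: the genus zero case (helper8)

If `genusN N = 0` every divisor of degree zero is principal, so `JZero N` is trivial.
-/

set_option autoImplicit false
set_option linter.unusedSectionVars false
set_option linter.style.haveILetI false

open scoped BigOperators

noncomputable section

namespace Fermat.Agent.MW

open AlgebraicCurve ModularCurve Fermat.Agent.FF Module

section General

variable {k F : Type*} [Field k] [Field F] [Algebra k F] [IsAlgClosed k] [CharZero k]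

theorem eq_zero_of_ndeg_eq_zero {X : Type*} (E : X →₀ ℕ) (h : ndeg E = 0) : E = 0 := by
  ext P
  by_contra hne
  have hP : P ∈ E.support := Finsupp.mem_support_iff.mpr hne
  unfold ndeg at h
  rw [Finsupp.sum] at h
  have := Finset.sum_eq_zero_iff.mp h P hP
  exact hne this

/-- in genus zero every divisor of degree zero is principal. -/
theorem RRHyp.principal_of_genus_zero {κ : Divisor k F} (H : RRHyp κ 0) (c : Coord k F)
    (D : Divisor k F) (hD : Divisor.degree D = 0) :
    D ∈ Divisor.principal (K := k) (F := F) := by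
  obtain ⟨f, hf0, hf⟩ := H.exists_ne_zero_mem_L (E := D) (by rw [hD]; simp)
  have h1 := dofNat_effOf c hf0 hf
  have h2 := ndeg_effOf c hf0 hf
  rw [hD] at h2
  have h3 : effOf c f D = 0 := eq_zero_of_ndeg_eq_zero _ (by exact_mod_cast h2)
  rw [h3] at h1
  have h4 : (dofNat (0 : Place k F →₀ ℕ) : Divisor k F) = 0 := by
    ext P; rw [dofNat_apply]; simp
  rw [h4] at h1
  have h5 : D = divOf c f⁻¹ := by
    rw [divOf_inv]
    exact eq_neg_of_add_eq_zero_right h1.symm
  rw [h5]
  exact divOf_mem_principal c (inv_ne_zero hf0)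

end General

variable (N : ℕ) [NeZero N]

theorem jzero_subsingleton_of_genus_zero (h : genusN N = 0) : Subsingleton (JZero N) := by
  have H := rrHyp_kapJ N
  rw [h] at H
  refine ⟨fun x y => ?_⟩
  have hx0 : ∀ z : JZero N, z = 0 := by
    intro z
    obtain ⟨D, rfl⟩ := Pic0.mk_surjective z
    rw [Pic0.mk, QuotientAddGroup.eq_zero_iff, AddSubgroup.mem_addSubgroupOf]
    exact H.principal_of_genus_zero (cN N) D.1 D.2
  rw [hx0 x, hx0 y]

theorem fg_of_genus_zero (h : genusN N = 0) :
    AddGroup.FG ↥(FixedPoints.addSubgroup GQ (JZero N)) := by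
  haveI := jzero_subsingleton_of_genus_zero N h
  haveI : Subsingleton ↥(FixedPoints.addSubgroup GQ (JZero N)) :=
    ⟨fun x y => Subtype.ext (Subsingleton.elim _ _)⟩
  exact AddGroup.fg_of_finite

end Fermat.Agent.MW
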