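import Mathlib
import Fermat.Agent.MW.RRAPP_helper8_Zero
import Fermat.Agent.MW.INST_helper8_Sys
import Fermat.Agent.MW.MUMFORD_helper8_MB3

/-!
# Project MW — [RR-APP] part 10: the auxiliary functions `ψ`, `φ`, Galois saturation of finite sets
of points, class computations (helper8)
-/

set_option autoImplicit false
set_option linter.unusedSectionVars false
set_option linter.style.haveILetI false

open scoped BigOperators

noncomputable section

namespace Fermat.Agent.MW

open AlgebraicCurve ModularCurve Fermat.Agent.FF Module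

attribute [local instance] Finsupp.comapSMul Finsupp.comapMulAction Finsupp.comapDistribMulAction

variable (N : ℕ) [NeZero N]

local notation "Ωq" => AlgebraicClosure ℚ

theorem dvN_eq_divOf (f : FnN N) : dvN N f = divOf (cN N) f.1 := by
  ext Q
  rw [dvN_apply, divOf_apply]

/-! ### Galois saturation -/

/-- the `GQ`-saturation of a finite set of points. -/
def galSat (S : Finset (PtN N)) : Finset (PtN N) :=
  S.biUnion fun P => (orbit_PtN_finite N P).toFinset

theorem mem_galSat {S : Finset (PtN N)} {Q : PtN N} :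
    Q ∈ galSat N S ↔ ∃ P ∈ S, ∃ σ : GQ, σ • P = Q := by
  unfold galSat
  rw [Finset.mem_biUnion]
  refine exists_congr fun P => and_congr_right fun _ => ?_
  rw [Set.Finite.mem_toFinset]
  exact Iff.rfl

theorem subset_galSat (S : Finset (PtN N)) : S ⊆ galSat N S := fun P hP =>
  (mem_galSat N).mpr ⟨P, hP, 1, one_smul _ _⟩

theorem galSat_smul {S : Finset (PtN N)} (σ : GQ) {Q : PtN N} (hQ : Q ∈ galSat N S) :
    σ • Q ∈ galSat N S := by
  obtain ⟨P, hP, τ, rfl⟩ := (mem_galSat N).mp hQ
  exact (mem_galSat N).mpr ⟨P, hP, σ * τ, mul_smul _ _ _⟩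

theorem infN_notMem_galSat {S : Finset (PtN N)} (hS : infN N ∉ S) : infN N ∉ galSat N S := by
  intro h
  obtain ⟨P, hP, σ, hσ⟩ := (mem_galSat N).mp h
  apply hS
  have : P = infN N := by
    have := congrArg (fun Q => σ⁻¹ • Q) hσ
    simp only [inv_smul_smul] at this
    rw [this, gal_smul_infN]
  rwa [this] at hP

/-! ### Riemann–Roch spaces at `∞` and the auxiliary functions -/

/-- a `GQ`-fixed function with prescribed divisor shape: for a `GQ`-invariant divisor `M` of degree
`≥ 2g`, a fixed `f` with `div f = E - M`, `E ≥ 0`, `E(∞) = 0`. -/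
theorem exists_fixed_section {g : ℕ} {κ : Divisor Ωq (FunN N)} (H : RRHyp κ g)
    {M : Divisor Ωq (FunN N)} (hM : GalInv N M) (hdeg : 2 * (g : ℤ) ≤ Divisor.degree M) :
    ∃ (f : FnN N) (E : PtN N →₀ ℕ), (∀ σ : GQ, σ • f = f) ∧ E (infN N) = 0 ∧
      dvN N f = dofNat E - M := by
  set c := cN N with hc
  have hnle : ¬ riemannRochSpace M ≤ riemannRochSpace (M - Finsupp.single (infN N) 1) := by
    intro hle
    haveI := H.fin (M - Finsupp.single (infN N) 1)
    have h1 := Submodule.finrank_mono hle
    have h2 := H.ell_of_lt c (E := M) (by omega)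
    have hdeg' : Divisor.degree (M - Finsupp.single (infN N) 1) = Divisor.degree M - 1 := by
      rw [map_sub, degree_single_one c]
    have h3 := H.ell_of_lt c (E := M - Finsupp.single (infN N) 1) (by rw [hdeg']; omega)
    rw [hdeg'] at h3
    unfold ell at h2 h3
    omega
  obtain ⟨f, hfmem, hfnot, hffix⟩ := exists_fixed_notMem N H hM _ hnle
  have hf0 : f ≠ 0 := fun h => hfnot (h ▸ Submodule.zero_mem _)
  refine ⟨⟨f, hf0⟩, effOf c f M, fun σ => Subtype.ext (hffix σ), ?_, ?_⟩
  · have h1 := (mem_L_sub_single_iff hf0 hfmem (infN N)).not.mp hfnot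
    have h2 := effOf_apply c hf0 hfmem (infN N)
    have h3 : (0 : ℤ) ≤ (effOf c f M (infN N) : ℤ) := Int.natCast_nonneg _
    have : (effOf c f M (infN N) : ℤ) = 0 := by omega
    exact_mod_cast this
  · rw [dvN_eq_divOf, dofNat_effOf c hf0 hfmem]
    abel

end Fermat.Agent.MW
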