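import Mathlib
import Fermat.Agent.MW.RRAPP_helper8_Aux

/-!
# Project MW — [RR-APP] part 11: classes of arbitrary divisors, non-special effective divisors on
`X₀(N)` (helper8)
-/

set_option autoImplicit false
set_option linter.unusedSectionVars false
set_option linter.style.haveILetI false

open scoped BigOperators

noncomputable section

namespace Fermat.Agent.MW

open AlgebraicCurve ModularCurve Fermat.Agent.FF Module

attribute [local instance] Finsupp.comapSMul Finsupp.comapMulAction Finsupp.comapDistribMulAction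

variable (N : ℕ) [NeZero N]

local notation "Ωq" => AlgebraicClosure ℚ

theorem mem_dZero_iff_ddeg (D : PtN N →₀ ℤ) : D ∈ dZero (PtN N) ↔ ddeg D = 0 :=
  AddMonoidHom.mem_ker

theorem ddeg_divOf (f : FunN N) : ddeg (divOf (cN N) f) = 0 := by
  rw [← degree_eq_ddeg (cN N), degree_divOf]

open Classical in
/-- the class of a divisor (junk `0` if the degree is not zero). -/
def clsD (D : PtN N →₀ ℤ) : JZero N :=
  if h : D ∈ dZero (PtN N) then clsN N ⟨D, h⟩ else 0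

theorem clsD_eq {D : PtN N →₀ ℤ} (h : D ∈ dZero (PtN N)) : clsD N D = clsN N ⟨D, h⟩ := by
  unfold clsD
  rw [dif_pos h]

theorem clsD_add {D D' : PtN N →₀ ℤ} (h : D ∈ dZero (PtN N)) (h' : D' ∈ dZero (PtN N)) :
    clsD N (D + D') = clsD N D + clsD N D' := by
  rw [clsD_eq N h, clsD_eq N h', clsD_eq N (add_mem h h'), ← map_add]
  rfl

theorem clsD_sub {D D' : PtN N →₀ ℤ} (h : D ∈ dZero (PtN N)) (h' : D' ∈ dZero (PtN N)) :
    clsD N (D - D') = clsD N D - clsD N D' := by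
  rw [clsD_eq N h, clsD_eq N h', clsD_eq N (sub_mem h h'), ← map_sub]
  rfl

theorem divOf_mem_dZero (f : FunN N) : divOf (cN N) f ∈ dZero (PtN N) :=
  (mem_dZero_iff_ddeg N _).mpr (ddeg_divOf N f)

theorem clsD_divOf {f : FunN N} (hf : f ≠ 0) : clsD N (divOf (cN N) f) = 0 := by
  rw [clsD_eq N (divOf_mem_dZero N f), clsN_eq_zero]
  exact ⟨⟨f, hf⟩, dvN_eq_divOf N ⟨f, hf⟩⟩

theorem exists_divOf_of_clsD_eq {D D' : PtN N →₀ ℤ} (h : D ∈ dZero (PtN N))
    (h' : D' ∈ dZero (PtN N)) (heq : clsD N D = clsD N D') :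
    ∃ f : FunN N, f ≠ 0 ∧ D = divOf (cN N) f + D' := by
  have h0 : clsD N (D - D') = 0 := by rw [clsD_sub N h h', heq, sub_self]
  rw [clsD_eq N (sub_mem h h'), clsN_eq_zero] at h0
  obtain ⟨f, hf⟩ := h0
  refine ⟨f.1, f.2, ?_⟩
  rw [← dvN_eq_divOf, hf]
  show D = D - D' + D'
  abel

theorem clsD_gdiv (σ : GQ) {D : PtN N →₀ ℤ} (h : D ∈ dZero (PtN N)) :
    clsD N (gdiv σ D) = σ • clsD N D := by
  have h' : gdiv σ D ∈ dZero (PtN N) := by
    rw [mem_dZero_iff_ddeg, gdiv_eq_smul, ddeg_smul]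
    exact (mem_dZero_iff_ddeg N D).mp h
  rw [clsD_eq N h', clsD_eq N h]
  exact clsN_smul N σ ⟨D, h⟩ h'

/-! ### non-special effective divisors -/

/-- `E` is the reduced divisor of the class `y`. -/
def IsNSFor (𝔡 : DiffDatum N) (Zp : Finset (PtN N)) (E : PtN N →₀ ℕ) (y : JZero N) : Prop :=
  ndeg E = 𝔡.gq ∧ (∀ P ∈ E.support, P ∉ Zp ∧ P ≠ infN N) ∧
    clsD N (dofNat E - Finsupp.single (infN N) (𝔡.gq : ℤ)) = y ∧ 𝔡.wdetN E ≠ 0

/-- the hypothesis [D1]: `wdet E ≠ 0 ⇔ L(K0 - E) = 0`. -/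
def D1Hyp (𝔡 : DiffDatum N) : Prop :=
  ∀ E : PtN N →₀ ℕ, ndeg E = 𝔡.gq → (∀ P ∈ E.support, 𝔡.K0 P = 0) →
    (𝔡.wdetN E ≠ 0 ↔
      ∀ f : FunN N, (∀ Q : PtN N, f = 0 ∨ (E Q : ℤ) - (𝔡.K0 Q : ℤ) ≤ Q.ord f) → f = 0)

theorem D1Hyp.iff_bot {𝔡 : DiffDatum N} (h : D1Hyp N 𝔡) (E : PtN N →₀ ℕ)
    (hdeg : ndeg E = 𝔡.gq) (hE : ∀ P ∈ E.support, 𝔡.K0 P = 0) :
    𝔡.wdetN E ≠ 0 ↔
      riemannRochSpace (dofNat 𝔡.K0 - dofNat E : Divisor Ωq (FunN N)) = ⊥ := by
  rw [h E hdeg hE, eq_bot_iff]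
  constructor
  · intro hf f hfm
    rw [Submodule.mem_bot]
    apply hf f
    intro Q
    have := mem_riemannRochSpace_iff.mp hfm Q
    rw [Finsupp.sub_apply, dofNat_apply, dofNat_apply] at this
    rcases this with h0 | h1
    · exact Or.inl h0
    · right; omega
  · intro hbot f hf
    have : f ∈ riemannRochSpace (dofNat 𝔡.K0 - dofNat E : Divisor Ωq (FunN N)) := by
      rw [mem_riemannRochSpace_iff]
      intro Q
      rw [Finsupp.sub_apply, dofNat_apply, dofNat_apply]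
      rcases hf Q with h0 | h1
      · exact Or.inl h0
      · right; omega
    have := hbot this
    rwa [Submodule.mem_bot] at this

theorem ddeg_nsDiv {g : ℕ} {E : PtN N →₀ ℕ} (hE : ndeg E = g) :
    dofNat E - Finsupp.single (infN N) (g : ℤ) ∈ dZero (PtN N) := by
  rw [mem_dZero_iff_ddeg, map_sub, ddeg_dofNat, ddeg_single, hE, sub_self]

variable {N}

/-- uniqueness of the reduced divisor. -/
theorem IsNSFor.unique {𝔡 : DiffDatum N} {Zp : Finset (PtN N)}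
    (H : RRHyp (dofNat 𝔡.K0 : Divisor Ωq (FunN N)) 𝔡.gq) (hD1 : D1Hyp N 𝔡)
    (hK : ∀ P ∈ 𝔡.K0.support, P ∈ Zp) {E E' : PtN N →₀ ℕ} {y : JZero N}
    (hE : IsNSFor N 𝔡 Zp E y) (hE' : IsNSFor N 𝔡 Zp E' y) : E = E' := by
  obtain ⟨hdeg, hsupp, hcls, hw⟩ := hE
  obtain ⟨hdeg', hsupp', hcls', hw'⟩ := hE'
  have hK0 : ∀ P ∈ E'.support, 𝔡.K0 P = 0 := by
    intro P hP
    by_contra hne
    exact (hsupp' P hP).1 (hK P (Finsupp.mem_support_iff.mpr hne))
  have hsp := (hD1.iff_bot N E' hdeg' hK0).mp hw'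
  obtain ⟨f, hf0, hf⟩ := exists_divOf_of_clsD_eq N (ddeg_nsDiv N hdeg) (ddeg_nsDiv N hdeg')
    (hcls.trans hcls'.symm)
  have hEE' : dofNat E = divOf (cN N) f + dofNat E' := by
    have : dofNat E = (dofNat E - Finsupp.single (infN N) (𝔡.gq : ℤ))
        + Finsupp.single (infN N) (𝔡.gq : ℤ) := by abel
    rw [this, hf]
    abel
  exact H.nonspecial_unique (cN N) hdeg' hsp hf0 hEE'

/-- the reduced divisor of `σ • y` is `σ • E`. -/
theorem IsNSFor.smul {𝔡 : DiffDatum N} {Zp : Finset (PtN N)}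
    (hZp : ∀ (σ : GQ) P, P ∈ Zp → σ • P ∈ Zp) {E : PtN N →₀ ℕ} {y : JZero N}
    (hE : IsNSFor N 𝔡 Zp E y) (σ : GQ) : IsNSFor N 𝔡 Zp (gdivNat σ E) (σ • y) := by
  obtain ⟨hdeg, hsupp, hcls, hw⟩ := hE
  refine ⟨?_, ?_, ?_, ?_⟩
  · rw [gdivNat_eq_smul, ndeg_smul, hdeg]
  · intro P hP
    have hP' : σ⁻¹ • P ∈ E.support := by
      rw [mem_support_gdivNat_iff σ E (σ⁻¹ • P), smul_inv_smul]
      exact hP
    obtain ⟨h1, h2⟩ := hsupp _ hP'
    constructor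
    · intro hPZ
      exact h1 (hZp σ⁻¹ P hPZ)
    · intro hPinf
      apply h2
      rw [hPinf, gal_smul_infN]
  · have e : dofNat (gdivNat σ E) - Finsupp.single (infN N) (𝔡.gq : ℤ)
        = gdiv σ (dofNat E - Finsupp.single (infN N) (𝔡.gq : ℤ)) := by
      rw [gdivNat_eq_smul, dofNat_smul, gdiv_eq_smul, smul_sub, Finsupp.comapSMul_single,
        gal_smul_infN]
    rw [e, clsD_gdiv N σ (ddeg_nsDiv N hdeg), hcls]
  · rcases 𝔡.wdetN_gal_smul σ E with h | h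
    · rw [h]
      exact (map_ne_zero _).mpr hw
    · rw [h]
      exact neg_ne_zero.mpr ((map_ne_zero _).mpr hw)

end Fermat.Agent.MW
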