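import Mathlib
import Fermat.Agent.MW.RRAPP_helper8_Cls

/-!
# Project MW — [RR-APP] part 12: the Riemann–Roch inputs `RRInput N 𝔡 Zp` (helper8)

* `AuxFn N 𝔡`: the auxiliary functions `ψ`, `φ` (they exist before `Zp` is chosen);
* `rrInput`: (REP), (NS), (TR) for an exceptional set `Zp` containing the zeros of `ψ`, `φ`, `ω₀`.
-/

set_option autoImplicit false
set_option linter.unusedSectionVars false
set_option linter.style.haveILetI false

open scoped BigOperators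

noncomputable section

namespace Fermat.Agent.MW

open AlgebraicCurve ModularCurve Fermat.Agent.FF Module

attribute [local instance] Finsupp.comapSMul Finsupp.comapMulAction Finsupp.comapDistribMulAction

variable (N : ℕ) [NeZero N]

local notation "Ωq" => AlgebraicClosure ℚ

/-- the auxiliary functions `ψ`, `φ` of the global theory. -/
structure AuxFn (𝔡 : DiffDatum N) where
  ψ : FnN N
  ψ_fix : ∀ σ : GQ, σ • ψ = ψ
  Eψ : PtN N →₀ ℕ
  Eψ_inf : Eψ (infN N) = 0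
  ψ_div : dvN N ψ = dofNat Eψ - Finsupp.single (infN N) ((2 * 𝔡.gq * (2 * 𝔡.gq - 1) : ℕ) : ℤ)
    + ((2 * 𝔡.gq : ℕ) : ℤ) • dofNat 𝔡.K0
  φ : FnN N
  φ_fix : ∀ σ : GQ, σ • φ = φ
  nφ : ℕ
  nφ_pos : 1 ≤ nφ
  Zφ : PtN N →₀ ℕ
  Zφ_inf : Zφ (infN N) = 0
  φ_div : dvN N φ = dofNat Zφ - Finsupp.single (infN N) (nφ : ℤ)

theorem GalInv.zsmul {M : Divisor Ωq (FunN N)} (h : GalInv N M) (n : ℤ) : GalInv N (n • M) :=
  fun σ Q => by
    rw [Finsupp.smul_apply, Finsupp.smul_apply, h σ Q]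

theorem galInv_dofNat_K0 (𝔡 : DiffDatum N) : GalInv N (dofNat 𝔡.K0 : Divisor Ωq (FunN N)) :=
  fun σ Q => by
    rw [dofNat_apply, dofNat_apply, 𝔡.K0_gal_smul σ Q]

variable {N}

theorem exists_auxFn (𝔡 : DiffDatum N)
    (H : RRHyp (dofNat 𝔡.K0 : Divisor Ωq (FunN N)) 𝔡.gq) (hg : 1 ≤ 𝔡.gq) :
    Nonempty (AuxFn N 𝔡) := by
  set g := 𝔡.gq with hgdef
  set c := cN N with hc
  have hdegK : Divisor.degree (dofNat 𝔡.K0 : Divisor Ωq (FunN N)) = 2 * (g : ℤ) - 2 := H.deg.symm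
  -- `ψ`
  set Mψ : Divisor Ωq (FunN N) := Finsupp.single (infN N) ((2 * g * (2 * g - 1) : ℕ) : ℤ)
    - ((2 * g : ℕ) : ℤ) • dofNat 𝔡.K0 with hMψ
  have hMψinv : GalInv N Mψ :=
    (galInv_single_inf N _).sub N ((galInv_dofNat_K0 N 𝔡).zsmul N _)
  have hMψdeg : 2 * (g : ℤ) ≤ Divisor.degree Mψ := by
    rw [hMψ, map_sub, degree_single_one c, map_zsmul, hdegK]
    have h1 : ((2 * g * (2 * g - 1) : ℕ) : ℤ) = 2 * (g : ℤ) * (2 * (g : ℤ) - 1) := by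
      have : 1 ≤ 2 * g := by omega
      push_cast [Nat.cast_sub this]
      ring
    rw [h1, smul_eq_mul]
    push_cast
    nlinarith
  obtain ⟨ψ, Eψ, hψfix, hEψ, hψdiv⟩ := exists_fixed_section N H hMψinv hMψdeg
  -- `φ`
  set Mφ : Divisor Ωq (FunN N) := Finsupp.single (infN N) ((2 * g + 1 : ℕ) : ℤ) with hMφ
  have hMφdeg : 2 * (g : ℤ) ≤ Divisor.degree Mφ := by
    rw [hMφ, degree_single_one c]
    push_cast
    omega
  obtain ⟨φ, Zφ, hφfix, hZφ, hφdiv⟩ := exists_fixed_section N H (galInv_single_inf N _) hMφdeg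
  refine ⟨⟨ψ, hψfix, Eψ, hEψ, ?_, φ, hφfix, 2 * g + 1, by omega, Zφ, hZφ, hφdiv⟩⟩
  rw [hψdiv, hMψ]
  abel

/-! ### (REP) -/

theorem exists_repN (𝔡 : DiffDatum N)
    (H : RRHyp (dofNat 𝔡.K0 : Divisor Ωq (FunN N)) 𝔡.gq) (hg : 1 ≤ 𝔡.gq)
    (Zp : Finset (PtN N)) (y : JZero N) :
    ∃ D : dZero (PtN N), clsN N D = y ∧ dnorm D.1 ≤ 4 * 𝔡.gq ∧
      ∀ P ∈ D.1.support, P ∉ Zp ∧ P ≠ infN N := by
  classical
  set g := 𝔡.gq with hgdef
  set c := cN N with hc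
  obtain ⟨D₀, rfl⟩ := clsN_surj N y
  have hD₀ : Divisor.degree (D₀.1 : Divisor Ωq (FunN N)) = 0 := by
    rw [degree_eq_ddeg c]
    exact (mem_dZero_iff_ddeg N D₀.1).mp D₀.2
  obtain ⟨f, E, P₀, hf0, hP₀, hEdeg, hEZ, hE⟩ :=
    H.exists_rep c hg (insert (infN N) Zp) D₀.1 hD₀
  set D : PtN N →₀ ℤ := dofNat E - Finsupp.single P₀ ((2 * g : ℕ) : ℤ) with hD
  have hDeq : D = divOf c f + D₀.1 := by
    rw [hD, hE]
    abel
  have hDmem : D ∈ dZero (PtN N) := by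
    rw [hDeq]
    exact add_mem (divOf_mem_dZero N f) D₀.2
  refine ⟨⟨D, hDmem⟩, ?_, ?_, ?_⟩
  · rw [← clsD_eq N hDmem, hDeq, clsD_add N (divOf_mem_dZero N f) D₀.2, clsD_divOf N hf0, zero_add,
      clsD_eq N D₀.2]
  · show dnorm D ≤ 4 * (g : ℤ)
    refine (dnorm_sub_le _ _).trans ?_
    rw [dnorm_dofNat, dnorm_single, hEdeg]
    rw [abs_of_nonneg (by positivity)]
    push_cast
    omega
  · intro P hP
    show P ∉ Zp ∧ P ≠ infN N
    have hPZ : P ∉ insert (infN N) Zp := by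
      intro hmem
      have h1 : D P ≠ 0 := Finsupp.mem_support_iff.mp hP
      apply h1
      rw [hD, Finsupp.sub_apply, dofNat_apply, hEZ P hmem, Finsupp.single_apply]
      have : P₀ ≠ P := fun h => hP₀ (h ▸ hmem)
      rw [if_neg this]
      simp
    rw [Finset.mem_insert, not_or] at hPZ
    exact ⟨hPZ.2, hPZ.1⟩

/-! ### (NS) existence in general position and (TR) -/

theorem exists_isNSFor (𝔡 : DiffDatum N)
    (H : RRHyp (dofNat 𝔡.K0 : Divisor Ωq (FunN N)) 𝔡.gq) (hD1 : D1Hyp N 𝔡)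
    (Zp : Finset (PtN N)) (hK : ∀ P ∈ 𝔡.K0.support, P ∈ Zp)
    (D : Divisor Ωq (FunN N)) (hdeg : Divisor.degree D = 𝔡.gq)
    (hD : ∀ Q ∈ insert (infN N) Zp, riemannRochSpace (D - Finsupp.single Q 1) = ⊥) :
    ∃ E, IsNSFor N 𝔡 Zp E (clsD N (D - Finsupp.single (infN N) (𝔡.gq : ℤ))) := by
  classical
  set g := 𝔡.gq with hgdef
  set c := cN N with hc
  obtain ⟨f, hf0, hf, hnd, hEZ, hsp⟩ :=
    H.exists_nonspecial c (insert (infN N) Zp) ⟨infN N, Finset.mem_insert_self _ _⟩ D hdeg hD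
  set E := effOf c f D with hEdef
  have hEeq : dofNat E = divOf c f + D := dofNat_effOf c hf0 hf
  have hsupp : ∀ P ∈ E.support, P ∉ Zp ∧ P ≠ infN N := by
    intro P hP
    have hPZ : P ∉ insert (infN N) Zp := fun hmem =>
      (Finsupp.mem_support_iff.mp hP) (hEZ P hmem)
    rw [Finset.mem_insert, not_or] at hPZ
    exact ⟨hPZ.2, hPZ.1⟩
  have hK0 : ∀ P ∈ E.support, 𝔡.K0 P = 0 := by
    intro P hP
    by_contra hne
    exact (hsupp P hP).1 (hK P (Finsupp.mem_support_iff.mpr hne))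
  refine ⟨E, hnd, hsupp, ?_, (hD1.iff_bot N E hnd hK0).mpr hsp⟩
  have hmem : D - Finsupp.single (infN N) (g : ℤ) ∈ dZero (PtN N) := by
    rw [mem_dZero_iff_ddeg, map_sub, ddeg_single, ← degree_eq_ddeg c, hdeg, sub_self]
  have e : dofNat E - Finsupp.single (infN N) (g : ℤ)
      = divOf c f + (D - Finsupp.single (infN N) (g : ℤ)) := by
    rw [hEeq]
    abel
  rw [e, clsD_add N (divOf_mem_dZero N f) hmem, clsD_divOf N hf0, zero_add]

theorem ndeg_eq_sum_of_subset {X : Type*} [DecidableEq X] (A : X →₀ ℕ) (T : Finset X)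
    (h : A.support ⊆ T) : ndeg A = ∑ P ∈ T, A P := by
  unfold ndeg
  rw [Finsupp.sum]
  exact Finset.sum_subset h fun P _ hP => Finsupp.notMem_support_iff.mp hP

theorem exists_translateN (𝔡 : DiffDatum N)
    (H : RRHyp (dofNat 𝔡.K0 : Divisor Ωq (FunN N)) 𝔡.gq) (hg : 1 ≤ 𝔡.gq) (hD1 : D1Hyp N 𝔡)
    (Zp : Finset (PtN N)) (hK : ∀ P ∈ 𝔡.K0.support, P ∈ Zp) :
    ∃ 𝒜 : Finset (JZero N), ∀ y : JZero N, ∃ a ∈ 𝒜,
      (∃ E, IsNSFor N 𝔡 Zp E (y + a)) ∧ (∃ E, IsNSFor N 𝔡 Zp E (y - a)) := by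
  classical
  set g := 𝔡.gq with hgdef
  set c := cN N with hc
  set Z : Finset (PtN N) := insert (infN N) Zp with hZ
  obtain ⟨𝒯, h𝒯card, -⟩ := exists_finset_place_card c (2 * Z.card * (2 * g - 1) + 1) Z
  have h𝒯 : 2 * Z.card * (2 * g - 1) < 𝒯.card := by rw [h𝒯card]; omega
  refine ⟨(Finset.finsuppAntidiag 𝒯 g).image
    (fun A => clsD N (dofNat A - Finsupp.single (infN N) (g : ℤ))), ?_⟩
  intro y
  obtain ⟨Y, rfl⟩ := clsN_surj N y
  have hY : Divisor.degree (Y.1 : Divisor Ωq (FunN N)) = 0 := by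
    rw [degree_eq_ddeg c]
    exact (mem_dZero_iff_ddeg N Y.1).mp Y.2
  obtain ⟨A, hAdeg, hAsupp, hplus, hminus⟩ := H.exists_translate c hg (infN N) Z 𝒯 h𝒯 Y.1 hY
  have hAmem : dofNat A - Finsupp.single (infN N) (g : ℤ) ∈ dZero (PtN N) := ddeg_nsDiv N hAdeg
  refine ⟨clsD N (dofNat A - Finsupp.single (infN N) (g : ℤ)), ?_, ?_, ?_⟩
  · rw [Finset.mem_image]
    refine ⟨A, ?_, rfl⟩
    rw [Finset.mem_finsuppAntidiag]
    refine ⟨?_, fun P hP => hAsupp P hP⟩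
    rw [← ndeg_eq_sum_of_subset A 𝒯 (fun P hP => hAsupp P hP), hAdeg]
  · -- `NS (y + a)`
    have hdeg : Divisor.degree (Y.1 + dofNat A : Divisor Ωq (FunN N)) = g := by
      rw [map_add, hY, degree_dofNat c, hAdeg, zero_add]
    obtain ⟨E, hE⟩ := exists_isNSFor 𝔡 H hD1 Zp hK (Y.1 + dofNat A) hdeg hplus
    refine ⟨E, ?_⟩
    have e : (Y.1 + dofNat A : PtN N →₀ ℤ) - Finsupp.single (infN N) (g : ℤ)
        = Y.1 + (dofNat A - Finsupp.single (infN N) (g : ℤ)) := by abel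
    rw [e, clsD_add N Y.2 hAmem, clsD_eq N Y.2] at hE
    exact hE
  · -- `NS (y - a)`
    have hdeg : Divisor.degree (Y.1 + Finsupp.single (infN N) ((2 * g : ℕ) : ℤ) - dofNat A :
        Divisor Ωq (FunN N)) = g := by
      rw [map_sub, map_add, hY, degree_dofNat c, hAdeg, zero_add, degree_single_one c]
      push_cast
      ring
    obtain ⟨E, hE⟩ := exists_isNSFor 𝔡 H hD1 Zp hK
      (Y.1 + Finsupp.single (infN N) ((2 * g : ℕ) : ℤ) - dofNat A) hdeg hminus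
    refine ⟨E, ?_⟩
    have e : (Y.1 + Finsupp.single (infN N) ((2 * g : ℕ) : ℤ) - dofNat A : PtN N →₀ ℤ)
          - Finsupp.single (infN N) (g : ℤ)
        = Y.1 - (dofNat A - Finsupp.single (infN N) (g : ℤ)) := by
      have : (Finsupp.single (infN N) ((2 * g : ℕ) : ℤ) : PtN N →₀ ℤ)
          = Finsupp.single (infN N) (g : ℤ) + Finsupp.single (infN N) (g : ℤ) := by
        rw [← Finsupp.single_add]
        congr 1
        push_cast
        ring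
      rw [this]
      abel
    rw [e, clsD_sub N Y.2 hAmem, clsD_eq N Y.2] at hE
    exact hE

/-! ### the assembly -/

/-- **The Riemann–Roch inputs exist** for every exceptional set `Zp` containing the zeros of `ψ`,
`φ`, `ω₀`. -/
theorem exists_rrInput (𝔡 : DiffDatum N)
    (H : RRHyp (dofNat 𝔡.K0 : Divisor Ωq (FunN N)) 𝔡.gq) (hg : 1 ≤ 𝔡.gq) (hD1 : D1Hyp N 𝔡)
    (A : AuxFn N 𝔡) (Zp : Finset (PtN N))
    (hZp : ∀ (σ : GQ) P, P ∈ Zp → σ • P ∈ Zp) (hK : ∀ P ∈ 𝔡.K0.support, P ∈ Zp)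
    (hEψ : ∀ P ∈ A.Eψ.support, P ∈ Zp) (hZφ : ∀ P ∈ A.Zφ.support, P ∈ Zp) :
    Nonempty (RRInput N 𝔡 Zp) := by
  classical
  obtain ⟨𝒜, h𝒜⟩ := exists_translateN 𝔡 H hg hD1 Zp hK
  let NS : JZero N → Prop := fun y => ∃ E, IsNSFor N 𝔡 Zp E y
  let Ey : JZero N → (PtN N →₀ ℕ) := fun y => if h : NS y then h.choose else 0
  have hEy : ∀ y, NS y → IsNSFor N 𝔡 Zp (Ey y) y := by
    intro y hy
    show IsNSFor N 𝔡 Zp (if h : NS y then h.choose else 0) y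
    rw [dif_pos hy]
    exact hy.choose_spec
  refine ⟨{
    rep := exists_repN 𝔡 H hg Zp
    NS := NS
    Ey := Ey
    NS_smul := fun σ y hy => ⟨_, (hEy y hy).smul hZp σ⟩
    Ey_smul := fun σ y hy =>
      IsNSFor.unique H hD1 hK (hEy (σ • y) ⟨_, (hEy y hy).smul hZp σ⟩) ((hEy y hy).smul hZp σ)
    Ey_deg := fun y hy => (hEy y hy).1
    Ey_supp := fun y hy => (hEy y hy).2.1
    Ey_cls := fun y hy h => by
      rw [← clsD_eq N h]
      exact (hEy y hy).2.2.1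
    Ey_wdet := fun y hy => (hEy y hy).2.2.2
    𝒜 := 𝒜
    translate := h𝒜
    ψ := A.ψ
    ψ_fix := A.ψ_fix
    Eψ := A.Eψ
    Eψ_supp := hEψ
    ψ_div := A.ψ_div
    φ := A.φ
    φ_fix := A.φ_fix
    nφ := A.nφ
    nφ_pos := A.nφ_pos
    Zφ := A.Zφ
    Zφ_supp := hZφ
    φ_div := A.φ_div }⟩

end Fermat.Agent.MW
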