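/-
MW (S17) [DIV] — helper1 — part 1 (Mathlib only): **group theory for the finiteness of `J / mJ`.**

* `exists_finset_rep_of_pow_torsion` : in an abelian group `J` with finite `m`-torsion, the
  `m`-power torsion elements fall into finitely many classes modulo `m J`
  (any `n` pairwise incongruent ones generate a finite subgroup `H`, and
  `#(H / mH) = #H[m] ≤ #J[m]`).
* `finiteIndex_range_nsmul_of_coprime` : if moreover every `x : J` has a multiple `c • x`,
  `c` prime to `m`, in `m J + J[m^∞]`, then `m J` has finite index in `J`.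
-/
import Mathlib

set_option autoImplicit false
set_option linter.unusedSectionVars false
set_option linter.style.haveILetI false

namespace Fermat.Agent.MW

section Tors

variable {J : Type*} [AddCommGroup J]

/-- every element of the subgroup generated by `m`-power torsion elements is `m`-power torsion. -/
theorem exists_pow_nsmul_eq_zero_of_mem_closure {m : ℕ} {s : Set J}
    (hs : ∀ x ∈ s, ∃ a : ℕ, m ^ a • x = 0) {h : J} (hh : h ∈ AddSubgroup.closure s) :
    ∃ a : ℕ, m ^ a • h = 0 := by
  induction hh using AddSubgroup.closure_induction with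
  | mem x hx => exact hs x hx
  | zero => exact ⟨0, smul_zero _⟩
  | add x y _ _ hx hy =>
    obtain ⟨a, ha⟩ := hx
    obtain ⟨b, hb⟩ := hy
    refine ⟨a + b, ?_⟩
    rw [smul_add, pow_add, mul_nsmul, ha, smul_zero, zero_add, mul_comm, mul_nsmul, hb, smul_zero]
  | neg x _ hx =>
    obtain ⟨a, ha⟩ := hx
    exact ⟨a, by rw [smul_neg, ha, neg_zero]⟩

/-- the subgroup generated by finitely many `m`-power torsion elements is finite. -/
theorem finite_closure_of_pow_torsion {m : ℕ} (hm : 0 < m) {n : ℕ} (x : Fin n → J)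
    (hx : ∀ i, ∃ a : ℕ, m ^ a • x i = 0) :
    Finite ↥(AddSubgroup.closure (Set.range x)) := by
  haveI : AddGroup.FG ↥(AddSubgroup.closure (Set.range x)) :=
    (AddGroup.fg_iff_addSubgroup_fg _).mpr
      ((AddSubgroup.fg_iff _).mpr ⟨Set.range x, rfl, Set.finite_range x⟩)
  apply AddCommGroup.finite_of_fg_isAddTorsion
  intro h
  obtain ⟨a, ha⟩ := exists_pow_nsmul_eq_zero_of_mem_closure
    (s := Set.range x) (fun y hy => by obtain ⟨i, rfl⟩ := hy; exact hx i) h.2
  rw [isOfFinAddOrder_iff_nsmul_eq_zero]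
  exact ⟨m ^ a, pow_pos hm a, Subtype.ext ha⟩

/-- for a finite abelian group `H`, `#(H / mH) = #H[m]`. -/
theorem card_quotient_range_nsmul_eq_card_ker (H : Type*) [AddCommGroup H] [Finite H] (m : ℕ) :
    Nat.card (H ⧸ (nsmulAddMonoidHom (α := H) m).range) =
      Nat.card ↥(nsmulAddMonoidHom (α := H) m).ker := by
  set f := nsmulAddMonoidHom (α := H) m with hf
  have h1 : Nat.card H = Nat.card (H ⧸ f.range) * Nat.card ↥f.range :=
    AddSubgroup.card_eq_card_quotient_mul_card_addSubgroup f.range
  have h2 : Nat.card H = Nat.card (H ⧸ f.ker) * Nat.card ↥f.ker :=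
    AddSubgroup.card_eq_card_quotient_mul_card_addSubgroup f.ker
  have h3 : Nat.card (H ⧸ f.ker) = Nat.card ↥f.range :=
    Nat.card_congr (QuotientAddGroup.quotientKerEquivRange f).toEquiv
  have h4 : 0 < Nat.card ↥f.range := Nat.card_pos
  rw [h3] at h2
  have h5 : Nat.card (H ⧸ f.range) * Nat.card ↥f.range =
      Nat.card ↥f.ker * Nat.card ↥f.range := by
    rw [← h1, h2, mul_comm]
  exact Nat.eq_of_mul_eq_mul_right h4 h5

/-- **a family of `m`-power torsion elements, pairwise incongruent modulo `m J`, has at most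
`#J[m]` members.** -/
theorem card_le_of_pairwise_incongruent {m : ℕ} (hm : 0 < m)
    (hfin : {x : J | m • x = 0}.Finite) {n : ℕ} (x : Fin n → J)
    (hx : ∀ i, ∃ a : ℕ, m ^ a • x i = 0)
    (hne : ∀ i j, i ≠ j → ¬ ∃ y : J, x i - x j = m • y) :
    n ≤ hfin.toFinset.card := by
  classical
  set H := AddSubgroup.closure (Set.range x) with hH
  haveI : Finite ↥H := finite_closure_of_pow_torsion hm x hx
  -- the classes of the `x i` in `H / mH` are distinct
  let ι : Fin n → ↥H ⧸ (nsmulAddMonoidHom (α := ↥H) m).range :=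
    fun i => QuotientAddGroup.mk ⟨x i, AddSubgroup.subset_closure ⟨i, rfl⟩⟩
  have hι : Function.Injective ι := by
    intro i j hij
    by_contra hne'
    apply hne i j hne'
    have h1 : (-(⟨x i, AddSubgroup.subset_closure ⟨i, rfl⟩⟩ : ↥H) +
        ⟨x j, AddSubgroup.subset_closure ⟨j, rfl⟩⟩) ∈ (nsmulAddMonoidHom (α := ↥H) m).range :=
      QuotientAddGroup.eq.mp hij
    obtain ⟨h, hh⟩ := h1
    refine ⟨-(h : J), ?_⟩
    have h2 := congrArg (Subtype.val : ↥H → J) hh
    rw [nsmulAddMonoidHom_apply] at h2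
    simp only [AddSubgroup.coe_nsmul, AddSubgroup.coe_add, AddSubgroup.coe_neg] at h2
    rw [smul_neg, h2]
    abel
  have h1 : n ≤ Nat.card (↥H ⧸ (nsmulAddMonoidHom (α := ↥H) m).range) := by
    have := Nat.card_le_card_of_injective ι hι
    rwa [Nat.card_eq_fintype_card, Fintype.card_fin] at this
  rw [card_quotient_range_nsmul_eq_card_ker] at h1
  -- `H[m]` embeds into `J[m]`
  haveI : Finite ↥{x : J | m • x = 0} := hfin.to_subtype
  let κ : ↥(nsmulAddMonoidHom (α := ↥H) m).ker → ↥{x : J | m • x = 0} :=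
    fun h => ⟨((h : ↥H) : J), by
      have h2 : m • (h : ↥H) = 0 := h.2
      have h3 : ((m • (h : ↥H) : ↥H) : J) = ((0 : ↥H) : J) := congrArg Subtype.val h2
      rw [AddSubgroup.coe_nsmul, AddSubgroup.coe_zero] at h3
      exact h3⟩
  have hκ : Function.Injective κ := by
    intro a b hab
    apply Subtype.ext
    apply Subtype.ext
    exact congrArg (fun z : ↥{x : J | m • x = 0} => (z : J)) hab
  have h2 := Nat.card_le_card_of_injective κ hκ
  have h3 : Nat.card ↥{x : J | m • x = 0} = hfin.toFinset.card := by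
    rw [Nat.card_coe_set_eq, Set.ncard_eq_toFinset_card _ hfin]
  omega

/-- **the `m`-power torsion of an abelian group with finite `m`-torsion falls into finitely many
classes modulo `m J`.** -/
theorem exists_finset_rep_of_pow_torsion {m : ℕ} (hm : 0 < m)
    (hfin : {x : J | m • x = 0}.Finite) :
    ∃ S : Finset J, ∀ t : J, (∃ a : ℕ, m ^ a • t = 0) → ∃ s ∈ S, ∃ y : J, t = s + m • y := by
  classical
  set B := hfin.toFinset.card with hB
  let P : ℕ → Prop := fun n => ∃ x : Fin n → J, (∀ i, ∃ a : ℕ, m ^ a • x i = 0) ∧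
    ∀ i j, i ≠ j → ¬ ∃ y : J, x i - x j = m • y
  have hP0 : P 0 := ⟨fun i => i.elim0, fun i => i.elim0, fun i => i.elim0⟩
  have hPB : ∀ n, P n → n ≤ B := by
    rintro n ⟨x, hx, hne⟩
    exact card_le_of_pairwise_incongruent hm hfin x hx hne
  set n₀ := Nat.findGreatest P B with hn₀
  have hPn₀ : P n₀ := Nat.findGreatest_spec (Nat.zero_le B) hP0
  have hmax : ¬ P (n₀ + 1) := by
    intro h
    have h1 : n₀ + 1 ≤ n₀ := Nat.le_findGreatest (hPB _ h) h
    omega
  obtain ⟨x, hx, hne⟩ := hPn₀
  refine ⟨Finset.univ.image x, fun t ht => ?_⟩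
  by_contra hcon
  apply hmax
  have hcon' : ∀ i, ¬ ∃ y : J, t = x i + m • y := by
    intro i hy
    obtain ⟨y, hy⟩ := hy
    exact hcon ⟨x i, Finset.mem_image_of_mem x (Finset.mem_univ i), y, hy⟩
  refine ⟨Fin.snoc x t, fun i => ?_, fun i j hij => ?_⟩
  · induction i using Fin.lastCases with
    | last => rw [Fin.snoc_last]; exact ht
    | cast i => rw [Fin.snoc_castSucc]; exact hx i
  · induction i using Fin.lastCases with
    | last =>
      induction j using Fin.lastCases with
      | last => exact absurd rfl hij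
      | cast j =>
        rw [Fin.snoc_last, Fin.snoc_castSucc]
        rintro ⟨y, hy⟩
        exact hcon' j ⟨y, by rw [← hy]; abel⟩
    | cast i =>
      induction j using Fin.lastCases with
      | last =>
        rw [Fin.snoc_last, Fin.snoc_castSucc]
        rintro ⟨y, hy⟩
        refine hcon' i ⟨-y, ?_⟩
        rw [smul_neg, ← hy]
        abel
      | cast j =>
        rw [Fin.snoc_castSucc, Fin.snoc_castSucc]
        exact hne i j (fun h => hij (by rw [h]))

/-- **`m J` has finite index** as soon as `J[m]` is finite and every `x : J` has a multiple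
`c • x`, `c` prime to `m`, in `m J + J[m^∞]`. -/
theorem finiteIndex_range_nsmul_of_coprime {m : ℕ} (hm : 0 < m)
    (hfin : {x : J | m • x = 0}.Finite)
    (h : ∀ x : J, ∃ c : ℕ, Nat.Coprime c m ∧
      ∃ (y t : J) (a : ℕ), m ^ a • t = 0 ∧ c • x = m • y + t) :
    (nsmulAddMonoidHom (α := J) m).range.FiniteIndex := by
  classical
  obtain ⟨S, hS⟩ := exists_finset_rep_of_pow_torsion hm hfin
  -- the finite set of representatives `r • s`, `r < m`, `s ∈ S`
  set S' : Finset J := (Finset.range m ×ˢ S).image (fun p => p.1 • p.2) with hS'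
  have key : ∀ x : J, ∃ s' ∈ S', x - s' ∈ (nsmulAddMonoidHom (α := J) m).range := by
    intro x
    obtain ⟨c, hc, y, t, a, hta, hcx⟩ := h x
    obtain ⟨s, hs, y', hts⟩ := hS t ⟨a, hta⟩
    -- Bezout: `u c + v m = 1`
    have hbez : (c : ℤ) * Nat.gcdA c m + (m : ℤ) * Nat.gcdB c m = 1 := by
      have := Nat.gcd_eq_gcd_ab c m
      rw [hc] at this
      rw [← this]
      simp
    set u : ℤ := Nat.gcdA c m with hu
    set v : ℤ := Nat.gcdB c m with hv
    -- `u = m q + r` with `0 ≤ r < m`
    have hm' : (m : ℤ) ≠ 0 := by exact_mod_cast hm.ne'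
    set r : ℕ := (u % (m : ℤ)).toNat with hr
    have hr0 : 0 ≤ u % (m : ℤ) := Int.emod_nonneg u hm'
    have hrlt : u % (m : ℤ) < m := Int.emod_lt_of_pos u (by exact_mod_cast hm)
    have hrm : r < m := by
      have : (r : ℤ) < m := by rw [hr, Int.toNat_of_nonneg hr0]; exact hrlt
      exact_mod_cast this
    have hur : u = (m : ℤ) * (u / (m : ℤ)) + (r : ℤ) := by
      rw [hr, Int.toNat_of_nonneg hr0]
      exact (Int.mul_ediv_add_emod u m).symm
    refine ⟨r • s, ?_, ?_⟩
    · rw [hS', Finset.mem_image]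
      exact ⟨(r, s), Finset.mem_product.mpr ⟨Finset.mem_range.mpr hrm, hs⟩, rfl⟩
    · refine ⟨u • (y + y') + v • x + (u / (m : ℤ)) • s, ?_⟩
      rw [nsmulAddMonoidHom_apply]
      have hx1 : x = u • ((c : ℤ) • x) + v • ((m : ℤ) • x) := by
        rw [smul_smul, smul_smul, ← add_smul]
        have : u * (c : ℤ) + v * (m : ℤ) = 1 := by rw [← hbez]; ring
        rw [this, one_smul]
      have hcx' : (c : ℤ) • x = (m : ℤ) • (y + y') + s := by
        rw [natCast_zsmul, hcx, hts, natCast_zsmul]
        rw [smul_add]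
        abel
      have hx2 : x - r • s = (m : ℤ) • (u • (y + y') + v • x + (u / (m : ℤ)) • s) := by
        have hus : u • s = (m : ℤ) • ((u / (m : ℤ)) • s) + (r : ℤ) • s := by
          conv_lhs => rw [hur]
          rw [add_smul, mul_smul]
        calc x - r • s = u • ((c : ℤ) • x) + v • ((m : ℤ) • x) - r • s := by rw [← hx1]
          _ = u • ((m : ℤ) • (y + y') + s) + v • ((m : ℤ) • x) - r • s := by rw [hcx']
          _ = u • ((m : ℤ) • (y + y')) + u • s + v • ((m : ℤ) • x) - r • s := by rw [smul_add]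
          _ = u • ((m : ℤ) • (y + y')) + ((m : ℤ) • ((u / (m : ℤ)) • s) + (r : ℤ) • s) +
              v • ((m : ℤ) • x) - r • s := by rw [← hus]
          _ = (m : ℤ) • (u • (y + y') + v • x + (u / (m : ℤ)) • s) := by
              rw [natCast_zsmul s r]
              simp only [smul_add]
              rw [smul_comm u (m : ℤ) y, smul_comm u (m : ℤ) y', smul_comm v (m : ℤ) x]
              abel
      rw [hx2, natCast_zsmul]
  -- the quotient is finite
  haveI : Finite (J ⧸ (nsmulAddMonoidHom (α := J) m).range) := by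
    let g : ↥S' → J ⧸ (nsmulAddMonoidHom (α := J) m).range := fun s => QuotientAddGroup.mk (s : J)
    apply Finite.of_surjective g
    intro q
    obtain ⟨x, rfl⟩ := QuotientAddGroup.mk_surjective q
    obtain ⟨s', hs', hxs⟩ := key x
    refine ⟨⟨s', hs'⟩, ?_⟩
    show QuotientAddGroup.mk s' = QuotientAddGroup.mk x
    rw [QuotientAddGroup.eq]
    have : -s' + x = x - s' := by abel
    rw [this]
    exact hxs
  exact AddSubgroup.finiteIndex_of_finite_quotient

end Tors

end Fermat.Agent.MW
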