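/-
MW (S17) [DIV] — helper1 — part 6: **`J₀(N) / m J₀(N)` is finite** (for a prime `m` prime to the
degree of the Legendre cover, e.g. `m = 5`), given that the kernel of reduction of the Legendre host
at one auxiliary place `A | ℓ` (`ℓ` odd, `ℓ ∤ N`) is `m`-divisible ((D1), helper2).

`x ∈ J`, `x' = π^* x`; (D2): `n • x' ∈ kerRed`, `n = m^a n'`, `m ∤ n'`; (D1): `n • x' = m^(a+1) • w`;
push forward: `m^a • ((n' d) • x - m • π_* w) = 0`, `d = deg π` prime to `m`.  So
`(n' d) • x ∈ m J + J[m^∞]` and `DIV_helper1_Tors` applies (`J[m]` is finite by stage (I)).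
-/
import Mathlib
import Fermat.Agent.MW.DIV_helper1_Tors
import Fermat.Agent.MW.DIV_helper1_Leg
import Fermat.Agent.GR.ASM_helper8_Done

set_option autoImplicit false
set_option linter.unusedSectionVars false
set_option linter.unusedVariables false
set_option linter.style.haveILetI false

namespace Fermat.Agent.MW

open AlgebraicCurve ModularCurve IsLocalRing
open Fermat.Agent.FF Fermat.Agent.FG Fermat.Agent.JA Fermat.Agent.GR

local notation "Ω" => AlgebraicClosure ℚ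

section Abstract

/-- an `m`-divisible subgroup is `m ^ j`-divisible. -/
theorem exists_pow_nsmul_eq_of_divisible {G : Type*} [AddCommGroup G] (K : AddSubgroup G) (m : ℕ)
    (hK : ∀ z ∈ K, ∃ z' ∈ K, m • z' = z) (j : ℕ) :
    ∀ z ∈ K, ∃ w ∈ K, m ^ j • w = z := by
  induction j with
  | zero => exact fun z hz => ⟨z, hz, by rw [pow_zero, one_smul]⟩
  | succ j ih =>
    intro z hz
    obtain ⟨w, hw, hwz⟩ := ih z hz
    obtain ⟨w', hw', hww⟩ := hK w hw
    exact ⟨w', hw', by rw [pow_succ, mul_nsmul', hww, hwz]⟩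

end Abstract

section Main

variable {ℓ : ℕ} [Fact ℓ.Prime] {A : ValuationSubring Ω} (hA : A.LiesOverPrime ℓ)
  (N : ℕ) [NeZero N] (hℓN : ¬ ℓ ∣ N) (hℓ2 : ℓ ≠ 2)

/-- the `m`-torsion of `J₀(N)` is finite. -/
theorem jzero_torsion_finite (m : ℕ) [Fact m.Prime] : {x : JZero N | m • x = 0}.Finite := by
  haveI : Finite ↥(torsionNat (JZero N) (m ^ 1)) := (stageIData N m).D.finite_torsion 1
  have h1 : {x : JZero N | m • x = 0} = (torsionNat (JZero N) (m ^ 1) : Set (JZero N)) := by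
    ext x
    show m • x = 0 ↔ m ^ 1 • x = 0
    rw [pow_one]
  rw [h1]
  exact Set.toFinite _

include hA hℓN hℓ2 in
/-- every class of `J₀(N)` has a multiple prime to `m` in `m J + J[m^∞]`. -/
theorem exists_coprime_nsmul_eq (m : ℕ) [hm : Fact m.Prime] (hdm : Nat.Coprime (legDeg N) m)
    (hD1 : ∀ z ∈ (legGoodRed hA N hℓN hℓ2).kerRed,
      ∃ z' ∈ (legGoodRed hA N hℓN hℓ2).kerRed, m • z' = z) (x : JZero N) :
    ∃ c : ℕ, Nat.Coprime c m ∧ ∃ (y t : JZero N) (a : ℕ), m ^ a • t = 0 ∧ c • x = m • y + t := by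
  obtain ⟨n, hn, hnK⟩ := exists_nsmul_mem_kerRed_leg hA N hℓN hℓ2 (legPull N x)
  obtain ⟨a, n', hn'm, rfl⟩ := Nat.exists_eq_pow_mul_and_not_dvd hn.ne' m hm.out.ne_one
  obtain ⟨w, -, hw⟩ := exists_pow_nsmul_eq_of_divisible _ m hD1 (a + 1) _ hnK
  have hpush : m ^ (a + 1) • legPush N w = (m ^ a * n') • (legDeg N • x) := by
    rw [← map_nsmul, hw, map_nsmul, legPush_legPull]
  refine ⟨n' * legDeg N, ?_, legPush N w, (n' * legDeg N) • x - m • legPush N w, a, ?_, ?_⟩
  · exact Nat.Coprime.mul_left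
      ((Nat.Prime.coprime_iff_not_dvd hm.out).mpr hn'm).symm hdm
  · rw [nsmul_sub, ← mul_nsmul', ← mul_nsmul', ← pow_succ, hpush, ← mul_nsmul', mul_assoc,
      sub_self]
  · abel

include hA hℓN hℓ2 in
/-- **`m J₀(N)` has finite index in `J₀(N)`**, given (D1). -/
theorem jzero_finiteIndex_of_kerRed_divisible (m : ℕ) [hm : Fact m.Prime]
    (hdm : Nat.Coprime (legDeg N) m)
    (hD1 : ∀ z ∈ (legGoodRed hA N hℓN hℓ2).kerRed,
      ∃ z' ∈ (legGoodRed hA N hℓN hℓ2).kerRed, m • z' = z) :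
    (nsmulAddMonoidHom (α := JZero N) m).range.FiniteIndex :=
  finiteIndex_range_nsmul_of_coprime hm.out.pos (jzero_torsion_finite N m)
    (exists_coprime_nsmul_eq hA N hℓN hℓ2 m hdm hD1)

end Main

end Fermat.Agent.MW
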