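/-
MW (S17) [DIV] — helper1 — part 7: **`J₀(N) / 5 J₀(N)` is finite** — the literal consumed by
helper4's `wmw_five`.  Auxiliary place: `padicPlace 3` (`3` is odd, `3 ∤ N` for a prime `N ≥ 5`,
`5` is a unit at `3`), (D1) = helper2's `kerRed_divisible`, (D2)+(D3) = `DIV_helper1_Main`.
-/
import Mathlib
import Fermat.Agent.MW.DIV_helper1_Main
import Fermat.Agent.MW.DIV_helper2_KerRed
import Fermat.Agent.FG.HENSEL_helper2_Padic
import Fermat.Agent.TW.Kill_helper1_Cyc

set_option autoImplicit false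
set_option linter.unusedSectionVars false
set_option linter.unusedVariables false
set_option linter.style.haveILetI false

namespace Fermat.Agent.MW

open AlgebraicCurve ModularCurve IsLocalRing
open Fermat.Agent.FF Fermat.Agent.FG Fermat.Agent.JA Fermat.Agent.GR

local notation "Ω" => AlgebraicClosure ℚ

/-- `J₀(N) / m J₀(N)` is finite for every prime `m ≠ ℓ` prime to the degree of the Legendre cover,
`ℓ` an odd prime not dividing `N`. -/
theorem jzero_finiteIndex_of_aux (N : ℕ) [NeZero N] (ℓ : ℕ) [Fact ℓ.Prime] (hℓN : ¬ ℓ ∣ N)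
    (hℓ2 : ℓ ≠ 2) (m : ℕ) [hm : Fact m.Prime] (hmℓ : ¬ ℓ ∣ m)
    (hdm : Nat.Coprime (legDeg N) m) :
    (nsmulAddMonoidHom (α := JZero N) m).range.FiniteIndex := by
  have hA : (padicPlace ℓ).LiesOverPrime ℓ := Fermat.Agent.TW.Kill.padicPlace_liesOverPrime ℓ
  haveI : IsAlgClosed (ResidueField ↥(padicPlace ℓ)) := isAlgClosed_residueField (padicPlace ℓ)
  have hval : (padicPlace ℓ).valuation ((m : ℕ) : Ω) = 1 :=
    Fermat.Agent.TW.Kill.valuation_natCast_eq_one (Fact.out : ℓ.Prime) hmℓ hA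
  exact jzero_finiteIndex_of_kerRed_divisible hA N hℓN hℓ2 m hdm
    (kerRed_divisible (legGoodRed hA N hℓN hℓ2) (isMvHenselian_padicPlace ℓ) m hval)

/-- **[DIV]: `5 J₀(N)` has finite index in `J₀(N)`** (`N ≥ 5` prime). -/
theorem jzero_five_finiteIndex (N : ℕ) [NeZero N] (hN : N.Prime) (hN5 : 5 ≤ N) :
    (nsmulAddMonoidHom (α := JZero N) 5).range.FiniteIndex := by
  haveI : Fact (Nat.Prime 3) := ⟨Nat.prime_three⟩
  haveI : Fact (Nat.Prime 5) := ⟨Nat.prime_five⟩
  have h3N : ¬ 3 ∣ N := by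
    intro h
    have := (Nat.prime_dvd_prime_iff_eq Nat.prime_three hN).mp h
    omega
  exact jzero_finiteIndex_of_aux N 3 h3N (by norm_num) 5 (by norm_num) (legDeg_coprime_five N)

end Fermat.Agent.MW
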