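import Mathlib
import Fermat.Agent.MW.MUMFORD_helper4_Quasi

/-!
# The descent wrapper for an arbitrary descent exponent `n ≥ 2` (project MW, formal layer)

* `QuasiPairing.nsmul_left` : `|β (k • x) z − k β x z| ≤ (k + 1) C`.
* `QuasiPairing.nsmul_nsmul` : `|β (n • x) (n • x) − n² β x x| ≤ (n + 1)² C`.
* `fg_of_quasiPairing_nsmul` : the analogue of `fg_of_quasiPairing` with `Γ / nΓ` finite, `n ≥ 2`
  (Mathlib's general `AddCommGroup.fg_of_descent` with `a = 2 < b = n²`).
* `fg_of_quasiPairing_five` : the case `n = 5` used for `J₀(N)(ℚ)` (the descent prime must be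
  prime to the degrees of the hosts, lead msg 1578).
-/

namespace Fermat.Agent.MW

namespace QuasiPairing

variable {Γ : Type*} [AddCommGroup Γ] {β : Γ → Γ → ℝ} {C : ℝ}

theorem nsmul_left (hβ : QuasiPairing β C) (k : ℕ) (x z : Γ) :
    |β (k • x) z - k * β x z| ≤ (k + 1) * C := by
  induction k with
  | zero =>
    have h := hβ.zero_left z
    simpa using h
  | succ k ih =>
    have h1 := hβ.add_left (k • x) x z
    rw [← succ_nsmul] at h1
    push_cast
    rw [abs_le] at h1 ih ⊢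
    constructor <;> nlinarith [h1.1, h1.2, ih.1, ih.2]

theorem nsmul_right (hβ : QuasiPairing β C) (k : ℕ) (z x : Γ) :
    |β z (k • x) - k * β z x| ≤ (k + 1) * C := by
  rw [hβ.symm z (k • x), hβ.symm z x]
  exact hβ.nsmul_left k x z

/-- `β (n • x) (n • x) ≈ n² β x x`. -/
theorem nsmul_nsmul (hβ : QuasiPairing β C) (n : ℕ) (x : Γ) :
    |β (n • x) (n • x) - (n : ℝ) ^ 2 * β x x| ≤ ((n : ℝ) + 1) ^ 2 * C := by
  have h1 := hβ.nsmul_left n x (n • x)
  have h2 := hβ.nsmul_right n x x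
  have hn : (0 : ℝ) ≤ n := Nat.cast_nonneg n
  rw [abs_le] at h1 h2 ⊢
  constructor <;> nlinarith [h1.1, h1.2, h2.1, h2.2, mul_le_mul_of_nonneg_left h2.1 hn,
    mul_le_mul_of_nonneg_left h2.2 hn]

end QuasiPairing

/-- **Descent wrapper, exponent `n ≥ 2`.** A commutative group with finite `Γ / nΓ`, a
quasi-bilinear symmetric pairing `β`, and a lower bound `β x x ≥ c · η x − C'` (`c > 0`) by a
function `η` with finite sublevel sets, is finitely generated. -/
theorem fg_of_quasiPairing_nsmul {Γ : Type*} [AddCommGroup Γ] (n : ℕ) (hn : 2 ≤ n)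
    (β : Γ → Γ → ℝ) (C : ℝ)
    (hβ : QuasiPairing β C) (hfin : (nsmulAddMonoidHom (α := Γ) n).range.FiniteIndex)
    (η : Γ → ℝ) (hη : ∀ B : ℝ, {x : Γ | η x ≤ B}.Finite) (c C' : ℝ) (hc : 0 < c)
    (hlow : ∀ x, c * η x - C' ≤ β x x) : AddGroup.FG Γ := by
  -- `η` is bounded below
  obtain ⟨m, hm⟩ : ∃ m : ℝ, ∀ x, m ≤ η x := by
    have hfin0 := hη 0
    obtain ⟨m, hm⟩ := (hfin0.image η).bddBelow
    refine ⟨min m 0, fun x => ?_⟩
    by_cases hx : η x ≤ 0
    · exact le_trans (min_le_left _ _) (hm ⟨x, hx, rfl⟩)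
    · exact le_trans (min_le_right _ _) (le_of_lt (not_le.mp hx))
  set K : ℝ := C' - c * m with hK
  set h : Γ → ℝ := fun x => β x x + K with hh
  have hnonneg : ∀ x, 0 ≤ h x := by
    intro x
    have h1 := hlow x
    have h2 : c * m ≤ c * η x := mul_le_mul_of_nonneg_left (hm x) hc.le
    simp only [hh, hK]
    linarith
  have hpar : ∀ x y, |h (x + y) + h (x - y) - 2 * (h x + h y)| ≤ 16 * C + 2 * |K| := by
    intro x y
    have h1 := hβ.parallelogram x y
    have h2 : h (x + y) + h (x - y) - 2 * (h x + h y) =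
        (β (x + y) (x + y) + β (x - y) (x - y) - 2 * (β x x + β y y)) + (-2 * K) := by
      simp only [hh]; ring
    rw [h2]
    refine le_trans (abs_add_le _ _) ?_
    have h3 : |(-2 : ℝ) * K| = 2 * |K| := by rw [abs_mul]; norm_num
    rw [h3]
    linarith
  have : Northcott h := ⟨fun B => by
    refine (hη ((B - K + C') / c)).subset ?_
    intro x hx
    simp only [Set.mem_ofPred_eq, hh] at hx ⊢
    rw [le_div_iff₀ hc]
    have := hlow x
    linarith⟩
  -- the two descent inequalities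
  have H₂ : ∀ g x, h x ≤ 2 * h (g + x) + (2 * h (-g) + (16 * C + 2 * |K|)) := by
    intro g x
    have h1 := hpar (g + x) (-g)
    have e1 : g + x + -g = x := by abel
    have e2 : g + x - -g = g + x + g := by abel
    rw [e1, e2] at h1
    have h2 := hnonneg (g + x + g)
    rw [abs_le] at h1
    linarith [h1.1, h1.2]
  have hn2 : (2 : ℝ) < (n : ℝ) ^ 2 := by
    have : (2 : ℝ) ≤ n := by exact_mod_cast hn
    nlinarith
  have H₃ : ∀ x, (n : ℝ) ^ 2 * h x - ((n : ℝ) ^ 2 * K - K + ((n : ℝ) + 1) ^ 2 * C) ≤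
      h (n • x) := by
    intro x
    have h1 := hβ.nsmul_nsmul n x
    rw [abs_le] at h1
    simp only [hh]
    linarith [h1.1, h1.2]
  exact AddCommGroup.fg_of_descent (n := n) (a := 2) (b := (n : ℝ) ^ 2) (by norm_num) hn2 hfin H₂ H₃

/-- the case `n = 5`. -/
theorem fg_of_quasiPairing_five {Γ : Type*} [AddCommGroup Γ] (β : Γ → Γ → ℝ) (C : ℝ)
    (hβ : QuasiPairing β C) (hfin : (nsmulAddMonoidHom (α := Γ) 5).range.FiniteIndex)
    (η : Γ → ℝ) (hη : ∀ B : ℝ, {x : Γ | η x ≤ B}.Finite) (c C' : ℝ) (hc : 0 < c)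
    (hlow : ∀ x, c * η x - C' ≤ β x x) : AddGroup.FG Γ :=
  fg_of_quasiPairing_nsmul 5 (by norm_num) β C hβ hfin η hη c C' hc hlow

end Fermat.Agent.MW
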