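import Mathlib
import Fermat.Agent.MW.MUMFORD_helper8_MB3

/-!
# Project MW — [MUMFORD] layer M4, part 4: the Mumford bound and `mumford` (helper8)

* `eta_le` : `eta y ≤ nφ · Hinf (Ey y) + g · Σ_v κφ v` for `y ∈ NS`;
* `abs_β_sub_bil_D1_le` : `|β y y - bil (D₁ E_y) (D₁ E_y)| ≤ 6 g · Σ_v Cw v (6 g)`;
* `mumfordBound : S.MumfordBound`, and **`mumford : S.MumfordGoal`**.
-/

set_option autoImplicit false

open scoped BigOperators

noncomputable section

namespace Fermat.Agent.MW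

attribute [local instance] Finsupp.comapSMul Finsupp.comapMulAction Finsupp.comapDistribMulAction

namespace HtSys

variable {G K X Fn V J : Type} [Group G] [Field K] [MulSemiringAction G K]
  [MulAction G X] [MulAction G Fn] [AddCommGroup J] [DistribMulAction G J] [DecidableEq X]
  (S : HtSys G K X Fn V J)

/-- total size of the divisor of `φ`. -/
def dφ : ℕ := (dnorm (S.dv S.φ)).toNat

theorem dnorm_dv_φ_le : dnorm (S.dv S.φ) ≤ (S.dφ : ℤ) := by
  unfold dφ
  rw [Int.toNat_of_nonneg (dnorm_nonneg _)]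

/-- the Weil constants of `φ`. -/
def cφ : V → ℝ := (S.weil S.dφ S.φ S.dnorm_dv_φ_le).choose

theorem cφ_support : (Function.support S.cφ).Finite :=
  (S.weil S.dφ S.φ S.dnorm_dv_φ_le).choose_spec.1

theorem weil_φ (v : V) (Q : X) (hQ : Q ∉ S.Zp) :
    |S.pot v (S.dv S.φ) Q + S.lg v (S.lc S.φ Q) - S.cφ v| ≤ S.Cw v S.dφ :=
  (S.weil S.dφ S.φ S.dnorm_dv_φ_le).choose_spec.2 v Q (Or.inr hQ)

/-- the constant of the `φ`-bound. -/
def κφ (v : V) : ℝ :=
  ((S.nφ : ℝ) + (ndeg S.Zφ : ℝ)) * S.Cγ v + |S.cφ v| + S.Cw v S.dφ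

theorem κφ_nonneg (v : V) : 0 ≤ S.κφ v := by
  unfold κφ
  have h1 := S.Cγ_nonneg v
  have h2 := S.Cw_nonneg v S.dφ
  have h3 : (0 : ℝ) ≤ (S.nφ : ℝ) + (ndeg S.Zφ : ℝ) := by positivity
  have h4 := abs_nonneg (S.cφ v)
  have h5 := mul_nonneg h3 h1
  linarith

theorem κφ_support : (Function.support S.κφ).Finite := by
  refine ((S.Cγ_support.union S.cφ_support).union (S.Cw_support S.dφ)).subset ?_
  intro v hv
  rw [Function.mem_support] at hv
  by_contra hcon
  apply hv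
  simp only [Set.mem_union, Function.mem_support, not_or, not_not] at hcon
  obtain ⟨⟨e1, e2⟩, e3⟩ := hcon
  unfold κφ
  rw [e1, e2, e3]
  simp

/-- the `φ`-bound: `max 0 (lg φ(Q)) ≤ nφ γ(∞,Q) + κφ`. -/
theorem max_lg_lc_φ_le (v : V) {Q : X} (hQ : Q ∉ S.Zp) (hQinf : Q ≠ S.inf) :
    max 0 (S.lg v (S.lc S.φ Q)) ≤ (S.nφ : ℝ) * S.γ v S.inf Q + S.κφ v := by
  have h1 := (abs_le.mp (S.weil_φ v Q hQ)).2
  have h2 : S.pot v (S.dv S.φ) Q = S.pot v (dofNat S.Zφ) Q - (S.nφ : ℝ) * S.γ v S.inf Q := by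
    rw [S.φ_div, pot_sub, pot_single_inf S v _ hQinf]
    push_cast
    rfl
  have h3 := S.pot_dofNat_ge v S.Zφ S.Zφ_supp hQ
  have h4 := S.γ_lower v S.inf Q (Ne.symm hQinf)
  have h5 := S.Cγ_nonneg v
  have h6 := S.Cw_nonneg v S.dφ
  have h7 := abs_nonneg (S.cφ v)
  have h8 := le_abs_self (S.cφ v)
  have hn : (0 : ℝ) ≤ (S.nφ : ℝ) := Nat.cast_nonneg _
  have hz : (0 : ℝ) ≤ (ndeg S.Zφ : ℝ) := Nat.cast_nonneg _
  rw [h2] at h1
  unfold κφ
  apply max_le
  · nlinarith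
  · nlinarith

/-- the non-negative local naive height of an effective divisor. -/
def tloc (v : V) (E : X →₀ ℕ) : ℝ :=
  ∑ P ∈ E.support, (E P : ℝ) * max 0 (S.lg v (S.lc S.φ P))

theorem tloc_nonneg (v : V) (E : X →₀ ℕ) : 0 ≤ S.tloc v E :=
  Finset.sum_nonneg fun _ _ => mul_nonneg (Nat.cast_nonneg _) (le_max_left _ _)

theorem tloc_le (v : V) {E : X →₀ ℕ} (hE : S.GoodE E) :
    S.tloc v E ≤ (S.nφ : ℝ) * S.hinf v E + (S.gq : ℝ) * S.κφ v := by
  unfold tloc hinf
  rw [← S.sum_cast_eq_gq hE.deg, Finset.mul_sum, Finset.sum_mul, ← Finset.sum_add_distrib]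
  refine Finset.sum_le_sum fun P hP => ?_
  obtain ⟨hPZ, hPinf⟩ := hE.supp P hP
  have h1 := S.max_lg_lc_φ_le v hPZ hPinf
  have h2 : (0 : ℝ) ≤ (E P : ℝ) := Nat.cast_nonneg _
  have h3 := mul_le_mul_of_nonneg_left h1 h2
  linarith

/-- **`eta y ≤ nφ · Hinf (Ey y) + g · Σ_v κφ v`.** -/
theorem eta_le {y : J} (hy : S.NS y) :
    S.eta y ≤ (S.nφ : ℝ) * S.Hinf (S.Ey y) + (S.gq : ℝ) * ∑ᶠ v, S.κφ v := by
  classical
  set E := S.Ey y with hE
  have hgood := S.goodE_Ey hy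
  set T : V → ℝ := fun v => gavg G (S.tloc v) E with hT
  set H : V → ℝ := fun v => gavg G (S.hinf v) E with hH
  have hHfin : (Function.support H).Finite :=
    S.gavg_hinf_support_finite fun P hP => (hgood.supp P hP).2
  have hT0 : ∀ v, 0 ≤ T v := fun v => gavg_nonneg E fun σ => S.tloc_nonneg v _
  have hTle : ∀ v, T v ≤ (S.nφ : ℝ) * H v + (S.gq : ℝ) * S.κφ v := by
    intro v
    have h1 : T v ≤ gavg G (fun E₁ : X →₀ ℕ => (S.nφ : ℝ) * S.hinf v E₁
        + (S.gq : ℝ) * S.κφ v) E :=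
      gavg_le_gavg E fun σ => S.tloc_le v (S.goodE_smul_Ey hy σ)
    rwa [gavg_add, gavg_const_mul, gavg_const _ _ (S.orbit_nat_finite E)] at h1
  have hBfin : (Function.support fun v => (S.nφ : ℝ) * H v + (S.gq : ℝ) * S.κφ v).Finite := by
    refine (hHfin.union S.κφ_support).subset ?_
    intro v hv
    rw [Function.mem_support] at hv
    by_contra hcon
    apply hv
    simp only [Set.mem_union, Function.mem_support, not_or, not_not] at hcon
    rw [hcon.1, hcon.2]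
    ring
  have hTfin : (Function.support T).Finite := by
    refine hBfin.subset fun v hv => ?_
    rw [Function.mem_support] at hv ⊢
    intro h0
    apply hv
    exact le_antisymm (h0 ▸ hTle v) (hT0 v)
  -- `T v` as a sum over the points of `E`
  have hTsum : ∀ v, T v = ∑ P ∈ E.support,
      (E P : ℝ) * gavg G (fun a => max 0 (S.lg v a)) (S.lc S.φ P) := fun v =>
    S.gavg_sum_lc v S.φ S.φ_fix (fun t => max 0 t) E
  -- finiteness of the support of each term
  have hterm : ∀ P ∈ E.support, (Function.support fun v =>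
      gavg G (fun a => max 0 (S.lg v a)) (S.lc S.φ P)).Finite := by
    intro P hP
    refine hTfin.subset fun v hv => ?_
    rw [Function.mem_support] at hv ⊢
    intro h0
    apply hv
    rw [hTsum v] at h0
    have hnn : ∀ Q ∈ E.support,
        0 ≤ (E Q : ℝ) * gavg G (fun a => max 0 (S.lg v a)) (S.lc S.φ Q) := fun Q _ =>
      mul_nonneg (Nat.cast_nonneg _) (gavg_nonneg _ fun _ => le_max_left _ _)
    have h1 := (Finset.sum_eq_zero_iff_of_nonneg hnn).mp h0 P hP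
    have hEP : (E P : ℝ) ≠ 0 := by
      have := Finsupp.mem_support_iff.mp hP
      exact_mod_cast this
    exact (mul_eq_zero.mp h1).resolve_left hEP
  have heta : S.eta y = ∑ᶠ v, T v := by
    unfold eta habs
    rw [← hE]
    have : (fun v => T v) = fun v => ∑ P ∈ E.support,
        (E P : ℝ) * gavg G (fun a => max 0 (S.lg v a)) (S.lc S.φ P) := funext hTsum
    rw [this, finsum_sum_comm]
    · refine Finset.sum_congr rfl fun P _ => ?_
      rw [mul_finsum]
    · intro P hP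
      refine (hterm P hP).subset fun v hv => ?_
      rw [Function.mem_support] at hv ⊢
      intro h0
      apply hv
      rw [h0, mul_zero]
  rw [heta]
  have hsum := finsum_le_finsum_of_le hTfin hBfin hTle
  have hsplit : ∑ᶠ v, ((S.nφ : ℝ) * H v + (S.gq : ℝ) * S.κφ v)
      = (S.nφ : ℝ) * S.Hinf E + (S.gq : ℝ) * ∑ᶠ v, S.κφ v := by
    rw [finsum_add_distrib, ← mul_finsum, ← mul_finsum]
    · rfl
    · exact hHfin.subset fun v hv => by
        rw [Function.mem_support] at hv ⊢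
        intro h0; apply hv; rw [h0, mul_zero]
    · exact S.κφ_support.subset fun v hv => by
        rw [Function.mem_support] at hv ⊢
        intro h0; apply hv; rw [h0, mul_zero]
  rw [hsplit] at hsum
  exact hsum

/-- comparison of `β y y` with the pairing of the reduced divisor. -/
theorem abs_β_sub_bil_D1_le {y : J} (hy : S.NS y) :
    |S.β y y - S.bil (S.D1 (S.Ey y)) (S.D1 (S.Ey y))|
      ≤ (6 * S.gq : ℝ) * S.CwTot (6 * S.gq) := by
  set E := S.Ey y with hE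
  have hgood := S.goodE_Ey hy
  have hD1 : S.D1 E ∈ dZero X := S.D1_mem_dZero hgood.deg
  have hD1supp := S.D1_supp hgood.supp
  have hDysupp := S.repD_supp' y
  set Dy : X →₀ ℤ := (S.repD y).1 with hDy
  set F : X →₀ ℤ := Dy - S.D1 E with hF
  have hFmem : F ∈ dZero X := (dZero X).sub_mem (S.repD y).2 hD1
  have hcls : S.cls ⟨F, hFmem⟩ = 0 := by
    have e : (⟨F, hFmem⟩ : dZero X) = S.repD y - ⟨S.D1 E, hD1⟩ := rfl
    have h1 : S.cls ⟨S.D1 E, hD1⟩ = y := S.Ey_cls y hy hD1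
    rw [e, map_sub, cls_repD, h1, sub_self]
  have hdF : dnorm F ≤ ((6 * S.gq : ℕ) : ℤ) := by
    have h1 := dnorm_sub_le Dy (S.D1 E)
    have h2 := S.dnorm_repD y
    have h3 := S.dnorm_D1_le hgood.deg
    push_cast
    linarith
  have hDyF : Dy = S.D1 E + F := by rw [hF]; abel
  have e1 : S.bil Dy Dy = S.bil (S.D1 E) Dy + S.bil F Dy := by
    have := S.bil_add_left (D := S.D1 E) (D' := F) (E := Dy) (S.adm_of_right hDysupp)
      (S.adm_of_right hDysupp)
    rwa [← hDyF] at this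
  have e2 : S.bil (S.D1 E) Dy = S.bil (S.D1 E) (S.D1 E) + S.bil (S.D1 E) F := by
    have := S.bil_add_right (D := S.D1 E) (E := S.D1 E) (E' := F) (S.adm_of_left hD1supp)
      (S.adm_of_left hD1supp)
    rwa [← hDyF] at this
  have e3 : S.bil (S.D1 E) F = S.bil F (S.D1 E) := S.bil_symm _ _
  have b1 := S.abs_bil_le_of_cls_eq_zero hFmem hcls _ hdF Dy (S.repD y).2 hDysupp
  have b2 := S.abs_bil_le_of_cls_eq_zero hFmem hcls _ hdF (S.D1 E) hD1 hD1supp
  have hC := S.CwTot_nonneg (6 * S.gq)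
  have n1 : (dnorm Dy : ℝ) ≤ 4 * S.gq := by exact_mod_cast S.dnorm_repD y
  have n2 : (dnorm (S.D1 E) : ℝ) ≤ 2 * S.gq := by exact_mod_cast S.dnorm_D1_le hgood.deg
  have b1' : |S.bil F Dy| ≤ (4 * S.gq : ℝ) * S.CwTot (6 * S.gq) :=
    le_trans b1 (mul_le_mul_of_nonneg_right n1 hC)
  have b2' : |S.bil F (S.D1 E)| ≤ (2 * S.gq : ℝ) * S.CwTot (6 * S.gq) :=
    le_trans b2 (mul_le_mul_of_nonneg_right n2 hC)
  have : S.β y y - S.bil (S.D1 E) (S.D1 E) = S.bil F Dy + S.bil F (S.D1 E) := by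
    unfold β
    rw [← hDy, e1, e2, e3]
    ring
  rw [this]
  refine le_trans (abs_add_le _ _) ?_
  linarith

/-- **(MB) the Mumford bound.** -/
theorem mumfordBound : S.MumfordBound := by
  have hnφ : (0 : ℝ) < S.nφ := by exact_mod_cast S.nφ_pos
  refine ⟨(1 / (S.nφ : ℝ)) * ((S.gq : ℝ) * ∑ᶠ v, S.κφ v) + (∑ᶠ v, S.Cmb v)
    + (6 * S.gq : ℝ) * S.CwTot (6 * S.gq), fun y hy => ?_⟩
  have h1 := S.eta_le hy
  have h2 := S.bil_D1_ge hy
  have h3 := (abs_le.mp (S.abs_β_sub_bil_D1_le hy)).1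
  have h4 : (1 / (S.nφ : ℝ)) * S.eta y
      ≤ S.Hinf (S.Ey y) + (1 / (S.nφ : ℝ)) * ((S.gq : ℝ) * ∑ᶠ v, S.κφ v) := by
    have := mul_le_mul_of_nonneg_left h1 (by positivity : (0 : ℝ) ≤ 1 / (S.nφ : ℝ))
    rw [mul_add, ← mul_assoc, one_div, inv_mul_cancel₀ hnφ.ne', one_mul] at this
    rw [one_div]
    exact this
  linarith

/-- **[MUMFORD]**: the quasi-pairing `β` has finite sublevel sets on the `G`-fixed classes. -/
theorem mumford : S.MumfordGoal := S.mumfordGoal_of_bound S.mumfordBound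

end HtSys

end Fermat.Agent.MW
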