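/-
MW / [WMW-KUM] (helper4), part 1: the group-theoretic skeleton of the weak Mordell–Weil theorem.
`Γ / mΓ` is finite for `Γ = J^G` as soon as `J` is `m`-divisible, `J[m]` is finite and ONE
finite-index subgroup `H'` of `G` fixes every `y` with `m • y ∈ Γ`
(`Y / Γ ↪ Map(G / H', J[m])`, and `Y → Γ / mΓ`, `y ↦ m • y`, is onto). Mathlib only.
-/
import Mathlib

set_option autoImplicit false
set_option linter.style.haveILetI false

namespace Fermat.Agent.MW

section Group

variable {G J : Type*} [Group G] [AddCommGroup J] [DistribMulAction G J]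

/-- **weak Mordell–Weil, group-theoretic skeleton.** -/
theorem finiteIndex_range_nsmul_of_fixing (m : ℕ)
    (hdiv : ∀ x : J, ∃ y : J, m • y = x)
    (htors : {t : J | m • t = 0}.Finite)
    (H' : Subgroup G) [H'.FiniteIndex]
    (hH' : ∀ y : J, (∀ σ : G, σ • (m • y) = m • y) → ∀ σ ∈ H', σ • y = y) :
    (nsmulAddMonoidHom (α := ↥(FixedPoints.addSubgroup G J)) m).range.FiniteIndex := by
  classical
  set R := (nsmulAddMonoidHom (α := ↥(FixedPoints.addSubgroup G J)) m).range with hR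
  rw [AddSubgroup.finiteIndex_iff_finite_quotient]
  haveI : Finite (G ⧸ H') := Subgroup.finite_quotient_of_finiteIndex
  haveI : Finite {t : J // m • t = 0} := htors.to_subtype
  -- the group `Y` of points whose `m`-th multiple is invariant
  let Y : Type _ := {y : J // ∀ σ : G, σ • (m • y) = m • y}
  have hYt : ∀ (y : Y) (σ : G), m • (σ • y.1 - y.1) = 0 := by
    intro y σ
    rw [smul_sub, smul_comm, y.2 σ, sub_self]
  let Φ : Y → (G ⧸ H' → {t : J // m • t = 0}) := fun y q => ⟨q.out • y.1 - y.1, hYt y q.out⟩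
  let f : Y → (↥(FixedPoints.addSubgroup G J) ⧸ R) := fun y =>
    QuotientAddGroup.mk ⟨m • y.1, fun σ => y.2 σ⟩
  have hΦ : ∀ (y : Y) (σ : G), σ • y.1 - y.1 = (Φ y (QuotientGroup.mk σ)).1 := by
    intro y σ
    obtain ⟨h, hh⟩ := QuotientGroup.mk_out_eq_mul H' σ
    show σ • y.1 - y.1 = (QuotientGroup.mk σ : G ⧸ H').out • y.1 - y.1
    rw [hh, mul_smul, hH' y.1 y.2 h h.2]
  have hf : ∀ y y' : Y, Φ y = Φ y' → f y = f y' := by
    intro y y' hyy
    have hfix : ∀ σ : G, σ • (y.1 - y'.1) = y.1 - y'.1 := by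
      intro σ
      have h1 := hΦ y σ
      have h2 := hΦ y' σ
      rw [hyy] at h1
      rw [smul_sub]
      have h3 : σ • y.1 - y.1 = σ • y'.1 - y'.1 := h1.trans h2.symm
      have h4 : σ • y.1 - σ • y'.1 - (y.1 - y'.1) = (σ • y.1 - y.1) - (σ • y'.1 - y'.1) := by abel
      rw [← sub_eq_zero, h4, h3, sub_self]
    show (QuotientAddGroup.mk _ : _ ⧸ R) = QuotientAddGroup.mk _
    rw [QuotientAddGroup.eq]
    refine ⟨-⟨y.1 - y'.1, hfix⟩, ?_⟩
    apply Subtype.ext
    show m • (-(y.1 - y'.1)) = -(m • y.1) + m • y'.1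
    rw [smul_neg, smul_sub]
    abel
  have hsurj : Function.Surjective f := by
    intro q
    induction q using QuotientAddGroup.induction_on with
    | H x =>
      obtain ⟨y, hy⟩ := hdiv x.1
      refine ⟨⟨y, fun σ => ?_⟩, ?_⟩
      · rw [hy]; exact x.2 σ
      · show (QuotientAddGroup.mk _ : _ ⧸ R) = QuotientAddGroup.mk x
        congr 1
        exact Subtype.ext hy
  let g : Set.range Φ → (↥(FixedPoints.addSubgroup G J) ⧸ R) := fun φ => f φ.2.choose
  refine Finite.of_surjective g ?_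
  intro q
  obtain ⟨y, rfl⟩ := hsurj q
  refine ⟨⟨Φ y, y, rfl⟩, ?_⟩
  show f _ = f y
  exact hf _ _ (Set.mem_range_self y : Φ y ∈ Set.range Φ).choose_spec
  
/-- **weak Mordell–Weil, group-theoretic skeleton, second form**: instead of `m`-divisibility of
`J` only the finiteness of `J / mJ` is assumed (`Γ' := Γ ∩ mJ` has finite index in `Γ` and
`Γ' / mΓ` is finite by the Kummer argument). -/
theorem finiteIndex_range_nsmul_of_fixing_of_finiteIndex (m : ℕ)
    (hfin : (nsmulAddMonoidHom (α := J) m).range.FiniteIndex)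
    (htors : {t : J | m • t = 0}.Finite)
    (H' : Subgroup G) [H'.FiniteIndex]
    (hH' : ∀ y : J, (∀ σ : G, σ • (m • y) = m • y) → ∀ σ ∈ H', σ • y = y) :
    (nsmulAddMonoidHom (α := ↥(FixedPoints.addSubgroup G J)) m).range.FiniteIndex := by
  classical
  set R := (nsmulAddMonoidHom (α := ↥(FixedPoints.addSubgroup G J)) m).range with hR
  set Γ' : AddSubgroup ↥(FixedPoints.addSubgroup G J) :=
    (nsmulAddMonoidHom (α := J) m).range.addSubgroupOf (FixedPoints.addSubgroup G J) with hΓ'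
  haveI : Γ'.FiniteIndex := inferInstance
  have hle : R ≤ Γ' := by
    rintro _ ⟨x, rfl⟩
    rw [hΓ', AddSubgroup.mem_addSubgroupOf]
    exact ⟨x.1, rfl⟩
  haveI : Finite (G ⧸ H') := Subgroup.finite_quotient_of_finiteIndex
  haveI : Finite {t : J // m • t = 0} := htors.to_subtype
  have hrel : (R.addSubgroupOf Γ').FiniteIndex := by
    rw [AddSubgroup.finiteIndex_iff_finite_quotient]
    let Y : Type _ := {y : J // ∀ σ : G, σ • (m • y) = m • y}
    have hYt : ∀ (y : Y) (σ : G), m • (σ • y.1 - y.1) = 0 := by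
      intro y σ
      rw [smul_sub, smul_comm, y.2 σ, sub_self]
    let Φ : Y → (G ⧸ H' → {t : J // m • t = 0}) := fun y q => ⟨q.out • y.1 - y.1, hYt y q.out⟩
    let f : Y → (↥Γ' ⧸ R.addSubgroupOf Γ') := fun y =>
      QuotientAddGroup.mk ⟨⟨m • y.1, fun σ => y.2 σ⟩, by
        rw [hΓ', AddSubgroup.mem_addSubgroupOf]
        exact ⟨y.1, rfl⟩⟩
    have hΦ : ∀ (y : Y) (σ : G), σ • y.1 - y.1 = (Φ y (QuotientGroup.mk σ)).1 := by
      intro y σ
      obtain ⟨h, hh⟩ := QuotientGroup.mk_out_eq_mul H' σ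
      show σ • y.1 - y.1 = (QuotientGroup.mk σ : G ⧸ H').out • y.1 - y.1
      rw [hh, mul_smul, hH' y.1 y.2 h h.2]
    have hf : ∀ y y' : Y, Φ y = Φ y' → f y = f y' := by
      intro y y' hyy
      have hfix : ∀ σ : G, σ • (y.1 - y'.1) = y.1 - y'.1 := by
        intro σ
        have h1 := hΦ y σ
        have h2 := hΦ y' σ
        rw [hyy] at h1
        rw [smul_sub]
        have h3 : σ • y.1 - y.1 = σ • y'.1 - y'.1 := h1.trans h2.symm
        have h4 : σ • y.1 - σ • y'.1 - (y.1 - y'.1) =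
            (σ • y.1 - y.1) - (σ • y'.1 - y'.1) := by abel
        rw [← sub_eq_zero, h4, h3, sub_self]
      show (QuotientAddGroup.mk _ : _ ⧸ R.addSubgroupOf Γ') = QuotientAddGroup.mk _
      rw [QuotientAddGroup.eq, AddSubgroup.mem_addSubgroupOf]
      refine ⟨-⟨y.1 - y'.1, hfix⟩, ?_⟩
      apply Subtype.ext
      show m • (-(y.1 - y'.1)) = -(m • y.1) + m • y'.1
      rw [smul_neg, smul_sub]
      abel
    have hsurj : Function.Surjective f := by
      intro q
      induction q using QuotientAddGroup.induction_on with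
      | H x =>
        have hx : (x.1 : J) ∈ (nsmulAddMonoidHom (α := J) m).range :=
          AddSubgroup.mem_addSubgroupOf.mp x.2
        obtain ⟨y, hy⟩ := hx
        have hy' : m • y = (x.1 : J) := hy
        refine ⟨⟨y, fun σ => ?_⟩, ?_⟩
        · rw [hy']; exact x.1.2 σ
        · show (QuotientAddGroup.mk _ : _ ⧸ R.addSubgroupOf Γ') = QuotientAddGroup.mk x
          congr 1
          exact Subtype.ext (Subtype.ext hy')
    let g : Set.range Φ → (↥Γ' ⧸ R.addSubgroupOf Γ') := fun φ => f φ.2.choose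
    refine Finite.of_surjective g ?_
    intro q
    obtain ⟨y, rfl⟩ := hsurj q
    refine ⟨⟨Φ y, y, rfl⟩, ?_⟩
    show f _ = f y
    exact hf _ _ (Set.mem_range_self y : Φ y ∈ Set.range Φ).choose_spec
  refine ⟨?_⟩
  rw [← AddSubgroup.relIndex_mul_index hle]
  exact mul_ne_zero hrel.index_ne_zero AddSubgroup.FiniteIndex.index_ne_zero

end Group

end Fermat.Agent.MW
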