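/-
MW / [WMW-KUM] (helper4), part 4: **the weak Mordell–Weil theorem for `J₀(N)(ℚ)`**, conditional
on the `m`-divisibility of `J₀(N)(ℚ̄)` ([DIV]): for every prime `m` and every level `N ≠ 0`,
`J₀(N)(ℚ) / m J₀(N)(ℚ)` is finite.
Inputs: `GR.stageIData N m` (finite torsion, points defined over finite extensions) and
`GR.s37_clause` (good reduction outside `N m`: reduction is Galois equivariant and injective on
`m`-power torsion).
-/
import Mathlib
import Fermat.Agent.MW.WMW_helper4_Group
import Fermat.Agent.MW.WMW_helper4_Descent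
import Fermat.Agent.GR.ASM_helper8_Done

set_option autoImplicit false
set_option linter.style.haveILetI false
set_option linter.unusedSectionVars false
set_option linter.unusedVariables false

open ModularCurve AlgebraicCurve

namespace Fermat.Agent.MW

local notation "Ω" => AlgebraicClosure ℚ
local notation "GQ" => (AlgebraicClosure ℚ ≃ₐ[ℚ] AlgebraicClosure ℚ)

/-- the common part: one finite-index subgroup of `G_ℚ` fixes all `m`-division points of
`J₀(N)(ℚ)`, and `J₀(N)[m]` is finite. -/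
theorem exists_finiteIndex_fixing_jzero (N : ℕ) [NeZero N] (m : ℕ) [hm : Fact m.Prime] :
    {t : JZero N | m • t = 0}.Finite ∧
    ∃ H' : Subgroup GQ, H'.FiniteIndex ∧
      ∀ y : JZero N, (∀ σ : GQ, σ • (m • y) = m • y) → ∀ σ ∈ H', σ • y = y := by
  have I := Fermat.Agent.GR.stageIData N m
  have htors : {t : JZero N | m • t = 0}.Finite := by
    haveI := I.D.finite_torsion 1
    have h1 : Finite ↥(Fermat.Agent.GR.torsionNat (JZero N) (m ^ 1)) := inferInstance
    have h2 : {t : JZero N | m • t = 0} =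
        ((Fermat.Agent.GR.torsionNat (JZero N) (m ^ 1) : AddSubgroup (JZero N)) : Set (JZero N)) := by
      ext t
      show m • t = 0 ↔ m ^ 1 • t = 0
      rw [pow_one]
    rw [h2]
    exact Set.toFinite _
  have hNm : N * m ≠ 0 := mul_ne_zero (NeZero.ne N) hm.out.ne_zero
  have hunr : ∀ ℓ : ℕ, ℓ.Prime → ¬ ℓ ∣ N * m → ∀ A : ValuationSubring Ω, A.LiesOverPrime ℓ →
      ∀ σ ∈ A.inertiaSubgroupIn ℚ, ∀ y : JZero N, m • (σ • y - y) = 0 → σ • y = y := by
    intro ℓ hℓ hℓNm A hA σ hσ y hy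
    obtain ⟨M, _, red, Fr, σ₀, -, hred, -, -, hinj⟩ :=
      Fermat.Agent.GR.s37_clause N m ℓ hℓ hℓNm A hA
    have h1 : red (σ • y - y) = 0 := by rw [map_sub, hred σ hσ y, sub_self]
    have h2 := hinj (σ • y - y) ⟨1, by rw [pow_one]; exact hy⟩ h1
    exact sub_eq_zero.mp h2
  exact ⟨htors, exists_finiteIndex_fixing_of_unramified (J := JZero N) m hm.out
    (N * m) hNm (dvd_mul_left m N) htors I.fix hunr⟩

/-- **weak Mordell–Weil for `J₀(N)`**, given `m`-divisibility of `J₀(N)(ℚ̄)`. -/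
theorem wmw_of_divisible (N : ℕ) [NeZero N] (m : ℕ) [hm : Fact m.Prime]
    (hdiv : ∀ x : JZero N, ∃ y : JZero N, m • y = x) :
    (nsmulAddMonoidHom (α := ↥(FixedPoints.addSubgroup GQ (JZero N))) m).range.FiniteIndex := by
  obtain ⟨htors, H', hH'fin, hH'⟩ := exists_finiteIndex_fixing_jzero N m
  haveI := hH'fin
  exact finiteIndex_range_nsmul_of_fixing m hdiv htors H' hH'

/-- **weak Mordell–Weil for `J₀(N)`**, given only the finiteness of `J₀(N)(ℚ̄) / m`
(helper1's form of [DIV], msg 1589). -/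
theorem wmw_of_finiteIndex (N : ℕ) [NeZero N] (m : ℕ) [hm : Fact m.Prime]
    (hfin : (nsmulAddMonoidHom (α := JZero N) m).range.FiniteIndex) :
    (nsmulAddMonoidHom (α := ↥(FixedPoints.addSubgroup GQ (JZero N))) m).range.FiniteIndex := by
  obtain ⟨htors, H', hH'fin, hH'⟩ := exists_finiteIndex_fixing_jzero N m
  haveI := hH'fin
  exact finiteIndex_range_nsmul_of_fixing_of_finiteIndex m hfin htors H' hH'

/-- the literal for the descent with `m = 5` (lead msgs 1578, 1591): weak Mordell–Weil from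
`J₀(N)(ℚ̄) / 5` finite. -/
theorem wmw_five (N : ℕ) [NeZero N] (hN : N.Prime) (hN5 : 5 ≤ N)
    (hfin5 : (nsmulAddMonoidHom (α := JZero N) 5).range.FiniteIndex) :
    (nsmulAddMonoidHom (α := ↥(FixedPoints.addSubgroup GQ (JZero N))) 5).range.FiniteIndex := by
  haveI : Fact (Nat.Prime 5) := ⟨by norm_num⟩
  exact wmw_of_finiteIndex N 5 hfin5

/-- the same from exact `5`-divisibility. -/
theorem wmw_five_of_divisible (N : ℕ) [NeZero N] (hN : N.Prime) (hN5 : 5 ≤ N)
    (hdiv5 : ∀ x : JZero N, ∃ y : JZero N, 5 • y = x) :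
    (nsmulAddMonoidHom (α := ↥(FixedPoints.addSubgroup GQ (JZero N))) 5).range.FiniteIndex := by
  haveI : Fact (Nat.Prime 5) := ⟨by norm_num⟩
  exact wmw_of_divisible N 5 hdiv5

end Fermat.Agent.MW
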