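import Mathlib
import Fermat.Agent.MW.INST_helper8_Sys
import Fermat.Agent.MW.MUMFORD_helper8_MB4
import Fermat.Agent.MW.MUMFORD_helper4_QuasiN
import Fermat.Agent.MW.WMW_helper4_Main
import Fermat.Agent.MW.DIV_helper1_Final

/-!
# Project MW — [TOP]: Mordell–Weil for `J₀(N)` from a height system (helper8)

`fg_of_htSys` : any height system on `X₀(N)` (`N ≥ 5` prime) with the Northcott input gives finite
generation of `J₀(N)(ℚ)` ([MUMFORD] + [WMW] + the descent wrapper).
-/

set_option autoImplicit false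
set_option linter.unusedSectionVars false

noncomputable section

namespace Fermat.Agent.MW

open AlgebraicCurve ModularCurve

theorem fg_of_htSys (N : ℕ) [NeZero N] (hN : N.Prime) (hN5 : 5 ≤ N)
    (S : HtSys GQ (AlgebraicClosure ℚ) (PtN N) (FnN N) Pl (JZero N)) (hNC : S.NorthcottInput) :
    AddGroup.FG ↥(FixedPoints.addSubgroup GQ (JZero N)) := by
  obtain ⟨β, C, hβ, hfinB⟩ := S.mumford hNC
  have hwmw := wmw_five N hN hN5 (jzero_five_finiteIndex N hN hN5)
  refine fg_of_quasiPairing_five
    (fun x y : ↥(FixedPoints.addSubgroup GQ (JZero N)) => β x.1 y.1) C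
    ⟨fun x y => hβ.symm x.1 y.1, fun x y z => hβ.add_left x.1 y.1 z.1⟩ hwmw
    (fun x => β x.1 x.1) ?_ 1 0 one_pos ?_
  · intro B
    have h := hfinB B
    refine Set.Finite.of_injOn (f := fun x : ↥(FixedPoints.addSubgroup GQ (JZero N)) => x.1)
      ?_ (Subtype.val_injective.injOn) h
    intro x hx
    exact ⟨fun σ => x.2 σ, hx⟩
  · intro x
    simp

end Fermat.Agent.MW
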