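import Mathlib
import Fermat.Agent.MW.RRAPP_helper8_Input
import Fermat.Agent.MW.TOP_helper8_Fg
import Fermat.Agent.MW.NC_helper4_Main
import Fermat.Agent.MW.NC_helper4_Fibre
import Fermat.Agent.MW.D1_helper9_Main
import Fermat.Agent.MW.NORTH_helper8_Main

/-!
# Project MW — [TOP]: Mordell–Weil for `J₀(N)` from the local packages (helper8)

`fg_of_localFamily`: S17 from the existence of `LocalFamily N 𝔡 Zp` for every rational differential
`𝔡` (with `IsBasis`) and every sufficiently large `GQ`-stable finite exceptional set `Zp ∌ ∞`.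
Everything else (genus zero, Riemann–Roch inputs, Northcott input, [MUMFORD], [WMW]) is discharged.
-/

set_option autoImplicit false
set_option linter.unusedSectionVars false
set_option linter.style.haveILetI false

noncomputable section

namespace Fermat.Agent.MW

open AlgebraicCurve ModularCurve Fermat.Agent.FF

local notation "Ωq" => AlgebraicClosure ℚ

/-- **What the local owners provide**: for every rational differential there is a finite bad set
(not containing `∞`) such that every `GQ`-stable finite `Zp ∌ ∞` containing the zeros of `ω₀` and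
the bad set carries a `LocalFamily`. -/
def LocalInput (N : ℕ) [NeZero N] : Prop :=
  ∀ 𝔡 : DiffDatum N, 𝔡.IsBasis → ∃ Bad : Finset (PtN N), infN N ∉ Bad ∧
    ∀ Zp : Finset (PtN N), infN N ∉ Zp → (∀ (σ : GQ) P, P ∈ Zp → σ • P ∈ Zp) →
      (∀ P ∈ 𝔡.K0.support, P ∈ Zp) → (∀ P ∈ Bad, P ∈ Zp) → Nonempty (LocalFamily N 𝔡 Zp)

theorem fg_of_localInput (N : ℕ) [NeZero N] (hN : N.Prime) (hN5 : 5 ≤ N) (hL : LocalInput N) :
    AddGroup.FG ↥(FixedPoints.addSubgroup GQ (JZero N)) := by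
  classical
  by_cases h0 : genusN N = 0
  · exact fg_of_genus_zero N h0
  have hg1 : 1 ≤ genusN N := Nat.one_le_iff_ne_zero.mpr h0
  obtain ⟨𝔡, hB, hgq, H0⟩ := exists_diffDatum N hg1
  have H : RRHyp (dofNat 𝔡.K0 : Divisor Ωq (FunN N)) 𝔡.gq := by rw [hgq]; exact H0
  have hg : 1 ≤ 𝔡.gq := by rw [hgq]; exact hg1
  have hD1 : D1Hyp N 𝔡 := fun E hdeg hE => 𝔡.wdetN_ne_zero_iff hB E hdeg hE
  obtain ⟨A⟩ := exists_auxFn 𝔡 H hg
  obtain ⟨Bad, hBadinf, hLF⟩ := hL 𝔡 hB
  set Zp : Finset (PtN N) := galSat N (𝔡.K0.support ∪ A.Eψ.support ∪ A.Zφ.support ∪ Bad) with hZpdef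
  have hsub := subset_galSat N (𝔡.K0.support ∪ A.Eψ.support ∪ A.Zφ.support ∪ Bad)
  have hinf : infN N ∉ Zp := by
    apply infN_notMem_galSat
    simp only [Finset.mem_union, Finsupp.mem_support_iff, not_or, not_not]
    exact ⟨⟨⟨𝔡.K0_inf, A.Eψ_inf⟩, A.Zφ_inf⟩, hBadinf⟩
  have hZp : ∀ (σ : GQ) P, P ∈ Zp → σ • P ∈ Zp := fun σ P hP => galSat_smul N σ hP
  have hK : ∀ P ∈ 𝔡.K0.support, P ∈ Zp := fun P hP => hsub (by
    simp only [Finset.mem_union]; exact Or.inl (Or.inl (Or.inl hP)))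
  have hEψ : ∀ P ∈ A.Eψ.support, P ∈ Zp := fun P hP => hsub (by
    simp only [Finset.mem_union]; exact Or.inl (Or.inl (Or.inr hP)))
  have hZφ : ∀ P ∈ A.Zφ.support, P ∈ Zp := fun P hP => hsub (by
    simp only [Finset.mem_union]; exact Or.inl (Or.inr hP))
  have hBad : ∀ P ∈ Bad, P ∈ Zp := fun P hP => hsub (by
    simp only [Finset.mem_union]; exact Or.inr hP)
  obtain ⟨LF⟩ := hLF Zp hinf hZp hK hBad
  obtain ⟨R⟩ := exists_rrInput 𝔡 H hg hD1 A Zp hZp hK hEψ hZφ
  have hdegK : ndeg 𝔡.K0 ≤ 2 * 𝔡.gq := by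
    have h1 := H.deg
    rw [degree_dofNat (cN N)] at h1
    omega
  set S := htSysN 𝔡 hg Zp hinf hZp hK hdegK LF R with hS
  refine fg_of_htSys N hN hN5 S ?_
  refine S.northcottInput_of ?_ ?_
  · intro d B
    exact northcott_Om_ncard d B
  · intro z
    exact 𝔡.lcN_fibre_finite Zp hinf R.φ R.nφ R.nφ_pos R.Zφ R.Zφ_supp R.φ_div z

end Fermat.Agent.MW
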