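import Mathlib
import Fermat.Agent.MW.LFASM_helper8_Parts
import Fermat.Agent.MW.TOP_helper8_Local
import Fermat.Agent.MW.ARCH_helper9_Final

/-!
# Project MW — [LF-ASM] part 3: `LocalInput N` from the `N`-adic owner and the good-prime owner
(helper8)

The archimedean package is discharged ([ARCH], helper9/helper4).  What remains of S17:
* `NadicInput N hN`: the local package at `p = N`;
* `GoodInput N`: the `GoodFamily` at the primes `p ≠ N`.
-/

set_option autoImplicit false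
set_option linter.unusedSectionVars false

noncomputable section

namespace Fermat.Agent.MW

open AlgebraicCurve ModularCurve

/-- what the owner of `p = N` must deliver. -/
def NadicInput (N : ℕ) [NeZero N] (hN : N.Prime) : Prop :=
  ∀ 𝔡 : DiffDatum N, 𝔡.IsBasis → ∃ Bad : Finset (PtN N), infN N ∉ Bad ∧
    ∀ Zp : Finset (PtN N), infN N ∉ Zp → (∀ (σ : GQ) P, P ∈ Zp → σ • P ∈ Zp) →
      (∀ P ∈ 𝔡.K0.support, P ∈ Zp) → (∀ P ∈ Bad, P ∈ Zp) →
      Nonempty (LocalPkgAt N 𝔡 Zp (some ⟨N, hN⟩))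

/-- what the owner of the primes `p ≠ N` must deliver. -/
def GoodInput (N : ℕ) [NeZero N] : Prop :=
  ∀ 𝔡 : DiffDatum N, 𝔡.IsBasis → ∃ Bad : Finset (PtN N), infN N ∉ Bad ∧
    ∀ Zp : Finset (PtN N), infN N ∉ Zp → (∀ (σ : GQ) P, P ∈ Zp → σ • P ∈ Zp) →
      (∀ P ∈ 𝔡.K0.support, P ∈ Zp) → (∀ P ∈ Bad, P ∈ Zp) →
      Nonempty (GoodFamily N 𝔡 Zp)

theorem localInput_of (N : ℕ) [NeZero N] (hN : N.Prime) (h1 : NadicInput N hN)
    (h2 : GoodInput N) : LocalInput N := by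
  classical
  intro 𝔡 hB
  obtain ⟨Bad1, hBad1, hL1⟩ := h1 𝔡 hB
  obtain ⟨Bad2, hBad2, hL2⟩ := h2 𝔡 hB
  refine ⟨(archBad_finite N).toFinset ∪ Bad1 ∪ Bad2, ?_, ?_⟩
  · simp only [Finset.mem_union, Set.Finite.mem_toFinset, not_or]
    exact ⟨⟨not_archBad_infN, hBad1⟩, hBad2⟩
  · intro Zp hinf hZp hK hBad
    obtain ⟨Lnone⟩ := nonempty_localPkgAt_none hN 𝔡 Zp hinf hK (fun P hP => hBad P (by
      simp only [Finset.mem_union, Set.Finite.mem_toFinset]
      exact Or.inl (Or.inl hP)))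
    obtain ⟨LN⟩ := hL1 Zp hinf hZp hK (fun P hP => hBad P (by
      simp only [Finset.mem_union]
      exact Or.inl (Or.inr hP)))
    obtain ⟨GF⟩ := hL2 Zp hinf hZp hK (fun P hP => hBad P (by
      simp only [Finset.mem_union]
      exact Or.inr hP))
    exact ⟨LocalFamily.ofParts hN Lnone LN GF⟩

/-- **S17 from the two remaining local inputs.** -/
theorem fg_of_nadic_good (N : ℕ) [NeZero N] (hN : N.Prime) (hN5 : 5 ≤ N)
    (h1 : NadicInput N hN) (h2 : GoodInput N) :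
    AddGroup.FG ↥(FixedPoints.addSubgroup GQ (JZero N)) :=
  fg_of_localInput N hN hN5 (localInput_of N hN h1 h2)

end Fermat.Agent.MW
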