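import Mathlib
import Fermat.Agent.MW.NADIC_helper1_Cells
import Fermat.Agent.MW.NADIC_helper1_Model1Int
import Fermat.Agent.MW.NADIC_helper6_Class

/-!
# Project MW (S17) — [N-ADIC] helper1, [SETUP]: from a value formula over `K₁` to the cell formula

* `cf_of_cell_value` : the dictionary.  The conclusion of a cell theorem of the level-one model over
  `K₁` (a value formula `π^a · w · ∏ (ζ_Q - ζ_P)^{ord_P x}` at the restriction of the point `Q`)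
  gives the `Ω`-level cell formula at `Q`, the sum running over a finite set `S` of points rational
  over `K₁` (the zeros and poles of the function in the cell of `Q`).
-/

set_option autoImplicit false
set_option linter.unusedSectionVars false
set_option linter.unusedVariables false
set_option linter.style.haveILetI false
set_option synthInstance.maxHeartbeats 200000

open scoped BigOperators

open HahnSeries IntermediateField AlgebraicCurve ModularCurve IsLocalRing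

namespace Fermat.Agent.MW

open Fermat.Agent.JA Fermat.Agent.FF Fermat.Agent.SS Fermat.Agent.Igusa Fermat.Agent.X0N

noncomputable section

/-- `Ω = AlgebraicClosure ℚ`. -/
local notation "Ω" => AlgebraicClosure ℚ

section Dict

variable (p : Nat.Primes) {q : ℕ} [NeZero q] [NeZero (1 * q)] (K₁ : IntermediateField ℚ Ω)

/-- `limPhi` of a centred coordinate. -/
theorem limPhi_sub_algebraMap (z₁ : ↥(keyFw ↥K₁ (1 * q) 1)) (c : ↥K₁) :
    limPhi q K₁ (z₁ - algebraMap ↥K₁ ↥(keyFw ↥K₁ (1 * q) 1) c) =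
      limPhi q K₁ z₁ - algebraMap Ω (FunN (1 * q)) ((c : ↥K₁) : Ω) := by
  rw [map_sub, limPhi_algebraMap]
  rfl

open Classical in
/-- **the dictionary**: from a value formula over `K₁` on the cell of `Q` to the cell formula over
`Ω`. -/
theorem cf_of_cell_value (Q : PtN (1 * q)) {x z₁ : ↥(keyFw ↥K₁ (1 * q) 1)} (hx : x ≠ 0)
    {D : PtN (1 * q) →₀ ℤ} (hD : IsDivOf (1 * q) (limPhi q K₁ x) D)
    (S : Finset (PtN (1 * q))) (hSD : ∀ P ∈ S, D P ≠ 0)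
    (hSrat : ∀ P ∈ S, IsRationalPlace (ptResW q K₁ P))
    (ζ : Place ↥K₁ ↥(keyFw ↥K₁ (1 * q) 1) → ↥(baseRing (padicPlace (p : ℕ)) K₁))
    (hζ : ∀ P ∈ S, HasValueAt (ptResW q K₁ P) z₁
      (algebraMap ↥(baseRing (padicPlace (p : ℕ)) K₁) ↥K₁ (ζ (ptResW q K₁ P))))
    (hζQ : HasValueAt (ptResW q K₁ Q) z₁
      (algebraMap ↥(baseRing (padicPlace (p : ℕ)) K₁) ↥K₁ (ζ (ptResW q K₁ Q))))
    {π : ↥(baseRing (padicPlace (p : ℕ)) K₁)} (hπ0 : π ≠ 0) (a : ℤ)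
    (w : (↥(baseRing (padicPlace (p : ℕ)) K₁))ˣ)
    (hord : (ptResW q K₁ Q).ord (z₁ - algebraMap ↥K₁ ↥(keyFw ↥K₁ (1 * q) 1)
      (algebraMap ↥(baseRing (padicPlace (p : ℕ)) K₁) ↥K₁ (ζ (ptResW q K₁ Q)))) = 1)
    (hval : HasValueAt (ptResW q K₁ Q)
      (x * ((z₁ - algebraMap ↥K₁ ↥(keyFw ↥K₁ (1 * q) 1)
        (algebraMap ↥(baseRing (padicPlace (p : ℕ)) K₁) ↥K₁ (ζ (ptResW q K₁ Q)))) ^
          ((ptResW q K₁ Q).ord x))⁻¹)
      (algebraMap ↥(baseRing (padicPlace (p : ℕ)) K₁) ↥K₁ π ^ a *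
        algebraMap ↥(baseRing (padicPlace (p : ℕ)) K₁) ↥K₁
          (w : ↥(baseRing (padicPlace (p : ℕ)) K₁)) *
        ∏ P₁ ∈ (S.image (ptResW q K₁)).erase (ptResW q K₁ Q),
          (algebraMap ↥(baseRing (padicPlace (p : ℕ)) K₁) ↥K₁ (ζ (ptResW q K₁ Q)) -
            algebraMap ↥(baseRing (padicPlace (p : ℕ)) K₁) ↥K₁ (ζ P₁)) ^ (P₁.ord x))) :
    Q.ord (limPhi q K₁ z₁ -
      algebraMap Ω (FunN (1 * q)) (valN (1 * q) Q (limPhi q K₁ z₁))) = 1 ∧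
    lg (some p) (valN (1 * q) Q (limPhi q K₁ x *
      (limPhi q K₁ z₁ - algebraMap Ω (FunN (1 * q)) (valN (1 * q) Q (limPhi q K₁ z₁))) ^
        (-(D Q)))) =
      (a : ℝ) * lg (some p) (((π : ↥K₁) : Ω)) +
        ∑ P ∈ S.erase Q, (D P : ℝ) *
          lg (some p) (valN (1 * q) P (limPhi q K₁ z₁) - valN (1 * q) Q (limPhi q K₁ z₁)) := by
  have hvz : valN (1 * q) Q (limPhi q K₁ z₁) =
      (((ζ (ptResW q K₁ Q) : ↥(baseRing (padicPlace (p : ℕ)) K₁)) : ↥K₁) : Ω) :=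
    valN_limPhi Q hζQ
  have hvP : ∀ P ∈ S, valN (1 * q) P (limPhi q K₁ z₁) =
      (((ζ (ptResW q K₁ P) : ↥(baseRing (padicPlace (p : ℕ)) K₁)) : ↥K₁) : Ω) :=
    fun P hP => valN_limPhi P (hζ P hP)
  have hzc : limPhi q K₁ z₁ -
      algebraMap Ω (FunN (1 * q)) (valN (1 * q) Q (limPhi q K₁ z₁)) =
      limPhi q K₁ (z₁ - algebraMap ↥K₁ ↥(keyFw ↥K₁ (1 * q) 1)
        (algebraMap ↥(baseRing (padicPlace (p : ℕ)) K₁) ↥K₁ (ζ (ptResW q K₁ Q)))) := by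
    rw [hvz, limPhi_sub_algebraMap]
    rfl
  have hordP : ∀ P : PtN (1 * q), (ptResW q K₁ P).ord x = D P := by
    intro P
    rw [hD P, ord_ptResW]
  refine ⟨by rw [hzc, ← ord_ptResW]; exact hord, ?_⟩
  set zc : ↥(keyFw ↥K₁ (1 * q) 1) := z₁ - algebraMap ↥K₁ ↥(keyFw ↥K₁ (1 * q) 1)
    (algebraMap ↥(baseRing (padicPlace (p : ℕ)) K₁) ↥K₁ (ζ (ptResW q K₁ Q))) with hzcdef
  have hzc0 : zc ≠ 0 := by
    intro h0
    rw [h0, Place.ord_zero] at hord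
    exact zero_ne_one hord
  have he : limPhi q K₁ x * (limPhi q K₁ z₁ -
      algebraMap Ω (FunN (1 * q)) (valN (1 * q) Q (limPhi q K₁ z₁))) ^ (-(D Q)) =
      limPhi q K₁ (x * (zc ^ ((ptResW q K₁ Q).ord x))⁻¹) := by
    rw [hzc, hordP Q, zpow_neg, map_mul, map_inv₀, map_zpow₀]
  rw [he]
  have hπK : algebraMap ↥(baseRing (padicPlace (p : ℕ)) K₁) ↥K₁ π ^ a ≠ 0 := by
    apply zpow_ne_zero
    intro h0
    exact hπ0 (Subtype.ext h0)
  have hw : absv (some p) (((algebraMap ↥(baseRing (padicPlace (p : ℕ)) K₁) ↥K₁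
      (w : ↥(baseRing (padicPlace (p : ℕ)) K₁)) : ↥K₁) : Ω)) = 1 :=
    absv_eq_one_of_isUnit p w.isUnit
  -- the value does not vanish
  have hord0 : (ptResW q K₁ Q).ord (x * (zc ^ ((ptResW q K₁ Q).ord x))⁻¹) = 0 := by
    rw [Place.ord_mul _ hx (inv_ne_zero (zpow_ne_zero _ hzc0)), Place.ord_inv, Place.ord_zpow,
      hord]
    ring
  have hv0 : algebraMap ↥(baseRing (padicPlace (p : ℕ)) K₁) ↥K₁ π ^ a *
        algebraMap ↥(baseRing (padicPlace (p : ℕ)) K₁) ↥K₁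
          (w : ↥(baseRing (padicPlace (p : ℕ)) K₁)) *
        ∏ P₁ ∈ (S.image (ptResW q K₁)).erase (ptResW q K₁ Q),
          (algebraMap ↥(baseRing (padicPlace (p : ℕ)) K₁) ↥K₁ (ζ (ptResW q K₁ Q)) -
            algebraMap ↥(baseRing (padicPlace (p : ℕ)) K₁) ↥K₁ (ζ P₁)) ^ (P₁.ord x) ≠ 0 := by
    intro h0
    rw [h0] at hval
    rcases HasValueAt.zero_iff.mp hval with h1 | h1
    · exact (mul_ne_zero hx (inv_ne_zero (zpow_ne_zero _ hzc0))) h1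
    · rw [hord0] at h1
      exact lt_irrefl _ h1
  have hξ : ∀ P₁ ∈ (S.image (ptResW q K₁)).erase (ptResW q K₁ Q),
      algebraMap ↥(baseRing (padicPlace (p : ℕ)) K₁) ↥K₁ (ζ (ptResW q K₁ Q)) -
        algebraMap ↥(baseRing (padicPlace (p : ℕ)) K₁) ↥K₁ (ζ P₁) ≠ 0 := by
    intro P₁ hP₁ h0
    apply hv0
    apply mul_eq_zero_of_right
    refine Finset.prod_eq_zero hP₁ ?_
    rw [h0]
    obtain ⟨P, hP, rfl⟩ := Finset.mem_image.mp (Finset.mem_of_mem_erase hP₁)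
    rw [hordP P]
    exact zero_zpow _ (hSD P hP)
  rw [lg_valN_limPhi_of_hasValueAt p K₁ Q hπK hw _ _ _ hξ hval]
  congr 1
  · have e : ((algebraMap ↥(baseRing (padicPlace (p : ℕ)) K₁) ↥K₁ π ^ a : ↥K₁) : Ω) =
        (((π : ↥K₁) : Ω)) ^ a := by
      have : ∀ z : ↥K₁, ((z : ↥K₁) : Ω) = algebraMap ↥K₁ Ω z := fun _ => rfl
      rw [this, map_zpow₀]
      rfl
    rw [e, lg_zpow]
  · have himg : (S.image (ptResW q K₁)).erase (ptResW q K₁ Q) =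
        (S.erase Q).image (ptResW q K₁) := by
      ext P₁
      simp only [Finset.mem_erase, Finset.mem_image]
      constructor
      · rintro ⟨hne, P, hP, rfl⟩
        exact ⟨P, ⟨fun hPQ => hne (by rw [hPQ]), hP⟩, rfl⟩
      · rintro ⟨P, ⟨hPQ, hP⟩, rfl⟩
        exact ⟨fun heq => hPQ (ptResW_injOn_rational (hSrat P hP) heq), P, hP, rfl⟩
    rw [himg, Finset.sum_image]
    · refine Finset.sum_congr rfl (fun P hP => ?_)
      have hPS : P ∈ S := Finset.mem_of_mem_erase hP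
      rw [hordP P, hvP P hPS, hvz]
      congr 1
      have e2 : (((algebraMap ↥(baseRing (padicPlace (p : ℕ)) K₁) ↥K₁ (ζ (ptResW q K₁ Q)) -
          algebraMap ↥(baseRing (padicPlace (p : ℕ)) K₁) ↥K₁ (ζ (ptResW q K₁ P)) : ↥K₁)) : Ω) =
          -((((ζ (ptResW q K₁ P) : ↥(baseRing (padicPlace (p : ℕ)) K₁)) : ↥K₁) : Ω) -
            (((ζ (ptResW q K₁ Q) : ↥(baseRing (padicPlace (p : ℕ)) K₁)) : ↥K₁) : Ω)) := by
        rw [neg_sub]
        rfl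
      rw [e2, lg_neg]
    · intro P hP P' hP' heq
      exact ptResW_injOn_rational (hSrat P (Finset.mem_of_mem_erase hP)) heq

end Dict

section Gauss

variable (R : Type*) [CommRing R] [IsDomain R] [IsDiscreteValuationRing R] [CharZero R]
  (K : Type*) [Field K] [Algebra R K] [IsFractionRing R K] [Algebra ℚ K] [Algebra K ℂ]
  {q : ℕ} [NeZero q] [NeZero (1 * q)] {x y : ℤ} {π : R}

/-- the series of `z · (π^a)⁻¹`. -/
theorem coe_mul_pi_zpow_inv (z : ↥(keyFw K (1 * q) 1)) (π : R) (a : ℤ) :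
    ((z * (algebraMap R ↥(keyFw K (1 * q) 1) π ^ a)⁻¹ : ↥(keyFw K (1 * q) 1)) :
      LaurentSeries K) = (HahnSeries.C (algebraMap R K π) ^ a)⁻¹ * (z : LaurentSeries K) := by
  rw [IntermediateField.coe_mul, IntermediateField.coe_inv,
    IsScalarTower.algebraMap_apply R K ↥(keyFw K (1 * q) 1), ← map_zpow₀,
    IntermediateField.coe_algebraMap_apply, algebraMap_laurentSeries_eq_single,
    ← HahnSeries.C_apply, map_zpow₀, mul_comm]

/-- **every nonzero function is `π^a ·` a unit of the sheet `W_∞`.** -/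
theorem oneWinf_exists_zpow (hπ : Irreducible π) {z : ↥(keyFw K (1 * q) 1)} (hz : z ≠ 0) :
    ∃ a : ℤ, z * (algebraMap R ↥(keyFw K (1 * q) 1) π ^ a)⁻¹ ∈ oneWinf R K q ∧
      (z * (algebraMap R ↥(keyFw K (1 * q) 1) π ^ a)⁻¹)⁻¹ ∈ oneWinf R K q := by
  have hz0 : (z : LaurentSeries K) ≠ 0 := fun h0 => hz (Subtype.ext h0)
  obtain ⟨n, u, hu, hu', hzu⟩ := exists_zpow_mul_unit (R := R) hπ
    (keyFw_le_gaussField R K (1 * q) 1 z.2) hz0
  have hC : HahnSeries.C (algebraMap R K π) ≠ (0 : LaurentSeries K) :=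
    C_algebraMap_ne_zero (L := K) hπ.ne_zero
  have e : ((z * (algebraMap R ↥(keyFw K (1 * q) 1) π ^ n)⁻¹ : ↥(keyFw K (1 * q) 1)) :
      LaurentSeries K) = u := by
    rw [coe_mul_pi_zpow_inv, hzu, ← mul_assoc, inv_mul_cancel₀ (zpow_ne_zero _ hC), one_mul]
  refine ⟨n, ?_, ?_⟩
  · show ((z * (algebraMap R ↥(keyFw K (1 * q) 1) π ^ n)⁻¹ : ↥(keyFw K (1 * q) 1)) :
      LaurentSeries K) ∈ gaussInt R K
    rw [e]
    exact hu
  · show (((z * (algebraMap R ↥(keyFw K (1 * q) 1) π ^ n)⁻¹)⁻¹ : ↥(keyFw K (1 * q) 1)) :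
      LaurentSeries K) ∈ gaussInt R K
    rw [IntermediateField.coe_inv, e]
    exact hu'

/-- **every nonzero function is `π^a ·` a unit of the sheet `W_0`.** -/
theorem oneW0_exists_zpow (hπ : Irreducible π) (h : (q : ℤ) * x + ((1 : ℕ) : ℤ) * y = 1)
    (hq : q.Prime) {z : ↥(keyFw K (1 * q) 1)} (hz : z ≠ 0) :
    ∃ a : ℤ, z * (algebraMap R ↥(keyFw K (1 * q) 1) π ^ a)⁻¹ ∈ oneW0 R K h hq ∧
      (z * (algebraMap R ↥(keyFw K (1 * q) 1) π ^ a)⁻¹)⁻¹ ∈ oneW0 R K h hq := by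
  have hz' : alHost K (algebraMap K ℂ) 1 h hq z ≠ 0 :=
    (map_ne_zero_iff _ (alHost K (algebraMap K ℂ) 1 h hq).injective).mpr hz
  obtain ⟨a, h1, h2⟩ := oneWinf_exists_zpow R K hπ hz'
  have e1 : alHost K (algebraMap K ℂ) 1 h hq
      (z * (algebraMap R ↥(keyFw K (1 * q) 1) π ^ a)⁻¹) =
      alHost K (algebraMap K ℂ) 1 h hq z * (algebraMap R ↥(keyFw K (1 * q) 1) π ^ a)⁻¹ := by
    rw [map_mul, map_inv₀, map_zpow₀, model1_alHost_algebraMap_R]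
  refine ⟨a, ?_, ?_⟩
  · rw [mem_oneW0_iff, e1]
    exact h1
  · rw [mem_oneW0_iff, map_inv₀, e1]
    exact h2

end Gauss

section Norms

variable (p : Nat.Primes) {q : ℕ} [NeZero q] [NeZero (1 * q)] {x y : ℤ}
  (K₁ : IntermediateField ℚ Ω) [IsDiscreteValuationRing ↥(baseRing (padicPlace (p : ℕ)) K₁)]

/-- the sheet norm `n₀` of a function which is `π^a ·` a unit of `W_∞`. -/
theorem sheetNorm0_of_unit {z : ↥(keyFw ↥K₁ (1 * q) 1)} (hz : z ≠ 0)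
    {π : ↥(baseRing (padicPlace (p : ℕ)) K₁)} (hπ0 : π ≠ 0) (a : ℤ)
    (h1 : z * (algebraMap ↥(baseRing (padicPlace (p : ℕ)) K₁) ↥(keyFw ↥K₁ (1 * q) 1) π ^ a)⁻¹ ∈
      oneWinf ↥(baseRing (padicPlace (p : ℕ)) K₁) ↥K₁ q)
    (h2 : (z * (algebraMap ↥(baseRing (padicPlace (p : ℕ)) K₁)
      ↥(keyFw ↥K₁ (1 * q) 1) π ^ a)⁻¹)⁻¹ ∈ oneWinf ↥(baseRing (padicPlace (p : ℕ)) K₁) ↥K₁ q) :
    sheetNorm0 p (1 * q) (limPhi q K₁ z) = (a : ℝ) * lg (some p) (((π : ↥K₁) : Ω)) := by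
  have hπK : ((π : ↥K₁)) ≠ 0 := fun h0 => hπ0 (Subtype.ext h0)
  have e : algebraMap ↥(baseRing (padicPlace (p : ℕ)) K₁) ↥(keyFw ↥K₁ (1 * q) 1) π ^ a =
      algebraMap ↥K₁ ↥(keyFw ↥K₁ (1 * q) 1) ((π : ↥K₁) ^ a) := by
    rw [map_zpow₀, IsScalarTower.algebraMap_apply ↥(baseRing (padicPlace (p : ℕ)) K₁) ↥K₁
      ↥(keyFw ↥K₁ (1 * q) 1)]
    rfl
  rw [e] at h1 h2
  rw [sheetNorm0_limPhi p K₁ (zpow_ne_zero a hπK) hz h1 h2]
  have e2 : ((((π : ↥K₁) ^ a : ↥K₁)) : Ω) = (((π : ↥K₁) : Ω)) ^ a := by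
    have : ∀ w : ↥K₁, ((w : ↥K₁) : Ω) = algebraMap ↥K₁ Ω w := fun _ => rfl
    rw [this, map_zpow₀]
    rfl
  rw [e2, lg_zpow]

variable (h : (q : ℤ) * x + ((1 : ℕ) : ℤ) * y = 1) (hq : q.Prime)

/-- the sheet norm `n₁` of a function which is `π^a ·` a unit of `W_0`. -/
theorem sheetNorm1_of_unit {z : ↥(keyFw ↥K₁ (1 * q) 1)} (hz : z ≠ 0)
    {π : ↥(baseRing (padicPlace (p : ℕ)) K₁)} (hπ0 : π ≠ 0) (a : ℤ) :
    letI := baseToComplex K₁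
    z * (algebraMap ↥(baseRing (padicPlace (p : ℕ)) K₁) ↥(keyFw ↥K₁ (1 * q) 1) π ^ a)⁻¹ ∈
      oneW0 ↥(baseRing (padicPlace (p : ℕ)) K₁) ↥K₁ h hq →
    (z * (algebraMap ↥(baseRing (padicPlace (p : ℕ)) K₁)
      ↥(keyFw ↥K₁ (1 * q) 1) π ^ a)⁻¹)⁻¹ ∈ oneW0 ↥(baseRing (padicPlace (p : ℕ)) K₁) ↥K₁ h hq →
    sheetNorm1 p h hq (limPhi q K₁ z) = (a : ℝ) * lg (some p) (((π : ↥K₁) : Ω)) := by
  letI := baseToComplex K₁
  intro h1 h2
  have hπK : ((π : ↥K₁)) ≠ 0 := fun h0 => hπ0 (Subtype.ext h0)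
  have e : algebraMap ↥(baseRing (padicPlace (p : ℕ)) K₁) ↥(keyFw ↥K₁ (1 * q) 1) π ^ a =
      algebraMap ↥K₁ ↥(keyFw ↥K₁ (1 * q) 1) ((π : ↥K₁) ^ a) := by
    rw [map_zpow₀, IsScalarTower.algebraMap_apply ↥(baseRing (padicPlace (p : ℕ)) K₁) ↥K₁
      ↥(keyFw ↥K₁ (1 * q) 1)]
    rfl
  rw [e] at h1 h2
  rw [sheetNorm1_limPhi p K₁ h hq (zpow_ne_zero a hπK) hz h1 h2]
  have e2 : ((((π : ↥K₁) ^ a : ↥K₁)) : Ω) = (((π : ↥K₁) : Ω)) ^ a := by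
    have : ∀ w : ↥K₁, ((w : ↥K₁) : Ω) = algebraMap ↥K₁ Ω w := fun _ => rfl
    rw [this, map_zpow₀]
    rfl
  rw [e2, lg_zpow]

end Norms

end

end Fermat.Agent.MW
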