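import Mathlib
import Fermat.Agent.MW.NADIC_helper6_NodeIface
import Fermat.Agent.MW.NADIC_helper1_Setup

/-!
# Project MW (S17) — [N-ADIC] helper1, [CLASSIFY]: the `Ω`-level kinds of `NADIC_helper1_Cells`
versus the closed points of the level-one model over a base `K₁`

For a point `Q` of `X₀(q)` rational over the base `K₁` (uniformizer `π`, `q^12 ~ π^c`):

* `isFinPt_iff_exists_centre` : `IsFinPt p q Q` iff `Q` is centred at a closed point of the chart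
  `j` of the model `mdl`;
* `uabs_eq_one_of_inf`, `uabs_eq_nabs_of_zero`, `uabs_of_node` : the absolute value of the node unit
  at `Q` according to the sheets through the centre;
* `kInf_iff`, `kZero_iff`, `kNode_iff` : the three kinds of finite points in terms of the centre;
* `centredAt_iff_kInf`, `centredAt_iff_kZero` : the dictionary for the two kinds of discs (same
  centre iff same kind and congruent coordinate values).
-/

set_option autoImplicit false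
set_option linter.unusedSectionVars false
set_option linter.unusedVariables false
set_option linter.style.haveILetI false
set_option synthInstance.maxHeartbeats 200000

open IntermediateField AlgebraicCurve ModularCurve

noncomputable section

namespace Fermat.Agent.MW.OneCell

open Fermat.Agent.JA Fermat.Agent.FF Fermat.Agent.SS Fermat.Agent.Igusa Fermat.Agent.X0N
  Fermat.Agent.MW Fermat.Agent.MW.NAdic

open scoped Fermat.Agent.JA.Host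

attribute [local instance] baseToComplex

/-- `Ω = AlgebraicClosure ℚ`. -/
local notation "Ω" => AlgebraicClosure ℚ

section Coord

variable (q : ℕ) [NeZero q] [NeZero (1 * q)] (K₁ : IntermediateField ℚ Ω)

theorem limPhi_J1 : limPhi q K₁ (J1 q K₁) = jBar (1 * q) := limPhi_oneHostA_gen q K₁

theorem limPhi_Jq1 : limPhi q K₁ (Jq1 q K₁) = jqBar q := limPhi_oneHostB_gen q K₁

theorem limPhi_U1 : limPhi q K₁ (U1 q K₁) = unitBar q := limPhi_oneUnit q K₁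

variable {q K₁}

theorem jv_eq_of_hasValueAt {Q : PtN (1 * q)} {c : ↥K₁}
    (hc : HasValueAt (ptResW q K₁ Q) (J1 q K₁) c) : jv q Q = (c : Ω) := by
  unfold jv
  rw [← limPhi_J1 q K₁]
  exact valN_limPhi Q hc

theorem valN_jqBar_eq_of_hasValueAt {Q : PtN (1 * q)} {c : ↥K₁}
    (hc : HasValueAt (ptResW q K₁ Q) (Jq1 q K₁) c) : valN (1 * q) Q (jqBar q) = (c : Ω) := by
  rw [← limPhi_Jq1 q K₁]
  exact valN_limPhi Q hc

theorem valN_unitBar_eq_of_hasValueAt {Q : PtN (1 * q)} {c : ↥K₁}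
    (hc : HasValueAt (ptResW q K₁ Q) (U1 q K₁) c) : valN (1 * q) Q (unitBar q) = (c : Ω) := by
  rw [← limPhi_U1 q K₁]
  exact valN_limPhi Q hc

end Coord

section Fin

variable (p : Nat.Primes) {q : ℕ} [NeZero q] [NeZero (1 * q)]
  {K₁ : IntermediateField ℚ Ω} [IsDiscreteValuationRing (R1 p K₁)]

/-- a point rational over `K₁` lies on the chart `j` iff `j` has its value in `R₁` there. -/
theorem isFinPt_iff_mem_compValR {Q : PtN (1 * q)} (hrat : IsRationalPlace (ptResW q K₁ Q)) :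
    IsFinPt p q Q ↔ J1 q K₁ ∈ compValR (R1 p K₁) (ptResW q K₁ Q) hrat := by
  constructor
  · rintro ⟨hord, habs⟩
    have hmem : J1 q K₁ ∈ (ptResW q K₁ Q).toValuationSubring := by
      rw [PlaceAux.mem_iff_ord_nonneg, ord_ptResW, limPhi_J1]
      exact Or.inr hord
    obtain ⟨c, hc⟩ := hrat.exists_hasValueAt hmem
    rw [jv_eq_of_hasValueAt hc] at habs
    have hcR : c ∈ baseRing (padicPlace (p : ℕ)) K₁ :=
      (mem_baseRing_padicPlace_iff p c).mpr habs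
    exact ⟨⟨c, hcR⟩, hc⟩
  · rintro ⟨r, hr⟩
    refine ⟨?_, ?_⟩
    · have h1 := PlaceAux.ord_nonneg_of_mem _ hr.mem
      rwa [ord_ptResW, limPhi_J1] at h1
    · rw [jv_eq_of_hasValueAt hr]
      exact absv_le_one_of_mem_baseRing p r

end Fin

section Centre

variable (p : Nat.Primes) {q : ℕ} [NeZero q] [NeZero (1 * q)] {x y : ℤ}
  (h : (q : ℤ) * x + ((1 : ℕ) : ℤ) * y = 1) (hq : q.Prime) (hpq : (p : ℕ) = q)
  {K₁ : IntermediateField ℚ Ω} [IsDiscreteValuationRing (R1 p K₁)]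
  {π : R1 p K₁} (hπ : Irreducible π)

include h hq hpq hπ in
/-- a point of the chart `j` rational over `K₁` has a centre on the chart `j` of the model. -/
theorem exists_centre_of_isFinPt {Q : PtN (1 * q)} (hrat : IsRationalPlace (ptResW q K₁ Q))
    (hfin : IsFinPt p q Q) :
    ∃ (𝔪 : Ideal ↥(chartOne (R1 p K₁) (E1 q K₁) (gJ K₁))) (h𝔪 : 𝔪.IsMaximal),
      algebraMap (R1 p K₁) ↥(chartOne (R1 p K₁) (E1 q K₁) (gJ K₁)) π ∈ 𝔪 ∧
      CentredAt 𝔪 (ptResW q K₁ Q) := by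
  have M := mdl h hq hπ hpq
  haveI : IsFractionRing ↥(chartOne (R1 p K₁) (E1 q K₁) (gJ K₁)) (E1 q K₁) :=
    isFractionRing_chartOne (K₁ := ↥K₁) (gJ K₁) M.j_adjoin
  have hJ : algebraMap (KJ K₁) (E1 q K₁) (gJ K₁) ∈
      compValR (R1 p K₁) (ptResW q K₁ Q) hrat := by
    rw [← M.A_j]
    exact (isFinPt_iff_mem_compValR p hrat).mp hfin
  have hB := chartOne_le_compValR (ptResW q K₁ Q) hrat (gJ K₁) hJ
  exact ⟨redIdeal (ptResW q K₁ Q) hrat _ hB, redIdeal_isMaximal (ptResW q K₁ Q) hrat _ hB,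
    algebraMap_mem_redIdeal (ptResW q K₁ Q) hrat _ hB hπ, centredAt_redIdeal (ptResW q K₁ Q) hrat _ hB⟩

include h hq hpq hπ in
/-- a point rational over `K₁` with a centre on the chart `j` lies on the chart `j`. -/
theorem isFinPt_of_centredAt {Q : PtN (1 * q)} (hrat : IsRationalPlace (ptResW q K₁ Q))
    (𝔪 : Ideal ↥(chartOne (R1 p K₁) (E1 q K₁) (gJ K₁))) [h𝔪 : 𝔪.IsMaximal]
    (hπ𝔪 : algebraMap (R1 p K₁) ↥(chartOne (R1 p K₁) (E1 q K₁) (gJ K₁)) π ∈ 𝔪)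
    (hc : CentredAt 𝔪 (ptResW q K₁ Q)) : IsFinPt p q Q := by
  have M := mdl h hq hπ hpq
  haveI : IsFractionRing ↥(chartOne (R1 p K₁) (E1 q K₁) (gJ K₁)) (E1 q K₁) :=
    isFractionRing_chartOne (K₁ := ↥K₁) (gJ K₁) M.j_adjoin
  haveI := h𝔪.isPrime
  rw [isFinPt_iff_mem_compValR p hrat]
  have h1 := le_compValR_of_centredAt (ptResW q K₁ Q) hrat _ hπ 𝔪 hπ𝔪 hc
  have h2 := h1 _ (algebraMap_coord_mem_chartOne (R := R1 p K₁) (E := E1 q K₁) (gJ K₁))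
  rw [← M.A_j] at h2
  exact h2

end Centre

section Unit

variable (p : Nat.Primes) {q : ℕ} [NeZero q] [NeZero (1 * q)] {x y : ℤ}
  (h : (q : ℤ) * x + ((1 : ℕ) : ℤ) * y = 1) (hq : q.Prime) (hpq : (p : ℕ) = q)
  {K₁ : IntermediateField ℚ Ω} [IsDiscreteValuationRing (R1 p K₁)]
  {π : R1 p K₁} (hπ : Irreducible π)

/-- `|π|^c = |q^12|`. -/
theorem absv_pi_pow_eq_nabs {c : ℕ} (hass : Associated ((q : R1 p K₁) ^ 12) (π ^ c)) :
    absv (some p) (((π : R1 p K₁) : ↥K₁) : Ω) ^ c = nabs p q := by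
  obtain ⟨u, hu⟩ := hass
  have h1 := congrArg (fun z : R1 p K₁ => absv (some p) (((z : ↥K₁) : Ω))) hu
  have e1 : ((((q : R1 p K₁) ^ 12 * (u : R1 p K₁) : R1 p K₁) : ↥K₁) : Ω) =
      ((q : Ω)) ^ 12 * ((((u : R1 p K₁) : ↥K₁) : Ω)) := by
    push_cast
    rfl
  have e2 : ((((π : R1 p K₁) ^ c : R1 p K₁) : ↥K₁) : Ω) = ((((π : R1 p K₁) : ↥K₁) : Ω)) ^ c := by
    push_cast
    rfl
  simp only [e1, e2] at h1
  rw [absv_mul, absv_eq_one_of_isUnit p u.isUnit, mul_one, absv_pow _ _ c] at h1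
  rw [← h1]
  rfl

include hπ in
theorem absv_pi_lt_one : absv (some p) (((π : R1 p K₁) : ↥K₁) : Ω) < 1 := by
  rw [absv_lt_one_iff_mem_maximalIdeal, IsLocalRing.mem_maximalIdeal, mem_nonunits_iff]
  exact hπ.not_isUnit

include hπ in
theorem absv_pi_pos : 0 < absv (some p) (((π : R1 p K₁) : ↥K₁) : Ω) := by
  apply absv_pos
  intro h0
  apply hπ.ne_zero
  apply Subtype.ext
  apply Subtype.ext
  exact h0

variable [IsAlgClosed (IsLocalRing.ResidueField (R1 p K₁))]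

include h hq hpq hπ in
/-- **inf-only ⇒ `|U(Q)| = 1`.** -/
theorem uabs_eq_one_of_inf {Q : PtN (1 * q)} (hrat : IsRationalPlace (ptResW q K₁ Q))
    (𝔪 : Ideal ↥(chartOne (R1 p K₁) (E1 q K₁) (gJ K₁))) [h𝔪 : 𝔪.IsMaximal]
    (hle : sheetIdeal (gJ K₁) (Winf1 p q K₁) (mdl h hq hπ hpq).two.chart_le_inf ≤ 𝔪)
    (hnle : ¬ sheetIdeal (gJ K₁) (W01 p q K₁ h hq) (mdl h hq hπ hpq).two.chart_le_zero ≤ 𝔪)
    (hc : CentredAt 𝔪 (ptResW q K₁ Q)) : uabs p q Q = 1 := by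
  obtain ⟨c, hass, hU⟩ := mdl_nodeUnit h hq hπ hpq
  obtain ⟨w, hw⟩ := SSModel.nodeUnit_value_inf (mdl h hq hπ hpq) hπ hU 𝔪 hle hnle hc hrat
  unfold uabs
  rw [valN_unitBar_eq_of_hasValueAt hw]
  exact absv_eq_one_of_isUnit p w.isUnit

include h hq hpq hπ in
/-- **zero-only ⇒ `|U(Q)| = |q^12|`.** -/
theorem uabs_eq_nabs_of_zero {Q : PtN (1 * q)} (hrat : IsRationalPlace (ptResW q K₁ Q))
    (𝔪 : Ideal ↥(chartOne (R1 p K₁) (E1 q K₁) (gJ K₁))) [h𝔪 : 𝔪.IsMaximal]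
    (hle : sheetIdeal (gJ K₁) (W01 p q K₁ h hq) (mdl h hq hπ hpq).two.chart_le_zero ≤ 𝔪)
    (hnle : ¬ sheetIdeal (gJ K₁) (Winf1 p q K₁) (mdl h hq hπ hpq).two.chart_le_inf ≤ 𝔪)
    (hc : CentredAt 𝔪 (ptResW q K₁ Q)) : uabs p q Q = nabs p q := by
  obtain ⟨c, hass, hU⟩ := mdl_nodeUnit h hq hπ hpq
  obtain ⟨w, hw⟩ := SSModel.nodeUnit_value_zero (mdl h hq hπ hpq) hπ hU 𝔪 hle hnle hc hrat
  unfold uabs
  rw [valN_unitBar_eq_of_hasValueAt hw]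
  have e : (((algebraMap (R1 p K₁) ↥K₁ π ^ c * algebraMap (R1 p K₁) ↥K₁ (w : R1 p K₁) : ↥K₁) :
      ↥K₁) : Ω) = ((((π : R1 p K₁) : ↥K₁) : Ω)) ^ c * ((((w : R1 p K₁) : ↥K₁) : Ω)) := by
    push_cast
    rfl
  rw [e, absv_mul, absv_pow, absv_eq_one_of_isUnit p w.isUnit, mul_one,
    absv_pi_pow_eq_nabs p hass]

include h hq hpq hπ in
/-- **node ⇒ `|q^12| < |U(Q)| < 1`.** -/
theorem uabs_of_node {Q : PtN (1 * q)} (hrat : IsRationalPlace (ptResW q K₁ Q))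
    (𝔪 : Ideal ↥(chartOne (R1 p K₁) (E1 q K₁) (gJ K₁))) [h𝔪 : 𝔪.IsMaximal]
    (hinf : sheetIdeal (gJ K₁) (Winf1 p q K₁) (mdl h hq hπ hpq).two.chart_le_inf ≤ 𝔪)
    (h0 : sheetIdeal (gJ K₁) (W01 p q K₁ h hq) (mdl h hq hπ hpq).two.chart_le_zero ≤ 𝔪)
    (hc : CentredAt 𝔪 (ptResW q K₁ Q)) : nabs p q < uabs p q Q ∧ uabs p q Q < 1 := by
  obtain ⟨c, hass, hU⟩ := mdl_nodeUnit h hq hπ hpq
  obtain ⟨X, m, hX, hmc, -⟩ := SSModel.exists_isNodeCoord (mdl h hq hπ hpq) hπ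
    (mdl_hk0 h hq hπ hpq) hU 𝔪 hinf h0
  obtain ⟨k, ν, w, w', hck, hk1, hν0, hνm, -, hw⟩ :=
    SSModel.nodeUnit_value_node' (mdl h hq hπ hpq) hπ hU 𝔪 hinf h0 hX hc hrat
  unfold uabs
  rw [valN_unitBar_eq_of_hasValueAt hw]
  have e : (((algebraMap (R1 p K₁) ↥K₁ π ^ (ν * k) * algebraMap (R1 p K₁) ↥K₁ (w : R1 p K₁) :
      ↥K₁) : ↥K₁) : Ω) =
      ((((π : R1 p K₁) : ↥K₁) : Ω)) ^ (ν * k) * ((((w : R1 p K₁) : ↥K₁) : Ω)) := by
    push_cast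
    rfl
  rw [e, absv_mul, absv_pow, absv_eq_one_of_isUnit p w.isUnit, mul_one,
    ← absv_pi_pow_eq_nabs p hass]
  have hlt := absv_pi_lt_one p hπ
  have hpos := absv_pi_pos p hπ
  have hνk : ν * k < c := by
    rw [hck, mul_comm k m]
    exact Nat.mul_lt_mul_of_pos_right hνm (by omega)
  have hνk0 : ν * k ≠ 0 := by
    have : 0 < ν * k := Nat.mul_pos hν0 (by omega)
    omega
  exact ⟨pow_lt_pow_right_of_lt_one₀ hpos hlt hνk, pow_lt_one₀ hpos.le hlt hνk0⟩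

include h hq hpq hπ in
/-- `|q^12| < 1` at the place `p = q`. -/
theorem nabs_lt_one_of_eq : nabs p q < 1 := by
  obtain ⟨c, hass, hU⟩ := mdl_nodeUnit h hq hπ hpq
  rw [← absv_pi_pow_eq_nabs p hass]
  exact pow_lt_one₀ (absv_pi_pos p hπ).le (absv_pi_lt_one p hπ) (by have := hU.one_le; omega)

include h hq hpq hπ in
/-- a closed point of the special fibre lies on one of the two sheets. -/
theorem sheet_cases (𝔪 : Ideal ↥(chartOne (R1 p K₁) (E1 q K₁) (gJ K₁))) [h𝔪 : 𝔪.IsMaximal]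
    (hπ𝔪 : algebraMap (R1 p K₁) ↥(chartOne (R1 p K₁) (E1 q K₁) (gJ K₁)) π ∈ 𝔪) :
    sheetIdeal (gJ K₁) (Winf1 p q K₁) (mdl h hq hπ hpq).two.chart_le_inf ≤ 𝔪 ∨
      sheetIdeal (gJ K₁) (W01 p q K₁ h hq) (mdl h hq hπ hpq).two.chart_le_zero ≤ 𝔪 := by
  have M := mdl h hq hπ hpq
  haveI := h𝔪.isPrime
  exact le_or_le_of_mem (IsTwoSheet.pi_mem_inf (K₁ := ↥K₁) M.two hπ)
    (IsTwoSheet.pi_mem_zero (K₁ := ↥K₁) M.two hπ)
    (M.two.inf_le_span hπ M.j_transcendental M.j_adjoin) 𝔪 hπ𝔪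

include h hq hpq hπ in
/-- **the kind `KInf` in terms of the centre.** -/
theorem kInf_iff {Q : PtN (1 * q)} (hrat : IsRationalPlace (ptResW q K₁ Q)) :
    KInf p q Q ↔ ∃ (𝔪 : Ideal ↥(chartOne (R1 p K₁) (E1 q K₁) (gJ K₁))) (h𝔪 : 𝔪.IsMaximal),
      CentredAt 𝔪 (ptResW q K₁ Q) ∧
      sheetIdeal (gJ K₁) (Winf1 p q K₁) (mdl h hq hπ hpq).two.chart_le_inf ≤ 𝔪 ∧
      ¬ sheetIdeal (gJ K₁) (W01 p q K₁ h hq) (mdl h hq hπ hpq).two.chart_le_zero ≤ 𝔪 := by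
  have M := mdl h hq hπ hpq
  constructor
  · rintro ⟨hfin, hu⟩
    obtain ⟨𝔪, h𝔪, hπ𝔪, hc⟩ := exists_centre_of_isFinPt p h hq hpq hπ hrat hfin
    haveI := h𝔪
    refine ⟨𝔪, h𝔪, hc, ?_⟩
    by_cases hinf : sheetIdeal (gJ K₁) (Winf1 p q K₁) M.two.chart_le_inf ≤ 𝔪
    · refine ⟨hinf, fun h0 => ?_⟩
      have := (uabs_of_node p h hq hpq hπ hrat 𝔪 hinf h0 hc).2
      rw [hu] at this
      exact lt_irrefl _ this
    · exfalso
      have h0 := (sheet_cases p h hq hpq hπ 𝔪 hπ𝔪).resolve_left hinf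
      have := uabs_eq_nabs_of_zero p h hq hpq hπ hrat 𝔪 h0 hinf hc
      rw [hu] at this
      have h1 := nabs_lt_one_of_eq p h hq hpq hπ
      rw [← this] at h1
      exact lt_irrefl _ h1
  · rintro ⟨𝔪, h𝔪, hc, hle, hnle⟩
    haveI := h𝔪
    have hπ𝔪 : algebraMap (R1 p K₁) ↥(chartOne (R1 p K₁) (E1 q K₁) (gJ K₁)) π ∈ 𝔪 :=
      hle (IsTwoSheet.pi_mem_inf (K₁ := ↥K₁) M.two hπ)
    exact ⟨isFinPt_of_centredAt p h hq hpq hπ hrat 𝔪 hπ𝔪 hc,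
      uabs_eq_one_of_inf p h hq hpq hπ hrat 𝔪 hle hnle hc⟩

include h hq hpq hπ in
/-- **the kind `KZero` in terms of the centre.** -/
theorem kZero_iff {Q : PtN (1 * q)} (hrat : IsRationalPlace (ptResW q K₁ Q)) :
    KZero p q Q ↔ ∃ (𝔪 : Ideal ↥(chartOne (R1 p K₁) (E1 q K₁) (gJ K₁))) (h𝔪 : 𝔪.IsMaximal),
      CentredAt 𝔪 (ptResW q K₁ Q) ∧
      sheetIdeal (gJ K₁) (W01 p q K₁ h hq) (mdl h hq hπ hpq).two.chart_le_zero ≤ 𝔪 ∧
      ¬ sheetIdeal (gJ K₁) (Winf1 p q K₁) (mdl h hq hπ hpq).two.chart_le_inf ≤ 𝔪 := by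
  have M := mdl h hq hπ hpq
  constructor
  · rintro ⟨hfin, hu⟩
    obtain ⟨𝔪, h𝔪, hπ𝔪, hc⟩ := exists_centre_of_isFinPt p h hq hpq hπ hrat hfin
    haveI := h𝔪
    refine ⟨𝔪, h𝔪, hc, ?_⟩
    by_cases h0 : sheetIdeal (gJ K₁) (W01 p q K₁ h hq) M.two.chart_le_zero ≤ 𝔪
    · refine ⟨h0, fun hinf => ?_⟩
      have := (uabs_of_node p h hq hpq hπ hrat 𝔪 hinf h0 hc).1
      rw [hu] at this
      exact lt_irrefl _ this
    · exfalso
      have hinf := (sheet_cases p h hq hpq hπ 𝔪 hπ𝔪).resolve_right h0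
      have := uabs_eq_one_of_inf p h hq hpq hπ hrat 𝔪 hinf h0 hc
      rw [hu] at this
      have h1 := nabs_lt_one_of_eq p h hq hpq hπ
      rw [this] at h1
      exact lt_irrefl _ h1
  · rintro ⟨𝔪, h𝔪, hc, hle, hnle⟩
    haveI := h𝔪
    have hπ𝔪 : algebraMap (R1 p K₁) ↥(chartOne (R1 p K₁) (E1 q K₁) (gJ K₁)) π ∈ 𝔪 :=
      hle (IsTwoSheet.pi_mem_zero (K₁ := ↥K₁) M.two hπ)
    exact ⟨isFinPt_of_centredAt p h hq hpq hπ hrat 𝔪 hπ𝔪 hc,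
      uabs_eq_nabs_of_zero p h hq hpq hπ hrat 𝔪 hle hnle hc⟩

include h hq hpq hπ in
/-- **the kind `KNode` in terms of the centre.** -/
theorem kNode_iff {Q : PtN (1 * q)} (hrat : IsRationalPlace (ptResW q K₁ Q)) :
    KNode p q Q ↔ ∃ (𝔪 : Ideal ↥(chartOne (R1 p K₁) (E1 q K₁) (gJ K₁))) (h𝔪 : 𝔪.IsMaximal),
      CentredAt 𝔪 (ptResW q K₁ Q) ∧
      sheetIdeal (gJ K₁) (Winf1 p q K₁) (mdl h hq hπ hpq).two.chart_le_inf ≤ 𝔪 ∧
      sheetIdeal (gJ K₁) (W01 p q K₁ h hq) (mdl h hq hπ hpq).two.chart_le_zero ≤ 𝔪 := by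
  have M := mdl h hq hπ hpq
  constructor
  · rintro ⟨hfin, hu1, hu2⟩
    obtain ⟨𝔪, h𝔪, hπ𝔪, hc⟩ := exists_centre_of_isFinPt p h hq hpq hπ hrat hfin
    haveI := h𝔪
    refine ⟨𝔪, h𝔪, hc, ?_⟩
    by_cases hinf : sheetIdeal (gJ K₁) (Winf1 p q K₁) M.two.chart_le_inf ≤ 𝔪
    · refine ⟨hinf, ?_⟩
      by_contra h0
      exact hu1 (uabs_eq_one_of_inf p h hq hpq hπ hrat 𝔪 hinf h0 hc)
    · exfalso
      have h0 := (sheet_cases p h hq hpq hπ 𝔪 hπ𝔪).resolve_left hinf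
      exact hu2 (uabs_eq_nabs_of_zero p h hq hpq hπ hrat 𝔪 h0 hinf hc)
  · rintro ⟨𝔪, h𝔪, hc, hinf, h0⟩
    haveI := h𝔪
    have hπ𝔪 : algebraMap (R1 p K₁) ↥(chartOne (R1 p K₁) (E1 q K₁) (gJ K₁)) π ∈ 𝔪 :=
      hinf (IsTwoSheet.pi_mem_inf (K₁ := ↥K₁) M.two hπ)
    have hu := uabs_of_node p h hq hpq hπ hrat 𝔪 hinf h0 hc
    exact ⟨isFinPt_of_centredAt p h hq hpq hπ hrat 𝔪 hπ𝔪 hc, ne_of_lt hu.2, (ne_of_lt hu.1).symm⟩

end Unit

end Fermat.Agent.MW.OneCell
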