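import Mathlib
import Fermat.Agent.MW.NADIC_helper1_Classify

/-!
# Project MW (S17) — [N-ADIC] helper1, [DISC-CF]: the cell formulas `DiscCF` on the discs of the
kinds `KInf` and `KZero`

* `sub_value_mem_locMax`, `value_sub_mem_maximalIdeal` : values at a rational place versus the
  maximal ideal of the local ring at its centre;
* `centredAt_iff_kInf`, `centredAt_iff_kZero` : the dictionary (same centre iff same kind and
  congruent coordinate values);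
* `discCF_kInf`, `discCF_kZero` : the two cell formulas.
-/

set_option autoImplicit false
set_option linter.unusedSectionVars false
set_option linter.unusedVariables false
set_option linter.style.haveILetI false
set_option synthInstance.maxHeartbeats 200000

open IntermediateField AlgebraicCurve ModularCurve

noncomputable section

namespace Fermat.Agent.MW.OneCell

open Fermat.Agent.JA Fermat.Agent.FF Fermat.Agent.SS Fermat.Agent.Igusa Fermat.Agent.X0N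
  Fermat.Agent.MW Fermat.Agent.MW.NAdic

open scoped Fermat.Agent.JA.Host

attribute [local instance] baseToComplex

/-- `Ω = AlgebraicClosure ℚ`. -/
local notation "Ω" => AlgebraicClosure ℚ

section Generic

variable {R₁ : Type*} [CommRing R₁] [IsDomain R₁] [IsDiscreteValuationRing R₁]
  {K₁ : Type*} [Field K₁] [Algebra R₁ K₁] [IsFractionRing R₁ K₁]
  {E : Type*} [Field E] [Algebra K₁ E] [Algebra R₁ E] [IsScalarTower R₁ K₁ E]
  (P : Place K₁ E) (hrat : IsRationalPlace P)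
  (B : Subalgebra R₁ E) [IsFractionRing ↥B E]

include hrat in
/-- a function of the local ring at the centre minus its value lies in the maximal ideal. -/
theorem sub_value_mem_locMax {π : R₁} (hπ : Irreducible π) (𝔪 : Ideal ↥B) [h𝔪 : 𝔪.IsMaximal]
    (hπ𝔪 : algebraMap R₁ ↥B π ∈ 𝔪) (hc : CentredAt 𝔪 P) {e : E}
    (he : haveI := h𝔪.isPrime; e ∈ locRing B 𝔪) {r : R₁}
    (hr : HasValueAt P e (algebraMap R₁ K₁ r)) :
    e - algebraMap R₁ E r ∈ locMax B 𝔪 := by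
  haveI := h𝔪.isPrime
  have he' : e - algebraMap R₁ E r ∈ locRing B 𝔪 :=
    (locRing B 𝔪).sub_mem he (Subalgebra.algebraMap_mem _ r)
  obtain ⟨r', hr', hiff⟩ := exists_value_of_centredAt P hrat B hπ 𝔪 hπ𝔪 hc he'
  have h0 : HasValueAt P (e - algebraMap R₁ E r) (algebraMap R₁ K₁ r - algebraMap R₁ K₁ r) := by
    refine hr.sub ?_
    rw [IsScalarTower.algebraMap_apply R₁ K₁ E]
    exact HasValueAt.algebraMap' P _
  rw [sub_self] at h0
  have h1 : algebraMap R₁ K₁ r' = 0 := hr'.unique h0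
  have h2 : r' = 0 := by
    apply IsFractionRing.injective R₁ K₁
    rw [h1, map_zero]
  rw [hiff, h2]
  exact zero_mem _

include hrat in
/-- if `e - s` lies in the maximal ideal at the centre, the value of `e` is congruent to `s`. -/
theorem value_sub_mem_maximalIdeal {π : R₁} (hπ : Irreducible π) (𝔪 : Ideal ↥B)
    [h𝔪 : 𝔪.IsMaximal] (hπ𝔪 : algebraMap R₁ ↥B π ∈ 𝔪) (hc : CentredAt 𝔪 P) {e : E} {r s : R₁}
    (hr : HasValueAt P e (algebraMap R₁ K₁ r))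
    (hs : e - algebraMap R₁ E s ∈ locMax B 𝔪) :
    r - s ∈ IsLocalRing.maximalIdeal R₁ := by
  haveI := h𝔪.isPrime
  obtain ⟨r', hr', hiff⟩ := exists_value_of_centredAt P hrat B hπ 𝔪 hπ𝔪 hc
    (locMax_subset_locRing hs)
  have h0 : HasValueAt P (e - algebraMap R₁ E s) (algebraMap R₁ K₁ r - algebraMap R₁ K₁ s) := by
    refine hr.sub ?_
    rw [IsScalarTower.algebraMap_apply R₁ K₁ E]
    exact HasValueAt.algebraMap' P _
  have h1 : algebraMap R₁ K₁ r' = algebraMap R₁ K₁ r - algebraMap R₁ K₁ s := hr'.unique h0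
  have h2 : r' = r - s := by
    apply IsFractionRing.injective R₁ K₁
    rw [h1, map_sub]
  rw [← h2]
  exact hiff.mp hs

end Generic

section Dict

variable (p : Nat.Primes) {q : ℕ} [NeZero q] [NeZero (1 * q)] {x y : ℤ}
  (h : (q : ℤ) * x + ((1 : ℕ) : ℤ) * y = 1) (hq : q.Prime) (hpq : (p : ℕ) = q)
  {K₁ : IntermediateField ℚ Ω} [IsDiscreteValuationRing (R1 p K₁)]
  {π : R1 p K₁} (hπ : Irreducible π)
  [IsAlgClosed (IsLocalRing.ResidueField (R1 p K₁))]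

/-- the absolute value of a difference of two elements of the base ring. -/
theorem absv_sub_lt_one_iff (a b : R1 p K₁) :
    absv (some p) ((((a : R1 p K₁) : ↥K₁) : Ω) - (((b : R1 p K₁) : ↥K₁) : Ω)) < 1 ↔
      a - b ∈ IsLocalRing.maximalIdeal (R1 p K₁) := by
  rw [← absv_lt_one_iff_mem_maximalIdeal]
  rfl

include h hq hpq hπ in
/-- **the dictionary on the discs of `C_∞`**: same centre iff same kind and congruent `j`. -/
theorem centredAt_iff_kInf {Q P : PtN (1 * q)} (hQrat : IsRationalPlace (ptResW q K₁ Q))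
    (hPrat : IsRationalPlace (ptResW q K₁ P))
    (𝔪 : Ideal ↥(chartOne (R1 p K₁) (E1 q K₁) (gJ K₁))) [h𝔪 : 𝔪.IsMaximal]
    (hle : sheetIdeal (gJ K₁) (Winf1 p q K₁) (mdl h hq hπ hpq).two.chart_le_inf ≤ 𝔪)
    (hnle : ¬ sheetIdeal (gJ K₁) (W01 p q K₁ h hq) (mdl h hq hπ hpq).two.chart_le_zero ≤ 𝔪)
    (hQ : CentredAt 𝔪 (ptResW q K₁ Q)) :
    CentredAt 𝔪 (ptResW q K₁ P) ↔ KInf p q P ∧ absv (some p) (jv q P - jv q Q) < 1 := by
  have M := mdl h hq hπ hpq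
  haveI : IsFractionRing ↥(chartOne (R1 p K₁) (E1 q K₁) (gJ K₁)) (E1 q K₁) :=
    isFractionRing_chartOne (K₁ := ↥K₁) (gJ K₁) M.j_adjoin
  haveI h𝔪p := h𝔪.isPrime
  have hπ𝔪 : algebraMap (R1 p K₁) ↥(chartOne (R1 p K₁) (E1 q K₁) (gJ K₁)) π ∈ 𝔪 :=
    hle (IsTwoSheet.pi_mem_inf (K₁ := ↥K₁) M.two hπ)
  have hJloc : J1 q K₁ ∈ locRing (chartOne (R1 p K₁) (E1 q K₁) (gJ K₁)) 𝔪 :=
    le_locRing M.A_t_mem
  obtain ⟨ζQ, hζQ, -⟩ := exists_value_of_centredAt (ptResW q K₁ Q) hQrat _ hπ 𝔪 hπ𝔪 hQ hJloc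
  constructor
  · intro hP
    refine ⟨(kInf_iff p h hq hpq hπ hPrat).mpr ⟨𝔪, h𝔪, hP, hle, hnle⟩, ?_⟩
    obtain ⟨ζP, hζP, -⟩ := exists_value_of_centredAt (ptResW q K₁ P) hPrat _ hπ 𝔪 hπ𝔪 hP hJloc
    have hloc := sub_value_mem_locMax (ptResW q K₁ P) hPrat _ hπ 𝔪 hπ𝔪 hP hJloc hζP
    have hmem := value_sub_mem_maximalIdeal (ptResW q K₁ Q) hQrat _ hπ 𝔪 hπ𝔪 hQ hζQ hloc
    rw [jv_eq_of_hasValueAt hζP, jv_eq_of_hasValueAt hζQ]
    refine (absv_sub_lt_one_iff p ζP ζQ).mpr ?_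
    have := neg_mem hmem
    rwa [neg_sub] at this
  · rintro ⟨hK, habs⟩
    obtain ⟨𝔪', h𝔪', hP', hle', hnle'⟩ := (kInf_iff p h hq hpq hπ hPrat).mp hK
    haveI := h𝔪'
    haveI h𝔪'p := h𝔪'.isPrime
    have hπ𝔪' : algebraMap (R1 p K₁) ↥(chartOne (R1 p K₁) (E1 q K₁) (gJ K₁)) π ∈ 𝔪' :=
      hle' (IsTwoSheet.pi_mem_inf (K₁ := ↥K₁) M.two hπ)
    have hJloc' : J1 q K₁ ∈ locRing (chartOne (R1 p K₁) (E1 q K₁) (gJ K₁)) 𝔪' :=
      le_locRing M.A_t_mem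
    obtain ⟨ζP, hζP, -⟩ := exists_value_of_centredAt (ptResW q K₁ P) hPrat _ hπ 𝔪' hπ𝔪' hP' hJloc'
    rw [jv_eq_of_hasValueAt hζP, jv_eq_of_hasValueAt hζQ] at habs
    replace habs := (absv_sub_lt_one_iff p ζP ζQ).mp habs
    have hval := sub_value_mem_locMax (ptResW q K₁ Q) hQrat _ hπ 𝔪 hπ𝔪 hQ hJloc hζQ
    have hval' := sub_value_mem_locMax (ptResW q K₁ P) hPrat _ hπ 𝔪' hπ𝔪' hP' hJloc' hζP
    have hζ : ζQ - ζP ∈ Ideal.span {π} := by
      rw [← hπ.maximalIdeal_eq]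
      have := neg_mem habs
      rwa [neg_sub] at this
    have e : 𝔪 = 𝔪' := SSModel.eq_of_inf M mdl_htj mdl_hsurj 𝔪 𝔪' hle hle' hval hval' hζ
    rw [e]
    exact hP'

include h hq hpq hπ in
/-- **the dictionary on the discs of `C_0`**: same centre iff same kind and congruent `j_q`. -/
theorem centredAt_iff_kZero {Q P : PtN (1 * q)} (hQrat : IsRationalPlace (ptResW q K₁ Q))
    (hPrat : IsRationalPlace (ptResW q K₁ P))
    (𝔪 : Ideal ↥(chartOne (R1 p K₁) (E1 q K₁) (gJ K₁))) [h𝔪 : 𝔪.IsMaximal]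
    (hle : sheetIdeal (gJ K₁) (W01 p q K₁ h hq) (mdl h hq hπ hpq).two.chart_le_zero ≤ 𝔪)
    (hnle : ¬ sheetIdeal (gJ K₁) (Winf1 p q K₁) (mdl h hq hπ hpq).two.chart_le_inf ≤ 𝔪)
    (hQ : CentredAt 𝔪 (ptResW q K₁ Q)) :
    CentredAt 𝔪 (ptResW q K₁ P) ↔ KZero p q P ∧
      absv (some p) (valN (1 * q) P (jqBar q) - valN (1 * q) Q (jqBar q)) < 1 := by
  have M := mdl h hq hπ hpq
  haveI : IsFractionRing ↥(chartOne (R1 p K₁) (E1 q K₁) (gJ K₁)) (E1 q K₁) :=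
    isFractionRing_chartOne (K₁ := ↥K₁) (gJ K₁) M.j_adjoin
  haveI h𝔪p := h𝔪.isPrime
  have hπ𝔪 : algebraMap (R1 p K₁) ↥(chartOne (R1 p K₁) (E1 q K₁) (gJ K₁)) π ∈ 𝔪 :=
    hle (IsTwoSheet.pi_mem_zero (K₁ := ↥K₁) M.two hπ)
  have hJloc : Jq1 q K₁ ∈ locRing (chartOne (R1 p K₁) (E1 q K₁) (gJ K₁)) 𝔪 :=
    le_locRing (M.B_t_mem (M.jq_mem_chartOne hπ))
  obtain ⟨ζQ, hζQ, -⟩ := exists_value_of_centredAt (ptResW q K₁ Q) hQrat _ hπ 𝔪 hπ𝔪 hQ hJloc
  constructor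
  · intro hP
    refine ⟨(kZero_iff p h hq hpq hπ hPrat).mpr ⟨𝔪, h𝔪, hP, hle, hnle⟩, ?_⟩
    obtain ⟨ζP, hζP, -⟩ := exists_value_of_centredAt (ptResW q K₁ P) hPrat _ hπ 𝔪 hπ𝔪 hP hJloc
    have hloc := sub_value_mem_locMax (ptResW q K₁ P) hPrat _ hπ 𝔪 hπ𝔪 hP hJloc hζP
    have hmem := value_sub_mem_maximalIdeal (ptResW q K₁ Q) hQrat _ hπ 𝔪 hπ𝔪 hQ hζQ hloc
    rw [valN_jqBar_eq_of_hasValueAt hζP, valN_jqBar_eq_of_hasValueAt hζQ]
    refine (absv_sub_lt_one_iff p ζP ζQ).mpr ?_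
    have := neg_mem hmem
    rwa [neg_sub] at this
  · rintro ⟨hK, habs⟩
    obtain ⟨𝔪', h𝔪', hP', hle', hnle'⟩ := (kZero_iff p h hq hpq hπ hPrat).mp hK
    haveI := h𝔪'
    haveI h𝔪'p := h𝔪'.isPrime
    have hπ𝔪' : algebraMap (R1 p K₁) ↥(chartOne (R1 p K₁) (E1 q K₁) (gJ K₁)) π ∈ 𝔪' :=
      hle' (IsTwoSheet.pi_mem_zero (K₁ := ↥K₁) M.two hπ)
    have hJloc' : Jq1 q K₁ ∈ locRing (chartOne (R1 p K₁) (E1 q K₁) (gJ K₁)) 𝔪' :=
      le_locRing (M.B_t_mem (M.jq_mem_chartOne hπ))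
    obtain ⟨ζP, hζP, -⟩ := exists_value_of_centredAt (ptResW q K₁ P) hPrat _ hπ 𝔪' hπ𝔪' hP' hJloc'
    rw [valN_jqBar_eq_of_hasValueAt hζP, valN_jqBar_eq_of_hasValueAt hζQ] at habs
    replace habs := (absv_sub_lt_one_iff p ζP ζQ).mp habs
    have hval := sub_value_mem_locMax (ptResW q K₁ Q) hQrat _ hπ 𝔪 hπ𝔪 hQ hJloc hζQ
    have hval' := sub_value_mem_locMax (ptResW q K₁ P) hPrat _ hπ 𝔪' hπ𝔪' hP' hJloc' hζP
    have hζ : ζQ - ζP ∈ Ideal.span {π} := by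
      rw [← hπ.maximalIdeal_eq]
      have := neg_mem habs
      rwa [neg_sub] at this
    have e : 𝔪 = 𝔪' := SSModel.eq_of_zero M hπ mdl_htj mdl_hsurj (mdl_hjint h hq hπ hpq) 𝔪 𝔪'
      hle hle' hval hval' hζ
    rw [e]
    exact hP'

end Dict

section CF

variable (p : Nat.Primes) {q : ℕ} [NeZero q] [NeZero (1 * q)] {x y : ℤ}
  (h : (q : ℤ) * x + ((1 : ℕ) : ℤ) * y = 1) (hq : q.Prime) (hpq : (p : ℕ) = q)

include h hq hpq in
open Classical in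
/-- the cell formula on the discs of `C_∞`, over a base over which everything is rational. -/
theorem discCF_kInf_base (K₁ : IntermediateField ℚ Ω) (hK₁ : IsBase (p : ℕ) K₁)
    (f : FunN (1 * q)) (D : PtN (1 * q) →₀ ℤ) (hf : f ≠ 0) (hD : IsDivOf (1 * q) f D)
    (Q : PtN (1 * q)) (hQ : KInf p q Q)
    (x₁ : ↥(keyFw ↥K₁ (1 * q) 1)) (hx₁ : limPhi q K₁ x₁ = f)
    (hQrat : IsRationalPlace (ptResW q K₁ Q))
    (hratS : ∀ P ∈ D.support, IsRationalPlace (ptResW q K₁ P)) :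
    Q.ord (jBar (1 * q) - algebraMap Ω (FunN (1 * q)) (valN (1 * q) Q (jBar (1 * q)))) = 1 ∧
      lg (some p) (valN (1 * q) Q
        (f * (jBar (1 * q) -
          algebraMap Ω (FunN (1 * q)) (valN (1 * q) Q (jBar (1 * q)))) ^ (-(D Q)))) =
        sheetNorm0 p (1 * q) f + ∑ P ∈ D.support,
          if P ≠ Q ∧ KInf p q P ∧ absv (some p)
              (valN (1 * q) P (jBar (1 * q)) - valN (1 * q) Q (jBar (1 * q))) < 1 then
            (D P : ℝ) * lg (some p)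
              (valN (1 * q) P (jBar (1 * q)) - valN (1 * q) Q (jBar (1 * q))) else 0 := by
  have hLO : (padicPlace (p : ℕ)).LiesOverPrime (p : ℕ) :=
    Fermat.Agent.TW.Kill.padicPlace_liesOverPrime (p : ℕ)
  haveI : IsDiscreteValuationRing (R1 p K₁) := hK₁.isDiscreteValuationRing hLO
  haveI : IsAlgClosed (IsLocalRing.ResidueField (R1 p K₁)) := hK₁.isAlgClosed_residueField hLO
  obtain ⟨π, hπ⟩ := IsDiscreteValuationRing.exists_irreducible (R1 p K₁)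
  have M := mdl h hq hπ hpq
  haveI : IsFractionRing ↥(chartOne (R1 p K₁) (E1 q K₁) (gJ K₁)) (E1 q K₁) :=
    isFractionRing_chartOne (K₁ := ↥K₁) (gJ K₁) M.j_adjoin
  obtain ⟨𝔪, h𝔪, hc, hle, hnle⟩ := (kInf_iff p h hq hpq hπ hQrat).mp hQ
  haveI := h𝔪
  haveI h𝔪p := h𝔪.isPrime
  have hπ𝔪 : algebraMap (R1 p K₁) ↥(chartOne (R1 p K₁) (E1 q K₁) (gJ K₁)) π ∈ 𝔪 :=
    hle (IsTwoSheet.pi_mem_inf (K₁ := ↥K₁) M.two hπ)
  have hJloc : J1 q K₁ ∈ locRing (chartOne (R1 p K₁) (E1 q K₁) (gJ K₁)) 𝔪 :=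
    le_locRing M.A_t_mem
  have hx₁0 : x₁ ≠ 0 := by
    rintro rfl
    rw [map_zero] at hx₁
    exact hf hx₁.symm
  -- the zeros and poles on the cell
  set S : Finset (PtN (1 * q)) := D.support.filter (fun P => KInf p q P ∧
    absv (some p) (valN (1 * q) P (jBar (1 * q)) - valN (1 * q) Q (jBar (1 * q))) < 1) with hS
  have hSD : ∀ P ∈ S, D P ≠ 0 := fun P hP =>
    Finsupp.mem_support_iff.mp (Finset.mem_filter.mp hP).1
  have hSrat : ∀ P ∈ S, IsRationalPlace (ptResW q K₁ P) := fun P hP =>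
    hratS P (Finset.mem_filter.mp hP).1
  have hST : ∀ P ∈ S, CentredAt 𝔪 (ptResW q K₁ P) := fun P hP =>
    (centredAt_iff_kInf p h hq hpq hπ hQrat (hSrat P hP) 𝔪 hle hnle hc).mpr
      (Finset.mem_filter.mp hP).2
  -- the values of the coordinate
  have hex : ∀ P₁ : Place ↥K₁ (E1 q K₁), ∃ r : R1 p K₁,
      (IsRationalPlace P₁ ∧ CentredAt 𝔪 P₁) →
        HasValueAt P₁ (J1 q K₁) (algebraMap (R1 p K₁) ↥K₁ r) := by
    intro P₁
    by_cases hh : IsRationalPlace P₁ ∧ CentredAt 𝔪 P₁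
    · obtain ⟨r, hr, -⟩ := exists_value_of_centredAt P₁ hh.1 _ hπ 𝔪 hπ𝔪 hh.2 hJloc
      exact ⟨r, fun _ => hr⟩
    · exact ⟨0, fun h' => absurd h' hh⟩
  choose ζ hζ using hex
  have hT : ∀ P ∈ S.image (ptResW q K₁), CentredAt 𝔪 P := by
    intro P hP
    obtain ⟨P', hP', rfl⟩ := Finset.mem_image.mp hP
    exact hST P' hP'
  have hrat : ∀ P ∈ S.image (ptResW q K₁), IsRationalPlace P := by
    intro P hP
    obtain ⟨P', hP', rfl⟩ := Finset.mem_image.mp hP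
    exact hSrat P' hP'
  have hfT : ∀ P : Place ↥K₁ (E1 q K₁), CentredAt 𝔪 P → P.ord x₁ ≠ 0 →
      P ∈ S.image (ptResW q K₁) := by
    intro P hP hord
    obtain ⟨P', rfl⟩ := exists_ptResW_eq P
    rw [ord_ptResW, hx₁, ← hD P'] at hord
    have hP'supp : P' ∈ D.support := Finsupp.mem_support_iff.mpr hord
    have hP'rat := hratS P' hP'supp
    exact Finset.mem_image_of_mem _ (Finset.mem_filter.mpr ⟨hP'supp,
      (centredAt_iff_kInf p h hq hpq hπ hQrat hP'rat 𝔪 hle hnle hc).mp hP⟩)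
  have hζT : ∀ P ∈ S.image (ptResW q K₁), HasValueAt P
      (hA q K₁ (algebraMap (KJ K₁) (KJ K₁) (gJ K₁))) (algebraMap (R1 p K₁) ↥K₁ (ζ P)) :=
    fun P hP => hζ P ⟨hrat P hP, hT P hP⟩
  obtain ⟨a, hfa, hfa'⟩ := oneWinf_exists_zpow (R1 p K₁) ↥K₁ hπ hx₁0
  have hζQ := hζ (ptResW q K₁ Q) ⟨hQrat, hc⟩
  obtain ⟨hord, w, hval⟩ := SSModel.cell_inf M hπ 𝔪 hle hnle hx₁0 (S.image (ptResW q K₁)) hT hrat
    hfT ζ hζT a hfa hfa' hc hQrat hζQ
  have hD' : IsDivOf (1 * q) (limPhi q K₁ x₁) D := by rw [hx₁]; exact hD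
  have key := cf_of_cell_value p K₁ Q hx₁0 hD' S hSD hSrat ζ
    (fun P hP => hζ _ ⟨hSrat P hP, hST P hP⟩) hζQ hπ.ne_zero a w hord hval
  rw [limPhi_J1, hx₁] at key
  refine ⟨key.1, ?_⟩
  rw [key.2, ← hx₁, sheetNorm0_of_unit p K₁ hx₁0 hπ.ne_zero a hfa hfa']
  congr 1
  have hSe : S.erase Q = D.support.filter (fun P => P ≠ Q ∧ KInf p q P ∧
      absv (some p) (valN (1 * q) P (jBar (1 * q)) - valN (1 * q) Q (jBar (1 * q))) < 1) := by
    ext P
    rw [Finset.mem_erase, hS, Finset.mem_filter, Finset.mem_filter]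
    tauto
  rw [hSe, Finset.sum_filter]

include h hq hpq in
/-- **the cell formula on the discs of `C_∞`.** -/
theorem discCF_kInf : DiscCF p q (KInf p q) (jBar (1 * q)) (sheetNorm0 p (1 * q)) := by
  classical
  intro f D hf hD Q hQ
  obtain ⟨K₁, hK₁, -, -, hdesc, hratS⟩ := exists_galBase_descentW (q := q)
    (isBase_flatBase (ℓ := (p : ℕ))) ∅ (fun _ : Unit => f) (insert Q D.support)
  obtain ⟨x₁, hx₁⟩ := hdesc ()
  exact discCF_kInf_base p h hq hpq K₁ hK₁.isBase f D hf hD Q hQ x₁ hx₁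
    (hratS Q (Finset.mem_insert_self _ _)) (fun P hP => hratS P (Finset.mem_insert_of_mem hP))

include h hq hpq in
open Classical in
/-- the cell formula on the discs of `C_0`, over a base over which everything is rational. -/
theorem discCF_kZero_base (K₁ : IntermediateField ℚ Ω) (hK₁ : IsBase (p : ℕ) K₁)
    (f : FunN (1 * q)) (D : PtN (1 * q) →₀ ℤ) (hf : f ≠ 0) (hD : IsDivOf (1 * q) f D)
    (Q : PtN (1 * q)) (hQ : KZero p q Q)
    (x₁ : ↥(keyFw ↥K₁ (1 * q) 1)) (hx₁ : limPhi q K₁ x₁ = f)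
    (hQrat : IsRationalPlace (ptResW q K₁ Q))
    (hratS : ∀ P ∈ D.support, IsRationalPlace (ptResW q K₁ P)) :
    Q.ord (jqBar q - algebraMap Ω (FunN (1 * q)) (valN (1 * q) Q (jqBar q))) = 1 ∧
      lg (some p) (valN (1 * q) Q
        (f * (jqBar q -
          algebraMap Ω (FunN (1 * q)) (valN (1 * q) Q (jqBar q))) ^ (-(D Q)))) =
        sheetNorm1 p h hq f + ∑ P ∈ D.support,
          if P ≠ Q ∧ KZero p q P ∧ absv (some p)
              (valN (1 * q) P (jqBar q) - valN (1 * q) Q (jqBar q)) < 1 then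
            (D P : ℝ) * lg (some p)
              (valN (1 * q) P (jqBar q) - valN (1 * q) Q (jqBar q)) else 0 := by
  have hLO : (padicPlace (p : ℕ)).LiesOverPrime (p : ℕ) :=
    Fermat.Agent.TW.Kill.padicPlace_liesOverPrime (p : ℕ)
  haveI : IsDiscreteValuationRing (R1 p K₁) := hK₁.isDiscreteValuationRing hLO
  haveI : IsAlgClosed (IsLocalRing.ResidueField (R1 p K₁)) := hK₁.isAlgClosed_residueField hLO
  obtain ⟨π, hπ⟩ := IsDiscreteValuationRing.exists_irreducible (R1 p K₁)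
  have M := mdl h hq hπ hpq
  haveI : IsFractionRing ↥(chartOne (R1 p K₁) (E1 q K₁) (gJ K₁)) (E1 q K₁) :=
    isFractionRing_chartOne (K₁ := ↥K₁) (gJ K₁) M.j_adjoin
  obtain ⟨𝔪, h𝔪, hc, hle, hnle⟩ := (kZero_iff p h hq hpq hπ hQrat).mp hQ
  haveI := h𝔪
  haveI h𝔪p := h𝔪.isPrime
  have hπ𝔪 : algebraMap (R1 p K₁) ↥(chartOne (R1 p K₁) (E1 q K₁) (gJ K₁)) π ∈ 𝔪 :=
    hle (IsTwoSheet.pi_mem_zero (K₁ := ↥K₁) M.two hπ)
  have hJloc : Jq1 q K₁ ∈ locRing (chartOne (R1 p K₁) (E1 q K₁) (gJ K₁)) 𝔪 :=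
    le_locRing (M.B_t_mem (M.jq_mem_chartOne hπ))
  have hx₁0 : x₁ ≠ 0 := by
    rintro rfl
    rw [map_zero] at hx₁
    exact hf hx₁.symm
  -- the zeros and poles on the cell
  set S : Finset (PtN (1 * q)) := D.support.filter (fun P => KZero p q P ∧
    absv (some p) (valN (1 * q) P (jqBar q) - valN (1 * q) Q (jqBar q)) < 1) with hS
  have hSD : ∀ P ∈ S, D P ≠ 0 := fun P hP =>
    Finsupp.mem_support_iff.mp (Finset.mem_filter.mp hP).1
  have hSrat : ∀ P ∈ S, IsRationalPlace (ptResW q K₁ P) := fun P hP =>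
    hratS P (Finset.mem_filter.mp hP).1
  have hST : ∀ P ∈ S, CentredAt 𝔪 (ptResW q K₁ P) := fun P hP =>
    (centredAt_iff_kZero p h hq hpq hπ hQrat (hSrat P hP) 𝔪 hle hnle hc).mpr
      (Finset.mem_filter.mp hP).2
  -- the values of the coordinate
  have hex : ∀ P₁ : Place ↥K₁ (E1 q K₁), ∃ r : R1 p K₁,
      (IsRationalPlace P₁ ∧ CentredAt 𝔪 P₁) →
        HasValueAt P₁ (Jq1 q K₁) (algebraMap (R1 p K₁) ↥K₁ r) := by
    intro P₁
    by_cases hh : IsRationalPlace P₁ ∧ CentredAt 𝔪 P₁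
    · obtain ⟨r, hr, -⟩ := exists_value_of_centredAt P₁ hh.1 _ hπ 𝔪 hπ𝔪 hh.2 hJloc
      exact ⟨r, fun _ => hr⟩
    · exact ⟨0, fun h' => absurd h' hh⟩
  choose ζ hζ using hex
  have hT : ∀ P ∈ S.image (ptResW q K₁), CentredAt 𝔪 P := by
    intro P hP
    obtain ⟨P', hP', rfl⟩ := Finset.mem_image.mp hP
    exact hST P' hP'
  have hrat : ∀ P ∈ S.image (ptResW q K₁), IsRationalPlace P := by
    intro P hP
    obtain ⟨P', hP', rfl⟩ := Finset.mem_image.mp hP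
    exact hSrat P' hP'
  have hfT : ∀ P : Place ↥K₁ (E1 q K₁), CentredAt 𝔪 P → P.ord x₁ ≠ 0 →
      P ∈ S.image (ptResW q K₁) := by
    intro P hP hord
    obtain ⟨P', rfl⟩ := exists_ptResW_eq P
    rw [ord_ptResW, hx₁, ← hD P'] at hord
    have hP'supp : P' ∈ D.support := Finsupp.mem_support_iff.mpr hord
    have hP'rat := hratS P' hP'supp
    exact Finset.mem_image_of_mem _ (Finset.mem_filter.mpr ⟨hP'supp,
      (centredAt_iff_kZero p h hq hpq hπ hQrat hP'rat 𝔪 hle hnle hc).mp hP⟩)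
  have hζT : ∀ P ∈ S.image (ptResW q K₁), HasValueAt P
      (hB q K₁ (algebraMap (KJ K₁) (KJ K₁) (gJ K₁))) (algebraMap (R1 p K₁) ↥K₁ (ζ P)) :=
    fun P hP => hζ P ⟨hrat P hP, hT P hP⟩
  obtain ⟨a, hfa, hfa'⟩ := oneW0_exists_zpow (R1 p K₁) ↥K₁ hπ h hq hx₁0
  have hζQ := hζ (ptResW q K₁ Q) ⟨hQrat, hc⟩
  obtain ⟨hord, w, hval⟩ := SSModel.cell_zero M hπ 𝔪 hle hnle hx₁0 (S.image (ptResW q K₁)) hT hrat
    hfT ζ hζT a hfa hfa' hc hQrat hζQ
  have hD' : IsDivOf (1 * q) (limPhi q K₁ x₁) D := by rw [hx₁]; exact hD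
  have key := cf_of_cell_value p K₁ Q hx₁0 hD' S hSD hSrat ζ
    (fun P hP => hζ _ ⟨hSrat P hP, hST P hP⟩) hζQ hπ.ne_zero a w hord hval
  rw [limPhi_Jq1, hx₁] at key
  refine ⟨key.1, ?_⟩
  rw [key.2, ← hx₁, sheetNorm1_of_unit p K₁ h hq hx₁0 hπ.ne_zero a hfa hfa']
  congr 1
  have hSe : S.erase Q = D.support.filter (fun P => P ≠ Q ∧ KZero p q P ∧
      absv (some p) (valN (1 * q) P (jqBar q) - valN (1 * q) Q (jqBar q)) < 1) := by
    ext P
    rw [Finset.mem_erase, hS, Finset.mem_filter, Finset.mem_filter]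
    tauto
  rw [hSe, Finset.sum_filter]

include h hq hpq in
/-- **the cell formula on the discs of `C_0`.** -/
theorem discCF_kZero : DiscCF p q (KZero p q) (jqBar q) (sheetNorm1 p h hq) := by
  classical
  intro f D hf hD Q hQ
  obtain ⟨K₁, hK₁, -, -, hdesc, hratS⟩ := exists_galBase_descentW (q := q)
    (isBase_flatBase (ℓ := (p : ℕ))) ∅ (fun _ : Unit => f) (insert Q D.support)
  obtain ⟨x₁, hx₁⟩ := hdesc ()
  exact discCF_kZero_base p h hq hpq K₁ hK₁.isBase f D hf hD Q hQ x₁ hx₁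
    (hratS Q (Finset.mem_insert_self _ _)) (fun P hP => hratS P (Finset.mem_insert_of_mem hP))

end CF

end Fermat.Agent.MW.OneCell
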