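import Mathlib
import Fermat.Agent.MW.NADIC_helper6_Abs2
import Fermat.Agent.MW.LFASM_helper8_Final

/-!
# Project MW (S17) — [N-ADIC] helper1: `NadicInput` from a cell system

`NadicInput N hN` (helper8's literal of what the place `p = N` must deliver) follows from ONE cell
system with sheet norms `NCellSys2 (1 * N) (some N)` (level written `1 * N`, as in the level-one
model), through `NCellSys2.localPkgAt`; the exceptional set `Bad` is empty.
-/

set_option autoImplicit false
set_option linter.unusedSectionVars false

namespace Fermat.Agent.MW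

open AlgebraicCurve ModularCurve

/-- a cell system can be transported along an equality of levels. -/
theorem NCellSys2.nonempty_cast {N N' : ℕ} [NeZero N] [NeZero N'] (h : N = N') {v : Pl}
    (S : NCellSys2 N v) : Nonempty (NCellSys2 N' v) := by
  subst h
  exact ⟨S⟩

/-- **`NadicInput` from a cell system at the level `N`.** -/
theorem nadicInput_of_cellSys (N : ℕ) [NeZero N] (hN : N.Prime)
    (S : NCellSys2 N (some ⟨N, hN⟩)) : NadicInput N hN := by
  intro 𝔡 _
  refine ⟨∅, Finset.notMem_empty _, fun Zp _ _ hK _ => ?_⟩
  exact ⟨S.localPkgAt 𝔡 Zp (fun P hP => hK P (Finsupp.mem_support_iff.mpr hP))⟩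

/-- **`NadicInput` from a cell system at the level `1 * N`.** -/
theorem nadicInput_of_cellSys_one_mul (N : ℕ) [NeZero N] [NeZero (1 * N)] (hN : N.Prime)
    (S : NCellSys2 (1 * N) (some ⟨N, hN⟩)) : NadicInput N hN := by
  obtain ⟨S'⟩ := S.nonempty_cast (one_mul N)
  exact nadicInput_of_cellSys N hN S'

end Fermat.Agent.MW
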