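import Mathlib

/-!
# Project MW (S17) — [N-ADIC] helper9, [GLOB]: the combinatorial and arithmetic lemmas

* `sum_cells_le` : the sums of a nonnegative weight over disjoint cells are bounded by the total sum;
* `glob_arith` : from `Δ = k_β m_β + s_β` at the nodes, `|s_β| ≤ m_β D_β`, `|Σ k_β| ≤ D₁`,
  `Σ D_β ≤ D₂` and one node of thickness `≤ c`: `|Δ| ≤ c (D₁ + D₂)`.
-/

set_option autoImplicit false

namespace Fermat.Agent.MW.NAdic

open Classical in
/-- sums over disjoint cells. -/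
theorem sum_cells_le {α ι : Type*} (T : Finset α) (w : α → ℤ) (hw : ∀ a, 0 ≤ w a)
    (S : Finset ι) (p : ι → α → Prop) (p' : α → Prop)
    (h1 : ∀ a ∈ T, ∀ i ∈ S, ∀ i' ∈ S, p i a → p i' a → i = i')
    (h2 : ∀ a ∈ T, ∀ i ∈ S, p i a → ¬ p' a) :
    (∑ i ∈ S, ∑ a ∈ T.filter (p i), w a) + ∑ a ∈ T.filter p', w a ≤ ∑ a ∈ T, w a := by
  have e1 : ∀ i ∈ S, ∑ a ∈ T.filter (p i), w a = ∑ a ∈ T, (if p i a then w a else 0) :=
    fun i _ => Finset.sum_filter _ _
  rw [Finset.sum_congr rfl e1, Finset.sum_comm, Finset.sum_filter, ← Finset.sum_add_distrib]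
  refine Finset.sum_le_sum fun a ha => ?_
  have hcard : (S.filter (fun i => p i a)).card ≤ 1 := by
    rw [Finset.card_le_one]
    intro i hi i' hi'
    rw [Finset.mem_filter] at hi hi'
    exact h1 a ha i hi.1 i' hi'.1 hi.2 hi'.2
  have e2 : ∑ i ∈ S, (if p i a then w a else 0) = (S.filter (fun i => p i a)).card • w a := by
    rw [← Finset.sum_filter, Finset.sum_const]
  rw [e2]
  by_cases hp' : p' a
  · have h0 : S.filter (fun i => p i a) = ∅ := by
      rw [Finset.filter_eq_empty_iff]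
      intro i hi hpi
      exact h2 a ha i hi hpi hp'
    rw [h0, if_pos hp']
    simp
  · rw [if_neg hp', add_zero]
    have := hw a
    rcases Nat.le_one_iff_eq_zero_or_eq_one.mp hcard with h | h <;> rw [h] <;> simp [this]

open Classical in
/-- the signed version of `sum_cells_le`. -/
theorem abs_sum_cells_le {α ι : Type*} (T : Finset α) (o : α → ℤ)
    (S : Finset ι) (p : ι → α → Prop) (p' : α → Prop)
    (h1 : ∀ a ∈ T, ∀ i ∈ S, ∀ i' ∈ S, p i a → p i' a → i = i')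
    (h2 : ∀ a ∈ T, ∀ i ∈ S, p i a → ¬ p' a) :
    |(∑ i ∈ S, ∑ a ∈ T.filter (p i), o a) + ∑ a ∈ T.filter p', o a| ≤ ∑ a ∈ T, |o a| := by
  refine le_trans ?_ (sum_cells_le T (fun a => |o a|) (fun a => abs_nonneg _) S p p' h1 h2)
  refine (abs_add_le _ _).trans (add_le_add ?_ (Finset.abs_sum_le_sum_abs _ _))
  exact (Finset.abs_sum_le_sum_abs _ _).trans
    (Finset.sum_le_sum fun i _ => Finset.abs_sum_le_sum_abs _ _)

/-- **the arithmetic of the slopes.** -/
theorem glob_arith {ι : Type*} (N : Finset ι) (β₀ : ι) (hβ₀ : β₀ ∈ N) (k m s D : ι → ℤ)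
    (Δ c D₁ D₂ : ℤ) (hm : ∀ β ∈ N, 1 ≤ m β) (hm₀ : m β₀ ≤ c)
    (hΔ : ∀ β ∈ N, Δ = k β * m β + s β) (hs : ∀ β ∈ N, |s β| ≤ m β * D β)
    (hD : ∀ β ∈ N, 0 ≤ D β) (hk : |∑ β ∈ N, k β| ≤ D₁) (hDsum : ∑ β ∈ N, D β ≤ D₂) :
    |Δ| ≤ c * (D₁ + D₂) := by
  have hD₁ : 0 ≤ D₁ := (abs_nonneg _).trans hk
  have hD₂ : 0 ≤ D₂ := (Finset.sum_nonneg hD).trans hDsum
  have hc : 1 ≤ c := (hm β₀ hβ₀).trans hm₀
  have hk1 := (abs_le.mp hk).1
  have hk2 := (abs_le.mp hk).2
  by_contra hcon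
  rw [not_le] at hcon
  rcases le_or_gt 0 Δ with hpos | hneg
  · rw [abs_of_nonneg hpos] at hcon
    -- every `k β + D β > 0`, and `k β₀ + D β₀ > D₁ + D₂`
    have h1 : ∀ β ∈ N, 0 ≤ k β + D β := by
      intro β hβ
      have h2 := (abs_le.mp (hs β hβ)).2
      have h3 : Δ ≤ (k β + D β) * m β := by rw [hΔ β hβ]; nlinarith
      have h4 : 0 < (k β + D β) * m β := by nlinarith
      have h5 := hm β hβ
      by_contra h6
      rw [not_le] at h6
      nlinarith
    have h2 : D₁ + D₂ < k β₀ + D β₀ := by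
      have h3 := (abs_le.mp (hs β₀ hβ₀)).2
      have h4 : Δ ≤ (k β₀ + D β₀) * m β₀ := by rw [hΔ β₀ hβ₀]; nlinarith
      have h5 := hm β₀ hβ₀
      by_contra h6
      rw [not_lt] at h6
      have h7 : (k β₀ + D β₀) * m β₀ ≤ (D₁ + D₂) * c := by
        have := h1 β₀ hβ₀
        calc (k β₀ + D β₀) * m β₀ ≤ (D₁ + D₂) * m β₀ :=
              mul_le_mul_of_nonneg_right h6 (by linarith)
          _ ≤ (D₁ + D₂) * c := mul_le_mul_of_nonneg_left hm₀ (by linarith)
      nlinarith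
    have h3 : k β₀ + D β₀ ≤ ∑ β ∈ N, (k β + D β) :=
      Finset.single_le_sum (f := fun β => k β + D β) h1 hβ₀
    rw [Finset.sum_add_distrib] at h3
    linarith
  · rw [abs_of_neg hneg] at hcon
    have h1 : ∀ β ∈ N, k β - D β ≤ 0 := by
      intro β hβ
      have h2 := (abs_le.mp (hs β hβ)).1
      have h3 : (k β - D β) * m β ≤ Δ := by rw [hΔ β hβ]; nlinarith
      have h5 := hm β hβ
      by_contra h6
      rw [not_le] at h6
      nlinarith
    have h2 : k β₀ - D β₀ < -(D₁ + D₂) := by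
      have h3 := (abs_le.mp (hs β₀ hβ₀)).1
      have h4 : (k β₀ - D β₀) * m β₀ ≤ Δ := by rw [hΔ β₀ hβ₀]; nlinarith
      have h5 := hm β₀ hβ₀
      by_contra h6
      rw [not_lt] at h6
      have h7 : -(D₁ + D₂) * c ≤ (k β₀ - D β₀) * m β₀ := by
        have := h1 β₀ hβ₀
        have h8 : 0 ≤ -(k β₀ - D β₀) := by linarith
        have h9 : -(k β₀ - D β₀) * m β₀ ≤ (D₁ + D₂) * c := by
          calc -(k β₀ - D β₀) * m β₀ ≤ (D₁ + D₂) * m β₀ :=
                mul_le_mul_of_nonneg_right (by linarith) (by linarith)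
            _ ≤ (D₁ + D₂) * c := mul_le_mul_of_nonneg_left hm₀ (by linarith)
        linarith
      nlinarith
    have h3 : ∑ β ∈ N, (k β - D β) ≤ k β₀ - D β₀ := by
      have := Finset.single_le_sum (f := fun β => -(k β - D β))
        (fun β hβ => by have := h1 β hβ; linarith) hβ₀
      rw [Finset.sum_neg_distrib] at this
      linarith
    rw [Finset.sum_sub_distrib] at h3
    linarith

end Fermat.Agent.MW.NAdic
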