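import Mathlib
import Fermat.Agent.MW.NADIC_helper7_ResDeg

/-!
# Project MW — [N-ADIC] helper9: powers and finite products for `resOrd`, `resOrdInf`
-/

set_option autoImplicit false
set_option linter.unusedSectionVars false

open Polynomial

namespace Fermat.Agent.MW

variable {R : Type*} [CommRing R] [IsDomain R] [IsDiscreteValuationRing R]
  {E : Type*} [Field E] [Algebra R E]

namespace ResDegHyp

variable {W : ValuationSubring E} {J : E} {π : R} (H : ResDegHyp W J π)

local notation "k" => IsLocalRing.ResidueField R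

theorem resOrd_pow {x : E} (hx : W.valuation x = 1) (β : k) (n : ℕ) :
    H.resOrd (x ^ n) β = n * H.resOrd x β := by
  induction n with
  | zero => simp [H.resOrd_one]
  | succ n ih =>
    have hxn : W.valuation (x ^ n) = 1 := by rw [map_pow, hx, one_pow]
    rw [pow_succ, H.resOrd_mul hxn hx, ih]
    push_cast
    ring

theorem resOrd_zpow {x : E} (hx : W.valuation x = 1) (β : k) (n : ℤ) :
    H.resOrd (x ^ n) β = n * H.resOrd x β := by
  obtain ⟨m, rfl | rfl⟩ := n.eq_nat_or_neg
  · rw [zpow_natCast, H.resOrd_pow hx]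
  · have hxm : W.valuation (x ^ m) = 1 := by rw [map_pow, hx, one_pow]
    rw [zpow_neg, zpow_natCast, H.resOrd_inv hxm, H.resOrd_pow hx]
    ring

theorem valuation_zpow_eq_one {x : E} (hx : W.valuation x = 1) (n : ℤ) :
    W.valuation (x ^ n) = 1 := by
  rw [map_zpow₀, hx, one_zpow]

theorem valuation_prod_zpow_eq_one {ι : Type*} (s : Finset ι) (g : ι → E) (e : ι → ℤ)
    (hg : ∀ i ∈ s, W.valuation (g i) = 1) : W.valuation (∏ i ∈ s, g i ^ e i) = 1 := by
  rw [map_prod]
  exact Finset.prod_eq_one fun i hi => valuation_zpow_eq_one (hg i hi) (e i)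

theorem resOrd_prod_zpow {ι : Type*} (s : Finset ι) (g : ι → E) (e : ι → ℤ)
    (hg : ∀ i ∈ s, W.valuation (g i) = 1) (β : k) :
    H.resOrd (∏ i ∈ s, g i ^ e i) β = ∑ i ∈ s, e i * H.resOrd (g i) β := by
  classical
  induction s using Finset.induction_on with
  | empty => simp [H.resOrd_one]
  | insert a s ha ih =>
    have hg' : ∀ i ∈ s, W.valuation (g i) = 1 := fun i hi => hg i (Finset.mem_insert_of_mem hi)
    rw [Finset.prod_insert ha, Finset.sum_insert ha,
      H.resOrd_mul (valuation_zpow_eq_one (hg a (Finset.mem_insert_self a s)) (e a))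
        (valuation_prod_zpow_eq_one s g e hg'),
      H.resOrd_zpow (hg a (Finset.mem_insert_self a s)), ih hg']

theorem resOrdInf_pow {x : E} (hx : W.valuation x = 1) (n : ℕ) :
    H.resOrdInf (x ^ n) = n * H.resOrdInf x := by
  induction n with
  | zero => simp [H.resOrdInf_one]
  | succ n ih =>
    have hxn : W.valuation (x ^ n) = 1 := by rw [map_pow, hx, one_pow]
    rw [pow_succ, H.resOrdInf_mul hxn hx, ih]
    push_cast
    ring

theorem resOrdInf_zpow {x : E} (hx : W.valuation x = 1) (n : ℤ) :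
    H.resOrdInf (x ^ n) = n * H.resOrdInf x := by
  obtain ⟨m, rfl | rfl⟩ := n.eq_nat_or_neg
  · rw [zpow_natCast, H.resOrdInf_pow hx]
  · have hxm : W.valuation (x ^ m) = 1 := by rw [map_pow, hx, one_pow]
    rw [zpow_neg, zpow_natCast, H.resOrdInf_inv hxm, H.resOrdInf_pow hx]
    ring

include H in
theorem valuation_J_sub (ζ : R) : W.valuation (J - algebraMap R E ζ) = 1 := by
  have hred : red (X - C ζ : R[X]) = X - C (IsLocalRing.residue R ζ) := by
    simp [red]
  have hnd : ¬ C π ∣ (X - C ζ : R[X]) := by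
    rw [H.C_dvd_iff_red, hred]
    exact Polynomial.X_sub_C_ne_zero _
  have hJ : aeval J (X - C ζ : R[X]) = J - algebraMap R E ζ := by
    rw [map_sub, aeval_X, aeval_C]
  rw [← hJ]
  exact H.valuation_aeval_eq_one hnd

/-- the residue order of `J - ζ` at `β`. -/
theorem resOrd_J_sub (ζ : R) (β : k) :
    (IsLocalRing.residue R ζ = β → H.resOrd (J - algebraMap R E ζ) β = 1) ∧
      (IsLocalRing.residue R ζ ≠ β → H.resOrd (J - algebraMap R E ζ) β = 0) := by
  classical
  have hred : red (X - C ζ : R[X]) = X - C (IsLocalRing.residue R ζ) := by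
    simp [red]
  have hnd : ¬ C π ∣ (X - C ζ : R[X]) := by
    rw [H.C_dvd_iff_red, hred]
    exact Polynomial.X_sub_C_ne_zero _
  have hJ : aeval J (X - C ζ : R[X]) = J - algebraMap R E ζ := by
    rw [map_sub, aeval_X, aeval_C]
  rw [← hJ, H.resOrd_aeval hnd, hred]
  constructor
  · intro hβ
    rw [hβ, Polynomial.rootMultiplicity_X_sub_C_self]
    rfl
  · intro hβ
    rw [Polynomial.rootMultiplicity_X_sub_C, if_neg (Ne.symm hβ)]
    rfl

end ResDegHyp

end Fermat.Agent.MW
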