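import Mathlib
import Fermat.Agent.MW.NADIC_helper6_Node
import Fermat.Agent.MW.NADIC_helper6_Hyp
import Fermat.Agent.MW.NADIC_helper9_Same
import Fermat.Agent.MW.NADIC_helper4_ResInv
import Fermat.Agent.MW.NADIC_helper9_ResPow
import Fermat.Agent.MW.NADIC_helper9_GlobArith

/-!
# Project MW (S17) — [N-ADIC] helper9, [GLOB]: the global bound `|a_0 - a_∞| ≤ 2 c Σ |ord_P f|`

For a level-one two-sheeted model (`E_M = K_M = K₁(t)`, `t = j_M`) with node unit `U`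
(`Δ(τ)/Δ(qτ)`): the two Gauss valuations `a_∞`, `a_0` of a function `f` on the sheets `C_∞`, `C_0`
differ by at most `2 c Σ_P |ord_P f|`.  Proof: the residue divisor of `f / π^{a_∞}` on the line
`C_∞ ≅ ℙ¹_k` has degree `0` (helper7's `exists_sum_resOrd`); its order at a smooth point is the sum
of the orders of `f` on the cell, at a node it is that sum plus the slope `k` of `f` on the annulus,
and `a_0 = a_∞ + k m + Σ ord_P f · ν_P`.
-/

set_option autoImplicit false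
set_option linter.unusedSectionVars false
set_option linter.style.haveILetI false

open AlgebraicCurve IsLocalRing Polynomial

namespace Fermat.Agent.MW.NAdic

open Fermat.Agent.SS Fermat.Agent.JA Fermat.Agent.FF Fermat.Agent.MW

section Model

attribute [local instance] locAlgebra

variable {R : Type*} [CommRing R] [IsDomain R] [IsDiscreteValuationRing R] [CharZero R]
  {K₁ : Type*} [Field K₁] [Algebra R K₁] [IsFractionRing R K₁]
  {KM : Type*} [Field KM] [Algebra K₁ KM] [Algebra R KM] [IsScalarTower R K₁ KM]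
  {EM : Type*} [Field EM] [Algebra KM EM] [Algebra K₁ EM] [IsScalarTower K₁ KM EM] [Algebra R EM]
  [IsScalarTower R KM EM]
  {KN : Type*} [Field KN] [Algebra K₁ KN] [Algebra R KN] [IsScalarTower R K₁ KN]
  {EN : Type*} [Field EN] [Algebra KN EN] [Algebra K₁ EN] [IsScalarTower K₁ KN EN] [Algebra R EN]
  [IsScalarTower R KN EN] [FiniteDimensional KN EN]
  {π : R} {q n : ℕ} {t : KM} {jM : EM} {j : KN} {A B : EM →+* EN}
  {VM : ValuationSubring EM} {Winf W0 : ValuationSubring EN}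

/-! ### (0) preliminaries -/

/-- the coordinate of the sheet `C_∞` is `j`. -/
theorem SSModel.A_t_eq (h : SSModel K₁ π q n (∅ : Finset R) t jM j A B VM Winf W0)
    (htj : algebraMap KM EM t = jM) : A (algebraMap KM EM t) = algebraMap KN EN j := by
  rw [htj, h.A_j]

/-- the elements of the chart `j` are polynomials in `J = A t` modulo `𝔪_{W_∞}`. -/
theorem SSModel.det_inf (h : SSModel K₁ π q n (∅ : Finset R) t jM j A B VM Winf W0)
    (htj : algebraMap KM EM t = jM) (hsurj : Function.Surjective (algebraMap KM EM)) :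
    ∀ b ∈ chartOne R EN j, ∃ g : R[X],
      Winf.valuation (b - aeval (A (algebraMap KM EM t)) g) < 1 := by
  intro b hb
  have H := SSModel.resDegHyp_inf h hsurj
  rw [← chartOne_algebraMap_eq (R := R) (E := EN) j, mem_chartOne_iff, ← SSModel.A_t_eq h htj] at hb
  exact H.exists_aeval_sub_lt_one hb

/-! ### values of the coordinate at the places of a cell -/

/-- at a rational place centred at a closed point of a sheet where the coordinate takes the value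
`ζ`, the coordinate has a value in `R` congruent to `ζ`. -/
theorem SheetPt.exists_value_coord {W : ValuationSubring EN} {J : EN} {H : ResDegHyp W J π}
    [IsScalarTower R K₁ EN] {C : Subalgebra R EN} [IsFractionRing ↥C EN]
    {𝔪 : Ideal ↥C} [h𝔪 : 𝔪.IsMaximal] {ζ : R}
    (hpt : SheetPt (h𝔪 := h𝔪.isPrime) H C 𝔪 ζ) (hπ : Irreducible π)
    (hπ𝔪 : algebraMap R ↥C π ∈ 𝔪) {P : Place K₁ EN} (hrat : IsRationalPlace P)
    (hc : CentredAt 𝔪 P) :
    ∃ r : R, HasValueAt P J (algebraMap R K₁ r) ∧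
      IsLocalRing.residue R r = IsLocalRing.residue R ζ := by
  haveI := h𝔪.isPrime
  obtain ⟨r, hv, hiff⟩ := exists_value_of_centredAt P hrat C hπ 𝔪 hπ𝔪 hc
    (locMax_subset_locRing hpt.val)
  have hr : r ∈ maximalIdeal R := hiff.mp hpt.val
  refine ⟨r + ζ, ?_, ?_⟩
  · have h1 : HasValueAt P (algebraMap R EN ζ) (algebraMap R K₁ ζ) := by
      rw [IsScalarTower.algebraMap_apply R K₁ EN]
      exact HasValueAt.algebraMap' P _
    have h2 := hv.add h1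
    rw [sub_add_cancel, ← map_add] at h2
    exact h2
  · rw [map_add, (IsLocalRing.residue_eq_zero_iff r).mpr hr, zero_add]

/-! ### (1a) the residue order at a smooth point of `C_∞` -/

open Classical in
/-- **the residue order at a closed point of the chart `j` lying only on `C_∞`** is the sum of the
orders of `f` on the cell. -/
theorem SSModel.resOrd_smooth [IsAlgClosed (IsLocalRing.ResidueField R)] [IsScalarTower R K₁ EN]
    (h : SSModel K₁ π q n (∅ : Finset R) t jM j A B VM Winf W0) (hπ : Irreducible π)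
    (hsurj : Function.Surjective (algebraMap KM EM))
    (𝔪 : Ideal ↥(chartOne R EN j)) [h𝔪 : 𝔪.IsMaximal] {ζ : R}
    (hpt : SheetPt (h𝔪 := h𝔪.isPrime) (SSModel.resDegHyp_inf h hsurj) (chartOne R EN j) 𝔪 ζ)
    (hnle : ¬ sheetIdeal j W0 h.two.chart_le_zero ≤ 𝔪)
    {f : EN} (hf : f ≠ 0) (T : Finset (Place K₁ EN)) (hrat : ∀ P ∈ T, IsRationalPlace P)
    (hfT : ∀ P : Place K₁ EN, P.ord f ≠ 0 → P ∈ T)
    (a : ℤ) (hfa : f * (algebraMap R EN π ^ a)⁻¹ ∈ Winf)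
    (hfa' : (f * (algebraMap R EN π ^ a)⁻¹)⁻¹ ∈ Winf) :
    (SSModel.resDegHyp_inf h hsurj).resOrd (f * (algebraMap R EN π ^ a)⁻¹)
        (IsLocalRing.residue R ζ) =
      ∑ P ∈ T.filter (fun P => CentredAt 𝔪 P), P.ord f := by
  haveI h𝔪p : 𝔪.IsPrime := h𝔪.isPrime
  haveI : IsFractionRing ↥(chartOne R EN j) EN := isFractionRing_chartOne (K₁ := K₁) j h.j_adjoin
  set H := SSModel.resDegHyp_inf h hsurj with hH
  set J := A (algebraMap KM EM t) with hJ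
  have hle : sheetIdeal j Winf h.two.chart_le_inf ≤ 𝔪 :=
    (sheet_le_iff (B := chartOne R EN j) (𝔪 := 𝔪) h.two.chart_le_inf
      (mem_sheetIdeal_iff j Winf h.two.chart_le_inf)).mpr hpt.sheet
  have hπ𝔪 : algebraMap R ↥(chartOne R EN j) π ∈ 𝔪 :=
    hle (IsTwoSheet.pi_mem_inf (K₁ := K₁) h.two hπ)
  set T' := T.filter (fun P => CentredAt 𝔪 P) with hT'
  have hT'c : ∀ P ∈ T', CentredAt 𝔪 P := fun P hP => (Finset.mem_filter.mp hP).2
  have hT'r : ∀ P ∈ T', IsRationalPlace P := fun P hP => hrat P (Finset.mem_filter.mp hP).1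
  have hval : ∀ P : Place K₁ EN, ∃ r : R, P ∈ T' →
      (HasValueAt P J (algebraMap R K₁ r) ∧
        IsLocalRing.residue R r = IsLocalRing.residue R ζ) := by
    intro P
    by_cases hP : P ∈ T'
    · obtain ⟨r, hr⟩ := SheetPt.exists_value_coord hpt hπ hπ𝔪 (hT'r P hP) (hT'c P hP)
      exact ⟨r, fun _ => hr⟩
    · exact ⟨0, fun hP' => absurd hP' hP⟩
  choose ζP hζP using hval
  obtain ⟨v, hv, hv', hfac⟩ := SSModel.fac_inf h hπ 𝔪 hle hnle hf T' hT'c hT'r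
    (fun P hc hne => Finset.mem_filter.mpr ⟨hfT P hne, hc⟩) ζP (fun P hP => (hζP P hP).1) a hfa hfa'
  have hπ0 : algebraMap R EN π ≠ 0 := algebraMap_pi_ne_zero (K₁ := K₁) (K := KN) hπ
  have hx : f * (algebraMap R EN π ^ a)⁻¹ =
      v * ∏ P ∈ T', (J - algebraMap R EN (ζP P)) ^ (P.ord f) := by
    have hπa : algebraMap R EN π ^ a ≠ 0 := zpow_ne_zero _ hπ0
    have e1 : ∀ P : Place K₁ EN, algebraMap K₁ EN (algebraMap R K₁ (ζP P)) =
        algebraMap R EN (ζP P) := fun P => (IsScalarTower.algebraMap_apply R K₁ EN _).symm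
    simp only [e1] at hfac
    rw [eq_comm, ← div_eq_mul_inv, eq_div_iff hπa]
    conv_rhs => rw [hfac]
    ring
  have hv1 : Winf.valuation v = 1 := hpt.valuation_eq_one hv hv'
  have hg1 : ∀ P ∈ T', Winf.valuation (J - algebraMap R EN (ζP P)) = 1 :=
    fun P _ => H.valuation_J_sub (ζP P)
  rw [hx, H.resOrd_mul hv1 (ResDegHyp.valuation_prod_zpow_eq_one T' _ _ hg1),
    hpt.resOrd_eq_zero hv hv', zero_add, H.resOrd_prod_zpow T' _ _ hg1]
  refine Finset.sum_congr rfl fun P hP => ?_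
  rw [(H.resOrd_J_sub (ζP P) _).1 (hζP P hP).2, mul_one]

/-! ### bridge between `Localization.AtPrime 𝔪` and `locRing`, `locMax` -/

section Bridge

variable {R₁ : Type*} [CommRing R₁] {E : Type*} [Field E] [Algebra R₁ E]
  (C : Subalgebra R₁ E) [IsFractionRing ↥C E] (𝔪 : Ideal ↥C) [h𝔪 : 𝔪.IsPrime]

/-- the image in `E` of the maximal ideal of the localisation `C_𝔪` lies in `locMax C 𝔪`. -/
theorem algebraMap_localization_mem_locMax {z : Localization.AtPrime 𝔪}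
    (hz : z ∈ maximalIdeal (Localization.AtPrime 𝔪)) :
    algebraMap (Localization.AtPrime 𝔪) E z ∈ locMax C 𝔪 := by
  obtain ⟨r, s, rfl⟩ := IsLocalization.exists_mk'_eq 𝔪.primeCompl z
  have hr : r ∈ 𝔪 := (IsLocalization.AtPrime.mk'_mem_maximal_iff _ 𝔪 r s).mp hz
  have hs0 : algebraMap ↥C E (s : ↥C) ≠ 0 :=
    (map_ne_zero_iff _ (IsFractionRing.injective ↥C E)).mpr
      (fun h0 => s.2 (by rw [h0]; exact 𝔪.zero_mem))
  refine ⟨r, s, hr, s.2, ?_⟩
  rw [locAlgebra_mk']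
  show algebraMap ↥C E r * (algebraMap ↥C E (s : ↥C))⁻¹ * algebraMap ↥C E (s : ↥C) = _
  rw [mul_assoc, inv_mul_cancel₀ hs0, mul_one]
  rfl

/-- every element of `locMax C 𝔪` comes from the maximal ideal of the localisation. -/
theorem exists_localization_of_mem_locMax {e : E} (he : e ∈ locMax C 𝔪) :
    ∃ z ∈ maximalIdeal (Localization.AtPrime 𝔪), algebraMap (Localization.AtPrime 𝔪) E z = e := by
  obtain ⟨r, s, hr, hs, hrs⟩ := he
  have hs0 : ((s : ↥C) : E) ≠ 0 := by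
    intro h0
    apply hs
    have : s = 0 := Subtype.ext h0
    rw [this]
    exact 𝔪.zero_mem
  refine ⟨IsLocalization.mk' (Localization.AtPrime 𝔪) r (⟨s, hs⟩ : 𝔪.primeCompl),
    (IsLocalization.AtPrime.mk'_mem_maximal_iff _ 𝔪 r _).mpr hr, ?_⟩
  rw [locAlgebra_mk']
  show (r : E) * ((s : ↥C) : E)⁻¹ = e
  rw [← hrs, mul_assoc, mul_inv_cancel₀ hs0, mul_one]

variable {W : ValuationSubring E} (hCW : ∀ b ∈ C, b ∈ W) {𝔭 : Ideal ↥C} [h𝔭p : 𝔭.IsPrime]
  (h𝔭 : ∀ b : ↥C, b ∈ 𝔭 ↔ W.valuation (b : E) < 1) (hle : 𝔭 ≤ 𝔪)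

include hCW h𝔭 hle in
/-- the valuation of the image in `E` of an element of `C_𝔪`, along a sheet through `𝔪`. -/
theorem valuation_algebraMap_localization (z : Localization.AtPrime 𝔪) :
    (z ∈ 𝔭.map (algebraMap ↥C (Localization.AtPrime 𝔪)) →
      W.valuation (algebraMap (Localization.AtPrime 𝔪) E z) < 1) ∧
    (z ∉ 𝔭.map (algebraMap ↥C (Localization.AtPrime 𝔪)) →
      W.valuation (algebraMap (Localization.AtPrime 𝔪) E z) = 1) := by
  obtain ⟨r, s, rfl⟩ := IsLocalization.exists_mk'_eq 𝔪.primeCompl z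
  have hs𝔭 : (s : ↥C) ∉ 𝔭 := fun hs => s.2 (hle hs)
  have hs1 : W.valuation ((s : ↥C) : E) = 1 := valuation_eq_one_of_notMem hCW h𝔭 hs𝔭
  have hval : W.valuation (algebraMap (Localization.AtPrime 𝔪) E
      (IsLocalization.mk' (Localization.AtPrime 𝔪) r s)) = W.valuation (r : E) := by
    rw [locAlgebra_mk']
    show W.valuation ((r : E) * ((s : ↥C) : E)⁻¹) = _
    rw [map_mul, map_inv₀, hs1, inv_one, mul_one]
  have hiff : IsLocalization.mk' (Localization.AtPrime 𝔪) r s ∈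
      𝔭.map (algebraMap ↥C (Localization.AtPrime 𝔪)) ↔ r ∈ 𝔭 := by
    rw [IsLocalization.mk'_mem_map_algebraMap_iff 𝔪.primeCompl]
    constructor
    · rintro ⟨s', hs', hmem⟩
      rcases h𝔭p.mem_or_mem hmem with h1 | h1
      · exact absurd (hle h1) hs'
      · exact h1
    · intro hr
      exact ⟨1, Submonoid.one_mem _, by rw [one_mul]; exact hr⟩
  rw [hval, hiff]
  refine ⟨fun hr => (h𝔭 r).mp hr, fun hr => valuation_eq_one_of_notMem hCW h𝔭 hr⟩

end Bridge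

/-! ### (1b) the residue order at a node -/

open Classical in
/-- **the residue order at a node** is the slope `k` plus the sum of the orders of `f` on the cell,
and `a_0 - a_∞ = k m + s` with `|s| ≤ m Σ |ord_P f|`, `1 ≤ m ≤ c`. -/
theorem SSModel.resOrd_node [IsAlgClosed (IsLocalRing.ResidueField R)] [IsScalarTower R K₁ EN]
    (h : SSModel K₁ π q n (∅ : Finset R) t jM j A B VM Winf W0) (hπ : Irreducible π)
    (htj : algebraMap KM EM t = jM) (hsurj : Function.Surjective (algebraMap KM EM))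
    {U : EN} {c : ℕ} (hU : NodeUnit K₁ π (A jM) U c Winf W0)
    (𝔪 : Ideal ↥(chartOne R EN j)) [h𝔪 : 𝔪.IsMaximal] {ζ : R}
    (hpt : SheetPt (h𝔪 := h𝔪.isPrime) (SSModel.resDegHyp_inf h hsurj) (chartOne R EN j) 𝔪 ζ)
    (h0 : sheetIdeal j W0 h.two.chart_le_zero ≤ 𝔪)
    {f : EN} (hf : f ≠ 0) (T : Finset (Place K₁ EN)) (hrat : ∀ P ∈ T, IsRationalPlace P)
    (hfT : ∀ P : Place K₁ EN, P.ord f ≠ 0 → P ∈ T)
    (ainf a0 : ℤ) (hfinf : f * (algebraMap R EN π ^ ainf)⁻¹ ∈ Winf)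
    (hfinf' : (f * (algebraMap R EN π ^ ainf)⁻¹)⁻¹ ∈ Winf)
    (hf0 : f * (algebraMap R EN π ^ a0)⁻¹ ∈ W0)
    (hf0' : (f * (algebraMap R EN π ^ a0)⁻¹)⁻¹ ∈ W0) :
    ∃ kk mm ss : ℤ, 1 ≤ mm ∧ mm ≤ c ∧ a0 - ainf = kk * mm + ss ∧
      |ss| ≤ mm * ∑ P ∈ T.filter (fun P => CentredAt 𝔪 P), |P.ord f| ∧
      (SSModel.resDegHyp_inf h hsurj).resOrd (f * (algebraMap R EN π ^ ainf)⁻¹)
          (IsLocalRing.residue R ζ) =
        kk + ∑ P ∈ T.filter (fun P => CentredAt 𝔪 P), P.ord f := by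
  haveI h𝔪p : 𝔪.IsPrime := h𝔪.isPrime
  haveI : IsFractionRing ↥(chartOne R EN j) EN := isFractionRing_chartOne (K₁ := K₁) j h.j_adjoin
  set H := SSModel.resDegHyp_inf h hsurj with hH
  set J := A (algebraMap KM EM t) with hJ
  have hinf : sheetIdeal j Winf h.two.chart_le_inf ≤ 𝔪 :=
    (sheet_le_iff (B := chartOne R EN j) (𝔪 := 𝔪) h.two.chart_le_inf
      (mem_sheetIdeal_iff j Winf h.two.chart_le_inf)).mpr hpt.sheet
  have hπ𝔪 : algebraMap R ↥(chartOne R EN j) π ∈ 𝔪 :=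
    hinf (IsTwoSheet.pi_mem_inf (K₁ := K₁) h.two hπ)
  have hk0 : W0.valuation (A (algebraMap KM EM t) - B (algebraMap KM EM t) ^ q) < 1 := by
    rw [htj]; exact h.kron_j_zero
  obtain ⟨X, m, hX, hmc, -⟩ := SSModel.exists_isNodeCoord h hπ hk0 hU 𝔪 hinf h0
  have hm1 := hX.one_le
  have hXloc := hX.mem_locRing
  set T' := T.filter (fun P => CentredAt 𝔪 P) with hT'
  have hT'c : ∀ P ∈ T', CentredAt 𝔪 P := fun P hP => (Finset.mem_filter.mp hP).2
  have hT'r : ∀ P ∈ T', IsRationalPlace P := fun P hP => hrat P (Finset.mem_filter.mp hP).1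
  have hval : ∀ P : Place K₁ EN, ∃ r : R, P ∈ T' → HasValueAt P X (algebraMap R K₁ r) := by
    intro P
    by_cases hP : P ∈ T'
    · obtain ⟨r, hr, -⟩ := exists_value_of_centredAt P (hT'r P hP) (chartOne R EN j) hπ 𝔪 hπ𝔪
        (hT'c P hP) hXloc
      exact ⟨r, fun _ => hr⟩
    · exact ⟨0, fun hP' => absurd hP' hP⟩
  choose ξ hξ using hval
  obtain ⟨k, ν, v, hν, hrel, hv, hv', hfac⟩ := SSModel.node_factorisation h hπ 𝔪 hinf h0 hX hf T'
    hT'c hT'r (fun P hc hne => Finset.mem_filter.mpr ⟨hfT P hne, hc⟩) ξ hξ ainf a0 hfinf hfinf'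
    hf0 hf0'
  -- the node coordinate on the sheet `C_∞`
  obtain ⟨x, y, r, hnode, hxy, hr, -, hxX⟩ := hX
  have hCW := h.two.chart_le_inf
  have h𝔭 := mem_sheetIdeal_iff j Winf h.two.chart_le_inf
  have hX1 : Winf.valuation X = 1 := by
    rw [← hxX]
    exact (valuation_algebraMap_localization (chartOne R EN j) 𝔪 hCW h𝔭 hinf x).2 hnode.x_notMem
  have hXmax : X ∈ locMax (chartOne R EN j) 𝔪 := by
    rw [← hxX]
    refine algebraMap_localization_mem_locMax (chartOne R EN j) 𝔪 ?_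
    rw [← Localization.AtPrime.map_eq_maximalIdeal]
    exact Ideal.map_mono h0 hnode.x_mem
  have hgen : ∀ e ∈ locMax (chartOne R EN j) 𝔪, ∃ a ∈ locRing (chartOne R EN j) 𝔪,
      Winf.valuation (e - a * X) < 1 := by
    intro e he
    obtain ⟨z, hz, rfl⟩ := exists_localization_of_mem_locMax (chartOne R EN j) 𝔪 he
    obtain ⟨a', ha'⟩ := hnode.x_gen z hz
    refine ⟨algebraMap (Localization.AtPrime 𝔪) EN a',
      algebraMap_localization_mem_locRing (chartOne R EN j) 𝔪 a', ?_⟩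
    rw [← hxX, ← map_mul, ← map_sub]
    exact (valuation_algebraMap_localization (chartOne R EN j) 𝔪 hCW h𝔭 hinf _).1 ha'
  have hXord : H.resOrd X (IsLocalRing.residue R ζ) = 1 :=
    SheetPt.resOrd_eq_one_of_generates hpt hXmax hX1 hgen
  -- the factors `X - ξ_P`
  have hξlt : ∀ P ∈ T', Winf.valuation (algebraMap R EN (ξ P)) < 1 := by
    intro P hP
    obtain ⟨w, hw, hν0, -⟩ := hν P hP
    rw [hw, map_mul, map_pow, map_mul, map_pow]
    have h1 : Winf.valuation (algebraMap R EN (w : R)) ≤ 1 := by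
      rw [ValuationSubring.valuation_le_one_iff]
      have := H.mem (C (w : R))
      rwa [aeval_C] at this
    have h2 : Winf.valuation (algebraMap R EN π) ^ ν P < 1 :=
      pow_lt_one₀ zero_le H.valuation_pi_lt_one (by omega)
    calc Winf.valuation (algebraMap R EN (w : R)) * Winf.valuation (algebraMap R EN π) ^ ν P
        ≤ 1 * Winf.valuation (algebraMap R EN π) ^ ν P := mul_le_mul_left h1 _
      _ < 1 := by rw [one_mul]; exact h2
  have hg1 : ∀ P ∈ T', Winf.valuation (X - algebraMap R EN (ξ P)) = 1 := by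
    intro P hP
    rw [Valuation.map_sub_eq_of_lt_left _ (by rw [hX1]; exact hξlt P hP), hX1]
  have hgord : ∀ P ∈ T', H.resOrd (X - algebraMap R EN (ξ P)) (IsLocalRing.residue R ζ) = 1 := by
    intro P hP
    rw [H.resOrd_congr (hg1 P hP) hX1 (by
      rw [sub_sub_cancel_left, Valuation.map_neg]
      exact hξlt P hP), hXord]
  have hπ0 : algebraMap R EN π ≠ 0 := algebraMap_pi_ne_zero (K₁ := K₁) (K := KN) hπ
  have hx : f * (algebraMap R EN π ^ ainf)⁻¹ =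
      X ^ k * (v * ∏ P ∈ T', (X - algebraMap R EN (ξ P)) ^ (P.ord f)) := by
    have hπa : algebraMap R EN π ^ ainf ≠ 0 := zpow_ne_zero _ hπ0
    have e1 : ∀ P : Place K₁ EN, algebraMap K₁ EN (algebraMap R K₁ (ξ P)) =
        algebraMap R EN (ξ P) := fun P => (IsScalarTower.algebraMap_apply R K₁ EN _).symm
    simp only [e1] at hfac
    rw [eq_comm, ← div_eq_mul_inv, eq_div_iff hπa]
    conv_rhs => rw [hfac]
    ring
  have hv1 : Winf.valuation v = 1 := hpt.valuation_eq_one hv hv'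
  have hprod1 := ResDegHyp.valuation_prod_zpow_eq_one (W := Winf) T'
    (fun P => X - algebraMap R EN (ξ P)) (fun P => P.ord f) hg1
  have hvp1 : Winf.valuation (v * ∏ P ∈ T', (X - algebraMap R EN (ξ P)) ^ (P.ord f)) = 1 := by
    rw [map_mul, hv1, hprod1, one_mul]
  refine ⟨k, (m : ℤ), ∑ P ∈ T', P.ord f * (ν P : ℤ), by exact_mod_cast hm1, by exact_mod_cast hmc,
    by rw [hrel]; ring, ?_, ?_⟩
  · rw [Finset.mul_sum]
    refine (Finset.abs_sum_le_sum_abs _ _).trans (Finset.sum_le_sum fun P hP => ?_)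
    obtain ⟨w, -, -, hνm⟩ := hν P hP
    rw [abs_mul, mul_comm, Nat.abs_cast]
    exact mul_le_mul_of_nonneg_right (by exact_mod_cast hνm.le) (abs_nonneg _)
  · rw [hx, H.resOrd_mul (ResDegHyp.valuation_zpow_eq_one hX1 k) hvp1, H.resOrd_zpow hX1, hXord,
      H.resOrd_mul hv1 hprod1, hpt.resOrd_eq_zero hv hv', zero_add,
      H.resOrd_prod_zpow T' _ _ hg1, mul_one]
    congr 1
    refine Finset.sum_congr rfl fun P hP => ?_
    rw [hgord P hP, mul_one]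

/-! ### (2) the residue order at a closed point of the chart `j⁻¹` lying only on `C_∞` -/

open Classical in
/-- **the residue order (for the coordinate `J⁻¹`) at a closed point of the chart `j⁻¹` lying only
on `C_∞`** is the sum of the orders of `f` on the cell. -/
theorem SSModel.resOrd_cusp_smooth [IsAlgClosed (IsLocalRing.ResidueField R)]
    [IsScalarTower R K₁ EN]
    (h : SSModel K₁ π q n (∅ : Finset R) t jM j A B VM Winf W0) (hπ : Irreducible π)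
    (hsurj : Function.Surjective (algebraMap KM EM))
    (hgeo' : GeoHyps K₁ π t⁻¹ EM n (∅ : Finset R)) (h2 : IsTwoSheet π j⁻¹ Winf W0)
    (𝔪 : Ideal ↥(chartOne R EN j⁻¹)) [h𝔪 : 𝔪.IsMaximal] {ζ : R}
    (hpt : SheetPt (h𝔪 := h𝔪.isPrime) (SSModel.resDegHyp_inf h hsurj).inv
      (chartOne R EN j⁻¹) 𝔪 ζ)
    (hnle : ¬ sheetIdeal j⁻¹ W0 h2.chart_le_zero ≤ 𝔪)
    {f : EN} (hf : f ≠ 0) (T : Finset (Place K₁ EN)) (hrat : ∀ P ∈ T, IsRationalPlace P)
    (hfT : ∀ P : Place K₁ EN, P.ord f ≠ 0 → P ∈ T)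
    (a : ℤ) (hfa : f * (algebraMap R EN π ^ a)⁻¹ ∈ Winf)
    (hfa' : (f * (algebraMap R EN π ^ a)⁻¹)⁻¹ ∈ Winf) :
    (SSModel.resDegHyp_inf h hsurj).inv.resOrd (f * (algebraMap R EN π ^ a)⁻¹)
        (IsLocalRing.residue R ζ) =
      ∑ P ∈ T.filter (fun P => CentredAt 𝔪 P), P.ord f := by
  haveI h𝔪p : 𝔪.IsPrime := h𝔪.isPrime
  have hK' := adjoin_inv_eq_top h.j_adjoin
  haveI : IsFractionRing ↥(chartOne R EN j⁻¹) EN := isFractionRing_chartOne (K₁ := K₁) j⁻¹ hK'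
  set H := (SSModel.resDegHyp_inf h hsurj).inv with hH
  have hJi : A (algebraMap KM EM t⁻¹) = (A (algebraMap KM EM t))⁻¹ := by
    rw [map_inv₀, map_inv₀]
  set J' := (A (algebraMap KM EM t))⁻¹ with hJ'
  have hle : sheetIdeal j⁻¹ Winf h2.chart_le_inf ≤ 𝔪 :=
    (sheet_le_iff (B := chartOne R EN j⁻¹) (𝔪 := 𝔪) h2.chart_le_inf
      (mem_sheetIdeal_iff j⁻¹ Winf h2.chart_le_inf)).mpr hpt.sheet
  have hπ𝔪 : algebraMap R ↥(chartOne R EN j⁻¹) π ∈ 𝔪 :=
    hle (IsTwoSheet.pi_mem_inf (K₁ := K₁) h2 hπ)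
  set T' := T.filter (fun P => CentredAt 𝔪 P) with hT'
  have hT'c : ∀ P ∈ T', CentredAt 𝔪 P := fun P hP => (Finset.mem_filter.mp hP).2
  have hT'r : ∀ P ∈ T', IsRationalPlace P := fun P hP => hrat P (Finset.mem_filter.mp hP).1
  have hval : ∀ P : Place K₁ EN, ∃ r : R, P ∈ T' →
      (HasValueAt P J' (algebraMap R K₁ r) ∧
        IsLocalRing.residue R r = IsLocalRing.residue R ζ) := by
    intro P
    by_cases hP : P ∈ T'
    · obtain ⟨r, hr⟩ := SheetPt.exists_value_coord hpt hπ hπ𝔪 (hT'r P hP) (hT'c P hP)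
      exact ⟨r, fun _ => hr⟩
    · exact ⟨0, fun hP' => absurd hP' hP⟩
  choose ζP hζP using hval
  obtain ⟨v, hv, hv', hfac⟩ := SSModel.fac_cusp_inf h hπ hgeo' h2 𝔪 hle hnle
    (by rw [hJi]; exact hpt.reg) hf T' hT'c hT'r
    (fun P hc hne => Finset.mem_filter.mpr ⟨hfT P hne, hc⟩) ζP
    (fun P hP => by rw [hJi]; exact (hζP P hP).1) a hfa hfa'
  have hπ0 : algebraMap R EN π ≠ 0 := algebraMap_pi_ne_zero (K₁ := K₁) (K := KN) hπ
  have hx : f * (algebraMap R EN π ^ a)⁻¹ =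
      v * ∏ P ∈ T', (J' - algebraMap R EN (ζP P)) ^ (P.ord f) := by
    have hπa : algebraMap R EN π ^ a ≠ 0 := zpow_ne_zero _ hπ0
    have e1 : ∀ P : Place K₁ EN, algebraMap K₁ EN (algebraMap R K₁ (ζP P)) =
        algebraMap R EN (ζP P) := fun P => (IsScalarTower.algebraMap_apply R K₁ EN _).symm
    simp only [e1, hJi] at hfac
    rw [eq_comm, ← div_eq_mul_inv, eq_div_iff hπa]
    conv_rhs => rw [hfac]
    ring
  have hv1 : Winf.valuation v = 1 := hpt.valuation_eq_one hv hv'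
  have hg1 : ∀ P ∈ T', Winf.valuation (J' - algebraMap R EN (ζP P)) = 1 :=
    fun P _ => H.valuation_J_sub (ζP P)
  rw [hx, H.resOrd_mul hv1 (ResDegHyp.valuation_prod_zpow_eq_one T' _ _ hg1),
    hpt.resOrd_eq_zero hv hv', zero_add, H.resOrd_prod_zpow T' _ _ hg1]
  refine Finset.sum_congr rfl fun P hP => ?_
  rw [(H.resOrd_J_sub (ζP P) _).1 (hζP P hP).2, mul_one]

/-! ### (2') the centre of the cusp `∞` -/

/-- the elements of the chart `j⁻¹` are polynomials in `J⁻¹` modulo `𝔪_{W_∞}`. -/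
theorem SSModel.det_cusp_inf (h : SSModel K₁ π q n (∅ : Finset R) t jM j A B VM Winf W0)
    (htj : algebraMap KM EM t = jM) (hsurj : Function.Surjective (algebraMap KM EM)) :
    ∀ b ∈ chartOne R EN j⁻¹, ∃ g : R[X],
      Winf.valuation (b - aeval (A (algebraMap KM EM t))⁻¹ g) < 1 := by
  intro b hb
  have H := (SSModel.resDegHyp_inf h hsurj).inv
  have e : (A (algebraMap KM EM t))⁻¹ = algebraMap KN EN j⁻¹ := by
    rw [SSModel.A_t_eq h htj, map_inv₀]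
  rw [← chartOne_algebraMap_eq (R := R) (E := EN) j⁻¹, mem_chartOne_iff, ← e] at hb
  exact H.exists_aeval_sub_lt_one hb

/-- **the centre of the cusp `∞`**: a closed point of the chart `j⁻¹` lying only on `C_∞`, where
`J⁻¹` takes the value `0`. -/
theorem SSModel.exists_cusp_inf_pt [IsScalarTower R K₁ EN]
    (h : SSModel K₁ π q n (∅ : Finset R) t jM j A B VM Winf W0) (hπ : Irreducible π)
    (htj : algebraMap KM EM t = jM) (hsurj : Function.Surjective (algebraMap KM EM))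
    (h2 : IsTwoSheet π j⁻¹ Winf W0)
    {Pinf : Place K₁ EN} (hPrat : IsRationalPlace Pinf) (hPJ : HasValueAt Pinf (A jM)⁻¹ 0)
    (hPφ : HasValueAt Pinf (B jM * ((A jM) ^ q)⁻¹) 1) :
    ∃ (𝔪 : Ideal ↥(chartOne R EN j⁻¹)) (h𝔪 : 𝔪.IsMaximal), CentredAt 𝔪 Pinf ∧
      SheetPt (h𝔪 := h𝔪.isPrime) (SSModel.resDegHyp_inf h hsurj).inv (chartOne R EN j⁻¹) 𝔪 0 ∧
      ¬ sheetIdeal j⁻¹ W0 h2.chart_le_zero ≤ 𝔪 := by
  have hu' := transcendental_inv_of_transcendental h.j_transcendental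
  have hK' := adjoin_inv_eq_top h.j_adjoin
  haveI : IsFractionRing ↥(chartOne R EN j⁻¹) EN := isFractionRing_chartOne (K₁ := K₁) j⁻¹ hK'
  have hj0 : j ≠ 0 := by
    rintro rfl
    exact h.j_transcendental isAlgebraic_zero
  have hJ0 : algebraMap KN EN j ≠ 0 := by rw [Ne, map_eq_zero]; exact hj0
  rcases SSModel.exists_centre h hπ Pinf hPrat with ⟨𝔪, h𝔪, hπ𝔪, hc⟩ | ⟨𝔪, h𝔪, hπ𝔪, hc, hx⟩
  · exfalso
    have hJmem : algebraMap KN EN j ∈ Pinf.toValuationSubring :=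
      hc.1 ⟨algebraMap KN EN j, algebraMap_coord_mem_chartOne j⟩
    rw [h.A_j] at hPJ
    rcases HasValueAt.zero_iff.mp hPJ with h0 | h0
    · exact hJ0 (inv_eq_zero.mp h0)
    · have h1 := PlaceAux.ord_nonneg_of_mem Pinf hJmem
      rw [Place.ord_inv] at h0
      omega
  · haveI h𝔪p : 𝔪.IsPrime := h𝔪.isPrime
    have hnle : ¬ sheetIdeal j⁻¹ W0 h2.chart_le_zero ≤ 𝔪 := by
      intro h0
      have h1 := SSModel.cuspPhi_pow_mem_locMax h hπ h2 𝔪 hx h0
      obtain ⟨r, hr, hiff⟩ := exists_value_of_centredAt Pinf hPrat (chartOne R EN j⁻¹) hπ 𝔪 hπ𝔪 hc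
        (locMax_subset_locRing h1)
      have hr' : r ∈ maximalIdeal R := hiff.mp h1
      have h3 := (hPφ.pow q).unique hr
      rw [one_pow] at h3
      have h4 : r = 1 := by
        apply IsFractionRing.injective R K₁
        rw [← h3, map_one]
      rw [h4] at hr'
      exact (Ideal.ne_top_iff_one _).mp (IsLocalRing.maximalIdeal.isMaximal R).ne_top hr'
    have hle : sheetIdeal j⁻¹ Winf h2.chart_le_inf ≤ 𝔪 :=
      (le_or_le_of_mem (IsTwoSheet.pi_mem_inf (K₁ := K₁) h2 hπ)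
        (IsTwoSheet.pi_mem_zero (K₁ := K₁) h2 hπ) (h2.inf_le_span hπ hu' hK') 𝔪 hπ𝔪).resolve_right
        hnle
    have e : (A (algebraMap KM EM t))⁻¹ = algebraMap KN EN j⁻¹ := by
      rw [SSModel.A_t_eq h htj, map_inv₀]
    refine ⟨𝔪, h𝔪, hc, ⟨SSModel.det_cusp_inf h htj hsurj, ?_, ?_, ?_⟩, hnle⟩
    · exact (sheet_le_iff (B := chartOne R EN j⁻¹) (𝔪 := 𝔪) h2.chart_le_inf
        (mem_sheetIdeal_iff j⁻¹ Winf h2.chart_le_inf)).mp hle
    · rw [e]
      exact le_locRing (algebraMap_coord_mem_chartOne j⁻¹)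
    · rw [map_zero, sub_zero, e]
      exact (coe_mem_locMax_iff (⟨algebraMap KN EN j⁻¹, algebraMap_coord_mem_chartOne j⁻¹⟩ :
        ↥(chartOne R EN j⁻¹))).mpr hx

/-! ### (1) the residue order at any closed point of `C_∞` in the chart `j` -/

open Classical in
/-- **the residue order at a closed point of the chart `j` on `C_∞`**: smooth or node. -/
theorem SSModel.resOrd_pt [IsAlgClosed (IsLocalRing.ResidueField R)] [IsScalarTower R K₁ EN]
    (h : SSModel K₁ π q n (∅ : Finset R) t jM j A B VM Winf W0) (hπ : Irreducible π)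
    (htj : algebraMap KM EM t = jM) (hsurj : Function.Surjective (algebraMap KM EM))
    {U : EN} {c : ℕ} (hU : NodeUnit K₁ π (A jM) U c Winf W0)
    (𝔪 : Ideal ↥(chartOne R EN j)) [h𝔪 : 𝔪.IsMaximal] {ζ : R}
    (hpt : SheetPt (h𝔪 := h𝔪.isPrime) (SSModel.resDegHyp_inf h hsurj) (chartOne R EN j) 𝔪 ζ)
    {f : EN} (hf : f ≠ 0) (T : Finset (Place K₁ EN)) (hrat : ∀ P ∈ T, IsRationalPlace P)
    (hfT : ∀ P : Place K₁ EN, P.ord f ≠ 0 → P ∈ T)
    (ainf a0 : ℤ) (hfinf : f * (algebraMap R EN π ^ ainf)⁻¹ ∈ Winf)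
    (hfinf' : (f * (algebraMap R EN π ^ ainf)⁻¹)⁻¹ ∈ Winf)
    (hf0 : f * (algebraMap R EN π ^ a0)⁻¹ ∈ W0)
    (hf0' : (f * (algebraMap R EN π ^ a0)⁻¹)⁻¹ ∈ W0) :
    ∃ kk : ℤ,
      (SSModel.resDegHyp_inf h hsurj).resOrd (f * (algebraMap R EN π ^ ainf)⁻¹)
          (IsLocalRing.residue R ζ) =
        kk + ∑ P ∈ T.filter (fun P => CentredAt 𝔪 P), P.ord f ∧
      (¬ sheetIdeal j W0 h.two.chart_le_zero ≤ 𝔪 → kk = 0) ∧
      (sheetIdeal j W0 h.two.chart_le_zero ≤ 𝔪 → ∃ mm ss : ℤ, 1 ≤ mm ∧ mm ≤ c ∧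
        a0 - ainf = kk * mm + ss ∧
        |ss| ≤ mm * ∑ P ∈ T.filter (fun P => CentredAt 𝔪 P), |P.ord f|) := by
  by_cases h0 : sheetIdeal j W0 h.two.chart_le_zero ≤ 𝔪
  · obtain ⟨kk, mm, ss, h1, h2, h3, h4, h5⟩ := SSModel.resOrd_node h hπ htj hsurj hU 𝔪 hpt h0 hf T
      hrat hfT ainf a0 hfinf hfinf' hf0 hf0'
    exact ⟨kk, h5, fun hn => absurd h0 hn, fun _ => ⟨mm, ss, h1, h2, h3, h4⟩⟩
  · refine ⟨0, ?_, fun _ => rfl, fun hn => absurd hn h0⟩
    rw [zero_add]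
    exact SSModel.resOrd_smooth h hπ hsurj 𝔪 hpt h0 hf T hrat hfT ainf hfinf hfinf'

/-! ### disjointness of the cells -/

/-- a closed point of a sheet determines the residue of the coordinate. -/
theorem SheetPt.residue_eq {W : ValuationSubring EN} {J : EN} {H : ResDegHyp W J π}
    {C : Subalgebra R EN} {𝔪 : Ideal ↥C} [h𝔪 : 𝔪.IsPrime] {ζ ζ' : R}
    (hpt : SheetPt H C 𝔪 ζ) (hpt' : SheetPt H C 𝔪 ζ') :
    IsLocalRing.residue R ζ = IsLocalRing.residue R ζ' := by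
  have h1 : algebraMap R EN (ζ' - ζ) ∈ locMax C 𝔪 := by
    have e : algebraMap R EN (ζ' - ζ) = (J - algebraMap R EN ζ) - (J - algebraMap R EN ζ') := by
      rw [map_sub]; ring
    rw [e]
    exact sub_mem_locMax hpt.val hpt'.val
  have h2 := (hpt.algebraMap_mem_locMax_iff (ζ' - ζ)).mp h1
  rw [map_sub, sub_eq_zero] at h2
  exact h2.symm

/-- a rational place is centred at most at one closed point of the special fibre of a chart. -/
theorem eq_of_centredAt [IsScalarTower R K₁ EN] (hπ : Irreducible π) (C : Subalgebra R EN)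
    [IsFractionRing ↥C EN] {P : Place K₁ EN} (hrat : IsRationalPlace P)
    {𝔪 𝔪' : Ideal ↥C} [h𝔪 : 𝔪.IsMaximal] [h𝔪' : 𝔪'.IsMaximal]
    (hπ𝔪 : algebraMap R ↥C π ∈ 𝔪) (hπ𝔪' : algebraMap R ↥C π ∈ 𝔪')
    (hc : CentredAt 𝔪 P) (hc' : CentredAt 𝔪' P) : 𝔪 = 𝔪' := by
  haveI := h𝔪.isPrime
  have hB := le_compValR_of_centredAt P hrat C hπ 𝔪 hπ𝔪 hc
  rw [eq_redIdeal_of_centredAt P hrat C hB hπ 𝔪 hπ𝔪 hc,
    eq_redIdeal_of_centredAt P hrat C hB hπ 𝔪' hπ𝔪' hc']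

/-- a rational place is not centred both on the chart `j` and at a cuspidal point of the chart
`j⁻¹`. -/
theorem SSModel.not_centredAt_both [IsScalarTower R K₁ EN]
    (h : SSModel K₁ π q n (∅ : Finset R) t jM j A B VM Winf W0) (hπ : Irreducible π)
    {P : Place K₁ EN} (hrat : IsRationalPlace P)
    {𝔪 : Ideal ↥(chartOne R EN j)} [h𝔪 : 𝔪.IsMaximal]
    (hπ𝔪 : algebraMap R ↥(chartOne R EN j) π ∈ 𝔪) (hc : CentredAt 𝔪 P)
    {𝔪' : Ideal ↥(chartOne R EN j⁻¹)} [h𝔪' : 𝔪'.IsMaximal]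
    (hπ𝔪' : algebraMap R ↥(chartOne R EN j⁻¹) π ∈ 𝔪')
    (hx : (⟨algebraMap KN EN j⁻¹, algebraMap_coord_mem_chartOne j⁻¹⟩ : ↥(chartOne R EN j⁻¹)) ∈ 𝔪')
    (hc' : CentredAt 𝔪' P) : False := by
  haveI := h𝔪.isPrime
  haveI := h𝔪'.isPrime
  haveI : IsFractionRing ↥(chartOne R EN j) EN := isFractionRing_chartOne (K₁ := K₁) j h.j_adjoin
  haveI : IsFractionRing ↥(chartOne R EN j⁻¹) EN :=
    isFractionRing_chartOne (K₁ := K₁) j⁻¹ (adjoin_inv_eq_top h.j_adjoin)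
  have hj0 : j ≠ 0 := by
    rintro rfl
    exact h.j_transcendental isAlgebraic_zero
  have hJ0 : algebraMap KN EN j ≠ 0 := by rw [Ne, map_eq_zero]; exact hj0
  obtain ⟨r, hr, -⟩ := exists_value_of_centredAt P hrat (chartOne R EN j) hπ 𝔪 hπ𝔪 hc
    (le_locRing (𝔪 := 𝔪) (algebraMap_coord_mem_chartOne j))
  have hmem : algebraMap KN EN j⁻¹ ∈ locMax (chartOne R EN j⁻¹) 𝔪' :=
    (coe_mem_locMax_iff (⟨algebraMap KN EN j⁻¹, algebraMap_coord_mem_chartOne j⁻¹⟩ :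
      ↥(chartOne R EN j⁻¹))).mpr hx
  obtain ⟨r', hr', hiff⟩ := exists_value_of_centredAt P hrat (chartOne R EN j⁻¹) hπ 𝔪' hπ𝔪' hc'
    (locMax_subset_locRing hmem)
  have hr'm : r' ∈ maximalIdeal R := hiff.mp hmem
  have h1 := hr.mul hr'
  rw [map_inv₀, mul_inv_cancel₀ hJ0, ← map_mul] at h1
  have h2 := (HasValueAt.one' P).unique h1
  have h3 : r * r' = 1 := by
    apply IsFractionRing.injective R K₁
    rw [← h2, map_one]
  have h4 : (1 : R) ∈ maximalIdeal R := by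
    rw [← h3]
    exact Ideal.mul_mem_left _ _ hr'm
  exact (Ideal.ne_top_iff_one _).mp (IsLocalRing.maximalIdeal.isMaximal R).ne_top h4

/-! ### (4) existence of a node -/

open Classical in
/-- the node unit has a single zero or pole on the cell of the cusp `∞`. -/
theorem SSModel.sum_ord_nodeUnit_cusp [IsAlgClosed (IsLocalRing.ResidueField R)]
    [IsScalarTower R K₁ EN]
    (h : SSModel K₁ π q n (∅ : Finset R) t jM j A B VM Winf W0) (hπ : Irreducible π)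
    (hgeo' : GeoHyps K₁ π t⁻¹ EM n (∅ : Finset R)) (h2 : IsTwoSheet π j⁻¹ Winf W0)
    (htj : algebraMap KM EM t = jM)
    {U : EN} {c : ℕ} (hU : NodeUnit K₁ π (A jM) U c Winf W0)
    (TU : Finset (Place K₁ EN)) (hTUrat : ∀ P ∈ TU, IsRationalPlace P)
    (hTU : ∀ P : Place K₁ EN, P.ord U ≠ 0 → P ∈ TU)
    {Pinf : Place K₁ EN} (hPrat : IsRationalPlace Pinf) (hPU : Pinf.ord U ≠ 0)
    (𝔪 : Ideal ↥(chartOne R EN j⁻¹)) [h𝔪 : 𝔪.IsMaximal]
    (hle : sheetIdeal j⁻¹ Winf h2.chart_le_inf ≤ 𝔪)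
    (hnle : ¬ sheetIdeal j⁻¹ W0 h2.chart_le_zero ≤ 𝔪)
    (hc : CentredAt 𝔪 Pinf) :
    ∑ P ∈ TU.filter (fun P => CentredAt 𝔪 P), P.ord U = Pinf.ord U := by
  haveI h𝔪p : 𝔪.IsPrime := h𝔪.isPrime
  set T₀ := (TU.filter (fun P => CentredAt 𝔪 P)).filter (fun P => P.ord U ≠ 0) with hT₀
  have hsum : ∑ P ∈ TU.filter (fun P => CentredAt 𝔪 P), P.ord U = ∑ P ∈ T₀, P.ord U :=
    (Finset.sum_filter_ne_zero (TU.filter (fun P => CentredAt 𝔪 P))).symm
  have hPmem : Pinf ∈ T₀ := by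
    rw [hT₀, Finset.mem_filter, Finset.mem_filter]
    exact ⟨⟨hTU Pinf hPU, hc⟩, hPU⟩
  have hT₀c : ∀ P ∈ T₀, CentredAt 𝔪 P := fun P hP =>
    (Finset.mem_filter.mp (Finset.mem_filter.mp hP).1).2
  have hT₀r : ∀ P ∈ T₀, IsRationalPlace P := fun P hP =>
    hTUrat P (Finset.mem_filter.mp (Finset.mem_filter.mp hP).1).1
  have hT₀o : ∀ P ∈ T₀, P.ord U ≠ 0 := fun P hP => (Finset.mem_filter.mp hP).2
  have hJi : A (algebraMap KM EM t⁻¹) = (A jM)⁻¹ := by
    rw [map_inv₀, map_inv₀, htj]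
  -- `J⁻¹` vanishes at the places of `T₀`
  have hval : ∀ P ∈ T₀, HasValueAt P (A (algebraMap KM EM t⁻¹)) (algebraMap R K₁ (0 : R)) := by
    intro P hP
    rw [map_zero, hJi, HasValueAt.zero_iff]
    right
    have hJP : A jM ∉ P.toValuationSubring := fun hmem => hT₀o P hP (hU.ord_eq_zero P hmem)
    have hJ0 : A jM ≠ 0 := fun h0 => hJP (h0 ▸ P.toValuationSubring.zero_mem)
    rw [PlaceAux.mem_iff_ord_nonneg' P hJ0, not_le] at hJP
    rw [Place.ord_inv]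
    omega
  have hreg : A (algebraMap KM EM t⁻¹) ∈ locRing (chartOne R EN j⁻¹) 𝔪 := by
    rw [hJi, h.A_j, ← map_inv₀]
    exact le_locRing (algebraMap_coord_mem_chartOne j⁻¹)
  obtain ⟨hord1, w, hw⟩ := SSModel.cell_cusp_inf h hπ hgeo' h2 𝔪 hle hnle hreg hU.ne_zero T₀ hT₀c
    hT₀r (fun P hcP hne => by
      rw [hT₀, Finset.mem_filter, Finset.mem_filter]
      exact ⟨⟨hTU P hne, hcP⟩, hne⟩) (fun _ => 0) hval 0
    (by rw [zpow_zero, inv_one, mul_one]; exact hU.mem_inf)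
    (by rw [zpow_zero, inv_one, mul_one]; exact hU.inv_mem_inf) hc hPrat (hval Pinf hPmem)
  have hempty : T₀.erase Pinf = ∅ := by
    by_contra hne
    obtain ⟨P, hP⟩ := Finset.nonempty_iff_ne_empty.mpr hne
    have hP₀ : P ∈ T₀ := Finset.mem_of_mem_erase hP
    have hprod : ∏ P ∈ T₀.erase Pinf,
        (algebraMap R K₁ (0 : R) - algebraMap R K₁ (0 : R)) ^ (P.ord U) = 0 :=
      Finset.prod_eq_zero hP (by rw [sub_self]; exact zero_zpow _ (hT₀o P hP₀))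
    rw [hprod, mul_zero, HasValueAt.zero_iff] at hw
    set g := A (algebraMap KM EM t⁻¹) - algebraMap K₁ EN (algebraMap R K₁ (0 : R)) with hg
    have hg0 : g ≠ 0 := by
      intro h0
      rw [h0, Place.ord_zero] at hord1
      exact zero_ne_one hord1
    have hgn0 : (g ^ (Pinf.ord U))⁻¹ ≠ 0 := inv_ne_zero (zpow_ne_zero _ hg0)
    rcases hw with hw | hw
    · exact (mul_ne_zero hU.ne_zero hgn0) hw
    · rw [Pinf.ord_mul hU.ne_zero hgn0, Place.ord_inv, Place.ord_zpow, hord1] at hw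
      omega
  have hT₀eq : T₀ = {Pinf} := by
    ext P
    rw [Finset.mem_singleton]
    constructor
    · intro hP
      by_contra hne
      have : P ∈ T₀.erase Pinf := Finset.mem_erase.mpr ⟨hne, hP⟩
      rw [hempty] at this
      exact absurd this (Finset.notMem_empty P)
    · rintro rfl
      exact hPmem
  rw [hsum, hT₀eq, Finset.sum_singleton]

/-- closed points of a sheet with the same ideal have the same residue of the coordinate. -/
theorem SheetPt.residue_eq_of_eq {W : ValuationSubring EN} {J : EN} {H : ResDegHyp W J π}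
    {C : Subalgebra R EN} {𝔪 𝔪' : Ideal ↥C} [h𝔪 : 𝔪.IsPrime] [h𝔪' : 𝔪'.IsPrime] {ζ ζ' : R}
    (hpt : SheetPt H C 𝔪 ζ) (hpt' : SheetPt H C 𝔪' ζ') (heq : 𝔪 = 𝔪') :
    IsLocalRing.residue R ζ = IsLocalRing.residue R ζ' := by
  subst heq
  exact SheetPt.residue_eq hpt hpt'

open Classical in
/-- **existence of a node** on `C_∞` (from the pole of the node unit at the cusp `∞`). -/
theorem SSModel.exists_node [IsAlgClosed (IsLocalRing.ResidueField R)] [IsScalarTower R K₁ EN]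
    (h : SSModel K₁ π q n (∅ : Finset R) t jM j A B VM Winf W0) (hπ : Irreducible π)
    (htj : algebraMap KM EM t = jM) (hsurj : Function.Surjective (algebraMap KM EM))
    (hgeo' : GeoHyps K₁ π t⁻¹ EM n (∅ : Finset R)) (h2 : IsTwoSheet π j⁻¹ Winf W0)
    {U : EN} {c : ℕ} (hU : NodeUnit K₁ π (A jM) U c Winf W0)
    (TU : Finset (Place K₁ EN)) (hTUrat : ∀ P ∈ TU, IsRationalPlace P)
    (hTU : ∀ P : Place K₁ EN, P.ord U ≠ 0 → P ∈ TU)
    {Pinf : Place K₁ EN} (hPrat : IsRationalPlace Pinf) (hPJ : HasValueAt Pinf (A jM)⁻¹ 0)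
    (hPφ : HasValueAt Pinf (B jM * ((A jM) ^ q)⁻¹) 1) (hPU : Pinf.ord U ≠ 0) :
    ∃ (ζ : R) (𝔪 : Ideal ↥(chartOne R EN j)) (h𝔪 : 𝔪.IsMaximal),
      SheetPt (h𝔪 := h𝔪.isPrime) (SSModel.resDegHyp_inf h hsurj) (chartOne R EN j) 𝔪 ζ ∧
      sheetIdeal j W0 h.two.chart_le_zero ≤ 𝔪 := by
  set H := SSModel.resDegHyp_inf h hsurj with hH
  have hU1 : Winf.valuation U = 1 :=
    valuation_eq_one_of_mem_of_inv_mem hU.ne_zero hU.mem_inf hU.inv_mem_inf
  obtain ⟨𝔪i, h𝔪i, hci, hpti, hnlei⟩ := SSModel.exists_cusp_inf_pt h hπ htj hsurj h2 hPrat hPJ hPφ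
  haveI := h𝔪i
  haveI := h𝔪i.isPrime
  have hlei : sheetIdeal j⁻¹ Winf h2.chart_le_inf ≤ 𝔪i :=
    (sheet_le_iff (B := chartOne R EN j⁻¹) (𝔪 := 𝔪i) h2.chart_le_inf
      (mem_sheetIdeal_iff j⁻¹ Winf h2.chart_le_inf)).mpr hpti.sheet
  have hx0 : U * (algebraMap R EN π ^ (0 : ℤ))⁻¹ = U := by rw [zpow_zero, inv_one, mul_one]
  have h1 := SSModel.resOrd_cusp_smooth h hπ hsurj hgeo' h2 𝔪i hpti hnlei hU.ne_zero TU hTUrat hTU 0
    (by rw [hx0]; exact hU.mem_inf) (by rw [hx0]; exact hU.inv_mem_inf)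
  rw [hx0, map_zero, H.resOrd_inv_zero hU1,
    SSModel.sum_ord_nodeUnit_cusp h hπ hgeo' h2 htj hU TU hTUrat hTU hPrat hPU 𝔪i hlei hnlei hci]
    at h1
  obtain ⟨Z, -, hsum⟩ := H.exists_sum_resOrd hU1
  have hne : ∑ β ∈ Z, H.resOrd U β ≠ 0 := by
    intro h0
    rw [h0, zero_add, h1] at hsum
    exact hPU hsum
  obtain ⟨β, -, hβ⟩ := Finset.exists_ne_zero_of_sum_ne_zero hne
  obtain ⟨ζ, rfl⟩ := IsLocalRing.residue_surjective β
  obtain ⟨𝔪, h𝔪, hpt⟩ := exists_sheetPt H (chartOne R EN j) (SSModel.det_inf h htj hsurj) ζ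
    h.A_t_mem
  refine ⟨ζ, 𝔪, h𝔪, hpt, ?_⟩
  by_contra hn
  haveI := h𝔪
  have h3 := SSModel.resOrd_smooth h hπ hsurj 𝔪 hpt hn hU.ne_zero TU hTUrat hTU 0
    (by rw [hx0]; exact hU.mem_inf) (by rw [hx0]; exact hU.inv_mem_inf)
  rw [hx0] at h3
  apply hβ
  rw [h3]
  exact Finset.sum_eq_zero fun P hP =>
    SSModel.ord_nodeUnit_eq_zero h hU 𝔪 (Finset.mem_filter.mp hP).2

/-! ### (5) the global bound -/

open Classical in
/-- **[GLOB]**: the Gauss valuations `a_∞`, `a_0` of `f` on the two sheets differ by at most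
`2 c Σ_P |ord_P f|`. -/
theorem SSModel.glob [IsAlgClosed (IsLocalRing.ResidueField R)] [IsScalarTower R K₁ EN]
    (h : SSModel K₁ π q n (∅ : Finset R) t jM j A B VM Winf W0) (hπ : Irreducible π)
    (htj : algebraMap KM EM t = jM) (hsurj : Function.Surjective (algebraMap KM EM))
    (hgeo' : GeoHyps K₁ π t⁻¹ EM n (∅ : Finset R)) (h2 : IsTwoSheet π j⁻¹ Winf W0)
    {U : EN} {c : ℕ} (hU : NodeUnit K₁ π (A jM) U c Winf W0)
    (TU : Finset (Place K₁ EN)) (hTUrat : ∀ P ∈ TU, IsRationalPlace P)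
    (hTU : ∀ P : Place K₁ EN, P.ord U ≠ 0 → P ∈ TU)
    {Pinf : Place K₁ EN} (hPrat : IsRationalPlace Pinf) (hPJ : HasValueAt Pinf (A jM)⁻¹ 0)
    (hPφ : HasValueAt Pinf (B jM * ((A jM) ^ q)⁻¹) 1) (hPU : Pinf.ord U ≠ 0)
    {f : EN} (hf : f ≠ 0) (T : Finset (Place K₁ EN)) (hrat : ∀ P ∈ T, IsRationalPlace P)
    (hfT : ∀ P : Place K₁ EN, P.ord f ≠ 0 → P ∈ T)
    (ainf a0 : ℤ) (hfinf : f * (algebraMap R EN π ^ ainf)⁻¹ ∈ Winf)
    (hfinf' : (f * (algebraMap R EN π ^ ainf)⁻¹)⁻¹ ∈ Winf)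
    (hf0 : f * (algebraMap R EN π ^ a0)⁻¹ ∈ W0) (hf0' : (f * (algebraMap R EN π ^ a0)⁻¹)⁻¹ ∈ W0) :
    |a0 - ainf| ≤ 2 * (c : ℤ) * ∑ P ∈ T, |P.ord f| := by
  set H := SSModel.resDegHyp_inf h hsurj with hH
  haveI : IsFractionRing ↥(chartOne R EN j) EN := isFractionRing_chartOne (K₁ := K₁) j h.j_adjoin
  have hπ0 : algebraMap R EN π ≠ 0 := algebraMap_pi_ne_zero (K₁ := K₁) (K := KN) hπ
  have hx1 : Winf.valuation (f * (algebraMap R EN π ^ ainf)⁻¹) = 1 :=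
    valuation_eq_one_of_mem_of_inv_mem (mul_ne_zero hf (inv_ne_zero (zpow_ne_zero _ hπ0)))
      hfinf hfinf'
  -- the closed points of `C_∞` in the chart `j`
  have hpts : ∀ β : IsLocalRing.ResidueField R, ∃ (ζ : R) (𝔪 : Ideal ↥(chartOne R EN j))
      (h𝔪 : 𝔪.IsMaximal), IsLocalRing.residue R ζ = β ∧
        SheetPt (h𝔪 := h𝔪.isPrime) H (chartOne R EN j) 𝔪 ζ := by
    intro β
    obtain ⟨ζ, rfl⟩ := IsLocalRing.residue_surjective β
    obtain ⟨𝔪, h𝔪, hpt⟩ := exists_sheetPt H (chartOne R EN j) (SSModel.det_inf h htj hsurj) ζ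
      h.A_t_mem
    exact ⟨ζ, 𝔪, h𝔪, rfl, hpt⟩
  choose ζβ 𝔪β h𝔪β hζβ hptβ using hpts
  -- the local data at each closed point
  have hdata : ∀ β : IsLocalRing.ResidueField R, ∃ kk mm ss : ℤ,
      H.resOrd (f * (algebraMap R EN π ^ ainf)⁻¹) β =
        kk + ∑ P ∈ T.filter (fun P => CentredAt (𝔪β β) P), P.ord f ∧
      (¬ sheetIdeal j W0 h.two.chart_le_zero ≤ 𝔪β β → kk = 0) ∧
      (sheetIdeal j W0 h.two.chart_le_zero ≤ 𝔪β β → 1 ≤ mm ∧ mm ≤ c ∧
        a0 - ainf = kk * mm + ss ∧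
        |ss| ≤ mm * ∑ P ∈ T.filter (fun P => CentredAt (𝔪β β) P), |P.ord f|) := by
    intro β
    haveI := h𝔪β β
    obtain ⟨kk, h1, h2', h3⟩ := SSModel.resOrd_pt h hπ htj hsurj hU (𝔪β β) (hptβ β) hf T hrat hfT
      ainf a0 hfinf hfinf' hf0 hf0'
    rw [hζβ β] at h1
    by_cases hn : sheetIdeal j W0 h.two.chart_le_zero ≤ 𝔪β β
    · obtain ⟨mm, ss, h4⟩ := h3 hn
      exact ⟨kk, mm, ss, h1, h2', fun _ => h4⟩
    · exact ⟨kk, 0, 0, h1, h2', fun hn' => absurd hn' hn⟩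
  choose kβ mβ sβ hres hsm hnd using hdata
  -- a node
  obtain ⟨ζ₀, 𝔪₀, h𝔪₀, hpt₀, hle₀⟩ := SSModel.exists_node h hπ htj hsurj hgeo' h2 hU TU hTUrat hTU
    hPrat hPJ hPφ hPU
  have h𝔪eq : 𝔪₀ = 𝔪β (IsLocalRing.residue R ζ₀) := by
    haveI := h𝔪₀
    haveI := h𝔪β (IsLocalRing.residue R ζ₀)
    refine SheetPt.eq hpt₀ (hptβ (IsLocalRing.residue R ζ₀)) ?_
    rw [← H.irred.maximalIdeal_eq, ← IsLocalRing.residue_eq_zero_iff, map_sub, sub_eq_zero,
      hζβ (IsLocalRing.residue R ζ₀)]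
  have hnode₀ : sheetIdeal j W0 h.two.chart_le_zero ≤ 𝔪β (IsLocalRing.residue R ζ₀) :=
    h𝔪eq ▸ hle₀
  -- the cusp `∞`
  obtain ⟨𝔪i, h𝔪i, hci, hpti, hnlei⟩ := SSModel.exists_cusp_inf_pt h hπ htj hsurj h2 hPrat hPJ hPφ
  haveI := h𝔪i
  haveI := h𝔪i.isPrime
  have hlei : sheetIdeal j⁻¹ Winf h2.chart_le_inf ≤ 𝔪i :=
    (sheet_le_iff (B := chartOne R EN j⁻¹) (𝔪 := 𝔪i) h2.chart_le_inf
      (mem_sheetIdeal_iff j⁻¹ Winf h2.chart_le_inf)).mpr hpti.sheet
  have hπ𝔪i : algebraMap R ↥(chartOne R EN j⁻¹) π ∈ 𝔪i :=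
    hlei (IsTwoSheet.pi_mem_inf (K₁ := K₁) h2 hπ)
  have hxi : (⟨algebraMap KN EN j⁻¹, algebraMap_coord_mem_chartOne j⁻¹⟩ :
      ↥(chartOne R EN j⁻¹)) ∈ 𝔪i := by
    have e : (A (algebraMap KM EM t))⁻¹ = algebraMap KN EN j⁻¹ := by
      rw [SSModel.A_t_eq h htj, map_inv₀]
    have h1 := hpti.val
    rw [map_zero, sub_zero, e] at h1
    exact (coe_mem_locMax_iff (⟨algebraMap KN EN j⁻¹, algebraMap_coord_mem_chartOne j⁻¹⟩ :
      ↥(chartOne R EN j⁻¹))).mp h1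
  have hinf : H.resOrdInf (f * (algebraMap R EN π ^ ainf)⁻¹) =
      ∑ P ∈ T.filter (fun P => CentredAt 𝔪i P), P.ord f := by
    have h1 := SSModel.resOrd_cusp_smooth h hπ hsurj hgeo' h2 𝔪i hpti hnlei hf T hrat hfT ainf
      hfinf hfinf'
    rw [map_zero, H.resOrd_inv_zero hx1] at h1
    exact h1
  -- the degree formula
  obtain ⟨Z, hZ, hsum⟩ := H.exists_sum_resOrd hx1
  have hsum' : ∑ β ∈ insert (IsLocalRing.residue R ζ₀) Z,
      H.resOrd (f * (algebraMap R EN π ^ ainf)⁻¹) β +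
        H.resOrdInf (f * (algebraMap R EN π ^ ainf)⁻¹) = 0 := by
    by_cases hmem : IsLocalRing.residue R ζ₀ ∈ Z
    · rw [Finset.insert_eq_of_mem hmem]
      exact hsum
    · rw [Finset.sum_insert hmem, hZ _ hmem, zero_add]
      exact hsum
  set Z' := insert (IsLocalRing.residue R ζ₀) Z with hZ'
  set N := Z'.filter (fun β => sheetIdeal j W0 h.two.chart_le_zero ≤ 𝔪β β) with hN
  have hβ₀N : IsLocalRing.residue R ζ₀ ∈ N :=
    Finset.mem_filter.mpr ⟨Finset.mem_insert_self _ _, hnode₀⟩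
  have hkN : ∑ β ∈ N, kβ β = ∑ β ∈ Z', kβ β := by
    rw [hN]
    refine Finset.sum_filter_of_ne fun β _ hne => ?_
    by_contra hn
    exact hne (hsm β hn)
  have hk : ∑ β ∈ Z', kβ β =
      -((∑ β ∈ Z', ∑ P ∈ T.filter (fun P => CentredAt (𝔪β β) P), P.ord f) +
        ∑ P ∈ T.filter (fun P => CentredAt 𝔪i P), P.ord f) := by
    have e : ∑ β ∈ Z', H.resOrd (f * (algebraMap R EN π ^ ainf)⁻¹) β =
        ∑ β ∈ Z', kβ β + ∑ β ∈ Z', ∑ P ∈ T.filter (fun P => CentredAt (𝔪β β) P), P.ord f := by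
      rw [← Finset.sum_add_distrib]
      exact Finset.sum_congr rfl fun β _ => hres β
    rw [e, hinf] at hsum'
    linarith
  -- disjointness of the cells
  have hπ𝔪β : ∀ β, algebraMap R ↥(chartOne R EN j) π ∈ 𝔪β β := by
    intro β
    haveI := (h𝔪β β).isPrime
    have hle : sheetIdeal j Winf h.two.chart_le_inf ≤ 𝔪β β :=
      (sheet_le_iff (B := chartOne R EN j) (𝔪 := 𝔪β β) h.two.chart_le_inf
        (mem_sheetIdeal_iff j Winf h.two.chart_le_inf)).mpr (hptβ β).sheet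
    exact hle (IsTwoSheet.pi_mem_inf (K₁ := K₁) h.two hπ)
  have hdis1 : ∀ P ∈ T, ∀ β ∈ Z', ∀ β' ∈ Z', CentredAt (𝔪β β) P → CentredAt (𝔪β β') P →
      β = β' := by
    intro P hP β _ β' _ hc hc'
    haveI := h𝔪β β
    haveI := h𝔪β β'
    haveI := (h𝔪β β).isPrime
    haveI := (h𝔪β β').isPrime
    have heq := eq_of_centredAt hπ (chartOne R EN j) (hrat P hP) (hπ𝔪β β) (hπ𝔪β β') hc hc'
    have h1 := SheetPt.residue_eq_of_eq (hptβ β) (hptβ β') heq
    rw [hζβ β, hζβ β'] at h1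
    exact h1
  have hdis2 : ∀ P ∈ T, ∀ β ∈ Z', CentredAt (𝔪β β) P → ¬ CentredAt 𝔪i P := by
    intro P hP β _ hc hc'
    haveI := h𝔪β β
    exact SSModel.not_centredAt_both h hπ (hrat P hP) (hπ𝔪β β) hc hπ𝔪i hxi hc'
  -- the bounds
  have hkabs : |∑ β ∈ N, kβ β| ≤ ∑ P ∈ T, |P.ord f| := by
    rw [hkN, hk, abs_neg]
    exact abs_sum_cells_le T (fun P => P.ord f) Z' (fun β P => CentredAt (𝔪β β) P)
      (fun P => CentredAt 𝔪i P) hdis1 hdis2
  have hDsum : ∑ β ∈ N, ∑ P ∈ T.filter (fun P => CentredAt (𝔪β β) P), |P.ord f| ≤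
      ∑ P ∈ T, |P.ord f| := by
    have h1 := sum_cells_le T (fun P => |P.ord f|) (fun _ => abs_nonneg _) N
      (fun β P => CentredAt (𝔪β β) P) (fun _ => False)
      (fun P hP β hβ β' hβ' => hdis1 P hP β (Finset.mem_filter.mp hβ).1 β'
        (Finset.mem_filter.mp hβ').1)
      (fun _ _ _ _ _ hF => hF)
    exact le_trans (le_add_of_nonneg_right (Finset.sum_nonneg fun _ _ => abs_nonneg _)) h1
  have hfin := glob_arith N (IsLocalRing.residue R ζ₀) hβ₀N kβ mβ sβ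
    (fun β => ∑ P ∈ T.filter (fun P => CentredAt (𝔪β β) P), |P.ord f|) (a0 - ainf) c
    (∑ P ∈ T, |P.ord f|) (∑ P ∈ T, |P.ord f|)
    (fun β hβ => (hnd β (Finset.mem_filter.mp hβ).2).1)
    (hnd _ hnode₀).2.1
    (fun β hβ => (hnd β (Finset.mem_filter.mp hβ).2).2.2.1)
    (fun β hβ => (hnd β (Finset.mem_filter.mp hβ).2).2.2.2)
    (fun β _ => Finset.sum_nonneg fun _ _ => abs_nonneg _)
    hkabs hDsum
  calc |a0 - ainf| ≤ (c : ℤ) * (∑ P ∈ T, |P.ord f| + ∑ P ∈ T, |P.ord f|) := hfin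
    _ = 2 * (c : ℤ) * ∑ P ∈ T, |P.ord f| := by ring

end Model

end Fermat.Agent.MW.NAdic
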