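import Mathlib
import Fermat.Agent.MW.NADIC_helper1_Model1Unit
import Fermat.Agent.MW.NADIC_helper1_Model1Bridge
import Fermat.Agent.MW.NADIC_helper6_Kind
import Fermat.Agent.SS.HART_helper4
import Fermat.Agent.JA.KEYBASE_helper8_Cusp
import Fermat.Agent.JA.BC_helper9_Desc

/-!
# Project MW (S17) — [N-ADIC] helper9, [ONE-HYP]: the hypotheses of the cell theorems for the
level-one model `ssModelOne`

* `model1_geoHyps_inv` : `GeoHyps` for the coordinate `j⁻¹` of the trivial cover;
* `model1_isTwoSheet_inv` : the two-sheet data for the coordinate `j⁻¹`;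
* `model1_nodeUnit` : the modular unit `Δ(τ)/Δ(qτ)` is a `NodeUnit` of thickness `c`,
  `q^12 ~ π^c`;
* the cusp `∞` of the host field over `K`: `exists_cuspInfPlace`.
-/

set_option autoImplicit false
set_option linter.unusedSectionVars false
set_option linter.unusedVariables false
set_option linter.style.haveILetI false
set_option synthInstance.maxHeartbeats 200000

open Polynomial ModularCurve IntermediateField AlgebraicCurve

namespace Fermat.Agent.MW

open Fermat.Agent.JA Fermat.Agent.Igusa Fermat.Agent.SS Fermat.Agent.X0N Fermat.Agent.FF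
  Fermat.Agent.MW.NAdic

open scoped Fermat.Agent.JA.Host

noncomputable section

/-! ### places of a field of Laurent series given by the order of the series -/

section SeriesPlace

variable {K : Type*} [Field K] {F : IntermediateField K (LaurentSeries K)} {P : Place K ↥F}

/-- a series of nonnegative order minus its constant coefficient has positive order. -/
theorem order_sub_C_coeff_zero_pos {x : LaurentSeries K} (hx : 0 ≤ x.order)
    (hne : x - HahnSeries.C (x.coeff 0) ≠ 0) : 0 < (x - HahnSeries.C (x.coeff 0)).order := by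
  by_contra hle
  rw [not_lt] at hle
  apply hne
  rw [← HahnSeries.coeff_order_eq_zero]
  generalize (x - HahnSeries.C (x.coeff 0)).order = n at hle
  rw [HahnSeries.coeff_sub, HahnSeries.C_apply]
  rcases lt_or_eq_of_le hle with hlt | heq
  · rw [HahnSeries.coeff_eq_zero_of_lt_order (lt_of_lt_of_le hlt hx),
      HahnSeries.coeff_single_of_ne hlt.ne, sub_zero]
  · rw [heq, HahnSeries.coeff_single_same, sub_self]

variable (hP : ∀ x : ↥F, x ≠ 0 → P.ord x = (x : LaurentSeries K).order)

include hP in
/-- the value at the place `x = 0` of a series of nonnegative order is its constant coefficient. -/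
theorem hasValueAt_coeff_zero_of_order_nonneg {x : ↥F} (hx : 0 ≤ (x : LaurentSeries K).order) :
    HasValueAt P x ((x : LaurentSeries K).coeff 0) := by
  rw [HasValueAt.iff_ord]
  by_cases h0 : x - algebraMap K ↥F ((x : LaurentSeries K).coeff 0) = 0
  · exact Or.inl h0
  · right
    rw [hP _ h0]
    have e : ((x - algebraMap K ↥F ((x : LaurentSeries K).coeff 0) : ↥F) : LaurentSeries K) =
        (x : LaurentSeries K) - HahnSeries.C ((x : LaurentSeries K).coeff 0) := by
      rw [AddSubgroupClass.coe_sub, IntermediateField.coe_algebraMap_apply,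
        algebraMap_laurentSeries_eq_single, ← HahnSeries.C_apply]
    rw [e]
    refine order_sub_C_coeff_zero_pos hx ?_
    rw [← e]
    exact fun h => h0 (Subtype.ext h)

include hP in
/-- the place `x = 0` is rational. -/
theorem isRationalPlace_of_ord_eq_order : IsRationalPlace P := by
  intro x hx
  refine ⟨(x : LaurentSeries K).coeff 0, ?_⟩
  have h1 : 0 ≤ (x : LaurentSeries K).order := by
    by_cases h0 : x = 0
    · rw [h0, IntermediateField.coe_zero, HahnSeries.order_zero]
    · rw [← hP x h0]
      exact PlaceAux.ord_nonneg_of_mem P hx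
  exact HasValueAt.iff_ord.mp (hasValueAt_coeff_zero_of_order_nonneg hP h1)

include hP in
/-- a series of order `0` and leading coefficient `c` has the value `c` at the place `x = 0`. -/
theorem hasValueAt_leadingCoeff_of_order_eq_zero {x : ↥F} (hx : (x : LaurentSeries K).order = 0) :
    HasValueAt P x ((x : LaurentSeries K).leadingCoeff) := by
  have h := hasValueAt_coeff_zero_of_order_nonneg hP (x := x) hx.ge
  rwa [HahnSeries.leadingCoeff_eq, hx]

end SeriesPlace

/-! ### the hypotheses of the cusp cells and of the node unit for `ssModelOne` -/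

section Model

variable (R : Type*) [CommRing R] [IsDomain R] [IsDiscreteValuationRing R] [CharZero R]
  (K : Type*) [Field K] [Algebra R K] [IsFractionRing R K] [Algebra ℚ K] [Algebra K ℂ]
  {q : ℕ} [NeZero q] [NeZero (1 * q)] {x y : ℤ} {π : R}

omit [Algebra K ℂ] in
/-- **good reduction of the `j`-line in the coordinate `j⁻¹`**: `GeoHyps` for the trivial cover. -/
theorem model1_geoHyps_inv [DecidableEq R] (hπ : Irreducible π) :
    GeoHyps K (K := ↥K⟮jqNModC K 1⟯) π (AdjoinSimple.gen K (jqNModC K 1))⁻¹ ↥K⟮jqNModC K 1⟯ 1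
      (∅ : Finset R) where
  finite := inferInstance
  irreducible := hπ
  transcendental := transcendental_inv_of_transcendental (model1_transcendental_gen K)
  adjoin_eq_top := adjoin_inv_eq_top (model1_adjoin_gen K)
  isUnit_n := by simp
  exists_root := ⟨1, IsPrimitiveRoot.one⟩
  unit_sub := fun a ha => absurd ha (Finset.notMem_empty a)
  zero_or_unit := fun a ha => absurd ha (Finset.notMem_empty a)
  unr := fun 𝒱 _ _ _ _ => model1_unr_self 𝒱
  tame := fun 𝒱 _ _ => model1_tameAt_self 𝒱
  gauss := fun 𝒱 _ => model1_unr_self 𝒱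
  const := model1_const_EM K

/-- the two-sheet data of the level-one model in the coordinate `j⁻¹`. -/
theorem model1_isTwoSheet_inv [DecidableEq R] (hπ : Irreducible π)
    (h : (q : ℤ) * x + ((1 : ℕ) : ℤ) * y = 1) (hq : q.Prime) (hqπ : (q : R) ∈ Ideal.span {π}) :
    IsTwoSheet π (AdjoinSimple.gen K (jqNModC K 1))⁻¹ (oneWinf R K q) (oneW0 R K h hq) :=
  (ssModelOne R K hπ h hq hqπ).two.inv hπ

/-- **the node unit of the level-one model**: `Δ(τ)/Δ(qτ)`, of thickness `c` with `q^12 ~ π^c`. -/
theorem model1_nodeUnit [DecidableEq R] (hπ : Irreducible π)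
    (h : (q : ℤ) * x + ((1 : ℕ) : ℤ) * y = 1) (hq : q.Prime) (hqπ : (q : R) ∈ Ideal.span {π}) :
    ∃ c : ℕ, 1 ≤ c ∧ Associated ((q : R) ^ 12) (π ^ c) ∧
      NodeUnit K π ((oneHostA K q : ↥K⟮jqNModC K 1⟯ →+* ↥(keyFw K (1 * q) 1))
        (AdjoinSimple.gen K (jqNModC K 1))) (oneUnit K q) c (oneWinf R K q) (oneW0 R K h hq) := by
  have htwo := (ssModelOne R K hπ h hq hqπ).two
  have hR0 : ∀ r : R, algebraMap R ↥(keyFw K (1 * q) 1) r ∈ oneW0 R K h hq :=
    fun r => htwo.chart_le_zero _ (Subalgebra.algebraMap_mem _ r)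
  obtain ⟨c, hc, hass, hU1, hU2⟩ := oneUnit_unit_clause R K hπ h hq hqπ hR0
  exact ⟨c, hc, hass, ⟨oneUnit_ne_zero K q, hc, oneUnit_mem_oneWinf R K q,
    oneUnit_inv_mem_oneWinf R K q, hU1, hU2, (isIntegral_oneUnit K q).1,
    (isIntegral_oneUnit K q).2⟩⟩

end Model

/-! ### orders and leading coefficients of Laurent series over a field -/

section Series

variable {K : Type*} [Field K]

theorem laurent_order_inv {z : LaurentSeries K} (hz : z ≠ 0) : z⁻¹.order = -z.order := by
  have h2 : z⁻¹.order + z.order = 0 := by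
    rw [← HahnSeries.order_mul (inv_ne_zero hz) hz, inv_mul_cancel₀ hz, HahnSeries.order_one]
  omega

theorem laurent_leadingCoeff_inv {z : LaurentSeries K} (hz : z ≠ 0) :
    z⁻¹.leadingCoeff = (z.leadingCoeff)⁻¹ := by
  have h2 : z⁻¹.leadingCoeff * z.leadingCoeff = 1 := by
    rw [← HahnSeries.leadingCoeff_mul, inv_mul_cancel₀ hz, HahnSeries.leadingCoeff_one]
  exact eq_inv_of_mul_eq_one_left h2

theorem laurent_leadingCoeff_pow (z : LaurentSeries K) (n : ℕ) :
    (z ^ n).leadingCoeff = z.leadingCoeff ^ n := by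
  induction n with
  | zero => rw [pow_zero, pow_zero, HahnSeries.leadingCoeff_one]
  | succ n ih => rw [pow_succ, pow_succ, HahnSeries.leadingCoeff_mul, ih]

end Series

/-! ### the cusp `∞` of the level-one host field -/

section Cusp

variable (K : Type*) [Field K] [Algebra ℚ K] [Algebra K ℂ] (q : ℕ) [NeZero q] [NeZero (1 * q)]

omit [Algebra K ℂ] in
theorem model1_order_jqModC : (jqModC K).order = -1 := by
  have h := order_jqNModC_field K 1
  rw [jqNModC, qExpand_one_apply] at h
  simpa using h

omit [Algebra K ℂ] in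
theorem model1_leadingCoeff_jqModC : (jqModC K).leadingCoeff = 1 := by
  rw [HahnSeries.leadingCoeff_eq, model1_order_jqModC, coeff_jqModC_neg_one]

/-- **the cusp `∞` of the host field `F_q = keyFw K (1 * q) 1` over `K`**: a rational place whose
order function is the order of the series; `j⁻¹` vanishes there, `j(qτ)/j(τ)^q` takes the value
`1`, and the modular unit has order `1 - q`. -/
theorem exists_cuspInfPlace :
    ∃ P : Place K ↥(keyFw K (1 * q) 1),
      (∀ z : ↥(keyFw K (1 * q) 1), z ≠ 0 → P.ord z = (z : LaurentSeries K).order) ∧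
      IsRationalPlace P ∧
      HasValueAt P ((oneHostA K q : ↥K⟮jqNModC K 1⟯ →+* ↥(keyFw K (1 * q) 1))
        (AdjoinSimple.gen K (jqNModC K 1)))⁻¹ 0 ∧
      HasValueAt P ((oneHostB K q : ↥K⟮jqNModC K 1⟯ →+* ↥(keyFw K (1 * q) 1))
          (AdjoinSimple.gen K (jqNModC K 1)) *
        ((oneHostA K q : ↥K⟮jqNModC K 1⟯ →+* ↥(keyFw K (1 * q) 1))
          (AdjoinSimple.gen K (jqNModC K 1)) ^ q)⁻¹) 1 ∧
      P.ord (oneUnit K q) = 1 - (q : ℤ) := by
  set jA := (oneHostA K q : ↥K⟮jqNModC K 1⟯ →+* ↥(keyFw K (1 * q) 1))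
    (AdjoinSimple.gen K (jqNModC K 1)) with hjA
  set jB := (oneHostB K q : ↥K⟮jqNModC K 1⟯ →+* ↥(keyFw K (1 * q) 1))
    (AdjoinSimple.gen K (jqNModC K 1)) with hjB
  have hcA : ((jA : ↥(keyFw K (1 * q) 1)) : LaurentSeries K) = jqModC K := coe_oneHostA_gen K q
  have hcB : ((jB : ↥(keyFw K (1 * q) 1)) : LaurentSeries K) = qExpand K q (jqModC K) :=
    coe_oneHostB_gen K q
  have hJ0 : jqModC K ≠ 0 := by
    intro h0
    have := model1_order_jqModC K
    rw [h0, HahnSeries.order_zero] at this
    omega
  have hmem : jqModC K ∈ keyFw K (1 * q) 1 := by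
    rw [← hcA]
    exact jA.2
  obtain ⟨P, hP⟩ := exists_place_ord_eq_order (keyFw K (1 * q) 1) hmem (model1_order_jqModC K)
  have hjA0 : jA ≠ 0 := by
    intro h0
    apply hJ0
    rw [← hcA, h0, IntermediateField.coe_zero]
  refine ⟨P, hP, isRationalPlace_of_ord_eq_order hP, ?_, ?_, ?_⟩
  · rw [HasValueAt.zero_iff]
    right
    rw [Place.ord_inv, hP jA hjA0, hcA, model1_order_jqModC]
    norm_num
  · set φ := jB * (jA ^ q)⁻¹ with hφ
    have hcφ : ((φ : ↥(keyFw K (1 * q) 1)) : LaurentSeries K) =
        qExpand K q (jqModC K) * ((jqModC K) ^ q)⁻¹ := by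
      rw [hφ, IntermediateField.coe_mul, IntermediateField.coe_inv, IntermediateField.coe_pow,
        hcA, hcB]
    have hq0 : qExpand K q (jqModC K) ≠ 0 := by
      intro h0
      have h1 := order_qExpand (w := q) (jqModC K)
      have h2 := leadingCoeff_qExpand (w := q) (jqModC K)
      rw [h0, HahnSeries.leadingCoeff_zero, model1_leadingCoeff_jqModC] at h2
      exact zero_ne_one h2
    have hpow0 : (jqModC K) ^ q ≠ 0 := pow_ne_zero _ hJ0
    have hord : ((φ : ↥(keyFw K (1 * q) 1)) : LaurentSeries K).order = 0 := by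
      rw [hcφ, HahnSeries.order_mul hq0 (inv_ne_zero hpow0), order_qExpand,
        laurent_order_inv hpow0, HahnSeries.order_pow, model1_order_jqModC, nsmul_eq_mul]
      ring
    have hlc : ((φ : ↥(keyFw K (1 * q) 1)) : LaurentSeries K).leadingCoeff = 1 := by
      rw [hcφ, HahnSeries.leadingCoeff_mul, leadingCoeff_qExpand,
        laurent_leadingCoeff_inv hpow0, laurent_leadingCoeff_pow, model1_leadingCoeff_jqModC,
        one_pow, inv_one, mul_one]
    have h := hasValueAt_leadingCoeff_of_order_eq_zero hP (x := φ) hord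
    rwa [hlc] at h
  · rw [hP _ (oneUnit_ne_zero K q), coe_oneUnit, coeffEmb,
      order_coeffMap_of_injective (algebraMap ℚ K).injective, order_modularUnitSeries]

end Cusp

end

end Fermat.Agent.MW
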