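import Mathlib
import Fermat.Agent.MW.NADIC_helper9_Glob
import Fermat.Agent.MW.NADIC_helper9_OneHyp
import Fermat.Agent.MW.NADIC_helper1_LimCoord
import Fermat.Agent.MW.INST_helper8_Dv

/-!
# Project MW (S17) — [N-ADIC] helper9, [GLOB-Ω]: the two sheet norms differ by at most
`24 log q · ‖div f‖`

`sheetNorm_glob` : for `f ≠ 0` on `X₀(q)` over `Ω` with divisor `D`,
`|sheetNorm1 f - sheetNorm0 f| ≤ 24 log q · dnorm D` at the place `q`.  This is the `hglob` argument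
of helper1's `NodeCharts.cellSys`.

Route: descent to a Galois base `K₁` (`exists_galBase_descentW`), the level-one model `ssModelOne`
over `R = A ∩ K₁`, `SSModel.glob`, and the links `sheetNorm0_limPhi`, `sheetNorm1_limPhi`.
-/

set_option autoImplicit false
set_option linter.unusedSectionVars false
set_option linter.unusedVariables false
set_option linter.style.haveILetI false
set_option synthInstance.maxHeartbeats 200000

open HahnSeries IntermediateField AlgebraicCurve ModularCurve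

namespace Fermat.Agent.MW

open Fermat.Agent.JA Fermat.Agent.FF Fermat.Agent.SS Fermat.Agent.Igusa Fermat.Agent.X0N
  Fermat.Agent.MW.NAdic

open scoped Fermat.Agent.JA.Host

noncomputable section

/-- `Ω = AlgebraicClosure ℚ`. -/
local notation "Ω" => AlgebraicClosure ℚ

/-! ### the Gauss valuations on the two sheets of the level-one model -/

section Gauss

variable (R : Type*) [CommRing R] [IsDomain R] [IsDiscreteValuationRing R] [CharZero R]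
  (K : Type*) [Field K] [Algebra R K] [IsFractionRing R K] [Algebra ℚ K] [Algebra K ℂ]
  {q : ℕ} [NeZero q] [NeZero (1 * q)] {x y : ℤ} {π : R}

omit [CharZero R] [Algebra K ℂ] in
/-- the series of `z · (π^a)⁻¹`. -/
theorem coe_mul_zpow_inv (z : ↥(keyFw K (1 * q) 1)) (a : ℤ) :
    ((z * (algebraMap R ↥(keyFw K (1 * q) 1) π ^ a)⁻¹ : ↥(keyFw K (1 * q) 1)) :
      LaurentSeries K) =
      (z : LaurentSeries K) * (HahnSeries.C (algebraMap R K π) ^ a)⁻¹ := by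
  rw [IntermediateField.coe_mul, IntermediateField.coe_inv]
  congr 2
  have e : ((algebraMap R ↥(keyFw K (1 * q) 1) π ^ a : ↥(keyFw K (1 * q) 1)) : LaurentSeries K) =
      (keyFw K (1 * q) 1).val (algebraMap R ↥(keyFw K (1 * q) 1) π ^ a) := rfl
  rw [e, map_zpow₀]
  congr 1
  rw [IsScalarTower.algebraMap_apply R K ↥(keyFw K (1 * q) 1)]
  show ((algebraMap K ↥(keyFw K (1 * q) 1) (algebraMap R K π) : ↥(keyFw K (1 * q) 1)) :
    LaurentSeries K) = _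
  rw [IntermediateField.coe_algebraMap_apply, algebraMap_laurentSeries_eq_single,
    ← HahnSeries.C_apply]

omit [CharZero R] [Algebra K ℂ] in
/-- **the Gauss valuation on `W_∞`.** -/
theorem exists_zpow_oneWinf (hπ : Irreducible π) {z : ↥(keyFw K (1 * q) 1)} (hz : z ≠ 0) :
    ∃ a : ℤ, z * (algebraMap R ↥(keyFw K (1 * q) 1) π ^ a)⁻¹ ∈ oneWinf R K q ∧
      (z * (algebraMap R ↥(keyFw K (1 * q) 1) π ^ a)⁻¹)⁻¹ ∈ oneWinf R K q := by
  have hz0 : (z : LaurentSeries K) ≠ 0 := fun h0 => hz (Subtype.ext h0)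
  have hgf : (z : LaurentSeries K) ∈ gaussField R K := keyFw_le_gaussField R K (1 * q) 1 z.2
  obtain ⟨n, u, hu, hu', hxu⟩ := exists_zpow_mul_unit hπ hgf hz0
  have hC : (HahnSeries.C (algebraMap R K π) : LaurentSeries K) ^ n ≠ 0 :=
    zpow_ne_zero _ (C_algebraMap_ne_zero (L := K) hπ.ne_zero)
  have e : (z : LaurentSeries K) * (HahnSeries.C (algebraMap R K π) ^ n)⁻¹ = u := by
    rw [hxu, mul_comm, ← mul_assoc, inv_mul_cancel₀ hC, one_mul]
  refine ⟨n, ?_, ?_⟩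
  · show ((z * (algebraMap R ↥(keyFw K (1 * q) 1) π ^ n)⁻¹ : ↥(keyFw K (1 * q) 1)) :
      LaurentSeries K) ∈ gaussInt R K
    rw [coe_mul_zpow_inv, e]
    exact hu
  · show (((z * (algebraMap R ↥(keyFw K (1 * q) 1) π ^ n)⁻¹)⁻¹ : ↥(keyFw K (1 * q) 1)) :
      LaurentSeries K) ∈ gaussInt R K
    rw [IntermediateField.coe_inv, coe_mul_zpow_inv, e]
    exact hu'

/-- the Atkin–Lehner involution of the host fixes the constants of `R`. -/
theorem alHost_algebraMap_base (h : (q : ℤ) * x + ((1 : ℕ) : ℤ) * y = 1) (hq : q.Prime) (r : R) :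
    alHost K (algebraMap K ℂ) 1 h hq (algebraMap R ↥(keyFw K (1 * q) 1) r) =
      algebraMap R ↥(keyFw K (1 * q) 1) r := by
  rw [IsScalarTower.algebraMap_apply R K ↥(keyFw K (1 * q) 1)]
  have e : algebraMap K ↥(keyFw K (1 * q) 1) (algebraMap R K r) =
      oneIso K q (algebraMap K ↥(keyFq K (1 * q)) (algebraMap R K r)) :=
    ((oneIso K q).commutes _).symm
  rw [e, alHost_oneIso, atkinLehnerN_algebraMap]

/-- **the Gauss valuation on `W_0`.** -/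
theorem exists_zpow_oneW0 (hπ : Irreducible π) (h : (q : ℤ) * x + ((1 : ℕ) : ℤ) * y = 1)
    (hq : q.Prime) {z : ↥(keyFw K (1 * q) 1)} (hz : z ≠ 0) :
    ∃ a : ℤ, z * (algebraMap R ↥(keyFw K (1 * q) 1) π ^ a)⁻¹ ∈ oneW0 R K h hq ∧
      (z * (algebraMap R ↥(keyFw K (1 * q) 1) π ^ a)⁻¹)⁻¹ ∈ oneW0 R K h hq := by
  have hz' : alHost K (algebraMap K ℂ) 1 h hq z ≠ 0 :=
    (map_ne_zero_iff _ (alHost K (algebraMap K ℂ) 1 h hq).injective).mpr hz
  obtain ⟨a, h1, h2⟩ := exists_zpow_oneWinf R K hπ hz'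
  refine ⟨a, ?_, ?_⟩
  · rw [mem_oneW0_iff, map_mul, map_inv₀, map_zpow₀, alHost_algebraMap_base]
    exact h1
  · rw [mem_oneW0_iff, map_inv₀, map_mul, map_inv₀, map_zpow₀, alHost_algebraMap_base]
    exact h2

end Gauss

/-! ### absolute values of the constants of a base ring -/

section Consts

variable (p : Nat.Primes) (K₁ : IntermediateField ℚ Ω)

/-- the elements of the base ring have absolute value at most one. -/
theorem absv_coe_baseRing_le_one (r : ↥(baseRing (padicPlace (p : ℕ)) K₁)) :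
    absv (some p) (((r : ↥K₁) : ↥K₁) : Ω) ≤ 1 := by
  rw [← mem_padicPlace_iff_absv]
  exact ValuationSubring.mem_comap.mp r.2

/-- the units of the base ring have absolute value one. -/
theorem absv_coe_unit_baseRing (u : (↥(baseRing (padicPlace (p : ℕ)) K₁))ˣ) :
    absv (some p) ((((u : ↥(baseRing (padicPlace (p : ℕ)) K₁)) : ↥K₁) : ↥K₁) : Ω) = 1 := by
  have h1 := absv_coe_baseRing_le_one p K₁ (u : ↥(baseRing (padicPlace (p : ℕ)) K₁))
  have h2 := absv_coe_baseRing_le_one p K₁ ((u⁻¹ : (↥(baseRing (padicPlace (p : ℕ)) K₁))ˣ) :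
    ↥(baseRing (padicPlace (p : ℕ)) K₁))
  have h3 : ((((u : ↥(baseRing (padicPlace (p : ℕ)) K₁)) : ↥K₁) : ↥K₁) : Ω) *
      (((((u⁻¹ : (↥(baseRing (padicPlace (p : ℕ)) K₁))ˣ) :
        ↥(baseRing (padicPlace (p : ℕ)) K₁)) : ↥K₁) : ↥K₁) : Ω) = 1 := by
    have h4 : (u : ↥(baseRing (padicPlace (p : ℕ)) K₁)) *
        ((u⁻¹ : (↥(baseRing (padicPlace (p : ℕ)) K₁))ˣ) :
          ↥(baseRing (padicPlace (p : ℕ)) K₁)) = 1 := Units.mul_inv u
    have h5 := congrArg (fun r : ↥(baseRing (padicPlace (p : ℕ)) K₁) => (((r : ↥K₁) : ↥K₁) : Ω)) h4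
    exact h5
  have h6 := congrArg (absv (some p)) h3
  rw [absv_mul, absv_one] at h6
  have h7 : 0 ≤ absv (some p) ((((u : ↥(baseRing (padicPlace (p : ℕ)) K₁)) : ↥K₁) : ↥K₁) : Ω) :=
    absv_nonneg _ _
  have h8 : 0 ≤ absv (some p) (((((u⁻¹ : (↥(baseRing (padicPlace (p : ℕ)) K₁))ˣ) :
        ↥(baseRing (padicPlace (p : ℕ)) K₁)) : ↥K₁) : ↥K₁) : Ω) := absv_nonneg _ _
  nlinarith

/-- `log |p|_p = - log p`. -/
theorem lg_natCast_self : lg (some p) (((p : ℕ) : ℕ) : Ω) = -Real.log ((p : ℕ) : ℝ) := by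
  have h1 : absv (some p) (((p : ℕ) : ℕ) : Ω) = (((p : ℕ) : ℝ))⁻¹ := by
    have e : ((((p : ℕ) : ℕ) : Ω)) = algebraMap ℚ Ω (((p : ℕ) : ℕ) : ℚ) := by rw [map_natCast]
    rw [e, absv_some_rat]
    rw [padicNorm.padicNorm_p p.2.one_lt]
    push_cast
    rfl
  rw [lg, h1, Real.log_inv]

/-- if `p^12 ~ π^c` in the base ring then `c · log |π| = -12 log p`. -/
theorem mul_lg_uniformizer {π : ↥(baseRing (padicPlace (p : ℕ)) K₁)} (hπ0 : π ≠ 0) {c : ℕ}
    (hass : Associated ((((p : ℕ) : ℕ) : ↥(baseRing (padicPlace (p : ℕ)) K₁)) ^ 12) (π ^ c)) :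
    (c : ℝ) * lg (some p) (((π : ↥K₁) : ↥K₁) : Ω) = -(12 * Real.log ((p : ℕ) : ℝ)) := by
  obtain ⟨u, hu⟩ := hass
  have h1 := congrArg (fun r : ↥(baseRing (padicPlace (p : ℕ)) K₁) => (((r : ↥K₁) : ↥K₁) : Ω)) hu
  have h2 : ((((p : ℕ) : ℕ) : Ω)) ^ 12 *
      ((((u : ↥(baseRing (padicPlace (p : ℕ)) K₁)) : ↥K₁) : ↥K₁) : Ω) =
      ((((π : ↥K₁) : ↥K₁) : Ω)) ^ c := by
    simpa using h1
  have hp0 : ((((p : ℕ) : ℕ) : Ω)) ≠ 0 := Nat.cast_ne_zero.mpr p.2.ne_zero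
  have hu0 : ((((u : ↥(baseRing (padicPlace (p : ℕ)) K₁)) : ↥K₁) : ↥K₁) : Ω) ≠ 0 := by
    intro h0
    have := absv_coe_unit_baseRing p K₁ u
    rw [h0, absv_zero] at this
    exact zero_ne_one this
  have h3 := congrArg (lg (some p)) h2
  rw [lg_mul (some p) (pow_ne_zero _ hp0) hu0, lg_pow, lg_pow, lg_natCast_self] at h3
  have h4 : lg (some p) ((((u : ↥(baseRing (padicPlace (p : ℕ)) K₁)) : ↥K₁) : ↥K₁) : Ω) = 0 := by
    rw [lg, absv_coe_unit_baseRing, Real.log_one]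
  rw [h4, add_zero] at h3
  rw [← h3]
  push_cast
  ring

end Consts

/-! ### the global bound over a base -/

section Base

variable (p : Nat.Primes) [NeZero (p : ℕ)] [NeZero (1 * (p : ℕ))] {x y : ℤ}
  (h : ((p : ℕ) : ℤ) * x + ((1 : ℕ) : ℤ) * y = 1)

/-- **the global bound over a base** over which `f` is defined and the points of its divisor and of
the divisor of the modular unit are rational. -/
theorem sheetNorm_glob_base (K₁ : IntermediateField ℚ Ω) (hK₁ : IsBase (p : ℕ) K₁)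
    (f : FunN (1 * (p : ℕ))) (D : PtN (1 * (p : ℕ)) →₀ ℤ) (hf : f ≠ 0)
    (hD : IsDivOf (1 * (p : ℕ)) f D)
    (DU : PtN (1 * (p : ℕ)) →₀ ℤ) (hDU : IsDivOf (1 * (p : ℕ)) (unitBar (p : ℕ)) DU)
    (x₁ : ↥(keyFw ↥K₁ (1 * (p : ℕ)) 1)) (hx₁ : limPhi (p : ℕ) K₁ x₁ = f)
    (hratS : ∀ P ∈ D.support ∪ DU.support, IsRationalPlace (ptResW (p : ℕ) K₁ P)) :
    |sheetNorm1 p h p.2 f - sheetNorm0 p (1 * (p : ℕ)) f| ≤
      24 * Real.log ((p : ℕ) : ℝ) * (dnorm D : ℝ) := by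
  classical
  have hA : (padicPlace (p : ℕ)).LiesOverPrime (p : ℕ) :=
    Fermat.Agent.TW.Kill.padicPlace_liesOverPrime (p : ℕ)
  haveI : IsDiscreteValuationRing ↥(baseRing (padicPlace (p : ℕ)) K₁) :=
    hK₁.isDiscreteValuationRing hA
  haveI : IsAlgClosed (IsLocalRing.ResidueField ↥(baseRing (padicPlace (p : ℕ)) K₁)) :=
    hK₁.isAlgClosed_residueField hA
  haveI : CharZero ↥(baseRing (padicPlace (p : ℕ)) K₁) :=
    charZero_valuationSubring_of_algebraRat _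
  letI : Algebra ↥K₁ ℂ := baseToComplex K₁
  obtain ⟨π, hπ⟩ :=
    IsDiscreteValuationRing.exists_irreducible ↥(baseRing (padicPlace (p : ℕ)) K₁)
  have hqπ : (((p : ℕ) : ℕ) : ↥(baseRing (padicPlace (p : ℕ)) K₁)) ∈ Ideal.span {π} := by
    rw [← (IsDiscreteValuationRing.irreducible_iff_uniformizer π).1 hπ]
    exact natCast_prime_mem_maximalIdeal hA K₁
  have M := ssModelOne ↥(baseRing (padicPlace (p : ℕ)) K₁) ↥K₁ hπ h p.2 hqπ
  have hgeo' := model1_geoHyps_inv ↥(baseRing (padicPlace (p : ℕ)) K₁) ↥K₁ hπ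
  have h2 := model1_isTwoSheet_inv ↥(baseRing (padicPlace (p : ℕ)) K₁) ↥K₁ hπ h p.2 hqπ
  obtain ⟨c, hc1, hass, hU⟩ :=
    model1_nodeUnit ↥(baseRing (padicPlace (p : ℕ)) K₁) ↥K₁ hπ h p.2 hqπ
  obtain ⟨Pinf, hPord, hPrat, hPJ, hPφ, hPU⟩ := exists_cuspInfPlace ↥K₁ (p : ℕ)
  have hPU' : Pinf.ord (oneUnit ↥K₁ (p : ℕ)) ≠ 0 := by
    rw [hPU]
    have := p.2.two_le
    omega
  have hx₁0 : x₁ ≠ 0 := by
    rintro rfl
    rw [map_zero] at hx₁
    exact hf hx₁.symm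
  -- the finite sets of places
  have hratT : ∀ P ∈ D.support.image (ptResW (p : ℕ) K₁), IsRationalPlace P := by
    intro P hP
    obtain ⟨Q, hQ, rfl⟩ := Finset.mem_image.mp hP
    exact hratS Q (Finset.mem_union_left _ hQ)
  have hratTU : ∀ P ∈ DU.support.image (ptResW (p : ℕ) K₁), IsRationalPlace P := by
    intro P hP
    obtain ⟨Q, hQ, rfl⟩ := Finset.mem_image.mp hP
    exact hratS Q (Finset.mem_union_right _ hQ)
  have hfT : ∀ P : Place ↥K₁ ↥(keyFw ↥K₁ (1 * (p : ℕ)) 1), P.ord x₁ ≠ 0 →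
      P ∈ D.support.image (ptResW (p : ℕ) K₁) := by
    intro P hP
    obtain ⟨Q, rfl⟩ := exists_ptResW_eq P
    rw [ord_ptResW, hx₁] at hP
    exact Finset.mem_image_of_mem _ (Finsupp.mem_support_iff.mpr (by rw [hD Q]; exact hP))
  have hUT : ∀ P : Place ↥K₁ ↥(keyFw ↥K₁ (1 * (p : ℕ)) 1), P.ord (oneUnit ↥K₁ (p : ℕ)) ≠ 0 →
      P ∈ DU.support.image (ptResW (p : ℕ) K₁) := by
    intro P hP
    obtain ⟨Q, rfl⟩ := exists_ptResW_eq P
    rw [ord_ptResW, limPhi_oneUnit] at hP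
    exact Finset.mem_image_of_mem _ (Finsupp.mem_support_iff.mpr (by rw [hDU Q]; exact hP))
  obtain ⟨ainf, hfinf, hfinf'⟩ :=
    exists_zpow_oneWinf ↥(baseRing (padicPlace (p : ℕ)) K₁) ↥K₁ hπ hx₁0
  obtain ⟨a0, hf0, hf0'⟩ :=
    exists_zpow_oneW0 ↥(baseRing (padicPlace (p : ℕ)) K₁) ↥K₁ hπ h p.2 hx₁0
  have hglob := SSModel.glob M hπ rfl (fun z => ⟨z, rfl⟩) hgeo' h2 hU
    (DU.support.image (ptResW (p : ℕ) K₁)) hratTU hUT hPrat hPJ hPφ hPU' hx₁0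
    (D.support.image (ptResW (p : ℕ) K₁)) hratT hfT ainf a0 hfinf hfinf' hf0 hf0'
  -- the sum of the orders is the norm of the divisor
  have hsum : ∑ P ∈ D.support.image (ptResW (p : ℕ) K₁), |P.ord x₁| = dnorm D := by
    rw [Finset.sum_image]
    · unfold dnorm
      rw [Finsupp.sum]
      refine Finset.sum_congr rfl fun Q _ => ?_
      rw [ord_ptResW, hx₁, hD Q]
    · intro Q hQ Q' _ heq
      exact ptResW_injOn_rational (hratS Q (Finset.mem_union_left _ hQ)) heq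
  rw [hsum] at hglob
  -- the two norms
  have hπK : algebraMap ↥(baseRing (padicPlace (p : ℕ)) K₁) ↥K₁ π ≠ 0 :=
    (map_ne_zero_iff _ (IsFractionRing.injective _ _)).mpr hπ.ne_zero
  have hcst : ∀ a : ℤ, algebraMap ↥K₁ ↥(keyFw ↥K₁ (1 * (p : ℕ)) 1)
      (algebraMap ↥(baseRing (padicPlace (p : ℕ)) K₁) ↥K₁ π ^ a) =
      algebraMap ↥(baseRing (padicPlace (p : ℕ)) K₁) ↥(keyFw ↥K₁ (1 * (p : ℕ)) 1) π ^ a := by
    intro a
    rw [map_zpow₀, ← IsScalarTower.algebraMap_apply]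
  have hlgc : ∀ a : ℤ, lg (some p)
      (((algebraMap ↥(baseRing (padicPlace (p : ℕ)) K₁) ↥K₁ π ^ a : ↥K₁) : ↥K₁) : Ω) =
      (a : ℝ) * lg (some p) (((π : ↥K₁) : ↥K₁) : Ω) := by
    intro a
    have e : (((algebraMap ↥(baseRing (padicPlace (p : ℕ)) K₁) ↥K₁ π ^ a : ↥K₁) : ↥K₁) : Ω) =
        ((((π : ↥K₁) : ↥K₁) : Ω)) ^ a := map_zpow₀ (algebraMap ↥K₁ Ω) _ _
    rw [e, lg_zpow]
  have hn0 : sheetNorm0 p (1 * (p : ℕ)) f = (ainf : ℝ) * lg (some p) (((π : ↥K₁) : ↥K₁) : Ω) := by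
    rw [← hx₁, ← hlgc]
    refine sheetNorm0_limPhi p K₁ (zpow_ne_zero _ hπK) hx₁0 ?_ ?_
    · rw [hcst]; exact hfinf
    · rw [hcst]; exact hfinf'
  have hn1 : sheetNorm1 p h p.2 f = (a0 : ℝ) * lg (some p) (((π : ↥K₁) : ↥K₁) : Ω) := by
    rw [← hx₁, ← hlgc]
    refine sheetNorm1_limPhi p K₁ h p.2 (zpow_ne_zero _ hπK) hx₁0 ?_ ?_
    · rw [hcst]; exact hf0
    · rw [hcst]; exact hf0'
  have hlg := mul_lg_uniformizer p K₁ hπ.ne_zero hass
  rw [hn0, hn1, ← sub_mul, abs_mul]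
  have hcpos : (0 : ℝ) < c := by exact_mod_cast hc1
  have hlogp : 0 ≤ Real.log ((p : ℕ) : ℝ) :=
    Real.log_nonneg (by exact_mod_cast p.2.one_lt.le)
  have hlgabs : |lg (some p) (((π : ↥K₁) : ↥K₁) : Ω)| = 12 * Real.log ((p : ℕ) : ℝ) / c := by
    have e : lg (some p) (((π : ↥K₁) : ↥K₁) : Ω) = -(12 * Real.log ((p : ℕ) : ℝ)) / c := by
      rw [← hlg]
      field_simp
    rw [e, neg_div, abs_neg, abs_of_nonneg (by positivity)]
  have hglobR : |((a0 : ℝ) - (ainf : ℝ))| ≤ 2 * (c : ℝ) * (dnorm D : ℝ) := by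
    have := (Int.cast_le (R := ℝ)).mpr hglob
    push_cast at this
    exact this
  rw [hlgabs]
  calc |(a0 : ℝ) - (ainf : ℝ)| * (12 * Real.log ((p : ℕ) : ℝ) / c)
      ≤ 2 * (c : ℝ) * (dnorm D : ℝ) * (12 * Real.log ((p : ℕ) : ℝ) / c) :=
        mul_le_mul_of_nonneg_right hglobR (by positivity)
    _ = 24 * Real.log ((p : ℕ) : ℝ) * (dnorm D : ℝ) := by
        field_simp
        ring

end Base

/-! ### the global bound -/

section Main

/-- **[GLOB-Ω]**, with the place given as `p : Nat.Primes`. -/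
theorem sheetNorm_glob_primes (p : Nat.Primes) [NeZero (p : ℕ)] [NeZero (1 * (p : ℕ))] {x y : ℤ}
    (h : ((p : ℕ) : ℤ) * x + ((1 : ℕ) : ℤ) * y = 1)
    (f : FunN (1 * (p : ℕ))) (D : PtN (1 * (p : ℕ)) →₀ ℤ) (hf : f ≠ 0)
    (hD : IsDivOf (1 * (p : ℕ)) f D) :
    |sheetNorm1 p h p.2 f - sheetNorm0 p (1 * (p : ℕ)) f| ≤
      24 * Real.log ((p : ℕ) : ℝ) * (dnorm D : ℝ) := by
  classical
  obtain ⟨DU, hDU⟩ := exists_isDivOf (N := 1 * (p : ℕ)) (unitBar_ne_zero (p : ℕ))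
  obtain ⟨K₁, hK₁, -, -, hdesc, hratS⟩ := exists_galBase_descentW (q := (p : ℕ))
    (isBase_flatBase (ℓ := (p : ℕ))) ∅ (fun _ : Unit => f) (D.support ∪ DU.support)
  obtain ⟨x₁, hx₁⟩ := hdesc ()
  exact sheetNorm_glob_base p h K₁ hK₁.isBase f D hf hD DU hDU x₁ hx₁ hratS

/-- **[GLOB-Ω]**: on `X₀(q)` at the place `q`, the logarithms of the Gauss norms of `f` on the two
sheets differ by at most `24 log q` times the norm of the divisor of `f`. -/
theorem sheetNorm_glob {q : ℕ} [NeZero q] [NeZero (1 * q)] {x y : ℤ}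
    (h : (q : ℤ) * x + ((1 : ℕ) : ℤ) * y = 1) (hq : q.Prime)
    (f : FunN (1 * q)) (D : PtN (1 * q) →₀ ℤ) (hf : f ≠ 0) (hD : IsDivOf (1 * q) f D) :
    |sheetNorm1 ⟨q, hq⟩ h hq f - sheetNorm0 ⟨q, hq⟩ (1 * q) f| ≤
      24 * Real.log (q : ℝ) * (dnorm D : ℝ) :=
  sheetNorm_glob_primes ⟨q, hq⟩ h f D hf hD

end Main

end

end Fermat.Agent.MW
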