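import Mathlib
import Fermat.Agent.MW.NADIC_helper1_DiscCF
import Fermat.Agent.MW.NADIC_helper1_Input
import Fermat.Agent.MW.NADIC_helper9_GlobOm

/-!
# Project MW (S17) — [N-ADIC] helper1, [FINAL]: `NadicInput N hN` from the node charts, the two cusp
cell formulas and the node cell formula

The two disc cell formulas `KInf`, `KZero` (`NADIC_helper1_DiscCF`) and the global bound
(`NADIC_helper9_GlobOm`) are plugged in.
-/

set_option autoImplicit false
set_option linter.unusedSectionVars false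
set_option linter.unusedVariables false

open AlgebraicCurve ModularCurve

noncomputable section

namespace Fermat.Agent.MW

open Fermat.Agent.JA Fermat.Agent.FF Fermat.Agent.X0N

/-- `Ω = AlgebraicClosure ℚ`. -/
local notation "Ω" => AlgebraicClosure ℚ

/-- **the cell system of `X₀(N)` at the place `N`** from the node charts, the cell formulas on the
discs of the two cusps and the cell formula on the annuli of the nodes. -/
def cellSysAtN {N : ℕ} [NeZero N] [NeZero (1 * N)] (hN : N.Prime) {x y : ℤ}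
    (h : (N : ℤ) * x + ((1 : ℕ) : ℤ) * y = 1) (W : NodeCharts N)
    (hsep : ∀ s s' : Fin W.nn, absv (some ⟨N, hN⟩) (W.j₀ s - W.j₀ s') < 1 → s = s')
    (hcomp : ∀ Q : PtN (1 * N), KNode ⟨N, hN⟩ N Q →
      ∃ s, absv (some ⟨N, hN⟩) (jv N Q - W.j₀ s) < 1)
    (hci : DiscCF ⟨N, hN⟩ N (KCuspInf ⟨N, hN⟩ N) (jBar (1 * N))⁻¹ (sheetNorm0 ⟨N, hN⟩ (1 * N)))
    (hcz : DiscCF ⟨N, hN⟩ N (KCuspZero ⟨N, hN⟩ N) (jqBar N)⁻¹ (sheetNorm1 ⟨N, hN⟩ h hN))
    (hnode : NodeCF ⟨N, hN⟩ h hN W) : NCellSys2 (1 * N) (some ⟨N, hN⟩) :=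
  W.cellSys h hN (nabs_lt_one hN) hsep hcomp
    (OneCell.discCF_kInf ⟨N, hN⟩ h hN rfl) (OneCell.discCF_kZero ⟨N, hN⟩ h hN rfl) hci hcz hnode
    (24 * Real.log (N : ℝ))
    (mul_nonneg (by norm_num) (Real.log_nonneg (by exact_mod_cast hN.one_lt.le)))
    (fun f D hf hD => sheetNorm_glob h hN f D hf hD)

/-- **`NadicInput N hN`** from the node charts, the cell formulas on the discs of the two cusps and
the cell formula on the annuli of the nodes. -/
theorem nadicInput_of_nodeCharts {N : ℕ} [NeZero N] [NeZero (1 * N)] (hN : N.Prime) {x y : ℤ}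
    (h : (N : ℤ) * x + ((1 : ℕ) : ℤ) * y = 1) (W : NodeCharts N)
    (hsep : ∀ s s' : Fin W.nn, absv (some ⟨N, hN⟩) (W.j₀ s - W.j₀ s') < 1 → s = s')
    (hcomp : ∀ Q : PtN (1 * N), KNode ⟨N, hN⟩ N Q →
      ∃ s, absv (some ⟨N, hN⟩) (jv N Q - W.j₀ s) < 1)
    (hci : DiscCF ⟨N, hN⟩ N (KCuspInf ⟨N, hN⟩ N) (jBar (1 * N))⁻¹ (sheetNorm0 ⟨N, hN⟩ (1 * N)))
    (hcz : DiscCF ⟨N, hN⟩ N (KCuspZero ⟨N, hN⟩ N) (jqBar N)⁻¹ (sheetNorm1 ⟨N, hN⟩ h hN))
    (hnode : NodeCF ⟨N, hN⟩ h hN W) : NadicInput N hN :=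
  nadicInput_of_cellSys_one_mul N hN (cellSysAtN hN h W hsep hcomp hci hcz hnode)

end Fermat.Agent.MW
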