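import Mathlib
import Fermat.Agent.MW.NADIC_helper9_Glob
import Fermat.Agent.MW.NADIC_helper6_Class

/-!
# Project MW (S17) — [N-ADIC] helper3, [CUSP-PT]: the two cuspidal closed points of a level-one
two-sheeted model

`h : SSModel K₁ π q n ∅ t jM j A B VM Winf W0`, `φ = j_q / j^q` (`= B jM / (A jM)^q`).

A rational place `P` at which `j⁻¹` takes a value in `𝔪_R` is centred at a cuspidal closed point `𝔪`
of the chart `j⁻¹` (`j⁻¹ ∈ 𝔪`); the function `φ` is regular at `𝔪` and its value at `P` is a unit of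
`R` iff `𝔪` lies on `C_∞` (and then not on `C_0`), a non-unit iff `𝔪` lies on `C_0` (and then not on
`C_∞`).  On each sheet there is exactly one cuspidal closed point.
-/

set_option autoImplicit false
set_option linter.unusedSectionVars false
set_option linter.style.haveILetI false

open AlgebraicCurve IsLocalRing Polynomial

namespace Fermat.Agent.MW.NAdic

open Fermat.Agent.SS Fermat.Agent.JA Fermat.Agent.FF Fermat.Agent.MW

section Model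

variable {R : Type*} [CommRing R] [IsDomain R] [IsDiscreteValuationRing R] [CharZero R]
  {K₁ : Type*} [Field K₁] [Algebra R K₁] [IsFractionRing R K₁]
  {KM : Type*} [Field KM] [Algebra K₁ KM] [Algebra R KM] [IsScalarTower R K₁ KM]
  {EM : Type*} [Field EM] [Algebra KM EM] [Algebra K₁ EM] [IsScalarTower K₁ KM EM] [Algebra R EM]
  [IsScalarTower R KM EM]
  {KN : Type*} [Field KN] [Algebra K₁ KN] [Algebra R KN] [IsScalarTower R K₁ KN]
  {EN : Type*} [Field EN] [Algebra KN EN] [Algebra K₁ EN] [IsScalarTower K₁ KN EN] [Algebra R EN]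
  [IsScalarTower R KN EN] [FiniteDimensional KN EN]
  {π : R} {q n : ℕ} {t : KM} {jM : EM} {j : KN} {A B : EM →+* EN}
  {VM : ValuationSubring EM} {Winf W0 : ValuationSubring EN}

/-- the coordinate `j⁻¹` as an element of the chart `j⁻¹`. -/
abbrev cuspCoord (R : Type*) [CommRing R] {KN : Type*} [Field KN] [Algebra R KN] (EN : Type*)
    [Field EN] [Algebra KN EN] [Algebra R EN] [IsScalarTower R KN EN] (j : KN) :
    ↥(chartOne R EN j⁻¹) :=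
  ⟨algebraMap KN EN j⁻¹, algebraMap_coord_mem_chartOne j⁻¹⟩

/-- **the centre of a rational place where `j⁻¹` has a value in `𝔪_R`** is a cuspidal closed point
of the chart `j⁻¹`. -/
theorem SSModel.exists_cusp_centre [IsScalarTower R K₁ EN]
    (h : SSModel K₁ π q n (∅ : Finset R) t jM j A B VM Winf W0) (hπ : Irreducible π)
    {P : Place K₁ EN} (hrat : IsRationalPlace P) {r : R} (hr : r ∈ maximalIdeal R)
    (hPJ : HasValueAt P (A jM)⁻¹ (algebraMap R K₁ r)) :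
    ∃ 𝔪 : Ideal ↥(chartOne R EN j⁻¹), 𝔪.IsMaximal ∧ algebraMap R ↥(chartOne R EN j⁻¹) π ∈ 𝔪 ∧
      CentredAt 𝔪 P ∧ cuspCoord R EN j ∈ 𝔪 := by
  have hj0 : j ≠ 0 := by
    rintro rfl
    exact h.j_transcendental isAlgebraic_zero
  have hJ0 : algebraMap KN EN j ≠ 0 := by rw [Ne, map_eq_zero]; exact hj0
  rcases SSModel.exists_centre h hπ P hrat with ⟨𝔪, h𝔪, hπ𝔪, hc⟩ | ⟨𝔪, h𝔪, hπ𝔪, hc, hx⟩
  · exfalso
    haveI := h𝔪
    haveI : IsFractionRing ↥(chartOne R EN j) EN :=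
      isFractionRing_chartOne (K₁ := K₁) j h.j_adjoin
    obtain ⟨s, hs, -⟩ := exists_value_of_centredAt P hrat (chartOne R EN j) hπ 𝔪 hπ𝔪 hc
      (le_locRing (𝔪 := 𝔪) (algebraMap_coord_mem_chartOne j))
    rw [h.A_j] at hPJ
    have h1 := hs.mul hPJ
    rw [mul_inv_cancel₀ hJ0, ← map_mul] at h1
    have h2 := (HasValueAt.one' P).unique h1
    have h3 : s * r = 1 := by
      apply IsFractionRing.injective R K₁
      rw [← h2, map_one]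
    have h4 : (1 : R) ∈ maximalIdeal R := by
      rw [← h3]
      exact Ideal.mul_mem_left _ _ hr
    exact (Ideal.ne_top_iff_one _).mp (IsLocalRing.maximalIdeal.isMaximal R).ne_top h4
  · exact ⟨𝔪, h𝔪, hπ𝔪, hc, hx⟩

/-- the sheets through a closed point of the special fibre of the chart `j⁻¹`. -/
theorem SSModel.cusp_le_or_le
    (h : SSModel K₁ π q n (∅ : Finset R) t jM j A B VM Winf W0) (hπ : Irreducible π)
    (h2 : IsTwoSheet π j⁻¹ Winf W0)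
    (𝔪 : Ideal ↥(chartOne R EN j⁻¹)) [h𝔪 : 𝔪.IsPrime]
    (hπ𝔪 : algebraMap R ↥(chartOne R EN j⁻¹) π ∈ 𝔪) :
    sheetIdeal j⁻¹ Winf h2.chart_le_inf ≤ 𝔪 ∨ sheetIdeal j⁻¹ W0 h2.chart_le_zero ≤ 𝔪 := by
  have hu' := transcendental_inv_of_transcendental h.j_transcendental
  have hK' := adjoin_inv_eq_top h.j_adjoin
  exact le_or_le_of_mem (IsTwoSheet.pi_mem_inf (K₁ := K₁) h2 hπ)
    (IsTwoSheet.pi_mem_zero (K₁ := K₁) h2 hπ) (h2.inf_le_span hπ hu' hK') 𝔪 hπ𝔪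

/-- **the value of `φ` at a rational place centred at a closed point of the chart `j⁻¹`**: it lies
in `R`, is a unit on `C_∞`, and a non-unit at a cuspidal point of `C_0`. -/
theorem SSModel.cusp_phi_value [IsScalarTower R K₁ EN]
    (h : SSModel K₁ π q n (∅ : Finset R) t jM j A B VM Winf W0) (hπ : Irreducible π)
    (h2 : IsTwoSheet π j⁻¹ Winf W0)
    {P : Place K₁ EN} (hrat : IsRationalPlace P)
    (𝔪 : Ideal ↥(chartOne R EN j⁻¹)) [h𝔪 : 𝔪.IsMaximal]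
    (hπ𝔪 : algebraMap R ↥(chartOne R EN j⁻¹) π ∈ 𝔪) (hc : CentredAt 𝔪 P) :
    ∃ u : R, HasValueAt P (B jM * ((A jM) ^ q)⁻¹) (algebraMap R K₁ u) ∧
      (sheetIdeal j⁻¹ Winf h2.chart_le_inf ≤ 𝔪 → IsUnit u) ∧
      (cuspCoord R EN j ∈ 𝔪 → sheetIdeal j⁻¹ W0 h2.chart_le_zero ≤ 𝔪 → u ∈ maximalIdeal R) := by
  haveI h𝔪p : 𝔪.IsPrime := h𝔪.isPrime
  haveI : IsFractionRing ↥(chartOne R EN j⁻¹) EN :=
    isFractionRing_chartOne (K₁ := K₁) j⁻¹ (adjoin_inv_eq_top h.j_adjoin)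
  have hφL := SSModel.cuspPhi_mem_locRing h hπ h2 𝔪
  obtain ⟨u, hu, -⟩ := exists_value_of_centredAt P hrat (chartOne R EN j⁻¹) hπ 𝔪 hπ𝔪 hc hφL
  refine ⟨u, hu, fun hinf => ?_, fun hx h0 => ?_⟩
  · have h1 := SSModel.cuspPhi_sub_one_mem_locMax h hπ h2 𝔪 hinf
    obtain ⟨r, hr, hiff⟩ := exists_value_of_centredAt P hrat (chartOne R EN j⁻¹) hπ 𝔪 hπ𝔪 hc
      (locMax_subset_locRing h1)
    have hr' : r ∈ maximalIdeal R := hiff.mp h1
    have h3 := (hu.sub (HasValueAt.one' P)).unique hr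
    have h4 : u - 1 = r := by
      apply IsFractionRing.injective R K₁
      rw [← h3, map_sub, map_one]
    by_contra hnu
    have h5 : u ∈ maximalIdeal R := (IsLocalRing.mem_maximalIdeal u).mpr hnu
    have h6 : (1 : R) ∈ maximalIdeal R := by
      have e : (1 : R) = u - r := by rw [← h4]; ring
      rw [e]
      exact Ideal.sub_mem _ h5 hr'
    exact (Ideal.ne_top_iff_one _).mp (IsLocalRing.maximalIdeal.isMaximal R).ne_top h6
  · have h1 := SSModel.cuspPhi_pow_mem_locMax h hπ h2 𝔪 hx h0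
    obtain ⟨r, hr, hiff⟩ := exists_value_of_centredAt P hrat (chartOne R EN j⁻¹) hπ 𝔪 hπ𝔪 hc
      (locMax_subset_locRing h1)
    have hr' : r ∈ maximalIdeal R := hiff.mp h1
    have h3 := (hu.pow q).unique hr
    have h4 : u ^ q = r := by
      apply IsFractionRing.injective R K₁
      rw [← h3, map_pow]
    rw [← h4] at hr'
    exact (IsLocalRing.maximalIdeal.isMaximal R).isPrime.mem_of_pow_mem q hr'

/-- **a cuspidal centre where `φ` takes a unit value lies on `C_∞` only.** -/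
theorem SSModel.cusp_sheet_of_isUnit [IsScalarTower R K₁ EN]
    (h : SSModel K₁ π q n (∅ : Finset R) t jM j A B VM Winf W0) (hπ : Irreducible π)
    (h2 : IsTwoSheet π j⁻¹ Winf W0)
    {P : Place K₁ EN} (hrat : IsRationalPlace P)
    (𝔪 : Ideal ↥(chartOne R EN j⁻¹)) [h𝔪 : 𝔪.IsMaximal]
    (hπ𝔪 : algebraMap R ↥(chartOne R EN j⁻¹) π ∈ 𝔪) (hc : CentredAt 𝔪 P)
    (hx : cuspCoord R EN j ∈ 𝔪) {u : R} (hu : IsUnit u)
    (hφ : HasValueAt P (B jM * ((A jM) ^ q)⁻¹) (algebraMap R K₁ u)) :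
    sheetIdeal j⁻¹ Winf h2.chart_le_inf ≤ 𝔪 ∧ ¬ sheetIdeal j⁻¹ W0 h2.chart_le_zero ≤ 𝔪 := by
  haveI h𝔪p : 𝔪.IsPrime := h𝔪.isPrime
  obtain ⟨u', hu', -, h0'⟩ := SSModel.cusp_phi_value h hπ h2 hrat 𝔪 hπ𝔪 hc
  have e : u = u' := IsFractionRing.injective R K₁ (hφ.unique hu')
  have hn : ¬ sheetIdeal j⁻¹ W0 h2.chart_le_zero ≤ 𝔪 := by
    intro h0
    have := h0' hx h0
    rw [← e] at this
    exact (IsLocalRing.mem_maximalIdeal u).mp this hu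
  exact ⟨(SSModel.cusp_le_or_le h hπ h2 𝔪 hπ𝔪).resolve_right hn, hn⟩

/-- **a cuspidal centre where `φ` takes a non-unit value lies on `C_0` only.** -/
theorem SSModel.cusp_sheet_of_mem [IsScalarTower R K₁ EN]
    (h : SSModel K₁ π q n (∅ : Finset R) t jM j A B VM Winf W0) (hπ : Irreducible π)
    (h2 : IsTwoSheet π j⁻¹ Winf W0)
    {P : Place K₁ EN} (hrat : IsRationalPlace P)
    (𝔪 : Ideal ↥(chartOne R EN j⁻¹)) [h𝔪 : 𝔪.IsMaximal]
    (hπ𝔪 : algebraMap R ↥(chartOne R EN j⁻¹) π ∈ 𝔪) (hc : CentredAt 𝔪 P)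
    {u : R} (hu : u ∈ maximalIdeal R)
    (hφ : HasValueAt P (B jM * ((A jM) ^ q)⁻¹) (algebraMap R K₁ u)) :
    sheetIdeal j⁻¹ W0 h2.chart_le_zero ≤ 𝔪 ∧ ¬ sheetIdeal j⁻¹ Winf h2.chart_le_inf ≤ 𝔪 := by
  haveI h𝔪p : 𝔪.IsPrime := h𝔪.isPrime
  obtain ⟨u', hu', hinf', -⟩ := SSModel.cusp_phi_value h hπ h2 hrat 𝔪 hπ𝔪 hc
  have e : u = u' := IsFractionRing.injective R K₁ (hφ.unique hu')
  have hn : ¬ sheetIdeal j⁻¹ Winf h2.chart_le_inf ≤ 𝔪 := by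
    intro hinf
    have := hinf' hinf
    rw [← e] at this
    exact (IsLocalRing.mem_maximalIdeal u).mp hu this
  exact ⟨(SSModel.cusp_le_or_le h hπ h2 𝔪 hπ𝔪).resolve_left hn, hn⟩

/-! ### the cuspidal closed points as points of the two lines -/

/-- **a cuspidal closed point on `C_∞`** is the point `J⁻¹ = 0` of the line `C_∞`. -/
theorem SSModel.cusp_sheetPt_inf
    (h : SSModel K₁ π q n (∅ : Finset R) t jM j A B VM Winf W0)
    (htj : algebraMap KM EM t = jM) (hsurj : Function.Surjective (algebraMap KM EM))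
    (h2 : IsTwoSheet π j⁻¹ Winf W0)
    (𝔪 : Ideal ↥(chartOne R EN j⁻¹)) [h𝔪 : 𝔪.IsPrime]
    (hle : sheetIdeal j⁻¹ Winf h2.chart_le_inf ≤ 𝔪) (hx : cuspCoord R EN j ∈ 𝔪) :
    SheetPt (SSModel.resDegHyp_inf h hsurj).inv (chartOne R EN j⁻¹) 𝔪 0 := by
  have e : (A (algebraMap KM EM t))⁻¹ = algebraMap KN EN j⁻¹ := by
    rw [SSModel.A_t_eq h htj, map_inv₀]
  refine ⟨SSModel.det_cusp_inf h htj hsurj, ?_, ?_, ?_⟩
  · exact (sheet_le_iff (B := chartOne R EN j⁻¹) (𝔪 := 𝔪) h2.chart_le_inf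
      (mem_sheetIdeal_iff j⁻¹ Winf h2.chart_le_inf)).mp hle
  · rw [e]
    exact le_locRing (algebraMap_coord_mem_chartOne j⁻¹)
  · rw [map_zero, sub_zero, e]
    exact (coe_mem_locMax_iff (cuspCoord R EN j)).mpr hx

/-- the elements of the chart `j⁻¹` are polynomials in `J_q⁻¹` modulo `𝔪_{W_0}`. -/
theorem SSModel.det_cusp_zero (h : SSModel K₁ π q n (∅ : Finset R) t jM j A B VM Winf W0)
    (htj : algebraMap KM EM t = jM) (hsurj : Function.Surjective (algebraMap KM EM))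
    (h2 : IsTwoSheet π j⁻¹ Winf W0) :
    ∀ b ∈ chartOne R EN j⁻¹, ∃ g : R[X],
      W0.valuation (b - aeval (B (algebraMap KM EM t))⁻¹ g) < 1 := by
  intro b hb
  have H0 := SSModel.resDegHyp_zero h hsurj
  have H := H0.inv
  have hj0 : j ≠ 0 := by
    rintro rfl
    exact h.j_transcendental isAlgebraic_zero
  have hJ0 : A jM ≠ 0 := by rw [h.A_j, Ne, map_eq_zero]; exact hj0
  have hxJ : algebraMap KN EN j⁻¹ = (A jM)⁻¹ := by rw [map_inv₀, h.A_j]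
  have hJi0 : (A jM)⁻¹ ∈ W0 := by
    rw [← hxJ]; exact h2.chart_le_zero _ (algebraMap_coord_mem_chartOne j⁻¹)
  have hBi : (B jM)⁻¹ ∈ W0 := by
    have := H0.J_inv_mem
    rwa [htj] at this
  have hB0 : B jM ≠ 0 := by
    have := H0.J_ne_zero
    rwa [htj] at this
  rw [← chartOne_algebraMap_eq (R := R) (E := EN) j⁻¹, mem_chartOne_iff] at hb
  refine H.exists_aeval_sub_lt_one_of_adjoin (g₀ := X ^ q) ?_ hb
  rw [map_pow, aeval_X, htj, hxJ]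
  have e : (A jM)⁻¹ - (B jM)⁻¹ ^ q = -((A jM - B jM ^ q) * ((A jM)⁻¹ * (B jM)⁻¹ ^ q)) := by
    have h3 : B jM ^ q ≠ 0 := pow_ne_zero q hB0
    rw [inv_pow]
    field_simp
    ring
  rw [e, Valuation.map_neg]
  exact valuation_mul_lt_one_of_mem W0 h.kron_j_zero (W0.mul_mem _ _ hJi0 (pow_mem hBi q))

/-- **a cuspidal closed point on `C_0`** is the point `J_q⁻¹ = 0` of the line `C_0`. -/
theorem SSModel.cusp_sheetPt_zero
    (h : SSModel K₁ π q n (∅ : Finset R) t jM j A B VM Winf W0)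
    (htj : algebraMap KM EM t = jM) (hsurj : Function.Surjective (algebraMap KM EM))
    (h2 : IsTwoSheet π j⁻¹ Winf W0)
    (hjint : IsIntegral ↥(Algebra.adjoin R {B jM}) (A jM))
    (𝔪 : Ideal ↥(chartOne R EN j⁻¹)) [h𝔪 : 𝔪.IsMaximal]
    (hle : sheetIdeal j⁻¹ W0 h2.chart_le_zero ≤ 𝔪) (hx : cuspCoord R EN j ∈ 𝔪) :
    SheetPt (h𝔪 := h𝔪.isPrime) (SSModel.resDegHyp_zero h hsurj).inv (chartOne R EN j⁻¹) 𝔪 0 := by
  haveI h𝔪p : 𝔪.IsPrime := h𝔪.isPrime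
  have hm := SSModel.jq_inv_mem_locMax_of_cusp h hjint 𝔪 hx
  refine ⟨SSModel.det_cusp_zero h htj hsurj h2, ?_, ?_, ?_⟩
  · exact (sheet_le_iff (B := chartOne R EN j⁻¹) (𝔪 := 𝔪) h2.chart_le_zero
      (mem_sheetIdeal_iff j⁻¹ W0 h2.chart_le_zero)).mp hle
  · rw [htj]
    exact locMax_subset_locRing hm
  · rw [map_zero, sub_zero, htj]
    exact hm

/-- **there is only one cuspidal closed point on `C_∞`.** -/
theorem SSModel.cusp_inf_unique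
    (h : SSModel K₁ π q n (∅ : Finset R) t jM j A B VM Winf W0)
    (htj : algebraMap KM EM t = jM) (hsurj : Function.Surjective (algebraMap KM EM))
    (h2 : IsTwoSheet π j⁻¹ Winf W0)
    {𝔪 𝔪' : Ideal ↥(chartOne R EN j⁻¹)} [h𝔪 : 𝔪.IsMaximal] [h𝔪' : 𝔪'.IsMaximal]
    (hle : sheetIdeal j⁻¹ Winf h2.chart_le_inf ≤ 𝔪) (hx : cuspCoord R EN j ∈ 𝔪)
    (hle' : sheetIdeal j⁻¹ Winf h2.chart_le_inf ≤ 𝔪') (hx' : cuspCoord R EN j ∈ 𝔪') :
    𝔪 = 𝔪' := by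
  haveI := h𝔪.isPrime
  haveI := h𝔪'.isPrime
  refine SheetPt.eq (SSModel.cusp_sheetPt_inf h htj hsurj h2 𝔪 hle hx)
    (SSModel.cusp_sheetPt_inf h htj hsurj h2 𝔪' hle' hx') ?_
  rw [sub_self]
  exact Ideal.zero_mem _

/-- **there is only one cuspidal closed point on `C_0`.** -/
theorem SSModel.cusp_zero_unique
    (h : SSModel K₁ π q n (∅ : Finset R) t jM j A B VM Winf W0)
    (htj : algebraMap KM EM t = jM) (hsurj : Function.Surjective (algebraMap KM EM))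
    (h2 : IsTwoSheet π j⁻¹ Winf W0)
    (hjint : IsIntegral ↥(Algebra.adjoin R {B jM}) (A jM))
    {𝔪 𝔪' : Ideal ↥(chartOne R EN j⁻¹)} [h𝔪 : 𝔪.IsMaximal] [h𝔪' : 𝔪'.IsMaximal]
    (hle : sheetIdeal j⁻¹ W0 h2.chart_le_zero ≤ 𝔪) (hx : cuspCoord R EN j ∈ 𝔪)
    (hle' : sheetIdeal j⁻¹ W0 h2.chart_le_zero ≤ 𝔪') (hx' : cuspCoord R EN j ∈ 𝔪') :
    𝔪 = 𝔪' := by
  refine SheetPt.eq (SSModel.cusp_sheetPt_zero h htj hsurj h2 hjint 𝔪 hle hx)
    (SSModel.cusp_sheetPt_zero h htj hsurj h2 hjint 𝔪' hle' hx') ?_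
  rw [sub_self]
  exact Ideal.zero_mem _

/-! ### the places reducing to the two cusps -/

/-- the place reduces to the cusp `∞`: `j⁻¹` takes a value in `𝔪_R` and `φ` a unit value. -/
def IsCuspInfPlace (R : Type*) [CommRing R] [IsLocalRing R] {K₁ : Type*} [Field K₁] [Algebra R K₁]
    {EM : Type*} [Field EM] {EN : Type*} [Field EN] [Algebra K₁ EN] (A B : EM →+* EN) (jM : EM)
    (q : ℕ) (P : Place K₁ EN) : Prop :=
  ∃ r u : R, r ∈ maximalIdeal R ∧ IsUnit u ∧ HasValueAt P (A jM)⁻¹ (algebraMap R K₁ r) ∧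
    HasValueAt P (B jM * ((A jM) ^ q)⁻¹) (algebraMap R K₁ u)

/-- the place reduces to the cusp `0`: `j⁻¹` and `φ` take values in `𝔪_R`. -/
def IsCuspZeroPlace (R : Type*) [CommRing R] [IsLocalRing R] {K₁ : Type*} [Field K₁] [Algebra R K₁]
    {EM : Type*} [Field EM] {EN : Type*} [Field EN] [Algebra K₁ EN] (A B : EM →+* EN) (jM : EM)
    (q : ℕ) (P : Place K₁ EN) : Prop :=
  ∃ r u : R, r ∈ maximalIdeal R ∧ u ∈ maximalIdeal R ∧
    HasValueAt P (A jM)⁻¹ (algebraMap R K₁ r) ∧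
    HasValueAt P (B jM * ((A jM) ^ q)⁻¹) (algebraMap R K₁ u)

/-- at a rational place where `j⁻¹` has a value in `𝔪_R`, `φ` has a value in `R`. -/
theorem SSModel.exists_phi_value_of_cusp [IsScalarTower R K₁ EN]
    (h : SSModel K₁ π q n (∅ : Finset R) t jM j A B VM Winf W0) (hπ : Irreducible π)
    (h2 : IsTwoSheet π j⁻¹ Winf W0)
    {P : Place K₁ EN} (hrat : IsRationalPlace P) {r : R} (hr : r ∈ maximalIdeal R)
    (hPJ : HasValueAt P (A jM)⁻¹ (algebraMap R K₁ r)) :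
    ∃ u : R, HasValueAt P (B jM * ((A jM) ^ q)⁻¹) (algebraMap R K₁ u) := by
  obtain ⟨𝔪, h𝔪, hπ𝔪, hc, hx⟩ := SSModel.exists_cusp_centre h hπ hrat hr hPJ
  haveI := h𝔪
  obtain ⟨u, hu, -, -⟩ := SSModel.cusp_phi_value h hπ h2 hrat 𝔪 hπ𝔪 hc
  exact ⟨u, hu⟩

/-- a rational place where `j⁻¹` has a value in `𝔪_R` reduces to one of the two cusps. -/
theorem SSModel.cuspInf_or_cuspZero [IsScalarTower R K₁ EN]
    (h : SSModel K₁ π q n (∅ : Finset R) t jM j A B VM Winf W0) (hπ : Irreducible π)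
    (h2 : IsTwoSheet π j⁻¹ Winf W0)
    {P : Place K₁ EN} (hrat : IsRationalPlace P) {r : R} (hr : r ∈ maximalIdeal R)
    (hPJ : HasValueAt P (A jM)⁻¹ (algebraMap R K₁ r)) :
    IsCuspInfPlace R A B jM q P ∨ IsCuspZeroPlace R A B jM q P := by
  obtain ⟨u, hu⟩ := SSModel.exists_phi_value_of_cusp h hπ h2 hrat hr hPJ
  by_cases huu : IsUnit u
  · exact Or.inl ⟨r, u, hr, huu, hPJ, hu⟩
  · exact Or.inr ⟨r, u, hr, (IsLocalRing.mem_maximalIdeal u).mpr huu, hPJ, hu⟩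

/-- **the cuspidal closed point of `C_∞`** and the places centred at it. -/
theorem SSModel.exists_cuspInf_point [IsScalarTower R K₁ EN]
    (h : SSModel K₁ π q n (∅ : Finset R) t jM j A B VM Winf W0) (hπ : Irreducible π)
    (htj : algebraMap KM EM t = jM) (hsurj : Function.Surjective (algebraMap KM EM))
    (h2 : IsTwoSheet π j⁻¹ Winf W0)
    {Q : Place K₁ EN} (hQrat : IsRationalPlace Q) (hQ : IsCuspInfPlace R A B jM q Q) :
    ∃ (𝔪 : Ideal ↥(chartOne R EN j⁻¹)) (_ : 𝔪.IsMaximal),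
      algebraMap R ↥(chartOne R EN j⁻¹) π ∈ 𝔪 ∧ cuspCoord R EN j ∈ 𝔪 ∧
      sheetIdeal j⁻¹ Winf h2.chart_le_inf ≤ 𝔪 ∧ ¬ sheetIdeal j⁻¹ W0 h2.chart_le_zero ≤ 𝔪 ∧
      ∀ P : Place K₁ EN, IsRationalPlace P →
        (CentredAt 𝔪 P ↔ IsCuspInfPlace R A B jM q P) := by
  obtain ⟨r, u, hr, hu, hQJ, hQφ⟩ := hQ
  obtain ⟨𝔪, h𝔪, hπ𝔪, hc, hx⟩ := SSModel.exists_cusp_centre h hπ hQrat hr hQJ
  haveI := h𝔪
  haveI h𝔪p : 𝔪.IsPrime := h𝔪.isPrime
  haveI : IsFractionRing ↥(chartOne R EN j⁻¹) EN :=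
    isFractionRing_chartOne (K₁ := K₁) j⁻¹ (adjoin_inv_eq_top h.j_adjoin)
  obtain ⟨hle, hnle⟩ := SSModel.cusp_sheet_of_isUnit h hπ h2 hQrat 𝔪 hπ𝔪 hc hx hu hQφ
  have hxJ : algebraMap KN EN j⁻¹ = (A jM)⁻¹ := by rw [map_inv₀, h.A_j]
  refine ⟨𝔪, h𝔪, hπ𝔪, hx, hle, hnle, fun P hP => ⟨fun hcP => ?_, fun hPc => ?_⟩⟩
  · have hmem : algebraMap KN EN j⁻¹ ∈ locMax (chartOne R EN j⁻¹) 𝔪 :=
      (coe_mem_locMax_iff (cuspCoord R EN j)).mpr hx
    obtain ⟨r', hr', hiff⟩ := exists_value_of_centredAt P hP (chartOne R EN j⁻¹) hπ 𝔪 hπ𝔪 hcP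
      (locMax_subset_locRing hmem)
    obtain ⟨u', hu', hunit, -⟩ := SSModel.cusp_phi_value h hπ h2 hP 𝔪 hπ𝔪 hcP
    rw [hxJ] at hr'
    exact ⟨r', u', hiff.mp hmem, hunit hle, hr', hu'⟩
  · obtain ⟨r', u', hr', hu', hPJ, hPφ⟩ := hPc
    obtain ⟨𝔪', h𝔪', hπ𝔪', hc', hx'⟩ := SSModel.exists_cusp_centre h hπ hP hr' hPJ
    haveI := h𝔪'
    obtain ⟨hle', -⟩ := SSModel.cusp_sheet_of_isUnit h hπ h2 hP 𝔪' hπ𝔪' hc' hx' hu' hPφ
    rw [SSModel.cusp_inf_unique h htj hsurj h2 hle hx hle' hx']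
    exact hc'

/-- **the cuspidal closed point of `C_0`** and the places centred at it. -/
theorem SSModel.exists_cuspZero_point [IsScalarTower R K₁ EN]
    (h : SSModel K₁ π q n (∅ : Finset R) t jM j A B VM Winf W0) (hπ : Irreducible π)
    (htj : algebraMap KM EM t = jM) (hsurj : Function.Surjective (algebraMap KM EM))
    (h2 : IsTwoSheet π j⁻¹ Winf W0)
    (hjint : IsIntegral ↥(Algebra.adjoin R {B jM}) (A jM))
    {Q : Place K₁ EN} (hQrat : IsRationalPlace Q) (hQ : IsCuspZeroPlace R A B jM q Q) :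
    ∃ (𝔪 : Ideal ↥(chartOne R EN j⁻¹)) (_ : 𝔪.IsMaximal),
      algebraMap R ↥(chartOne R EN j⁻¹) π ∈ 𝔪 ∧ cuspCoord R EN j ∈ 𝔪 ∧
      sheetIdeal j⁻¹ W0 h2.chart_le_zero ≤ 𝔪 ∧ ¬ sheetIdeal j⁻¹ Winf h2.chart_le_inf ≤ 𝔪 ∧
      (B jM)⁻¹ ∈ locMax (chartOne R EN j⁻¹) 𝔪 ∧
      ∀ P : Place K₁ EN, IsRationalPlace P →
        (CentredAt 𝔪 P ↔ IsCuspZeroPlace R A B jM q P) := by
  obtain ⟨r, u, hr, hu, hQJ, hQφ⟩ := hQ
  obtain ⟨𝔪, h𝔪, hπ𝔪, hc, hx⟩ := SSModel.exists_cusp_centre h hπ hQrat hr hQJ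
  haveI := h𝔪
  haveI h𝔪p : 𝔪.IsPrime := h𝔪.isPrime
  haveI : IsFractionRing ↥(chartOne R EN j⁻¹) EN :=
    isFractionRing_chartOne (K₁ := K₁) j⁻¹ (adjoin_inv_eq_top h.j_adjoin)
  obtain ⟨hle, hnle⟩ := SSModel.cusp_sheet_of_mem h hπ h2 hQrat 𝔪 hπ𝔪 hc hu hQφ
  have hxJ : algebraMap KN EN j⁻¹ = (A jM)⁻¹ := by rw [map_inv₀, h.A_j]
  refine ⟨𝔪, h𝔪, hπ𝔪, hx, hle, hnle, SSModel.jq_inv_mem_locMax_of_cusp h hjint 𝔪 hx,
    fun P hP => ⟨fun hcP => ?_, fun hPc => ?_⟩⟩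
  · have hmem : algebraMap KN EN j⁻¹ ∈ locMax (chartOne R EN j⁻¹) 𝔪 :=
      (coe_mem_locMax_iff (cuspCoord R EN j)).mpr hx
    obtain ⟨r', hr', hiff⟩ := exists_value_of_centredAt P hP (chartOne R EN j⁻¹) hπ 𝔪 hπ𝔪 hcP
      (locMax_subset_locRing hmem)
    obtain ⟨u', hu', -, hnon⟩ := SSModel.cusp_phi_value h hπ h2 hP 𝔪 hπ𝔪 hcP
    rw [hxJ] at hr'
    exact ⟨r', u', hiff.mp hmem, hnon hx hle, hr', hu'⟩
  · obtain ⟨r', u', hr', hu', hPJ, hPφ⟩ := hPc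
    obtain ⟨𝔪', h𝔪', hπ𝔪', hc', hx'⟩ := SSModel.exists_cusp_centre h hπ hP hr' hPJ
    haveI := h𝔪'
    obtain ⟨hle', -⟩ := SSModel.cusp_sheet_of_mem h hπ h2 hP 𝔪' hπ𝔪' hc' hu' hPφ
    rw [SSModel.cusp_zero_unique h htj hsurj h2 hjint hle hx hle' hx']
    exact hc'

/-! ### the cells of the two cusps -/

/-- **the cell of the cusp `∞`**: the value formula in the coordinate `j⁻¹`, the product running over
the zeros and poles of `f` reducing to the cusp `∞`. -/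
theorem SSModel.cuspInf_cell [IsAlgClosed (IsLocalRing.ResidueField R)]
    [DecidableEq (Place K₁ EN)] [IsScalarTower R K₁ EN]
    (h : SSModel K₁ π q n (∅ : Finset R) t jM j A B VM Winf W0) (hπ : Irreducible π)
    (hgeo' : GeoHyps K₁ π t⁻¹ EM n (∅ : Finset R)) (h2 : IsTwoSheet π j⁻¹ Winf W0)
    (htj : algebraMap KM EM t = jM) (hsurj : Function.Surjective (algebraMap KM EM))
    {f : EN} (hf : f ≠ 0) (T : Finset (Place K₁ EN))
    (hrat : ∀ P ∈ T, IsRationalPlace P)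
    (hT : ∀ P ∈ T, IsCuspInfPlace R A B jM q P)
    (hfT : ∀ P : Place K₁ EN, P.ord f ≠ 0 →
      IsRationalPlace P ∧ (IsCuspInfPlace R A B jM q P → P ∈ T))
    (ζ : Place K₁ EN → R)
    (hζ : ∀ P ∈ T, HasValueAt P (A jM)⁻¹ (algebraMap R K₁ (ζ P)))
    (a : ℤ) (hfa : f * (algebraMap R EN π ^ a)⁻¹ ∈ Winf)
    (hfa' : (f * (algebraMap R EN π ^ a)⁻¹)⁻¹ ∈ Winf)
    {Q : Place K₁ EN} (hQ : Q ∈ T) :
    Q.ord ((A jM)⁻¹ - algebraMap K₁ EN (algebraMap R K₁ (ζ Q))) = 1 ∧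
    ∃ w : Rˣ, HasValueAt Q
      (f * (((A jM)⁻¹ - algebraMap K₁ EN (algebraMap R K₁ (ζ Q))) ^ (Q.ord f))⁻¹)
      (algebraMap R K₁ π ^ a * algebraMap R K₁ (w : R) *
        ∏ P ∈ T.erase Q, (algebraMap R K₁ (ζ Q) - algebraMap R K₁ (ζ P)) ^ (P.ord f)) := by
  obtain ⟨𝔪, h𝔪, hπ𝔪, hx, hle, hnle, hiff⟩ :=
    SSModel.exists_cuspInf_point h hπ htj hsurj h2 (hrat Q hQ) (hT Q hQ)
  haveI := h𝔪
  have e : A (algebraMap KM EM t⁻¹) = (A jM)⁻¹ := by rw [map_inv₀, map_inv₀, htj]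
  have hxJ : algebraMap KN EN j⁻¹ = (A jM)⁻¹ := by rw [map_inv₀, h.A_j]
  have hreg : A (algebraMap KM EM t⁻¹) ∈ locRing (chartOne R EN j⁻¹) 𝔪 := by
    rw [e, ← hxJ]
    exact le_locRing (algebraMap_coord_mem_chartOne j⁻¹)
  have key := SSModel.cell_cusp_inf h hπ hgeo' h2 𝔪 hle hnle hreg hf T
    (fun P hP => (hiff P (hrat P hP)).mpr (hT P hP)) hrat
    (fun P hcP hPf => (hfT P hPf).2 ((hiff P (hfT P hPf).1).mp hcP)) ζ
    (fun P hP => by rw [e]; exact hζ P hP) a hfa hfa'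
    ((hiff Q (hrat Q hQ)).mpr (hT Q hQ)) (hrat Q hQ) (by rw [e]; exact hζ Q hQ)
  rw [e] at key
  exact key

/-- **the cell of the cusp `0`**: the value formula in the coordinate `j_q⁻¹`, the product running
over the zeros and poles of `f` reducing to the cusp `0`. -/
theorem SSModel.cuspZero_cell [IsAlgClosed (IsLocalRing.ResidueField R)]
    [DecidableEq (Place K₁ EN)] [IsScalarTower R K₁ EN]
    (h : SSModel K₁ π q n (∅ : Finset R) t jM j A B VM Winf W0) (hπ : Irreducible π)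
    (hgeo' : GeoHyps K₁ π t⁻¹ EM n (∅ : Finset R)) (h2 : IsTwoSheet π j⁻¹ Winf W0)
    (htj : algebraMap KM EM t = jM) (hsurj : Function.Surjective (algebraMap KM EM))
    (hjint : IsIntegral ↥(Algebra.adjoin R {B jM}) (A jM))
    {f : EN} (hf : f ≠ 0) (T : Finset (Place K₁ EN))
    (hrat : ∀ P ∈ T, IsRationalPlace P)
    (hT : ∀ P ∈ T, IsCuspZeroPlace R A B jM q P)
    (hfT : ∀ P : Place K₁ EN, P.ord f ≠ 0 →
      IsRationalPlace P ∧ (IsCuspZeroPlace R A B jM q P → P ∈ T))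
    (a : ℤ) (hfa : f * (algebraMap R EN π ^ a)⁻¹ ∈ W0)
    (hfa' : (f * (algebraMap R EN π ^ a)⁻¹)⁻¹ ∈ W0)
    {Q : Place K₁ EN} (hQ : Q ∈ T) :
    ∃ ζ : Place K₁ EN → R,
      (∀ P ∈ T, ζ P ∈ maximalIdeal R ∧ HasValueAt P (B jM)⁻¹ (algebraMap R K₁ (ζ P))) ∧
      Q.ord ((B jM)⁻¹ - algebraMap K₁ EN (algebraMap R K₁ (ζ Q))) = 1 ∧
      ∃ w : Rˣ, HasValueAt Q
        (f * (((B jM)⁻¹ - algebraMap K₁ EN (algebraMap R K₁ (ζ Q))) ^ (Q.ord f))⁻¹)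
        (algebraMap R K₁ π ^ a * algebraMap R K₁ (w : R) *
          ∏ P ∈ T.erase Q, (algebraMap R K₁ (ζ Q) - algebraMap R K₁ (ζ P)) ^ (P.ord f)) := by
  obtain ⟨𝔪, h𝔪, hπ𝔪, hx, hle, hnle, hBm, hiff⟩ :=
    SSModel.exists_cuspZero_point h hπ htj hsurj h2 hjint (hrat Q hQ) (hT Q hQ)
  haveI := h𝔪
  haveI : IsFractionRing ↥(chartOne R EN j⁻¹) EN :=
    isFractionRing_chartOne (K₁ := K₁) j⁻¹ (adjoin_inv_eq_top h.j_adjoin)
  have e : B (algebraMap KM EM t⁻¹) = (B jM)⁻¹ := by rw [map_inv₀, map_inv₀, htj]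
  have hreg : B (algebraMap KM EM t⁻¹) ∈ locRing (chartOne R EN j⁻¹) 𝔪 := by
    rw [e]
    exact locMax_subset_locRing hBm
  have hval : ∀ P : Place K₁ EN, P ∈ T → ∃ r : R, r ∈ maximalIdeal R ∧
      HasValueAt P (B jM)⁻¹ (algebraMap R K₁ r) := by
    intro P hP
    obtain ⟨r, hr, hiff'⟩ := exists_value_of_centredAt P (hrat P hP) (chartOne R EN j⁻¹) hπ 𝔪 hπ𝔪
      ((hiff P (hrat P hP)).mpr (hT P hP)) (locMax_subset_locRing hBm)
    exact ⟨r, hiff'.mp hBm, hr⟩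
  classical
  let ζ : Place K₁ EN → R := fun P => if hP : P ∈ T then (hval P hP).choose else 0
  have hζ : ∀ P ∈ T, ζ P ∈ maximalIdeal R ∧ HasValueAt P (B jM)⁻¹ (algebraMap R K₁ (ζ P)) := by
    intro P hP
    have : ζ P = (hval P hP).choose := dif_pos hP
    rw [this]
    exact (hval P hP).choose_spec
  have key := SSModel.cell_cusp_zero h hπ hgeo' h2 𝔪 hle hnle hreg hf T
    (fun P hP => (hiff P (hrat P hP)).mpr (hT P hP)) hrat
    (fun P hcP hPf => (hfT P hPf).2 ((hiff P (hfT P hPf).1).mp hcP)) ζ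
    (fun P hP => by rw [e]; exact (hζ P hP).2) a hfa hfa'
    ((hiff Q (hrat Q hQ)).mpr (hT Q hQ)) (hrat Q hQ) (by rw [e]; exact (hζ Q hQ).2)
  rw [e] at key
  exact ⟨ζ, hζ, key⟩

end Model

end Fermat.Agent.MW.NAdic
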