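import Mathlib
import Fermat.Agent.MW.NADIC_helper6_Ctx

/-!
# Project MW (S17) — [N-ADIC] helper6, [DICT-IFACE]: the dictionary between the kinds of points of
`X₀(q)` over `Ω` (defined through VALUES in `NADIC_helper6_OmDefs`) and the closed points of the
level-one models over the bases `K₁ ⊇ K₀`

`OneDict p h hq hpq 𝒜 K₀` : for every base `K₁ ⊇ K₀` (with uniformizer `π`) and every point `Q`
rational over `K₁`, according to the kind of `Q`: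

* `sinf` : the centre `𝔪` of `Q` in the chart `j` lies on `C_∞` only, and a rational point `P` has
  the same centre iff it is of kind `sinf` and `|j(P) - j(Q)| < 1`;
* `s0` : the same on `C_0`, with `j_q`;
* `cinf`, `c0` : the same in the chart `j⁻¹` with `j⁻¹`, `j_q⁻¹`;
* `nd i` : the centre is a node, `𝒜.x i` is (the image of) a node coordinate in normal form there,
  of thickness `m` with `m · log |π| = 𝒜.μ i`, and `P` has the same centre iff it is of kind `nd i`.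
-/

set_option autoImplicit false
set_option linter.unusedSectionVars false
set_option linter.unusedVariables false
set_option linter.style.haveILetI false
set_option synthInstance.maxHeartbeats 200000

open IntermediateField AlgebraicCurve ModularCurve

noncomputable section

namespace Fermat.Agent.MW.OneCell

open Fermat.Agent.JA Fermat.Agent.FF Fermat.Agent.SS Fermat.Agent.Igusa Fermat.Agent.X0N
  Fermat.Agent.MW Fermat.Agent.MW.NAdic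

open scoped Fermat.Agent.JA.Host

attribute [local instance] baseToComplex

/-- `Ω = AlgebraicClosure ℚ`. -/
local notation "Ω" => AlgebraicClosure ℚ

variable (p : Nat.Primes) {q : ℕ} [NeZero q] [NeZero (1 * q)] {x y : ℤ}
  (h : (q : ℤ) * x + ((1 : ℕ) : ℤ) * y = 1) (hq : q.Prime) (hpq : (p : ℕ) = q)
  (𝒜 : OneAtlas q) (K₀ : IntermediateField ℚ Ω)

/-- **the dictionary** (see the file header). -/
structure OneDict : Prop where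
  sinf : ∀ (K₁ : IntermediateField ℚ Ω) [IsDiscreteValuationRing (R1 p K₁)]
    (_ : IsBase (p : ℕ) K₁) (_ : K₀ ≤ K₁) {π : R1 p K₁} (hπ : Irreducible π) (Q : PtN (1 * q)),
    IsRationalPlace (ptResW q K₁ Q) → kind p 𝒜 Q = kSinf 𝒜 →
    ∃ 𝔪 : Ideal ↥(chartOne (R1 p K₁) (E1 q K₁) (gJ K₁)), 𝔪.IsMaximal ∧
      CentredAt 𝔪 (ptResW q K₁ Q) ∧
      sheetIdeal (gJ K₁) (Winf1 p q K₁) (mdl h hq hπ hpq).two.chart_le_inf ≤ 𝔪 ∧
      ¬ sheetIdeal (gJ K₁) (W01 p q K₁ h hq) (mdl h hq hπ hpq).two.chart_le_zero ≤ 𝔪 ∧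
      ∀ P : PtN (1 * q), IsRationalPlace (ptResW q K₁ P) →
        (CentredAt 𝔪 (ptResW q K₁ P) ↔
          kind p 𝒜 P = kSinf 𝒜 ∧ absv (some p) (zb p 𝒜 P - zb p 𝒜 Q) < 1)
  s0 : ∀ (K₁ : IntermediateField ℚ Ω) [IsDiscreteValuationRing (R1 p K₁)]
    (_ : IsBase (p : ℕ) K₁) (_ : K₀ ≤ K₁) {π : R1 p K₁} (hπ : Irreducible π) (Q : PtN (1 * q)),
    IsRationalPlace (ptResW q K₁ Q) → kind p 𝒜 Q = kS0 𝒜 →
    ∃ 𝔪 : Ideal ↥(chartOne (R1 p K₁) (E1 q K₁) (gJ K₁)), 𝔪.IsMaximal ∧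
      CentredAt 𝔪 (ptResW q K₁ Q) ∧
      sheetIdeal (gJ K₁) (W01 p q K₁ h hq) (mdl h hq hπ hpq).two.chart_le_zero ≤ 𝔪 ∧
      ¬ sheetIdeal (gJ K₁) (Winf1 p q K₁) (mdl h hq hπ hpq).two.chart_le_inf ≤ 𝔪 ∧
      ∀ P : PtN (1 * q), IsRationalPlace (ptResW q K₁ P) →
        (CentredAt 𝔪 (ptResW q K₁ P) ↔
          kind p 𝒜 P = kS0 𝒜 ∧ absv (some p) (zb p 𝒜 P - zb p 𝒜 Q) < 1)
  cinf : ∀ (K₁ : IntermediateField ℚ Ω) [IsDiscreteValuationRing (R1 p K₁)]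
    (_ : IsBase (p : ℕ) K₁) (_ : K₀ ≤ K₁) {π : R1 p K₁} (hπ : Irreducible π) (Q : PtN (1 * q)),
    IsRationalPlace (ptResW q K₁ Q) → kind p 𝒜 Q = kCinf 𝒜 →
    ∃ 𝔪 : Ideal ↥(chartOne (R1 p K₁) (E1 q K₁) (gJ K₁)⁻¹), 𝔪.IsMaximal ∧
      CentredAt 𝔪 (ptResW q K₁ Q) ∧
      sheetIdeal (gJ K₁)⁻¹ (Winf1 p q K₁) (mdl_two' h hq hπ hpq).chart_le_inf ≤ 𝔪 ∧
      ¬ sheetIdeal (gJ K₁)⁻¹ (W01 p q K₁ h hq) (mdl_two' h hq hπ hpq).chart_le_zero ≤ 𝔪 ∧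
      ∀ P : PtN (1 * q), IsRationalPlace (ptResW q K₁ P) →
        (CentredAt 𝔪 (ptResW q K₁ P) ↔
          kind p 𝒜 P = kCinf 𝒜 ∧ absv (some p) (zb p 𝒜 P - zb p 𝒜 Q) < 1)
  c0 : ∀ (K₁ : IntermediateField ℚ Ω) [IsDiscreteValuationRing (R1 p K₁)]
    (_ : IsBase (p : ℕ) K₁) (_ : K₀ ≤ K₁) {π : R1 p K₁} (hπ : Irreducible π) (Q : PtN (1 * q)),
    IsRationalPlace (ptResW q K₁ Q) → kind p 𝒜 Q = kC0 𝒜 →
    ∃ (𝔪 : Ideal ↥(chartOne (R1 p K₁) (E1 q K₁) (gJ K₁)⁻¹)) (h𝔪 : 𝔪.IsMaximal),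
      CentredAt 𝔪 (ptResW q K₁ Q) ∧
      sheetIdeal (gJ K₁)⁻¹ (W01 p q K₁ h hq) (mdl_two' h hq hπ hpq).chart_le_zero ≤ 𝔪 ∧
      ¬ sheetIdeal (gJ K₁)⁻¹ (Winf1 p q K₁) (mdl_two' h hq hπ hpq).chart_le_inf ≤ 𝔪 ∧
      (haveI := h𝔪.isPrime; hB q K₁ (algebraMap (KJ K₁) (KJ K₁) (gJ K₁)⁻¹) ∈
          locRing (chartOne (R1 p K₁) (E1 q K₁) (gJ K₁)⁻¹) 𝔪) ∧
      ∀ P : PtN (1 * q), IsRationalPlace (ptResW q K₁ P) →
        (CentredAt 𝔪 (ptResW q K₁ P) ↔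
          kind p 𝒜 P = kC0 𝒜 ∧ absv (some p) (zb p 𝒜 P - zb p 𝒜 Q) < 1)
  nd : ∀ (K₁ : IntermediateField ℚ Ω) [IsDiscreteValuationRing (R1 p K₁)]
    (_ : IsBase (p : ℕ) K₁) (_ : K₀ ≤ K₁) {π : R1 p K₁} (hπ : Irreducible π) (i : 𝒜.I) (Q : PtN (1 * q)),
    IsRationalPlace (ptResW q K₁ Q) → kind p 𝒜 Q = kNd 𝒜 i →
    ∃ (𝔪 : Ideal ↥(chartOne (R1 p K₁) (E1 q K₁) (gJ K₁))) (h𝔪 : 𝔪.IsMaximal),
      CentredAt 𝔪 (ptResW q K₁ Q) ∧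
      sheetIdeal (gJ K₁) (Winf1 p q K₁) (mdl h hq hπ hpq).two.chart_le_inf ≤ 𝔪 ∧
      sheetIdeal (gJ K₁) (W01 p q K₁ h hq) (mdl h hq hπ hpq).two.chart_le_zero ≤ 𝔪 ∧
      (∃ (X : E1 q K₁) (m : ℕ),
        (haveI := h𝔪.isPrime; IsNodeCoord π (isFractionRing_chartOne (K₁ := ↥K₁) (gJ K₁) (mdl h hq hπ hpq).j_adjoin)
            (sheetIdeal (gJ K₁) (Winf1 p q K₁) (mdl h hq hπ hpq).two.chart_le_inf)
            (sheetIdeal (gJ K₁) (W01 p q K₁ h hq) (mdl h hq hπ hpq).two.chart_le_zero) 𝔪 X m) ∧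
        limPhi q K₁ X = 𝒜.x i ∧
        (m : ℝ) * lg (some p) (((π : R1 p K₁) : ↥K₁) : Ω) = 𝒜.μ i ∧
        -bigL (q := q) p ≤ 𝒜.μ i) ∧
      ∀ P : PtN (1 * q), IsRationalPlace (ptResW q K₁ P) →
        (CentredAt 𝔪 (ptResW q K₁ P) ↔ kind p 𝒜 P = kNd 𝒜 i)

end Fermat.Agent.MW.OneCell
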