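import Mathlib
import Fermat.Agent.MW.NADIC_helper6_DictIface
import Fermat.Agent.MW.NADIC_helper3_CuspPt

/-!
# Project MW (S17) — [N-ADIC] helper3, [CUSP-DICT]: the fields `cinf`, `c0` of the dictionary
`OneDict` (kinds of points over `Ω` ↔ closed points of the level-one model)

The two cuspidal kinds `kCinf`, `kC0` of a point `Q` of `X₀(q)` rational over a base `K₁`
correspond to the two cuspidal closed points of the chart `j⁻¹` of the level-one model over `K₁`.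
-/

set_option autoImplicit false
set_option linter.unusedSectionVars false
set_option linter.unusedVariables false
set_option linter.style.haveILetI false
set_option synthInstance.maxHeartbeats 200000

open IntermediateField AlgebraicCurve ModularCurve

noncomputable section

namespace Fermat.Agent.MW.OneCell

open Fermat.Agent.JA Fermat.Agent.FF Fermat.Agent.SS Fermat.Agent.Igusa Fermat.Agent.X0N
  Fermat.Agent.MW Fermat.Agent.MW.NAdic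

open scoped Fermat.Agent.JA.Host

attribute [local instance] baseToComplex

/-- `Ω = AlgebraicClosure ℚ`. -/
local notation "Ω" => AlgebraicClosure ℚ

section Kinds

variable (p : Nat.Primes) {q : ℕ} [NeZero q] [NeZero (1 * q)] (𝒜 : OneAtlas q)

/-- the kind `cinf`: cuspidal with `|φ(Q)| = 1`. -/
theorem kind_eq_kCinf_iff (Q : PtN (1 * q)) :
    kind p 𝒜 Q = kCinf 𝒜 ↔
      IsCuspidal p Q ∧ absv (some p) (valN (1 * q) Q (phiBar q)) = 1 := by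
  classical
  unfold kind
  by_cases hc : IsCuspidal p Q
  · rw [if_pos hc]
    by_cases h1 : absv (some p) (valN (1 * q) Q (phiBar q)) = 1
    · rw [if_pos h1]
      exact ⟨fun _ => ⟨hc, h1⟩, fun _ => rfl⟩
    · rw [if_neg h1]
      refine ⟨fun h => ?_, fun h => absurd h.2 h1⟩
      exact absurd (Sum.inl.inj h) (by decide)
  · rw [if_neg hc]
    refine ⟨fun h => ?_, fun h => absurd h.1 hc⟩
    exfalso
    split_ifs at h with h1 h2 h3
    all_goals exact absurd (Sum.inl.inj h) (by decide)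

/-- the kind `c0`: cuspidal with `|φ(Q)| ≠ 1`. -/
theorem kind_eq_kC0_iff (Q : PtN (1 * q)) :
    kind p 𝒜 Q = kC0 𝒜 ↔
      IsCuspidal p Q ∧ absv (some p) (valN (1 * q) Q (phiBar q)) ≠ 1 := by
  classical
  unfold kind
  by_cases hc : IsCuspidal p Q
  · rw [if_pos hc]
    by_cases h1 : absv (some p) (valN (1 * q) Q (phiBar q)) = 1
    · rw [if_pos h1]
      refine ⟨fun h => ?_, fun h => absurd h1 h.2⟩
      exact absurd (Sum.inl.inj h) (by decide)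
    · rw [if_neg h1]
      exact ⟨fun _ => ⟨hc, h1⟩, fun _ => rfl⟩
  · rw [if_neg hc]
    refine ⟨fun h => ?_, fun h => absurd h.1 hc⟩
    exfalso
    split_ifs at h with h1 h2 h3
    all_goals exact absurd (Sum.inl.inj h) (by decide)

theorem zb_of_kCinf {Q : PtN (1 * q)} (hQ : kind p 𝒜 Q = kCinf 𝒜) :
    zb p 𝒜 Q = valN (1 * q) Q (jBar (1 * q))⁻¹ := by
  unfold zb
  rw [hQ]
  rfl

theorem zb_of_kC0 {Q : PtN (1 * q)} (hQ : kind p 𝒜 Q = kC0 𝒜) :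
    zb p 𝒜 Q = valN (1 * q) Q (jqBar q)⁻¹ := by
  unfold zb
  rw [hQ]
  rfl

end Kinds

section Values

variable (p : Nat.Primes) {q : ℕ} [NeZero q] [NeZero (1 * q)] (K₁ : IntermediateField ℚ Ω)

theorem limPhi_J1_inv : limPhi q K₁ (J1 q K₁)⁻¹ = (jBar (1 * q))⁻¹ := by
  rw [map_inv₀, limPhi_oneHostA_gen]

theorem limPhi_Jq1_inv : limPhi q K₁ (Jq1 q K₁)⁻¹ = (jqBar q)⁻¹ := by
  rw [map_inv₀, limPhi_oneHostB_gen]

theorem limPhi_phi1 : limPhi q K₁ (Jq1 q K₁ * ((J1 q K₁) ^ q)⁻¹) = phiBar q := by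
  rw [map_mul, map_inv₀, map_pow, limPhi_oneHostA_gen, limPhi_oneHostB_gen]
  rfl

variable {K₁}

/-- a value in `𝔪_{R₁}` over `K₁` is a value of absolute value `< 1` over `Ω`. -/
theorem absv_valN_lt_one_of_hasValueAt {Q : PtN (1 * q)} {e : E1 q K₁} {r : R1 p K₁}
    (hr : r ∈ IsLocalRing.maximalIdeal (R1 p K₁))
    (hv : HasValueAt (ptResW q K₁ Q) e (algebraMap (R1 p K₁) ↥K₁ r)) :
    absv (some p) (valN (1 * q) Q (limPhi q K₁ e)) < 1 := by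
  rw [valN_limPhi Q hv]
  exact (absv_lt_one_iff_mem_maximalIdeal p r).mpr hr

/-- a unit value over `K₁` is a value of absolute value `1` over `Ω`. -/
theorem absv_valN_eq_one_of_hasValueAt {Q : PtN (1 * q)} {e : E1 q K₁} {u : R1 p K₁}
    (hu : IsUnit u)
    (hv : HasValueAt (ptResW q K₁ Q) e (algebraMap (R1 p K₁) ↥K₁ u)) :
    absv (some p) (valN (1 * q) Q (limPhi q K₁ e)) = 1 := by
  rw [valN_limPhi Q hv]
  exact absv_eq_one_of_isUnit p hu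

/-- a function over `K₁`, regular at a point rational over `K₁` with a value of absolute value
`< 1` there, takes a value in `𝔪_{R₁}`. -/
theorem exists_mem_maximalIdeal_hasValueAt {Q : PtN (1 * q)}
    (hrat : IsRationalPlace (ptResW q K₁ Q)) {e : E1 q K₁}
    (hord : 0 ≤ Q.ord (limPhi q K₁ e))
    (habs : absv (some p) (valN (1 * q) Q (limPhi q K₁ e)) < 1) :
    ∃ r : R1 p K₁, r ∈ IsLocalRing.maximalIdeal (R1 p K₁) ∧
      HasValueAt (ptResW q K₁ Q) e (algebraMap (R1 p K₁) ↥K₁ r) := by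
  have hmem : e ∈ (ptResW q K₁ Q).toValuationSubring := by
    rw [PlaceAux.mem_iff_ord_nonneg, ord_ptResW]
    exact Or.inr hord
  obtain ⟨c, hc, hval⟩ := exists_valN_limPhi_eq Q hrat hmem
  rw [hval] at habs
  have hcR : c ∈ baseRing (padicPlace (p : ℕ)) K₁ :=
    (mem_baseRing_padicPlace_iff p c).mpr habs.le
  refine ⟨⟨c, hcR⟩, ?_, hc⟩
  rw [← absv_lt_one_iff_mem_maximalIdeal]
  exact habs

/-- cuspidal points: `j⁻¹` takes a value in `𝔪_{R₁}`. -/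
theorem isCuspidal_iff {Q : PtN (1 * q)} (hrat : IsRationalPlace (ptResW q K₁ Q)) :
    IsCuspidal p Q ↔ ∃ r : R1 p K₁, r ∈ IsLocalRing.maximalIdeal (R1 p K₁) ∧
      HasValueAt (ptResW q K₁ Q) (J1 q K₁)⁻¹ (algebraMap (R1 p K₁) ↥K₁ r) := by
  constructor
  · rintro ⟨h1, h2⟩
    rw [← limPhi_J1_inv K₁] at h1 h2
    exact exists_mem_maximalIdeal_hasValueAt p hrat h1 h2
  · rintro ⟨r, hr, hv⟩
    refine ⟨?_, ?_⟩
    · rw [← limPhi_J1_inv K₁, ← ord_ptResW]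
      exact PlaceAux.ord_nonneg_of_mem _ hv.mem
    · rw [← limPhi_J1_inv K₁]
      exact absv_valN_lt_one_of_hasValueAt p hr hv

end Values

section Dict

variable (p : Nat.Primes) {q : ℕ} [NeZero q] [NeZero (1 * q)] {x y : ℤ}
  (h : (q : ℤ) * x + ((1 : ℕ) : ℤ) * y = 1) (hq : q.Prime) (hpq : (p : ℕ) = q)
  (𝒜 : OneAtlas q) (K₁ : IntermediateField ℚ Ω) [IsDiscreteValuationRing (R1 p K₁)]
  {π : R1 p K₁} (hπ : Irreducible π)

theorem absv_sub_lt_one {a b : Ω} (ha : absv (some p) a < 1) (hb : absv (some p) b < 1) :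
    absv (some p) (a - b) < 1 := by
  rw [sub_eq_add_neg]
  refine lt_of_le_of_lt (absv_some_add_le_max p _ _) (max_lt ha ?_)
  rw [absv_neg]
  exact hb

include h hq hpq hπ in
/-- the kind `cinf` in terms of the values over `K₁`. -/
theorem kind_eq_kCinf_iff_place {P : PtN (1 * q)} (hrat : IsRationalPlace (ptResW q K₁ P)) :
    kind p 𝒜 P = kCinf 𝒜 ↔
      IsCuspInfPlace (R1 p K₁) (hA q K₁) (hB q K₁) (gJ K₁) q (ptResW q K₁ P) := by
  rw [kind_eq_kCinf_iff]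
  constructor
  · rintro ⟨hc, hφ⟩
    obtain ⟨r, hr, hv⟩ := (isCuspidal_iff p hrat).mp hc
    obtain ⟨u, hu⟩ := SSModel.exists_phi_value_of_cusp (mdl h hq hπ hpq) hπ
      (mdl_two' h hq hπ hpq) hrat hr hv
    refine ⟨r, u, hr, ?_, hv, hu⟩
    by_contra hnu
    have hm : u ∈ IsLocalRing.maximalIdeal (R1 p K₁) := (IsLocalRing.mem_maximalIdeal u).mpr hnu
    have := absv_valN_lt_one_of_hasValueAt p hm hu
    rw [limPhi_phi1 K₁, hφ] at this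
    exact lt_irrefl _ this
  · rintro ⟨r, u, hr, hu, hv, hφ⟩
    refine ⟨(isCuspidal_iff p hrat).mpr ⟨r, hr, hv⟩, ?_⟩
    rw [← limPhi_phi1 K₁]
    exact absv_valN_eq_one_of_hasValueAt p hu hφ

include h hq hpq hπ in
/-- the kind `c0` in terms of the values over `K₁`. -/
theorem kind_eq_kC0_iff_place {P : PtN (1 * q)} (hrat : IsRationalPlace (ptResW q K₁ P)) :
    kind p 𝒜 P = kC0 𝒜 ↔
      IsCuspZeroPlace (R1 p K₁) (hA q K₁) (hB q K₁) (gJ K₁) q (ptResW q K₁ P) := by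
  rw [kind_eq_kC0_iff]
  constructor
  · rintro ⟨hc, hφ⟩
    obtain ⟨r, hr, hv⟩ := (isCuspidal_iff p hrat).mp hc
    obtain ⟨u, hu⟩ := SSModel.exists_phi_value_of_cusp (mdl h hq hπ hpq) hπ
      (mdl_two' h hq hπ hpq) hrat hr hv
    refine ⟨r, u, hr, ?_, hv, hu⟩
    rw [IsLocalRing.mem_maximalIdeal, mem_nonunits_iff]
    intro huu
    apply hφ
    rw [← limPhi_phi1 K₁]
    exact absv_valN_eq_one_of_hasValueAt p huu hu
  · rintro ⟨r, u, hr, hu, hv, hφ⟩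
    refine ⟨(isCuspidal_iff p hrat).mpr ⟨r, hr, hv⟩, ?_⟩
    have := absv_valN_lt_one_of_hasValueAt p hu hφ
    rw [limPhi_phi1 K₁] at this
    exact ne_of_lt this

include h hq hpq hπ in
/-- **the field `cinf` of `OneDict`.** -/
theorem oneDict_cinf (Q : PtN (1 * q)) (hQrat : IsRationalPlace (ptResW q K₁ Q))
    (hQ : kind p 𝒜 Q = kCinf 𝒜) :
    ∃ 𝔪 : Ideal ↥(chartOne (R1 p K₁) (E1 q K₁) (gJ K₁)⁻¹), 𝔪.IsMaximal ∧
      CentredAt 𝔪 (ptResW q K₁ Q) ∧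
      sheetIdeal (gJ K₁)⁻¹ (Winf1 p q K₁) (mdl_two' h hq hπ hpq).chart_le_inf ≤ 𝔪 ∧
      ¬ sheetIdeal (gJ K₁)⁻¹ (W01 p q K₁ h hq) (mdl_two' h hq hπ hpq).chart_le_zero ≤ 𝔪 ∧
      ∀ P : PtN (1 * q), IsRationalPlace (ptResW q K₁ P) →
        (CentredAt 𝔪 (ptResW q K₁ P) ↔
          kind p 𝒜 P = kCinf 𝒜 ∧ absv (some p) (zb p 𝒜 P - zb p 𝒜 Q) < 1) := by
  have hQ' := (kind_eq_kCinf_iff_place p h hq hpq 𝒜 K₁ hπ hQrat).mp hQ
  obtain ⟨𝔪, h𝔪, hπ𝔪, hx, hle, hnle, hiff⟩ := SSModel.exists_cuspInf_point (mdl h hq hπ hpq) hπ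
    mdl_htj mdl_hsurj (mdl_two' h hq hπ hpq) hQrat hQ'
  refine ⟨𝔪, h𝔪, (hiff _ hQrat).mpr hQ', hle, hnle, fun P hP => ?_⟩
  rw [hiff _ hP, ← kind_eq_kCinf_iff_place p h hq hpq 𝒜 K₁ hπ hP]
  refine ⟨fun hk => ⟨hk, ?_⟩, fun hk => hk.1⟩
  rw [zb_of_kCinf p 𝒜 hk, zb_of_kCinf p 𝒜 hQ]
  exact absv_sub_lt_one p ((kind_eq_kCinf_iff p 𝒜 P).mp hk).1.2
    ((kind_eq_kCinf_iff p 𝒜 Q).mp hQ).1.2

include h hq hpq hπ in
set_option maxHeartbeats 1600000 in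
/-- **the field `c0` of `OneDict`.** -/
theorem oneDict_c0 (Q : PtN (1 * q)) (hQrat : IsRationalPlace (ptResW q K₁ Q))
    (hQ : kind p 𝒜 Q = kC0 𝒜) :
    ∃ (𝔪 : Ideal ↥(chartOne (R1 p K₁) (E1 q K₁) (gJ K₁)⁻¹)) (h𝔪 : 𝔪.IsMaximal),
      CentredAt 𝔪 (ptResW q K₁ Q) ∧
      sheetIdeal (gJ K₁)⁻¹ (W01 p q K₁ h hq) (mdl_two' h hq hπ hpq).chart_le_zero ≤ 𝔪 ∧
      ¬ sheetIdeal (gJ K₁)⁻¹ (Winf1 p q K₁) (mdl_two' h hq hπ hpq).chart_le_inf ≤ 𝔪 ∧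
      (haveI := h𝔪.isPrime; hB q K₁ (algebraMap (KJ K₁) (KJ K₁) (gJ K₁)⁻¹) ∈
          locRing (chartOne (R1 p K₁) (E1 q K₁) (gJ K₁)⁻¹) 𝔪) ∧
      ∀ P : PtN (1 * q), IsRationalPlace (ptResW q K₁ P) →
        (CentredAt 𝔪 (ptResW q K₁ P) ↔
          kind p 𝒜 P = kC0 𝒜 ∧ absv (some p) (zb p 𝒜 P - zb p 𝒜 Q) < 1) := by
  have hQ' := (kind_eq_kC0_iff_place p h hq hpq 𝒜 K₁ hπ hQrat).mp hQ
  obtain ⟨𝔪, h𝔪, hπ𝔪, hx, hle, hnle, hBm, hiff⟩ := SSModel.exists_cuspZero_point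
    (mdl h hq hπ hpq) hπ mdl_htj mdl_hsurj (mdl_two' h hq hπ hpq) (mdl_hjint h hq hπ hpq)
    hQrat hQ'
  haveI := h𝔪
  haveI : IsFractionRing ↥(chartOne (R1 p K₁) (E1 q K₁) (gJ K₁)⁻¹) (E1 q K₁) :=
    isFractionRing_chartOne (K₁ := ↥K₁) (gJ K₁)⁻¹ (adjoin_inv_eq_top (mdl h hq hπ hpq).j_adjoin)
  have hlt : ∀ P : PtN (1 * q), IsRationalPlace (ptResW q K₁ P) →
      CentredAt 𝔪 (ptResW q K₁ P) → absv (some p) (valN (1 * q) P (jqBar q)⁻¹) < 1 := by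
    intro P hP hcP
    obtain ⟨r, hr, hiff'⟩ := exists_value_of_centredAt (ptResW q K₁ P) hP
      (chartOne (R1 p K₁) (E1 q K₁) (gJ K₁)⁻¹) hπ 𝔪 hπ𝔪 hcP (locMax_subset_locRing hBm)
    have := absv_valN_lt_one_of_hasValueAt p (hiff'.mp hBm) hr
    rwa [limPhi_Jq1_inv K₁] at this
  have hcQ : CentredAt 𝔪 (ptResW q K₁ Q) := (hiff _ hQrat).mpr hQ'
  refine ⟨𝔪, h𝔪, hcQ, hle, hnle, ?_, fun P hP => ?_⟩
  · have e : hB q K₁ (algebraMap (KJ K₁) (KJ K₁) (gJ K₁)⁻¹) = (hB q K₁ (gJ K₁))⁻¹ :=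
      map_inv₀ (hB q K₁) (gJ K₁)
    rw [e]
    exact locMax_subset_locRing hBm
  · constructor
    · intro hcP
      have hk := (kind_eq_kC0_iff_place p h hq hpq 𝒜 K₁ hπ hP).mpr ((hiff _ hP).mp hcP)
      refine ⟨hk, ?_⟩
      rw [zb_of_kC0 p 𝒜 hk, zb_of_kC0 p 𝒜 hQ]
      exact absv_sub_lt_one p (hlt P hP hcP) (hlt Q hQrat hcQ)
    · intro hk
      exact (hiff _ hP).mpr ((kind_eq_kC0_iff_place p h hq hpq 𝒜 K₁ hπ hP).mp hk.1)

end Dict

end Fermat.Agent.MW.OneCell
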