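import Mathlib
import Fermat.Agent.MW.NADIC_helper1_Setup
import Fermat.Agent.MW.NADIC_helper3_CuspDict
import Fermat.Agent.MW.NADIC_helper9_GlobOm

/-!
# Project MW (S17) — [N-ADIC] helper3, [CUSP-CF]: the cell formulas on the discs of the two cusps

* `SSModel.cuspInf_cell'`, `SSModel.cuspZero_cell'` : the cells of the two cusps of a level-one
  two-sheeted model, at a point `Q` which need not be a zero or pole of the function;
* `discCF_cuspInf : DiscCF p q (KCuspInf p q) (jBar (1 * q))⁻¹ (sheetNorm0 p (1 * q))`;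
* `discCF_cuspZero : DiscCF p q (KCuspZero p q) (jqBar q)⁻¹ (sheetNorm1 p h hq)`.
-/

set_option autoImplicit false
set_option linter.unusedSectionVars false
set_option linter.unusedVariables false
set_option linter.style.haveILetI false
set_option synthInstance.maxHeartbeats 200000

open IntermediateField AlgebraicCurve ModularCurve IsLocalRing

namespace Fermat.Agent.MW.NAdic

open Fermat.Agent.SS Fermat.Agent.JA Fermat.Agent.FF Fermat.Agent.MW

section Model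

variable {R : Type*} [CommRing R] [IsDomain R] [IsDiscreteValuationRing R] [CharZero R]
  {K₁ : Type*} [Field K₁] [Algebra R K₁] [IsFractionRing R K₁]
  {KM : Type*} [Field KM] [Algebra K₁ KM] [Algebra R KM] [IsScalarTower R K₁ KM]
  {EM : Type*} [Field EM] [Algebra KM EM] [Algebra K₁ EM] [IsScalarTower K₁ KM EM] [Algebra R EM]
  [IsScalarTower R KM EM]
  {KN : Type*} [Field KN] [Algebra K₁ KN] [Algebra R KN] [IsScalarTower R K₁ KN]
  {EN : Type*} [Field EN] [Algebra KN EN] [Algebra K₁ EN] [IsScalarTower K₁ KN EN] [Algebra R EN]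
  [IsScalarTower R KN EN] [FiniteDimensional KN EN]
  {π : R} {q n : ℕ} {t : KM} {jM : EM} {j : KN} {A B : EM →+* EN}
  {VM : ValuationSubring EM} {Winf W0 : ValuationSubring EN}

/-- **the cell of the cusp `∞`**, at any rational place `Q` reducing to the cusp `∞`. -/
theorem SSModel.cuspInf_cell' [IsAlgClosed (IsLocalRing.ResidueField R)]
    [DecidableEq (Place K₁ EN)] [IsScalarTower R K₁ EN]
    (h : SSModel K₁ π q n (∅ : Finset R) t jM j A B VM Winf W0) (hπ : Irreducible π)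
    (hgeo' : GeoHyps K₁ π t⁻¹ EM n (∅ : Finset R)) (h2 : IsTwoSheet π j⁻¹ Winf W0)
    (htj : algebraMap KM EM t = jM) (hsurj : Function.Surjective (algebraMap KM EM))
    {f : EN} (hf : f ≠ 0) (T : Finset (Place K₁ EN))
    (hrat : ∀ P ∈ T, IsRationalPlace P)
    (hT : ∀ P ∈ T, IsCuspInfPlace R A B jM q P)
    (hfT : ∀ P : Place K₁ EN, P.ord f ≠ 0 →
      IsRationalPlace P ∧ (IsCuspInfPlace R A B jM q P → P ∈ T))
    (ζ : Place K₁ EN → R)
    (hζ : ∀ P ∈ T, HasValueAt P (A jM)⁻¹ (algebraMap R K₁ (ζ P)))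
    (a : ℤ) (hfa : f * (algebraMap R EN π ^ a)⁻¹ ∈ Winf)
    (hfa' : (f * (algebraMap R EN π ^ a)⁻¹)⁻¹ ∈ Winf)
    {Q : Place K₁ EN} (hQrat : IsRationalPlace Q) (hQ : IsCuspInfPlace R A B jM q Q)
    (hζQ : HasValueAt Q (A jM)⁻¹ (algebraMap R K₁ (ζ Q))) :
    Q.ord ((A jM)⁻¹ - algebraMap K₁ EN (algebraMap R K₁ (ζ Q))) = 1 ∧
    ∃ w : Rˣ, HasValueAt Q
      (f * (((A jM)⁻¹ - algebraMap K₁ EN (algebraMap R K₁ (ζ Q))) ^ (Q.ord f))⁻¹)
      (algebraMap R K₁ π ^ a * algebraMap R K₁ (w : R) *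
        ∏ P ∈ T.erase Q, (algebraMap R K₁ (ζ Q) - algebraMap R K₁ (ζ P)) ^ (P.ord f)) := by
  obtain ⟨𝔪, h𝔪, hπ𝔪, hx, hle, hnle, hiff⟩ :=
    SSModel.exists_cuspInf_point h hπ htj hsurj h2 hQrat hQ
  haveI := h𝔪
  have e : A (algebraMap KM EM t⁻¹) = (A jM)⁻¹ := by rw [map_inv₀, map_inv₀, htj]
  have hxJ : algebraMap KN EN j⁻¹ = (A jM)⁻¹ := by rw [map_inv₀, h.A_j]
  have hreg : A (algebraMap KM EM t⁻¹) ∈ locRing (chartOne R EN j⁻¹) 𝔪 := by
    rw [e, ← hxJ]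
    exact le_locRing (algebraMap_coord_mem_chartOne j⁻¹)
  have key := SSModel.cell_cusp_inf h hπ hgeo' h2 𝔪 hle hnle hreg hf T
    (fun P hP => (hiff P (hrat P hP)).mpr (hT P hP)) hrat
    (fun P hcP hPf => (hfT P hPf).2 ((hiff P (hfT P hPf).1).mp hcP)) ζ
    (fun P hP => by rw [e]; exact hζ P hP) a hfa hfa'
    ((hiff Q hQrat).mpr hQ) hQrat (by rw [e]; exact hζQ)
  rw [e] at key
  exact key

/-- **the cell of the cusp `0`**, at any rational place `Q` reducing to the cusp `0`. -/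
theorem SSModel.cuspZero_cell' [IsAlgClosed (IsLocalRing.ResidueField R)]
    [DecidableEq (Place K₁ EN)] [IsScalarTower R K₁ EN]
    (h : SSModel K₁ π q n (∅ : Finset R) t jM j A B VM Winf W0) (hπ : Irreducible π)
    (hgeo' : GeoHyps K₁ π t⁻¹ EM n (∅ : Finset R)) (h2 : IsTwoSheet π j⁻¹ Winf W0)
    (htj : algebraMap KM EM t = jM) (hsurj : Function.Surjective (algebraMap KM EM))
    (hjint : IsIntegral ↥(Algebra.adjoin R {B jM}) (A jM))
    {f : EN} (hf : f ≠ 0) (T : Finset (Place K₁ EN))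
    (hrat : ∀ P ∈ T, IsRationalPlace P)
    (hT : ∀ P ∈ T, IsCuspZeroPlace R A B jM q P)
    (hfT : ∀ P : Place K₁ EN, P.ord f ≠ 0 →
      IsRationalPlace P ∧ (IsCuspZeroPlace R A B jM q P → P ∈ T))
    (a : ℤ) (hfa : f * (algebraMap R EN π ^ a)⁻¹ ∈ W0)
    (hfa' : (f * (algebraMap R EN π ^ a)⁻¹)⁻¹ ∈ W0)
    {Q : Place K₁ EN} (hQrat : IsRationalPlace Q) (hQ : IsCuspZeroPlace R A B jM q Q) :
    ∃ ζ : Place K₁ EN → R,
      (∀ P, (P ∈ T ∨ P = Q) →
        ζ P ∈ maximalIdeal R ∧ HasValueAt P (B jM)⁻¹ (algebraMap R K₁ (ζ P))) ∧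
      Q.ord ((B jM)⁻¹ - algebraMap K₁ EN (algebraMap R K₁ (ζ Q))) = 1 ∧
      ∃ w : Rˣ, HasValueAt Q
        (f * (((B jM)⁻¹ - algebraMap K₁ EN (algebraMap R K₁ (ζ Q))) ^ (Q.ord f))⁻¹)
        (algebraMap R K₁ π ^ a * algebraMap R K₁ (w : R) *
          ∏ P ∈ T.erase Q, (algebraMap R K₁ (ζ Q) - algebraMap R K₁ (ζ P)) ^ (P.ord f)) := by
  obtain ⟨𝔪, h𝔪, hπ𝔪, hx, hle, hnle, hBm, hiff⟩ :=
    SSModel.exists_cuspZero_point h hπ htj hsurj h2 hjint hQrat hQ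
  haveI := h𝔪
  haveI : IsFractionRing ↥(chartOne R EN j⁻¹) EN :=
    isFractionRing_chartOne (K₁ := K₁) j⁻¹ (adjoin_inv_eq_top h.j_adjoin)
  have e : B (algebraMap KM EM t⁻¹) = (B jM)⁻¹ := by rw [map_inv₀, map_inv₀, htj]
  have hreg : B (algebraMap KM EM t⁻¹) ∈ locRing (chartOne R EN j⁻¹) 𝔪 := by
    rw [e]
    exact locMax_subset_locRing hBm
  have hratTQ : ∀ P : Place K₁ EN, (P ∈ T ∨ P = Q) → IsRationalPlace P := by
    rintro P (hP | rfl)
    · exact hrat P hP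
    · exact hQrat
  have hcTQ : ∀ P : Place K₁ EN, (P ∈ T ∨ P = Q) → CentredAt 𝔪 P := by
    rintro P (hP | rfl)
    · exact (hiff P (hrat P hP)).mpr (hT P hP)
    · exact (hiff P hQrat).mpr hQ
  have hval : ∀ P : Place K₁ EN, (P ∈ T ∨ P = Q) → ∃ r : R, r ∈ maximalIdeal R ∧
      HasValueAt P (B jM)⁻¹ (algebraMap R K₁ r) := by
    intro P hP
    obtain ⟨r, hr, hiff'⟩ := exists_value_of_centredAt P (hratTQ P hP) (chartOne R EN j⁻¹) hπ 𝔪
      hπ𝔪 (hcTQ P hP) (locMax_subset_locRing hBm)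
    exact ⟨r, hiff'.mp hBm, hr⟩
  classical
  let ζ : Place K₁ EN → R := fun P => if hP : P ∈ T ∨ P = Q then (hval P hP).choose else 0
  have hζ : ∀ P, (P ∈ T ∨ P = Q) →
      ζ P ∈ maximalIdeal R ∧ HasValueAt P (B jM)⁻¹ (algebraMap R K₁ (ζ P)) := by
    intro P hP
    have : ζ P = (hval P hP).choose := dif_pos hP
    rw [this]
    exact (hval P hP).choose_spec
  have key := SSModel.cell_cusp_zero h hπ hgeo' h2 𝔪 hle hnle hreg hf T
    (fun P hP => hcTQ P (Or.inl hP)) hrat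
    (fun P hcP hPf => (hfT P hPf).2 ((hiff P (hfT P hPf).1).mp hcP)) ζ
    (fun P hP => by rw [e]; exact (hζ P (Or.inl hP)).2) a hfa hfa'
    (hcTQ Q (Or.inr rfl)) hQrat (by rw [e]; exact (hζ Q (Or.inr rfl)).2)
  rw [e] at key
  exact ⟨ζ, hζ, key⟩

end Model

end Fermat.Agent.MW.NAdic

noncomputable section

namespace Fermat.Agent.MW.OneCell

open Fermat.Agent.JA Fermat.Agent.FF Fermat.Agent.SS Fermat.Agent.Igusa Fermat.Agent.X0N
  Fermat.Agent.MW Fermat.Agent.MW.NAdic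

open scoped Fermat.Agent.JA.Host

attribute [local instance] baseToComplex

/-- `Ω = AlgebraicClosure ℚ`. -/
local notation "Ω" => AlgebraicClosure ℚ

section Bridge

variable (p : Nat.Primes) {q : ℕ} [NeZero q] [NeZero (1 * q)]

/-- the points off the chart `j` are the cuspidal points. -/
theorem not_isFinPt_iff (Q : PtN (1 * q)) : ¬ IsFinPt p q Q ↔ IsCuspidal p Q := by
  have hj0 : (jBar (1 * q) : FunN (1 * q)) ≠ 0 := jBar_ne_zero (1 * q)
  constructor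
  · intro hn
    by_cases ho : 0 ≤ Q.ord (jBar (1 * q))
    · have habs : ¬ absv (some p) (valN (1 * q) Q (jBar (1 * q))) ≤ 1 := fun h => hn ⟨ho, h⟩
      rw [not_le] at habs
      have hv := valN_spec Q (Or.inr ho : jBar (1 * q) = 0 ∨ 0 ≤ Q.ord (jBar (1 * q)))
      have hc : valN (1 * q) Q (jBar (1 * q)) ≠ 0 := by
        intro h0
        rw [h0, absv_zero] at habs
        exact absurd habs (by norm_num)
      have hvi := hv.inv hc
      have e : valN (1 * q) Q (jBar (1 * q))⁻¹ = (valN (1 * q) Q (jBar (1 * q)))⁻¹ :=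
        hvi.valueAt_eq
      refine ⟨PlaceAux.ord_nonneg_of_mem Q hvi.mem, ?_⟩
      rw [e, absv_inv]
      exact inv_lt_one_of_one_lt₀ habs
    · rw [not_le] at ho
      have h1 : 0 < Q.ord (jBar (1 * q))⁻¹ := by
        rw [Place.ord_inv]
        omega
      refine ⟨h1.le, ?_⟩
      rw [valN_eq_zero_of_ord_pos Q (Or.inr h1), absv_zero]
      exact zero_lt_one
  · rintro ⟨h1, h2⟩ ⟨h3, h4⟩
    rw [Place.ord_inv] at h1
    have ho : Q.ord (jBar (1 * q)) = 0 := by omega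
    have hv := valN_spec Q (Or.inr h3 : jBar (1 * q) = 0 ∨ 0 ≤ Q.ord (jBar (1 * q)))
    have hc : valN (1 * q) Q (jBar (1 * q)) ≠ 0 := valN_ne_zero Q hj0 ho
    have hvi := hv.inv hc
    have e : valN (1 * q) Q (jBar (1 * q))⁻¹ = (valN (1 * q) Q (jBar (1 * q)))⁻¹ :=
      hvi.valueAt_eq
    rw [e, absv_inv] at h2
    have h5 : 0 < absv (some p) (valN (1 * q) Q (jBar (1 * q))) := absv_pos hc
    have h6 := (inv_lt_one₀ h5).mp h2
    unfold jv at h4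
    linarith

theorem kCuspInf_iff (Q : PtN (1 * q)) :
    KCuspInf p q Q ↔
      IsCuspidal p Q ∧ ¬ absv (some p) (valN (1 * q) Q (phiBar q)) < 1 := by
  unfold KCuspInf
  rw [not_isFinPt_iff]
  rfl

theorem kCuspZero_iff (Q : PtN (1 * q)) :
    KCuspZero p q Q ↔
      IsCuspidal p Q ∧ absv (some p) (valN (1 * q) Q (phiBar q)) < 1 := by
  unfold KCuspZero
  rw [not_isFinPt_iff]
  rfl

variable {x y : ℤ} (h : (q : ℤ) * x + ((1 : ℕ) : ℤ) * y = 1) (hq : q.Prime)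
  (hpq : (p : ℕ) = q) (K₁ : IntermediateField ℚ Ω) [IsDiscreteValuationRing (R1 p K₁)]
  {π : R1 p K₁} (hπ : Irreducible π)

include h hq hpq hπ in
/-- the kind `KCuspInf` in terms of the values over `K₁`. -/
theorem kCuspInf_iff_place {P : PtN (1 * q)} (hrat : IsRationalPlace (ptResW q K₁ P)) :
    KCuspInf p q P ↔
      IsCuspInfPlace (R1 p K₁) (hA q K₁) (hB q K₁) (gJ K₁) q (ptResW q K₁ P) := by
  rw [kCuspInf_iff]
  constructor
  · rintro ⟨hc, hφ⟩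
    obtain ⟨r, hr, hv⟩ := (isCuspidal_iff p hrat).mp hc
    obtain ⟨u, hu⟩ := SSModel.exists_phi_value_of_cusp (mdl h hq hπ hpq) hπ
      (mdl_two' h hq hπ hpq) hrat hr hv
    refine ⟨r, u, hr, ?_, hv, hu⟩
    by_contra hnu
    have hm : u ∈ IsLocalRing.maximalIdeal (R1 p K₁) := (IsLocalRing.mem_maximalIdeal u).mpr hnu
    have := absv_valN_lt_one_of_hasValueAt p hm hu
    rw [limPhi_phi1 K₁] at this
    exact hφ this
  · rintro ⟨r, u, hr, hu, hv, hφ⟩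
    refine ⟨(isCuspidal_iff p hrat).mpr ⟨r, hr, hv⟩, ?_⟩
    rw [← limPhi_phi1 K₁, absv_valN_eq_one_of_hasValueAt p hu hφ]
    exact lt_irrefl _

include h hq hpq hπ in
/-- the kind `KCuspZero` in terms of the values over `K₁`. -/
theorem kCuspZero_iff_place {P : PtN (1 * q)} (hrat : IsRationalPlace (ptResW q K₁ P)) :
    KCuspZero p q P ↔
      IsCuspZeroPlace (R1 p K₁) (hA q K₁) (hB q K₁) (gJ K₁) q (ptResW q K₁ P) := by
  rw [kCuspZero_iff]
  constructor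
  · rintro ⟨hc, hφ⟩
    obtain ⟨r, hr, hv⟩ := (isCuspidal_iff p hrat).mp hc
    obtain ⟨u, hu⟩ := SSModel.exists_phi_value_of_cusp (mdl h hq hπ hpq) hπ
      (mdl_two' h hq hπ hpq) hrat hr hv
    refine ⟨r, u, hr, ?_, hv, hu⟩
    rw [← absv_lt_one_iff_mem_maximalIdeal]
    have e := valN_limPhi P hu
    rw [limPhi_phi1 K₁] at e
    have e' : absv (some p) (((u : ↥K₁) : Ω)) = absv (some p) (valN (1 * q) P (phiBar q)) := by
      rw [e]
      rfl
    rw [e']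
    exact hφ
  · rintro ⟨r, u, hr, hu, hv, hφ⟩
    refine ⟨(isCuspidal_iff p hrat).mpr ⟨r, hr, hv⟩, ?_⟩
    have := absv_valN_lt_one_of_hasValueAt p hu hφ
    rwa [limPhi_phi1 K₁] at this

end Bridge

section CF

variable (p : Nat.Primes) {q : ℕ} [NeZero q] [NeZero (1 * q)] {x y : ℤ}
  (h : (q : ℤ) * x + ((1 : ℕ) : ℤ) * y = 1) (hq : q.Prime) (hpq : (p : ℕ) = q)

include h hq hpq in
set_option maxHeartbeats 1600000 in
/-- **the cell formula on the disc of the cusp `∞`.** -/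
theorem discCF_cuspInf :
    DiscCF p q (KCuspInf p q) (jBar (1 * q))⁻¹ (sheetNorm0 p (1 * q)) := by
  classical
  intro f D hf hD Q hQ
  haveI : Fact (p : ℕ).Prime := ⟨p.2⟩
  obtain ⟨K₁, hK₁, -, -, hdesc, hratS⟩ := exists_galBase_descentW (q := q)
    (isBase_flatBase (ℓ := (p : ℕ))) ∅ (fun _ : Unit => f) (insert Q D.support)
  obtain ⟨x₁, hx₁⟩ := hdesc ()
  have hLie : (padicPlace (p : ℕ)).LiesOverPrime (p : ℕ) :=
    Fermat.Agent.TW.Kill.padicPlace_liesOverPrime (p : ℕ)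
  haveI : IsDiscreteValuationRing (R1 p K₁) := hK₁.isBase.isDiscreteValuationRing hLie
  haveI : IsAlgClosed (IsLocalRing.ResidueField (R1 p K₁)) :=
    hK₁.isBase.isAlgClosed_residueField hLie
  obtain ⟨π, hπ⟩ := IsDiscreteValuationRing.exists_irreducible (R1 p K₁)
  have hx₁0 : x₁ ≠ 0 := by
    rintro rfl
    rw [map_zero] at hx₁
    exact hf hx₁.symm
  have hQrat : IsRationalPlace (ptResW q K₁ Q) := hratS Q (Finset.mem_insert_self _ _)
  have hQ' := (kCuspInf_iff_place p h hq hpq K₁ hπ hQrat).mp hQ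
  set S : Finset (PtN (1 * q)) := D.support.filter (fun P => KCuspInf p q P) with hS
  have hSrat : ∀ P ∈ S, IsRationalPlace (ptResW q K₁ P) := fun P hP =>
    hratS P (Finset.mem_insert_of_mem (Finset.mem_filter.mp hP).1)
  have hSD : ∀ P ∈ S, D P ≠ 0 := fun P hP =>
    Finsupp.mem_support_iff.mp (Finset.mem_filter.mp hP).1
  have hSk : ∀ P ∈ S, IsCuspInfPlace (R1 p K₁) (hA q K₁) (hB q K₁) (gJ K₁) q (ptResW q K₁ P) :=
    fun P hP => (kCuspInf_iff_place p h hq hpq K₁ hπ (hSrat P hP)).mp (Finset.mem_filter.mp hP).2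
  -- the values of the coordinate
  have hex : ∀ P₁ : Place ↥K₁ (E1 q K₁),
      IsCuspInfPlace (R1 p K₁) (hA q K₁) (hB q K₁) (gJ K₁) q P₁ →
      ∃ r : R1 p K₁, HasValueAt P₁ (J1 q K₁)⁻¹ (algebraMap (R1 p K₁) ↥K₁ r) :=
    fun P₁ hP₁ => by
      obtain ⟨r, u, hr, hu, hv, hφ⟩ := hP₁
      exact ⟨r, hv⟩
  let ζ : Place ↥K₁ (E1 q K₁) → R1 p K₁ := fun P₁ =>
    if hP : IsCuspInfPlace (R1 p K₁) (hA q K₁) (hB q K₁) (gJ K₁) q P₁ then (hex P₁ hP).choose
    else 0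
  have hζ : ∀ P₁ : Place ↥K₁ (E1 q K₁),
      IsCuspInfPlace (R1 p K₁) (hA q K₁) (hB q K₁) (gJ K₁) q P₁ →
      HasValueAt P₁ (J1 q K₁)⁻¹ (algebraMap (R1 p K₁) ↥K₁ (ζ P₁)) := by
    intro P₁ hP₁
    have : ζ P₁ = (hex P₁ hP₁).choose := dif_pos hP₁
    rw [this]
    exact (hex P₁ hP₁).choose_spec
  obtain ⟨a, hfa, hfa'⟩ := oneWinf_exists_zpow (R1 p K₁) ↥K₁ hπ hx₁0
  -- the cell theorem
  have hratT : ∀ P₁ ∈ S.image (ptResW q K₁), IsRationalPlace P₁ := by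
    intro P₁ hP₁
    obtain ⟨P, hP, rfl⟩ := Finset.mem_image.mp hP₁
    exact hSrat P hP
  have hT : ∀ P₁ ∈ S.image (ptResW q K₁),
      IsCuspInfPlace (R1 p K₁) (hA q K₁) (hB q K₁) (gJ K₁) q P₁ := by
    intro P₁ hP₁
    obtain ⟨P, hP, rfl⟩ := Finset.mem_image.mp hP₁
    exact hSk P hP
  have hfT : ∀ P₁ : Place ↥K₁ (E1 q K₁), P₁.ord x₁ ≠ 0 →
      IsRationalPlace P₁ ∧ (IsCuspInfPlace (R1 p K₁) (hA q K₁) (hB q K₁) (gJ K₁) q P₁ →
        P₁ ∈ S.image (ptResW q K₁)) := by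
    intro P₁ hP₁
    obtain ⟨P, rfl⟩ := exists_ptResW_eq P₁
    rw [ord_ptResW, hx₁] at hP₁
    have hPD : P ∈ D.support := Finsupp.mem_support_iff.mpr (by rw [hD P]; exact hP₁)
    have hPrat := hratS P (Finset.mem_insert_of_mem hPD)
    exact ⟨hPrat, fun hc => Finset.mem_image_of_mem _ (Finset.mem_filter.mpr
      ⟨hPD, (kCuspInf_iff_place p h hq hpq K₁ hπ hPrat).mpr hc⟩)⟩
  obtain ⟨hord, w, hval⟩ := SSModel.cuspInf_cell' (mdl h hq hπ hpq) hπ (mdl_geo' hπ)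
    (mdl_two' h hq hπ hpq) mdl_htj mdl_hsurj hx₁0 (S.image (ptResW q K₁)) hratT hT hfT ζ
    (fun P₁ hP₁ => hζ P₁ (hT P₁ hP₁)) a hfa hfa' hQrat hQ' (hζ _ hQ')
  have hD' : IsDivOf (1 * q) (limPhi q K₁ x₁) D := by rw [hx₁]; exact hD
  have key := cf_of_cell_value p K₁ Q hx₁0 hD' S hSD hSrat ζ
    (fun P hP => hζ _ (hSk P hP)) (hζ _ hQ') hπ.ne_zero a w hord hval
  rw [limPhi_J1_inv K₁, hx₁] at key
  refine ⟨key.1, ?_⟩
  rw [key.2]
  have hn : sheetNorm0 p (1 * q) f = (a : ℝ) * lg (some p) (((π : ↥K₁) : Ω)) := by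
    rw [← hx₁]
    exact sheetNorm0_of_unit p K₁ hx₁0 hπ.ne_zero a hfa hfa'
  rw [hn]
  congr 1
  have hlt : ∀ P : PtN (1 * q), KCuspInf p q P →
      absv (some p) (valN (1 * q) P (jBar (1 * q))⁻¹) < 1 :=
    fun P hP => ((kCuspInf_iff p P).mp hP).1.2
  have hsub : S.erase Q ⊆ D.support := fun P hP =>
    (Finset.mem_filter.mp (Finset.mem_of_mem_erase hP)).1
  symm
  trans ∑ P ∈ S.erase Q,
      if P ≠ Q ∧ KCuspInf p q P ∧ absv (some p) (valN (1 * q) P (jBar (1 * q))⁻¹ -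
        valN (1 * q) Q (jBar (1 * q))⁻¹) < 1 then
      (D P : ℝ) * lg (some p) (valN (1 * q) P (jBar (1 * q))⁻¹ -
        valN (1 * q) Q (jBar (1 * q))⁻¹) else 0
  · symm
    apply Finset.sum_subset hsub
    intro P hP hnot
    rw [if_neg]
    rintro ⟨hne, hk, -⟩
    exact hnot (Finset.mem_erase.mpr ⟨hne, Finset.mem_filter.mpr ⟨hP, hk⟩⟩)
  · refine Finset.sum_congr rfl (fun P hP => ?_)
    have hk := (Finset.mem_filter.mp (Finset.mem_of_mem_erase hP)).2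
    rw [if_pos ⟨Finset.ne_of_mem_erase hP, hk, absv_sub_lt_one p (hlt P hk) (hlt Q hQ)⟩]

include h hq hpq in
set_option maxHeartbeats 1600000 in
/-- **the cell formula on the disc of the cusp `0`.** -/
theorem discCF_cuspZero :
    DiscCF p q (KCuspZero p q) (jqBar q)⁻¹ (sheetNorm1 p h hq) := by
  classical
  intro f D hf hD Q hQ
  haveI : Fact (p : ℕ).Prime := ⟨p.2⟩
  obtain ⟨K₁, hK₁, -, -, hdesc, hratS⟩ := exists_galBase_descentW (q := q)
    (isBase_flatBase (ℓ := (p : ℕ))) ∅ (fun _ : Unit => f) (insert Q D.support)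
  obtain ⟨x₁, hx₁⟩ := hdesc ()
  have hLie : (padicPlace (p : ℕ)).LiesOverPrime (p : ℕ) :=
    Fermat.Agent.TW.Kill.padicPlace_liesOverPrime (p : ℕ)
  haveI : IsDiscreteValuationRing (R1 p K₁) := hK₁.isBase.isDiscreteValuationRing hLie
  haveI : IsAlgClosed (IsLocalRing.ResidueField (R1 p K₁)) :=
    hK₁.isBase.isAlgClosed_residueField hLie
  obtain ⟨π, hπ⟩ := IsDiscreteValuationRing.exists_irreducible (R1 p K₁)
  have hx₁0 : x₁ ≠ 0 := by
    rintro rfl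
    rw [map_zero] at hx₁
    exact hf hx₁.symm
  have hQrat : IsRationalPlace (ptResW q K₁ Q) := hratS Q (Finset.mem_insert_self _ _)
  have hQ' := (kCuspZero_iff_place p h hq hpq K₁ hπ hQrat).mp hQ
  set S : Finset (PtN (1 * q)) := D.support.filter (fun P => KCuspZero p q P) with hS
  have hSrat : ∀ P ∈ S, IsRationalPlace (ptResW q K₁ P) := fun P hP =>
    hratS P (Finset.mem_insert_of_mem (Finset.mem_filter.mp hP).1)
  have hSD : ∀ P ∈ S, D P ≠ 0 := fun P hP =>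
    Finsupp.mem_support_iff.mp (Finset.mem_filter.mp hP).1
  have hSk : ∀ P ∈ S,
      IsCuspZeroPlace (R1 p K₁) (hA q K₁) (hB q K₁) (gJ K₁) q (ptResW q K₁ P) :=
    fun P hP => (kCuspZero_iff_place p h hq hpq K₁ hπ (hSrat P hP)).mp (Finset.mem_filter.mp hP).2
  obtain ⟨a, hfa, hfa'⟩ := oneW0_exists_zpow (R1 p K₁) ↥K₁ hπ h hq hx₁0
  -- the cell theorem
  have hratT : ∀ P₁ ∈ S.image (ptResW q K₁), IsRationalPlace P₁ := by
    intro P₁ hP₁
    obtain ⟨P, hP, rfl⟩ := Finset.mem_image.mp hP₁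
    exact hSrat P hP
  have hT : ∀ P₁ ∈ S.image (ptResW q K₁),
      IsCuspZeroPlace (R1 p K₁) (hA q K₁) (hB q K₁) (gJ K₁) q P₁ := by
    intro P₁ hP₁
    obtain ⟨P, hP, rfl⟩ := Finset.mem_image.mp hP₁
    exact hSk P hP
  have hfT : ∀ P₁ : Place ↥K₁ (E1 q K₁), P₁.ord x₁ ≠ 0 →
      IsRationalPlace P₁ ∧ (IsCuspZeroPlace (R1 p K₁) (hA q K₁) (hB q K₁) (gJ K₁) q P₁ →
        P₁ ∈ S.image (ptResW q K₁)) := by
    intro P₁ hP₁
    obtain ⟨P, rfl⟩ := exists_ptResW_eq P₁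
    rw [ord_ptResW, hx₁] at hP₁
    have hPD : P ∈ D.support := Finsupp.mem_support_iff.mpr (by rw [hD P]; exact hP₁)
    have hPrat := hratS P (Finset.mem_insert_of_mem hPD)
    exact ⟨hPrat, fun hc => Finset.mem_image_of_mem _ (Finset.mem_filter.mpr
      ⟨hPD, (kCuspZero_iff_place p h hq hpq K₁ hπ hPrat).mpr hc⟩)⟩
  obtain ⟨ζ, hζ, hord, w, hval⟩ := SSModel.cuspZero_cell' (mdl h hq hπ hpq) hπ (mdl_geo' hπ)
    (mdl_two' h hq hπ hpq) mdl_htj mdl_hsurj (mdl_hjint h hq hπ hpq) hx₁0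
    (S.image (ptResW q K₁)) hratT hT hfT a hfa hfa' hQrat hQ'
  have hD' : IsDivOf (1 * q) (limPhi q K₁ x₁) D := by rw [hx₁]; exact hD
  have key := cf_of_cell_value p K₁ Q hx₁0 hD' S hSD hSrat ζ
    (fun P hP => (hζ _ (Or.inl (Finset.mem_image_of_mem _ hP))).2) (hζ _ (Or.inr rfl)).2
    hπ.ne_zero a w hord hval
  rw [limPhi_Jq1_inv K₁, hx₁] at key
  refine ⟨key.1, ?_⟩
  rw [key.2]
  have hn : sheetNorm1 p h hq f = (a : ℝ) * lg (some p) (((π : ↥K₁) : Ω)) := by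
    rw [← hx₁]
    exact sheetNorm1_of_unit p K₁ h hq hx₁0 hπ.ne_zero a hfa hfa'
  rw [hn]
  congr 1
  have hltS : ∀ P ∈ S, absv (some p) (valN (1 * q) P (jqBar q)⁻¹) < 1 := by
    intro P hP
    have h1 := hζ _ (Or.inl (Finset.mem_image_of_mem (ptResW q K₁) hP))
    have := absv_valN_lt_one_of_hasValueAt p h1.1 h1.2
    rwa [limPhi_Jq1_inv K₁] at this
  have hltQ : absv (some p) (valN (1 * q) Q (jqBar q)⁻¹) < 1 := by
    have h1 := hζ _ (Or.inr rfl)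
    have := absv_valN_lt_one_of_hasValueAt p h1.1 h1.2
    rwa [limPhi_Jq1_inv K₁] at this
  have hsub : S.erase Q ⊆ D.support := fun P hP =>
    (Finset.mem_filter.mp (Finset.mem_of_mem_erase hP)).1
  symm
  trans ∑ P ∈ S.erase Q,
      if P ≠ Q ∧ KCuspZero p q P ∧ absv (some p) (valN (1 * q) P (jqBar q)⁻¹ -
        valN (1 * q) Q (jqBar q)⁻¹) < 1 then
      (D P : ℝ) * lg (some p) (valN (1 * q) P (jqBar q)⁻¹ -
        valN (1 * q) Q (jqBar q)⁻¹) else 0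
  · symm
    apply Finset.sum_subset hsub
    intro P hP hnot
    rw [if_neg]
    rintro ⟨hne, hk, -⟩
    exact hnot (Finset.mem_erase.mpr ⟨hne, Finset.mem_filter.mpr ⟨hP, hk⟩⟩)
  · refine Finset.sum_congr rfl (fun P hP => ?_)
    have hPS := Finset.mem_of_mem_erase hP
    have hk := (Finset.mem_filter.mp hPS).2
    rw [if_pos ⟨Finset.ne_of_mem_erase hP, hk, absv_sub_lt_one p (hltS P hPS) hltQ⟩]

end CF

end Fermat.Agent.MW.OneCell
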