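import Mathlib
import Fermat.Agent.MW.NADIC_helper1_DiscCF

/-!
# Project MW (S17) — [N-ADIC] helper1, [NODE-DICT-AUX]: the dictionary on the annuli of the nodes

`centredAt_iff_kNode` : for `Q`, `P` rational over `K₁`, `Q` centred at the node `𝔪` of the chart
`j`: `P` is centred at `𝔪` iff `P` is of the kind `KNode` and `|j(P) - j(Q)| < 1`.
`centredAt_iff_inAnn` : the same in terms of the annulus `W.InAnn p s` of a `NodeCharts`.
-/

set_option autoImplicit false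
set_option linter.unusedSectionVars false
set_option linter.unusedVariables false
set_option linter.style.haveILetI false
set_option synthInstance.maxHeartbeats 200000

open IntermediateField AlgebraicCurve ModularCurve

noncomputable section

namespace Fermat.Agent.MW.OneCell

open Fermat.Agent.JA Fermat.Agent.FF Fermat.Agent.SS Fermat.Agent.Igusa Fermat.Agent.X0N
  Fermat.Agent.MW Fermat.Agent.MW.NAdic

open scoped Fermat.Agent.JA.Host

attribute [local instance] baseToComplex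

/-- `Ω = AlgebraicClosure ℚ`. -/
local notation "Ω" => AlgebraicClosure ℚ

section Dict

variable (p : Nat.Primes) {q : ℕ} [NeZero q] [NeZero (1 * q)] {x y : ℤ}
  (h : (q : ℤ) * x + ((1 : ℕ) : ℤ) * y = 1) (hq : q.Prime) (hpq : (p : ℕ) = q)
  {K₁ : IntermediateField ℚ Ω} [IsDiscreteValuationRing (R1 p K₁)]
  {π : R1 p K₁} (hπ : Irreducible π)
  [IsAlgClosed (IsLocalRing.ResidueField (R1 p K₁))]

include h hq hpq hπ in
/-- **the dictionary on the cell of a node**: same centre iff same kind and congruent `j`. -/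
theorem centredAt_iff_kNode {Q P : PtN (1 * q)} (hQrat : IsRationalPlace (ptResW q K₁ Q))
    (hPrat : IsRationalPlace (ptResW q K₁ P))
    (𝔪 : Ideal ↥(chartOne (R1 p K₁) (E1 q K₁) (gJ K₁))) [h𝔪 : 𝔪.IsMaximal]
    (hinf : sheetIdeal (gJ K₁) (Winf1 p q K₁) (mdl h hq hπ hpq).two.chart_le_inf ≤ 𝔪)
    (h0 : sheetIdeal (gJ K₁) (W01 p q K₁ h hq) (mdl h hq hπ hpq).two.chart_le_zero ≤ 𝔪)
    (hQ : CentredAt 𝔪 (ptResW q K₁ Q)) :
    CentredAt 𝔪 (ptResW q K₁ P) ↔ KNode p q P ∧ absv (some p) (jv q P - jv q Q) < 1 := by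
  have M := mdl h hq hπ hpq
  haveI : IsFractionRing ↥(chartOne (R1 p K₁) (E1 q K₁) (gJ K₁)) (E1 q K₁) :=
    isFractionRing_chartOne (K₁ := ↥K₁) (gJ K₁) M.j_adjoin
  haveI h𝔪p := h𝔪.isPrime
  have hπ𝔪 : algebraMap (R1 p K₁) ↥(chartOne (R1 p K₁) (E1 q K₁) (gJ K₁)) π ∈ 𝔪 :=
    hinf (IsTwoSheet.pi_mem_inf (K₁ := ↥K₁) M.two hπ)
  have hJloc : J1 q K₁ ∈ locRing (chartOne (R1 p K₁) (E1 q K₁) (gJ K₁)) 𝔪 :=
    le_locRing M.A_t_mem
  obtain ⟨ζQ, hζQ, -⟩ := exists_value_of_centredAt (ptResW q K₁ Q) hQrat _ hπ 𝔪 hπ𝔪 hQ hJloc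
  constructor
  · intro hP
    refine ⟨(kNode_iff p h hq hpq hπ hPrat).mpr ⟨𝔪, h𝔪, hP, hinf, h0⟩, ?_⟩
    obtain ⟨ζP, hζP, -⟩ := exists_value_of_centredAt (ptResW q K₁ P) hPrat _ hπ 𝔪 hπ𝔪 hP hJloc
    have hloc := sub_value_mem_locMax (ptResW q K₁ P) hPrat _ hπ 𝔪 hπ𝔪 hP hJloc hζP
    have hmem := value_sub_mem_maximalIdeal (ptResW q K₁ Q) hQrat _ hπ 𝔪 hπ𝔪 hQ hζQ hloc
    rw [jv_eq_of_hasValueAt hζP, jv_eq_of_hasValueAt hζQ]
    refine (absv_sub_lt_one_iff p ζP ζQ).mpr ?_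
    have := neg_mem hmem
    rwa [neg_sub] at this
  · rintro ⟨hK, habs⟩
    obtain ⟨𝔪', h𝔪', hP', hinf', h0'⟩ := (kNode_iff p h hq hpq hπ hPrat).mp hK
    haveI := h𝔪'
    haveI h𝔪'p := h𝔪'.isPrime
    have hπ𝔪' : algebraMap (R1 p K₁) ↥(chartOne (R1 p K₁) (E1 q K₁) (gJ K₁)) π ∈ 𝔪' :=
      hinf' (IsTwoSheet.pi_mem_inf (K₁ := ↥K₁) M.two hπ)
    have hJloc' : J1 q K₁ ∈ locRing (chartOne (R1 p K₁) (E1 q K₁) (gJ K₁)) 𝔪' :=
      le_locRing M.A_t_mem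
    obtain ⟨ζP, hζP, -⟩ := exists_value_of_centredAt (ptResW q K₁ P) hPrat _ hπ 𝔪' hπ𝔪' hP' hJloc'
    rw [jv_eq_of_hasValueAt hζP, jv_eq_of_hasValueAt hζQ] at habs
    replace habs := (absv_sub_lt_one_iff p ζP ζQ).mp habs
    have hval := sub_value_mem_locMax (ptResW q K₁ Q) hQrat _ hπ 𝔪 hπ𝔪 hQ hJloc hζQ
    have hval' := sub_value_mem_locMax (ptResW q K₁ P) hPrat _ hπ 𝔪' hπ𝔪' hP' hJloc' hζP
    have hζ : ζQ - ζP ∈ Ideal.span {π} := by
      rw [← hπ.maximalIdeal_eq]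
      have := neg_mem habs
      rwa [neg_sub] at this
    have e : 𝔪 = 𝔪' := SSModel.eq_of_inf M mdl_htj mdl_hsurj 𝔪 𝔪' hinf hinf' hval hval' hζ
    rw [e]
    exact hP'

include h hq hpq hπ in
/-- **the last clause of the node dictionary**: for `Q` on the annulus `s` centred at the node `𝔪`,
a point `P` rational over `K₁` is centred at `𝔪` iff it lies on the annulus `s`. -/
theorem centredAt_iff_inAnn (W : NodeCharts q) {s : Fin W.nn} {Q P : PtN (1 * q)}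
    (hQrat : IsRationalPlace (ptResW q K₁ Q)) (hPrat : IsRationalPlace (ptResW q K₁ P))
    (𝔪 : Ideal ↥(chartOne (R1 p K₁) (E1 q K₁) (gJ K₁))) [h𝔪 : 𝔪.IsMaximal]
    (hinf : sheetIdeal (gJ K₁) (Winf1 p q K₁) (mdl h hq hπ hpq).two.chart_le_inf ≤ 𝔪)
    (h0 : sheetIdeal (gJ K₁) (W01 p q K₁ h hq) (mdl h hq hπ hpq).two.chart_le_zero ≤ 𝔪)
    (hQ : CentredAt 𝔪 (ptResW q K₁ Q)) (hQs : W.InAnn p s Q) :
    CentredAt 𝔪 (ptResW q K₁ P) ↔ W.InAnn p s P := by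
  rw [centredAt_iff_kNode p h hq hpq hπ hQrat hPrat 𝔪 hinf h0 hQ]
  constructor
  · rintro ⟨hK, habs⟩
    refine ⟨hK, ?_⟩
    have e : jv q P - W.j₀ s = (jv q P - jv q Q) + (jv q Q - W.j₀ s) := by ring
    rw [e]
    exact lt_of_le_of_lt (absv_some_add_le_max p _ _) (max_lt habs hQs.2)
  · rintro ⟨hK, habs⟩
    refine ⟨hK, ?_⟩
    have e : jv q P - jv q Q = (jv q P - W.j₀ s) + -(jv q Q - W.j₀ s) := by ring
    rw [e]
    refine lt_of_le_of_lt (absv_some_add_le_max p _ _) (max_lt habs ?_)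
    rw [absv_neg]
    exact hQs.2

end Dict

end Fermat.Agent.MW.OneCell
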