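import Mathlib
import Fermat.Agent.MW.NADIC_helper6_Node

/-!
# Project MW (S17) — [N-ADIC] helper6, [NODE-DATUM]: node coordinates as elements of the function
field, stable under base change

`NodeDatum π 𝔪 x₀ y₀ X Y m` : `X ≡ x₀`, `Y ≡ y₀` modulo `π · B_𝔪` and `X Y = π^m ·` unit of `B_𝔪`
(`x₀`, `y₀` the naive node coordinates).

* `SSModel.exists_nodeDatum` : existence at every node of the chart `j` (from
  `chart_node_normal_form`);
* `SSModel.isNodeCoord_of_nodeDatum` : a node datum at a node gives a node coordinate in normal form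
  (`IsNodeCoord`);
* `NodeDatum.map` : base change along a ring homomorphism of the function fields which maps `π₀` to
  `v · π₁^e`.
-/

set_option autoImplicit false
set_option linter.unusedSectionVars false
set_option linter.unusedVariables false
set_option linter.style.haveILetI false

open AlgebraicCurve IsLocalRing

namespace Fermat.Agent.MW.NAdic

open Fermat.Agent.SS Fermat.Agent.JA Fermat.Agent.FF Fermat.Agent.MW

section Loc

attribute [local instance] locAlgebra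

variable {R₁ : Type*} [CommRing R₁]
  {E : Type*} [Field E] [Algebra R₁ E]

/-- every element of `locRing B 𝔪` is the image of an element of the localisation `B_𝔪`. -/
theorem exists_localization_eq_of_mem_locRing (B : Subalgebra R₁ E) [IsFractionRing ↥B E]
    (𝔪 : Ideal ↥B) [h𝔪 : 𝔪.IsPrime] {e : E} (he : e ∈ locRing B 𝔪) :
    ∃ z : Localization.AtPrime 𝔪, algebraMap (Localization.AtPrime 𝔪) E z = e := by
  obtain ⟨r, s, hs, hrs⟩ := he
  refine ⟨IsLocalization.mk' (Localization.AtPrime 𝔪) r (⟨s, hs⟩ : 𝔪.primeCompl), ?_⟩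
  rw [locAlgebra_mk']
  have hs0 : algebraMap ↥B E s ≠ 0 :=
    (map_ne_zero_iff _ (IsFractionRing.injective ↥B E)).mpr
      (fun h0 => hs (by rw [h0]; exact 𝔪.zero_mem))
  have h1 : algebraMap ↥B E r = e * algebraMap ↥B E s := hrs.symm
  show algebraMap ↥B E r * (algebraMap ↥B E s)⁻¹ = e
  rw [h1, mul_assoc, mul_inv_cancel₀ hs0, mul_one]

end Loc

section Datum

variable {R : Type*} [CommRing R]
  {KN : Type*} [Field KN] [Algebra R KN]
  {EN : Type*} [Field EN] [Algebra KN EN] [Algebra R EN] [IsScalarTower R KN EN]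

/-- **a node datum** at the prime `𝔪` of the chart `u` (see the file header). -/
structure NodeDatum (π : R) {u : KN} (𝔪 : Ideal ↥(chartOne R EN u)) [𝔪.IsPrime]
    (x₀ y₀ X Y : EN) (m : ℕ) : Prop where
  x_sub : ∃ d ∈ locRing (chartOne R EN u) 𝔪, X - x₀ = algebraMap R EN π * d
  y_sub : ∃ d ∈ locRing (chartOne R EN u) 𝔪, Y - y₀ = algebraMap R EN π * d
  mul : ∃ r ∈ locRing (chartOne R EN u) 𝔪, r⁻¹ ∈ locRing (chartOne R EN u) 𝔪 ∧
    X * Y = algebraMap R EN π ^ m * r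
  one_le : 1 ≤ m

end Datum

section Map

variable {R₀ : Type*} [CommRing R₀] {KN₀ : Type*} [Field KN₀] [Algebra R₀ KN₀]
  {EN₀ : Type*} [Field EN₀] [Algebra KN₀ EN₀] [Algebra R₀ EN₀] [IsScalarTower R₀ KN₀ EN₀]
  {R₁ : Type*} [CommRing R₁] {KN₁ : Type*} [Field KN₁] [Algebra R₁ KN₁]
  {EN₁ : Type*} [Field EN₁] [Algebra KN₁ EN₁] [Algebra R₁ EN₁] [IsScalarTower R₁ KN₁ EN₁]

/-- a ring homomorphism of the function fields mapping the chart into the chart and the complement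
of `𝔪₀` into the complement of `𝔪₁` maps the local ring into the local ring. -/
theorem locRing_map (σ : EN₀ →+* EN₁) {u₀ : KN₀} {u₁ : KN₁}
    (hB : ∀ b ∈ chartOne R₀ EN₀ u₀, σ b ∈ chartOne R₁ EN₁ u₁)
    (𝔪₀ : Ideal ↥(chartOne R₀ EN₀ u₀)) [𝔪₀.IsPrime]
    (𝔪₁ : Ideal ↥(chartOne R₁ EN₁ u₁)) [𝔪₁.IsPrime]
    (h𝔪 : ∀ b : ↥(chartOne R₀ EN₀ u₀), b ∉ 𝔪₀ →
      (⟨σ (b : EN₀), hB _ b.2⟩ : ↥(chartOne R₁ EN₁ u₁)) ∉ 𝔪₁)
    {z : EN₀} (hz : z ∈ locRing (chartOne R₀ EN₀ u₀) 𝔪₀) :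
    σ z ∈ locRing (chartOne R₁ EN₁ u₁) 𝔪₁ := by
  obtain ⟨r, s, hs, hrs⟩ := hz
  refine ⟨⟨σ (r : EN₀), hB _ r.2⟩, ⟨σ (s : EN₀), hB _ s.2⟩, h𝔪 s hs, ?_⟩
  show σ z * σ (s : EN₀) = σ (r : EN₀)
  rw [← map_mul, hrs]

/-- **base change of a node datum.** -/
theorem NodeDatum.map (σ : EN₀ →+* EN₁) (ι : R₀ →+* R₁)
    (hσι : ∀ r : R₀, σ (algebraMap R₀ EN₀ r) = algebraMap R₁ EN₁ (ι r))
    {π₀ : R₀} {π₁ : R₁} {e : ℕ} {v : R₁} (hv : IsUnit v) (he : 1 ≤ e) (hπ : ι π₀ = v * π₁ ^ e)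
    {u₀ : KN₀} {u₁ : KN₁}
    (𝔪₀ : Ideal ↥(chartOne R₀ EN₀ u₀)) [𝔪₀.IsPrime]
    (𝔪₁ : Ideal ↥(chartOne R₁ EN₁ u₁)) [𝔪₁.IsPrime]
    (hloc : ∀ z ∈ locRing (chartOne R₀ EN₀ u₀) 𝔪₀, σ z ∈ locRing (chartOne R₁ EN₁ u₁) 𝔪₁)
    {x₀ y₀ X Y : EN₀} {m : ℕ} (hd : NodeDatum π₀ 𝔪₀ x₀ y₀ X Y m) :
    NodeDatum π₁ 𝔪₁ (σ x₀) (σ y₀) (σ X) (σ Y) (e * m) := by
  obtain ⟨v', rfl⟩ := hv
  have hπE : σ (algebraMap R₀ EN₀ π₀) =
      algebraMap R₁ EN₁ π₁ * algebraMap R₁ EN₁ ((v' : R₁) * π₁ ^ (e - 1)) := by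
    rw [hσι, hπ, ← map_mul]
    congr 1
    have : π₁ ^ e = π₁ * π₁ ^ (e - 1) := by
      rw [← pow_succ']
      congr 1
      omega
    rw [this]
    ring
  have hsub : ∀ {Z z₀ : EN₀}, (∃ d ∈ locRing (chartOne R₀ EN₀ u₀) 𝔪₀,
      Z - z₀ = algebraMap R₀ EN₀ π₀ * d) →
      ∃ d ∈ locRing (chartOne R₁ EN₁ u₁) 𝔪₁, σ Z - σ z₀ = algebraMap R₁ EN₁ π₁ * d := by
    rintro Z z₀ ⟨d, hd, hZ⟩
    refine ⟨algebraMap R₁ EN₁ ((v' : R₁) * π₁ ^ (e - 1)) * σ d,
      (locRing _ 𝔪₁).mul_mem ((locRing _ 𝔪₁).algebraMap_mem _) (hloc d hd), ?_⟩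
    rw [← map_sub, hZ, map_mul, hπE]
    ring
  refine ⟨hsub hd.x_sub, hsub hd.y_sub, ?_, ?_⟩
  · obtain ⟨r, hr, hr', hXY⟩ := hd.mul
    refine ⟨algebraMap R₁ EN₁ ((v' : R₁) ^ m) * σ r,
      (locRing _ 𝔪₁).mul_mem ((locRing _ 𝔪₁).algebraMap_mem _) (hloc r hr), ?_, ?_⟩
    · have e1 : (algebraMap R₁ EN₁ ((v' : R₁) ^ m) * σ r)⁻¹ =
          algebraMap R₁ EN₁ (((v'⁻¹ : R₁ˣ) : R₁) ^ m) * σ r⁻¹ := by
        rw [mul_inv, map_inv₀]
        congr 1
        apply inv_eq_of_mul_eq_one_right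
        rw [← map_mul, ← mul_pow, Units.mul_inv, one_pow, map_one]
      rw [e1]
      exact (locRing _ 𝔪₁).mul_mem ((locRing _ 𝔪₁).algebraMap_mem _) (hloc _ hr')
    · rw [← map_mul, hXY, map_mul, map_pow, hσι, hπ, map_mul, map_pow, map_pow, mul_pow, ← pow_mul]
      ring
  · exact le_trans hd.one_le (Nat.le_mul_of_pos_left m (by omega))

end Map

section Model

attribute [local instance] locAlgebra

variable {R : Type*} [CommRing R] [IsDomain R] [IsDiscreteValuationRing R] [CharZero R]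
  {K₁ : Type*} [Field K₁] [Algebra R K₁] [IsFractionRing R K₁]
  {KM : Type*} [Field KM] [Algebra K₁ KM] [Algebra R KM] [IsScalarTower R K₁ KM]
  {EM : Type*} [Field EM] [Algebra KM EM] [Algebra K₁ EM] [IsScalarTower K₁ KM EM] [Algebra R EM]
  [IsScalarTower R KM EM]
  {KN : Type*} [Field KN] [Algebra K₁ KN] [Algebra R KN] [IsScalarTower R K₁ KN]
  {EN : Type*} [Field EN] [Algebra KN EN] [Algebra K₁ EN] [IsScalarTower K₁ KN EN] [Algebra R EN]
  [IsScalarTower R KN EN] [FiniteDimensional KN EN]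
  {π : R} {q n : ℕ} {t : KM} {jM : EM} {j : KN} {A B : EM →+* EN}
  {VM : ValuationSubring EM} {Winf W0 : ValuationSubring EN}

/-- **existence of node data** at every node of the chart `j`, of thickness `m ≤ c`. -/
theorem SSModel.exists_nodeDatum [IsAlgClosed (IsLocalRing.ResidueField R)]
    [IsScalarTower R K₁ EN]
    (h : SSModel K₁ π q n (∅ : Finset R) t jM j A B VM Winf W0) (hπ : Irreducible π)
    (hk0 : W0.valuation (A (algebraMap KM EM t) - B (algebraMap KM EM t) ^ q) < 1)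
    {U : EN} {c : ℕ} (hU : NodeUnit K₁ π (A jM) U c Winf W0)
    (𝔪 : Ideal ↥(chartOne R EN j)) [h𝔪 : 𝔪.IsMaximal]
    (hinf : sheetIdeal j Winf h.two.chart_le_inf ≤ 𝔪)
    (h0 : sheetIdeal j W0 h.two.chart_le_zero ≤ 𝔪) :
    ∃ (X Y : EN) (m : ℕ), (haveI := h𝔪.isPrime; NodeDatum π 𝔪
        (A (algebraMap KM EM t) - B (algebraMap KM EM t) ^ q)
        (B (algebraMap KM EM t) - A (algebraMap KM EM t) ^ q) X Y m) ∧ m ≤ c := by
  haveI h𝔪p : 𝔪.IsPrime := h𝔪.isPrime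
  have hu := h.j_transcendental
  have hK := h.j_adjoin
  haveI : IsIntegrallyClosed ↥(chartOne R EN j) := isIntegrallyClosed_chartOne (K₁ := K₁) j hK
  haveI : IsNoetherianRing ↥(chartOne R EN j) := isNoetherianRing_chartOne (K₁ := K₁) j hu hK
  haveI : IsFractionRing ↥(chartOne R EN j) EN := isFractionRing_chartOne (K₁ := K₁) j hK
  haveI := locAlgebra_isScalarTower (E := EN) 𝔪
  haveI := locAlgebra_isScalarTower_base (R₁ := R) (E := EN) 𝔪
  obtain ⟨x, y, hxE, hyE, hx, hx0, hy, hyinf⟩ := SSModel.naive_node h hπ hk0 𝔪 hinf h0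
  obtain ⟨hU1, hU2⟩ := h.two.isUnitAtPrime_nodeUnit hπ hu hK hU.ne_zero c hU.mem_inf
    hU.inv_mem_inf hU.mem_zero hU.inv_mem_zero
  have hint := hU.int
  have hint' := hU.int_inv
  rw [h.A_j] at hint hint'
  obtain ⟨x', y', r, m, hnode, hxx, hyy, hm, hmc, hr, hxy⟩ :=
    chart_node_normal_form (K₁ := K₁) (E := EN) hπ 𝔪 (h.two.pi_mem_inf (K₁ := K₁) hπ)
      (h.two.pi_mem_zero (K₁ := K₁) hπ) (h.two.inf_le_span hπ hu hK) hinf h0 hx hx0 hy hyinf
      hU.one_le hU1 hU2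
      (fun 𝔮 h𝔮 _ hπ𝔮 _ => by
        haveI := h𝔮
        exact isUnitAtPrime_of_isIntegral_adjoin (R₁ := R) (K₁ := K₁)
          (⟨algebraMap KN EN j, algebraMap_coord_mem_chartOne j⟩ : ↥(chartOne R EN j))
          hU.ne_zero hint hint' 𝔮 (algebraMap_notMem_of_irreducible_of_notMem hπ 𝔮 hπ𝔮))
  have h1 : ∀ b : ↥(chartOne R EN j), algebraMap (Localization.AtPrime 𝔪) EN
      (algebraMap ↥(chartOne R EN j) (Localization.AtPrime 𝔪) b) = (b : EN) := fun b =>
    (IsScalarTower.algebraMap_apply ↥(chartOne R EN j) (Localization.AtPrime 𝔪) EN b).symm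
  have h2 : algebraMap (Localization.AtPrime 𝔪) EN (algebraMap R (Localization.AtPrime 𝔪) π) =
      algebraMap R EN π := (IsScalarTower.algebraMap_apply R (Localization.AtPrime 𝔪) EN π).symm
  have hsub : ∀ {z' : Localization.AtPrime 𝔪} {z : ↥(chartOne R EN j)},
      z' - algebraMap ↥(chartOne R EN j) (Localization.AtPrime 𝔪) z ∈
        Ideal.span {algebraMap R (Localization.AtPrime 𝔪) π} →
      ∃ d ∈ locRing (chartOne R EN j) 𝔪,
        algebraMap (Localization.AtPrime 𝔪) EN z' - (z : EN) = algebraMap R EN π * d := by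
    intro z' z hz
    obtain ⟨d, hd⟩ := Ideal.mem_span_singleton'.mp hz
    refine ⟨algebraMap (Localization.AtPrime 𝔪) EN d,
      algebraMap_localization_mem_locRing (chartOne R EN j) 𝔪 d, ?_⟩
    rw [← h1, ← map_sub, ← hd, map_mul, h2, mul_comm]
  obtain ⟨ri, hri⟩ := hr.exists_right_inv
  refine ⟨algebraMap (Localization.AtPrime 𝔪) EN x', algebraMap (Localization.AtPrime 𝔪) EN y', m,
    ⟨?_, ?_, ?_, hm⟩, hmc⟩
  · rw [← hxE]; exact hsub hxx
  · rw [← hyE]; exact hsub hyy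
  · refine ⟨algebraMap (Localization.AtPrime 𝔪) EN r,
      algebraMap_localization_mem_locRing (chartOne R EN j) 𝔪 r, ?_, ?_⟩
    · have : (algebraMap (Localization.AtPrime 𝔪) EN r)⁻¹ =
          algebraMap (Localization.AtPrime 𝔪) EN ri := by
        apply inv_eq_of_mul_eq_one_right
        rw [← map_mul, hri, map_one]
      rw [this]
      exact algebraMap_localization_mem_locRing (chartOne R EN j) 𝔪 ri
    · rw [← map_mul, hxy, map_mul, map_pow, h2]

/-- **a node datum at a node gives a node coordinate in normal form.** -/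
theorem SSModel.isNodeCoord_of_nodeDatum [IsAlgClosed (IsLocalRing.ResidueField R)]
    [IsScalarTower R K₁ EN]
    (h : SSModel K₁ π q n (∅ : Finset R) t jM j A B VM Winf W0) (hπ : Irreducible π)
    (hk0 : W0.valuation (A (algebraMap KM EM t) - B (algebraMap KM EM t) ^ q) < 1)
    (𝔪 : Ideal ↥(chartOne R EN j)) [h𝔪 : 𝔪.IsMaximal]
    (hinf : sheetIdeal j Winf h.two.chart_le_inf ≤ 𝔪)
    (h0 : sheetIdeal j W0 h.two.chart_le_zero ≤ 𝔪) {X Y : EN} {m : ℕ}
    (hd : haveI := h𝔪.isPrime; NodeDatum π 𝔪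
      (A (algebraMap KM EM t) - B (algebraMap KM EM t) ^ q)
      (B (algebraMap KM EM t) - A (algebraMap KM EM t) ^ q) X Y m) :
    haveI := h𝔪.isPrime
    IsNodeCoord π (isFractionRing_chartOne (K₁ := K₁) j h.j_adjoin)
      (sheetIdeal j Winf h.two.chart_le_inf) (sheetIdeal j W0 h.two.chart_le_zero) 𝔪 X m := by
  haveI h𝔪p : 𝔪.IsPrime := h𝔪.isPrime
  have hu := h.j_transcendental
  have hK := h.j_adjoin
  haveI : IsIntegrallyClosed ↥(chartOne R EN j) := isIntegrallyClosed_chartOne (K₁ := K₁) j hK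
  haveI : IsNoetherianRing ↥(chartOne R EN j) := isNoetherianRing_chartOne (K₁ := K₁) j hu hK
  haveI : IsFractionRing ↥(chartOne R EN j) EN := isFractionRing_chartOne (K₁ := K₁) j hK
  haveI := locAlgebra_isScalarTower (E := EN) 𝔪
  haveI := locAlgebra_isScalarTower_base (R₁ := R) (E := EN) 𝔪
  haveI := locAlgebra_isFractionRing (E := EN) 𝔪
  obtain ⟨x, y, hxE, hyE, hx, hx0, hy, hyinf⟩ := SSModel.naive_node h hπ hk0 𝔪 hinf h0
  have hnode := isNodePair_of_branches (R := Localization.AtPrime 𝔪) 𝔪 hinf h0 hx hx0 hy hyinf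
  have hinj : Function.Injective (algebraMap (Localization.AtPrime 𝔪) EN) :=
    IsFractionRing.injective (Localization.AtPrime 𝔪) EN
  have h1 : ∀ b : ↥(chartOne R EN j), algebraMap (Localization.AtPrime 𝔪) EN
      (algebraMap ↥(chartOne R EN j) (Localization.AtPrime 𝔪) b) = (b : EN) := fun b =>
    (IsScalarTower.algebraMap_apply ↥(chartOne R EN j) (Localization.AtPrime 𝔪) EN b).symm
  have h2 : algebraMap (Localization.AtPrime 𝔪) EN (algebraMap R (Localization.AtPrime 𝔪) π) =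
      algebraMap R EN π := (IsScalarTower.algebraMap_apply R (Localization.AtPrime 𝔪) EN π).symm
  have hπO : algebraMap ↥(chartOne R EN j) (Localization.AtPrime 𝔪)
      (algebraMap R ↥(chartOne R EN j) π) = algebraMap R (Localization.AtPrime 𝔪) π :=
    (IsScalarTower.algebraMap_apply R ↥(chartOne R EN j) (Localization.AtPrime 𝔪) π).symm
  have hπ0' : algebraMap R (Localization.AtPrime 𝔪) π ∈
      (sheetIdeal j W0 h.two.chart_le_zero).map
        (algebraMap ↥(chartOne R EN j) (Localization.AtPrime 𝔪)) := by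
    rw [← hπO]; exact Ideal.mem_map_of_mem _ (h.two.pi_mem_zero (K₁ := K₁) hπ)
  have hπinf' : algebraMap R (Localization.AtPrime 𝔪) π ∈
      (sheetIdeal j Winf h.two.chart_le_inf).map
        (algebraMap ↥(chartOne R EN j) (Localization.AtPrime 𝔪)) := by
    rw [← hπO]; exact Ideal.mem_map_of_mem _ (h.two.pi_mem_inf (K₁ := K₁) hπ)
  -- lift `X`, `Y`, `r` to the localisation
  have hlift : ∀ {Z : EN} {z : ↥(chartOne R EN j)},
      (∃ d ∈ locRing (chartOne R EN j) 𝔪, Z - (z : EN) = algebraMap R EN π * d) →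
      ∃ z' : Localization.AtPrime 𝔪, algebraMap (Localization.AtPrime 𝔪) EN z' = Z ∧
        z' - algebraMap ↥(chartOne R EN j) (Localization.AtPrime 𝔪) z ∈
          Ideal.span {algebraMap R (Localization.AtPrime 𝔪) π} := by
    rintro Z z ⟨d, hd, hZ⟩
    obtain ⟨d', hd'⟩ := exists_localization_eq_of_mem_locRing (chartOne R EN j) 𝔪 hd
    refine ⟨algebraMap ↥(chartOne R EN j) (Localization.AtPrime 𝔪) z +
      algebraMap R (Localization.AtPrime 𝔪) π * d', ?_, ?_⟩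
    · rw [map_add, map_mul, h1, h2, hd', ← hZ]; ring
    · rw [add_sub_cancel_left]
      exact Ideal.mul_mem_right _ _ (Ideal.subset_span (Set.mem_singleton _))
  obtain ⟨x', hx'E, hx'⟩ := hlift (Z := X) (z := x) (by rw [hxE]; exact hd.x_sub)
  obtain ⟨y', hy'E, hy'⟩ := hlift (Z := Y) (z := y) (by rw [hyE]; exact hd.y_sub)
  obtain ⟨r, hr, hr', hXY⟩ := hd.mul
  obtain ⟨r₁, hr₁⟩ := exists_localization_eq_of_mem_locRing (chartOne R EN j) 𝔪 hr
  obtain ⟨r₂, hr₂⟩ := exists_localization_eq_of_mem_locRing (chartOne R EN j) 𝔪 hr'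
  have hr0 : r ≠ 0 := by
    rintro rfl
    have hm0 : X * Y = 0 := by rw [hXY, mul_zero]
    have hnode' := hnode.congr hπ0' hπinf' hx' hy'
    have hxy0 : x' * y' = 0 := by
      apply hinj
      rw [map_mul, hx'E, hy'E, hm0, map_zero]
    rcases mul_eq_zero.mp hxy0 with h0' | h0'
    · exact hnode'.x_notMem (by rw [h0']; exact Ideal.zero_mem _)
    · exact hnode'.y_notMem (by rw [h0']; exact Ideal.zero_mem _)
  refine ⟨x', y', r₁, hnode.congr hπ0' hπinf' hx' hy', ?_, ?_, hd.one_le, hx'E⟩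
  · apply hinj
    rw [map_mul, hx'E, hy'E, hXY, map_mul, map_pow, h2, hr₁]
  · refine IsUnit.of_mul_eq_one r₂ ?_
    apply hinj
    rw [map_mul, hr₁, hr₂, map_one, mul_inv_cancel₀ hr0]

end Model

end Fermat.Agent.MW.NAdic
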