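import Mathlib
import Fermat.Agent.MW.NADIC_helper6_Ctx
import Fermat.Agent.MW.NADIC_helper6_NodeDatum

/-!
# Project MW (S17) — [N-ADIC] helper6, [NODE-BC]: base change of the charts of the level-one model
and of node data along `K₀ ≤ K₁`

* `oneBC_mem_chartOne`, `chartBC` : the base change maps the chart `j` over `R₀` into the chart `j`
  over `R₁`;
* `comap_chartBC_isMaximal` : the contraction of a closed point of the special fibre is a closed
  point of the special fibre;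
* `sheetInf_le_comap_chartBC`, `sheetZero_le_comap_chartBC` : the contraction of a point of a sheet
  lies on the same sheet;
* `nodeDatum_oneBC` : base change of node data.
-/

set_option autoImplicit false
set_option linter.unusedSectionVars false
set_option linter.unusedVariables false
set_option linter.style.haveILetI false
set_option synthInstance.maxHeartbeats 200000

open IntermediateField AlgebraicCurve ModularCurve

noncomputable section

namespace Fermat.Agent.MW.OneCell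

open Fermat.Agent.JA Fermat.Agent.FF Fermat.Agent.SS Fermat.Agent.Igusa Fermat.Agent.X0N
  Fermat.Agent.MW Fermat.Agent.MW.NAdic

open scoped Fermat.Agent.JA.Host

attribute [local instance] baseToComplex

/-- `Ω = AlgebraicClosure ℚ`. -/
local notation "Ω" => AlgebraicClosure ℚ

variable (p : Nat.Primes) {q : ℕ} [NeZero q] [NeZero (1 * q)]
  {K₀ K₁ : IntermediateField ℚ Ω} (h01 : K₀ ≤ K₁)

/-- the base change maps `R₀[j]` into `R₁[j]`. -/
theorem oneBC_mem_adjoin {z : E1 q K₀} (hz : z ∈ Algebra.adjoin (R1 p K₀) {J1 q K₀}) :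
    oneBC h01 z ∈ Algebra.adjoin (R1 p K₁) {J1 q K₁} := by
  induction hz using Algebra.adjoin_induction with
  | mem x hx =>
    rw [Set.mem_singleton_iff] at hx
    rw [hx, oneBC_oneHostA_gen]
    exact Algebra.self_mem_adjoin_singleton _ _
  | algebraMap r =>
    rw [oneBC_algebraMap_baseRing]
    exact Subalgebra.algebraMap_mem _ _
  | add x y _ _ hx hy => rw [map_add]; exact Subalgebra.add_mem _ hx hy
  | mul x y _ _ hx hy => rw [map_mul]; exact Subalgebra.mul_mem _ hx hy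

/-- the base change on `R₀[j]`. -/
def adjoinBC :
    ↥(Algebra.adjoin (R1 p K₀) {J1 q K₀}) →+* ↥(Algebra.adjoin (R1 p K₁) {J1 q K₁}) where
  toFun z := ⟨oneBC h01 (z : E1 q K₀), oneBC_mem_adjoin p h01 z.2⟩
  map_one' := Subtype.ext (map_one (oneBC h01))
  map_mul' a b := Subtype.ext (map_mul (oneBC h01) _ _)
  map_zero' := Subtype.ext (map_zero (oneBC h01))
  map_add' a b := Subtype.ext (map_add (oneBC h01) _ _)

/-- the base change preserves integrality over `R[j]`. -/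
theorem oneBC_isIntegral {b : E1 q K₀}
    (hb : IsIntegral ↥(Algebra.adjoin (R1 p K₀) {J1 q K₀}) b) :
    IsIntegral ↥(Algebra.adjoin (R1 p K₁) {J1 q K₁}) (oneBC h01 b) := by
  have hcomp : (algebraMap ↥(Algebra.adjoin (R1 p K₁) {J1 q K₁}) (E1 q K₁)).comp (adjoinBC p h01) =
      (oneBC h01).comp (algebraMap ↥(Algebra.adjoin (R1 p K₀) {J1 q K₀}) (E1 q K₀)) := by
    ext z
    rfl
  exact IsIntegral.map_of_comp_eq (adjoinBC p h01) (oneBC h01) hcomp hb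

/-- `A j` is the image of `j`. -/
theorem J1_eq_algebraMap (K₁ : IntermediateField ℚ Ω) :
    J1 q K₁ = algebraMap (KJ K₁) (E1 q K₁) (gJ K₁) := Subtype.ext rfl

/-- the chart `j` is the integral closure of `R[A j]`. -/
theorem mem_chartOne_gJ_iff (K₁ : IntermediateField ℚ Ω) (b : E1 q K₁) :
    b ∈ chartOne (R1 p K₁) (E1 q K₁) (gJ K₁) ↔
      IsIntegral ↥(Algebra.adjoin (R1 p K₁) {J1 q K₁}) b := by
  rw [← chartOne_algebraMap_eq, mem_chartOne_iff, J1_eq_algebraMap]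

/-- **the base change maps the chart `j` into the chart `j`.** -/
theorem oneBC_mem_chartOne {b : E1 q K₀} (hb : b ∈ chartOne (R1 p K₀) (E1 q K₀) (gJ K₀)) :
    oneBC h01 b ∈ chartOne (R1 p K₁) (E1 q K₁) (gJ K₁) := by
  rw [mem_chartOne_gJ_iff] at hb ⊢
  exact oneBC_isIntegral p h01 hb

/-- the base change of the charts `j`. -/
def chartBC : ↥(chartOne (R1 p K₀) (E1 q K₀) (gJ K₀)) →+*
    ↥(chartOne (R1 p K₁) (E1 q K₁) (gJ K₁)) where
  toFun z := ⟨oneBC h01 (z : E1 q K₀), oneBC_mem_chartOne p h01 z.2⟩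
  map_one' := Subtype.ext (map_one (oneBC h01))
  map_mul' a b := Subtype.ext (map_mul (oneBC h01) _ _)
  map_zero' := Subtype.ext (map_zero (oneBC h01))
  map_add' a b := Subtype.ext (map_add (oneBC h01) _ _)

@[simp] theorem coe_chartBC (z : ↥(chartOne (R1 p K₀) (E1 q K₀) (gJ K₀))) :
    ((chartBC p h01 z : ↥(chartOne (R1 p K₁) (E1 q K₁) (gJ K₁))) : E1 q K₁) =
      oneBC h01 (z : E1 q K₀) := rfl

theorem chartBC_algebraMap (r : R1 p K₀) :
    chartBC p h01 (algebraMap (R1 p K₀) ↥(chartOne (R1 p K₀) (E1 q K₀) (gJ K₀)) r) =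
      algebraMap (R1 p K₁) ↥(chartOne (R1 p K₁) (E1 q K₁) (gJ K₁))
        (baseRingIncl (padicPlace (p : ℕ)) h01 r) := by
  apply Subtype.ext
  rw [coe_chartBC]
  exact oneBC_algebraMap_baseRing h01 (padicPlace (p : ℕ)) r

variable [IsDiscreteValuationRing (R1 p K₀)] [IsDiscreteValuationRing (R1 p K₁)]

/-- the residue fields of the base rings coincide: every element of `R₁` is congruent to an element
of `R₀`. -/
theorem exists_baseRingIncl_sub_mem (hK₀ : IsBase (p : ℕ) K₀) (r₁ : R1 p K₁) :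
    ∃ r₀ : R1 p K₀, r₁ - baseRingIncl (padicPlace (p : ℕ)) h01 r₀ ∈
      IsLocalRing.maximalIdeal (R1 p K₁) := by
  haveI : Fact (p : ℕ).Prime := ⟨p.2⟩
  have hA := Fermat.Agent.TW.Kill.padicPlace_liesOverPrime (p : ℕ)
  obtain ⟨x, hx⟩ := (residueField_map_baseRingIncl_bijective hA hK₀.flatBase_le h01).2
    (IsLocalRing.residue (R1 p K₁) r₁)
  obtain ⟨r₀, rfl⟩ := IsLocalRing.residue_surjective x
  refine ⟨r₀, ?_⟩
  rw [← Ideal.Quotient.eq_zero_iff_mem]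
  have h1 : IsLocalRing.residue (R1 p K₁) (baseRingIncl (padicPlace (p : ℕ)) h01 r₀) =
      IsLocalRing.residue (R1 p K₁) r₁ := hx
  have h2 : IsLocalRing.residue (R1 p K₁) (r₁ - baseRingIncl (padicPlace (p : ℕ)) h01 r₀) = 0 := by
    rw [map_sub, h1, sub_self]
  exact h2

/-- a nonzero element has valuation `< 1` iff its inverse is not integral. -/
theorem valuation_lt_one_iff_inv_notMem {F : Type*} [Field F] (V : ValuationSubring F) {x : F}
    (hx : x ≠ 0) : V.valuation x < 1 ↔ x⁻¹ ∉ V := by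
  rw [← ValuationSubring.valuation_le_one_iff, map_inv₀, not_le]
  have hv : V.valuation x ≠ 0 := (Valuation.ne_zero_iff _).mpr hx
  constructor
  · intro h
    exact (one_lt_inv₀ (zero_lt_iff.mpr hv)).mpr h
  · intro h
    exact (one_lt_inv₀ (zero_lt_iff.mpr hv)).mp h

/-- a field homomorphism reflecting two valuation subrings reflects their maximal ideals. -/
theorem valuation_map_lt_one_iff {F₀ F₁ : Type*} [Field F₀] [Field F₁] (σ : F₀ →+* F₁)
    (V₀ : ValuationSubring F₀) (V₁ : ValuationSubring F₁) (hσ : ∀ z, σ z ∈ V₁ ↔ z ∈ V₀)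
    (b : F₀) : V₁.valuation (σ b) < 1 ↔ V₀.valuation b < 1 := by
  by_cases hb : b = 0
  · subst hb
    rw [map_zero, map_zero, map_zero]
    exact ⟨fun _ => zero_lt_one, fun _ => zero_lt_one⟩
  · have hσb : σ b ≠ 0 := (map_ne_zero_iff σ σ.injective).mpr hb
    rw [valuation_lt_one_iff_inv_notMem V₁ hσb, valuation_lt_one_iff_inv_notMem V₀ hb,
      ← map_inv₀, hσ]

variable {x y : ℤ} (h : (q : ℤ) * x + ((1 : ℕ) : ℤ) * y = 1) (hq : q.Prime)

theorem valuation_oneBC_inf_lt_one_iff (b : E1 q K₀) :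
    (Winf1 p q K₁).valuation (oneBC h01 b) < 1 ↔ (Winf1 p q K₀).valuation b < 1 :=
  valuation_map_lt_one_iff (oneBC h01) _ _
    (fun z => oneBC_mem_oneWinf_iff h01 (padicPlace (p : ℕ)) z) b

theorem valuation_oneBC_zero_lt_one_iff (b : E1 q K₀) :
    (W01 p q K₁ h hq).valuation (oneBC h01 b) < 1 ↔ (W01 p q K₀ h hq).valuation b < 1 :=
  valuation_map_lt_one_iff (oneBC h01) _ _
    (fun z => oneBC_mem_oneW0_iff h01 (padicPlace (p : ℕ)) h hq z) b

/-- the contraction of a point of `C_∞` lies on `C_∞`. -/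
theorem sheetInf_le_comap_chartBC
    (hW₀ : ∀ b ∈ chartOne (R1 p K₀) (E1 q K₀) (gJ K₀), b ∈ Winf1 p q K₀)
    (hW₁ : ∀ b ∈ chartOne (R1 p K₁) (E1 q K₁) (gJ K₁), b ∈ Winf1 p q K₁)
    (𝔪₁ : Ideal ↥(chartOne (R1 p K₁) (E1 q K₁) (gJ K₁)))
    (hle : sheetIdeal (gJ K₁) (Winf1 p q K₁) hW₁ ≤ 𝔪₁) :
    sheetIdeal (gJ K₀) (Winf1 p q K₀) hW₀ ≤ 𝔪₁.comap (chartBC p h01) := by
  intro b hb
  rw [mem_sheetIdeal_iff] at hb
  rw [Ideal.mem_comap]
  apply hle
  rw [mem_sheetIdeal_iff, coe_chartBC, valuation_oneBC_inf_lt_one_iff]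
  exact hb

/-- the contraction of a point of `C_0` lies on `C_0`. -/
theorem sheetZero_le_comap_chartBC
    (hW₀ : ∀ b ∈ chartOne (R1 p K₀) (E1 q K₀) (gJ K₀), b ∈ W01 p q K₀ h hq)
    (hW₁ : ∀ b ∈ chartOne (R1 p K₁) (E1 q K₁) (gJ K₁), b ∈ W01 p q K₁ h hq)
    (𝔪₁ : Ideal ↥(chartOne (R1 p K₁) (E1 q K₁) (gJ K₁)))
    (hle : sheetIdeal (gJ K₁) (W01 p q K₁ h hq) hW₁ ≤ 𝔪₁) :
    sheetIdeal (gJ K₀) (W01 p q K₀ h hq) hW₀ ≤ 𝔪₁.comap (chartBC p h01) := by
  intro b hb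
  rw [mem_sheetIdeal_iff] at hb
  rw [Ideal.mem_comap]
  apply hle
  rw [mem_sheetIdeal_iff, coe_chartBC, valuation_oneBC_zero_lt_one_iff]
  exact hb

variable {π₀ : R1 p K₀} {π₁ : R1 p K₁} (hπ₀ : Irreducible π₀) (hπ₁ : Irreducible π₁)

include hπ₁ in
/-- **the contraction of a closed point of the special fibre is a closed point of the special
fibre.** -/
theorem comap_chartBC_isMaximal (hK₀ : IsBase (p : ℕ) K₀) (hK₁ : IsBase (p : ℕ) K₁)
    (𝔪₁ : Ideal ↥(chartOne (R1 p K₁) (E1 q K₁) (gJ K₁))) [h𝔪₁ : 𝔪₁.IsMaximal]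
    (hπ𝔪 : algebraMap (R1 p K₁) ↥(chartOne (R1 p K₁) (E1 q K₁) (gJ K₁)) π₁ ∈ 𝔪₁) :
    (𝔪₁.comap (chartBC p h01)).IsMaximal ∧
      ∀ b₀ : ↥(chartOne (R1 p K₀) (E1 q K₀) (gJ K₀)), ∃ r₀ : R1 p K₀,
        b₀ - algebraMap (R1 p K₀) ↥(chartOne (R1 p K₀) (E1 q K₀) (gJ K₀)) r₀ ∈
          𝔪₁.comap (chartBC p h01) := by
  haveI : Fact (p : ℕ).Prime := ⟨p.2⟩
  have hA := Fermat.Agent.TW.Kill.padicPlace_liesOverPrime (p : ℕ)
  haveI : IsAlgClosed (IsLocalRing.ResidueField (R1 p K₁)) := hK₁.isAlgClosed_residueField hA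
  -- elements of the maximal ideal of `R₁` lie in `𝔪₁`
  have hmax1 : ∀ r₁ : R1 p K₁, r₁ ∈ IsLocalRing.maximalIdeal (R1 p K₁) →
      algebraMap (R1 p K₁) ↥(chartOne (R1 p K₁) (E1 q K₁) (gJ K₁)) r₁ ∈ 𝔪₁ := by
    intro r₁ hr₁
    rw [hπ₁.maximalIdeal_eq, Ideal.mem_span_singleton] at hr₁
    obtain ⟨c, rfl⟩ := hr₁
    rw [map_mul]
    exact Ideal.mul_mem_right _ _ hπ𝔪
  have hres : ∀ b₀ : ↥(chartOne (R1 p K₀) (E1 q K₀) (gJ K₀)), ∃ r₀ : R1 p K₀,
      b₀ - algebraMap (R1 p K₀) ↥(chartOne (R1 p K₀) (E1 q K₀) (gJ K₀)) r₀ ∈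
        𝔪₁.comap (chartBC p h01) := by
    intro b₀
    obtain ⟨r₁, hr₁⟩ := exists_sub_mem_of_isMaximal_chartOne (K₁ := ↥K₁) hπ₁
      (model1_transcendental_gen ↥K₁) (model1_adjoin_gen ↥K₁) 𝔪₁ hπ𝔪 (chartBC p h01 b₀)
    obtain ⟨r₀, hr₀⟩ := exists_baseRingIncl_sub_mem p h01 hK₀ r₁
    refine ⟨r₀, ?_⟩
    rw [Ideal.mem_comap, map_sub, chartBC_algebraMap]
    have e : chartBC p h01 b₀ - algebraMap (R1 p K₁) ↥(chartOne (R1 p K₁) (E1 q K₁) (gJ K₁))
        (baseRingIncl (padicPlace (p : ℕ)) h01 r₀) =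
        (chartBC p h01 b₀ - algebraMap (R1 p K₁) ↥(chartOne (R1 p K₁) (E1 q K₁) (gJ K₁)) r₁) +
          algebraMap (R1 p K₁) ↥(chartOne (R1 p K₁) (E1 q K₁) (gJ K₁))
            (r₁ - baseRingIncl (padicPlace (p : ℕ)) h01 r₀) := by
      rw [map_sub]; ring
    rw [e]
    exact 𝔪₁.add_mem hr₁ (hmax1 _ hr₀)
  refine ⟨?_, hres⟩
  rw [Ideal.isMaximal_iff]
  refine ⟨?_, ?_⟩
  · rw [Ideal.mem_comap, map_one]
    exact fun h1 => h𝔪₁.ne_top ((Ideal.eq_top_iff_one _).mpr h1)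
  · intro J b₀ hJ hb₀ hb₀J
    obtain ⟨r₀, hr₀⟩ := hres b₀
    have hr₀u : IsUnit r₀ := by
      by_contra hnu
      have hr₀m : r₀ ∈ IsLocalRing.maximalIdeal (R1 p K₀) := hnu
      apply hb₀
      have h1 : algebraMap (R1 p K₀) ↥(chartOne (R1 p K₀) (E1 q K₀) (gJ K₀)) r₀ ∈
          𝔪₁.comap (chartBC p h01) := by
        rw [Ideal.mem_comap, chartBC_algebraMap]
        apply hmax1
        have h2 := comap_maximalIdeal_baseRingIncl (padicPlace (p : ℕ)) h01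
        rw [← h2] at hr₀m
        exact hr₀m
      have e : b₀ = (b₀ - algebraMap (R1 p K₀) ↥(chartOne (R1 p K₀) (E1 q K₀) (gJ K₀)) r₀) +
          algebraMap (R1 p K₀) ↥(chartOne (R1 p K₀) (E1 q K₀) (gJ K₀)) r₀ := by ring
      rw [e]
      exact Ideal.add_mem _ hr₀ h1
    obtain ⟨u, rfl⟩ := hr₀u
    have h3 : algebraMap (R1 p K₀) ↥(chartOne (R1 p K₀) (E1 q K₀) (gJ K₀)) (u : R1 p K₀) ∈ J := by
      have e : algebraMap (R1 p K₀) ↥(chartOne (R1 p K₀) (E1 q K₀) (gJ K₀)) (u : R1 p K₀) =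
          b₀ - (b₀ - algebraMap (R1 p K₀) ↥(chartOne (R1 p K₀) (E1 q K₀) (gJ K₀))
            (u : R1 p K₀)) := by ring
      rw [e]
      exact J.sub_mem hb₀J (hJ hr₀)
    have h4 : (1 : ↥(chartOne (R1 p K₀) (E1 q K₀) (gJ K₀))) =
        algebraMap (R1 p K₀) ↥(chartOne (R1 p K₀) (E1 q K₀) (gJ K₀))
          ((u⁻¹ : (R1 p K₀)ˣ) : R1 p K₀) *
        algebraMap (R1 p K₀) ↥(chartOne (R1 p K₀) (E1 q K₀) (gJ K₀)) (u : R1 p K₀) := by
      rw [← map_mul, Units.inv_mul, map_one]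
    rw [h4]
    exact J.mul_mem_left _ h3

/-- the base change maps the local ring of the contraction into the local ring. -/
theorem oneBC_mem_locRing (𝔪₁ : Ideal ↥(chartOne (R1 p K₁) (E1 q K₁) (gJ K₁))) [𝔪₁.IsPrime]
    {z : E1 q K₀}
    (hz : z ∈ locRing (chartOne (R1 p K₀) (E1 q K₀) (gJ K₀)) (𝔪₁.comap (chartBC p h01))) :
    oneBC h01 z ∈ locRing (chartOne (R1 p K₁) (E1 q K₁) (gJ K₁)) 𝔪₁ :=
  locRing_map (oneBC h01) (fun b hb => oneBC_mem_chartOne p h01 hb) (𝔪₁.comap (chartBC p h01)) 𝔪₁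
    (fun b hb => hb) hz

/-- the base change maps the maximal ideal of the local ring of the contraction into the maximal
ideal of the local ring. -/
theorem oneBC_mem_locMax (𝔪₁ : Ideal ↥(chartOne (R1 p K₁) (E1 q K₁) (gJ K₁))) [𝔪₁.IsPrime]
    {z : E1 q K₀}
    (hz : z ∈ locMax (chartOne (R1 p K₀) (E1 q K₀) (gJ K₀)) (𝔪₁.comap (chartBC p h01))) :
    oneBC h01 z ∈ locMax (chartOne (R1 p K₁) (E1 q K₁) (gJ K₁)) 𝔪₁ := by
  obtain ⟨r, s, hr, hs, hrs⟩ := hz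
  refine ⟨chartBC p h01 r, chartBC p h01 s, hr, hs, ?_⟩
  rw [coe_chartBC, coe_chartBC, ← map_mul, hrs]

include hπ₀ hπ₁ in
/-- **base change of node data along `K₀ ≤ K₁`**: the thickness is multiplied by the ramification
index. -/
theorem nodeDatum_oneBC (𝔪₁ : Ideal ↥(chartOne (R1 p K₁) (E1 q K₁) (gJ K₁))) [𝔪₁.IsPrime]
    {X Y : E1 q K₀} {m : ℕ}
    (hd : NodeDatum π₀ (𝔪₁.comap (chartBC p h01)) (J1 q K₀ - Jq1 q K₀ ^ q)
      (Jq1 q K₀ - J1 q K₀ ^ q) X Y m) :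
    ∃ (e : ℕ) (u : (R1 p K₁)ˣ), 1 ≤ e ∧
      baseRingIncl (padicPlace (p : ℕ)) h01 π₀ = u * π₁ ^ e ∧
      NodeDatum π₁ 𝔪₁ (J1 q K₁ - Jq1 q K₁ ^ q) (Jq1 q K₁ - J1 q K₁ ^ q)
        (oneBC h01 X) (oneBC h01 Y) (e * m) := by
  obtain ⟨e, u, he, hu⟩ :=
    exists_baseRingIncl_eq_unit_mul_pow h01 (padicPlace (p : ℕ)) hπ₀ hπ₁
  refine ⟨e, u, he, hu, ?_⟩
  have h1 := NodeDatum.map (oneBC h01) (baseRingIncl (padicPlace (p : ℕ)) h01)
    (fun r => oneBC_algebraMap_baseRing h01 (padicPlace (p : ℕ)) r) u.isUnit he hu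
    (𝔪₁.comap (chartBC p h01)) 𝔪₁ (fun z hz => oneBC_mem_locRing p h01 𝔪₁ hz) hd
  rw [map_sub, map_sub, map_pow, map_pow, oneBC_oneHostA_gen, oneBC_oneHostB_gen] at h1
  exact h1

end Fermat.Agent.MW.OneCell
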