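import Mathlib
import Fermat.Agent.MW.NADIC_helper6_NodeBC
import Fermat.Agent.MW.NADIC_helper6_NodeIface

/-!
# Project MW (S17) — [N-ADIC] helper6, [NODE-ATLAS]: the finitely many nodes of the level-one model
over a fixed base `K₀`, and the node charts `W : NodeCharts q`

* `SSModel.node_root` : at a node of the chart `j`, the `j`-value `r` satisfies
  `r^(q²) ≡ r mod π` (the two Kronecker congruences);
* `NodeSet` : the nodes of the chart `j` over `R₀`, `nodeJ` : the `j`-value of a node,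
  `nodeJ_injective_mod`, `finite_nodeSet`;
* `nodeCharts` : the node charts, `nodeCharts_hsep`.
-/

set_option autoImplicit false
set_option linter.unusedSectionVars false
set_option linter.unusedVariables false
set_option linter.style.haveILetI false
set_option synthInstance.maxHeartbeats 200000

open IntermediateField AlgebraicCurve ModularCurve

noncomputable section

namespace Fermat.Agent.MW.NAdic

open Fermat.Agent.SS Fermat.Agent.JA Fermat.Agent.FF Fermat.Agent.MW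

section Model

variable {R : Type*} [CommRing R] [IsDomain R] [IsDiscreteValuationRing R] [CharZero R]
  {K₁ : Type*} [Field K₁] [Algebra R K₁] [IsFractionRing R K₁]
  {KM : Type*} [Field KM] [Algebra K₁ KM] [Algebra R KM] [IsScalarTower R K₁ KM]
  {EM : Type*} [Field EM] [Algebra KM EM] [Algebra K₁ EM] [IsScalarTower K₁ KM EM] [Algebra R EM]
  [IsScalarTower R KM EM]
  {KN : Type*} [Field KN] [Algebra K₁ KN] [Algebra R KN] [IsScalarTower R K₁ KN]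
  {EN : Type*} [Field EN] [Algebra KN EN] [Algebra K₁ EN] [IsScalarTower K₁ KN EN] [Algebra R EN]
  [IsScalarTower R KN EN] [FiniteDimensional KN EN]
  {π : R} {q n : ℕ} {S : Finset R} {t : KM} {jM : EM} {j : KN} {A B : EM →+* EN}
  {VM : ValuationSubring EM} {Winf W0 : ValuationSubring EN}

/-- **the `j`-value of a node is a root of `X^(q²) - X` modulo `π`.** -/
theorem SSModel.node_root (h : SSModel K₁ π q n S t jM j A B VM Winf W0) (hπ : Irreducible π)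
    (𝔪 : Ideal ↥(chartOne R EN j)) [h𝔪 : 𝔪.IsMaximal]
    (hinf : sheetIdeal j Winf h.two.chart_le_inf ≤ 𝔪)
    (h0 : sheetIdeal j W0 h.two.chart_le_zero ≤ 𝔪) {r : R}
    (hr : (⟨algebraMap KN EN j, algebraMap_coord_mem_chartOne j⟩ : ↥(chartOne R EN j)) -
      algebraMap R ↥(chartOne R EN j) r ∈ 𝔪) :
    r ^ (q ^ 2) - r ∈ Ideal.span {π} := by
  set τA : ↥(chartOne R EN j) := ⟨algebraMap KN EN j, algebraMap_coord_mem_chartOne j⟩ with hτA
  set τB : ↥(chartOne R EN j) := ⟨B jM, h.jq_mem_chartOne hπ⟩ with hτB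
  have h1 : τB - τA ^ q ∈ 𝔪 := by
    apply hinf
    rw [mem_sheetIdeal_iff]
    have := h.kron_j_inf
    rw [h.A_j] at this
    exact this
  have h2 : τA - τB ^ q ∈ 𝔪 := by
    apply h0
    rw [mem_sheetIdeal_iff]
    have := h.kron_j_zero
    rw [h.A_j] at this
    exact this
  -- work in the quotient
  have e1 : Ideal.Quotient.mk 𝔪 τA = Ideal.Quotient.mk 𝔪 (algebraMap R ↥(chartOne R EN j) r) :=
    Ideal.Quotient.eq.mpr hr
  have e2 : Ideal.Quotient.mk 𝔪 τB = Ideal.Quotient.mk 𝔪 τA ^ q := by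
    rw [← map_pow]; exact Ideal.Quotient.eq.mpr h1
  have e3 : Ideal.Quotient.mk 𝔪 τA = Ideal.Quotient.mk 𝔪 τB ^ q := by
    rw [← map_pow]; exact Ideal.Quotient.eq.mpr h2
  have e4 : Ideal.Quotient.mk 𝔪 (algebraMap R ↥(chartOne R EN j) (r ^ (q ^ 2) - r)) = 0 := by
    rw [map_sub, map_sub, map_pow, map_pow, ← e1, sub_eq_zero]
    conv_rhs => rw [e3, e2]
    rw [← pow_mul, pow_two]
  have e5 : algebraMap R ↥(chartOne R EN j) (r ^ (q ^ 2) - r) ∈ 𝔪 :=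
    Ideal.Quotient.eq_zero_iff_mem.mp e4
  obtain ⟨c, hc⟩ := algebraMap_mem_span_of_mem_maximal hπ 𝔪 e5
  rw [Ideal.mem_span_singleton]
  exact ⟨c, hc⟩

end Model

end Fermat.Agent.MW.NAdic

namespace Fermat.Agent.MW.OneCell

open Fermat.Agent.JA Fermat.Agent.FF Fermat.Agent.SS Fermat.Agent.Igusa Fermat.Agent.X0N
  Fermat.Agent.MW Fermat.Agent.MW.NAdic

open scoped Fermat.Agent.JA.Host

attribute [local instance] baseToComplex

/-- `Ω = AlgebraicClosure ℚ`. -/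
local notation "Ω" => AlgebraicClosure ℚ

section Defs

variable (p : Nat.Primes) {q : ℕ} [NeZero q] [NeZero (1 * q)] {x y : ℤ}
  (h : (q : ℤ) * x + ((1 : ℕ) : ℤ) * y = 1) (hq : q.Prime) (hpq : (p : ℕ) = q)
  (K₁ : IntermediateField ℚ Ω) [IsDiscreteValuationRing (R1 p K₁)]
  {π : R1 p K₁} (hπ : Irreducible π)

/-- the base ring of a base is a discrete valuation ring. -/
theorem isDVR_of_isBase {K₁ : IntermediateField ℚ Ω} (hK₁ : IsBase (p : ℕ) K₁) :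
    IsDiscreteValuationRing (R1 p K₁) := by
  haveI : Fact (p : ℕ).Prime := ⟨p.2⟩
  exact hK₁.isDiscreteValuationRing (Fermat.Agent.TW.Kill.padicPlace_liesOverPrime (p : ℕ))

/-- the residue field of the base ring of a base is algebraically closed. -/
theorem isAlgClosed_of_isBase {K₁ : IntermediateField ℚ Ω} (hK₁ : IsBase (p : ℕ) K₁) :
    IsAlgClosed (IsLocalRing.ResidueField (R1 p K₁)) := by
  haveI : Fact (p : ℕ).Prime := ⟨p.2⟩
  exact hK₁.isAlgClosed_residueField (Fermat.Agent.TW.Kill.padicPlace_liesOverPrime (p : ℕ))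

/-- `j` as an element of the chart `j`. -/
abbrev Jc : ↥(chartOne (R1 p K₁) (E1 q K₁) (gJ K₁)) :=
  ⟨algebraMap (KJ K₁) (E1 q K₁) (gJ K₁), algebraMap_coord_mem_chartOne (gJ K₁)⟩

/-- the sheet `C_∞` in the chart `j`. -/
abbrev sInf : Ideal ↥(chartOne (R1 p K₁) (E1 q K₁) (gJ K₁)) :=
  sheetIdeal (gJ K₁) (Winf1 p q K₁) (mdl h hq hπ hpq).two.chart_le_inf

/-- the sheet `C_0` in the chart `j`. -/
abbrev sZero : Ideal ↥(chartOne (R1 p K₁) (E1 q K₁) (gJ K₁)) :=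
  sheetIdeal (gJ K₁) (W01 p q K₁ h hq) (mdl h hq hπ hpq).two.chart_le_zero

/-- a node of the chart `j`. -/
def IsNodePt (𝔪 : Ideal ↥(chartOne (R1 p K₁) (E1 q K₁) (gJ K₁))) : Prop :=
  𝔪.IsMaximal ∧ sInf p h hq hpq K₁ hπ ≤ 𝔪 ∧ sZero p h hq hpq K₁ hπ ≤ 𝔪

/-- the set of nodes of the chart `j`. -/
def NodeSet : Type := {𝔪 : Ideal ↥(chartOne (R1 p K₁) (E1 q K₁) (gJ K₁)) //
  IsNodePt p h hq hpq K₁ hπ 𝔪}

include hπ in
/-- the `j`-value of a closed point of the special fibre of the chart `j`. -/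
theorem exists_jValue (hK₁ : IsBase (p : ℕ) K₁)
    (𝔪 : Ideal ↥(chartOne (R1 p K₁) (E1 q K₁) (gJ K₁))) [𝔪.IsMaximal]
    (hπ𝔪 : algebraMap (R1 p K₁) ↥(chartOne (R1 p K₁) (E1 q K₁) (gJ K₁)) π ∈ 𝔪) :
    ∃ r : R1 p K₁, Jc p K₁ - algebraMap (R1 p K₁) ↥(chartOne (R1 p K₁) (E1 q K₁) (gJ K₁)) r ∈ 𝔪 := by
  haveI := isAlgClosed_of_isBase p hK₁
  exact exists_sub_mem_of_isMaximal_chartOne (K₁ := ↥K₁) hπ (model1_transcendental_gen ↥K₁)
    (model1_adjoin_gen ↥K₁) 𝔪 hπ𝔪 (Jc p K₁)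

variable {p h hq hpq K₁ hπ}

theorem IsNodePt.pi_mem {𝔪 : Ideal ↥(chartOne (R1 p K₁) (E1 q K₁) (gJ K₁))}
    (h𝔪 : IsNodePt p h hq hpq K₁ hπ 𝔪) :
    algebraMap (R1 p K₁) ↥(chartOne (R1 p K₁) (E1 q K₁) (gJ K₁)) π ∈ 𝔪 :=
  h𝔪.2.1 (IsTwoSheet.pi_mem_inf (K₁ := ↥K₁) (mdl h hq hπ hpq).two hπ)

/-- the `j`-value of a node. -/
def nodeJ (hK₁ : IsBase (p : ℕ) K₁) (n : NodeSet p h hq hpq K₁ hπ) : R1 p K₁ :=
  haveI := n.2.1
  (exists_jValue p K₁ hπ hK₁ n.1 n.2.pi_mem).choose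

theorem nodeJ_spec (hK₁ : IsBase (p : ℕ) K₁) (n : NodeSet p h hq hpq K₁ hπ) :
    Jc p K₁ - algebraMap (R1 p K₁) ↥(chartOne (R1 p K₁) (E1 q K₁) (gJ K₁)) (nodeJ hK₁ n) ∈ n.1 :=
  haveI := n.2.1
  (exists_jValue p K₁ hπ hK₁ n.1 n.2.pi_mem).choose_spec

/-- the `j`-value of a node is a root of `X^(q²) - X` modulo `π`. -/
theorem nodeJ_root (hK₁ : IsBase (p : ℕ) K₁) (n : NodeSet p h hq hpq K₁ hπ) :
    nodeJ hK₁ n ^ (q ^ 2) - nodeJ hK₁ n ∈ Ideal.span {π} :=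
  haveI := n.2.1
  SSModel.node_root (mdl h hq hπ hpq) hπ n.1 n.2.2.1 n.2.2.2 (nodeJ_spec hK₁ n)

/-- two closed points of the chart `j` on `C_∞` with congruent `j`-values coincide. -/
theorem eq_of_jValue (𝔪 𝔪' : Ideal ↥(chartOne (R1 p K₁) (E1 q K₁) (gJ K₁)))
    [h𝔪 : 𝔪.IsMaximal] [h𝔪' : 𝔪'.IsMaximal]
    (hle : sInf p h hq hpq K₁ hπ ≤ 𝔪) (hle' : sInf p h hq hpq K₁ hπ ≤ 𝔪') {r r' : R1 p K₁}
    (hr : Jc p K₁ - algebraMap (R1 p K₁) ↥(chartOne (R1 p K₁) (E1 q K₁) (gJ K₁)) r ∈ 𝔪)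
    (hr' : Jc p K₁ - algebraMap (R1 p K₁) ↥(chartOne (R1 p K₁) (E1 q K₁) (gJ K₁)) r' ∈ 𝔪')
    (hrr' : r - r' ∈ Ideal.span {π}) : 𝔪 = 𝔪' := by
  haveI := h𝔪.isPrime
  haveI := h𝔪'.isPrime
  refine SSModel.eq_of_inf (mdl h hq hπ hpq) mdl_htj mdl_hsurj 𝔪 𝔪' hle hle' (ζ := r) (ζ' := r')
    ?_ ?_ hrr'
  · have := (coe_mem_locMax_iff (B := chartOne (R1 p K₁) (E1 q K₁) (gJ K₁)) (𝔪 := 𝔪) _).mpr hr
    exact this
  · have := (coe_mem_locMax_iff (B := chartOne (R1 p K₁) (E1 q K₁) (gJ K₁)) (𝔪 := 𝔪') _).mpr hr'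
    exact this

/-- nodes with congruent `j`-values coincide. -/
theorem nodeJ_inj (hK₁ : IsBase (p : ℕ) K₁) {n n' : NodeSet p h hq hpq K₁ hπ}
    (hnn' : nodeJ hK₁ n - nodeJ hK₁ n' ∈ Ideal.span {π}) : n = n' := by
  haveI := n.2.1
  haveI := n'.2.1
  exact Subtype.ext (eq_of_jValue n.1 n'.1 n.2.2.1 n'.2.2.1 (nodeJ_spec hK₁ n) (nodeJ_spec hK₁ n')
    hnn')

/-- **the chart `j` has finitely many nodes.** -/
theorem finite_nodeSet (hK₁ : IsBase (p : ℕ) K₁) : Finite (NodeSet p h hq hpq K₁ hπ) := by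
  classical
  set k := IsLocalRing.ResidueField (R1 p K₁) with hk
  have hq2 : 1 < q ^ 2 := Nat.one_lt_pow (by norm_num) hq.one_lt
  have hfin : Set.Finite {ρ : k | ρ ^ (q ^ 2) = ρ} := by
    refine Set.Finite.subset (Polynomial.finite_setOfPred_isRoot
      (FiniteField.X_pow_card_sub_X_ne_zero k hq2)) ?_
    intro ρ hρ
    rw [Set.mem_setOf_eq] at hρ ⊢
    rw [Polynomial.IsRoot.def, Polynomial.eval_sub, Polynomial.eval_pow, Polynomial.eval_X, hρ,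
      sub_self]
  haveI : Finite ↥{ρ : k | ρ ^ (q ^ 2) = ρ} := hfin.to_subtype
  have hres : ∀ n : NodeSet p h hq hpq K₁ hπ,
      IsLocalRing.residue (R1 p K₁) (nodeJ hK₁ n) ∈ {ρ : k | ρ ^ (q ^ 2) = ρ} := by
    intro n
    rw [Set.mem_setOf_eq, ← map_pow, ← sub_eq_zero, ← map_sub, IsLocalRing.residue_eq_zero_iff,
      hπ.maximalIdeal_eq]
    exact nodeJ_root hK₁ n
  refine Finite.of_injective
    (fun n : NodeSet p h hq hpq K₁ hπ => (⟨_, hres n⟩ : ↥{ρ : k | ρ ^ (q ^ 2) = ρ})) ?_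
  intro n n' hnn'
  apply nodeJ_inj hK₁
  have h1 : IsLocalRing.residue (R1 p K₁) (nodeJ hK₁ n) =
      IsLocalRing.residue (R1 p K₁) (nodeJ hK₁ n') := congrArg Subtype.val hnn'
  rw [← hπ.maximalIdeal_eq, ← IsLocalRing.residue_eq_zero_iff, map_sub, h1, sub_self]

/-- node data at every node. -/
theorem exists_nodeDatum_one (hK₁ : IsBase (p : ℕ) K₁) (n : NodeSet p h hq hpq K₁ hπ) :
    ∃ (X Y : E1 q K₁) (m : ℕ), (haveI := n.2.1.isPrime; NodeDatum π n.1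
      (J1 q K₁ - Jq1 q K₁ ^ q) (Jq1 q K₁ - J1 q K₁ ^ q) X Y m) := by
  haveI := n.2.1
  haveI := isAlgClosed_of_isBase p hK₁
  obtain ⟨c, -, hU⟩ := mdl_nodeUnit h hq hπ hpq
  obtain ⟨X, Y, m, hd, -⟩ := SSModel.exists_nodeDatum (mdl h hq hπ hpq) hπ (mdl_hk0 h hq hπ hpq) hU
    n.1 n.2.2.1 n.2.2.2
  exact ⟨X, Y, m, hd⟩

/-- the node coordinate `X` of a node. -/
def nodeX (hK₁ : IsBase (p : ℕ) K₁) (n : NodeSet p h hq hpq K₁ hπ) : E1 q K₁ :=
  (exists_nodeDatum_one hK₁ n).choose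

/-- the node coordinate `Y` of a node. -/
def nodeY (hK₁ : IsBase (p : ℕ) K₁) (n : NodeSet p h hq hpq K₁ hπ) : E1 q K₁ :=
  (exists_nodeDatum_one hK₁ n).choose_spec.choose

/-- the thickness of a node. -/
def nodeM (hK₁ : IsBase (p : ℕ) K₁) (n : NodeSet p h hq hpq K₁ hπ) : ℕ :=
  (exists_nodeDatum_one hK₁ n).choose_spec.choose_spec.choose

theorem nodeDatum_node (hK₁ : IsBase (p : ℕ) K₁) (n : NodeSet p h hq hpq K₁ hπ) :
    haveI := n.2.1.isPrime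
    NodeDatum π n.1 (J1 q K₁ - Jq1 q K₁ ^ q) (Jq1 q K₁ - J1 q K₁ ^ q)
      (nodeX hK₁ n) (nodeY hK₁ n) (nodeM hK₁ n) :=
  (exists_nodeDatum_one hK₁ n).choose_spec.choose_spec.choose_spec

variable (p h hq hpq K₁ hπ)

/-- **the node charts over the base `K₁`.** -/
def nodeCharts (hK₁ : IsBase (p : ℕ) K₁) : NodeCharts q :=
  haveI := finite_nodeSet (p := p) (h := h) (hq := hq) (hpq := hpq) (hπ := hπ) hK₁
  { nn := Nat.card (NodeSet p h hq hpq K₁ hπ)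
    X := fun s => limPhi q K₁ (nodeX hK₁ ((Finite.equivFin (NodeSet p h hq hpq K₁ hπ)).symm s))
    j₀ := fun s => (((nodeJ hK₁ ((Finite.equivFin (NodeSet p h hq hpq K₁ hπ)).symm s) :
      R1 p K₁) : ↥K₁) : Ω) }

/-- the index of a node. -/
def nodeIdx (hK₁ : IsBase (p : ℕ) K₁) (n : NodeSet p h hq hpq K₁ hπ) :
    Fin (nodeCharts p h hq hpq K₁ hπ hK₁).nn :=
  haveI := finite_nodeSet (p := p) (h := h) (hq := hq) (hpq := hpq) (hπ := hπ) hK₁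
  Finite.equivFin (NodeSet p h hq hpq K₁ hπ) n

/-- the node of an index. -/
def idxNode (hK₁ : IsBase (p : ℕ) K₁) (s : Fin (nodeCharts p h hq hpq K₁ hπ hK₁).nn) :
    NodeSet p h hq hpq K₁ hπ :=
  haveI := finite_nodeSet (p := p) (h := h) (hq := hq) (hpq := hpq) (hπ := hπ) hK₁
  (Finite.equivFin (NodeSet p h hq hpq K₁ hπ)).symm s

theorem idxNode_nodeIdx (hK₁ : IsBase (p : ℕ) K₁) (n : NodeSet p h hq hpq K₁ hπ) :
    idxNode p h hq hpq K₁ hπ hK₁ (nodeIdx p h hq hpq K₁ hπ hK₁ n) = n :=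
  Equiv.symm_apply_apply _ n

theorem nodeIdx_idxNode (hK₁ : IsBase (p : ℕ) K₁)
    (s : Fin (nodeCharts p h hq hpq K₁ hπ hK₁).nn) :
    nodeIdx p h hq hpq K₁ hπ hK₁ (idxNode p h hq hpq K₁ hπ hK₁ s) = s :=
  Equiv.apply_symm_apply _ s

theorem nodeCharts_X (hK₁ : IsBase (p : ℕ) K₁) (s : Fin (nodeCharts p h hq hpq K₁ hπ hK₁).nn) :
    (nodeCharts p h hq hpq K₁ hπ hK₁).X s =
      limPhi q K₁ (nodeX hK₁ (idxNode p h hq hpq K₁ hπ hK₁ s)) := rfl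

theorem nodeCharts_j₀ (hK₁ : IsBase (p : ℕ) K₁) (s : Fin (nodeCharts p h hq hpq K₁ hπ hK₁).nn) :
    (nodeCharts p h hq hpq K₁ hπ hK₁).j₀ s =
      (((nodeJ hK₁ (idxNode p h hq hpq K₁ hπ hK₁ s) : R1 p K₁) : ↥K₁) : Ω) := rfl

/-- **`hsep`**: the `j`-values of distinct nodes are not congruent. -/
theorem nodeCharts_hsep (hK₁ : IsBase (p : ℕ) K₁)
    (s s' : Fin (nodeCharts p h hq hpq K₁ hπ hK₁).nn)
    (hss' : absv (some p) ((nodeCharts p h hq hpq K₁ hπ hK₁).j₀ s -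
      (nodeCharts p h hq hpq K₁ hπ hK₁).j₀ s') < 1) : s = s' := by
  rw [nodeCharts_j₀, nodeCharts_j₀] at hss'
  have h1 : nodeJ hK₁ (idxNode p h hq hpq K₁ hπ hK₁ s) -
      nodeJ hK₁ (idxNode p h hq hpq K₁ hπ hK₁ s') ∈ Ideal.span {π} := by
    rw [← hπ.maximalIdeal_eq, ← absv_lt_one_iff_mem_maximalIdeal]
    exact hss'
  have h2 := nodeJ_inj hK₁ h1
  rw [← nodeIdx_idxNode p h hq hpq K₁ hπ hK₁ s, ← nodeIdx_idxNode p h hq hpq K₁ hπ hK₁ s', h2]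

end Defs

end Fermat.Agent.MW.OneCell
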