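import Mathlib
import Fermat.Agent.MW.NADIC_helper6_NodeAtlas
import Fermat.Agent.MW.NADIC_helper1_NodeDictAux

/-!
# Project MW (S17) — [N-ADIC] helper6, [NODE-FINAL]: `hcomp` and the node dictionary for the node
charts over a fixed base `K₀`

* `isNodePt_comap` : the contraction of a node of the chart `j` over `R₁ ⊇ R₀` is a node of the
  chart `j` over `R₀`;
* `jv_sub_nodeJ_lt_one` : a point centred at a node `𝔪₁` has its `j`-value congruent to the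
  `j`-value of the contraction of `𝔪₁`;
* `nodeCharts_hcomp` : every point of the kind `KNode` lies on the annulus of a node;
* `nodeDict_nodeCharts` : the node dictionary `NodeDict` for the node charts `nodeCharts`.
-/

set_option autoImplicit false
set_option linter.unusedSectionVars false
set_option linter.unusedVariables false
set_option linter.style.haveILetI false
set_option synthInstance.maxHeartbeats 200000

open IntermediateField AlgebraicCurve ModularCurve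

noncomputable section

namespace Fermat.Agent.MW.OneCell

open Fermat.Agent.JA Fermat.Agent.FF Fermat.Agent.SS Fermat.Agent.Igusa Fermat.Agent.X0N
  Fermat.Agent.MW Fermat.Agent.MW.NAdic

open scoped Fermat.Agent.JA.Host

attribute [local instance] baseToComplex

/-- `Ω = AlgebraicClosure ℚ`. -/
local notation "Ω" => AlgebraicClosure ℚ

section Contraction

variable (p : Nat.Primes) {q : ℕ} [NeZero q] [NeZero (1 * q)] {x y : ℤ}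
  (h : (q : ℤ) * x + ((1 : ℕ) : ℤ) * y = 1) (hq : q.Prime) (hpq : (p : ℕ) = q)
  {K₀ K₁ : IntermediateField ℚ Ω} (h01 : K₀ ≤ K₁)
  [IsDiscreteValuationRing (R1 p K₀)] [IsDiscreteValuationRing (R1 p K₁)]
  {π₀ : R1 p K₀} {π₁ : R1 p K₁} (hπ₀ : Irreducible π₀) (hπ₁ : Irreducible π₁)

/-- the base change of the charts maps `j` to `j`. -/
theorem chartBC_Jc : chartBC p h01 (Jc p K₀) = Jc (q := q) p K₁ := by
  apply Subtype.ext
  rw [coe_chartBC]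
  show oneBC h01 (algebraMap (KJ K₀) (E1 q K₀) (gJ K₀)) = algebraMap (KJ K₁) (E1 q K₁) (gJ K₁)
  rw [← J1_eq_algebraMap, ← J1_eq_algebraMap]
  exact oneBC_oneHostA_gen h01

/-- **the contraction of a node is a node.** -/
theorem isNodePt_comap (hK₀ : IsBase (p : ℕ) K₀) (hK₁ : IsBase (p : ℕ) K₁)
    (𝔪₁ : Ideal ↥(chartOne (R1 p K₁) (E1 q K₁) (gJ K₁)))
    (h𝔪₁ : IsNodePt p h hq hpq K₁ hπ₁ 𝔪₁) :
    IsNodePt p h hq hpq K₀ hπ₀ (𝔪₁.comap (chartBC p h01)) := by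
  haveI := h𝔪₁.1
  refine ⟨(comap_chartBC_isMaximal p h01 hπ₁ hK₀ hK₁ 𝔪₁ h𝔪₁.pi_mem).1, ?_, ?_⟩
  · exact sheetInf_le_comap_chartBC p h01 _ _ 𝔪₁ h𝔪₁.2.1
  · exact sheetZero_le_comap_chartBC p h01 h hq _ _ 𝔪₁ h𝔪₁.2.2

/-- the contraction of a node, as a node. -/
def comapNode (hK₀ : IsBase (p : ℕ) K₀) (hK₁ : IsBase (p : ℕ) K₁)
    (𝔪₁ : Ideal ↥(chartOne (R1 p K₁) (E1 q K₁) (gJ K₁)))
    (h𝔪₁ : IsNodePt p h hq hpq K₁ hπ₁ 𝔪₁) : NodeSet p h hq hpq K₀ hπ₀ :=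
  ⟨𝔪₁.comap (chartBC p h01), isNodePt_comap p h hq hpq h01 hπ₀ hπ₁ hK₀ hK₁ 𝔪₁ h𝔪₁⟩

/-- `j` minus the `j`-value of the contraction lies in the node. -/
theorem Jc_sub_nodeJ_comap_mem (hK₀ : IsBase (p : ℕ) K₀) (hK₁ : IsBase (p : ℕ) K₁)
    (𝔪₁ : Ideal ↥(chartOne (R1 p K₁) (E1 q K₁) (gJ K₁)))
    (h𝔪₁ : IsNodePt p h hq hpq K₁ hπ₁ 𝔪₁) :
    Jc p K₁ - algebraMap (R1 p K₁) ↥(chartOne (R1 p K₁) (E1 q K₁) (gJ K₁))
      (baseRingIncl (padicPlace (p : ℕ)) h01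
        (nodeJ hK₀ (comapNode p h hq hpq h01 hπ₀ hπ₁ hK₀ hK₁ 𝔪₁ h𝔪₁))) ∈ 𝔪₁ := by
  have h1 := nodeJ_spec hK₀ (comapNode p h hq hpq h01 hπ₀ hπ₁ hK₀ hK₁ 𝔪₁ h𝔪₁)
  have h2 : Jc p K₀ - algebraMap (R1 p K₀) ↥(chartOne (R1 p K₀) (E1 q K₀) (gJ K₀))
      (nodeJ hK₀ (comapNode p h hq hpq h01 hπ₀ hπ₁ hK₀ hK₁ 𝔪₁ h𝔪₁)) ∈
      𝔪₁.comap (chartBC p h01) := h1
  rw [Ideal.mem_comap, map_sub, chartBC_Jc, chartBC_algebraMap] at h2
  exact h2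

variable [IsAlgClosed (IsLocalRing.ResidueField (R1 p K₁))]

/-- **a point centred at a node has its `j`-value congruent to the `j`-value of the contraction of
the node.** -/
theorem jv_sub_nodeJ_lt_one (hK₀ : IsBase (p : ℕ) K₀) (hK₁ : IsBase (p : ℕ) K₁)
    {Q : PtN (1 * q)} (hrat : IsRationalPlace (ptResW q K₁ Q))
    (𝔪₁ : Ideal ↥(chartOne (R1 p K₁) (E1 q K₁) (gJ K₁)))
    (h𝔪₁ : IsNodePt p h hq hpq K₁ hπ₁ 𝔪₁) (hc : CentredAt 𝔪₁ (ptResW q K₁ Q)) :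
    absv (some p) (jv q Q -
      (((nodeJ hK₀ (comapNode p h hq hpq h01 hπ₀ hπ₁ hK₀ hK₁ 𝔪₁ h𝔪₁) : R1 p K₀) : ↥K₀) : Ω)) <
      1 := by
  have M := mdl h hq hπ₁ hpq
  haveI : IsFractionRing ↥(chartOne (R1 p K₁) (E1 q K₁) (gJ K₁)) (E1 q K₁) :=
    isFractionRing_chartOne (K₁ := ↥K₁) (gJ K₁) M.j_adjoin
  haveI h𝔪 := h𝔪₁.1
  haveI h𝔪p := h𝔪.isPrime
  have hπ𝔪 := h𝔪₁.pi_mem
  have hJloc : J1 q K₁ ∈ locRing (chartOne (R1 p K₁) (E1 q K₁) (gJ K₁)) 𝔪₁ :=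
    le_locRing M.A_t_mem
  obtain ⟨ζQ, hζQ, -⟩ := exists_value_of_centredAt (ptResW q K₁ Q) hrat _ hπ₁ 𝔪₁ hπ𝔪 hc hJloc
  set r := nodeJ hK₀ (comapNode p h hq hpq h01 hπ₀ hπ₁ hK₀ hK₁ 𝔪₁ h𝔪₁) with hr
  have hmem := Jc_sub_nodeJ_comap_mem p h hq hpq h01 hπ₀ hπ₁ hK₀ hK₁ 𝔪₁ h𝔪₁
  rw [← hr] at hmem
  have hloc : J1 q K₁ - algebraMap (R1 p K₁) (E1 q K₁)
      (baseRingIncl (padicPlace (p : ℕ)) h01 r) ∈
      locMax (chartOne (R1 p K₁) (E1 q K₁) (gJ K₁)) 𝔪₁ := by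
    have := (coe_mem_locMax_iff (B := chartOne (R1 p K₁) (E1 q K₁) (gJ K₁)) (𝔪 := 𝔪₁) _).mpr hmem
    exact this
  have hmax := value_sub_mem_maximalIdeal (ptResW q K₁ Q) hrat _ hπ₁ 𝔪₁ hπ𝔪 hc hζQ hloc
  rw [jv_eq_of_hasValueAt hζQ]
  exact (absv_sub_lt_one_iff p ζQ (baseRingIncl (padicPlace (p : ℕ)) h01 r)).mpr hmax

end Contraction

section Final

variable (p : Nat.Primes) {q : ℕ} [NeZero q] [NeZero (1 * q)] {x y : ℤ}
  (h : (q : ℤ) * x + ((1 : ℕ) : ℤ) * y = 1) (hq : q.Prime) (hpq : (p : ℕ) = q)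
  (K₀ : IntermediateField ℚ Ω) [IsDiscreteValuationRing (R1 p K₀)]
  {π₀ : R1 p K₀} (hπ₀ : Irreducible π₀)

/-- **`hcomp`**: every point of the kind `KNode` lies on the annulus of a node. -/
theorem nodeCharts_hcomp (hK₀ : IsBase (p : ℕ) K₀) (Q : PtN (1 * q)) (hQ : KNode p q Q) :
    ∃ s, absv (some p) (jv q Q - (nodeCharts p h hq hpq K₀ hπ₀ hK₀).j₀ s) < 1 := by
  obtain ⟨K₁, hK₁, h01, -, -, hratS⟩ := exists_galBase_descentW (q := q) hK₀ ∅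
    (fun _ : Unit => (0 : FunN (1 * q))) {Q}
  have hrat := hratS Q (Finset.mem_singleton_self Q)
  haveI := isDVR_of_isBase p hK₁.isBase
  haveI := isAlgClosed_of_isBase p hK₁.isBase
  obtain ⟨π₁, hπ₁⟩ := IsDiscreteValuationRing.exists_irreducible (R1 p K₁)
  obtain ⟨𝔪₁, h𝔪₁, hc, hinf, h0⟩ := (kNode_iff p h hq hpq hπ₁ hrat).mp hQ
  have hnode : IsNodePt p h hq hpq K₁ hπ₁ 𝔪₁ := ⟨h𝔪₁, hinf, h0⟩
  refine ⟨nodeIdx p h hq hpq K₀ hπ₀ hK₀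
    (comapNode p h hq hpq h01 hπ₀ hπ₁ hK₀ hK₁.isBase 𝔪₁ hnode), ?_⟩
  rw [nodeCharts_j₀, idxNode_nodeIdx]
  exact jv_sub_nodeJ_lt_one p h hq hpq h01 hπ₀ hπ₁ hK₀ hK₁.isBase hrat 𝔪₁ hnode hc

/-- **the node dictionary** for the node charts over `K₀`. -/
theorem nodeDict_nodeCharts (hK₀ : IsBase (p : ℕ) K₀) :
    NodeDict p h hq hpq (nodeCharts p h hq hpq K₀ hπ₀ hK₀) K₀ := by
  intro K₁ _ hK₁ h01 π₁ hπ₁ s Q hrat hQs
  haveI := isAlgClosed_of_isBase p hK₁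
  obtain ⟨𝔪₁, h𝔪₁, hc, hinf, h0⟩ := (kNode_iff p h hq hpq hπ₁ hrat).mp hQs.1
  haveI := h𝔪₁
  haveI h𝔪p := h𝔪₁.isPrime
  have hnode : IsNodePt p h hq hpq K₁ hπ₁ 𝔪₁ := ⟨h𝔪₁, hinf, h0⟩
  set n := comapNode p h hq hpq h01 hπ₀ hπ₁ hK₀ hK₁ 𝔪₁ hnode with hn
  have hs : s = nodeIdx p h hq hpq K₀ hπ₀ hK₀ n := by
    apply nodeCharts_hsep p h hq hpq K₀ hπ₀ hK₀
    have h1 := jv_sub_nodeJ_lt_one p h hq hpq h01 hπ₀ hπ₁ hK₀ hK₁ hrat 𝔪₁ hnode hc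
    rw [← hn] at h1
    have h2 := hQs.2
    rw [nodeCharts_j₀ p h hq hpq K₀ hπ₀ hK₀ (nodeIdx p h hq hpq K₀ hπ₀ hK₀ n), idxNode_nodeIdx]
    have e : (nodeCharts p h hq hpq K₀ hπ₀ hK₀).j₀ s - (((nodeJ hK₀ n : R1 p K₀) : ↥K₀) : Ω) =
        (jv q Q - (((nodeJ hK₀ n : R1 p K₀) : ↥K₀) : Ω)) +
          -(jv q Q - (nodeCharts p h hq hpq K₀ hπ₀ hK₀).j₀ s) := by ring
    rw [e]
    refine lt_of_le_of_lt (absv_some_add_le_max p _ _) (max_lt h1 ?_)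
    rw [absv_neg]
    exact h2
  refine ⟨𝔪₁, h𝔪₁, hc, hinf, h0, ?_, ?_⟩
  · have hd := nodeDatum_node hK₀ n
    obtain ⟨e, u, he, hu, hd₁⟩ := nodeDatum_oneBC p h01 hπ₀ hπ₁ 𝔪₁ hd
    refine ⟨oneBC h01 (nodeX hK₀ n), e * nodeM hK₀ n, ?_, ?_⟩
    · exact SSModel.isNodeCoord_of_nodeDatum (mdl h hq hπ₁ hpq) hπ₁ (mdl_hk0 h hq hπ₁ hpq) 𝔪₁
        hinf h0 hd₁
    · rw [limPhi_oneBC, hs, nodeCharts_X, idxNode_nodeIdx]
  · intro P hPrat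
    exact centredAt_iff_inAnn p h hq hpq hπ₁ _ hrat hPrat 𝔪₁ hinf h0 hc hQs

end Final

section Top

variable {N : ℕ} [NeZero N] [NeZero (1 * N)] (hN : N.Prime) {x y : ℤ}
  (h : (N : ℤ) * x + ((1 : ℕ) : ℤ) * y = 1)

/-- the base ring of `K^♭` at the place `N` is a discrete valuation ring. -/
theorem isDVR_flatBase : IsDiscreteValuationRing (R1 ⟨N, hN⟩ (flatBase N)) :=
  isDVR_of_isBase ⟨N, hN⟩ (isBase_flatBase (ℓ := N))

/-- a uniformizer of the base ring of `K^♭`. -/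
def flatPi : R1 ⟨N, hN⟩ (flatBase N) :=
  haveI := isDVR_flatBase hN
  (IsDiscreteValuationRing.exists_irreducible (R1 ⟨N, hN⟩ (flatBase N))).choose

theorem flatPi_irreducible : Irreducible (flatPi hN) :=
  haveI := isDVR_flatBase hN
  (IsDiscreteValuationRing.exists_irreducible (R1 ⟨N, hN⟩ (flatBase N))).choose_spec

/-- **the node charts of `X₀(N)` at the place `N`** (over the base `K^♭`). -/
def topCharts : NodeCharts N :=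
  haveI := isDVR_flatBase hN
  nodeCharts ⟨N, hN⟩ h hN rfl (flatBase N) (flatPi_irreducible hN) (isBase_flatBase (ℓ := N))

/-- **`hsep`** for `topCharts`. -/
theorem topCharts_hsep (s s' : Fin (topCharts hN h).nn)
    (hss' : absv (some ⟨N, hN⟩) ((topCharts hN h).j₀ s - (topCharts hN h).j₀ s') < 1) : s = s' :=
  haveI := isDVR_flatBase hN
  nodeCharts_hsep ⟨N, hN⟩ h hN rfl (flatBase N) (flatPi_irreducible hN)
    (isBase_flatBase (ℓ := N)) s s' hss'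

/-- **`hcomp`** for `topCharts`. -/
theorem topCharts_hcomp (Q : PtN (1 * N)) (hQ : KNode ⟨N, hN⟩ N Q) :
    ∃ s, absv (some ⟨N, hN⟩) (jv N Q - (topCharts hN h).j₀ s) < 1 :=
  haveI := isDVR_flatBase hN
  nodeCharts_hcomp ⟨N, hN⟩ h hN rfl (flatBase N) (flatPi_irreducible hN)
    (isBase_flatBase (ℓ := N)) Q hQ

/-- **the node dictionary** for `topCharts`. -/
theorem topCharts_nodeDict : NodeDict ⟨N, hN⟩ h hN rfl (topCharts hN h) (flatBase N) :=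
  haveI := isDVR_flatBase hN
  nodeDict_nodeCharts ⟨N, hN⟩ h hN rfl (flatBase N) (flatPi_irreducible hN)
    (isBase_flatBase (ℓ := N))

end Top

end Fermat.Agent.MW.OneCell
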