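import Mathlib
import Fermat.Agent.MW.NADIC_helper6_NodeIface
import Fermat.Agent.MW.NADIC_helper1_Setup

/-!
# Project MW (S17) — [N-ADIC] helper9, [CF-ND]: the cell formula on the annuli of the nodes from the
node dictionary

`nodeCF_of_nodeDict : IsBase p K₀ → NodeDict p h hq hpq W K₀ → NodeCF p h hq W`.

Route: descent of `f` and of the points of its divisor to a Galois base `K₁ ⊇ K₀`, the dictionary
(the centre of `Q` is a node `𝔪`, `W.X s = limPhi X` with `X` a node coordinate in normal form),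
`SSModel.nodeUnit_value_node'` (the position `θ(Q) = ν_Q / m`), `SSModel.node_value` (the value
formula on the cell of the node) and helper1's dictionary `cf_of_cell_value`.
-/

set_option autoImplicit false
set_option linter.unusedSectionVars false
set_option linter.unusedVariables false
set_option linter.style.haveILetI false
set_option synthInstance.maxHeartbeats 200000

open scoped BigOperators

open IntermediateField AlgebraicCurve ModularCurve

noncomputable section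

namespace Fermat.Agent.MW.OneCell

open Fermat.Agent.JA Fermat.Agent.FF Fermat.Agent.SS Fermat.Agent.Igusa Fermat.Agent.X0N
  Fermat.Agent.MW Fermat.Agent.MW.NAdic

open scoped Fermat.Agent.JA.Host

attribute [local instance] baseToComplex

/-- `Ω = AlgebraicClosure ℚ`. -/
local notation "Ω" => AlgebraicClosure ℚ

variable (p : Nat.Primes) {q : ℕ} [NeZero q] [NeZero (1 * q)] {x y : ℤ}
  (h : (q : ℤ) * x + ((1 : ℕ) : ℤ) * y = 1) (hq : q.Prime) (hpq : (p : ℕ) = q)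
  (W : NodeCharts q) (K₀ : IntermediateField ℚ Ω)

/-- the image of an integral power of a unit. -/
theorem algebraMap_units_zpow' {R K : Type*} [CommRing R] [Field K] [Algebra R K] (u : Rˣ)
    (k : ℤ) : algebraMap R K ((u ^ k : Rˣ) : R) = (algebraMap R K (u : R)) ^ k := by
  have h1 := congrArg Units.val (map_zpow (Units.map (algebraMap R K : R →* K)) u k)
  rw [Units.val_zpow_eq_zpow_val] at h1
  exact h1

open Classical in
set_option maxHeartbeats 1000000 in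
/-- the cell formula at a point of the annulus of a node, over a base over which everything is
defined. -/
theorem nodeCF_base (K₁ : IntermediateField ℚ Ω) [IsDiscreteValuationRing (R1 p K₁)]
    (hK₁ : IsBase (p : ℕ) K₁) (hle : K₀ ≤ K₁) {π : R1 p K₁} (hπ : Irreducible π)
    (hdict : NodeDict p h hq hpq W K₀)
    (f : FunN (1 * q)) (D : PtN (1 * q) →₀ ℤ) (hf : f ≠ 0) (hD : IsDivOf (1 * q) f D)
    (Q : PtN (1 * q)) (s : Fin W.nn) (hQs : W.InAnn p s Q)
    (f₁ : E1 q K₁) (hf₁ : limPhi q K₁ f₁ = f)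
    (hrat : ∀ P ∈ insert Q D.support, IsRationalPlace (ptResW q K₁ P)) :
    Q.ord (W.X s - algebraMap Ω (FunN (1 * q)) (valN (1 * q) Q (W.X s))) = 1 ∧
      absv (some p) (valN (1 * q) Q (W.X s)) < 1 ∧
      lg (some p) ((q : Ω) ^ 12) ≤ lg (some p) (valN (1 * q) Q (W.X s)) ∧
      lg (some p) (valN (1 * q) Q
        (f * (W.X s - algebraMap Ω (FunN (1 * q)) (valN (1 * q) Q (W.X s))) ^ (-(D Q)))) =
        (1 - thetaN p q Q) * sheetNorm0 p (1 * q) f + thetaN p q Q * sheetNorm1 p h hq f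
          - thetaN p q Q * (∑ P ∈ D.support,
              if W.InAnn p s P then (D P : ℝ) * lg (some p) (valN (1 * q) P (W.X s)) else 0)
          + ∑ P ∈ D.support,
              if P ≠ Q ∧ W.InAnn p s P then
                (D P : ℝ) * lg (some p) (valN (1 * q) P (W.X s) - valN (1 * q) Q (W.X s))
              else 0 := by
  classical
  have hQrat : IsRationalPlace (ptResW q K₁ Q) := hrat Q (Finset.mem_insert_self _ _)
  obtain ⟨𝔪, h𝔪, hQc, hinf, h0, ⟨X, m, hX, hXs⟩, hcen⟩ := hdict K₁ hK₁ hle hπ s Q hQrat hQs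
  haveI := h𝔪
  haveI h𝔪p : 𝔪.IsPrime := h𝔪.isPrime
  obtain ⟨c, hass, hU⟩ := mdl_nodeUnit h hq hπ hpq
  obtain ⟨kU, νU, wU, wU', hckm, hkU, hνU0, hνUm, hXQ, hUQ⟩ :=
    SSModel.nodeUnit_value_node' (mdl h hq hπ hpq) hπ hU 𝔪 hinf h0 hX hQc hQrat
  haveI : IsFractionRing ↥(chartOne (R1 p K₁) (E1 q K₁) (gJ K₁)) (E1 q K₁) :=
    isFractionRing_chartOne (K₁ := ↥K₁) (gJ K₁) (mdl h hq hπ hpq).j_adjoin
  have hπ𝔪 : algebraMap (R1 p K₁) ↥(chartOne (R1 p K₁) (E1 q K₁) (gJ K₁)) π ∈ 𝔪 :=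
    hinf (IsTwoSheet.pi_mem_inf (K₁ := ↥K₁) (mdl h hq hπ hpq).two hπ)
  have hf₁0 : f₁ ≠ 0 := by
    rintro rfl
    rw [map_zero] at hf₁
    exact hf hf₁.symm
  -- the zeros and poles of `f` on the annulus
  set S : Finset (PtN (1 * q)) := D.support.filter (fun P => W.InAnn p s P) with hS
  have hSrat : ∀ P ∈ S, IsRationalPlace (ptResW q K₁ P) := fun P hP =>
    hrat P (Finset.mem_insert_of_mem (Finset.mem_filter.mp hP).1)
  have hSD : ∀ P ∈ S, D P ≠ 0 := fun P hP =>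
    Finsupp.mem_support_iff.mp (Finset.mem_filter.mp hP).1
  have hT : ∀ P₁ ∈ S.image (ptResW q K₁), CentredAt 𝔪 P₁ := by
    intro P₁ hP₁
    obtain ⟨P, hP, rfl⟩ := Finset.mem_image.mp hP₁
    exact (hcen P (hSrat P hP)).mpr (Finset.mem_filter.mp hP).2
  have hTrat : ∀ P₁ ∈ S.image (ptResW q K₁), IsRationalPlace P₁ := by
    intro P₁ hP₁
    obtain ⟨P, hP, rfl⟩ := Finset.mem_image.mp hP₁
    exact hSrat P hP
  have hfT : ∀ P₁ : Place ↥K₁ (E1 q K₁), CentredAt 𝔪 P₁ → P₁.ord f₁ ≠ 0 →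
      P₁ ∈ S.image (ptResW q K₁) := by
    intro P₁ hc hord
    obtain ⟨P, rfl⟩ := exists_ptResW_eq P₁
    rw [ord_ptResW, hf₁] at hord
    have hPD : P ∈ D.support := Finsupp.mem_support_iff.mpr (by rw [hD P]; exact hord)
    have hPrat := hrat P (Finset.mem_insert_of_mem hPD)
    exact Finset.mem_image_of_mem _ (Finset.mem_filter.mpr ⟨hPD, (hcen P hPrat).mp hc⟩)
  -- the values of the node coordinate
  have hex : ∀ P₁ : Place ↥K₁ (E1 q K₁), CentredAt 𝔪 P₁ ∧ IsRationalPlace P₁ →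
      ∃ r : R1 p K₁, HasValueAt P₁ X (algebraMap (R1 p K₁) ↥K₁ r) := by
    rintro P₁ ⟨hc, hr⟩
    obtain ⟨r, hr, -⟩ := exists_value_of_centredAt P₁ hr
      (chartOne (R1 p K₁) (E1 q K₁) (gJ K₁)) hπ 𝔪 hπ𝔪 hc hX.mem_locRing
    exact ⟨r, hr⟩
  set ξ : Place ↥K₁ (E1 q K₁) → R1 p K₁ := fun P₁ =>
    if hP : CentredAt 𝔪 P₁ ∧ IsRationalPlace P₁ then (hex P₁ hP).choose else 0 with hξdef
  have hξ : ∀ P₁ : Place ↥K₁ (E1 q K₁), CentredAt 𝔪 P₁ → IsRationalPlace P₁ →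
      HasValueAt P₁ X (algebraMap (R1 p K₁) ↥K₁ (ξ P₁)) := by
    intro P₁ hc hr
    have : ξ P₁ = (hex P₁ ⟨hc, hr⟩).choose := by
      rw [hξdef]
      exact dif_pos ⟨hc, hr⟩
    rw [this]
    exact (hex P₁ ⟨hc, hr⟩).choose_spec
  obtain ⟨ainf, hfinf, hfinf'⟩ := oneWinf_exists_zpow (R1 p K₁) ↥K₁ (q := q) hπ hf₁0
  obtain ⟨a0, hf0, hf0'⟩ := oneW0_exists_zpow (R1 p K₁) ↥K₁ hπ h hq hf₁0
  obtain ⟨k, ν, hν, hrel, hord, w, hval⟩ := SSModel.node_value (mdl h hq hπ hpq) hπ 𝔪 hinf h0 hX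
    hf₁0 (S.image (ptResW q K₁)) hT hTrat hfT ξ (fun P₁ hP₁ => hξ P₁ (hT P₁ hP₁) (hTrat P₁ hP₁))
    ainf a0 hfinf hfinf' hf0 hf0' hQc hQrat (hξ _ hQc hQrat)
  -- the exponent of `Q`
  obtain ⟨wQ, hwQ, -, -⟩ := hν (ptResW q K₁ Q) (Finset.mem_insert_self _ _)
  have hinj : Function.Injective (algebraMap (R1 p K₁) ↥K₁) := IsFractionRing.injective _ _
  have hξQ : ξ (ptResW q K₁ Q) = (wU' : R1 p K₁) * π ^ νU :=
    hinj ((hξ _ hQc hQrat).unique hXQ)
  have hνQ : ν (ptResW q K₁ Q) = νU := by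
    rw [hwQ] at hξQ
    exact IsDiscreteValuationRing.unit_mul_pow_congr_pow hπ hπ wQ wU' _ _ hξQ
  rw [hνQ] at hwQ
  -- the value in the shape of the dictionary
  have hπK : algebraMap (R1 p K₁) ↥K₁ π ≠ 0 :=
    (map_ne_zero_iff _ hinj).mpr hπ.ne_zero
  have hval' : HasValueAt (ptResW q K₁ Q)
      (f₁ * ((X - algebraMap ↥K₁ (E1 q K₁)
        (algebraMap (R1 p K₁) ↥K₁ (ξ (ptResW q K₁ Q)))) ^ ((ptResW q K₁ Q).ord f₁))⁻¹)
      (algebraMap (R1 p K₁) ↥K₁ π ^ (ainf + (νU : ℤ) * k) *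
        algebraMap (R1 p K₁) ↥K₁ ((wQ ^ k * w : (R1 p K₁)ˣ) : R1 p K₁) *
        ∏ P₁ ∈ (S.image (ptResW q K₁)).erase (ptResW q K₁ Q),
          (algebraMap (R1 p K₁) ↥K₁ (ξ (ptResW q K₁ Q)) -
            algebraMap (R1 p K₁) ↥K₁ (ξ P₁)) ^ (P₁.ord f₁)) := by
    have e : algebraMap (R1 p K₁) ↥K₁ π ^ (ainf + (νU : ℤ) * k) *
        algebraMap (R1 p K₁) ↥K₁ ((wQ ^ k * w : (R1 p K₁)ˣ) : R1 p K₁) =
        algebraMap (R1 p K₁) ↥K₁ π ^ ainf * algebraMap (R1 p K₁) ↥K₁ (ξ (ptResW q K₁ Q)) ^ k *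
          algebraMap (R1 p K₁) ↥K₁ (w : R1 p K₁) := by
      rw [Units.val_mul, map_mul, algebraMap_units_zpow', hwQ, map_mul, map_pow, mul_zpow,
        zpow_add₀ hπK, zpow_mul, zpow_natCast]
      ring
    rw [e]
    exact hval
  have hD' : IsDivOf (1 * q) (limPhi q K₁ f₁) D := by rw [hf₁]; exact hD
  obtain ⟨hcf1, hcf2⟩ := cf_of_cell_value p K₁ Q hf₁0 hD' S hSD hSrat ξ
    (fun P hP => hξ _ (hT _ (Finset.mem_image_of_mem _ hP)) (hSrat P hP)) (hξ _ hQc hQrat)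
    hπ.ne_zero (ainf + (νU : ℤ) * k) (wQ ^ k * w) hord hval'
  rw [hXs] at hcf1 hcf2
  rw [hf₁] at hcf2
  -- the logarithm of the uniformizer
  set L : ℝ := lg (some p) (((π : ↥K₁) : Ω)) with hL
  have hπmax : π ∈ IsLocalRing.maximalIdeal (R1 p K₁) := by
    rw [hπ.maximalIdeal_eq]
    exact Ideal.mem_span_singleton_self π
  have hπabs : absv (some p) (((π : ↥K₁) : Ω)) < 1 :=
    (absv_lt_one_iff_mem_maximalIdeal p π).mpr hπmax
  have hπΩ : (((π : ↥K₁) : Ω)) ≠ 0 := by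
    intro h0
    apply hπK
    exact Subtype.ext h0
  have hLneg : L < 0 := Real.log_neg (absv_pos hπΩ) hπabs
  have hL0 : L ≠ 0 := ne_of_lt hLneg
  -- the values of the node coordinate
  have hlgX : ∀ P : PtN (1 * q), CentredAt 𝔪 (ptResW q K₁ P) → IsRationalPlace (ptResW q K₁ P) →
      ∀ (u : (R1 p K₁)ˣ) (n : ℕ), ξ (ptResW q K₁ P) = (u : R1 p K₁) * π ^ n →
      valN (1 * q) P (W.X s) = ((((u : R1 p K₁) * π ^ n : R1 p K₁) : ↥K₁) : Ω) ∧
      lg (some p) (valN (1 * q) P (W.X s)) = (n : ℝ) * L := by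
    intro P hc hr u n hu
    have h1 : valN (1 * q) P (W.X s) = ((((u : R1 p K₁) * π ^ n : R1 p K₁) : ↥K₁) : Ω) := by
      rw [← hXs, valN_limPhi P (hξ _ hc hr), hu]
      rfl
    exact ⟨h1, by rw [h1, lg_unit_mul_pow p u.isUnit n]⟩
  obtain ⟨hXQv, hXQlg⟩ := hlgX Q hQc hQrat wU' νU hξQ
  -- `|N^12|`
  have hN12 : lg (some p) ((q : Ω) ^ 12) = (c : ℝ) * L := by
    have h1 := natCast_mul_lg_pi (p := p) (q := q) (K₁ := K₁) (π := π) hass
    unfold bigL at h1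
    rw [neg_neg] at h1
    exact h1.symm
  -- the value of the modular unit
  have hUlg : lg (some p) (valN (1 * q) Q (unitBar q)) = ((νU * kU : ℕ) : ℝ) * L := by
    rw [← limPhi_oneUnit q K₁, valN_limPhi Q hUQ]
    have e : (((algebraMap (R1 p K₁) ↥K₁ π ^ (νU * kU) *
        algebraMap (R1 p K₁) ↥K₁ (wU : R1 p K₁) : ↥K₁)) : Ω) =
        ((((wU : R1 p K₁) * π ^ (νU * kU) : R1 p K₁) : ↥K₁) : Ω) := by
      rw [mul_comm]
      rfl
    rw [e, lg_unit_mul_pow p wU.isUnit]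
  have hm1 : 1 ≤ m := hX.one_le
  have hmR : (0 : ℝ) < m := by exact_mod_cast hm1
  have hkUR : (1 : ℝ) ≤ kU := by exact_mod_cast hkU
  have hcR : (c : ℝ) = (kU : ℝ) * (m : ℝ) := by exact_mod_cast hckm
  have hνUR : (νU : ℝ) < m := by exact_mod_cast hνUm
  have hνUR0 : (0 : ℝ) < νU := by exact_mod_cast hνU0
  have hθ : thetaN p q Q = (νU : ℝ) / m := by
    unfold thetaN
    rw [if_pos hQs.1.1, hUlg, hN12, hcR]
    have e : ((νU * kU : ℕ) : ℝ) * L / ((kU : ℝ) * (m : ℝ) * L) = (νU : ℝ) / m := by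
      push_cast
      have hk0 : (kU : ℝ) ≠ 0 := by linarith
      field_simp
    rw [e]
    have h1 : (νU : ℝ) / m ≤ 1 := by
      rw [div_le_one hmR]
      exact hνUR.le
    have h2 : (0 : ℝ) ≤ (νU : ℝ) / m := by positivity
    rw [min_eq_right h1, max_eq_right h2]
  -- the two sheet norms
  have hn0 : sheetNorm0 p (1 * q) f = (ainf : ℝ) * L := by
    rw [← hf₁]
    exact sheetNorm0_of_unit p K₁ hf₁0 hπ.ne_zero ainf hfinf hfinf'
  have hn1 : sheetNorm1 p h hq f = (a0 : ℝ) * L := by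
    rw [← hf₁]
    exact sheetNorm1_of_unit p K₁ h hq hf₁0 hπ.ne_zero a0 hf0 hf0'
  refine ⟨hcf1, ?_, ?_, ?_⟩
  · rw [hXQv]
    apply (absv_lt_one_iff_mem_maximalIdeal p _).mpr
    rw [hπ.maximalIdeal_eq, Ideal.mem_span_singleton]
    exact Dvd.dvd.mul_left (dvd_pow_self π (by omega)) _
  · rw [hN12, hXQlg]
    have : (νU : ℝ) ≤ c := by
      rw [hcR]
      nlinarith
    nlinarith
  · -- the sum over the annulus
    have hsum1 : (∑ P ∈ D.support,
        if W.InAnn p s P then (D P : ℝ) * lg (some p) (valN (1 * q) P (W.X s)) else 0) =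
        (∑ P ∈ S, (D P : ℝ) * (ν (ptResW q K₁ P) : ℝ)) * L := by
      rw [← Finset.sum_filter, Finset.sum_mul]
      refine Finset.sum_congr rfl (fun P hP => ?_)
      have hPT : ptResW q K₁ P ∈ S.image (ptResW q K₁) := Finset.mem_image_of_mem _ hP
      obtain ⟨u, hu, -, -⟩ := hν (ptResW q K₁ P) (Finset.mem_insert_of_mem hPT)
      rw [(hlgX P (hT _ hPT) (hSrat P hP) u _ hu).2]
      ring
    have hsum2 : (∑ P ∈ D.support,
        if P ≠ Q ∧ W.InAnn p s P then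
          (D P : ℝ) * lg (some p) (valN (1 * q) P (W.X s) - valN (1 * q) Q (W.X s)) else 0) =
        ∑ P ∈ S.erase Q,
          (D P : ℝ) * lg (some p) (valN (1 * q) P (W.X s) - valN (1 * q) Q (W.X s)) := by
      rw [← Finset.sum_filter]
      refine Finset.sum_congr ?_ (fun _ _ => rfl)
      ext P
      simp only [hS, Finset.mem_filter, Finset.mem_erase]
      tauto
    have hrelR : (a0 : ℝ) = (ainf : ℝ) + (k : ℝ) * (m : ℝ) +
        ∑ P ∈ S, (D P : ℝ) * (ν (ptResW q K₁ P) : ℝ) := by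
      have h1 : (∑ P₁ ∈ S.image (ptResW q K₁), P₁.ord f₁ * (ν P₁ : ℤ)) =
          ∑ P ∈ S, D P * (ν (ptResW q K₁ P) : ℤ) := by
        rw [Finset.sum_image]
        · refine Finset.sum_congr rfl (fun P _ => ?_)
          rw [ord_ptResW, hf₁, hD P]
        · intro P hP P' _ heq
          exact ptResW_injOn_rational (hSrat P hP) heq
      rw [h1] at hrel
      rw [hrel]
      push_cast
      ring
    rw [hcf2, hsum1, hsum2, hθ, hn0, hn1, hrelR]
    have hm0 : (m : ℝ) ≠ 0 := ne_of_gt hmR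
    push_cast
    field_simp
    ring

/-- **[CF-ND]: the cell formula on the annuli of the nodes, from the node dictionary.** -/
theorem nodeCF_of_nodeDict (hK₀ : IsBase (p : ℕ) K₀) (hdict : NodeDict p h hq hpq W K₀) :
    NodeCF p h hq W := by
  classical
  intro f D hf hD Q s hQs
  obtain ⟨K₁, hK₁, hle, -, hdesc, hratS⟩ := exists_galBase_descentW (q := q) hK₀ ∅
    (fun _ : Unit => f) (insert Q D.support)
  obtain ⟨f₁, hf₁⟩ := hdesc ()
  have hA : (padicPlace (p : ℕ)).LiesOverPrime (p : ℕ) :=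
    Fermat.Agent.TW.Kill.padicPlace_liesOverPrime (p : ℕ)
  haveI : IsDiscreteValuationRing (R1 p K₁) := hK₁.isBase.isDiscreteValuationRing hA
  obtain ⟨π, hπ⟩ := IsDiscreteValuationRing.exists_irreducible (R1 p K₁)
  exact nodeCF_base p h hq hpq W K₀ K₁ hK₁.isBase hle hπ hdict f D hf hD Q s hQs f₁ hf₁ hratS

end Fermat.Agent.MW.OneCell
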