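/-
MW / [ARCH] (helper9): auxiliary lemmas for the one-sided sup bound (A7) (`arch_sup`, helper4):
orders, divisors and values of linear combinations `ψ = Σ c k • φ k` of the differentials of a
`DiffDatum`, the pole-cleared effective divisor `clr D = D + K0`, and the count of the
multiplicities over the fibres of the atlas.
-/
import Mathlib
import Fermat.Agent.MW.ARCH_helper9_Weil

set_option autoImplicit false
set_option linter.unusedSectionVars false

open AlgebraicCurve CongruenceSubgroup MatrixGroups ModularGroup ModularCurve UpperHalfPlane Metric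

namespace Fermat.Agent.MW

open Fermat.Agent.FF Fermat.Agent.X0N Fermat.Agent.JA

attribute [local instance] algOmC isScalarTower_algOmC

variable {N : ℕ} [NeZero N]

/-! ### orders and values of linear combinations -/

/-- a finite sum of functions of order `≥ n` at `Q` has order `≥ n`. -/
theorem archOrd_sum_ge (Q : PtN N) {ι : Type*} (s : Finset ι) (F : ι → FunN N) (n : ℤ)
    (hF : ∀ i ∈ s, F i = 0 ∨ n ≤ Q.ord (F i)) :
    (∑ i ∈ s, F i) = 0 ∨ n ≤ Q.ord (∑ i ∈ s, F i) := by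
  classical
  induction s using Finset.induction_on with
  | empty => left; simp
  | insert a s ha ih =>
    rw [Finset.sum_insert ha]
    by_cases h0 : F a + ∑ i ∈ s, F i = 0
    · exact Or.inl h0
    · right
      exact PlaceAux.ord_add_ge Q h0 (hF a (Finset.mem_insert_self a s))
        (ih (fun i hi => hF i (Finset.mem_insert_of_mem hi)))

theorem archOrd_smul_ge (Q : PtN N) (c : AlgebraicClosure ℚ) (f : FunN N) (n : ℤ)
    (hf : f = 0 ∨ n ≤ Q.ord f) : c • f = 0 ∨ n ≤ Q.ord (c • f) := by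
  by_cases hc : c = 0
  · left; rw [hc, zero_smul]
  rcases hf with hf | hf
  · left; rw [hf, smul_zero]
  · by_cases hf0 : f = 0
    · left; rw [hf0, smul_zero]
    right
    rw [Algebra.smul_def, Q.ord_mul (by simpa using hc) hf0, PlaceAux.ord_algebraMap, zero_add]
    exact hf

/-- (S1) a nonzero combination of the `φ k` has poles bounded by `K0`. -/
theorem DiffDatum.ord_comb_ge (𝔡 : DiffDatum N) (c : Fin 𝔡.gq → AlgebraicClosure ℚ)
    (hψ : (∑ k, c k • 𝔡.φ k) ≠ 0) (Q : PtN N) :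
    -(𝔡.K0 Q : ℤ) ≤ Q.ord (∑ k, c k • 𝔡.φ k) :=
  (archOrd_sum_ge Q Finset.univ (fun k => c k • 𝔡.φ k) _
    (fun k _ => archOrd_smul_ge Q (c k) (𝔡.φ k) _ (𝔡.φ_reg k Q))).resolve_left hψ

theorem DiffDatum.comb_regular (𝔡 : DiffDatum N) (c : Fin 𝔡.gq → AlgebraicClosure ℚ)
    {Q : PtN N} (hQ : 𝔡.K0 Q = 0) :
    (∑ k, c k • 𝔡.φ k) = 0 ∨ 0 ≤ Q.ord (∑ k, c k • 𝔡.φ k) := by
  by_cases hψ : (∑ k, c k • 𝔡.φ k) = 0
  · exact Or.inl hψ
  · right
    have := 𝔡.ord_comb_ge c hψ Q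
    rw [hQ] at this
    simpa using this

theorem DiffDatum.φ_regular (𝔡 : DiffDatum N) (k : Fin 𝔡.gq) {Q : PtN N} (hQ : 𝔡.K0 Q = 0) :
    𝔡.φ k = 0 ∨ 0 ≤ Q.ord (𝔡.φ k) := by
  have := 𝔡.φ_reg k Q
  rw [hQ] at this
  simpa using this

/-- the value of a combination at a point outside the support of `K0`. -/
theorem DiffDatum.valN_comb (𝔡 : DiffDatum N) (c : Fin 𝔡.gq → AlgebraicClosure ℚ)
    {Q : PtN N} (hQ : 𝔡.K0 Q = 0) :
    valN N Q (∑ k, c k • 𝔡.φ k) = ∑ k, c k * valN N Q (𝔡.φ k) := by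
  refine (HasValueAt.sum Finset.univ (fun k => c k • 𝔡.φ k) (fun k => c k * valN N Q (𝔡.φ k))
    (fun k _ => ?_)).valueAt_eq
  rw [Algebra.smul_def]
  exact (HasValueAt.algebraMap' Q (c k)).mul (valN_spec Q (𝔡.φ_regular k hQ))

theorem absv_sum_le' (v : Pl) {ι : Type*} (s : Finset ι) (F : ι → AlgebraicClosure ℚ) :
    absv v (∑ i ∈ s, F i) ≤ ∑ i ∈ s, absv v (F i) := by
  classical
  induction s using Finset.induction_on with
  | empty =>
    rw [Finset.sum_empty, Finset.sum_empty]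
    exact (absv_eq_zero.mpr rfl).le
  | insert a s ha ih =>
    rw [Finset.sum_insert ha, Finset.sum_insert ha]
    exact (absv_add_le v _ _).trans (add_le_add le_rfl ih)

/-- (S3) the value of a combination with coefficients of size `≤ M`. -/
theorem DiffDatum.absv_valN_comb_le (𝔡 : DiffDatum N) (c : Fin 𝔡.gq → AlgebraicClosure ℚ)
    (v : Pl) {M : ℝ} (hM : ∀ k, absv v (c k) ≤ M) {Q : PtN N} (hQ : 𝔡.K0 Q = 0) :
    absv v (valN N Q (∑ k, c k • 𝔡.φ k)) ≤ M * ∑ k, absv v (valN N Q (𝔡.φ k)) := by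
  rw [𝔡.valN_comb c hQ, Finset.mul_sum]
  refine (absv_sum_le' v _ _).trans (Finset.sum_le_sum fun k _ => ?_)
  rw [absv_mul]
  exact mul_le_mul_of_nonneg_right (hM k) (absv_nonneg v _)

/-! ### the pole-cleared divisor -/

/-- the pole-cleared effective divisor `D + K0` (for `D ≥ -K0`). -/
noncomputable def DiffDatum.clr (𝔡 : DiffDatum N) (D : PtN N →₀ ℤ) : PtN N →₀ ℕ :=
  (D + dofNat 𝔡.K0).mapRange Int.toNat rfl

theorem DiffDatum.clr_apply (𝔡 : DiffDatum N) {D : PtN N →₀ ℤ}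
    (hD : ∀ Q, -(𝔡.K0 Q : ℤ) ≤ D Q) (Q : PtN N) :
    ((𝔡.clr D Q : ℕ) : ℤ) = D Q + (𝔡.K0 Q : ℤ) := by
  have h := hD Q
  simp only [DiffDatum.clr, Finsupp.mapRange_apply, Finsupp.add_apply, dofNat]
  rw [Int.toNat_of_nonneg (by omega)]

theorem sum_support_eq_of_subset {X : Type*} [DecidableEq X] (D : X →₀ ℤ) (T : Finset X)
    (hT : D.support ⊆ T) : ∑ Q ∈ T, D Q = ∑ Q ∈ D.support, D Q := by
  symm
  refine Finset.sum_subset hT (fun Q _ hQ => ?_)
  exact Finsupp.notMem_support_iff.mp hQ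

theorem ndeg_cast {X : Type*} [DecidableEq X] (E : X →₀ ℕ) (T : Finset X) (hT : E.support ⊆ T) :
    ((ndeg E : ℕ) : ℤ) = ∑ Q ∈ T, (E Q : ℤ) := by
  rw [ndeg, Finsupp.sum]
  push_cast
  refine Finset.sum_subset hT (fun Q _ hQ => ?_)
  rw [Finsupp.notMem_support_iff.mp hQ]
  rfl

theorem DiffDatum.ndeg_clr (𝔡 : DiffDatum N) {D : PtN N →₀ ℤ}
    (hD : ∀ Q, -(𝔡.K0 Q : ℤ) ≤ D Q) (hsum : ∑ Q ∈ D.support, D Q = 0) :
    ndeg (𝔡.clr D) = ndeg 𝔡.K0 := by
  classical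
  have hsub : (𝔡.clr D).support ⊆ D.support ∪ 𝔡.K0.support := by
    intro Q hQ
    rw [Finsupp.mem_support_iff] at hQ
    by_contra hn
    rw [Finset.mem_union, not_or, Finsupp.notMem_support_iff, Finsupp.notMem_support_iff] at hn
    apply hQ
    have := 𝔡.clr_apply hD Q
    rw [hn.1, hn.2] at this
    simpa using this
  have h1 := ndeg_cast (𝔡.clr D) _ hsub
  have h2 := ndeg_cast 𝔡.K0 (D.support ∪ 𝔡.K0.support) Finset.subset_union_right
  have h3 : ∑ Q ∈ D.support ∪ 𝔡.K0.support, D Q = 0 := by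
    rw [sum_support_eq_of_subset D _ Finset.subset_union_left, hsum]
  have h4 : ((ndeg (𝔡.clr D) : ℕ) : ℤ) = ((ndeg 𝔡.K0 : ℕ) : ℤ) := by
    rw [h1, h2, Finset.sum_congr rfl (fun Q _ => 𝔡.clr_apply hD Q), Finset.sum_add_distrib, h3,
      zero_add]
  exact_mod_cast h4

/-- (S2) the `ℓ¹`-norm of a divisor of degree `0` with poles bounded by `K0`. -/
theorem DiffDatum.dnorm_le_of_ge (𝔡 : DiffDatum N) {D : PtN N →₀ ℤ}
    (hD : ∀ Q, -(𝔡.K0 Q : ℤ) ≤ D Q) (hsum : ∑ Q ∈ D.support, D Q = 0) :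
    dnorm D ≤ 2 * (ndeg 𝔡.K0 : ℤ) := by
  classical
  have h1 : ∀ Q, |D Q| ≤ D Q + 2 * (𝔡.K0 Q : ℤ) := by
    intro Q
    have := hD Q
    rw [abs_le]
    constructor <;> omega
  have h2 := ndeg_cast 𝔡.K0 (D.support ∪ 𝔡.K0.support) Finset.subset_union_right
  calc dnorm D = ∑ Q ∈ D.support, |D Q| := rfl
    _ ≤ ∑ Q ∈ D.support, (D Q + 2 * (𝔡.K0 Q : ℤ)) := Finset.sum_le_sum fun Q _ => h1 Q
    _ = 2 * ∑ Q ∈ D.support, (𝔡.K0 Q : ℤ) := by
        rw [Finset.sum_add_distrib, hsum, zero_add, Finset.mul_sum]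
    _ ≤ 2 * ∑ Q ∈ D.support ∪ 𝔡.K0.support, (𝔡.K0 Q : ℤ) := by
        refine mul_le_mul_of_nonneg_left ?_ (by norm_num)
        exact Finset.sum_le_sum_of_subset_of_nonneg Finset.subset_union_left
          (fun _ _ _ => Int.natCast_nonneg _)
    _ = 2 * (ndeg 𝔡.K0 : ℤ) := by rw [h2]

/-- (S2) for the divisor of a combination of the `φ k`. -/
theorem DiffDatum.dnorm_comb_le (𝔡 : DiffDatum N) (c : Fin 𝔡.gq → AlgebraicClosure ℚ)
    (hψ : (∑ k, c k • 𝔡.φ k) ≠ 0) {D : PtN N →₀ ℤ} (hD : IsDivOf N (∑ k, c k • 𝔡.φ k) D) :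
    dnorm D ≤ 2 * (ndeg 𝔡.K0 : ℤ) :=
  𝔡.dnorm_le_of_ge (fun Q => by rw [hD Q]; exact 𝔡.ord_comb_ge c hψ Q)
    (sum_eq_zero_of_isDivOf hψ hD)

theorem DiffDatum.ndeg_clr_comb (𝔡 : DiffDatum N) (c : Fin 𝔡.gq → AlgebraicClosure ℚ)
    (hψ : (∑ k, c k • 𝔡.φ k) ≠ 0) {D : PtN N →₀ ℤ} (hD : IsDivOf N (∑ k, c k • 𝔡.φ k) D) :
    ndeg (𝔡.clr D) = ndeg 𝔡.K0 :=
  𝔡.ndeg_clr (fun Q => by rw [hD Q]; exact 𝔡.ord_comb_ge c hψ Q)
    (sum_eq_zero_of_isDivOf hψ hD)

theorem DiffDatum.clr_comb_apply (𝔡 : DiffDatum N) (c : Fin 𝔡.gq → AlgebraicClosure ℚ)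
    (hψ : (∑ k, c k • 𝔡.φ k) ≠ 0) {D : PtN N →₀ ℤ} (hD : IsDivOf N (∑ k, c k • 𝔡.φ k) D)
    (Q : PtN N) : ((𝔡.clr D Q : ℕ) : ℤ) = Q.ord (∑ k, c k • 𝔡.φ k) + (𝔡.K0 Q : ℤ) := by
  rw [𝔡.clr_apply (fun Q => by rw [hD Q]; exact 𝔡.ord_comb_ge c hψ Q), hD Q]

/-! ### multiplicities -/

theorem stabMult_le_three_of_admH_aux {τ : ℍ} (hτ : τ ∈ admH) : stabMult N τ ≤ 3 := by
  obtain ⟨a, ha⟩ := hτ
  have h := hMult_le_three (N := N) τ a ha
  rw [hMult_eq_stabMult (N := N) τ a ha] at h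
  exact_mod_cast h

/-- (S5) the multiplicities of the charts are at most `3`. -/
theorem chartE_le_three_aux (hN : N.Prime) (P : ChartParams N) {α : ChartIdx} {z : ℂ}
    (hz : z ∈ chartA (unifN N hN) P α) : chartE P α z ≤ 3 := by
  cases α with
  | H => exact stabMult_le_three_of_admH_aux hz
  | inf =>
    by_cases h0 : z = 0
    · simp [chartE, h0]
    · rcases hz with h | h
      · exact absurd h h0
      · simp only [chartE, h0, if_false]
        exact stabMult_le_three_of_admH_aux h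
  | zero =>
    by_cases h0 : z = 0
    · simp [chartE, h0]
    · rcases hz with h | h
      · exact absurd h h0
      · simp only [chartE, h0, if_false]
        exact stabMult_le_three_of_admH_aux h

/-- the pole-cleared order in a chart: `chartOrd u f + e_u · K0 (pt u) = e_u · clr D (pt u)`. -/
theorem chartOrd_add_mul_K0 (hN : N.Prime) (P : ChartParams N) {α : ChartIdx} {u : ℂ}
    (hu : u ∈ chartA (unifN N hN) P α) (𝔡 : DiffDatum N) {f : FunN N} (hf : f ≠ 0)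
    {D : PtN N →₀ ℤ} (hD : IsDivOf N f D) (hge : ∀ Q, -(𝔡.K0 Q : ℤ) ≤ D Q) :
    chartOrd P α u f + (chartE P α u : ℤ) * (𝔡.K0 (chartPt (unifN N hN) P α u) : ℤ) =
      (chartE P α u : ℤ) * ((𝔡.clr D (chartPt (unifN N hN) P α u) : ℕ) : ℤ) := by
  rw [chartOrd_eq hN P hu hf, 𝔡.clr_apply hge, hD]
  ring

/-- (S4) **multiplicity count**: the total multiplicity of an effective divisor `w` over finitely
many parameters of a chart. -/
theorem GeomPkg.sum_chartE_mul_le (hN : N.Prime) {P : ChartParams N}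
    (G : GeomPkg (unifN N hN) P) (nfib : ℕ) (hfib : ∀ α Q, (G.atlas.fib α Q).card ≤ nfib)
    (α : ChartIdx) (T : Finset ℂ)
    (hT : ∀ u ∈ T, u ∈ chartA (unifN N hN) P α ∧ ‖u‖ ≤ P.r₂) (w : PtN N →₀ ℕ) :
    ∑ u ∈ T, chartE P α u * w (chartPt (unifN N hN) P α u) ≤ 3 * nfib * ndeg w := by
  classical
  have h1 : ∀ u ∈ T, chartE P α u * w (chartPt (unifN N hN) P α u) ≤
      3 * ∑ Q ∈ w.support, (if chartPt (unifN N hN) P α u = Q then w Q else 0) := by
    intro u hu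
    rw [Finset.sum_ite_eq]
    split_ifs with hs
    · exact Nat.mul_le_mul_right _ (chartE_le_three_aux hN P (hT u hu).1)
    · rw [Finsupp.notMem_support_iff.mp hs]
      simp
  have h2 : ∀ Q ∈ w.support,
      (∑ u ∈ T, (if chartPt (unifN N hN) P α u = Q then w Q else 0)) ≤ nfib * w Q := by
    intro Q _
    rw [← Finset.sum_filter, Finset.sum_const, smul_eq_mul]
    refine Nat.mul_le_mul_right _ (le_trans (Finset.card_le_card ?_) (hfib α Q))
    intro u hu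
    rw [Finset.mem_filter] at hu
    rw [ArchAtlas.mem_fib, G.mem_A_iff, G.pt_eq, G.atlas_r₂]
    exact ⟨(hT u hu.1).1, hu.2, (hT u hu.1).2⟩
  calc ∑ u ∈ T, chartE P α u * w (chartPt (unifN N hN) P α u)
      ≤ ∑ u ∈ T, 3 * ∑ Q ∈ w.support, (if chartPt (unifN N hN) P α u = Q then w Q else 0) :=
        Finset.sum_le_sum h1
    _ = 3 * ∑ Q ∈ w.support, ∑ u ∈ T, (if chartPt (unifN N hN) P α u = Q then w Q else 0) := by
        rw [← Finset.mul_sum, Finset.sum_comm]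
    _ ≤ 3 * ∑ Q ∈ w.support, nfib * w Q :=
        Nat.mul_le_mul_left _ (Finset.sum_le_sum h2)
    _ = 3 * nfib * ndeg w := by
        rw [← Finset.mul_sum, mul_assoc]
        rfl

/-! ### the value dictionary, exponentiated -/

theorem exp_chartLgn_of_ord_eq_zero (hN : N.Prime) (P : ChartParams N) {α : ChartIdx} {z : ℂ}
    (hz : z ∈ chartA (unifN N hN) P α) (hz2 : ‖z‖ ≤ P.r₂) {f : FunN N} (hf : f ≠ 0)
    (h0 : (chartPt (unifN N hN) P α z).ord f = 0) :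
    Real.exp (chartLgn P α z f) = absv none (valN N (chartPt (unifN N hN) P α z) f) := by
  rw [chartLgn_of_ord_eq_zero hN P hz hz2 hf h0, lg,
    Real.exp_log (absv_pos (valN_ne_zero _ hf h0))]

open Classical in
/-- at a parameter over a point outside the support of `K0` where `ψ = Σ c k • φ k` and all
`φ k ≠ 0` have order `0`: the exponentiated chart norms satisfy the triangle inequality. -/
theorem exp_chartLgn_comb_le (hN : N.Prime) (P : ChartParams N) {α : ChartIdx} {z : ℂ}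
    (hz : z ∈ chartA (unifN N hN) P α) (hz2 : ‖z‖ ≤ P.r₂) (𝔡 : DiffDatum N)
    (c : Fin 𝔡.gq → AlgebraicClosure ℚ) {M : ℝ} (hM : ∀ k, absv none (c k) ≤ M)
    (hψ : (∑ k, c k • 𝔡.φ k) ≠ 0)
    (hK : 𝔡.K0 (chartPt (unifN N hN) P α z) = 0)
    (h0 : (chartPt (unifN N hN) P α z).ord (∑ k, c k • 𝔡.φ k) = 0)
    (hk : ∀ k, 𝔡.φ k ≠ 0 → (chartPt (unifN N hN) P α z).ord (𝔡.φ k) = 0) :
    Real.exp (chartLgn P α z (∑ k, c k • 𝔡.φ k)) ≤
      M * ∑ k, (if 𝔡.φ k = 0 then 0 else Real.exp (chartLgn P α z (𝔡.φ k))) := by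
  rw [exp_chartLgn_of_ord_eq_zero hN P hz hz2 hψ h0]
  refine (𝔡.absv_valN_comb_le c none hM hK).trans (le_of_eq ?_)
  congr 1
  refine Finset.sum_congr rfl fun k _ => ?_
  split_ifs with hφ
  · rw [hφ, valN_zero]
    exact absv_eq_zero.mpr rfl
  · rw [exp_chartLgn_of_ord_eq_zero hN P hz hz2 hφ (hk k hφ)]

end Fermat.Agent.MW
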