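/-
MW (S17) [DIV] — helper1 — part 2: **the push-forward of degree-zero divisor classes along an
embedding of function fields** (all places rational), and `π_* ∘ π^* = [F' : F]`.

* `pushforward_pullback` : `π_* π^* D = [F' : F] • D` on divisors (fundamental identity);
* `pic0Push φ hφ hfin hN : Pic0 K F' →+ Pic0 K F` (Prelude's `pushforwardAlong` on classes),
  `pic0Push_pic0Pull : pic0Push (pic0Pull x) = finrankAlong K φ • x`;
* `normFormulaAlong_of_deg_eq_one` : helper7's norm formula in the `Along` form.
-/
import Mathlib
import Fermat.Agent.JA.H0_helper7_Norm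
import Fermat.Agent.FG.EGAL_helper6_Pull

set_option autoImplicit false
set_option linter.unusedSectionVars false
set_option linter.style.haveILetI false

open AlgebraicCurve

namespace Fermat.Agent.MW

open Fermat.Agent.FF Fermat.Agent.JA Fermat.Agent.FG

section TC

variable {K F F' : Type*} [Field K] [Field F] [Field F'] [Algebra K F] [Algebra K F']
  [Algebra F F'] [IsScalarTower K F F'] [Algebra.IsIntegral F F'] [HasPrincipalDivisors K F']

/-- **`π_* π^* = deg π`** on divisors, when all places are rational. -/
theorem pushforward_pullback [FundamentalIdentity K F F'] (hdeg : ∀ v : Place K F, v.deg = 1)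
    (hdeg' : ∀ w : Place K F', w.deg = 1) (D : Divisor K F) :
    Divisor.pushforward F (Divisor.pullback F' D) = (Module.finrank F F') • D := by
  classical
  induction D using Finsupp.induction with
  | zero => simp
  | single_add v n D _ _ ih =>
    rw [map_add, map_add, ih, smul_add]
    congr 1
    rw [Divisor.pullback_single, map_sum]
    have h1 : ∀ w ∈ v.fiber F',
        Divisor.pushforward F (Finsupp.single w (n * (w.ramificationIndex F : ℤ))) =
          Finsupp.single v (n * (w.ramificationIndex F : ℤ)) := by
      intro w hw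
      have hwv : w.restrict F = v := Place.mem_fiber.mp hw
      have hi : w.inertiaDeg F = 1 := by
        have h := w.deg_restrict_mul_inertiaDeg (F := F)
        rw [hdeg' w, hwv, hdeg v, one_mul] at h
        exact h
      rw [Divisor.pushforward_single, hwv, hi, Nat.cast_one, mul_one]
    rw [Finset.sum_congr rfl h1, ← Finsupp.single_finsetSum, Finsupp.smul_single]
    congr 1
    have h2 := FundamentalIdentity.sum_ramificationIndex_mul_deg (K := K) (F := F) (F' := F') v
    have h3 : ∑ w ∈ v.fiber F', (w.ramificationIndex F : ℤ) * (w.deg : ℤ) =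
        ∑ w ∈ v.fiber F', (w.ramificationIndex F : ℤ) :=
      Finset.sum_congr rfl fun w _ => by rw [hdeg' w, Nat.cast_one, mul_one]
    rw [h3, hdeg v, Nat.cast_one, mul_one] at h2
    rw [← Finset.mul_sum, h2, nsmul_eq_mul, mul_comm]

end TC

section Along

variable {K F F' : Type*} [Field K] [Field F] [Field F'] [Algebra K F] [Algebra K F']
  [HasPrincipalDivisors K F'] (φ : F →ₐ[K] F') (hφ : φ.toRingHom.IsIntegral)

/-- the push-forward on degree-zero divisors -/
noncomputable def pushDegZero :
    Divisor.degZero (K := K) (F := F') →+ Divisor.degZero (K := K) (F := F) :=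
  ((Divisor.pushforwardAlong φ hφ).domRestrict (Divisor.degZero (K := K) (F := F'))).codRestrict _
    fun D => Divisor.pushforwardAlong_mem_degZero φ hφ D.2

@[simp] theorem coe_pushDegZero (D : Divisor.degZero (K := K) (F := F')) :
    (pushDegZero φ hφ D : Divisor K F) = Divisor.pushforwardAlong φ hφ (D : Divisor K F') := rfl

variable (hfin : FiniteAlong K φ) (hN : NormFormulaAlong K φ hfin)

/-- **the push-forward of degree-zero divisor classes** -/
noncomputable def pic0Push : Pic0 K F' →+ Pic0 K F :=
  QuotientAddGroup.map _ _ (pushDegZero φ hφ) (by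
    rintro ⟨D, hD0⟩ hD
    simp only [AddSubgroup.mem_addSubgroupOf] at hD ⊢
    exact Divisor.isPrincipal_pushforwardAlong φ hφ hfin hN hD)

theorem pic0Push_mk (D : Divisor.degZero (K := K) (F := F')) :
    pic0Push φ hφ hfin hN (Pic0.mk D) = Pic0.mk (pushDegZero φ hφ D) := rfl

/-- `π_* π^* = deg π` on divisors, `Along` form. -/
theorem pushforwardAlong_pullbackAlong (hFI : FundamentalIdentityAlong K φ hφ)
    (hdeg : ∀ v : Place K F, v.deg = 1) (hdeg' : ∀ w : Place K F', w.deg = 1)
    (D : Divisor K F) :
    Divisor.pushforwardAlong φ hφ (Divisor.pullbackAlong φ hφ D) = finrankAlong K φ • D := by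
  letI := algebraAlong φ
  haveI := isScalarTower_along φ
  haveI := isIntegral_along φ hφ
  haveI : FundamentalIdentity K F F' := hFI
  exact pushforward_pullback hdeg hdeg' D

/-- **`π_* ∘ π^* = deg π`** on degree-zero classes. -/
theorem pic0Push_pic0Pull (hFI : FundamentalIdentityAlong K φ hφ)
    (hdeg : ∀ v : Place K F, v.deg = 1) (hdeg' : ∀ w : Place K F', w.deg = 1)
    (x : Pic0 K F) :
    pic0Push φ hφ hfin hN (pic0Pull φ hφ hFI x) = finrankAlong K φ • x := by
  obtain ⟨D, rfl⟩ := Pic0.mk_surjective x
  rw [pic0Pull_mk, pic0Push_mk]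
  have h1 : finrankAlong K φ • Pic0.mk D = Pic0.mk (finrankAlong K φ • D) := rfl
  rw [h1]
  refine congrArg Pic0.mk (Subtype.ext ?_)
  rw [coe_pushDegZero, coe_pullDegZero, pushforwardAlong_pullbackAlong φ hφ hFI hdeg hdeg']
  rfl

/-- helper7's norm formula, `Along` form (characteristic zero, rational places). -/
theorem normFormulaAlong_of_deg_eq_one [CharZero K]
    (hdeg : ∀ v : Place K F, v.deg = 1) (hdeg' : ∀ w : Place K F', w.deg = 1) :
    NormFormulaAlong K φ hfin := by
  letI := algebraAlong φ
  haveI := isScalarTower_along φ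
  haveI : Module.Finite F F' := hfin
  haveI : Algebra.IsIntegral F F' := Algebra.IsIntegral.of_finite F F'
  haveI : CharZero F := charZero_of_injective_algebraMap (algebraMap K F).injective
  exact pushforwardNormFormula_of_deg_eq_one hdeg hdeg'

end Along

end Fermat.Agent.MW
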