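/-
MW (S17) — helper3 — [GOOD-P], part 1: **residue discs of a curve with good reduction**
(abstract `FG.GoodRed Ω A 𝔽 𝔽b` language).

* `IsDiscCoord X Q t` : `t ∈ W` is regular on the residue disc of `Q` and `ρ t` is a uniformizer
  at `Q` ("`t` is a coordinate on the disc").  Existence at every `Q` (`exists_isDiscCoord`),
  values lie in `𝔪_A`, `t` is injective on the disc, `t - t(P)` has the single simple zero `P`
  on the disc.
* `discUnit_value` : a Gauss unit without zeros and poles on a residue disc takes values in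
  `A^×` there.
* `IsDiscCoord.div_mem_W`, `IsDiscCoord.div_regularOn` : **division lemma**
  `(f - f(P₀)) / (t - t(P₀))` is again integral and regular on the disc.
* `IsDiscCoord.exists_lipschitz` : integrality of divided differences,
  `f(P) - f(P') ∈ (t(P) - t(P')) · A`.
-/
import Mathlib
import Fermat.Agent.FG.LIFT_helper8_Point
import Fermat.Agent.JA.S18Asm_helper8_Fam

set_option autoImplicit false
set_option linter.unusedSectionVars false
set_option linter.style.haveILetI false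

noncomputable section

namespace Fermat.Agent.MW

open AlgebraicCurve IsLocalRing Fermat.Agent.FF Fermat.Agent.JA Fermat.Agent.FG
open scoped Classical

variable {Ω : Type*} [Field Ω] {A : ValuationSubring Ω} {𝔽 : Type*} [Field 𝔽] [Algebra Ω 𝔽]
  {𝔽b : Type*} [Field 𝔽b] [Algebra (ResidueField ↥A) 𝔽b] (X : GoodRed Ω A 𝔽 𝔽b)

/-- `t` is a **coordinate on the residue disc** of the point `Q` of the special fibre: it is
integral, has no poles on the disc, and reduces to a uniformizer at `Q`. -/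
structure IsDiscCoord (Q : Place (ResidueField ↥A) 𝔽b) (t : 𝔽) : Prop where
  mem : t ∈ X.W
  regular : X.RegularOn Q t
  ord : Q.ord (X.ρ ⟨t, mem⟩) = 1

/-- `0 ∈ 𝔪_A`. -/
theorem goodp_zero_mem_nonunits : (0 : Ω) ∈ A.nonunits := by
  rw [ValuationSubring.mem_nonunits_iff_exists_mem_maximalIdeal]
  exact ⟨A.zero_mem, Ideal.zero_mem _⟩

/-- elements of `𝔪_A` are integral. -/
theorem goodp_mem_of_mem_nonunits {a : Ω} (ha : a ∈ A.nonunits) : a ∈ A :=
  ValuationSubring.nonunits_le ha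

variable {X}

namespace IsDiscCoord

variable {Q : Place (ResidueField ↥A) 𝔽b} {t : 𝔽}

theorem ρ_ne_zero (h : IsDiscCoord X Q t) : X.ρ ⟨t, h.mem⟩ ≠ 0 := by
  intro h0
  have := h.ord
  rw [h0, Place.ord_zero] at this
  exact zero_ne_one this

theorem ne_zero (h : IsDiscCoord X Q t) : t ≠ 0 :=
  X.ρ_ne_zero_imp_ne_zero h.mem h.ρ_ne_zero

theorem inv_mem (h : IsDiscCoord X Q t) : t⁻¹ ∈ X.W :=
  (X.inv_mem_W_iff h.mem h.ne_zero).mpr h.ρ_ne_zero

/-- translating a coordinate by an element of `𝔪_A` gives a coordinate. -/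
theorem sub_const (h : IsDiscCoord X Q t) {a : Ω} (ha : a ∈ A.nonunits) :
    IsDiscCoord X Q (t - algebraMap Ω 𝔽 a) := by
  obtain ⟨haA, hres⟩ := (GoodRed.mem_nonunits_iff' (A := A)).mp ha
  have hmem : t - algebraMap Ω 𝔽 a ∈ X.W := sub_mem h.mem (X.algebraMap_mem_W haA)
  have hρ : X.ρ ⟨t - algebraMap Ω 𝔽 a, hmem⟩ = X.ρ ⟨t, h.mem⟩ := by
    have : (⟨t - algebraMap Ω 𝔽 a, hmem⟩ : ↥X.W)
        = ⟨t, h.mem⟩ - ⟨algebraMap Ω 𝔽 ((⟨a, haA⟩ : ↥A) : Ω), X.algebraMap_mem_W haA⟩ := rfl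
    rw [this, map_sub, X.ρ_const, hres, map_zero, sub_zero]
  exact ⟨hmem, h.regular.sub_const X a, by rw [hρ]; exact h.ord⟩

/-- the value of a coordinate at a point of the disc exists and lies in `𝔪_A`. -/
theorem exists_value (h : IsDiscCoord X Q t) {P : Place Ω 𝔽} (hP : X.r P = Q) :
    ∃ a : Ω, a ∈ A.nonunits ∧ HasValueAt P t a := by
  obtain ⟨c, hc⟩ := HasValueAt.exists_of_mem (X.deg_gen P) (h.regular P hP)
  refine ⟨c, ?_, hc⟩
  exact X.value_mem_nonunits Q ⟨t, h.mem⟩ h.regular (by rw [h.ord]; exact zero_lt_one) hP hc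

theorem hasValueAt_valueAt (h : IsDiscCoord X Q t) {P : Place Ω 𝔽} (hP : X.r P = Q) :
    HasValueAt P t (valueAt P t) :=
  hasValueAt_valueAt_of_mem (X.deg_gen P) (h.regular P hP)

theorem valueAt_mem_nonunits (h : IsDiscCoord X Q t) {P : Place Ω 𝔽} (hP : X.r P = Q) :
    valueAt P t ∈ A.nonunits := by
  obtain ⟨a, ha, hv⟩ := h.exists_value hP
  rw [hv.valueAt_eq]
  exact ha

/-- **a coordinate is injective on its disc.** -/
theorem eq_of_value_eq (h : IsDiscCoord X Q t) {P P' : Place Ω 𝔽} (hP : X.r P = Q)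
    (hP' : X.r P' = Q) {a : Ω} (hv : HasValueAt P t a) (hv' : HasValueAt P' t a) : P = P' := by
  have ha : a ∈ A.nonunits :=
    X.value_mem_nonunits Q ⟨t, h.mem⟩ h.regular (by rw [h.ord]; exact zero_lt_one) hP hv
  obtain ⟨P₀, -, huniq⟩ := X.existsUnique_mem_disc Q ⟨t, h.mem⟩ h.regular h.ord ha
  rw [huniq P ⟨hP, hv⟩, huniq P' ⟨hP', hv'⟩]

/-- `t - t(P)` is a uniformizer at `P`. -/
theorem ord_sub_self (h : IsDiscCoord X Q t) {P : Place Ω 𝔽} (hP : X.r P = Q) {a : Ω}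
    (hv : HasValueAt P t a) : P.ord (t - algebraMap Ω 𝔽 a) = 1 := by
  have ha : a ∈ A.nonunits :=
    X.value_mem_nonunits Q ⟨t, h.mem⟩ h.regular (by rw [h.ord]; exact zero_lt_one) hP hv
  exact X.ord_sub_eq_one_of_mem_disc Q ⟨t, h.mem⟩ h.regular h.ord ha hP hv

/-- `t - t(P)` has no zero on the disc other than `P`. -/
theorem ord_sub_of_ne (h : IsDiscCoord X Q t) {P P' : Place Ω 𝔽} (hP : X.r P = Q)
    (hP' : X.r P' = Q) (hne : P' ≠ P) {a : Ω} (hv : HasValueAt P t a) :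
    P'.ord (t - algebraMap Ω 𝔽 a) = 0 := by
  have ha : a ∈ A.nonunits :=
    X.value_mem_nonunits Q ⟨t, h.mem⟩ h.regular (by rw [h.ord]; exact zero_lt_one) hP hv
  have h' := h.sub_const ha
  have hge : 0 ≤ P'.ord (t - algebraMap Ω 𝔽 a) := h'.regular.ord_nonneg X hP'
  by_contra h0
  have hpos : 0 < P'.ord (t - algebraMap Ω 𝔽 a) := lt_of_le_of_ne hge (Ne.symm h0)
  exact hne (h.eq_of_value_eq hP' hP (HasValueAt.of_ord_pos hpos) hv)

/-- the order of `t - t(P)` at the points of the disc. -/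
theorem ord_sub (h : IsDiscCoord X Q t) {P P' : Place Ω 𝔽} (hP : X.r P = Q)
    (hP' : X.r P' = Q) {a : Ω} (hv : HasValueAt P t a) :
    P'.ord (t - algebraMap Ω 𝔽 a) = if P' = P then 1 else 0 := by
  split_ifs with hPP
  · subst hPP
    exact h.ord_sub_self hP hv
  · exact h.ord_sub_of_ne hP hP' hPP hv

/-- the values of a coordinate at two different points of the disc are different. -/
theorem value_sub_ne_zero (h : IsDiscCoord X Q t) {P P' : Place Ω 𝔽} (hP : X.r P = Q)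
    (hP' : X.r P' = Q) (hne : P ≠ P') {a a' : Ω} (hv : HasValueAt P t a)
    (hv' : HasValueAt P' t a') : a - a' ≠ 0 := by
  intro h0
  rw [sub_eq_zero] at h0
  subst h0
  exact hne (h.eq_of_value_eq hP hP' hv hv')

end IsDiscCoord

variable (X)

/-- **existence of disc coordinates** at every point of the special fibre. -/
theorem exists_isDiscCoord (Q : Place (ResidueField ↥A) 𝔽b) : ∃ t : 𝔽, IsDiscCoord X Q t := by
  by_cases hQ : Q = X.cuspb
  · subst hQ
    exact ⟨X.τ, X.τ_mem, X.τ_regularOn, X.ord_r_cusp_τ⟩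
  set m : ℕ := 2 * X.g + 1 with hmdef
  have hm : 2 * (X.g : ℤ) - 1 ≤ m := by rw [hmdef]; push_cast; omega
  have hm' : 2 * (X.g : ℤ) + 1 ≤ m := by rw [hmdef]; push_cast; omega
  obtain ⟨ub, hub, hubQ⟩ := X.rr_red.exists_simple_zero X.deg_red X.cuspb Q hQ hm'
  choose a ha using fun ν : ↥(X.nongaps m) =>
    IsLocalRing.residue_surjective (R := ↥A) (X.ppb m ⟨ub, hub⟩ ν)
  have huW := X.liftSec_mem_W hm a
  have hρu : X.ρ ⟨(X.liftSec hm a : 𝔽), huW⟩ = ub := X.ρ_liftSec_eq hm ⟨ub, hub⟩ a ha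
  exact ⟨(X.liftSec hm a : 𝔽), huW, X.regularOn_of_mem_poleSpace' (X.liftSec hm a).2 hQ,
    by rw [hρu]; exact hubQ⟩

/-- **disc units**: a Gauss unit without zeros and poles on the residue disc of `P₀` takes a
value in `A^×` at `P₀`. -/
theorem discUnit_value {y : 𝔽} (hy : y ∈ X.W) (hy' : y⁻¹ ∈ X.W) (hy0 : y ≠ 0)
    (P₀ : Place Ω 𝔽) (hord : ∀ P : Place Ω 𝔽, X.r P = X.r P₀ → P.ord y = 0) :
    ∃ u : Ω, u ∈ A ∧ u⁻¹ ∈ A ∧ u ≠ 0 ∧ HasValueAt P₀ y u := by
  have hreg : X.RegularOn (X.r P₀) y := fun P hP => by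
    rw [PlaceAux.mem_iff_ord_nonneg' P hy0, hord P hP]
  have hreg' : X.RegularOn (X.r P₀) y⁻¹ := fun P hP => by
    rw [PlaceAux.mem_iff_ord_nonneg' P (inv_ne_zero hy0), Place.ord_inv, hord P hP, neg_zero]
  obtain ⟨a, ha, -⟩ := X.exists_value P₀ ⟨y, hy⟩ hreg
  obtain ⟨b, hb, -⟩ := X.exists_value P₀ ⟨y⁻¹, hy'⟩ hreg'
  have hab : (a : Ω) * (b : Ω) = 1 := by
    have h1 := ha.mul hb
    rw [mul_inv_cancel₀ hy0] at h1
    exact (h1.unique (HasValueAt.one' P₀))
  have ha0 : (a : Ω) ≠ 0 := left_ne_zero_of_mul_eq_one hab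
  refine ⟨a, a.2, ?_, ha0, ha⟩
  rw [← eq_inv_of_mul_eq_one_right hab]
  exact b.2

variable {X}

namespace IsDiscCoord

variable {Q : Place (ResidueField ↥A) 𝔽b} {t : 𝔽}

/-- **division lemma, integrality**: `(f - f(P₀)) / (t - t(P₀)) ∈ W`. -/
theorem div_mem_W (h : IsDiscCoord X Q t) {P₀ : Place Ω 𝔽} (hP₀ : X.r P₀ = Q) {a : Ω}
    (hv : HasValueAt P₀ t a) {f : 𝔽} (hf : f ∈ X.W) {b : Ω} (hb : b ∈ A) :
    (f - algebraMap Ω 𝔽 b) / (t - algebraMap Ω 𝔽 a) ∈ X.W := by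
  have ha : a ∈ A.nonunits :=
    X.value_mem_nonunits Q ⟨t, h.mem⟩ h.regular (by rw [h.ord]; exact zero_lt_one) hP₀ hv
  rw [div_eq_mul_inv]
  exact X.W.mul_mem _ _ (sub_mem hf (X.algebraMap_mem_W hb)) (h.sub_const ha).inv_mem

/-- **division lemma, regularity**: if `f` is regular on the disc with `f(P₀) = b` then
`(f - b) / (t - t(P₀))` is regular on the disc. -/
theorem div_regularOn (h : IsDiscCoord X Q t) {P₀ : Place Ω 𝔽} (hP₀ : X.r P₀ = Q) {a : Ω}
    (hv : HasValueAt P₀ t a) {f : 𝔽} (hreg : X.RegularOn Q f) {b : Ω}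
    (hfb : HasValueAt P₀ f b) :
    X.RegularOn Q ((f - algebraMap Ω 𝔽 b) / (t - algebraMap Ω 𝔽 a)) := by
  have ha : a ∈ A.nonunits :=
    X.value_mem_nonunits Q ⟨t, h.mem⟩ h.regular (by rw [h.ord]; exact zero_lt_one) hP₀ hv
  have hs0 : t - algebraMap Ω 𝔽 a ≠ 0 := (h.sub_const ha).ne_zero
  intro P hP
  by_cases hf0 : f - algebraMap Ω 𝔽 b = 0
  · rw [hf0, zero_div]
    exact P.toValuationSubring.zero_mem
  rw [PlaceAux.mem_iff_ord_nonneg' P (div_ne_zero hf0 hs0), PlaceAux.ord_div P hf0 hs0,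
    h.ord_sub hP₀ hP hv]
  split_ifs with hPP
  · subst hPP
    have := (HasValueAt.iff_ord.mp hfb).resolve_left hf0
    omega
  · have := (hreg.sub_const X b).ord_nonneg X hP
    omega

/-- **integrality of divided differences**: for `f ∈ W` regular on the disc and two points
`P, P'` of the disc, `f(P) - f(P') = c · (t(P) - t(P'))` with `c ∈ A`. -/
theorem exists_lipschitz (h : IsDiscCoord X Q t) {P P' : Place Ω 𝔽} (hP : X.r P = Q)
    (hP' : X.r P' = Q) {a a' : Ω} (hv : HasValueAt P t a) (hv' : HasValueAt P' t a')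
    {f : 𝔽} (hf : f ∈ X.W) (hreg : X.RegularOn Q f) {b b' : Ω} (hb : HasValueAt P f b)
    (hb' : HasValueAt P' f b') :
    ∃ c : Ω, c ∈ A ∧ b - b' = c * (a - a') := by
  -- `b' ∈ A`
  obtain ⟨β', hβ', -⟩ := X.exists_value P' ⟨f, hf⟩ (hP' ▸ hreg)
  have hb'A : b' ∈ A := by
    rw [hb'.unique hβ']
    exact β'.2
  have ha' : a' ∈ A.nonunits :=
    X.value_mem_nonunits Q ⟨t, h.mem⟩ h.regular (by rw [h.ord]; exact zero_lt_one) hP' hv'
  have hs0 : t - algebraMap Ω 𝔽 a' ≠ 0 := (h.sub_const ha').ne_zero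
  have hgW := h.div_mem_W hP' hv' hf hb'A
  have hgreg := h.div_regularOn hP' hv' hreg hb'
  obtain ⟨c, hc, -⟩ := X.exists_value P ⟨_, hgW⟩ (hP ▸ hgreg)
  refine ⟨c, c.2, ?_⟩
  have h1 : HasValueAt P (f - algebraMap Ω 𝔽 b') (b - b') :=
    hb.sub (HasValueAt.algebraMap' P b')
  have h2 : HasValueAt P ((f - algebraMap Ω 𝔽 b') / (t - algebraMap Ω 𝔽 a')
      * (t - algebraMap Ω 𝔽 a')) ((c : Ω) * (a - a')) :=
    hc.mul (hv.sub (HasValueAt.algebraMap' P a'))
  rw [div_mul_cancel₀ _ hs0] at h2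
  exact h1.unique h2

end IsDiscCoord

end Fermat.Agent.MW

end
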