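/-
MW (S17) — helper3 — [GOOD-P], part 17: **the twelve tetrahedral transforms of a Gauss
coordinate** (the deck transformations of the Hesse cover).

`y` is a tetrahedral transform of `u` if `ζ y = u` or `ζ (ε² u − 1) y = u + 2 ε` for cube roots of
unity `ζ, ε` of the base field.  If `3` is a unit of `A`, the tetrahedral transforms of a Gauss
coordinate are Gauss coordinates, and the non-trivial ones move its reduction.  The fixed points of
the non-trivial tetrahedral transformations lie over `j = 0, 1728` (`j = 27 t³(t³+8)³/(t³−1)³`).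
-/
import Mathlib
import Fermat.Agent.MW.GOODP_helper3_Int
import Fermat.Agent.FG.EGAL_helper6_Hes12

set_option autoImplicit false
set_option linter.unusedSectionVars false
set_option linter.style.haveILetI false

noncomputable section

namespace Fermat.Agent.MW

open AlgebraicCurve IsLocalRing IntermediateField Polynomial Fermat.Agent.FF Fermat.Agent.JA
  Fermat.Agent.FG

variable {Ω : Type*} [Field Ω] {A : ValuationSubring Ω} {𝔽 : Type*} [Field 𝔽] [Algebra Ω 𝔽]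
  {𝔽b : Type*} [Field 𝔽b] [Algebra (ResidueField ↥A) 𝔽b] {X : GoodRed Ω A 𝔽 𝔽b}

variable (Ω) in
/-- `y` is one of the twelve tetrahedral transforms of `u`. -/
def IsTetrahedral (u y : 𝔽) : Prop :=
  ∃ ζ ε : Ω, ζ ^ 3 = 1 ∧ ε ^ 3 = 1 ∧
    (algebraMap Ω 𝔽 ζ * y = u ∨
      algebraMap Ω 𝔽 ζ * ((algebraMap Ω 𝔽 ε) ^ 2 * u - 1) * y = u + 2 * algebraMap Ω 𝔽 ε)

/-- cube roots of unity are integral. -/
theorem goodp_mem_of_cube_eq_one {ζ : Ω} (hζ : ζ ^ 3 = 1) : ζ ∈ A := by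
  rcases A.mem_or_inv_mem ζ with h | h
  · exact h
  · have : ζ = ζ⁻¹ ^ 2 := by
      have h0 : ζ ≠ 0 := by
        rintro rfl
        norm_num at hζ
      field_simp
      linear_combination hζ
    rw [this]
    exact pow_mem h 2

/-- the reduction of a cube root of unity is not zero. -/
theorem goodp_residue_ne_zero_of_cube_eq_one {c : Ω} (hc : c ^ 3 = 1) (hcA : c ∈ A) :
    residue ↥A ⟨c, hcA⟩ ≠ 0 := by
  intro h0
  have h1 : (⟨c, hcA⟩ : ↥A) ^ 3 = 1 := Subtype.ext hc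
  have h2 := congrArg (residue ↥A) h1
  rw [map_pow, h0, map_one] at h2
  norm_num at h2

/-- the reduction of a non-trivial cube root of unity is not `1` when `3` is a unit. -/
theorem goodp_residue_ne_one_of_cube_eq_one {ζ : Ω} (hζ : ζ ^ 3 = 1) (hζA : ζ ∈ A)
    (hζ1 : ζ ≠ 1) (h3 : (3 : Ω)⁻¹ ∈ A) (h30 : (3 : Ω) ≠ 0) :
    residue ↥A ⟨ζ, hζA⟩ ≠ 1 := by
  intro h1
  have hq : ζ ^ 2 + ζ + 1 = 0 := by
    have : (ζ - 1) * (ζ ^ 2 + ζ + 1) = 0 := by linear_combination hζ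
    exact (mul_eq_zero.mp this).resolve_left (sub_ne_zero.mpr hζ1)
  have hq' : (⟨ζ, hζA⟩ : ↥A) ^ 2 + ⟨ζ, hζA⟩ + 1 = 0 := Subtype.ext hq
  have h2 := congrArg (residue ↥A) hq'
  rw [map_add, map_add, map_pow, h1, map_one, map_zero] at h2
  have h3A : (3 : Ω) ∈ A := by
    have : (3 : Ω) = 1 + 1 + 1 := by norm_num
    rw [this]
    exact A.add_mem _ _ (A.add_mem _ _ A.one_mem A.one_mem) A.one_mem
  have hmul : (⟨3, h3A⟩ : ↥A) * ⟨(3 : Ω)⁻¹, h3⟩ = 1 := Subtype.ext (mul_inv_cancel₀ h30)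
  have h4 := congrArg (residue ↥A) hmul
  have h5 : residue ↥A ⟨3, h3A⟩ = 1 ^ 2 + 1 + 1 := by
    have : (⟨3, h3A⟩ : ↥A) = 1 ^ 2 + 1 + 1 :=
      Subtype.ext (show (3 : Ω) = (1 : Ω) ^ 2 + 1 + 1 by norm_num)
    rw [this, map_add, map_add, map_pow, map_one]
  rw [map_mul, h5, h2, zero_mul, map_one] at h4
  exact zero_ne_one h4

variable {u : 𝔽}

/-- **the tetrahedral transforms of a Gauss coordinate are Gauss coordinates** (`3` a unit). -/
theorem IsGaussCoord.tetrahedral (hu : IsGaussCoord X u) (h3 : (3 : Ω)⁻¹ ∈ A)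
    (h30 : (3 : Ω) ≠ 0) {y : 𝔽} (hy : IsTetrahedral Ω u y) : IsGaussCoord X y := by
  obtain ⟨ζ, ε, hζ, hε, hy⟩ := hy
  have hζA : ζ ∈ A := goodp_mem_of_cube_eq_one hζ
  have hεA : ε ∈ A := goodp_mem_of_cube_eq_one hε
  have hm1 : (-1 : Ω) ∈ A := A.neg_mem _ A.one_mem
  have h2A : (2 : Ω) ∈ A := by
    have : (2 : Ω) = 1 + 1 := by norm_num
    rw [this]
    exact A.add_mem _ _ A.one_mem A.one_mem
  rcases hy with hy | hy
  · refine hu.mobius (a := 1) (b := 0) (c := 0) (d := ζ) (e := ζ ^ 2) A.one_mem A.zero_mem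
      A.zero_mem hζA (pow_mem hζA 2) (by linear_combination hζ) ?_
    simp only [map_one, map_zero]
    linear_combination hy
  · refine hu.mobius (a := 1) (b := 2 * ε) (c := ζ * ε ^ 2) (d := -ζ)
      (e := -(3 : Ω)⁻¹ * ζ ^ 2) A.one_mem (A.mul_mem _ _ h2A hεA)
      (A.mul_mem _ _ hζA (pow_mem hεA 2)) (A.neg_mem _ hζA)
      (A.mul_mem _ _ (A.neg_mem _ h3) (pow_mem hζA 2)) ?_ ?_
    · field_simp
      linear_combination (2 * ζ ^ 3) * hε + 3 * hζ
    · simp only [map_one, map_mul, map_neg, map_pow, map_ofNat]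
      linear_combination hy

/-- **a non-trivial tetrahedral transform moves the reduction of a Gauss coordinate.** -/
theorem IsGaussCoord.ρ_tetrahedral_ne (hu : IsGaussCoord X u) (h3 : (3 : Ω)⁻¹ ∈ A)
    (h30 : (3 : Ω) ≠ 0) {y : 𝔽} (hy : IsTetrahedral Ω u y) (hne : y ≠ u) (hyW : y ∈ X.W) :
    X.ρ ⟨y, hyW⟩ ≠ X.ρ ⟨u, hu.mem⟩ := by
  obtain ⟨ζ, ε, hζ, hε, hy⟩ := hy
  have hζA : ζ ∈ A := goodp_mem_of_cube_eq_one hζ
  have hεA : ε ∈ A := goodp_mem_of_cube_eq_one hε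
  have h2A : (2 : Ω) ∈ A := by
    have : (2 : Ω) = 1 + 1 := by norm_num
    rw [this]
    exact A.add_mem _ _ A.one_mem A.one_mem
  rcases hy with hy | hy
  · have hζ1 : ζ ≠ 1 := by
      rintro rfl
      rw [map_one, one_mul] at hy
      exact hne hy
    refine hu.ρ_mobius_ne (a := 1) (b := 0) (c := 0) (d := ζ) A.one_mem A.zero_mem
      A.zero_mem hζA hyW ?_ (Or.inr (Or.inr ?_))
    · simp only [map_one, map_zero]
      linear_combination hy
    · have e1 : residue ↥A ⟨1, A.one_mem⟩ = 1 := by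
        have : (⟨1, A.one_mem⟩ : ↥A) = 1 := rfl
        rw [this, map_one]
      rw [e1]
      exact goodp_residue_ne_one_of_cube_eq_one hζ hζA hζ1 h3 h30
  · have hc3 : (ζ * ε ^ 2) ^ 3 = 1 := by
      rw [mul_pow, ← pow_mul, hζ, one_mul, mul_comm 2 3, pow_mul, hε, one_pow]
    refine hu.ρ_mobius_ne (a := 1) (b := 2 * ε) (c := ζ * ε ^ 2) (d := -ζ) A.one_mem
      (A.mul_mem _ _ h2A hεA) (A.mul_mem _ _ hζA (pow_mem hεA 2)) (A.neg_mem _ hζA) hyW ?_
      (Or.inl (goodp_residue_ne_zero_of_cube_eq_one hc3 _))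
    simp only [map_one, map_mul, map_neg, map_pow, map_ofNat]
    linear_combination hy

/-- **the solutions of the Hesse equation are the tetrahedral transforms.** -/
theorem isTetrahedral_of_rel {ω : Ω} (hω : ω ^ 2 + ω + 1 = 0) {t y : 𝔽}
    (h : y ^ 3 * (y ^ 3 + 8) ^ 3 * (t ^ 3 - 1) ^ 3 = t ^ 3 * (t ^ 3 + 8) ^ 3 * (y ^ 3 - 1) ^ 3) :
    IsTetrahedral Ω t y := by
  set w : 𝔽 := algebraMap Ω 𝔽 ω with hwdef
  have hw : w ^ 2 + w + 1 = 0 := by
    rw [hwdef, ← map_pow, ← map_add, ← map_one (algebraMap Ω 𝔽), ← map_add, hω, map_zero]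
  have hω3 : ω ^ 3 = 1 := by linear_combination (ω - 1) * hω
  have hω6 : (ω ^ 2) ^ 3 = 1 := by rw [← pow_mul, mul_comm, pow_mul, hω3, one_pow]
  have hw3 : w ^ 3 = 1 := by linear_combination (w - 1) * hw
  have h12 := hesse_twelve_factor w t y hw
  have hzero : (y * (y ^ 3 + 8) * (t ^ 3 - 1)) ^ 3 - (t * (t ^ 3 + 8) * (y ^ 3 - 1)) ^ 3 = 0 := by
    linear_combination h
  rw [hzero] at h12
  have hmap2 : algebraMap Ω 𝔽 (ω ^ 2) = w ^ 2 := by rw [map_pow]
  -- the four factors of `hesQuad w t (ζ y)`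
  have hquad : ∀ (ζ : Ω), ζ ^ 3 = 1 → hesQuad w t (algebraMap Ω 𝔽 ζ * y) = 0 →
      IsTetrahedral Ω t y := by
    intro ζ hζ hq
    unfold hesQuad at hq
    rcases mul_eq_zero.mp hq with hq | hq
    · rcases mul_eq_zero.mp hq with hq | hq
      · rcases mul_eq_zero.mp hq with hq | hq
        · exact ⟨ζ, 1, hζ, one_pow 3, Or.inl (sub_eq_zero.mp hq)⟩
        · refine ⟨ζ, 1, hζ, one_pow 3, Or.inr ?_⟩
          rw [map_one]
          linear_combination hq
      · refine ⟨ζ, ω, hζ, hω3, Or.inr ?_⟩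
        linear_combination hq
    · refine ⟨ζ, ω ^ 2, hζ, hω6, Or.inr ?_⟩
      rw [hmap2]
      linear_combination hq + (algebraMap Ω 𝔽 ζ * w * t * y) * hw3
  rcases mul_eq_zero.mp h12.symm with h1 | h1
  · rcases mul_eq_zero.mp h1 with h1 | h1
    · apply hquad 1 (one_pow 3)
      rw [map_one, one_mul]
      exact h1
    · exact hquad ω hω3 h1
  · apply hquad (ω ^ 2) hω6
    rw [hmap2]
    exact h1

/-- **the fixed points of the non-trivial tetrahedral transformations lie over `j = 0, 1728`.** -/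
theorem goodp_hesse_fixed_point {K : Type*} [Field K] [CharZero K] {j₀ t₀ ζ ε : K}
    (hrel : j₀ * (t₀ ^ 3 - 1) ^ 3 = 27 * t₀ ^ 3 * (t₀ ^ 3 + 8) ^ 3) (ht : t₀ ^ 3 - 1 ≠ 0)
    (hζ : ζ ^ 3 = 1) (hε : ε ^ 3 = 1)
    (h : (ζ * t₀ = t₀ ∧ ζ ≠ 1) ∨ ζ * (ε ^ 2 * t₀ - 1) * t₀ = t₀ + 2 * ε) :
    j₀ = 0 ∨ j₀ = 1728 := by
  have hcube : (t₀ ^ 3 - 1) ^ 3 ≠ 0 := pow_ne_zero 3 ht
  have hzero : t₀ ^ 3 * (t₀ ^ 3 + 8) = 0 → j₀ = 0 := by
    intro hz
    have h3 : j₀ * (t₀ ^ 3 - 1) ^ 3 = 0 := by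
      rw [hrel]
      linear_combination (27 * (t₀ ^ 3 + 8) ^ 2) * hz
    exact (mul_eq_zero.mp h3).resolve_right hcube
  rcases h with ⟨h1, hζ1⟩ | h
  · left
    apply hzero
    have : (ζ - 1) * t₀ = 0 := by linear_combination h1
    have ht0 : t₀ = 0 := (mul_eq_zero.mp this).resolve_left (sub_ne_zero.mpr hζ1)
    rw [ht0]
    ring
  · by_cases hζ1 : ζ = 1
    · right
      subst hζ1
      have h' : ε ^ 2 * t₀ ^ 2 - 2 * t₀ - 2 * ε = 0 := by linear_combination h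
      set s := t₀ * ε ^ 2 with hs
      have hs2 : s ^ 2 - 2 * s - 2 = 0 := by
        rw [hs]
        linear_combination ε ^ 2 * h' + 2 * hε
      have hs3 : s ^ 3 = t₀ ^ 3 := by
        rw [hs]
        linear_combination (t₀ ^ 3 * (ε ^ 3 + 1)) * hε
      have hP : 27 * s ^ 3 * (s ^ 3 + 8) ^ 3 - 1728 * (s ^ 3 - 1) ^ 3 = 0 := by
        linear_combination (27 * s ^ 10 + 54 * s ^ 9 + 162 * s ^ 8 - 648 * s ^ 7 - 972 * s ^ 6
          - 3240 * s ^ 5 + 1944 * s ^ 4 - 2592 * s ^ 3 - 1296 * s ^ 2 + 864 * s - 864) * hs2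
      rw [hs3] at hP
      have h4 : (j₀ - 1728) * (t₀ ^ 3 - 1) ^ 3 = 0 := by linear_combination hrel + hP
      exact sub_eq_zero.mp ((mul_eq_zero.mp h4).resolve_right hcube)
    · left
      apply hzero
      have hq : ζ ^ 2 + ζ + 1 = 0 := by
        have : (ζ - 1) * (ζ ^ 2 + ζ + 1) = 0 := by linear_combination hζ
        exact (mul_eq_zero.mp this).resolve_left (sub_ne_zero.mpr hζ1)
      have key : ζ * ε ^ 2 * ((t₀ - ε * ζ) * (t₀ + 2 * ε * ζ)) = 0 := by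
        linear_combination h + (t₀ * ζ ^ 2 - 2 * ε * ζ ^ 3) * hε + t₀ * hq - 2 * ε * hζ
      have hne : ζ * ε ^ 2 ≠ 0 := by
        intro h0
        have : (ζ * ε ^ 2) ^ 3 = 1 := by
          rw [mul_pow, ← pow_mul, hζ, one_mul, mul_comm 2 3, pow_mul, hε, one_pow]
        rw [h0] at this
        norm_num at this
      rcases mul_eq_zero.mp ((mul_eq_zero.mp key).resolve_left hne) with h5 | h5
      · exfalso
        apply ht
        have : t₀ = ε * ζ := sub_eq_zero.mp h5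
        rw [this, mul_pow, hε, hζ]
        ring
      · have : t₀ = -(2 * ε * ζ) := eq_neg_of_add_eq_zero_left h5
        have h8 : t₀ ^ 3 + 8 = 0 := by
          rw [this]
          linear_combination (-8 * ζ ^ 3) * hε - 8 * hζ
        rw [h8, mul_zero]

end Fermat.Agent.MW

end
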