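/-
MW (S17) — helper4 — [GOOD-P] (A6)/(B2): **separation of distinct points modulo almost all primes.**

* `coord_exists_isIntegral_sep` : two distinct places at which a coordinate `x` is regular are
  separated by an element integral over `k[x]` (value `0` at the first, value `1` at the second);
* `sep_exists_primes_forall_mem_padicPlace` : finitely many elements of `Ω` are `p`-integral for almost
  all `p`;
* `legRed_ne_of_ne` : for `P ≠ P'` places of the Legendre host, the reductions of `P`, `P'` modulo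
  `p` are distinct for almost all `p`;
* `legGoodPkg_γ_eq_zero` : for `Q ≠ Q'` the Green function of the good-prime package vanishes at
  `(Q, Q')` for almost all `p` (the literal shape of `GoodFamily.γ_eq`).
-/
import Mathlib
import Fermat.Agent.MW.GOODP_helper3_Leg
import Fermat.Agent.JA.SEP_helper6_Place
import Fermat.Agent.FF.PlaceDict
import Fermat.Agent.MW.NORTH_helper8_Lp
import Fermat.Agent.FG.ERED_helper1_Final

set_option autoImplicit false
set_option linter.unusedSectionVars false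
set_option linter.style.haveILetI false

noncomputable section

namespace Fermat.Agent.MW

open AlgebraicCurve ModularCurve IsLocalRing IntermediateField Polynomial Fermat.Agent.FF
  Fermat.Agent.FF.RR
  Fermat.Agent.JA Fermat.Agent.FG Fermat.Agent.SS
open scoped Classical NNReal Pointwise

/-! ### separation by integral functions -/

section TC

variable (K F : Type*) [Field K] [Field F] [Algebra K F] [Algebra K[X] F] [Algebra (RatFunc K) F]
  [IsScalarTower K[X] (RatFunc K) F] [IsScalarTower K K[X] F] [IsScalarTower K (RatFunc K) F]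
  [FiniteDimensional (RatFunc K) F] [Algebra.IsSeparable (RatFunc K) F]

theorem exists_isIntegral_sep_TC {v v' : Place K F} (hne : v ≠ v') (hdeg' : v'.deg = 1)
    (hv : xF K F ∈ v.toValuationSubring) (hv' : xF K F ∈ v'.toValuationSubring) :
    ∃ b : F, IsIntegral K[X] b ∧ HasValueAt v b 0 ∧ HasValueAt v' b 1 := by
  have hT : ∀ Q ∈ ({v, v'} : Finset (Place K F)), ∀ r : FunctionField.ringOfIntegers K F,
      algebraMap (FunctionField.ringOfIntegers K F) F r ∈ Q.toValuationSubring := by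
    intro Q hQ r
    rw [Finset.mem_insert, Finset.mem_singleton] at hQ
    rcases hQ with rfl | rfl
    · exact ringOfIntegers_mem Q (by rwa [← xF_eq_coord]) r
    · exact ringOfIntegers_mem Q (by rwa [← xF_eq_coord]) r
  obtain ⟨a, ha0, ha⟩ := exists_algebraMap_hasValueAt_zero
    (R := FunctionField.ringOfIntegers K F) ({v, v'} : Finset (Place K F)) hT v
    (Finset.mem_insert_self _ _)
  have hmem' : algebraMap (FunctionField.ringOfIntegers K F) F a ∈ v'.toValuationSubring :=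
    hT v' (by simp) a
  obtain ⟨c', hc'⟩ := HasValueAt.exists_of_mem hdeg' hmem'
  have hc'0 : c' ≠ 0 := by
    rintro rfl
    exact ha v' (by simp) (Ne.symm hne) hc'
  refine ⟨algebraMap K F c'⁻¹ * algebraMap (FunctionField.ringOfIntegers K F) F a, ?_, ?_, ?_⟩
  · refine IsIntegral.mul ?_ a.2
    rw [IsScalarTower.algebraMap_apply K K[X] F]
    exact isIntegral_algebraMap
  · have := (HasValueAt.algebraMap' v c'⁻¹).mul ha0
    rwa [mul_zero] at this
  · have := (HasValueAt.algebraMap' v' c'⁻¹).mul hc'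
    rwa [inv_mul_cancel₀ hc'0] at this

end TC

/-- **separation by an integral function**: two distinct places at which the coordinate `c.x` is
regular are separated by a function `b` integral over `k[c.x]`, in polynomial form. -/
theorem coord_exists_isIntegral_sep {k F : Type*} [Field k] [Field F] [Algebra k F] [CharZero k]
    (c : Coord k F) {v v' : Place k F} (hne : v ≠ v') (hdeg' : v'.deg = 1)
    (hv : c.x ∈ v.toValuationSubring) (hv' : c.x ∈ v'.toValuationSubring) :
    ∃ (b : F) (q : Polynomial (Polynomial k)), q.Monic ∧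
      eval₂ ((aeval c.x : k[X] →ₐ[k] F) : k[X] →+* F) b q = 0 ∧
      HasValueAt v b 0 ∧ HasValueAt v' b 1 := by
  obtain ⟨i1, i2, i3, i4, i5, i6, i7, hx⟩ := c.exists_typeclass_setting
  obtain ⟨b, ⟨q, hq, hq0⟩, hb0, hb1⟩ := exists_isIntegral_sep_TC k F hne hdeg'
    (by rw [hx]; exact hv) (by rw [hx]; exact hv')
  refine ⟨b, q, hq, ?_, hb0, hb1⟩
  have : (algebraMap k[X] F : k[X] →+* F) = ((aeval c.x : k[X] →ₐ[k] F) : k[X] →+* F) := by
    ext p
    · simp [← hx, algebraMap_poly_eq_aeval_xF]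
    · simp [← hx, algebraMap_poly_eq_aeval_xF]
  rw [← this]
  exact hq0

/-! ### almost all primes -/

local notation "Ω" => AlgebraicClosure ℚ

/-- finitely many elements of `Ω` are `p`-integral for almost all `p`. -/
theorem sep_exists_primes_forall_mem_padicPlace (S : Finset Ω) :
    ∃ T : Finset Nat.Primes, ∀ p ∉ T, ∀ x ∈ S, x ∈ padicPlace (p : ℕ) := by
  have hfin : (⋃ x ∈ S, {p : Nat.Primes | ¬ absv (some p) x ≤ 1}).Finite :=
    Set.Finite.biUnion S.finite_toSet (fun x _ => absv_some_le_one_finite x)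
  refine ⟨hfin.toFinset, fun p hp x hx => ?_⟩
  rw [mem_padicPlace_iff_absv]
  by_contra h
  apply hp
  rw [Set.Finite.mem_toFinset]
  exact Set.mem_biUnion hx h

/-- the coefficients (in the base field) of a polynomial in two variables. -/
def sepCoeffs₂ {K : Type*} [Field K] (q : Polynomial (Polynomial K)) : Finset K :=
  q.support.biUnion fun i => (q.coeff i).coeffs

theorem sep_coeff_coeff_mem_of_subset {K : Type*} [Field K] (q : Polynomial (Polynomial K))
    (A : ValuationSubring K) (h : ∀ x ∈ sepCoeffs₂ q, x ∈ A) (i j : ℕ) :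
    (q.coeff i).coeff j ∈ A := by
  by_cases h0 : (q.coeff i).coeff j = 0
  · rw [h0]; exact A.zero_mem
  · apply h
    have hi : q.coeff i ≠ 0 := by
      intro hi
      rw [hi, coeff_zero] at h0
      exact h0 rfl
    exact Finset.mem_biUnion.mpr ⟨i, mem_support_iff.mpr hi, coeff_mem_coeffs h0⟩

/-- an element integral over `K[s]` through a polynomial with coefficients in `A` is integral
over `A[s]`. -/
theorem sep_mem_intSet_of_eval₂ {K E : Type*} [Field K] [Field E] [Algebra K E]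
    (A : ValuationSubring K) (s b : E) (q : Polynomial (Polynomial K)) (hq : q.Monic)
    (h0 : eval₂ ((aeval s : K[X] →ₐ[K] E) : K[X] →+* E) b q = 0)
    (hA : ∀ i j, (q.coeff i).coeff j ∈ A) : b ∈ intSet A s := by
  refine isIntegral_subring_iff.mpr
    ⟨q.map ((aeval s : K[X] →ₐ[K] E) : K[X] →+* E), hq.map _, fun n => ?_, ?_⟩
  · rw [coeff_map]
    show aeval s (q.coeff n) ∈ intRing A s
    rw [aeval_eq_sum_range]
    refine sum_mem fun i _ => ?_
    rw [Algebra.smul_def]
    exact (intRing A s).mul_mem (algebraMap_mem_intRing (hA n i)) (pow_mem self_mem_intRing i)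
  · rw [eval_map]
    exact h0

/-! ### the Legendre host -/

section Leg

variable (N : ℕ) [NeZero N]

theorem sep_legTΩ_eq_legTE : legTΩ N = legTE Ω N := Subtype.ext rfl

theorem sep_legTΩ_eq_legCoordBar_x : legTΩ N = (legCoordBar N).x := Subtype.ext rfl

variable {ℓ : ℕ} [Fact ℓ.Prime] {A : ValuationSubring Ω} (hA : A.LiesOverPrime ℓ)
  (hℓN : ¬ ℓ ∣ N) (hℓ2 : ℓ ≠ 2)

theorem sep_legTΩ_mem_legWE : legTΩ N ∈ legWE hA N hℓ2 := by
  rw [sep_legTΩ_eq_legCoordBar_x]
  exact legCoordBar_x_mem_legWE hA N hℓ2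

include hℓN in
theorem sep_legTΩ_inv_mem_legWE : (legTΩ N)⁻¹ ∈ legWE hA N hℓ2 := by
  rw [sep_legTΩ_eq_legTE]
  exact ((isGaussCoord_legTE N hA hℓN hℓ2).anharmonic (Or.inr (Or.inr (Or.inl rfl)))).mem

theorem sep_mem_legWE_of_mem_intSet {f : ↥(legE Ω N)} (hf : f ∈ intSet A (legTΩ N)) :
    f ∈ legWE hA N hℓ2 :=
  mem_of_mem_intSet (legWE hA N hℓ2) (fun a ha => (algebraMap_mem_legWE_iff hA N hℓ2 a).mpr ha)
    (sep_legTΩ_mem_legWE N hA hℓ2) hf

include hℓN in
theorem sep_mem_legWE_of_mem_intSet_inv {f : ↥(legE Ω N)} (hf : f ∈ intSet A (legTΩ N)⁻¹) :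
    f ∈ legWE hA N hℓ2 :=
  mem_of_mem_intSet (legWE hA N hℓ2) (fun a ha => (algebraMap_mem_legWE_iff hA N hℓ2 a).mpr ha)
    (sep_legTΩ_inv_mem_legWE N hA hℓN hℓ2) hf

include hℓN in
/-- separation in the first chart. -/
theorem legRed_ne_of_sep₁ {P P' : Place Ω ↥(legE Ω N)} (hP : HasIntValue A (legTΩ N) P)
    (hP' : HasIntValue A (legTΩ N) P') {b : ↥(legE Ω N)} (hb : b ∈ intSet A (legTΩ N))
    (hb0 : HasValueAt P b 0) (hb1 : HasValueAt P' b 1) :
    legRed hA N hℓ2 P ≠ legRed hA N hℓ2 P' := by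
  intro heq
  have hbW := sep_mem_legWE_of_mem_intSet N hA hℓ2 hb
  have h0 := legR_hasValueAt₁_final hA N hℓN hℓ2 (legCuspb hA N hℓ2) hP hb hbW (0 : ↥A) hb0
  have h1 := legR_hasValueAt₁_final hA N hℓN hℓ2 (legCuspb hA N hℓ2) hP' hb hbW (1 : ↥A) hb1
  have heq' : legR hA N hℓ2 (legCuspb hA N hℓ2) P = legR hA N hℓ2 (legCuspb hA N hℓ2) P' := heq
  rw [heq'] at h0
  have := h0.unique h1
  rw [map_zero, map_one] at this
  exact zero_ne_one this

include hℓN in
/-- separation in the second chart. -/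
theorem legRed_ne_of_sep₂ {P P' : Place Ω ↥(legE Ω N)} (hP : ¬ HasIntValue A (legTΩ N) P)
    (hP' : ¬ HasIntValue A (legTΩ N) P') {b : ↥(legE Ω N)} (hb : b ∈ intSet A (legTΩ N)⁻¹)
    (hb0 : HasValueAt P b 0) (hb1 : HasValueAt P' b 1) :
    legRed hA N hℓ2 P ≠ legRed hA N hℓ2 P' := by
  intro heq
  have hbW := sep_mem_legWE_of_mem_intSet_inv N hA hℓN hℓ2 hb
  have h0 := legR_hasValueAt₂_final hA N hℓN hℓ2 (legCuspb hA N hℓ2) hP hb hbW (0 : ↥A) hb0
  have h1 := legR_hasValueAt₂_final hA N hℓN hℓ2 (legCuspb hA N hℓ2) hP' hb hbW (1 : ↥A) hb1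
  have heq' : legR hA N hℓ2 (legCuspb hA N hℓ2) P = legR hA N hℓ2 (legCuspb hA N hℓ2) P' := heq
  rw [heq'] at h0
  have := h0.unique h1
  rw [map_zero, map_one] at this
  exact zero_ne_one this

include hℓN in
/-- points in different charts have different reductions. -/
theorem legRed_ne_of_mixed {P P' : Place Ω ↥(legE Ω N)} (hP : HasIntValue A (legTΩ N) P)
    (hP' : ¬ HasIntValue A (legTΩ N) P') :
    legRed hA N hℓ2 P ≠ legRed hA N hℓ2 P' := by
  intro heq
  have heq' : legR hA N hℓ2 (legCuspb hA N hℓ2) P = legR hA N hℓ2 (legCuspb hA N hℓ2) P' := heq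
  apply hP'
  rw [legR_hasIntValue_iff_final hA N hℓN hℓ2 (legCuspb hA N hℓ2) P' (sep_legTΩ_mem_legWE N hA hℓ2)
    (sep_legTΩ_inv_mem_legWE N hA hℓN hℓ2), ← heq',
    ← legR_hasIntValue_iff_final hA N hℓN hℓ2 (legCuspb hA N hℓ2) P (sep_legTΩ_mem_legWE N hA hℓ2)
    (sep_legTΩ_inv_mem_legWE N hA hℓN hℓ2)]
  exact hP

end Leg

/-! ### the main theorem -/

section Main

variable (N : ℕ) [NeZero N]

theorem sep_not_hasIntValue_of_not_mem {A : ValuationSubring Ω} {P : Place Ω ↥(legE Ω N)}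
    (h : legTΩ N ∉ P.toValuationSubring) : ¬ HasIntValue A (legTΩ N) P := by
  rintro ⟨a, -, ha⟩
  exact h ha.mem

/-- **(B2)** the reductions modulo `p` of two distinct points of the Legendre host are distinct for
almost all `p`. -/
theorem legRed_ne_of_ne {P P' : Place Ω ↥(legE Ω N)} (hne : P ≠ P') :
    ∃ T : Finset Nat.Primes, ∀ p ∉ T, ∀ (hpN : ¬ (p : ℕ) ∣ N) (hp2 : (p : ℕ) ≠ 2),
      (legGoodRed (Fermat.Agent.TW.Kill.padicPlace_liesOverPrime (p : ℕ)) N hpN hp2).r P ≠
        (legGoodRed (Fermat.Agent.TW.Kill.padicPlace_liesOverPrime (p : ℕ)) N hpN hp2).r P' := by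
  by_cases hP : legTΩ N ∈ P.toValuationSubring
  · obtain ⟨a₀, ha₀⟩ := HasValueAt.exists_of_mem (legE_deg_gen N P) hP
    by_cases hP' : legTΩ N ∈ P'.toValuationSubring
    · -- both in the first chart
      obtain ⟨a₀', ha₀'⟩ := HasValueAt.exists_of_mem (legE_deg_gen N P') hP'
      obtain ⟨b, q, hq, hq0, hb0, hb1⟩ := coord_exists_isIntegral_sep (legCoordBar N) hne
        (legE_deg_gen N P') (by rw [← sep_legTΩ_eq_legCoordBar_x]; exact hP)
        (by rw [← sep_legTΩ_eq_legCoordBar_x]; exact hP')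
      rw [← sep_legTΩ_eq_legCoordBar_x] at hq0
      obtain ⟨T, hT⟩ := sep_exists_primes_forall_mem_padicPlace (insert a₀ (insert a₀' (sepCoeffs₂ q)))
      refine ⟨T, fun p hp hpN hp2 => ?_⟩
      have hS := hT p hp
      refine legRed_ne_of_sep₁ N (Fermat.Agent.TW.Kill.padicPlace_liesOverPrime (p : ℕ)) hpN hp2
        ⟨a₀, hS a₀ (by simp), ha₀⟩ ⟨a₀', hS a₀' (by simp), ha₀'⟩
        (sep_mem_intSet_of_eval₂ _ _ b q hq hq0
          (sep_coeff_coeff_mem_of_subset q _ fun x hx => hS x (by simp [hx]))) hb0 hb1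
    · -- mixed
      obtain ⟨T, hT⟩ := sep_exists_primes_forall_mem_padicPlace {a₀}
      refine ⟨T, fun p hp hpN hp2 => ?_⟩
      exact legRed_ne_of_mixed N (Fermat.Agent.TW.Kill.padicPlace_liesOverPrime (p : ℕ)) hpN hp2
        ⟨a₀, hT p hp a₀ (by simp), ha₀⟩ (sep_not_hasIntValue_of_not_mem N hP')
  · by_cases hP' : legTΩ N ∈ P'.toValuationSubring
    · -- mixed
      obtain ⟨a₀', ha₀'⟩ := HasValueAt.exists_of_mem (legE_deg_gen N P') hP'
      obtain ⟨T, hT⟩ := sep_exists_primes_forall_mem_padicPlace {a₀'}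
      refine ⟨T, fun p hp hpN hp2 => ?_⟩
      exact (legRed_ne_of_mixed N (Fermat.Agent.TW.Kill.padicPlace_liesOverPrime (p : ℕ)) hpN hp2
        ⟨a₀', hT p hp a₀' (by simp), ha₀'⟩ (sep_not_hasIntValue_of_not_mem N hP)).symm
    · -- both in the second chart
      have hPi : (legTΩ N)⁻¹ ∈ P.toValuationSubring :=
        (P.toValuationSubring.mem_or_inv_mem (legTΩ N)).resolve_left hP
      have hPi' : (legTΩ N)⁻¹ ∈ P'.toValuationSubring :=
        (P'.toValuationSubring.mem_or_inv_mem (legTΩ N)).resolve_left hP'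
      obtain ⟨b, q, hq, hq0, hb0, hb1⟩ := coord_exists_isIntegral_sep (legCoordBar N).inv hne
        (legE_deg_gen N P') (by rw [Coord.inv_x, ← sep_legTΩ_eq_legCoordBar_x]; exact hPi)
        (by rw [Coord.inv_x, ← sep_legTΩ_eq_legCoordBar_x]; exact hPi')
      rw [Coord.inv_x, ← sep_legTΩ_eq_legCoordBar_x] at hq0
      obtain ⟨T, hT⟩ := sep_exists_primes_forall_mem_padicPlace (sepCoeffs₂ q)
      refine ⟨T, fun p hp hpN hp2 => ?_⟩
      have hS := hT p hp
      refine legRed_ne_of_sep₂ N (Fermat.Agent.TW.Kill.padicPlace_liesOverPrime (p : ℕ)) hpN hp2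
        (sep_not_hasIntValue_of_not_mem N hP) (sep_not_hasIntValue_of_not_mem N hP')
        (sep_mem_intSet_of_eval₂ _ _ b q hq hq0
          (sep_coeff_coeff_mem_of_subset q _ hS)) hb0 hb1

/-- the exceptional primes for a pair of points of the host. -/
def legSepT (P P' : Place Ω ↥(legE Ω N)) : Finset Nat.Primes :=
  if h : P ≠ P' then (legRed_ne_of_ne N h).choose else ∅

theorem legSepT_spec {P P' : Place Ω ↥(legE Ω N)} (hne : P ≠ P') {p : Nat.Primes}
    (hp : p ∉ legSepT N P P') (hpN : ¬ (p : ℕ) ∣ N) (hp2 : (p : ℕ) ≠ 2) :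
    (legGoodRed (Fermat.Agent.TW.Kill.padicPlace_liesOverPrime (p : ℕ)) N hpN hp2).r P ≠
      (legGoodRed (Fermat.Agent.TW.Kill.padicPlace_liesOverPrime (p : ℕ)) N hpN hp2).r P' := by
  rw [legSepT, dif_pos hne] at hp
  exact (legRed_ne_of_ne N hne).choose_spec p hp hpN hp2

/-- **(A6), the Green function**: for `Q ≠ Q'` the Green function of the package at a good odd
prime vanishes at `(Q, Q')` for almost all `p`. -/
theorem legGoodPkg_γ_eq_zero (𝔡 : DiffDatum N) (Zp : Finset (PtN N))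
    (hZK : ∀ P : PtN N, 𝔡.K0 P ≠ 0 → P ∈ Zp) (hZ : ∀ P : PtN N, ArchBad N P → P ∈ Zp)
    {Q Q' : PtN N} (hne : Q ≠ Q') :
    ∃ T : Finset Nat.Primes, ∀ p ∉ T, ∀ (hpN : ¬ (p : ℕ) ∣ N) (hp2 : (p : ℕ) ≠ 2),
      (legGoodPkg N 𝔡 p hpN hp2 Zp hZK hZ).γ Q Q' = 0 := by
  haveI : HasPrincipalDivisors Ω ↥(legE Ω N) := legE_principal_gen N
  refine ⟨(Place.fiberAlong (fullToLegE Ω N) (isIntegral_fullToLegE_bar N) Q).biUnion fun W =>
    (Place.fiberAlong (fullToLegE Ω N) (isIntegral_fullToLegE_bar N) Q').biUnion fun W' =>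
      legSepT N W W', fun p hp hpN hp2 => ?_⟩
  show descGreen (legGoodRed (Fermat.Agent.TW.Kill.padicPlace_liesOverPrime (p : ℕ)) N hpN hp2)
    (padicVal (p : ℕ)) (fullToLegE Ω N) (isIntegral_fullToLegE_bar N)
    (finrankAlong Ω (fullToLegE Ω N)) Q Q' = 0
  rw [descGreen, fibSum]
  apply mul_eq_zero_of_right
  apply Finset.sum_eq_zero
  intro W' hW'
  apply mul_eq_zero_of_right
  rw [fibSum]
  apply Finset.sum_eq_zero
  intro W hW
  apply mul_eq_zero_of_right
  have hWW' : W ≠ W' := by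
    rintro rfl
    exact hne ((Place.mem_fiberAlong.mp hW).symm.trans (Place.mem_fiberAlong.mp hW'))
  apply hostGreen_of_ne
  apply legSepT_spec N hWW'
  intro hmem
  exact hp (Finset.mem_biUnion.mpr ⟨W, hW, Finset.mem_biUnion.mpr ⟨W', hW', hmem⟩⟩)

end Main

end Fermat.Agent.MW

end
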