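import Mathlib
import Fermat.Agent.MW.NADIC_helper1_NodeDictAux
import Fermat.Agent.MW.NADIC_helper6_NodeBC

/-!
# Project MW (S17) — [N-ADIC] helper1, [NODE-SPEC]: `hcomp` and the node dictionary from a
one-clause specification of the atlas over the base `K₀`

* `NodeAtlasSpec` : every node of the chart `j` over `R₀` is labelled by an index `s` of the atlas
  `W`, with `W.j₀ s` a lift of its `j`-residue and `W.X s` the image of a node coordinate of a node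
  datum at it;
* `hcomp_of_spec` : every point of the kind `KNode` lies on the annulus of some node;
* `nodeDict_of_spec` : the node dictionary `NodeDict`.
-/

set_option autoImplicit false
set_option linter.unusedSectionVars false
set_option linter.unusedVariables false
set_option linter.style.haveILetI false
set_option synthInstance.maxHeartbeats 200000

open IntermediateField AlgebraicCurve ModularCurve

noncomputable section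

namespace Fermat.Agent.MW.OneCell

open Fermat.Agent.JA Fermat.Agent.FF Fermat.Agent.SS Fermat.Agent.Igusa Fermat.Agent.X0N
  Fermat.Agent.MW Fermat.Agent.MW.NAdic

open scoped Fermat.Agent.JA.Host

attribute [local instance] baseToComplex

/-- `Ω = AlgebraicClosure ℚ`. -/
local notation "Ω" => AlgebraicClosure ℚ

variable (p : Nat.Primes) {q : ℕ} [NeZero q] [NeZero (1 * q)] {x y : ℤ}
  (h : (q : ℤ) * x + ((1 : ℕ) : ℤ) * y = 1) (hq : q.Prime) (hpq : (p : ℕ) = q)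
  (K₀ : IntermediateField ℚ Ω) [IsDiscreteValuationRing (R1 p K₀)]
  {π₀ : R1 p K₀} (hπ₀ : Irreducible π₀) (W : NodeCharts q)

/-- **the specification of the atlas**: every node of the chart `j` over `R₀` is labelled by the
atlas. -/
def NodeAtlasSpec : Prop :=
  ∀ (𝔪 : Ideal ↥(chartOne (R1 p K₀) (E1 q K₀) (gJ K₀))) (h𝔪 : 𝔪.IsMaximal),
    sheetIdeal (gJ K₀) (Winf1 p q K₀) (mdl h hq hπ₀ hpq).two.chart_le_inf ≤ 𝔪 →
    sheetIdeal (gJ K₀) (W01 p q K₀ h hq) (mdl h hq hπ₀ hpq).two.chart_le_zero ≤ 𝔪 →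
    ∃ (s : Fin W.nn) (ζ : R1 p K₀) (X Y : E1 q K₀) (m : ℕ),
      W.j₀ s = (((ζ : R1 p K₀) : ↥K₀) : Ω) ∧
      J1 q K₀ - algebraMap (R1 p K₀) (E1 q K₀) ζ ∈
        locMax (chartOne (R1 p K₀) (E1 q K₀) (gJ K₀)) 𝔪 ∧
      (haveI := h𝔪.isPrime
       NodeDatum π₀ 𝔪 (J1 q K₀ - Jq1 q K₀ ^ q) (Jq1 q K₀ - J1 q K₀ ^ q) X Y m) ∧
      limPhi q K₀ X = W.X s

variable {K₀ W}

include hπ₀ in
/-- the label of the node at which a point is centred. -/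
theorem exists_label_of_centredAt (hK₀ : IsBase (p : ℕ) K₀)
    (hspec : NodeAtlasSpec p h hq hpq K₀ hπ₀ W)
    {K₁ : IntermediateField ℚ Ω} [IsDiscreteValuationRing (R1 p K₁)]
    (hK₁ : IsBase (p : ℕ) K₁) (h01 : K₀ ≤ K₁) {π₁ : R1 p K₁} (hπ₁ : Irreducible π₁)
    {Q : PtN (1 * q)} (hrat : IsRationalPlace (ptResW q K₁ Q))
    (𝔪₁ : Ideal ↥(chartOne (R1 p K₁) (E1 q K₁) (gJ K₁))) [h𝔪₁ : 𝔪₁.IsMaximal]
    (hinf : sheetIdeal (gJ K₁) (Winf1 p q K₁) (mdl h hq hπ₁ hpq).two.chart_le_inf ≤ 𝔪₁)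
    (h0 : sheetIdeal (gJ K₁) (W01 p q K₁ h hq) (mdl h hq hπ₁ hpq).two.chart_le_zero ≤ 𝔪₁)
    (hc : CentredAt 𝔪₁ (ptResW q K₁ Q)) :
    ∃ (s : Fin W.nn) (X Y : E1 q K₀) (m : ℕ),
      absv (some p) (jv q Q - W.j₀ s) < 1 ∧
      (haveI := h𝔪₁.isPrime
       NodeDatum π₀ (𝔪₁.comap (chartBC p h01)) (J1 q K₀ - Jq1 q K₀ ^ q)
        (Jq1 q K₀ - J1 q K₀ ^ q) X Y m) ∧
      limPhi q K₀ X = W.X s := by
  have M₀ := mdl h hq hπ₀ hpq
  have M₁ := mdl h hq hπ₁ hpq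
  haveI h𝔪₁p := h𝔪₁.isPrime
  have hLO : (padicPlace (p : ℕ)).LiesOverPrime (p : ℕ) :=
    Fermat.Agent.TW.Kill.padicPlace_liesOverPrime (p : ℕ)
  haveI : IsAlgClosed (IsLocalRing.ResidueField (R1 p K₁)) := hK₁.isAlgClosed_residueField hLO
  haveI : IsFractionRing ↥(chartOne (R1 p K₁) (E1 q K₁) (gJ K₁)) (E1 q K₁) :=
    isFractionRing_chartOne (K₁ := ↥K₁) (gJ K₁) M₁.j_adjoin
  have hπ𝔪₁ : algebraMap (R1 p K₁) ↥(chartOne (R1 p K₁) (E1 q K₁) (gJ K₁)) π₁ ∈ 𝔪₁ :=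
    hinf (IsTwoSheet.pi_mem_inf (K₁ := ↥K₁) M₁.two hπ₁)
  obtain ⟨hmax₀, -⟩ := comap_chartBC_isMaximal p h01 hπ₁ hK₀ hK₁ 𝔪₁ hπ𝔪₁
  have hinf₀ := sheetInf_le_comap_chartBC p h01 M₀.two.chart_le_inf M₁.two.chart_le_inf 𝔪₁ hinf
  have h0₀ := sheetZero_le_comap_chartBC p h01 h hq M₀.two.chart_le_zero M₁.two.chart_le_zero
    𝔪₁ h0
  obtain ⟨s, ζ, X, Y, m, hj₀, hloc, hd, hX⟩ := hspec _ hmax₀ hinf₀ h0₀
  refine ⟨s, X, Y, m, ?_, hd, hX⟩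
  have hloc₁ := oneBC_mem_locMax p h01 𝔪₁ hloc
  rw [map_sub, oneBC_oneHostA_gen, oneBC_algebraMap_baseRing] at hloc₁
  have hJloc : J1 q K₁ ∈ locRing (chartOne (R1 p K₁) (E1 q K₁) (gJ K₁)) 𝔪₁ :=
    le_locRing M₁.A_t_mem
  obtain ⟨ζQ, hζQ, -⟩ := exists_value_of_centredAt (ptResW q K₁ Q) hrat _ hπ₁ 𝔪₁ hπ𝔪₁ hc hJloc
  have hmem := value_sub_mem_maximalIdeal (ptResW q K₁ Q) hrat _ hπ₁ 𝔪₁ hπ𝔪₁ hc hζQ hloc₁
  rw [jv_eq_of_hasValueAt hζQ, hj₀]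
  exact (absv_sub_lt_one_iff p ζQ (baseRingIncl (padicPlace (p : ℕ)) h01 ζ)).mpr hmem

include hπ₀ in
/-- **`hcomp`**: every point of the kind `KNode` lies on the annulus of some node of the atlas. -/
theorem hcomp_of_spec (hK₀ : IsBase (p : ℕ) K₀) (hspec : NodeAtlasSpec p h hq hpq K₀ hπ₀ W)
    (Q : PtN (1 * q)) (hQ : KNode p q Q) : ∃ s, absv (some p) (jv q Q - W.j₀ s) < 1 := by
  obtain ⟨K₁, hK₁, h01, -, -, hratS⟩ := exists_galBase_descentW (q := q) hK₀ ∅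
    (fun _ : Unit => (1 : FunN (1 * q))) {Q}
  have hrat := hratS Q (Finset.mem_singleton_self Q)
  have hLO : (padicPlace (p : ℕ)).LiesOverPrime (p : ℕ) :=
    Fermat.Agent.TW.Kill.padicPlace_liesOverPrime (p : ℕ)
  haveI : IsDiscreteValuationRing (R1 p K₁) := hK₁.isBase.isDiscreteValuationRing hLO
  haveI : IsAlgClosed (IsLocalRing.ResidueField (R1 p K₁)) :=
    hK₁.isBase.isAlgClosed_residueField hLO
  obtain ⟨π₁, hπ₁⟩ := IsDiscreteValuationRing.exists_irreducible (R1 p K₁)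
  obtain ⟨𝔪₁, h𝔪₁, hc, hinf, h0⟩ := (kNode_iff p h hq hpq hπ₁ hrat).mp hQ
  haveI := h𝔪₁
  obtain ⟨s, -, -, -, habs, -, -⟩ := exists_label_of_centredAt p h hq hpq hπ₀ hK₀ hspec hK₁.isBase
    h01 hπ₁ hrat 𝔪₁ hinf h0 hc
  exact ⟨s, habs⟩

include hπ₀ in
/-- **the node dictionary** from the specification of the atlas. -/
theorem nodeDict_of_spec (hK₀ : IsBase (p : ℕ) K₀)
    (hsep : ∀ s s' : Fin W.nn, absv (some p) (W.j₀ s - W.j₀ s') < 1 → s = s')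
    (hspec : NodeAtlasSpec p h hq hpq K₀ hπ₀ W) : NodeDict p h hq hpq W K₀ := by
  intro K₁ _ hK₁ h01 π₁ hπ₁ s Q hrat hQs
  have hLO : (padicPlace (p : ℕ)).LiesOverPrime (p : ℕ) :=
    Fermat.Agent.TW.Kill.padicPlace_liesOverPrime (p : ℕ)
  haveI : IsAlgClosed (IsLocalRing.ResidueField (R1 p K₁)) := hK₁.isAlgClosed_residueField hLO
  obtain ⟨𝔪₁, h𝔪₁, hc, hinf, h0⟩ := (kNode_iff p h hq hpq hπ₁ hrat).mp hQs.1
  haveI := h𝔪₁
  haveI h𝔪₁p := h𝔪₁.isPrime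
  obtain ⟨s', X, Y, m, habs, hd, hX⟩ := exists_label_of_centredAt p h hq hpq hπ₀ hK₀ hspec hK₁
    h01 hπ₁ hrat 𝔪₁ hinf h0 hc
  have hss : s = s' := by
    apply hsep
    have e : W.j₀ s - W.j₀ s' = (jv q Q - W.j₀ s') + -(jv q Q - W.j₀ s) := by ring
    rw [e]
    refine lt_of_le_of_lt (absv_some_add_le_max p _ _) (max_lt habs ?_)
    rw [absv_neg]
    exact hQs.2
  subst hss
  obtain ⟨e, u, he, hu, hd₁⟩ := nodeDatum_oneBC p h01 hπ₀ hπ₁ 𝔪₁ hd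
  have hnc := SSModel.isNodeCoord_of_nodeDatum (mdl h hq hπ₁ hpq) hπ₁ (mdl_hk0 h hq hπ₁ hpq) 𝔪₁
    hinf h0 hd₁
  refine ⟨𝔪₁, h𝔪₁, hc, hinf, h0, ⟨oneBC h01 X, e * m, hnc, ?_⟩, fun P hP => ?_⟩
  · rw [limPhi_oneBC, hX]
  · exact centredAt_iff_inAnn p h hq hpq hπ₁ W hrat hP 𝔪₁ hinf h0 hc hQs

end Fermat.Agent.MW.OneCell
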