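import Mathlib
import Fermat.Agent.MW.NADIC_helper1_Final
import Fermat.Agent.MW.NADIC_helper1_NodeSpec
import Fermat.Agent.MW.NADIC_helper9_NodeCF
import Fermat.Agent.MW.NADIC_helper3_CuspCF

/-!
# Project MW (S17) — [N-ADIC] helper1, [FINAL-2]: `NadicInput N hN` from the atlas of the nodes over
a base `K₀`, its separation and its specification

Everything else is plugged in: the four disc cell formulas (`NADIC_helper1_DiscCF`,
`NADIC_helper3_CuspCF`), the node cell formula (`NADIC_helper9_NodeCF`) through the node dictionary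
(`NADIC_helper1_NodeSpec`), the global bound (`NADIC_helper9_GlobOm`).
-/

set_option autoImplicit false
set_option linter.unusedSectionVars false
set_option linter.unusedVariables false

open AlgebraicCurve ModularCurve

noncomputable section

namespace Fermat.Agent.MW

open Fermat.Agent.JA Fermat.Agent.FF Fermat.Agent.X0N Fermat.Agent.MW.OneCell

/-- `Ω = AlgebraicClosure ℚ`. -/
local notation "Ω" => AlgebraicClosure ℚ

/-- **`NadicInput N hN`** from an atlas `W` of the nodes over a base `K₀`, separated, labelling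
every node. -/
theorem nadicInput_of_spec {N : ℕ} [NeZero N] [NeZero (1 * N)] (hN : N.Prime) {x y : ℤ}
    (h : (N : ℤ) * x + ((1 : ℕ) : ℤ) * y = 1)
    (K₀ : IntermediateField ℚ Ω) [IsDiscreteValuationRing (R1 ⟨N, hN⟩ K₀)]
    (hK₀ : IsBase N K₀) {π₀ : R1 ⟨N, hN⟩ K₀} (hπ₀ : Irreducible π₀) (W : NodeCharts N)
    (hsep : ∀ s s' : Fin W.nn, absv (some ⟨N, hN⟩) (W.j₀ s - W.j₀ s') < 1 → s = s')
    (hspec : NodeAtlasSpec ⟨N, hN⟩ h hN rfl K₀ hπ₀ W) : NadicInput N hN :=
  nadicInput_of_nodeCharts hN h W hsep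
    (hcomp_of_spec ⟨N, hN⟩ h hN rfl hπ₀ hK₀ hspec)
    (discCF_cuspInf ⟨N, hN⟩ h hN rfl) (discCF_cuspZero ⟨N, hN⟩ h hN rfl)
    (nodeCF_of_nodeDict ⟨N, hN⟩ h hN rfl W K₀ hK₀
      (nodeDict_of_spec ⟨N, hN⟩ h hN rfl hπ₀ hK₀ hsep hspec))

end Fermat.Agent.MW
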