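import Mathlib
import Fermat.Agent.MW.NADIC_helper1_Setup

/-!
# Project MW (S17) — [N-ADIC] helper1, [NODE-VAL]: from the value formula on the cell of a node to
the `Ω`-level formula

* `cf_of_cell_value_gen` : `cf_of_cell_value` with an arbitrary nonzero constant `c ∈ K₁` in place of
  `π^a`;
* `cf_of_node_value` : the node case, `c = π^ainf · ξ_Q^k` (the shape of the conclusion of
  `SSModel.node_value`): the logarithm of the value is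
  `ainf · lg π + k · lg X(Q) + ∑_{P ≠ Q} D P · lg (X(P) - X(Q))`.
-/

set_option autoImplicit false
set_option linter.unusedSectionVars false
set_option linter.unusedVariables false
set_option linter.style.haveILetI false

open scoped BigOperators

open AlgebraicCurve ModularCurve IntermediateField

namespace Fermat.Agent.MW

open Fermat.Agent.JA Fermat.Agent.FF Fermat.Agent.SS Fermat.Agent.Igusa Fermat.Agent.X0N

noncomputable section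

/-- `Ω = AlgebraicClosure ℚ`. -/
local notation "Ω" => AlgebraicClosure ℚ

section Dict

variable (p : Nat.Primes) {q : ℕ} [NeZero q] [NeZero (1 * q)] (K₁ : IntermediateField ℚ Ω)

open Classical in
/-- **the dictionary, general constant**: from a value formula over `K₁` on the cell of `Q` (with
an arbitrary constant `c ≠ 0`) to the cell formula over `Ω`. -/
theorem cf_of_cell_value_gen (Q : PtN (1 * q)) {x z₁ : ↥(keyFw ↥K₁ (1 * q) 1)} (hx : x ≠ 0)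
    {D : PtN (1 * q) →₀ ℤ} (hD : IsDivOf (1 * q) (limPhi q K₁ x) D)
    (S : Finset (PtN (1 * q))) (hSD : ∀ P ∈ S, D P ≠ 0)
    (hSrat : ∀ P ∈ S, IsRationalPlace (ptResW q K₁ P))
    (ζ : Place ↥K₁ ↥(keyFw ↥K₁ (1 * q) 1) → ↥(baseRing (padicPlace (p : ℕ)) K₁))
    (hζ : ∀ P ∈ S, HasValueAt (ptResW q K₁ P) z₁
      (algebraMap ↥(baseRing (padicPlace (p : ℕ)) K₁) ↥K₁ (ζ (ptResW q K₁ P))))
    (hζQ : HasValueAt (ptResW q K₁ Q) z₁
      (algebraMap ↥(baseRing (padicPlace (p : ℕ)) K₁) ↥K₁ (ζ (ptResW q K₁ Q))))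
    {c : ↥K₁} (hc0 : c ≠ 0)
    (w : (↥(baseRing (padicPlace (p : ℕ)) K₁))ˣ)
    (hord : (ptResW q K₁ Q).ord (z₁ - algebraMap ↥K₁ ↥(keyFw ↥K₁ (1 * q) 1)
      (algebraMap ↥(baseRing (padicPlace (p : ℕ)) K₁) ↥K₁ (ζ (ptResW q K₁ Q)))) = 1)
    (hval : HasValueAt (ptResW q K₁ Q)
      (x * ((z₁ - algebraMap ↥K₁ ↥(keyFw ↥K₁ (1 * q) 1)
        (algebraMap ↥(baseRing (padicPlace (p : ℕ)) K₁) ↥K₁ (ζ (ptResW q K₁ Q)))) ^
          ((ptResW q K₁ Q).ord x))⁻¹)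
      (c *
        algebraMap ↥(baseRing (padicPlace (p : ℕ)) K₁) ↥K₁
          (w : ↥(baseRing (padicPlace (p : ℕ)) K₁)) *
        ∏ P₁ ∈ (S.image (ptResW q K₁)).erase (ptResW q K₁ Q),
          (algebraMap ↥(baseRing (padicPlace (p : ℕ)) K₁) ↥K₁ (ζ (ptResW q K₁ Q)) -
            algebraMap ↥(baseRing (padicPlace (p : ℕ)) K₁) ↥K₁ (ζ P₁)) ^ (P₁.ord x))) :
    Q.ord (limPhi q K₁ z₁ -
      algebraMap Ω (FunN (1 * q)) (valN (1 * q) Q (limPhi q K₁ z₁))) = 1 ∧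
    lg (some p) (valN (1 * q) Q (limPhi q K₁ x *
      (limPhi q K₁ z₁ - algebraMap Ω (FunN (1 * q)) (valN (1 * q) Q (limPhi q K₁ z₁))) ^
        (-(D Q)))) =
      lg (some p) ((c : ↥K₁) : Ω) +
        ∑ P ∈ S.erase Q, (D P : ℝ) *
          lg (some p) (valN (1 * q) P (limPhi q K₁ z₁) - valN (1 * q) Q (limPhi q K₁ z₁)) := by
  have hvz : valN (1 * q) Q (limPhi q K₁ z₁) =
      (((ζ (ptResW q K₁ Q) : ↥(baseRing (padicPlace (p : ℕ)) K₁)) : ↥K₁) : Ω) :=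
    valN_limPhi Q hζQ
  have hvP : ∀ P ∈ S, valN (1 * q) P (limPhi q K₁ z₁) =
      (((ζ (ptResW q K₁ P) : ↥(baseRing (padicPlace (p : ℕ)) K₁)) : ↥K₁) : Ω) :=
    fun P hP => valN_limPhi P (hζ P hP)
  have hzc : limPhi q K₁ z₁ -
      algebraMap Ω (FunN (1 * q)) (valN (1 * q) Q (limPhi q K₁ z₁)) =
      limPhi q K₁ (z₁ - algebraMap ↥K₁ ↥(keyFw ↥K₁ (1 * q) 1)
        (algebraMap ↥(baseRing (padicPlace (p : ℕ)) K₁) ↥K₁ (ζ (ptResW q K₁ Q)))) := by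
    rw [hvz, limPhi_sub_algebraMap]
    rfl
  have hordP : ∀ P : PtN (1 * q), (ptResW q K₁ P).ord x = D P := by
    intro P
    rw [hD P, ord_ptResW]
  refine ⟨by rw [hzc, ← ord_ptResW]; exact hord, ?_⟩
  set zc : ↥(keyFw ↥K₁ (1 * q) 1) := z₁ - algebraMap ↥K₁ ↥(keyFw ↥K₁ (1 * q) 1)
    (algebraMap ↥(baseRing (padicPlace (p : ℕ)) K₁) ↥K₁ (ζ (ptResW q K₁ Q))) with hzcdef
  have hzc0 : zc ≠ 0 := by
    intro h0
    rw [h0, Place.ord_zero] at hord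
    exact zero_ne_one hord
  have he : limPhi q K₁ x * (limPhi q K₁ z₁ -
      algebraMap Ω (FunN (1 * q)) (valN (1 * q) Q (limPhi q K₁ z₁))) ^ (-(D Q)) =
      limPhi q K₁ (x * (zc ^ ((ptResW q K₁ Q).ord x))⁻¹) := by
    rw [hzc, hordP Q, zpow_neg, map_mul, map_inv₀, map_zpow₀]
  rw [he]
  have hπK : c ≠ 0 := hc0
  have hw : absv (some p) (((algebraMap ↥(baseRing (padicPlace (p : ℕ)) K₁) ↥K₁
      (w : ↥(baseRing (padicPlace (p : ℕ)) K₁)) : ↥K₁) : Ω)) = 1 :=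
    absv_eq_one_of_isUnit p w.isUnit
  -- the value does not vanish
  have hord0 : (ptResW q K₁ Q).ord (x * (zc ^ ((ptResW q K₁ Q).ord x))⁻¹) = 0 := by
    rw [Place.ord_mul _ hx (inv_ne_zero (zpow_ne_zero _ hzc0)), Place.ord_inv, Place.ord_zpow,
      hord]
    ring
  have hv0 : c *
        algebraMap ↥(baseRing (padicPlace (p : ℕ)) K₁) ↥K₁
          (w : ↥(baseRing (padicPlace (p : ℕ)) K₁)) *
        ∏ P₁ ∈ (S.image (ptResW q K₁)).erase (ptResW q K₁ Q),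
          (algebraMap ↥(baseRing (padicPlace (p : ℕ)) K₁) ↥K₁ (ζ (ptResW q K₁ Q)) -
            algebraMap ↥(baseRing (padicPlace (p : ℕ)) K₁) ↥K₁ (ζ P₁)) ^ (P₁.ord x) ≠ 0 := by
    intro h0
    rw [h0] at hval
    rcases HasValueAt.zero_iff.mp hval with h1 | h1
    · exact (mul_ne_zero hx (inv_ne_zero (zpow_ne_zero _ hzc0))) h1
    · rw [hord0] at h1
      exact lt_irrefl _ h1
  have hξ : ∀ P₁ ∈ (S.image (ptResW q K₁)).erase (ptResW q K₁ Q),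
      algebraMap ↥(baseRing (padicPlace (p : ℕ)) K₁) ↥K₁ (ζ (ptResW q K₁ Q)) -
        algebraMap ↥(baseRing (padicPlace (p : ℕ)) K₁) ↥K₁ (ζ P₁) ≠ 0 := by
    intro P₁ hP₁ h0
    apply hv0
    apply mul_eq_zero_of_right
    refine Finset.prod_eq_zero hP₁ ?_
    rw [h0]
    obtain ⟨P, hP, rfl⟩ := Finset.mem_image.mp (Finset.mem_of_mem_erase hP₁)
    rw [hordP P]
    exact zero_zpow _ (hSD P hP)
  rw [lg_valN_limPhi_of_hasValueAt p K₁ Q hπK hw _ _ _ hξ hval]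
  congr 1
  · have himg : (S.image (ptResW q K₁)).erase (ptResW q K₁ Q) =
        (S.erase Q).image (ptResW q K₁) := by
      ext P₁
      simp only [Finset.mem_erase, Finset.mem_image]
      constructor
      · rintro ⟨hne, P, hP, rfl⟩
        exact ⟨P, ⟨fun hPQ => hne (by rw [hPQ]), hP⟩, rfl⟩
      · rintro ⟨P, ⟨hPQ, hP⟩, rfl⟩
        exact ⟨fun heq => hPQ (ptResW_injOn_rational (hSrat P hP) heq), P, hP, rfl⟩
    rw [himg, Finset.sum_image]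
    · refine Finset.sum_congr rfl (fun P hP => ?_)
      have hPS : P ∈ S := Finset.mem_of_mem_erase hP
      rw [hordP P, hvP P hPS, hvz]
      congr 1
      have e2 : (((algebraMap ↥(baseRing (padicPlace (p : ℕ)) K₁) ↥K₁ (ζ (ptResW q K₁ Q)) -
          algebraMap ↥(baseRing (padicPlace (p : ℕ)) K₁) ↥K₁ (ζ (ptResW q K₁ P)) : ↥K₁)) : Ω) =
          -((((ζ (ptResW q K₁ P) : ↥(baseRing (padicPlace (p : ℕ)) K₁)) : ↥K₁) : Ω) -
            (((ζ (ptResW q K₁ Q) : ↥(baseRing (padicPlace (p : ℕ)) K₁)) : ↥K₁) : Ω)) := by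
        rw [neg_sub]
        rfl
      rw [e2, lg_neg]
    · intro P hP P' hP' heq
      exact ptResW_injOn_rational (hSrat P (Finset.mem_of_mem_erase hP)) heq


open Classical in
/-- **the dictionary on the cell of a node**: from the value formula of `SSModel.node_value` to the
formula over `Ω`. -/
theorem cf_of_node_value (Q : PtN (1 * q)) {x X₁ : ↥(keyFw ↥K₁ (1 * q) 1)} (hx : x ≠ 0)
    {D : PtN (1 * q) →₀ ℤ} (hD : IsDivOf (1 * q) (limPhi q K₁ x) D)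
    (S : Finset (PtN (1 * q))) (hSD : ∀ P ∈ S, D P ≠ 0)
    (hSrat : ∀ P ∈ S, IsRationalPlace (ptResW q K₁ P))
    (ξ : Place ↥K₁ ↥(keyFw ↥K₁ (1 * q) 1) → ↥(baseRing (padicPlace (p : ℕ)) K₁))
    (hξ : ∀ P ∈ S, HasValueAt (ptResW q K₁ P) X₁
      (algebraMap ↥(baseRing (padicPlace (p : ℕ)) K₁) ↥K₁ (ξ (ptResW q K₁ P))))
    (hξQ : HasValueAt (ptResW q K₁ Q) X₁
      (algebraMap ↥(baseRing (padicPlace (p : ℕ)) K₁) ↥K₁ (ξ (ptResW q K₁ Q))))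
    (hξQ0 : ξ (ptResW q K₁ Q) ≠ 0)
    {π : ↥(baseRing (padicPlace (p : ℕ)) K₁)} (hπ0 : π ≠ 0) (ainf k : ℤ)
    (w : (↥(baseRing (padicPlace (p : ℕ)) K₁))ˣ)
    (hord : (ptResW q K₁ Q).ord (X₁ - algebraMap ↥K₁ ↥(keyFw ↥K₁ (1 * q) 1)
      (algebraMap ↥(baseRing (padicPlace (p : ℕ)) K₁) ↥K₁ (ξ (ptResW q K₁ Q)))) = 1)
    (hval : HasValueAt (ptResW q K₁ Q)
      (x * ((X₁ - algebraMap ↥K₁ ↥(keyFw ↥K₁ (1 * q) 1)
        (algebraMap ↥(baseRing (padicPlace (p : ℕ)) K₁) ↥K₁ (ξ (ptResW q K₁ Q)))) ^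
          ((ptResW q K₁ Q).ord x))⁻¹)
      (algebraMap ↥(baseRing (padicPlace (p : ℕ)) K₁) ↥K₁ π ^ ainf *
        algebraMap ↥(baseRing (padicPlace (p : ℕ)) K₁) ↥K₁ (ξ (ptResW q K₁ Q)) ^ k *
        algebraMap ↥(baseRing (padicPlace (p : ℕ)) K₁) ↥K₁
          (w : ↥(baseRing (padicPlace (p : ℕ)) K₁)) *
        ∏ P₁ ∈ (S.image (ptResW q K₁)).erase (ptResW q K₁ Q),
          (algebraMap ↥(baseRing (padicPlace (p : ℕ)) K₁) ↥K₁ (ξ (ptResW q K₁ Q)) -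
            algebraMap ↥(baseRing (padicPlace (p : ℕ)) K₁) ↥K₁ (ξ P₁)) ^ (P₁.ord x))) :
    Q.ord (limPhi q K₁ X₁ -
      algebraMap Ω (FunN (1 * q)) (valN (1 * q) Q (limPhi q K₁ X₁))) = 1 ∧
    lg (some p) (valN (1 * q) Q (limPhi q K₁ x *
      (limPhi q K₁ X₁ - algebraMap Ω (FunN (1 * q)) (valN (1 * q) Q (limPhi q K₁ X₁))) ^
        (-(D Q)))) =
      (ainf : ℝ) * lg (some p) (((π : ↥K₁) : Ω)) +
        (k : ℝ) * lg (some p) (valN (1 * q) Q (limPhi q K₁ X₁)) +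
        ∑ P ∈ S.erase Q, (D P : ℝ) *
          lg (some p) (valN (1 * q) P (limPhi q K₁ X₁) - valN (1 * q) Q (limPhi q K₁ X₁)) := by
  have hπK : (π : ↥K₁) ≠ 0 := fun h0 => hπ0 (Subtype.ext h0)
  have hξK : ((ξ (ptResW q K₁ Q) : ↥(baseRing (padicPlace (p : ℕ)) K₁)) : ↥K₁) ≠ 0 :=
    fun h0 => hξQ0 (Subtype.ext h0)
  have hc0 : algebraMap ↥(baseRing (padicPlace (p : ℕ)) K₁) ↥K₁ π ^ ainf *
      algebraMap ↥(baseRing (padicPlace (p : ℕ)) K₁) ↥K₁ (ξ (ptResW q K₁ Q)) ^ k ≠ 0 :=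
    mul_ne_zero (zpow_ne_zero _ hπK) (zpow_ne_zero _ hξK)
  have key := cf_of_cell_value_gen p K₁ Q hx hD S hSD hSrat ξ hξ hξQ hc0 w hord hval
  refine ⟨key.1, ?_⟩
  rw [key.2]
  congr 1
  have hvz : valN (1 * q) Q (limPhi q K₁ X₁) =
      (((ξ (ptResW q K₁ Q) : ↥(baseRing (padicPlace (p : ℕ)) K₁)) : ↥K₁) : Ω) :=
    valN_limPhi Q hξQ
  have e : ((algebraMap ↥(baseRing (padicPlace (p : ℕ)) K₁) ↥K₁ π ^ ainf *
      algebraMap ↥(baseRing (padicPlace (p : ℕ)) K₁) ↥K₁ (ξ (ptResW q K₁ Q)) ^ k : ↥K₁) : Ω) =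
      (((π : ↥K₁) : Ω)) ^ ainf *
        ((((ξ (ptResW q K₁ Q) : ↥(baseRing (padicPlace (p : ℕ)) K₁)) : ↥K₁) : Ω)) ^ k := by
    have : ∀ z : ↥K₁, ((z : ↥K₁) : Ω) = algebraMap ↥K₁ Ω z := fun _ => rfl
    rw [this, map_mul, map_zpow₀, map_zpow₀]
    rfl
  have hπΩ : (((π : ↥K₁) : Ω)) ≠ 0 := fun h0 => hπK (Subtype.ext h0)
  have hξΩ : ((((ξ (ptResW q K₁ Q) : ↥(baseRing (padicPlace (p : ℕ)) K₁)) : ↥K₁) : Ω)) ≠ 0 :=
    fun h0 => hξK (Subtype.ext h0)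
  rw [e, lg_mul _ (zpow_ne_zero _ hπΩ) (zpow_ne_zero _ hξΩ), lg_zpow, lg_zpow, hvz]

end Dict

end

end Fermat.Agent.MW
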