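import Mathlib
import Fermat.Agent.MW.NADIC_helper6_Lc

/-!
# Project MW (S17) — [N-ADIC] helper6, part 1: from an abstract cell system to `LocalPkgAt`

`NCellSys N v` : the abstract shape of the local analysis of `X₀(N)` at a finite place `v` of bad
(semistable, two sheets) reduction.  The points are partitioned into *cells* (residue classes of the
closed points of the normal model: open discs over the smooth points of the two sheets `C_∞`, `C_0`,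
open annuli over the nodes); every cell carries a coordinate `z_i - b` (`z_i` from a finite list);
`g P Q = - log |z(P) - z(Q)|_v` for `P ≠ Q` in a common cell (`0` otherwise), `θ Q ∈ [0,1]` is the
position of `Q` on the skeleton (`0` on `C_∞`, `1` on `C_0`), `h P Q = log |x(P)|` for `P`, `Q` in a
common annulus (`0` otherwise).  The **cell formula** `cf` says: for every `f ≠ 0` there are two
constants `a0`, `a1` (the two Gauss valuations of `f`), `|a1 - a0| ≤ C · Σ_P |ord_P f|`, with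

  `log |(f / z_Q^{n})(Q)| = (1 - θ Q) a0 + θ Q a1 - θ Q Σ_P ord_P f · h P Q - Σ_P ord_P f · g P Q`

for EVERY point `Q` (`n = ord_Q f`, `z_Q` the centred coordinate at `Q`).

`NCellSys.localPkgAt` : the literal `LocalPkgAt N 𝔡 Zp v` of [DIFF] for every differential datum `𝔡`
and every `Zp ⊇ supp K0`: `γ = g`, `r Q = - log |D₀ z_Q (Q)|`, `Cγ = 0`, `Cw d = (C + L) d`,
`cω = 0`.
-/

set_option autoImplicit false
set_option linter.unusedSectionVars false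

open scoped BigOperators

noncomputable section

namespace Fermat.Agent.MW

open AlgebraicCurve ModularCurve Fermat.Agent.JA Fermat.Agent.FF

variable (N : ℕ) [NeZero N]

/-- **an abstract cell system** at the place `v` (see the file header). -/
structure NCellSys (v : Pl) where
  /-- the number of coordinate functions -/
  nz : ℕ
  /-- the coordinate functions -/
  zi : Fin nz → FunN N
  /-- the coordinate used at `Q` -/
  idx : PtN N → Fin nz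
  /-- the value of the coordinate at `Q` -/
  zb : PtN N → AlgebraicClosure ℚ
  /-- `- log` of the distance in a common cell -/
  g : PtN N → PtN N → ℝ
  /-- `log |x(P)|` for `P`, `Q` in a common annulus -/
  h : PtN N → PtN N → ℝ
  /-- position on the skeleton -/
  θ : PtN N → ℝ
  L : ℝ
  C : ℝ
  L_nonneg : 0 ≤ L
  C_nonneg : 0 ≤ C
  zc_ord : ∀ Q : PtN N,
    Q.ord (zi (idx Q) - algebraMap (AlgebraicClosure ℚ) (FunN N) (zb Q)) = 1
  idx_eq : ∀ P Q : PtN N, (g P Q ≠ 0 ∨ h P Q ≠ 0) → idx P = idx Q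
  g_symm : ∀ P Q, g P Q = g Q P
  g_diag : ∀ Q, g Q Q = 0
  g_nonneg : ∀ P Q, 0 ≤ g P Q
  h_nonpos : ∀ P Q, h P Q ≤ 0
  h_ge : ∀ P Q, -L ≤ h P Q
  θ_nonneg : ∀ Q, 0 ≤ θ Q
  θ_le_one : ∀ Q, θ Q ≤ 1
  generic0 : ∀ S : Finset (PtN N), ∃ Q, θ Q = 0 ∧ ∀ P ∈ S, P ≠ Q ∧ g P Q = 0
  generic1 : ∀ S : Finset (PtN N), ∃ Q, θ Q = 1 ∧ ∀ P ∈ S, P ≠ Q ∧ g P Q = 0 ∧ h P Q = 0
  /-- the cell formula -/
  cf : ∀ (f : FunN N) (D : PtN N →₀ ℤ), f ≠ 0 → IsDivOf N f D →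
    ∃ a0 a1 : ℝ, |a1 - a0| ≤ C * (dnorm D : ℝ) ∧ ∀ Q : PtN N,
      lg v (valN N Q
        (f * (zi (idx Q) - algebraMap (AlgebraicClosure ℚ) (FunN N) (zb Q)) ^ (-(D Q)))) =
        (1 - θ Q) * a0 + θ Q * a1 - θ Q * (∑ P ∈ D.support, (D P : ℝ) * h P Q)
          - ∑ P ∈ D.support, (D P : ℝ) * g P Q

namespace NCellSys

variable {N}
variable {v : Pl} (S : NCellSys N v) (𝔡 : DiffDatum N)

/-- the centred coordinate at `Q`. -/
def zc (Q : PtN N) : FunN N :=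
  S.zi (S.idx Q) - algebraMap (AlgebraicClosure ℚ) (FunN N) (S.zb Q)

theorem ord_zc (Q : PtN N) : Q.ord (S.zc Q) = 1 := S.zc_ord Q

theorem zc_ne_zero (Q : PtN N) : S.zc Q ≠ 0 := by
  intro h
  have h1 := S.ord_zc Q
  rw [h, Place.ord_zero] at h1
  exact zero_ne_one h1

theorem D₀_zc (Q : PtN N) : 𝔡.D₀ (S.zc Q) = 𝔡.D₀ (S.zi (S.idx Q)) :=
  𝔡.D₀_sub_algebraMap _ _

/-- `r Q = - log |D₀ z_Q (Q)|`. -/
def rr (Q : PtN N) : ℝ := -lg v (valN N Q (𝔡.D₀ (S.zc Q)))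

/-- the base value of the cell formula. -/
def base (D : PtN N →₀ ℤ) (a0 a1 : ℝ) (Q : PtN N) : ℝ :=
  (1 - S.θ Q) * a0 + S.θ Q * a1 - S.θ Q * (∑ P ∈ D.support, (D P : ℝ) * S.h P Q)

/-- the cell formula, restated with `zc` and `base`. -/
theorem cf' (f : FunN N) (D : PtN N →₀ ℤ) (hf : f ≠ 0) (hD : IsDivOf N f D) :
    ∃ a0 a1 : ℝ, |a1 - a0| ≤ S.C * (dnorm D : ℝ) ∧ ∀ Q : PtN N,
      lg v (valN N Q (f * (S.zc Q) ^ (-(D Q)))) =
        S.base D a0 a1 Q - ∑ P ∈ D.support, (D P : ℝ) * S.g P Q :=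
  S.cf f D hf hD

theorem sum_ite_eq_add (D : PtN N →₀ ℤ) (Q : PtN N) (r : ℝ) :
    (∑ P ∈ D.support, (D P : ℝ) * (if P = Q then r else S.g P Q)) =
      (∑ P ∈ D.support, (D P : ℝ) * S.g P Q) + (D Q : ℝ) * r := by
  have h1 : ∀ P ∈ D.support, (D P : ℝ) * (if P = Q then r else S.g P Q) =
      (D P : ℝ) * S.g P Q + (if P = Q then (D Q : ℝ) * r else 0) := by
    intro P _
    by_cases hPQ : P = Q
    · subst hPQ
      rw [if_pos rfl, if_pos rfl, S.g_diag, mul_zero, zero_add]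
    · rw [if_neg hPQ, if_neg hPQ, add_zero]
  rw [Finset.sum_congr rfl h1, Finset.sum_add_distrib, Finset.sum_ite_eq' D.support Q]
  congr 1
  by_cases hQ : Q ∈ D.support
  · rw [if_pos hQ]
  · rw [if_neg hQ]
    have : D Q = 0 := Finsupp.notMem_support_iff.mp hQ
    rw [this]; simp

/-- **the key formula**: the expression of (A3) at `Q` is the base value. -/
theorem key {f : FunN N} {D : PtN N →₀ ℤ} (hf : f ≠ 0) (hD : IsDivOf N f D) {a0 a1 : ℝ}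
    (hcf : ∀ Q : PtN N, lg v (valN N Q (f * (S.zc Q) ^ (-(D Q)))) =
      S.base D a0 a1 Q - ∑ P ∈ D.support, (D P : ℝ) * S.g P Q)
    (Q : PtN N) (hQ : D Q = 0 ∨ 𝔡.K0 Q = 0) :
    (∑ P ∈ D.support, (D P : ℝ) * (if P = Q then S.rr 𝔡 Q else S.g P Q))
      + lg v (𝔡.lcN f Q) = S.base D a0 a1 Q := by
  rw [S.sum_ite_eq_add]
  have hlc : lg v (𝔡.lcN f Q) =
      lg v (valN N Q (f * (S.zc Q) ^ (-(D Q)))) - (D Q : ℝ) * S.rr 𝔡 Q := by
    by_cases h0 : D Q = 0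
    · have h1 : Q.ord f = 0 := by rw [← hD Q]; exact h0
      unfold DiffDatum.lcN
      rw [if_pos h1, h0, neg_zero, zpow_zero, mul_one]
      simp
    · have hK : 𝔡.K0 Q = 0 := hQ.resolve_left h0
      have hK' : -((𝔡.K0 Q : ℕ) : ℤ) = 0 := by rw [hK]; simp
      rw [𝔡.lcN_eq_of_unif hK (S.ord_zc Q) hf, ← hD Q]
      have hz0 := S.zc_ne_zero Q
      have hne1 : valN N Q (f * S.zc Q ^ (-(D Q))) ≠ 0 := by
        apply valN_ne_zero Q (mul_ne_zero hf (zpow_ne_zero _ hz0))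
        rw [Q.ord_mul hf (zpow_ne_zero _ hz0), Q.ord_zpow, S.ord_zc, ← hD Q]
        ring
      have hne2 : valN N Q (𝔡.D₀ (S.zc Q)) ≠ 0 := by
        apply valN_ne_zero Q (𝔡.D₀_unif_ne_zero (S.ord_zc Q))
        rw [𝔡.ord_D₀_unif (S.ord_zc Q), hK']
      rw [lg_mul v hne1 (zpow_ne_zero _ hne2), lg_zpow]
      unfold rr
      ring
  rw [hlc, hcf Q]
  ring

/-- the `h`-sum is bounded by `L · dnorm D`. -/
theorem abs_sum_h_le (D : PtN N →₀ ℤ) (Q : PtN N) :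
    |∑ P ∈ D.support, (D P : ℝ) * S.h P Q| ≤ S.L * (dnorm D : ℝ) := by
  have h1 : (dnorm D : ℝ) = ∑ P ∈ D.support, |(D P : ℝ)| := by
    unfold dnorm
    rw [Finsupp.sum]
    push_cast
    rfl
  rw [h1, Finset.mul_sum]
  refine (Finset.abs_sum_le_sum_abs _ _).trans (Finset.sum_le_sum (fun P _ => ?_))
  rw [abs_mul, mul_comm]
  refine mul_le_mul_of_nonneg_right ?_ (abs_nonneg _)
  rw [abs_le]
  exact ⟨S.h_ge P Q, (S.h_nonpos P Q).trans S.L_nonneg⟩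

theorem dnorm_nonneg' (D : PtN N →₀ ℤ) : (0 : ℝ) ≤ (dnorm D : ℝ) := by
  have : (0 : ℤ) ≤ dnorm D := by
    unfold dnorm
    exact Finset.sum_nonneg (fun _ _ => abs_nonneg _)
  exact_mod_cast this

/-- **(A3)** -/
theorem weil' (d : ℕ) (f : FunN N) (D : PtN N →₀ ℤ) (hf : f ≠ 0) (hD : IsDivOf N f D)
    (hd : dnorm D ≤ d) (Zp : Finset (PtN N)) (hZ : ∀ P : PtN N, 𝔡.K0 P ≠ 0 → P ∈ Zp) :
    ∃ c : ℝ, ∀ Q : PtN N, (D Q = 0 ∨ Q ∉ Zp) →
      |(∑ P ∈ D.support, (D P : ℝ) * (if P = Q then S.rr 𝔡 Q else S.g P Q))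
        + lg v (𝔡.lcN f Q) - c| ≤ (S.C + S.L) * d := by
  obtain ⟨a0, a1, hab, hcf⟩ := S.cf' f D hf hD
  refine ⟨a0, fun Q hQ => ?_⟩
  have hQ' : D Q = 0 ∨ 𝔡.K0 Q = 0 := by
    rcases hQ with h | h
    · exact Or.inl h
    · right
      by_contra hne
      exact h (hZ Q hne)
  rw [S.key 𝔡 hf hD hcf Q hQ']
  unfold base
  have e : (1 - S.θ Q) * a0 + S.θ Q * a1 - S.θ Q * (∑ P ∈ D.support, (D P : ℝ) * S.h P Q) - a0
      = S.θ Q * ((a1 - a0) - ∑ P ∈ D.support, (D P : ℝ) * S.h P Q) := by ring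
  rw [e, abs_mul, abs_of_nonneg (S.θ_nonneg Q)]
  have h1 : |(a1 - a0) - ∑ P ∈ D.support, (D P : ℝ) * S.h P Q| ≤ (S.C + S.L) * (dnorm D : ℝ) := by
    refine (abs_sub _ _).trans ?_
    rw [add_mul]
    exact add_le_add hab (S.abs_sum_h_le D Q)
  have h2 : (dnorm D : ℝ) ≤ (d : ℝ) := by exact_mod_cast hd
  have h3 : 0 ≤ S.C + S.L := add_nonneg S.C_nonneg S.L_nonneg
  calc S.θ Q * |(a1 - a0) - ∑ P ∈ D.support, (D P : ℝ) * S.h P Q|
      ≤ 1 * ((S.C + S.L) * (dnorm D : ℝ)) :=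
        mul_le_mul (S.θ_le_one Q) h1 (abs_nonneg _) zero_le_one
    _ ≤ (S.C + S.L) * d := by
        rw [one_mul]
        exact mul_le_mul_of_nonneg_left h2 h3


/-! ### (A4) -/

/-- transfer of a weighted sum from the divisor `D` to `-K` when `D = -K` on the support of the
weight. -/
theorem sum_transfer (D : PtN N →₀ ℤ) (K : PtN N →₀ ℕ) (w : PtN N → ℝ)
    (hw : ∀ P, w P ≠ 0 → D P = -(K P : ℤ)) :
    (∑ P ∈ D.support, (D P : ℝ) * w P) = -∑ Z ∈ K.support, (K Z : ℝ) * w Z := by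
  classical
  have h1 : (∑ P ∈ D.support, (D P : ℝ) * w P) = ∑ P ∈ D.support ∪ K.support, (D P : ℝ) * w P := by
    refine Finset.sum_subset Finset.subset_union_left (fun P _ hP => ?_)
    rw [Finsupp.notMem_support_iff.mp hP]; simp
  have h2 : (∑ Z ∈ K.support, (K Z : ℝ) * w Z) = ∑ P ∈ D.support ∪ K.support, (K P : ℝ) * w P := by
    refine Finset.sum_subset Finset.subset_union_right (fun P _ hP => ?_)
    rw [Finsupp.notMem_support_iff.mp hP]; simp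
  rw [h1, h2, ← Finset.sum_neg_distrib]
  refine Finset.sum_congr rfl (fun P _ => ?_)
  by_cases hwP : w P = 0
  · rw [hwP]; simp
  · rw [hw P hwP]; push_cast; ring

/-- the degree of `K0`. -/
def degK : ℝ := ∑ Z ∈ 𝔡.K0.support, (𝔡.K0 Z : ℝ)

theorem degK_nonneg : 0 ≤ degK 𝔡 := Finset.sum_nonneg (fun _ _ => Nat.cast_nonneg _)

theorem abs_sum_K0_h_le (Q : PtN N) :
    |∑ Z ∈ 𝔡.K0.support, (𝔡.K0 Z : ℝ) * S.h Z Q| ≤ S.L * degK 𝔡 := by
  unfold degK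
  rw [Finset.mul_sum]
  refine (Finset.abs_sum_le_sum_abs _ _).trans (Finset.sum_le_sum (fun P _ => ?_))
  rw [abs_mul, mul_comm, abs_of_nonneg (Nat.cast_nonneg _ : (0 : ℝ) ≤ (𝔡.K0 P : ℝ))]
  refine mul_le_mul_of_nonneg_right ?_ (Nat.cast_nonneg _)
  rw [abs_le]
  exact ⟨S.h_ge P Q, (S.h_nonpos P Q).trans S.L_nonneg⟩

/-- (A4) for the points using the coordinate `i`. -/
theorem omega_idx (i : Fin S.nz) :
    ∃ B : ℝ, ∀ Q : PtN N, 𝔡.K0 Q = 0 → S.idx Q = i →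
      |S.rr 𝔡 Q + ∑ Z ∈ 𝔡.K0.support, (𝔡.K0 Z : ℝ) * S.g Z Q| ≤ B := by
  by_cases hgi : 𝔡.D₀ (S.zi i) = 0
  · refine ⟨0, fun Q _ hi => ?_⟩
    exfalso
    have h1 := 𝔡.D₀_unif_ne_zero (S.ord_zc Q)
    rw [S.D₀_zc, hi] at h1
    exact h1 hgi
  obtain ⟨Dg, hDg⟩ := exists_isDivOf hgi
  obtain ⟨a0, a1, -, hcf⟩ := S.cf' (𝔡.D₀ (S.zi i)) Dg hgi hDg
  refine ⟨|a0| + |a1| + S.L * degK 𝔡, fun Q hK hi => ?_⟩
  have hK' : -((𝔡.K0 Q : ℕ) : ℤ) = 0 := by rw [hK]; simp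
  have hDz : 𝔡.D₀ (S.zc Q) = 𝔡.D₀ (S.zi i) := by rw [S.D₀_zc, hi]
  have hDgQ : Dg Q = 0 := by
    rw [hDg Q, ← hDz, 𝔡.ord_D₀_unif (S.ord_zc Q), hK']
  -- `Dg = -K0` where the weights do not vanish
  have hstar : ∀ P : PtN N, (S.g P Q ≠ 0 ∨ S.h P Q ≠ 0) → Dg P = -((𝔡.K0 P : ℕ) : ℤ) := by
    intro P hP
    have hidx : S.idx P = i := by rw [S.idx_eq P Q hP, hi]
    rw [hDg P, ← hidx, ← S.D₀_zc 𝔡 P, 𝔡.ord_D₀_unif (S.ord_zc P)]
  have hg : (∑ P ∈ Dg.support, (Dg P : ℝ) * S.g P Q) =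
      -∑ Z ∈ 𝔡.K0.support, (𝔡.K0 Z : ℝ) * S.g Z Q :=
    sum_transfer Dg 𝔡.K0 (fun P => S.g P Q) (fun P hP => hstar P (Or.inl hP))
  have hh : (∑ P ∈ Dg.support, (Dg P : ℝ) * S.h P Q) =
      -∑ Z ∈ 𝔡.K0.support, (𝔡.K0 Z : ℝ) * S.h Z Q :=
    sum_transfer Dg 𝔡.K0 (fun P => S.h P Q) (fun P hP => hstar P (Or.inr hP))
  have h1 := hcf Q
  rw [hDgQ, neg_zero, zpow_zero, mul_one, hg] at h1
  unfold base at h1
  rw [hh] at h1
  have hr : S.rr 𝔡 Q = -lg v (valN N Q (𝔡.D₀ (S.zi i))) := by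
    unfold rr; rw [hDz]
  rw [hr, h1]
  have e : -((1 - S.θ Q) * a0 + S.θ Q * a1 - S.θ Q * -∑ Z ∈ 𝔡.K0.support, (𝔡.K0 Z : ℝ) * S.h Z Q
        - -∑ Z ∈ 𝔡.K0.support, (𝔡.K0 Z : ℝ) * S.g Z Q)
      + ∑ Z ∈ 𝔡.K0.support, (𝔡.K0 Z : ℝ) * S.g Z Q
      = -((1 - S.θ Q) * a0) + -(S.θ Q * a1)
        + -(S.θ Q * ∑ Z ∈ 𝔡.K0.support, (𝔡.K0 Z : ℝ) * S.h Z Q) := by ring
  rw [e]
  have hθ0 := S.θ_nonneg Q
  have hθ1 := S.θ_le_one Q
  have b1 : |-((1 - S.θ Q) * a0)| ≤ |a0| := by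
    rw [abs_neg, abs_mul, abs_of_nonneg (by linarith : 0 ≤ 1 - S.θ Q)]
    calc (1 - S.θ Q) * |a0| ≤ 1 * |a0| :=
          mul_le_mul_of_nonneg_right (by linarith) (abs_nonneg _)
      _ = |a0| := one_mul _
  have b2 : |-(S.θ Q * a1)| ≤ |a1| := by
    rw [abs_neg, abs_mul, abs_of_nonneg hθ0]
    calc S.θ Q * |a1| ≤ 1 * |a1| := mul_le_mul_of_nonneg_right hθ1 (abs_nonneg _)
      _ = |a1| := one_mul _
  have b3 : |-(S.θ Q * ∑ Z ∈ 𝔡.K0.support, (𝔡.K0 Z : ℝ) * S.h Z Q)| ≤ S.L * degK 𝔡 := by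
    rw [abs_neg, abs_mul, abs_of_nonneg hθ0]
    calc S.θ Q * |∑ Z ∈ 𝔡.K0.support, (𝔡.K0 Z : ℝ) * S.h Z Q|
        ≤ 1 * (S.L * degK 𝔡) :=
          mul_le_mul hθ1 (S.abs_sum_K0_h_le 𝔡 Q) (abs_nonneg _) zero_le_one
      _ = S.L * degK 𝔡 := one_mul _
  exact (abs_add_three _ _ _).trans (add_le_add (add_le_add b1 b2) b3)

/-- **(A4)** -/
theorem omega' (Zp : Finset (PtN N)) (hZ : ∀ P : PtN N, 𝔡.K0 P ≠ 0 → P ∈ Zp) :
    ∃ Cω : ℝ, 0 ≤ Cω ∧ ∀ Q : PtN N, Q ∉ Zp →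
      |S.rr 𝔡 Q + (∑ Z ∈ 𝔡.K0.support, (𝔡.K0 Z : ℝ) * S.g Z Q) - 0| ≤ Cω := by
  choose B hB using S.omega_idx 𝔡
  refine ⟨∑ i, |B i|, Finset.sum_nonneg (fun _ _ => abs_nonneg _), fun Q hQ => ?_⟩
  have hK : 𝔡.K0 Q = 0 := by
    by_contra hne
    exact hQ (hZ Q hne)
  rw [sub_zero]
  refine (hB (S.idx Q) Q hK rfl).trans ((le_abs_self _).trans ?_)
  exact Finset.single_le_sum (f := fun i => |B i|) (fun _ _ => abs_nonneg _)
    (Finset.mem_univ (S.idx Q))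


/-! ### (A7) -/

/-- triangle inequality for finite sums. -/
theorem absv_sum_le {ι : Type*} (s : Finset ι) (F : ι → AlgebraicClosure ℚ) :
    absv v (∑ i ∈ s, F i) ≤ ∑ i ∈ s, absv v (F i) := by
  classical
  induction s using Finset.induction_on with
  | empty => simp
  | insert a s ha ih =>
    rw [Finset.sum_insert ha, Finset.sum_insert ha]
    exact (absv_add_le v _ _).trans (add_le_add le_rfl ih)

/-- a finite sum of functions of order `≥ n` at `Q` has order `≥ n`. -/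
theorem ord_sum_ge (Q : PtN N) {ι : Type*} (s : Finset ι) (F : ι → FunN N) (n : ℤ)
    (hF : ∀ i ∈ s, F i = 0 ∨ n ≤ Q.ord (F i)) :
    (∑ i ∈ s, F i) = 0 ∨ n ≤ Q.ord (∑ i ∈ s, F i) := by
  classical
  induction s using Finset.induction_on with
  | empty => left; simp
  | insert a s ha ih =>
    rw [Finset.sum_insert ha]
    by_cases h0 : F a + ∑ i ∈ s, F i = 0
    · exact Or.inl h0
    · right
      exact PlaceAux.ord_add_ge Q h0 (hF a (Finset.mem_insert_self a s))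
        (ih (fun i hi => hF i (Finset.mem_insert_of_mem hi)))

theorem ord_smul_ge (Q : PtN N) (c : AlgebraicClosure ℚ) (f : FunN N) (n : ℤ)
    (hf : f = 0 ∨ n ≤ Q.ord f) : c • f = 0 ∨ n ≤ Q.ord (c • f) := by
  by_cases hc : c = 0
  · left; rw [hc, zero_smul]
  rcases hf with hf | hf
  · left; rw [hf, smul_zero]
  · by_cases hf0 : f = 0
    · left; rw [hf0, smul_zero]
    right
    rw [Algebra.smul_def, Q.ord_mul (by simpa using hc) hf0, PlaceAux.ord_algebraMap, zero_add]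
    exact hf

/-- the value of a linear combination of regular functions. -/
theorem valN_lincomb (Q : PtN N) {ι : Type*} (s : Finset ι) (c : ι → AlgebraicClosure ℚ)
    (F : ι → FunN N) (hF : ∀ i ∈ s, F i = 0 ∨ 0 ≤ Q.ord (F i)) :
    valN N Q (∑ i ∈ s, c i • F i) = ∑ i ∈ s, c i * valN N Q (F i) := by
  refine (HasValueAt.sum s (fun i => c i • F i) (fun i => c i * valN N Q (F i))
    (fun i hi => ?_)).valueAt_eq
  rw [Algebra.smul_def]
  exact (HasValueAt.algebraMap' Q (c i)).mul (valN_spec Q (hF i hi))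

/-- the positive part of the divisor of a function whose poles are bounded by `K0`. -/
theorem sum_pos_part_le {f : FunN N} (hf : f ≠ 0) {D : PtN N →₀ ℤ} (hD : IsDivOf N f D)
    (hpole : ∀ P : PtN N, -((𝔡.K0 P : ℕ) : ℤ) ≤ D P) :
    (∑ P ∈ D.support, max (D P : ℝ) 0) ≤ degK 𝔡 := by
  classical
  have h0 := sum_eq_zero_of_isDivOf hf hD
  have h1 : (∑ P ∈ D.support, (D P : ℝ)) = 0 := by exact_mod_cast h0
  have h2 : ∀ P : PtN N, max (D P : ℝ) 0 = (D P : ℝ) + max (-(D P : ℝ)) 0 := by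
    intro P
    rcases le_total (D P : ℝ) 0 with h | h
    · rw [max_eq_right h, max_eq_left (by linarith)]; ring
    · rw [max_eq_left h, max_eq_right (by linarith)]; ring
  have h3 : (∑ P ∈ D.support, max (D P : ℝ) 0) = ∑ P ∈ D.support, max (-(D P : ℝ)) 0 := by
    rw [Finset.sum_congr rfl (fun P _ => h2 P), Finset.sum_add_distrib, h1, zero_add]
  rw [h3]
  have h4 : ∀ P : PtN N, max (-(D P : ℝ)) 0 ≤ (𝔡.K0 P : ℝ) := by
    intro P
    refine max_le ?_ (Nat.cast_nonneg _)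
    have := hpole P
    have h' : -((𝔡.K0 P : ℕ) : ℝ) ≤ (D P : ℝ) := by exact_mod_cast this
    linarith
  calc (∑ P ∈ D.support, max (-(D P : ℝ)) 0) ≤ ∑ P ∈ D.support, (𝔡.K0 P : ℝ) :=
        Finset.sum_le_sum (fun P _ => h4 P)
    _ ≤ ∑ P ∈ D.support ∪ 𝔡.K0.support, (𝔡.K0 P : ℝ) :=
        Finset.sum_le_sum_of_subset_of_nonneg Finset.subset_union_left
          (fun _ _ _ => Nat.cast_nonneg _)
    _ = degK 𝔡 := by
        unfold degK
        symm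
        refine Finset.sum_subset Finset.subset_union_right (fun P _ hP => ?_)
        rw [Finsupp.notMem_support_iff.mp hP]; simp

/-- `- Σ D P · h P Q ≤ L · Σ (D P)⁺`. -/
theorem neg_sum_h_le (D : PtN N →₀ ℤ) (Q : PtN N) :
    -(∑ P ∈ D.support, (D P : ℝ) * S.h P Q) ≤ S.L * ∑ P ∈ D.support, max (D P : ℝ) 0 := by
  rw [← Finset.sum_neg_distrib, Finset.mul_sum]
  refine Finset.sum_le_sum (fun P _ => ?_)
  have h1 := S.h_nonpos P Q
  have h2 := S.h_ge P Q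
  have hL := S.L_nonneg
  rcases le_total (D P : ℝ) 0 with h | h
  · rw [max_eq_right h, mul_zero]
    nlinarith
  · rw [max_eq_left h]
    nlinarith

/-- the sheet constant of a linear combination, at a generic point. -/
theorem sheet_const_le (c : Fin 𝔡.gq → AlgebraicClosure ℚ) (M : ℝ) (hM : 0 < M)
    (hc : ∀ k, absv v (c k) ≤ M) (ak : Fin 𝔡.gq → ℝ)
    {D : PtN N →₀ ℤ} (hψ : (∑ k, c k • 𝔡.φ k) ≠ 0) (hD : IsDivOf N (∑ k, c k • 𝔡.φ k) D)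
    (a : ℝ) (Q0 : PtN N) (hQ0 : D Q0 = 0)
    (ha : lg v (valN N Q0 (∑ k, c k • 𝔡.φ k)) = a)
    (hk : ∀ k, 𝔡.φ k ≠ 0 → Q0.ord (𝔡.φ k) = 0 ∧ lg v (valN N Q0 (𝔡.φ k)) = ak k) :
    a ≤ Real.log M + Real.log (∑ k, Real.exp (ak k)) := by
  have hreg : ∀ k ∈ (Finset.univ : Finset (Fin 𝔡.gq)), 𝔡.φ k = 0 ∨ 0 ≤ Q0.ord (𝔡.φ k) := by
    intro k _
    by_cases h0 : 𝔡.φ k = 0
    · exact Or.inl h0
    · exact Or.inr (le_of_eq (hk k h0).1.symm)
  have hval := valN_lincomb Q0 Finset.univ c 𝔡.φ hreg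
  have hne : valN N Q0 (∑ k, c k • 𝔡.φ k) ≠ 0 :=
    valN_ne_zero Q0 hψ (by rw [← hD Q0]; exact hQ0)
  have hpos : 0 < absv v (valN N Q0 (∑ k, c k • 𝔡.φ k)) := absv_pos hne
  have hterm : ∀ k, absv v (c k * valN N Q0 (𝔡.φ k)) ≤ M * Real.exp (ak k) := by
    intro k
    rw [absv_mul]
    refine mul_le_mul (hc k) ?_ (absv_nonneg _ _) hM.le
    by_cases h0 : 𝔡.φ k = 0
    · rw [h0, valN_zero, absv_zero]
      exact (Real.exp_pos _).le
    · have h1 := (hk k h0).2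
      have h2 : valN N Q0 (𝔡.φ k) ≠ 0 := valN_ne_zero Q0 h0 (hk k h0).1
      unfold lg at h1
      rw [← h1, Real.exp_log (absv_pos h2)]
  have hle : absv v (valN N Q0 (∑ k, c k • 𝔡.φ k)) ≤ M * ∑ k, Real.exp (ak k) := by
    rw [hval, Finset.mul_sum]
    exact (absv_sum_le _ _).trans (Finset.sum_le_sum (fun k _ => hterm k))
  have hT : 0 < ∑ k, Real.exp (ak k) := by
    by_contra hT
    have : M * ∑ k, Real.exp (ak k) ≤ 0 := mul_nonpos_of_nonneg_of_nonpos hM.le (not_lt.mp hT)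
    linarith
  rw [← ha]
  unfold lg
  rw [← Real.log_mul hM.ne' hT.ne']
  exact Real.log_le_log hpos hle

/-- **(A7)** -/
theorem sup' (Zp : Finset (PtN N)) (hZ : ∀ P : PtN N, 𝔡.K0 P ≠ 0 → P ∈ Zp) :
    ∃ C7 : ℝ, 0 ≤ C7 ∧ ∀ (c : Fin 𝔡.gq → AlgebraicClosure ℚ) (M : ℝ) (D : PtN N →₀ ℤ), 0 < M →
      (∀ k, absv v (c k) ≤ M) → (∑ k, c k • 𝔡.φ k) ≠ 0 → IsDivOf N (∑ k, c k • 𝔡.φ k) D →
      ∀ Q : PtN N, Q ∉ Zp →
        (∑ P ∈ D.support, (D P : ℝ) * (if P = Q then S.rr 𝔡 Q else S.g P Q))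
          + lg v (𝔡.lcN (∑ k, c k • 𝔡.φ k) Q) ≤ Real.log M + C7 := by
  classical
  -- the data of the `φ k`
  have hex : ∀ k : Fin 𝔡.gq, ∃ (Dk : PtN N →₀ ℤ) (a0 a1 : ℝ), 𝔡.φ k ≠ 0 →
      (IsDivOf N (𝔡.φ k) Dk ∧ ∀ Q : PtN N,
        lg v (valN N Q (𝔡.φ k * (S.zc Q) ^ (-(Dk Q)))) =
          S.base Dk a0 a1 Q - ∑ P ∈ Dk.support, (Dk P : ℝ) * S.g P Q) := by
    intro k
    by_cases h0 : 𝔡.φ k = 0
    · exact ⟨0, 0, 0, fun h => absurd h0 h⟩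
    · obtain ⟨Dk, hDk⟩ := exists_isDivOf h0
      obtain ⟨a0, a1, -, hcf⟩ := S.cf' (𝔡.φ k) Dk h0 hDk
      exact ⟨Dk, a0, a1, fun _ => ⟨hDk, hcf⟩⟩
  choose Dk a0k a1k hk using hex
  set B0 : ℝ := Real.log (∑ k, Real.exp (a0k k)) with hB0
  set B1 : ℝ := Real.log (∑ k, Real.exp (a1k k)) with hB1
  refine ⟨|B0| + |B1| + S.L * degK 𝔡,
    add_nonneg (add_nonneg (abs_nonneg _) (abs_nonneg _)) (mul_nonneg S.L_nonneg (degK_nonneg 𝔡)),
    fun c M D hM hc hψ hD Q hQ => ?_⟩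
  have hK : 𝔡.K0 Q = 0 := by
    by_contra hne
    exact hQ (hZ Q hne)
  obtain ⟨a0, a1, -, hcf⟩ := S.cf' _ D hψ hD
  rw [S.key 𝔡 hψ hD hcf Q (Or.inr hK)]
  -- the generic points
  set T : Finset (PtN N) := D.support ∪ Finset.univ.biUnion (fun k => (Dk k).support) with hT
  have hsub : ∀ k, (Dk k).support ⊆ T := fun k =>
    (Finset.subset_biUnion_of_mem (fun k => (Dk k).support) (Finset.mem_univ k)).trans
      Finset.subset_union_right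
  -- generic point on the sheet `∞`
  have ha0 : a0 ≤ Real.log M + B0 := by
    obtain ⟨Q0, hθ, hQ0⟩ := S.generic0 T
    have hD0 : D Q0 = 0 := by
      by_contra hne
      exact (hQ0 Q0 (Finset.mem_union_left _ (Finsupp.mem_support_iff.mpr hne))).1 rfl
    have hg0 : ∀ (E : PtN N →₀ ℤ), E.support ⊆ T → (∑ P ∈ E.support, (E P : ℝ) * S.g P Q0) = 0 :=
      fun E hE => Finset.sum_eq_zero (fun P hP => by rw [(hQ0 P (hE hP)).2, mul_zero])
    refine sheet_const_le 𝔡 c M hM hc a0k hψ hD a0 Q0 hD0 ?_ (fun k h0 => ?_)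
    · have h1 := hcf Q0
      rw [hD0, neg_zero, zpow_zero, mul_one, hg0 D Finset.subset_union_left] at h1
      unfold base at h1
      rw [hθ] at h1
      rw [h1]; ring
    · obtain ⟨hDk, hcfk⟩ := hk k h0
      have hDk0 : Dk k Q0 = 0 := by
        by_contra hne
        exact (hQ0 Q0 (hsub k (Finsupp.mem_support_iff.mpr hne))).1 rfl
      refine ⟨by rw [← hDk Q0]; exact hDk0, ?_⟩
      have h1 := hcfk Q0
      rw [hDk0, neg_zero, zpow_zero, mul_one, hg0 (Dk k) (hsub k)] at h1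
      unfold base at h1
      rw [hθ] at h1
      rw [h1]; ring
  -- generic point on the sheet `0`
  have ha1 : a1 ≤ Real.log M + B1 := by
    obtain ⟨Q1, hθ, hQ1⟩ := S.generic1 T
    have hD1 : D Q1 = 0 := by
      by_contra hne
      exact (hQ1 Q1 (Finset.mem_union_left _ (Finsupp.mem_support_iff.mpr hne))).1 rfl
    have hg1 : ∀ (E : PtN N →₀ ℤ), E.support ⊆ T → (∑ P ∈ E.support, (E P : ℝ) * S.g P Q1) = 0 :=
      fun E hE => Finset.sum_eq_zero (fun P hP => by rw [(hQ1 P (hE hP)).2.1, mul_zero])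
    have hh1 : ∀ (E : PtN N →₀ ℤ), E.support ⊆ T → (∑ P ∈ E.support, (E P : ℝ) * S.h P Q1) = 0 :=
      fun E hE => Finset.sum_eq_zero (fun P hP => by rw [(hQ1 P (hE hP)).2.2, mul_zero])
    refine sheet_const_le 𝔡 c M hM hc a1k hψ hD a1 Q1 hD1 ?_ (fun k h0 => ?_)
    · have h1 := hcf Q1
      rw [hD1, neg_zero, zpow_zero, mul_one, hg1 D Finset.subset_union_left] at h1
      unfold base at h1
      rw [hθ, hh1 D Finset.subset_union_left] at h1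
      rw [h1]; ring
    · obtain ⟨hDk, hcfk⟩ := hk k h0
      have hDk1 : Dk k Q1 = 0 := by
        by_contra hne
        exact (hQ1 Q1 (hsub k (Finsupp.mem_support_iff.mpr hne))).1 rfl
      refine ⟨by rw [← hDk Q1]; exact hDk1, ?_⟩
      have h1 := hcfk Q1
      rw [hDk1, neg_zero, zpow_zero, mul_one, hg1 (Dk k) (hsub k)] at h1
      unfold base at h1
      rw [hθ, hh1 (Dk k) (hsub k)] at h1
      rw [h1]; ring
  -- the pole bound
  have hpole : ∀ P : PtN N, -((𝔡.K0 P : ℕ) : ℤ) ≤ D P := by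
    intro P
    rw [hD P]
    refine (ord_sum_ge P Finset.univ (fun k => c k • 𝔡.φ k) _ (fun k _ => ?_)).resolve_left hψ
    exact ord_smul_ge P (c k) (𝔡.φ k) _ (𝔡.φ_reg k P)
  have hpos := sum_pos_part_le 𝔡 hψ hD hpole
  have hneg := S.neg_sum_h_le D Q
  have hθ0 := S.θ_nonneg Q
  have hθ1 := S.θ_le_one Q
  have hL := S.L_nonneg
  unfold base
  have hX : -(S.θ Q * ∑ P ∈ D.support, (D P : ℝ) * S.h P Q) ≤ S.L * degK 𝔡 := by
    have h1 : -(∑ P ∈ D.support, (D P : ℝ) * S.h P Q) ≤ S.L * degK 𝔡 :=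
      hneg.trans (mul_le_mul_of_nonneg_left hpos hL)
    have h2 : 0 ≤ S.L * degK 𝔡 := mul_nonneg hL (degK_nonneg 𝔡)
    rcases le_total 0 (-(∑ P ∈ D.support, (D P : ℝ) * S.h P Q)) with h | h
    · nlinarith
    · nlinarith
  have hB0' := le_abs_self B0
  have hB1' := le_abs_self B1
  have hB0'' := abs_nonneg B0
  have hB1'' := abs_nonneg B1
  nlinarith


/-! ### the package -/

/-- **the local package at `v` from a cell system**, for every differential datum `𝔡` and every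
exceptional set `Zp` containing the zeros of `ω₀`. -/
def localPkgAt (Zp : Finset (PtN N)) (hZ : ∀ P : PtN N, 𝔡.K0 P ≠ 0 → P ∈ Zp) :
    LocalPkgAt N 𝔡 Zp v where
  γ := S.g
  r := S.rr 𝔡
  Cγ := 0
  Cw := fun d => (S.C + S.L) * d
  cω := 0
  Cω := (S.omega' 𝔡 Zp hZ).choose
  C7 := (S.sup' 𝔡 Zp hZ).choose
  Cγ_nonneg := le_rfl
  Cw_nonneg := fun d => mul_nonneg (add_nonneg S.C_nonneg S.L_nonneg) (Nat.cast_nonneg d)
  Cω_nonneg := (S.omega' 𝔡 Zp hZ).choose_spec.1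
  C7_nonneg := (S.sup' 𝔡 Zp hZ).choose_spec.1
  γ_symm := S.g_symm
  γ_lower := fun P Q _ => by
    have := S.g_nonneg P Q
    linarith
  weil := fun d f D hf hD hd => S.weil' 𝔡 d f D hf hD hd Zp hZ
  omega := (S.omega' 𝔡 Zp hZ).choose_spec.2
  sup := (S.sup' 𝔡 Zp hZ).choose_spec.2

@[simp] theorem localPkgAt_γ (Zp : Finset (PtN N)) (hZ : ∀ P : PtN N, 𝔡.K0 P ≠ 0 → P ∈ Zp) :
    (S.localPkgAt 𝔡 Zp hZ).γ = S.g := rfl

@[simp] theorem localPkgAt_r (Zp : Finset (PtN N)) (hZ : ∀ P : PtN N, 𝔡.K0 P ≠ 0 → P ∈ Zp) :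
    (S.localPkgAt 𝔡 Zp hZ).r = S.rr 𝔡 := rfl

@[simp] theorem localPkgAt_Cγ (Zp : Finset (PtN N)) (hZ : ∀ P : PtN N, 𝔡.K0 P ≠ 0 → P ∈ Zp) :
    (S.localPkgAt 𝔡 Zp hZ).Cγ = 0 := rfl

@[simp] theorem localPkgAt_cω (Zp : Finset (PtN N)) (hZ : ∀ P : PtN N, 𝔡.K0 P ≠ 0 → P ∈ Zp) :
    (S.localPkgAt 𝔡 Zp hZ).cω = 0 := rfl

theorem localPkgAt_Cw (Zp : Finset (PtN N)) (hZ : ∀ P : PtN N, 𝔡.K0 P ≠ 0 → P ∈ Zp) (d : ℕ) :
    (S.localPkgAt 𝔡 Zp hZ).Cw d = (S.C + S.L) * d := rfl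

end NCellSys

end Fermat.Agent.MW
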