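/-
MW (S17) — helper2 — [WMW] part 2: **the prime of a number field `L ⊆ ℚ̄` below a valuation subring
of `ℚ̄`**, and the comparison of valuations: if the `A`-adic valuation of `a ∈ Lˣ` is the `(m k)`-th
power of the valuation of the residue characteristic, then `m ∣ ord_v a` for the prime `v` of
`𝓞 L` below `A`.  Every prime of `𝓞 L` lies below some valuation subring.
-/
import Mathlib
import Fermat.Agent.EC.InertiaField_helper5

set_option autoImplicit false
set_option linter.unusedSectionVars false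
set_option linter.style.haveILetI false

open IsDedekindDomain nonZeroDivisors WithZero IntermediateField
open scoped NumberField

namespace Fermat.Agent.MW

local notation "Ω" => AlgebraicClosure ℚ

section Below

variable (L : IntermediateField ℚ Ω) [FiniteDimensional ℚ L] (A : ValuationSubring Ω)

instance wmw_numberField : NumberField L where
  to_charZero := inferInstance
  to_finiteDimensional := inferInstance

theorem valuation_coe_integer_le_one (b : 𝓞 L) : A.valuation (((b : L) : Ω)) ≤ 1 := by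
  apply Fermat.Agent.S54.valuation_le_one_of_isIntegral A
  have h : IsIntegral ℤ (b : L) := NumberField.RingOfIntegers.isIntegral_coe b
  exact h.map (IsScalarTower.toAlgHom ℤ L Ω)

/-- the prime of `𝓞 L` below the valuation subring `A` of `ℚ̄`. -/
def idealBelow : Ideal (𝓞 L) where
  carrier := {b | A.valuation (((b : L) : Ω)) < 1}
  add_mem' {a b} ha hb := by
    show A.valuation ((((a + b : 𝓞 L) : L) : Ω)) < 1
    push_cast
    exact lt_of_le_of_lt (A.valuation.map_add _ _) (max_lt ha hb)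
  zero_mem' := by
    show A.valuation ((((0 : 𝓞 L) : L) : Ω)) < 1
    simp
  smul_mem' c b hb := by
    show A.valuation ((((c * b : 𝓞 L) : L) : Ω)) < 1
    push_cast
    rw [map_mul, mul_comm]
    exact mul_lt_one_of_lt_of_le hb (valuation_coe_integer_le_one L A c)

theorem mem_idealBelow (b : 𝓞 L) : b ∈ idealBelow L A ↔ A.valuation (((b : L) : Ω)) < 1 :=
  Iff.rfl

theorem valuation_eq_one_of_not_mem_idealBelow {b : 𝓞 L} (hb : b ∉ idealBelow L A) :
    A.valuation (((b : L) : Ω)) = 1 :=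
  le_antisymm (valuation_coe_integer_le_one L A b) (not_lt.mp hb)

instance idealBelow_isPrime : (idealBelow L A).IsPrime := by
  refine ⟨?_, ?_⟩
  · rw [Ne, Ideal.eq_top_iff_one, mem_idealBelow]
    simp
  · intro a b hab
    rw [mem_idealBelow] at hab
    by_contra h
    push Not at h
    have ha := valuation_eq_one_of_not_mem_idealBelow L A h.1
    have hb := valuation_eq_one_of_not_mem_idealBelow L A h.2
    have : A.valuation ((((a * b : 𝓞 L) : L) : Ω)) = 1 := by
      push_cast
      rw [map_mul, ha, hb, one_mul]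
    rw [this] at hab
    exact lt_irrefl _ hab

variable {A} {q : ℕ}

theorem natCast_mem_idealBelow (hA : A.LiesOverPrime q) : (q : 𝓞 L) ∈ idealBelow L A := by
  rw [mem_idealBelow]
  have := (A.mem_nonunits_iff).mp hA
  simpa using this

theorem idealBelow_ne_bot (hq : q ≠ 0) (hA : A.LiesOverPrime q) : idealBelow L A ≠ ⊥ := by
  intro h
  have h1 := natCast_mem_idealBelow L hA
  rw [h, Ideal.mem_bot] at h1
  exact hq (by exact_mod_cast h1)

/-- the prime of `𝓞 L` below `A`, as an element of the height-one spectrum. -/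
def placeBelow (hq : q ≠ 0) (hA : A.LiesOverPrime q) : HeightOneSpectrum (𝓞 L) :=
  ⟨idealBelow L A, inferInstance, idealBelow_ne_bot L hq hA⟩

@[simp] theorem placeBelow_asIdeal (hq : q ≠ 0) (hA : A.LiesOverPrime q) :
    (placeBelow L hq hA).asIdeal = idealBelow L A := rfl

variable (hq : q ≠ 0) (hA : A.LiesOverPrime q)

/-- elements of `L` which are `v`-integral are `A`-integral. -/
theorem valuation_le_one_of_placeBelow {u : L}
    (hu : (placeBelow L hq hA).valuation L u ≤ 1) : A.valuation ((u : L) : Ω) ≤ 1 := by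
  obtain ⟨n, d, hnd⟩ := (placeBelow L hq hA).exists_primeCompl_mul_eq_of_integer u hu
  have hd : A.valuation ((((d : 𝓞 L) : L)) : Ω) = 1 :=
    valuation_eq_one_of_not_mem_idealBelow L A d.2
  have h1 : A.valuation ((u : L) : Ω) * A.valuation ((((d : 𝓞 L) : L)) : Ω) =
      A.valuation (((n : L)) : Ω) := by
    rw [← map_mul]
    congr 1
    have := congrArg (fun x : L => (x : Ω)) hnd
    simpa using this
  rw [hd, mul_one] at h1
  rw [h1]
  exact valuation_coe_integer_le_one L A n

/-- elements of `L` of `v`-adic valuation one are `A`-units. -/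
theorem valuation_eq_one_of_placeBelow {u : L}
    (hu : (placeBelow L hq hA).valuation L u = 1) : A.valuation ((u : L) : Ω) = 1 := by
  have hu0 : u ≠ 0 := by
    rintro rfl
    rw [map_zero] at hu
    exact zero_ne_one hu
  refine le_antisymm (valuation_le_one_of_placeBelow L hq hA hu.le) ?_
  have h1 : A.valuation (((u⁻¹ : L)) : Ω) ≤ 1 :=
    valuation_le_one_of_placeBelow L hq hA (by rw [map_inv₀, hu, inv_one])
  have h2 : A.valuation ((u : L) : Ω) * A.valuation (((u⁻¹ : L)) : Ω) = 1 := by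
    rw [← map_mul, ← IntermediateField.coe_mul, mul_inv_cancel₀ hu0, IntermediateField.coe_one,
      map_one]
  calc (1 : A.ValueGroup) = A.valuation ((u : L) : Ω) * A.valuation (((u⁻¹ : L)) : Ω) := h2.symm
    _ ≤ A.valuation ((u : L) : Ω) * 1 := by gcongr
    _ = A.valuation ((u : L) : Ω) := mul_one _

/-- **comparison of valuations**: for `a ∈ Lˣ`, the `A`-adic valuation of `a` is the
`(-ord_v a)`-th power of the `A`-adic valuation of a `v`-uniformizer. -/
theorem exists_uniformizer_valuation_eq :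
    ∃ ϖ : L, ϖ ≠ 0 ∧ A.valuation ((ϖ : L) : Ω) < 1 ∧ ∀ a : L, a ≠ 0 →
      A.valuation ((a : L) : Ω) =
        A.valuation ((ϖ : L) : Ω) ^ (-WithZero.log ((placeBelow L hq hA).valuation L a)) := by
  obtain ⟨π, hπ'⟩ := (placeBelow L hq hA).valuation_exists_uniformizer' L
  have hπ : (placeBelow L hq hA).valuation L (algebraMap (𝓞 L) L π) = WithZero.exp (-1) := hπ'
  have hπ0 : (algebraMap (𝓞 L) L π) ≠ 0 := by
    intro h
    rw [h, map_zero] at hπ
    exact WithZero.exp_ne_zero.symm hπ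
  refine ⟨algebraMap (𝓞 L) L π, hπ0, ?_, fun a ha => ?_⟩
  · have h1 : π ∈ (placeBelow L hq hA).asIdeal := by
      rw [← HeightOneSpectrum.valuation_lt_one_iff_mem (K := L), hπ, ← WithZero.exp_zero,
        WithZero.exp_lt_exp]
      norm_num
    exact (mem_idealBelow L A π).mp h1
  · set n : ℤ := WithZero.log ((placeBelow L hq hA).valuation L a) with hn
    have hva : (placeBelow L hq hA).valuation L a ≠ 0 := (Valuation.ne_zero_iff _).2 ha
    have hu : (placeBelow L hq hA).valuation L (a * (algebraMap (𝓞 L) L π) ^ n) = 1 := by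
      rw [map_mul, map_zpow₀, hπ, ← WithZero.exp_zsmul, ← WithZero.exp_log hva, ← hn,
        ← WithZero.exp_add, ← WithZero.exp_zero]
      congr 1
      simp
    have h1 := valuation_eq_one_of_placeBelow L hq hA hu
    rw [IntermediateField.coe_mul, map_mul] at h1
    have hz : (((algebraMap (𝓞 L) L π) ^ n : L) : Ω) = ((algebraMap (𝓞 L) L π : L) : Ω) ^ n :=
      map_zpow₀ (algebraMap L Ω) _ n
    rw [hz, map_zpow₀] at h1
    have hπv : A.valuation ((algebraMap (𝓞 L) L π : L) : Ω) ≠ 0 := by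
      rw [Valuation.ne_zero_iff]
      exact fun h => hπ0 (by exact_mod_cast h)
    rw [zpow_neg]
    exact eq_inv_of_mul_eq_one_left h1

/-- **divisibility of the order**: if the `A`-adic valuation of `a ∈ Lˣ` is the `(m k)`-th power
of the valuation of `q`, then `m ∣ ord_v a` for the prime `v` of `𝓞 L` below `A`. -/
theorem dvd_log_valuation_of_valuation_eq (m : ℕ) {a : L} (ha : a ≠ 0) (k : ℤ)
    (h : A.valuation ((a : L) : Ω) = A.valuation ((q : ℕ) : Ω) ^ ((m : ℤ) * k)) :
    (m : ℤ) ∣ WithZero.log ((placeBelow L hq hA).valuation L a) := by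
  obtain ⟨ϖ, hϖ0, hϖ1, hϖ⟩ := exists_uniformizer_valuation_eq L hq hA
  have hq0 : ((q : ℕ) : L) ≠ 0 := by exact_mod_cast hq
  have h1 := hϖ a ha
  have h2 := hϖ ((q : ℕ) : L) hq0
  have hcast : ((((q : ℕ) : L)) : Ω) = ((q : ℕ) : Ω) := by simp
  rw [hcast] at h2
  rw [h1, h2, ← zpow_mul] at h
  have hpos : 0 < A.valuation ((ϖ : L) : Ω) := by
    rw [zero_lt_iff, Valuation.ne_zero_iff]
    exact fun h0 => hϖ0 (by exact_mod_cast h0)
  have hinj := (zpow_right_inj₀ hpos hϖ1.ne).mp h
  refine ⟨WithZero.log ((placeBelow L hq hA).valuation L ((q : ℕ) : L)) * k, ?_⟩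
  linarith

end Below

section Above

/-- Every nonzero prime of `𝓞 F` contains a rational prime. -/
theorem wmw_exists_prime_mem {F : Type*} [Field F] [NumberField F]
    (P : HeightOneSpectrum (𝓞 F)) : ∃ ℓ : ℕ, ℓ.Prime ∧ ((ℓ : ℕ) : 𝓞 F) ∈ P.asIdeal := by
  classical
  have hex : ∃ m : ℕ, 0 < m ∧ (m : 𝓞 F) ∈ P.asIdeal := by
    refine ⟨Ideal.absNorm P.asIdeal, Nat.pos_of_ne_zero ?_, Ideal.absNorm_mem _⟩
    rw [Ne, Ideal.absNorm_eq_zero_iff]
    exact P.ne_bot
  have hm := Nat.find_spec hex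
  set m := Nat.find hex with hmdef
  have hmin : ∀ k : ℕ, 0 < k → (k : 𝓞 F) ∈ P.asIdeal → m ≤ k :=
    fun k hk hkP => Nat.find_min' hex ⟨hk, hkP⟩
  have hprime : m.Prime := by
    rw [Nat.prime_def]
    refine ⟨?_, ?_⟩
    · by_contra h
      have h1 := hm.1
      have : m = 1 := by omega
      rw [this, Nat.cast_one] at hm
      exact P.isPrime.ne_top ((Ideal.eq_top_iff_one _).2 hm.2)
    · intro a ha
      obtain ⟨b, hb⟩ := ha
      have hab : ((a : 𝓞 F) * (b : 𝓞 F)) ∈ P.asIdeal := by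
        have := hm.2; rw [hb] at this; exact_mod_cast this
      have hpos : 0 < a * b := by rw [← hb]; exact hm.1
      have ha0 : 0 < a := Nat.pos_of_ne_zero (by rintro rfl; simp at hpos)
      have hb0 : 0 < b := Nat.pos_of_ne_zero (by rintro rfl; simp at hpos)
      rcases P.isPrime.mem_or_mem hab with h | h
      · right
        have := hmin a ha0 h
        have : a ≤ m := Nat.le_of_dvd hm.1 ⟨b, hb⟩
        omega
      · left
        have h1 := hmin b hb0 h
        have h2 : b ≤ m := Nat.le_of_dvd hm.1 ⟨a, by rw [hb, mul_comm]⟩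
        have : b = m := by omega
        rw [this] at hb
        have : m * a = m * 1 := by rw [mul_one, mul_comm]; exact hb.symm
        exact Nat.eq_of_mul_eq_mul_left hm.1 this
  exact ⟨m, hprime, hm.2⟩

variable (L : IntermediateField ℚ Ω) [FiniteDimensional ℚ L]

theorem coe_algebraMap_integers (b : 𝓞 L) :
    ((algebraMap (𝓞 L) (𝓞 Ω) b : 𝓞 Ω) : Ω) = ((b : L) : Ω) := rfl

theorem algebraMap_integers_injective : Function.Injective (algebraMap (𝓞 L) (𝓞 Ω)) := by
  intro x y h
  have h1 : ((x : L) : Ω) = ((y : L) : Ω) :=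
    congrArg (fun z : 𝓞 Ω => (z : Ω)) h
  have h2 : (x : L) = (y : L) := Subtype.ext h1
  exact NumberField.RingOfIntegers.ext h2

/-- going up along `𝓞 L → 𝓞 ℚ̄`. -/
theorem exists_prime_over (v : HeightOneSpectrum (𝓞 L)) :
    ∃ Q : Ideal (𝓞 Ω), Q.IsPrime ∧
      ∀ b : 𝓞 L, algebraMap (𝓞 L) (𝓞 Ω) b ∈ Q ↔ b ∈ v.asIdeal := by
  have hker : RingHom.ker (algebraMap (𝓞 L) (𝓞 Ω)) ≤ v.asIdeal := by
    intro x hx
    rw [RingHom.mem_ker] at hx
    have : x = 0 := algebraMap_integers_injective L (by rw [map_zero]; exact hx)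
    rw [this]
    exact v.asIdeal.zero_mem
  obtain ⟨Q, hQ, hQv⟩ := Ideal.exists_ideal_over_prime_of_isIntegral_of_isDomain v.asIdeal hker
  refine ⟨Q, hQ, fun b => ?_⟩
  rw [← hQv, Ideal.mem_comap]

/-- **every prime of `𝓞 L` lies below a valuation subring of `ℚ̄`.** -/
theorem exists_valuationSubring_above (v : HeightOneSpectrum (𝓞 L)) :
    ∃ (q : ℕ) (hq : q.Prime) (A : ValuationSubring Ω) (hA : A.LiesOverPrime q),
      placeBelow L hq.ne_zero hA = v := by
  obtain ⟨q, hq, hqv⟩ := wmw_exists_prime_mem v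
  obtain ⟨Q, hQ, hmemQ⟩ := exists_prime_over L v
  haveI := hQ
  obtain ⟨A, hA1, hA2⟩ := Fermat.Agent.CFT.S14.exists_valuationSubring_of_prime_Qbar Q
  have hone : (1 : 𝓞 Ω) ∉ Q := fun h => hQ.ne_top ((Ideal.eq_top_iff_one _).2 h)
  have hA : A.LiesOverPrime q := by
    show ((q : ℕ) : Ω) ∈ A.nonunits
    rw [hA2]
    refine ⟨algebraMap (𝓞 L) (𝓞 Ω) (q : 𝓞 L), 1, (hmemQ _).mpr hqv, hone, ?_⟩
    simp
  refine ⟨q, hq, A, hA, ?_⟩
  apply HeightOneSpectrum.ext
  rw [placeBelow_asIdeal]
  ext b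
  rw [mem_idealBelow, ← A.mem_nonunits_iff, hA2]
  constructor
  · rintro ⟨b', s, hb', hs, hbs⟩
    rw [← hmemQ]
    have h1 : algebraMap (𝓞 L) (𝓞 Ω) b * s = b' := by
      apply NumberField.RingOfIntegers.ext
      have h3 : ((algebraMap (𝓞 L) (𝓞 Ω) b * s : 𝓞 Ω) : Ω) =
          ((algebraMap (𝓞 L) (𝓞 Ω) b : 𝓞 Ω) : Ω) * (s : Ω) := map_mul (algebraMap (𝓞 Ω) Ω) _ _
      rw [h3, coe_algebraMap_integers]
      exact hbs
    have h2 : algebraMap (𝓞 L) (𝓞 Ω) b * s ∈ Q := h1 ▸ hb'
    exact (hQ.mem_or_mem h2).resolve_right hs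
  · intro hb
    refine ⟨algebraMap (𝓞 L) (𝓞 Ω) b, 1, (hmemQ b).mpr hb, hone, ?_⟩
    rw [coe_algebraMap_integers]
    simp

end Above

end Fermat.Agent.MW
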