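/-
MW (S17) — helper2 — [WMW] part 1: **finiteness of the Selmer group `K(S, n)` of a number field.**

For a number field `F`, a finite set `S` of primes of `𝓞 F` and `n > 0`, the group of `a ∈ Fˣ`
whose valuation is divisible by `n` at every prime outside `S` is the union of finitely many
cosets of the `n`-th powers (class group finite + `S`-units finitely generated).
-/
import Mathlib
import Fermat.Agent.CFT.Global.G2a_helper6_SUnits

set_option autoImplicit false
set_option linter.unusedSectionVars false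
set_option linter.style.haveILetI false

open IsDedekindDomain nonZeroDivisors FractionalIdeal WithZero
open scoped NumberField

namespace Fermat.Agent.MW

section Count

variable {R K : Type*} [CommRing R] [IsDedekindDomain R] [Field K] [Algebra R K]
  [IsFractionRing R K] (v : HeightOneSpectrum R)

theorem wmw_count_spanSingleton_algebraMap {r : R} (hr : r ≠ 0) :
    FractionalIdeal.count K v (FractionalIdeal.spanSingleton R⁰ (algebraMap R K r)) =
      -(WithZero.log (v.valuation K (algebraMap R K r))) := by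
  have h1 : FractionalIdeal.spanSingleton R⁰ (algebraMap R K r) =
      ((Ideal.span {r} : Ideal R) : FractionalIdeal R⁰ K) :=
    (FractionalIdeal.coeIdeal_span_singleton r).symm
  have h2 : (Ideal.span {r} : Ideal R) ≠ 0 := by
    rw [Ne, Submodule.zero_eq_bot, Ideal.span_singleton_eq_bot]; exact hr
  rw [h1, FractionalIdeal.count_coe K v h2, HeightOneSpectrum.valuation_of_algebraMap,
    HeightOneSpectrum.intValuation_if_neg v hr, WithZero.log_exp, neg_neg]

/-- The multiplicity of a prime in a principal fractional ideal is the valuation. -/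
theorem wmw_count_spanSingleton {a : K} (ha : a ≠ 0) :
    FractionalIdeal.count K v (FractionalIdeal.spanSingleton R⁰ a) =
      -(WithZero.log (v.valuation K a)) := by
  obtain ⟨n, d, hd, rfl⟩ := IsFractionRing.div_surjective (A := R) a
  have hd0 : d ≠ 0 := nonZeroDivisors.ne_zero hd
  have hdK : algebraMap R K d ≠ 0 := by
    rwa [Ne, map_eq_zero_iff _ (IsFractionRing.injective R K)]
  have hn0 : n ≠ 0 := by
    rintro rfl; simp at ha
  have hnK : algebraMap R K n ≠ 0 := by
    rwa [Ne, map_eq_zero_iff _ (IsFractionRing.injective R K)]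
  have h1 : FractionalIdeal.spanSingleton R⁰ (algebraMap R K n / algebraMap R K d) =
      FractionalIdeal.spanSingleton R⁰ (algebraMap R K n) *
        (FractionalIdeal.spanSingleton R⁰ (algebraMap R K d))⁻¹ := by
    rw [FractionalIdeal.spanSingleton_inv, FractionalIdeal.spanSingleton_mul_spanSingleton,
      div_eq_mul_inv]
  rw [h1, FractionalIdeal.count_mul K v
      (FractionalIdeal.spanSingleton_ne_zero_iff.2 hnK)
      (inv_ne_zero (FractionalIdeal.spanSingleton_ne_zero_iff.2 hdK)),
    FractionalIdeal.count_inv, wmw_count_spanSingleton_algebraMap v hn0,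
    wmw_count_spanSingleton_algebraMap v hd0, map_div₀,
    WithZero.log_div ((Valuation.ne_zero_iff _).2 hnK) ((Valuation.ne_zero_iff _).2 hdK)]
  ring

end Count

section Root

variable {R K : Type*} [CommRing R] [IsDedekindDomain R] [Field K] [Algebra R K]
  [IsFractionRing R K]

/-- the "integral part of the `n`-th root" of the principal ideal `(a)`:
`∏ v ^ ⌊ord_v a / n⌋`. -/
noncomputable def rootIdeal (n : ℕ) (a : K) : FractionalIdeal R⁰ K :=
  ∏ᶠ v : HeightOneSpectrum R, (v.asIdeal : FractionalIdeal R⁰ K) ^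
    (FractionalIdeal.count K v (FractionalIdeal.spanSingleton R⁰ a) / (n : ℤ))

theorem rootIdeal_ne_zero (n : ℕ) (a : K) : rootIdeal (R := R) n a ≠ 0 := by
  unfold rootIdeal
  apply finprod_induction (p := fun I : FractionalIdeal R⁰ K => I ≠ 0)
  · exact one_ne_zero
  · intro x y hx hy
    exact mul_ne_zero hx hy
  · intro v
    exact zpow_ne_zero _ (FractionalIdeal.coeIdeal_ne_zero.mpr v.ne_bot)

theorem count_rootIdeal (n : ℕ) (a : K) (v : HeightOneSpectrum R) :
    FractionalIdeal.count K v (rootIdeal (R := R) n a) =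
      FractionalIdeal.count K v (FractionalIdeal.spanSingleton R⁰ a) / (n : ℤ) := by
  unfold rootIdeal
  apply FractionalIdeal.count_finprod K v
    (fun w => FractionalIdeal.count K w (FractionalIdeal.spanSingleton R⁰ a) / (n : ℤ))
  have h := FractionalIdeal.finite_factors (R := R) (K := K) (FractionalIdeal.spanSingleton R⁰ a)
  filter_upwards [h] with w hw
  rw [hw, Int.zero_ediv]

/-- a nonzero fractional ideal is determined by its multiplicities. -/
theorem fractionalIdeal_eq_of_count_eq {I J : FractionalIdeal R⁰ K} (hI : I ≠ 0) (hJ : J ≠ 0)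
    (h : ∀ v : HeightOneSpectrum R, FractionalIdeal.count K v I = FractionalIdeal.count K v J) :
    I = J := by
  rw [← FractionalIdeal.finprod_heightOneSpectrum_factorization' (R := R) (K := K) hI,
    ← FractionalIdeal.finprod_heightOneSpectrum_factorization' (R := R) (K := K) hJ]
  exact finprod_congr fun v => by rw [h v]

/-- **key step**: if `a, a'` have valuations divisible by `n` outside `S` and their root ideals
differ by the principal ideal `(x)`, then `a' / (a xⁿ)` is an `S`-unit. -/
theorem div_mem_unit_of_rootIdeal_eq (S : Set (HeightOneSpectrum R)) (n : ℕ) (hn : 0 < n)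
    (a a' x : Kˣ)
    (ha : ∀ v : HeightOneSpectrum R, v ∉ S → (n : ℤ) ∣ WithZero.log (v.valuation K (a : K)))
    (ha' : ∀ v : HeightOneSpectrum R, v ∉ S → (n : ℤ) ∣ WithZero.log (v.valuation K (a' : K)))
    (hx : rootIdeal (R := R) n (a' : K) =
      FractionalIdeal.spanSingleton R⁰ (x : K) * rootIdeal (R := R) n (a : K)) :
    a' / (a * x ^ n) ∈ S.unit K := by
  intro v hv
  have hn0 : (n : ℤ) ≠ 0 := by exact_mod_cast hn.ne'
  have hc := congrArg (FractionalIdeal.count K v) hx
  rw [FractionalIdeal.count_mul K v (FractionalIdeal.spanSingleton_ne_zero_iff.2 x.ne_zero)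
    (rootIdeal_ne_zero n _), count_rootIdeal, count_rootIdeal,
    wmw_count_spanSingleton v a'.ne_zero, wmw_count_spanSingleton v a.ne_zero,
    wmw_count_spanSingleton v x.ne_zero] at hc
  obtain ⟨k, hk⟩ := ha v hv
  obtain ⟨k', hk'⟩ := ha' v hv
  rw [hk, hk', ← mul_neg, ← mul_neg, Int.mul_ediv_cancel_left _ hn0,
    Int.mul_ediv_cancel_left _ hn0] at hc
  have hne : ∀ y : Kˣ, v.valuation K (y : K) ≠ 0 := fun y =>
    (Valuation.ne_zero_iff _).2 y.ne_zero
  have hlog : WithZero.log (v.valuation K ((a' / (a * x ^ n) : Kˣ) : K)) = 0 := by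
    rw [Units.val_div_eq_div_val, Units.val_mul, Units.val_pow_eq_pow_val, map_div₀, map_mul,
      map_pow, WithZero.log_div (hne a') (mul_ne_zero (hne a) (pow_ne_zero n (hne x))),
      WithZero.log_mul (hne a) (pow_ne_zero n (hne x)), WithZero.log_pow, hk, hk']
    have : k' = -(-WithZero.log (v.valuation K (x : K))) + k := by linarith
    rw [this, nsmul_eq_mul]
    ring
  have hne' := hne (a' / (a * x ^ n))
  rw [← WithZero.exp_log hne', hlog, WithZero.exp_zero]

end Root

section NumberField

variable (F : Type*) [Field F] [NumberField F]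

/-- finitely many representatives of the `S`-units modulo `n`-th powers. -/
theorem exists_finset_sUnit_reps (S : Set (HeightOneSpectrum (𝓞 F))) (hS : S.Finite) (n : ℕ)
    (hn : 0 < n) :
    ∃ T : Finset Fˣ, ∀ u : Fˣ, u ∈ S.unit F → ∃ t ∈ T, ∃ w : Fˣ, u = t * w ^ n := by
  classical
  obtain ⟨hfin, -⟩ := Fermat.Agent.CFT.SUnit.sUnit_finite_and_finrank (F := F) (S := S) hS
  haveI : AddGroup.FG (Additive (S.unit F)) := Module.Finite.iff_addGroup_fg.mp hfin
  haveI : Group.FG (S.unit F) := GroupFG.iff_add_fg.mpr inferInstance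
  set P : Subgroup (S.unit F) := (powMonoidHom n : S.unit F →* S.unit F).range with hP
  haveI : Group.FG (S.unit F ⧸ P) := inferInstance
  have htors : IsMulTorsion (S.unit F ⧸ P) := by
    intro q
    induction q using QuotientGroup.induction_on with
    | H u =>
      rw [isOfFinOrder_iff_pow_eq_one]
      refine ⟨n, hn, ?_⟩
      rw [← QuotientGroup.mk_pow, QuotientGroup.eq_one_iff]
      exact ⟨u, rfl⟩
  haveI : Finite (S.unit F ⧸ P) := CommGroup.finite_of_fg_isMulTorsion _ htors
  haveI : Fintype (S.unit F ⧸ P) := Fintype.ofFinite _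
  refine ⟨Finset.univ.image fun q : S.unit F ⧸ P => ((Quotient.out q : S.unit F) : Fˣ),
    fun u hu => ?_⟩
  set q : S.unit F ⧸ P := QuotientGroup.mk ⟨u, hu⟩ with hq
  refine ⟨((Quotient.out q : S.unit F) : Fˣ), Finset.mem_image.mpr ⟨q, Finset.mem_univ _, rfl⟩, ?_⟩
  have h1 : (QuotientGroup.mk (Quotient.out q) : S.unit F ⧸ P) = QuotientGroup.mk ⟨u, hu⟩ :=
    Quotient.out_eq q
  rw [QuotientGroup.eq] at h1
  obtain ⟨w, hw⟩ := h1
  refine ⟨(w : Fˣ), ?_⟩
  have h2 : (⟨u, hu⟩ : S.unit F) = Quotient.out q * w ^ n := by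
    rw [show w ^ n = (powMonoidHom n : S.unit F →* S.unit F) w from rfl, hw]
    group
  exact congrArg Subtype.val h2

/-- **finiteness of the Selmer group `F(S, n)`**: finitely many representatives modulo `n`-th
powers of the elements of `Fˣ` whose valuations are divisible by `n` outside the finite set `S`. -/
theorem exists_finset_selmer_reps (S : Set (HeightOneSpectrum (𝓞 F))) (hS : S.Finite) (n : ℕ)
    (hn : 0 < n) :
    ∃ T : Finset Fˣ, ∀ a : Fˣ,
      (∀ v : HeightOneSpectrum (𝓞 F), v ∉ S →
        (n : ℤ) ∣ WithZero.log (v.valuation F (a : F))) →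
      ∃ t ∈ T, ∃ b : Fˣ, a = t * b ^ n := by
  classical
  obtain ⟨T₀, hT₀⟩ := exists_finset_sUnit_reps F S hS n hn
  -- the class of the root ideal
  let cls : Fˣ → ClassGroup (𝓞 F) := fun a =>
    ClassGroup.mk F (Units.mk0 (rootIdeal (R := 𝓞 F) n (a : F)) (rootIdeal_ne_zero n _))
  let Good : Fˣ → Prop := fun a => ∀ v : HeightOneSpectrum (𝓞 F), v ∉ S →
    (n : ℤ) ∣ WithZero.log (v.valuation F (a : F))
  -- a representative in each class
  let rep : ClassGroup (𝓞 F) → Fˣ := fun c =>
    if h : ∃ a : Fˣ, Good a ∧ cls a = c then h.choose else 1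
  refine ⟨(Finset.univ ×ˢ T₀).image fun p : ClassGroup (𝓞 F) × Fˣ => rep p.1 * p.2,
    fun a' ha' => ?_⟩
  have hex : ∃ a : Fˣ, Good a ∧ cls a = cls a' := ⟨a', ha', rfl⟩
  set a : Fˣ := rep (cls a') with ha_def
  have hrep : Good a ∧ cls a = cls a' := by
    have : a = hex.choose := by
      rw [ha_def]
      show (if h : ∃ a : Fˣ, Good a ∧ cls a = cls a' then h.choose else 1) = _
      rw [dif_pos hex]
    rw [this]
    exact hex.choose_spec
  obtain ⟨hag, hcls⟩ := hrep
  -- the two root ideals differ by a principal ideal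
  set I : (FractionalIdeal (𝓞 F)⁰ F)ˣ :=
    Units.mk0 (rootIdeal (R := 𝓞 F) n (a : F)) (rootIdeal_ne_zero n _) with hI
  set I' : (FractionalIdeal (𝓞 F)⁰ F)ˣ :=
    Units.mk0 (rootIdeal (R := 𝓞 F) n (a' : F)) (rootIdeal_ne_zero n _) with hI'
  have h1 : ClassGroup.mk F (I' * I⁻¹) = 1 := by
    rw [map_mul, map_inv]
    show cls a' * (cls a)⁻¹ = 1
    rw [hcls, mul_inv_cancel]
  rw [ClassGroup.mk_eq_one_iff, FractionalIdeal.isPrincipal_iff] at h1
  obtain ⟨x, hx⟩ := h1
  have hx0 : x ≠ 0 := by
    rintro rfl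
    rw [FractionalIdeal.spanSingleton_zero] at hx
    exact (I' * I⁻¹).ne_zero hx
  have hx' : rootIdeal (R := 𝓞 F) n (a' : F) =
      FractionalIdeal.spanSingleton (𝓞 F)⁰ x * rootIdeal (R := 𝓞 F) n (a : F) := by
    have h2 : (I' : FractionalIdeal (𝓞 F)⁰ F) = ((I' * I⁻¹ : (FractionalIdeal (𝓞 F)⁰ F)ˣ) :
        FractionalIdeal (𝓞 F)⁰ F) * (I : FractionalIdeal (𝓞 F)⁰ F) := by
      rw [← Units.val_mul, inv_mul_cancel_right]
    rw [hx] at h2
    exact h2
  have hu := div_mem_unit_of_rootIdeal_eq (R := 𝓞 F) (K := F) S n hn a a' (Units.mk0 x hx0)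
    hag ha' hx'
  obtain ⟨t, ht, w, hw⟩ := hT₀ _ hu
  refine ⟨a * t, Finset.mem_image.mpr ⟨(cls a', t), Finset.mem_product.mpr
    ⟨Finset.mem_univ _, ht⟩, rfl⟩, Units.mk0 x hx0 * w, ?_⟩
  rw [mul_pow]
  have : a' = a * Units.mk0 x hx0 ^ n * (a' / (a * Units.mk0 x hx0 ^ n)) := by
    rw [mul_div_cancel]
  rw [this, hw]
  simp only [mul_comm, mul_left_comm, mul_assoc]

end NumberField

end Fermat.Agent.MW
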