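/-
MW / [WMW-KUM] (helper4), part 2: Hilbert 90 for characters inside an infinite Galois extension,
by Dedekind's independence of embeddings (no finite-level Galois correspondence needed), and the
Kummer consequence `α ^ m ∈ L`. Mathlib only.
-/
import Mathlib

set_option autoImplicit false
set_option linter.style.haveILetI false

open IntermediateField

namespace Fermat.Agent.MW

section Hilbert90

variable {k Ω : Type*} [Field k] [Field Ω] [Algebra k Ω]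

/-- **Hilbert 90 for characters** of a subgroup `H` of `Gal(Ω/k)` with `H`-invariant values,
trivial on `H ∩ Gal(Ω/K)` for a finite `K`: there is a Lagrange resolvent `α ≠ 0` with
`σ α = χ σ * α` for all `σ ∈ H`. -/
theorem exists_ne_zero_map_eq_mul (H : Subgroup (Ω ≃ₐ[k] Ω)) (K : IntermediateField k Ω)
    [FiniteDimensional k K] (χ : (Ω ≃ₐ[k] Ω) → Ω)
    (hχmul : ∀ σ ∈ H, ∀ τ ∈ H, χ (σ * τ) = χ σ * χ τ)
    (hχL : ∀ σ ∈ H, ∀ τ ∈ H, σ (χ τ) = χ τ)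
    (hχ0 : ∀ σ ∈ H, χ σ ≠ 0)
    (hχK : ∀ σ ∈ H, σ ∈ K.fixingSubgroup → χ σ = 1) :
    ∃ α : Ω, α ≠ 0 ∧ ∀ σ ∈ H, σ α = χ σ * α := by
  classical
  haveI : Fintype (K →ₐ[k] Ω) := Fintype.ofFinite _
  -- restriction to `K`
  let res : (Ω ≃ₐ[k] Ω) → (K →ₐ[k] Ω) := fun τ => (τ : Ω →ₐ[k] Ω).comp K.val
  have hres : ∀ (τ : Ω ≃ₐ[k] Ω) (x : K), res τ x = τ (x : Ω) := fun τ x => rfl
  have hχ1 : χ 1 = 1 := by
    have h1 := hχmul 1 (one_mem H) 1 (one_mem H)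
    rw [mul_one] at h1
    have h0 := hχ0 1 (one_mem H)
    exact mul_left_cancel₀ h0 (by rw [mul_one]; exact h1.symm)
  have hχinv : ∀ σ ∈ H, χ σ⁻¹ = (χ σ)⁻¹ := by
    intro σ hσ
    have h1 := hχmul σ hσ σ⁻¹ (inv_mem hσ)
    rw [mul_inv_cancel, hχ1] at h1
    exact eq_inv_of_mul_eq_one_right h1.symm
  -- `χ` only depends on the restriction to `K`
  have hχres : ∀ σ ∈ H, ∀ τ ∈ H, res σ = res τ → χ σ = χ τ := by
    intro σ hσ τ hτ hστ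
    have hmem : σ⁻¹ * τ ∈ K.fixingSubgroup := by
      rw [IntermediateField.mem_fixingSubgroup_iff]
      intro x hx
      have h1 : σ x = τ x := by
        have := DFunLike.congr_fun hστ ⟨x, hx⟩
        simpa [hres] using this
      show σ⁻¹ (τ x) = x
      rw [← h1]
      exact σ.symm_apply_apply x
    have h2 := hχK (σ⁻¹ * τ) (mul_mem (inv_mem hσ) hτ) hmem
    have h3 := hχmul σ hσ (σ⁻¹ * τ) (mul_mem (inv_mem hσ) hτ)
    rw [mul_inv_cancel_left, h2, mul_one] at h3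
    exact h3.symm
  -- the coefficients
  let c : (K →ₐ[k] Ω) → Ω := fun e =>
    if h : ∃ τ ∈ H, res τ = e then (χ h.choose)⁻¹ else 0
  have hc : ∀ τ ∈ H, c (res τ) = (χ τ)⁻¹ := by
    intro τ hτ
    have h : ∃ τ' ∈ H, res τ' = res τ := ⟨τ, hτ, rfl⟩
    show (if h : ∃ τ' ∈ H, res τ' = res τ then (χ h.choose)⁻¹ else 0) = _
    rw [dif_pos h]
    rw [hχres _ h.choose_spec.1 τ hτ h.choose_spec.2]
  have hc0 : ∀ e : K →ₐ[k] Ω, (¬ ∃ τ ∈ H, res τ = e) → c e = 0 := by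
    intro e he
    show (if h : ∃ τ' ∈ H, res τ' = e then (χ h.choose)⁻¹ else 0) = _
    rw [dif_neg he]
  -- composition with `σ`
  let comp : (Ω ≃ₐ[k] Ω) → (K →ₐ[k] Ω) → (K →ₐ[k] Ω) := fun σ e => (σ : Ω →ₐ[k] Ω).comp e
  have hcomp : ∀ (σ : Ω ≃ₐ[k] Ω) (e : K →ₐ[k] Ω) (x : K), comp σ e x = σ (e x) := fun _ _ _ => rfl
  have hcomp_res : ∀ σ τ : Ω ≃ₐ[k] Ω, comp σ (res τ) = res (σ * τ) := by
    intro σ τ
    ext x
    rfl
  have hcomp_inv : ∀ (σ : Ω ≃ₐ[k] Ω) (e : K →ₐ[k] Ω), comp σ⁻¹ (comp σ e) = e := by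
    intro σ e
    ext x
    show σ⁻¹ (σ (e x)) = e x
    exact σ.symm_apply_apply _
  have hcomp_inv' : ∀ (σ : Ω ≃ₐ[k] Ω) (e : K →ₐ[k] Ω), comp σ (comp σ⁻¹ e) = e := by
    intro σ e
    ext x
    show σ (σ⁻¹ (e x)) = e x
    exact σ.apply_symm_apply _
  -- the key transformation rule of the coefficients
  have hcσ : ∀ σ ∈ H, ∀ e : K →ₐ[k] Ω, c (comp σ⁻¹ e) = χ σ * c e := by
    intro σ hσ e
    by_cases he : ∃ τ ∈ H, res τ = e
    · obtain ⟨τ, hτ, rfl⟩ := he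
      rw [hcomp_res, hc _ (mul_mem (inv_mem hσ) hτ), hc τ hτ, hχmul _ (inv_mem hσ) _ hτ,
        hχinv σ hσ, mul_inv, inv_inv]
    · have he' : ¬ ∃ τ ∈ H, res τ = comp σ⁻¹ e := by
        rintro ⟨τ, hτ, hτe⟩
        apply he
        refine ⟨σ * τ, mul_mem hσ hτ, ?_⟩
        rw [← hcomp_res, hτe, hcomp_inv']
      rw [hc0 _ he, hc0 _ he', mul_zero]
  -- nonvanishing by Dedekind
  have hli := linearIndependent_toLinearMap k K Ω
  rw [Fintype.linearIndependent_iff] at hli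
  have hne : (∑ e : K →ₐ[k] Ω, c e • (e.toLinearMap : K →ₗ[k] Ω)) ≠ 0 := by
    intro h0
    have h1 := hli c h0 (res 1)
    rw [hc 1 (one_mem H), hχ1, inv_one] at h1
    exact one_ne_zero h1
  obtain ⟨θ, hθ⟩ : ∃ θ : K, (∑ e : K →ₐ[k] Ω, c e • (e.toLinearMap : K →ₗ[k] Ω)) θ ≠ 0 := by
    by_contra hcon
    exact hne (LinearMap.ext fun θ => not_not.mp (not_exists.mp hcon θ))
  have hsum : (∑ e : K →ₐ[k] Ω, c e • (e.toLinearMap : K →ₗ[k] Ω)) θ =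
      ∑ e : K →ₐ[k] Ω, c e * e θ := by
    rw [LinearMap.sum_apply]
    rfl
  rw [hsum] at hθ
  refine ⟨∑ e : K →ₐ[k] Ω, c e * e θ, hθ, ?_⟩
  intro σ hσ
  -- `σ` fixes the coefficients
  have hcfix : ∀ e : K →ₐ[k] Ω, σ (c e) = c e := by
    intro e
    by_cases he : ∃ τ ∈ H, res τ = e
    · obtain ⟨τ, hτ, rfl⟩ := he
      rw [hc τ hτ, map_inv₀]
      congr 1
      exact hχL σ hσ τ hτ
    · rw [hc0 _ he, map_zero]
  rw [map_sum, Finset.mul_sum]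
  -- reindex by `e ↦ σ ∘ e`
  let E : (K →ₐ[k] Ω) ≃ (K →ₐ[k] Ω) :=
    { toFun := comp σ
      invFun := comp σ⁻¹
      left_inv := hcomp_inv σ
      right_inv := hcomp_inv' σ }
  rw [← Equiv.sum_comp E (fun e => χ σ * (c e * e θ))]
  refine Finset.sum_congr rfl fun e _ => ?_
  show σ (c e * e θ) = χ σ * (c (comp σ e) * comp σ e θ)
  rw [map_mul, hcfix, hcomp]
  have h1 := hcσ σ hσ (comp σ e)
  rw [hcomp_inv] at h1
  rw [h1]
  ring

/-- **Kummer**: if moreover `χ ^ m = 1` then `α ^ m` lies in the fixed field of `H`. -/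
theorem exists_ne_zero_map_eq_mul_pow_mem (H : Subgroup (Ω ≃ₐ[k] Ω)) (K : IntermediateField k Ω)
    [FiniteDimensional k K] (m : ℕ) (χ : (Ω ≃ₐ[k] Ω) → Ω)
    (hχmul : ∀ σ ∈ H, ∀ τ ∈ H, χ (σ * τ) = χ σ * χ τ)
    (hχL : ∀ σ ∈ H, ∀ τ ∈ H, σ (χ τ) = χ τ)
    (hχm : ∀ σ ∈ H, χ σ ^ m = 1) (hm : m ≠ 0)
    (hχK : ∀ σ ∈ H, σ ∈ K.fixingSubgroup → χ σ = 1) :
    ∃ α : Ω, α ≠ 0 ∧ α ^ m ∈ IntermediateField.fixedField H ∧ ∀ σ ∈ H, σ α = χ σ * α := by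
  have hχ0 : ∀ σ ∈ H, χ σ ≠ 0 := by
    intro σ hσ h0
    have := hχm σ hσ
    rw [h0, zero_pow hm] at this
    exact zero_ne_one this
  obtain ⟨α, hα0, hα⟩ := exists_ne_zero_map_eq_mul H K χ hχmul hχL hχ0 hχK
  refine ⟨α, hα0, ?_, hα⟩
  rw [IntermediateField.mem_fixedField_iff]
  intro σ hσ
  rw [map_pow, hα σ hσ, mul_pow, hχm σ hσ, one_mul]

end Hilbert90

end Fermat.Agent.MW
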