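/-
MW / [WMW-KUM] (helper4), part 3: **one finite extension of `ℚ` over which all `m`-division points
of the rational points are defined** — abstractly, for a `G_ℚ`-module `J` with finite `m`-torsion,
open stabilisers, and "good reduction outside `N₀`" in the weak form
`σ ∈ I_A, m • (σ • y - y) = 0 ⇒ σ • y = y` (reduction is injective on `m`-torsion).
Proof: Kummer theory over `L = ℚ(J[m], ζ_m)` (`WMW_helper4_Kummer`), finiteness of `L(S, m)`
(helper2's `exists_finset_selmer_reps`) and the value group of the inertia field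
(`EC.exists_zpow_valuation_eq_of_fixed` through helper2's `WMW_helper2_Place`).
-/
import Mathlib
import Fermat.Agent.MW.WMW_helper4_Kummer
import Fermat.Agent.MW.WMW_helper2_Selmer
import Fermat.Agent.MW.WMW_helper2_Place
import Fermat.Agent.CFT.Arith.ES_helper7

set_option autoImplicit false
set_option linter.style.haveILetI false
set_option linter.unusedSectionVars false

open IntermediateField IsDedekindDomain
open scoped NumberField

namespace Fermat.Agent.MW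

local notation "Ω" => AlgebraicClosure ℚ
local notation "GQ" => (AlgebraicClosure ℚ ≃ₐ[ℚ] AlgebraicClosure ℚ)

theorem finiteIndex_fixingSubgroup_of_finiteDimensional (F : IntermediateField ℚ Ω)
    [FiniteDimensional ℚ F] : (F.fixingSubgroup).FiniteIndex := by
  refine ⟨?_⟩
  rw [← IntermediateField.finrank_eq_fixingSubgroup_index]
  exact Module.finrank_pos.ne'

/-- inertia at `ℓ` fixes the `m`-th roots of unity, `m ≠ ℓ` primes. -/
theorem inertia_fixes_root_of_unity {m ℓ : ℕ} (hm : m.Prime) (hℓ : ℓ.Prime) (hmℓ : m ≠ ℓ)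
    {A : ValuationSubring Ω} (hA : A.LiesOverPrime ℓ) {σ : GQ}
    (hσ : σ ∈ A.inertiaSubgroupIn ℚ) {ζ : Ω} (hζ : ζ ^ m = 1) : σ ζ = ζ := by
  have hζ0 : ζ ≠ 0 := by
    rintro rfl
    rw [zero_pow hm.ne_zero] at hζ
    exact zero_ne_one hζ
  have hζA : ζ ∈ A :=
    Fermat.Agent.CFT.Arith.mem_of_pow_mem hm.ne_zero (by rw [hζ]; exact A.one_mem)
  have hζA' : ζ⁻¹ ∈ A :=
    Fermat.Agent.CFT.Arith.mem_of_pow_mem hm.ne_zero (by rw [inv_pow, hζ, inv_one]; exact A.one_mem)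
  obtain ⟨-, h2⟩ := Fermat.Agent.Tate.inertia_map_mem_and_sub_mem hσ hζA
  have hη : (σ ζ * ζ⁻¹) ^ m = 1 := by
    rw [mul_pow, ← map_pow, hζ, map_one, inv_pow, hζ, inv_one, mul_one]
  have hη1 : σ ζ * ζ⁻¹ - 1 ∈ A.nonunits := by
    have e : σ ζ * ζ⁻¹ - 1 = (σ ζ - ζ) * ζ⁻¹ := by
      rw [sub_mul, mul_inv_cancel₀ hζ0]
    rw [e, ValuationSubring.mem_nonunits_iff, map_mul]
    have h3 : A.valuation (σ ζ - ζ) < 1 := (ValuationSubring.mem_nonunits_iff A).mp h2
    have h4 : A.valuation ζ⁻¹ ≤ 1 := (A.valuation_le_one_iff _).mpr hζA'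
    calc A.valuation (σ ζ - ζ) * A.valuation ζ⁻¹ ≤ A.valuation (σ ζ - ζ) * 1 :=
          mul_le_mul_right h4 _
      _ < 1 := by rw [mul_one]; exact h3
  have h5 := Fermat.Agent.CFT.Arith.eq_one_of_pow_eq_one_of_sub_one_mem_nonunits hm hℓ hmℓ hA hη hη1
  have h6 : σ ζ = σ ζ * ζ⁻¹ * ζ := by rw [inv_mul_cancel_right₀ hζ0]
  rw [h6, h5, one_mul]

/-- **All `m`-division points of the invariants are defined over one finite extension.** -/
theorem exists_finiteIndex_fixing_of_unramified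
    {J : Type*} [AddCommGroup J] [DistribMulAction GQ J] (m : ℕ) (hm : m.Prime)
    (N₀ : ℕ) (hN₀ : N₀ ≠ 0) (hmN : m ∣ N₀)
    (hfinT : {t : J | m • t = 0}.Finite)
    (hfix : ∀ x : J, ∃ K : IntermediateField ℚ Ω, FiniteDimensional ℚ K ∧
      ∀ σ : GQ, (∀ a ∈ K, σ a = a) → σ • x = x)
    (hunr : ∀ ℓ : ℕ, ℓ.Prime → ¬ ℓ ∣ N₀ → ∀ A : ValuationSubring Ω, A.LiesOverPrime ℓ →
      ∀ σ ∈ A.inertiaSubgroupIn ℚ, ∀ y : J, m • (σ • y - y) = 0 → σ • y = y) :
    ∃ H' : Subgroup GQ, H'.FiniteIndex ∧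
      ∀ y : J, (∀ σ : GQ, σ • (m • y) = m • y) → ∀ σ ∈ H', σ • y = y := by
  classical
  haveI : NeZero m := ⟨hm.ne_zero⟩
  obtain ⟨ζ, hζ⟩ : ∃ ζ : Ω, IsPrimitiveRoot ζ m := HasEnoughRootsOfUnity.prim
  -- the `m`-torsion subgroup
  let T : AddSubgroup J :=
    { carrier := {t | m • t = 0}
      zero_mem' := smul_zero m
      add_mem' := by
        intro a b ha hb
        show m • (a + b) = 0
        rw [smul_add, ha, hb, add_zero]
      neg_mem' := by
        intro a ha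
        show m • (-a) = 0
        rw [smul_neg, ha, neg_zero] }
  haveI : Finite T := hfinT.to_subtype
  choose Kf hKfin hKfix using hfix
  haveI : ∀ x, FiniteDimensional ℚ (Kf x) := hKfin
  haveI : FiniteDimensional ℚ ℚ⟮ζ⟯ :=
    adjoin.finiteDimensional (Algebra.IsIntegral.isIntegral ζ)
  haveI : FiniteDimensional ℚ (↥(⨆ t : T, Kf t.1)) := finiteDimensional_iSup_of_finite
  let K₀ : IntermediateField ℚ Ω := (⨆ t : T, Kf t.1) ⊔ ℚ⟮ζ⟯
  haveI : FiniteDimensional ℚ K₀ := finiteDimensional_sup _ _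
  -- the stabiliser of `J[m]` and `ζ`
  let H : Subgroup GQ :=
    { carrier := {σ | σ ζ = ζ ∧ ∀ t : J, m • t = 0 → σ • t = t}
      one_mem' := ⟨rfl, fun t _ => one_smul _ t⟩
      mul_mem' := by
        rintro σ τ ⟨h1, h2⟩ ⟨h3, h4⟩
        refine ⟨?_, fun t ht => ?_⟩
        · show σ (τ ζ) = ζ
          rw [h3, h1]
        · rw [mul_smul, h4 t ht, h2 t ht]
      inv_mem' := by
        rintro σ ⟨h1, h2⟩
        refine ⟨?_, fun t ht => ?_⟩
        · show σ⁻¹ ζ = ζ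
          conv_lhs => rw [← h1]
          exact σ.symm_apply_apply ζ
        · rw [inv_smul_eq_iff, h2 t ht] }
  have hmemH : ∀ σ : GQ, σ ∈ H ↔ (σ ζ = ζ ∧ ∀ t : J, m • t = 0 → σ • t = t) := fun _ => Iff.rfl
  have hK₀H : K₀.fixingSubgroup ≤ H := by
    intro σ hσ
    rw [IntermediateField.mem_fixingSubgroup_iff] at hσ
    refine ⟨hσ ζ ((le_sup_right : ℚ⟮ζ⟯ ≤ K₀) (mem_adjoin_simple_self ℚ ζ)), fun t ht => ?_⟩
    refine hKfix t σ fun a ha => hσ a ?_
    exact (le_sup_left : (⨆ t : T, Kf t.1) ≤ K₀) ((le_iSup (fun t : T => Kf t.1) ⟨t, ht⟩) ha)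
  let L : IntermediateField ℚ Ω := fixedField H
  have hLK₀ : L ≤ K₀ := by
    intro x hx
    rw [← InfiniteGalois.fixedField_fixingSubgroup K₀, IntermediateField.mem_fixedField_iff]
    intro σ hσ
    exact (IntermediateField.mem_fixedField_iff H x).mp hx σ (hK₀H hσ)
  haveI : FiniteDimensional ℚ L :=
    FiniteDimensional.of_injective (IntermediateField.inclusion hLK₀).toLinearMap
      (IntermediateField.inclusion_injective hLK₀)
  -- roots of unity are fixed by `H`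
  have hζL : ∀ w : Ω, w ^ m = 1 → ∀ σ ∈ H, σ w = w := by
    intro w hw σ hσ
    obtain ⟨i, -, rfl⟩ := hζ.eq_pow_of_pow_eq_one hw
    rw [map_pow, hσ.1]
  -- the bad primes of `L`
  let S : Set (HeightOneSpectrum (𝓞 L)) :=
    {v | ∃ ℓ : ℕ, ℓ.Prime ∧ ℓ ∣ N₀ ∧ (ℓ : 𝓞 L) ∈ v.asIdeal}
  have hS : S.Finite := by
    have hN₀L : (Ideal.span {(N₀ : 𝓞 L)} : Ideal (𝓞 L)) ≠ 0 := by
      rw [Ne, Submodule.zero_eq_bot, Ideal.span_singleton_eq_bot]
      exact_mod_cast hN₀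
    refine (Ideal.finite_factors hN₀L).subset ?_
    rintro v ⟨ℓ, -, ⟨c, rfl⟩, hℓv⟩
    show v.asIdeal ∣ Ideal.span {((ℓ * c : ℕ) : 𝓞 L)}
    rw [Ideal.dvd_iff_le, Ideal.span_singleton_le_iff_mem]
    push_cast
    exact v.asIdeal.mul_mem_right _ hℓv
  obtain ⟨R, hR⟩ := exists_finset_selmer_reps L S hS m hm.pos
  -- the `m`-th roots of the representatives
  let B : Set Ω := {β | ∃ r ∈ R, β ^ m = (((r : Lˣ) : L) : Ω)}
  have hB : B.Finite := by
    have : B ⊆ ⋃ r ∈ R, {β : Ω | β ^ m = (((r : Lˣ) : L) : Ω)} := by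
      rintro β ⟨r, hr, hβ⟩
      exact Set.mem_biUnion hr hβ
    refine (Set.Finite.biUnion R.finite_toSet fun r _ => ?_).subset this
    refine ((Polynomial.nthRoots m ((((r : Lˣ) : L) : Ω))).toFinset.finite_toSet).subset ?_
    intro β hβ
    simp only [Finset.mem_coe, Multiset.mem_toFinset]
    exact (Polynomial.mem_nthRoots hm.pos).mpr hβ
  haveI : Finite B := hB.to_subtype
  haveI : FiniteDimensional ℚ (adjoin ℚ B) :=
    finiteDimensional_adjoin fun x _ => Algebra.IsIntegral.isIntegral x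
  let L' : IntermediateField ℚ Ω := K₀ ⊔ adjoin ℚ B
  haveI : FiniteDimensional ℚ L' := finiteDimensional_sup _ _
  refine ⟨L'.fixingSubgroup, finiteIndex_fixingSubgroup_of_finiteDimensional L', ?_⟩
  intro y hy σ hσ
  by_contra hne
  have hσH : σ ∈ H := hK₀H (IntermediateField.fixingSubgroup_antitone (le_sup_left : K₀ ≤ L') hσ)
  -- the cocycle `τ ↦ τ y - y`
  have hδ : ∀ τ : GQ, m • (τ • y - y) = 0 := fun τ => by
    rw [smul_sub, smul_comm, hy τ, sub_self]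
  let δ : GQ → T := fun τ => ⟨τ • y - y, hδ τ⟩
  have hδmul : ∀ τ ∈ H, ∀ τ' : GQ, δ (τ * τ') = δ τ + δ τ' := by
    intro τ hτ τ'
    apply Subtype.ext
    show (τ * τ') • y - y = (τ • y - y) + (τ' • y - y)
    have h1 : τ • (τ' • y - y) = τ' • y - y := hτ.2 _ (hδ τ')
    rw [mul_smul]
    have h2 : τ • τ' • y - y = τ • (τ' • y - y) + (τ • y - y) := by rw [smul_sub]; abel
    rw [h2, h1]; abel
  have hδ0 : δ σ ≠ 0 := fun h => hne (sub_eq_zero.mp (congrArg Subtype.val h))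
  have hδzero : ∀ τ : GQ, τ • y = y → δ τ = 0 := by
    intro τ h
    apply Subtype.ext
    show τ • y - y = 0
    rw [h, sub_self]
  -- a character of `J[m]` detecting `δ σ`
  haveI : NeZero (Monoid.exponent (Multiplicative T)) := ⟨Monoid.exponent_ne_zero_of_finite⟩
  obtain ⟨ψ, hψ⟩ := CommGroup.exists_apply_ne_one_of_hasEnoughRootsOfUnity (Multiplicative T) Ω
    (a := Multiplicative.ofAdd (δ σ)) (by
      intro h
      exact hδ0 (by simpa using h))
  let χ : GQ → Ω := fun τ => ((ψ (Multiplicative.ofAdd (δ τ)) : Ωˣ) : Ω)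
  have hχmul : ∀ τ ∈ H, ∀ τ' ∈ H, χ (τ * τ') = χ τ * χ τ' := by
    intro τ hτ τ' _
    show ((ψ (Multiplicative.ofAdd (δ (τ * τ'))) : Ωˣ) : Ω) = _
    rw [hδmul τ hτ τ', ofAdd_add, map_mul, Units.val_mul]
  have hχm : ∀ τ : GQ, χ τ ^ m = 1 := by
    intro τ
    show ((ψ (Multiplicative.ofAdd (δ τ)) : Ωˣ) : Ω) ^ m = 1
    rw [← Units.val_pow_eq_pow_val, ← map_pow, ← ofAdd_nsmul]
    have h1 : m • δ τ = 0 := Subtype.ext (hδ τ)
    rw [h1, ofAdd_zero, map_one, Units.val_one]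
  have hχone : ∀ τ : GQ, τ • y = y → χ τ = 1 := by
    intro τ h
    show ((ψ (Multiplicative.ofAdd (δ τ)) : Ωˣ) : Ω) = 1
    rw [hδzero τ h, ofAdd_zero, map_one, Units.val_one]
  have hχL : ∀ τ ∈ H, ∀ τ' ∈ H, τ (χ τ') = χ τ' := fun τ hτ τ' _ => hζL _ (hχm τ') τ hτ
  have hχK : ∀ τ ∈ H, τ ∈ (Kf y).fixingSubgroup → χ τ = 1 := by
    intro τ _ hτK
    exact hχone τ (hKfix y τ ((IntermediateField.mem_fixingSubgroup_iff _ _).mp hτK))
  obtain ⟨α, hα0, hαL, hα⟩ := exists_ne_zero_map_eq_mul_pow_mem H (Kf y) m χ hχmul hχL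
    (fun τ _ => hχm τ) hm.ne_zero hχK
  -- `a = α ^ m ∈ Lˣ`
  have ha0 : (⟨α ^ m, hαL⟩ : L) ≠ 0 := fun h => pow_ne_zero m hα0 (congrArg Subtype.val h)
  let a : Lˣ := Units.mk0 ⟨α ^ m, hαL⟩ ha0
  have hacoe : ((((a : Lˣ) : L)) : Ω) = α ^ m := rfl
  -- `a` is unramified outside `S`
  have hval : ∀ v : HeightOneSpectrum (𝓞 L), v ∉ S →
      (m : ℤ) ∣ WithZero.log (v.valuation L ((a : Lˣ) : L)) := by
    intro v hv
    obtain ⟨q, hq, A, hA, rfl⟩ := exists_valuationSubring_above L v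
    have hqN : ¬ q ∣ N₀ := by
      intro hdvd
      apply hv
      refine ⟨q, hq, hdvd, ?_⟩
      rw [placeBelow_asIdeal]
      exact natCast_mem_idealBelow L hA
    have hqm : m ≠ q := by
      rintro rfl
      exact hqN hmN
    have hI : ∀ τ ∈ A.inertiaSubgroupIn ℚ, τ α = α := by
      intro τ hτ
      have hτH : τ ∈ H := by
        refine ⟨inertia_fixes_root_of_unity hm hq hqm hA hτ hζ.pow_eq_one, fun t ht => ?_⟩
        refine hunr q hq hqN A hA τ hτ t ?_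
        rw [smul_sub, smul_comm, ht, smul_zero, sub_self]
      have hτy : τ • y = y := hunr q hq hqN A hA τ hτ y (hδ τ)
      rw [hα τ hτH, hχone τ hτy, one_mul]
    obtain ⟨k, hk⟩ := Fermat.Agent.EC.exists_zpow_valuation_eq_of_fixed hq hA α hα0 hI
    refine dvd_log_valuation_of_valuation_eq L hq.ne_zero hA m (a := ((a : Lˣ) : L))
      a.ne_zero k ?_
    rw [hacoe, map_pow, hk, ← zpow_natCast, ← zpow_mul, mul_comm]
  obtain ⟨r, hr, b, hab⟩ := hR a hval
  -- `β = α / b` is an `m`-th root of `r`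
  have hb0 : ((((b : Lˣ) : L)) : Ω) ≠ 0 := by
    intro h
    exact b.ne_zero (by exact_mod_cast h)
  have hab' : α ^ m = (((r : Lˣ) : L) : Ω) * ((((b : Lˣ) : L)) : Ω) ^ m := by
    have h2 := congrArg (fun u : Lˣ => (((u : L)) : Ω)) hab
    simp only [Units.val_mul, Units.val_pow_eq_pow_val] at h2
    rw [← hacoe, h2]
    push_cast
    rfl
  have hβm : (α / ((((b : Lˣ) : L)) : Ω)) ^ m = (((r : Lˣ) : L) : Ω) := by
    rw [div_pow, hab', mul_div_assoc, div_self (pow_ne_zero m hb0), mul_one]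
  have hβL' : α / ((((b : Lˣ) : L)) : Ω) ∈ L' :=
    (le_sup_right : adjoin ℚ B ≤ L') (subset_adjoin ℚ B ⟨r, hr, hβm⟩)
  have hbL' : ((((b : Lˣ) : L)) : Ω) ∈ L' := (le_sup_left : K₀ ≤ L') (hLK₀ ((b : Lˣ) : L).2)
  have hσ' := (IntermediateField.mem_fixingSubgroup_iff _ _).mp hσ
  have hσα : σ α = α := by
    have e : α = α / ((((b : Lˣ) : L)) : Ω) * ((((b : Lˣ) : L)) : Ω) := by
      rw [div_mul_cancel₀ _ hb0]
    rw [e, map_mul, hσ' _ hβL', hσ' _ hbL']
  have h2 := hα σ hσH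
  rw [hσα] at h2
  have h3 : χ σ = 1 := by
    have h4 : (1 : Ω) * α = χ σ * α := by rw [one_mul]; exact h2
    exact (mul_right_cancel₀ hα0 h4).symm
  exact hψ (Units.ext h3)

end Fermat.Agent.MW
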